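/-
S17 sprint, design A v2 (ONE theta divisor), leaf **PlM-CUBE**, TWIN of S17/PlMCube.lean (helper13): the telescoped cube
`S17mvTele` (S17/Mult2.lean) ON THE S27-B STAGE, for EVERY `n > 0`, UNCONDITIONALLY — the same
instance which S27's final chain (FinalProof → FinalTop2 → ModelCube) feeds into CRUX.

Stage (S27/ModelTop.lean, S27/FinalTop.lean): `g = genusFF K F`, `L = s27mtL K F`,
`pkg = s27ftPkg hx G₀ hG₀`, a family `q` (`S27pfFam pkg q`), `ψ k = s27pfPsi pkg halg hq k`,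
`β = s27beta (G₀ + Ao)` (local equation of the theta divisor), `B k = s27indB ψ β k`.

* `s17pmd_C_pos`     : `0 < s27indbC e n` when all `e k > 0` on the range;
* `s17pmd_psi_ne`    : the constant `Ψ_n` of the telescoped cube is `≠ 0`;
* `s17pmd_tele_of`   : (LE-TOP) + (CP-TOP) + `ℓ(G₀ + Ao) = g` ⇒
                       `∃ Ψ ≠ 0, ∃ c > 0, S17mvTele K (ψ n) (ψ (−1)) (B 1) Ψ c (n(n+1)/2) (n(n−1)/2)`;
* `s17pmd_beta`      : `β V ≠ 0`, `β V ∈ V` on the stage (BETA package);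
* `s17pmd_comp`      : `ψ 1 = id`, `ψ k ∘ ψ m = ψ (k m)`;
* **`s17pmd_tele`**  : the same for every admissible choice of constants `S27cstIsConst x G₀ O`,
                       `Ao = s27cstAo G₀ O`, with NO hypothesis left (LE-a = `s27final_lea`,
                       CP-TOP = `s27cpf_cp`);
* `s17pmd_tele_three`, `s17pmd_tele_seven` : `n = 3` (`p = 6`, `q = 3`), `n = 7` (`p = 28`, `q = 21`).
-/
import Fermat.Agent.S27.Final
import Fermat.Agent.S17.MultTele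

set_option autoImplicit false
set_option linter.unusedVariables false
set_option linter.unusedSectionVars false
set_option linter.style.haveILetI false

noncomputable section

namespace Fermat.Agent.S17

open AlgebraicCurve Module TensorProduct IntermediateField Fermat.Agent.S26 Fermat.Agent.S27

universe u v w

/-- the exponent of the telescoped cube is positive. -/
theorem s17pmd_C_pos (e : ℤ → ℕ) (n : ℕ) (he : ∀ k : ℤ, k ∈ s27indbRange n → 0 < e k) :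
    0 < s27indbC e n := by
  unfold s27indbC
  exact Finset.prod_pos he

theorem s17pmd_tri_seven : s27indTri 7 = 28 := rfl

theorem s17pmd_triM_seven : s27indTriM 7 = 21 := rfl

section Stage

variable {K : Type u} {F : Type v} [Field K] [Field F] [Algebra K F] [IsAlgClosed K] [CharZero K]
  [IsCurveOver K F] [Algebra.EssFiniteType K F]
variable {x : F} (hx : Transcendental K x)
  [FiniteDimensional ↥(IntermediateField.adjoin K {x}) F]
  [Algebra.IsSeparable ↥(IntermediateField.adjoin K {x}) F]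
  (G₀ : Divisor K F) (hG₀ : Divisor.degree G₀ = (genusFF K F : ℤ))

/-- `ψ 1 = id` and `ψ k ∘ ψ m = ψ (k m)` on the stage. -/
theorem s17pmd_comp {q : ℤ → Fin (genusFF K F) → F →ₐ[K] s27mtL K F}
    (hq : S27pfFam (s27ftPkg hx G₀ hG₀) q) :
    (∀ s, s27pfPsi (s27ftPkg hx G₀ hG₀) (s27dcl_halg (x := x)) hq 1 s = s) ∧
    (∀ k m : ℤ, k ≠ 0 → m ≠ 0 → ∀ s,
      s27pfPsi (s27ftPkg hx G₀ hG₀) (s27dcl_halg (x := x)) hq k
        (s27pfPsi (s27ftPkg hx G₀ hG₀) (s27dcl_halg (x := x)) hq m s) =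
      s27pfPsi (s27ftPkg hx G₀ hG₀) (s27dcl_halg (x := x)) hq (k * m) s) :=
  s27mp_comp (FL := s27mtFL K F) (s27stg_hld K F (s27mtL K F))
    (s27stg_hgen K F (s27mtL K F)) hx G₀ hG₀ hq

include hx in
/-- the BETA package on the stage: `β V ≠ 0` and `β V ∈ V`. -/
theorem s17pmd_beta (A' : Divisor K F)
    (hl : Module.finrank K ↥(riemannRochSpace A') = genusFF K F) (hg : 0 < genusFF K F) :
    (∀ V, S27IsKValU K V → s27beta (g := genusFF K F) A' V ≠ 0) ∧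
    (∀ V, S27IsKValU K V → s27beta (g := genusFF K F) A' V ∈ V) := by
  have hpos : 0 < Module.finrank K ↥(riemannRochSpace A') := by rw [hl]; exact hg
  haveI : Module.Finite K ↥(riemannRochSpace A') := Module.finite_of_finrank_pos hpos
  let f₀ : Module.Basis (Fin (genusFF K F)) K ↥(riemannRochSpace A') :=
    Module.finBasisOfFinrankEq K _ hl
  obtain ⟨bne, bmem, -⟩ := s27betat_main (g := genusFF K F) A' f₀ (s27flx_latEx K F hx A')
  exact ⟨bne, bmem⟩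

/-- **PlM-CUBE from (LE-TOP) + (CP-TOP)**: the telescoped cube on the stage, every `n > 0`. -/
theorem s17pmd_tele_of (hg : 0 < genusFF K F) (Ao : Divisor K F)
    (hl : Module.finrank K ↥(riemannRochSpace (G₀ + Ao)) = genusFF K F)
    (hLE : S27ftLE hx Ao) (hCP : S27ftCP hx G₀ hG₀ Ao)
    (q : ℤ → Fin (genusFF K F) → F →ₐ[K] s27mtL K F)
    (hq : S27pfFam (s27ftPkg hx G₀ hG₀) q) (n : ℕ) (hn : 0 < n) :
    ∃ (Ψ : s27gfSym K F (genusFF K F)) (c : ℕ), 0 < c ∧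
      S17mvTele K (s27pfPsi (s27ftPkg hx G₀ hG₀) (s27dcl_halg (x := x)) hq n)
        (s27pfPsi (s27ftPkg hx G₀ hG₀) (s27dcl_halg (x := x)) hq (-1))
        (s27indB (s27pfPsi (s27ftPkg hx G₀ hG₀) (s27dcl_halg (x := x)) hq)
          (s27beta (g := genusFF K F) (G₀ + Ao)) 1)
        Ψ c (s27indTri n) (s27indTriM n) := by
  have hpos : 0 < Module.finrank K ↥(riemannRochSpace (G₀ + Ao)) := by rw [hl]; exact hg
  haveI : Module.Finite K ↥(riemannRochSpace (G₀ + Ao)) := Module.finite_of_finrank_pos hpos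
  let f₀ : Module.Basis (Fin (genusFF K F)) K ↥(riemannRochSpace (G₀ + Ao)) :=
    Module.finBasisOfFinrankEq K _ hl
  choose Φ hΦ hcp using hCP
  have hrange : ∀ (m : ℕ) (k : ℤ), k ∈ s27indbRange m → k ≠ 0 := fun m k hk =>
    (s27indb_mem_range.1 hk).1
  have hlat := s27flx_latEx K F hx (G₀ + Ao)
  obtain ⟨bne, bmem, bidx⟩ := s27betat_main (g := genusFF K F) (G₀ + Ao) f₀ hlat
  have hβ : S27pnBeta (L := s27mtL K F)
      (s27pnTaut (K := K) (F := F) (g := genusFF K F) (L := s27mtL K F)) (G₀ + Ao)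
      (s27beta (g := genusFF K F) (G₀ + Ao)) := s27pn_beta_main s27betac_conj (G₀ + Ao) f₀ hlat
  have hIdx : ∀ k : ℤ, k ≠ 0 → ∀ W : ValuationSubring (s27mtL K F), S27IsKValU K W →
      ∀ y : s27mtL K F, S27ptIsIdx W (q k) (G₀ + Ao) y →
        s27ftIdx hx Ao W (k • s27ftEta hx G₀ hG₀) y :=
    fun k hk W hW y hy => s27ic_hIdx (FL := s27mtFL K F) (s27stg_hld K F (s27mtL K F))
      (s27stg_hgen K F (s27mtL K F)) hx G₀ hG₀ hq Ao k hk W hW y hy
  set Φ' : ℤ → s27mtL K F := fun k => if hk : k = 0 then 1 else Φ k hk with hΦ'def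
  have hΦ' : ∀ k : ℤ, k ≠ 0 → Φ' k ≠ 0 := fun k hk => by
    rw [hΦ'def]; simp only [dif_neg hk]; exact hΦ k hk
  have hcp' : ∀ k : ℤ, k ≠ 0 →
      S27ckCP K (s27ftIdx hx Ao) (k • s27ftEta hx G₀ hG₀) (s27ftEta hx G₀ hG₀) (Φ' k) :=
    fun k hk => by rw [hΦ'def]; simp only [dif_neg hk]; exact hcp k hk
  obtain ⟨he, hΦn, hcube⟩ := s27mc_cube (s27ftPkg hx G₀ hG₀) (s27dcl_halg (x := x)) hq (G₀ + Ao)
    (s27beta (g := genusFF K F) (G₀ + Ao)) hβ (s27ftIdx hx Ao) (s27ftEta hx G₀ hG₀) hLE hIdx n Φ'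
    (fun k hk => hΦ' k (hrange n k hk)) (fun k hk => hcp' k (hrange n k hk))
  have hcomp := s17pmd_comp hx G₀ hG₀ hq
  refine ⟨_, _, s17pmd_C_pos _ n he, s17mt_tele
    (s27pfPsi (s27ftPkg hx G₀ hG₀) (s27dcl_halg (x := x)) hq)
    (s27beta (g := genusFF K F) (G₀ + Ao))
    (fun k => s27nmE (s27gfSym K F (genusFF K F)) (Φ' k)⁻¹)
    (fun k => s27nmPhi (s27gfSym K F (genusFF K F)) (Φ' k)⁻¹) n hn
    (fun s => by rw [hcomp.1]) (fun s => by rw [hcomp.1]) bne hΦn hcube⟩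

/-- **PlM-CUBE, UNCONDITIONAL**: for every admissible choice of constants (`S27cstIsConst`),
every family `q` and every `n > 0` the telescoped cube holds on the stage:
`ψ_n (B₁ (V ∩ ψ_n)) ^ c ≐_V Ψ · B₁ V ^ (c · n(n+1)/2) · ψ₋₁ (B₁ (V ∩ ψ₋₁)) ^ (c · n(n−1)/2)`. -/
theorem s17pmd_tele (hg : 0 < genusFF K F) (O : Place K F) (hc : S27cstIsConst x G₀ O)
    (q : ℤ → Fin (genusFF K F) → F →ₐ[K] s27mtL K F)
    (hq : S27pfFam (s27ftPkg hx G₀ hG₀) q) (n : ℕ) (hn : 0 < n) :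
    ∃ (Ψ : s27gfSym K F (genusFF K F)) (c : ℕ), 0 < c ∧
      S17mvTele K (s27pfPsi (s27ftPkg hx G₀ hG₀) (s27dcl_halg (x := x)) hq n)
        (s27pfPsi (s27ftPkg hx G₀ hG₀) (s27dcl_halg (x := x)) hq (-1))
        (s27indB (s27pfPsi (s27ftPkg hx G₀ hG₀) (s27dcl_halg (x := x)) hq)
          (s27beta (g := genusFF K F) (G₀ + s27cstAo G₀ O)) 1)
        Ψ c (s27indTri n) (s27indTriM n) := by
  have hl := hc.l_A
  have hpos : 0 < Module.finrank K ↥(riemannRochSpace (G₀ + s27cstAo G₀ O)) := by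
    rw [hl]; exact hg
  haveI : Module.Finite K ↥(riemannRochSpace (G₀ + s27cstAo G₀ O)) :=
    Module.finite_of_finrank_pos hpos
  let f₀ : Module.Basis (Fin (genusFF K F)) K ↥(riemannRochSpace (G₀ + s27cstAo G₀ O)) :=
    Module.finBasisOfFinrankEq K _ hl
  have hLE : S27ftLE hx (s27cstAo G₀ O) :=
    s27lec_le (FL := s27mtFL K F) (s27stg_hld K F (s27mtL K F))
      (s27stg_hgen K F (s27mtL K F)) hx (s27cstAo G₀ O) hc.bot
      (s27final_lea K F hg x hx G₀ O hc)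
  have hCP : S27ftCP hx G₀ hG₀ (s27cstAo G₀ O) :=
    s27cpf_cp hx G₀ hG₀ hg (s27cstAo G₀ O) hc.bot hc.deg_Ao O f₀
  exact s17pmd_tele_of hx G₀ hG₀ hg (s27cstAo G₀ O) hl hLE hCP q hq n hn

/-- `n = 3`: `[3]^* Θ ~ 6 Θ + 3 Θ⁻`. -/
theorem s17pmd_tele_three (hg : 0 < genusFF K F) (O : Place K F) (hc : S27cstIsConst x G₀ O)
    (q : ℤ → Fin (genusFF K F) → F →ₐ[K] s27mtL K F)
    (hq : S27pfFam (s27ftPkg hx G₀ hG₀) q) :
    ∃ (Ψ : s27gfSym K F (genusFF K F)) (c : ℕ), 0 < c ∧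
      S17mvTele K (s27pfPsi (s27ftPkg hx G₀ hG₀) (s27dcl_halg (x := x)) hq 3)
        (s27pfPsi (s27ftPkg hx G₀ hG₀) (s27dcl_halg (x := x)) hq (-1))
        (s27indB (s27pfPsi (s27ftPkg hx G₀ hG₀) (s27dcl_halg (x := x)) hq)
          (s27beta (g := genusFF K F) (G₀ + s27cstAo G₀ O)) 1)
        Ψ c 6 3 :=
  s17pmd_tele hx G₀ hG₀ hg O hc q hq 3 (by norm_num)

/-- `n = 7`: `[7]^* Θ ~ 28 Θ + 21 Θ⁻`. -/
theorem s17pmd_tele_seven (hg : 0 < genusFF K F) (O : Place K F) (hc : S27cstIsConst x G₀ O)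
    (q : ℤ → Fin (genusFF K F) → F →ₐ[K] s27mtL K F)
    (hq : S27pfFam (s27ftPkg hx G₀ hG₀) q) :
    ∃ (Ψ : s27gfSym K F (genusFF K F)) (c : ℕ), 0 < c ∧
      S17mvTele K (s27pfPsi (s27ftPkg hx G₀ hG₀) (s27dcl_halg (x := x)) hq 7)
        (s27pfPsi (s27ftPkg hx G₀ hG₀) (s27dcl_halg (x := x)) hq (-1))
        (s27indB (s27pfPsi (s27ftPkg hx G₀ hG₀) (s27dcl_halg (x := x)) hq)
          (s27beta (g := genusFF K F) (G₀ + s27cstAo G₀ O)) 1)
        Ψ c 28 21 :=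
  s17pmd_tele hx G₀ hG₀ hg O hc q hq 7 (by norm_num)

end Stage

end Fermat.Agent.S17

end
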