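/-
S17 sprint, leaf **H4** (helper11): the multiplication bound (M) in VALUATIVE form — formal half.

Setting (S27/Top.lean): `K ⊆ 𝔉` fields, `φ : 𝔉 →ₐ[K] 𝔉` (`= ψ_n = [n]^*`), `b V` local equations of
`D = Θ + Θ⁻` along the valuation subrings `V ⊇ K` of `𝔉`, `H` with `[n]^* D − n² D = div H`
(`S27IsCrux K φ b H n`, the CRUX certificate of S27-B).

* `S17muBpf K b m₀ s`     : the family `s : ι → 𝔉` lies in `L(m₀ D)` and has NO common zero:
                            `s i · b V ^ m₀ ∈ V` for all `i`, and a unit of `V` for some `i`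
                            (base-point-freeness; the geometric input, H3 / H5);
* `s17mu_pull`            : the pulled-back family `φ ∘ s` is base-point-free w.r.t. the local
                            equations `H · b V ^ (n²)`;
* **`s17mu_le`**          : for every `V ⊇ K` there is `α` with `F α ≠ 0`, `F β / F α ∈ V` for all `β`
                            and `G / F α ∈ V`, where `F i = H ^ m₀ · φ (s i)` and `G = ∏_j s (κ j)` is
                            ANY monomial of degree `n²` in the `s k`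
                            (= the literal hypothesis of the valuative criterion H1) — this gives
                            `h (n x) ≥ n² h (x) − c₀`;
* **`s17mu_ge`**          : the converse direction, `F κ = ∏_j s (κ j)` (all monomials of degree
                            `n²`), `G = H ^ m₀ · φ (s i)` — this gives `h (n x) ≤ n² h (x) + c₀`.
-/
import Fermat.Agent.S27.Top

set_option autoImplicit false
set_option linter.unusedVariables false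
set_option linter.unusedSectionVars false

noncomputable section

namespace Fermat.Agent.S17

open Fermat.Agent.S27

universe u w x

variable {K : Type u} [Field K] {𝔉 : Type w} [Field 𝔉] [Algebra K 𝔉]

/-- the family `s` lies in `L(m₀ D)` and has no common zero (`D` with local equations `b`). -/
def S17muBpf (K : Type u) [Field K] {𝔉 : Type w} [Field 𝔉] [Algebra K 𝔉] {ι : Type x}
    (b : ValuationSubring 𝔉 → 𝔉) (m₀ : ℕ) (s : ι → 𝔉) : Prop :=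
  ∀ V : ValuationSubring 𝔉, S27IsKValU K V →
    (∀ i, s i * b V ^ m₀ ∈ V) ∧ ∃ i, S27IsUnitIn V (s i * b V ^ m₀)

theorem s17mu_unit_mul {V : ValuationSubring 𝔉} {a c : 𝔉} (ha : S27IsUnitIn V a)
    (hc : S27IsUnitIn V c) : S27IsUnitIn V (a * c) :=
  ⟨mul_ne_zero ha.1 hc.1, V.mul_mem _ _ ha.2.1 hc.2.1, by
    rw [mul_inv]
    exact V.mul_mem _ _ ha.2.2 hc.2.2⟩

theorem s17mu_unit_inv {V : ValuationSubring 𝔉} {a : 𝔉} (ha : S27IsUnitIn V a) :
    S27IsUnitIn V a⁻¹ :=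
  ⟨inv_ne_zero ha.1, ha.2.2, by rw [inv_inv]; exact ha.2.1⟩

theorem s17mu_unit_pow {V : ValuationSubring 𝔉} {a : 𝔉} (ha : S27IsUnitIn V a) (k : ℕ) :
    S27IsUnitIn V (a ^ k) :=
  ⟨pow_ne_zero k ha.1, pow_mem ha.2.1 k, by
    rw [← inv_pow]
    exact pow_mem ha.2.2 k⟩

/-- `V.comap φ ⊇ K`. -/
theorem s17mu_comap_isKVal (φ : 𝔉 →ₐ[K] 𝔉) {V : ValuationSubring 𝔉} (hV : S27IsKValU K V) :
    S27IsKValU K (V.comap (φ : 𝔉 →+* 𝔉)) := by
  intro a
  rw [ValuationSubring.mem_comap]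
  have h : (φ : 𝔉 →+* 𝔉) (algebraMap K 𝔉 a) = algebraMap K 𝔉 a := φ.commutes a
  rw [h]
  exact hV a

/-- units of `V.comap φ` are the elements whose image is a unit of `V`. -/
theorem s17mu_unit_comap (φ : 𝔉 →ₐ[K] 𝔉) {V : ValuationSubring 𝔉} {a : 𝔉}
    (ha : S27IsUnitIn (V.comap (φ : 𝔉 →+* 𝔉)) a) : S27IsUnitIn V (φ a) := by
  obtain ⟨h0, h1, h2⟩ := ha
  refine ⟨(map_ne_zero φ).2 h0, h1, ?_⟩
  have h3 : (φ : 𝔉 →+* 𝔉) a⁻¹ ∈ V := h2
  have h4 : (φ : 𝔉 →+* 𝔉) a⁻¹ = (φ a)⁻¹ := map_inv₀ φ a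
  rwa [h4] at h3

section Pull

variable {ι : Type x} {φ : 𝔉 →ₐ[K] 𝔉} {b : ValuationSubring 𝔉 → 𝔉} {H : 𝔉} {n : ℕ}

/-- **the pulled-back family is base-point-free** w.r.t. the local equations `H · b V ^ (n²)`. -/
theorem s17mu_pull (hC : S27IsCrux K φ b H n) {m₀ : ℕ} {s : ι → 𝔉} (hs : S17muBpf K b m₀ s)
    (V : ValuationSubring 𝔉) (hV : S27IsKValU K V) :
    (∀ i, φ (s i) * (H * b V ^ (n ^ 2)) ^ m₀ ∈ V) ∧
      ∃ i, S27IsUnitIn V (φ (s i) * (H * b V ^ (n ^ 2)) ^ m₀) := by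
  obtain ⟨u, hu, hcube⟩ := hC.cube1 V hV
  obtain ⟨hmem, i₀, hi₀⟩ := hs (V.comap (φ : 𝔉 →+* 𝔉)) (s17mu_comap_isKVal φ hV)
  have hum : S27IsUnitIn V (u ^ m₀)⁻¹ := s17mu_unit_inv (s17mu_unit_pow hu m₀)
  have key : ∀ i, φ (s i) * (H * b V ^ (n ^ 2)) ^ m₀ =
      φ (s i * b (V.comap (φ : 𝔉 →+* 𝔉)) ^ m₀) * (u ^ m₀)⁻¹ := by
    intro i
    rw [map_mul, map_pow, hcube]
    have hu0 : u ^ m₀ ≠ 0 := pow_ne_zero m₀ hu.1
    have h1 : (u * H * b V ^ (n ^ 2)) ^ m₀ = (H * b V ^ (n ^ 2)) ^ m₀ * u ^ m₀ := by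
      rw [← mul_pow]
      congr 1
      ring
    rw [h1, mul_assoc, mul_assoc, mul_inv_cancel₀ hu0, mul_one]
  refine ⟨fun i => ?_, i₀, ?_⟩
  · rw [key i]
    exact V.mul_mem _ _ (hmem i) hum.2.1
  · rw [key i₀]
    exact s17mu_unit_mul (s17mu_unit_comap φ hi₀) hum

end Pull

section Main

variable {ι : Type x} {φ : 𝔉 →ₐ[K] 𝔉} {b : ValuationSubring 𝔉 → 𝔉} {H : 𝔉} {n : ℕ}

/-- a monomial of degree `d` in the `s k`, times `b V ^ (d * m₀)`, lies in `V`. -/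
theorem s17mu_monomial_mem {m₀ : ℕ} {s : ι → 𝔉} (hs : S17muBpf K b m₀ s)
    (V : ValuationSubring 𝔉) (hV : S27IsKValU K V) (d : ℕ) (κ : Fin d → ι) :
    (∏ j, s (κ j)) * (b V ^ m₀) ^ d ∈ V := by
  have h : (∏ j, s (κ j)) * (b V ^ m₀) ^ d = ∏ j : Fin d, (s (κ j) * b V ^ m₀) := by
    rw [Finset.prod_mul_distrib, Finset.prod_const, Finset.card_univ, Fintype.card_fin]
  rw [h]
  exact V.toSubring.prod_mem fun j _ => (hs V hV).1 (κ j)

/-- the constant monomial at a unit index is a unit. -/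
theorem s17mu_monomial_unit {m₀ : ℕ} {s : ι → 𝔉} {V : ValuationSubring 𝔉} {i : ι}
    (hi : S27IsUnitIn V (s i * b V ^ m₀)) (d : ℕ) :
    S27IsUnitIn V ((∏ _j : Fin d, s i) * (b V ^ m₀) ^ d) := by
  have h : (∏ _j : Fin d, s i) * (b V ^ m₀) ^ d = (s i * b V ^ m₀) ^ d := by
    rw [Finset.prod_const, Finset.card_univ, Fintype.card_fin, mul_pow]
  rw [h]
  exact s17mu_unit_pow hi d

/-- **(M), lower bound, valuative form**: the monomials of degree `n²` in the `s k` are integral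
over the ideal generated by the `H ^ m₀ · φ (s i)` — literal hypothesis of the valuative
criterion (H1), for every `V ⊇ K`. -/
theorem s17mu_le (hC : S27IsCrux K φ b H n) {m₀ : ℕ} {s : ι → 𝔉} (hs : S17muBpf K b m₀ s)
    (κ : Fin (n ^ 2) → ι) (V : ValuationSubring 𝔉) (hV : S27IsKValU K V) :
    ∃ α : ι, H ^ m₀ * φ (s α) ≠ 0 ∧
      (∀ β : ι, (H ^ m₀ * φ (s β)) / (H ^ m₀ * φ (s α)) ∈ V) ∧
      (∏ j, s (κ j)) / (H ^ m₀ * φ (s α)) ∈ V := by
  obtain ⟨hmem, α, hα⟩ := s17mu_pull hC hs V hV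
  have hb0 : b V ≠ 0 := hC.b_ne V hV
  have hH0 : H ≠ 0 := hC.H_ne
  have hden : φ (s α) * (H * b V ^ (n ^ 2)) ^ m₀ ≠ 0 := hα.1
  have hφ0 : φ (s α) ≠ 0 := left_ne_zero_of_mul hden
  have hB0 : (b V ^ (n ^ 2)) ^ m₀ ≠ 0 := pow_ne_zero _ (pow_ne_zero _ hb0)
  have hHm : H ^ m₀ ≠ 0 := pow_ne_zero _ hH0
  refine ⟨α, mul_ne_zero hHm hφ0, fun β => ?_, ?_⟩
  · have h : (H ^ m₀ * φ (s β)) / (H ^ m₀ * φ (s α)) =
        (φ (s β) * (H * b V ^ (n ^ 2)) ^ m₀) * (φ (s α) * (H * b V ^ (n ^ 2)) ^ m₀)⁻¹ := by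
      rw [mul_pow]
      field_simp
    rw [h]
    exact V.mul_mem _ _ (hmem β) hα.2.2
  · have hmon := s17mu_monomial_mem hs V hV (n ^ 2) κ
    have h : (∏ j, s (κ j)) / (H ^ m₀ * φ (s α)) =
        ((∏ j, s (κ j)) * (b V ^ m₀) ^ (n ^ 2)) *
          (φ (s α) * (H * b V ^ (n ^ 2)) ^ m₀)⁻¹ := by
      rw [mul_pow, ← pow_mul, ← pow_mul, mul_comm m₀ (n ^ 2)]
      have hbb : b V ^ (n ^ 2 * m₀) ≠ 0 := pow_ne_zero _ hb0
      field_simp
    rw [h]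
    exact V.mul_mem _ _ hmon hα.2.2

/-- **(M), upper bound, valuative form**: the `H ^ m₀ · φ (s i)` are integral over the ideal
generated by the monomials of degree `n²` in the `s k`. -/
theorem s17mu_ge (hC : S27IsCrux K φ b H n) {m₀ : ℕ} {s : ι → 𝔉} (hs : S17muBpf K b m₀ s)
    (i : ι) (V : ValuationSubring 𝔉) (hV : S27IsKValU K V) :
    ∃ κ₀ : Fin (n ^ 2) → ι, (∏ j, s (κ₀ j)) ≠ 0 ∧
      (∀ κ : Fin (n ^ 2) → ι, (∏ j, s (κ j)) / (∏ j, s (κ₀ j)) ∈ V) ∧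
      (H ^ m₀ * φ (s i)) / (∏ j, s (κ₀ j)) ∈ V := by
  obtain ⟨hmem, -⟩ := s17mu_pull hC hs V hV
  obtain ⟨-, i₀, hi₀⟩ := hs V hV
  have hb0 : b V ≠ 0 := hC.b_ne V hV
  have hu := s17mu_monomial_unit (b := b) hi₀ (n ^ 2)
  have hs0 : (∏ _j : Fin (n ^ 2), s i₀) ≠ 0 := left_ne_zero_of_mul hu.1
  have hbb : (b V ^ m₀) ^ (n ^ 2) ≠ 0 := pow_ne_zero _ (pow_ne_zero _ hb0)
  refine ⟨fun _ => i₀, hs0, fun κ => ?_, ?_⟩
  · have h : (∏ j, s (κ j)) / (∏ _j : Fin (n ^ 2), s i₀) =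
        ((∏ j, s (κ j)) * (b V ^ m₀) ^ (n ^ 2)) *
          ((∏ _j : Fin (n ^ 2), s i₀) * (b V ^ m₀) ^ (n ^ 2))⁻¹ := by
      field_simp
    rw [h]
    exact V.mul_mem _ _ (s17mu_monomial_mem hs V hV (n ^ 2) κ) hu.2.2
  · have h : (H ^ m₀ * φ (s i)) / (∏ _j : Fin (n ^ 2), s i₀) =
        (φ (s i) * (H * b V ^ (n ^ 2)) ^ m₀) *
          ((∏ _j : Fin (n ^ 2), s i₀) * (b V ^ m₀) ^ (n ^ 2))⁻¹ := by
      rw [mul_pow, ← pow_mul, ← pow_mul, mul_comm m₀ (n ^ 2)]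
      have hbb' : b V ^ (n ^ 2 * m₀) ≠ 0 := pow_ne_zero _ hb0
      field_simp
    rw [h]
    exact V.mul_mem _ _ (hmem i) hu.2.2

end Main

end Fermat.Agent.S17

end
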