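/-
S17 sprint, layer H — **BPF, formal half** (helper11): base-point-freeness of a space of functions
from the theorem of the square in valuative form.

Setting (S27/Top.lean, S17/Mult.lean): `K ⊆ 𝔉` fields, `b V` the local equations of a divisor `D`
along the valuation subrings `V ⊇ K` of `𝔉`, `S17muBpf K b m s` = "`s ⊆ L(m D)` without common zero".

* `s17bp_of_square` : a family `f a` (`a : A`) with the valuative SQUARE
        `f a · b V ^ 2 = u · y₊ a V · y₋ a V`,  `u ∈ Vˣ`,  `y± a V ∈ V`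
    (`y± a V` = local equations of the translates `D ± a`), and the MOVING lemma
        `∀ V ⊇ K, ∃ a, y₊ a V, y₋ a V ∈ Vˣ`
    is base-point-free in `L(2 D)`;
* `s17bp_mem_LU`    : a base-point-free family lies in `s27LU K b m`;
* `s17bp_span`      : if `s` spans (over `K`) a space containing a base-point-free family `f` and
    `s ⊆ L(m D)`, then `s` is base-point-free — in particular EVERY `K`-basis of `L(m D)` is
    base-point-free as soon as ONE family is (`s17bp_basis`);
* `s17bp_mul`       : products `s i · s' j` of base-point-free families of `L(m D)`, `L(m' D)` are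
    base-point-free in `L((m + m') D)`;
* `s17bp_pow`       : the monomials of degree `d` of a base-point-free family of `L(m D)` are
    base-point-free in `L(d m D)`.
-/
import Fermat.Agent.S17.Mult

set_option autoImplicit false
set_option linter.unusedVariables false
set_option linter.unusedSectionVars false

noncomputable section

namespace Fermat.Agent.S17

open Fermat.Agent.S27

universe u w x y

variable {K : Type u} [Field K] {𝔉 : Type w} [Field 𝔉] [Algebra K 𝔉]

/-- **BPF from the theorem of the square** (valuative form) and the moving lemma. -/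
theorem s17bp_of_square {A : Type x} (b : ValuationSubring 𝔉 → 𝔉) (f : A → 𝔉)
    (yp ym : A → ValuationSubring 𝔉 → 𝔉)
    (hmem : ∀ a V, S27IsKValU K V → yp a V ∈ V ∧ ym a V ∈ V)
    (hsq : ∀ a V, S27IsKValU K V → ∃ u : 𝔉, S27IsUnitIn V u ∧
      f a * b V ^ 2 = u * yp a V * ym a V)
    (hmove : ∀ V, S27IsKValU K V → ∃ a, S27IsUnitIn V (yp a V) ∧ S27IsUnitIn V (ym a V)) :
    S17muBpf K b 2 f := by
  intro V hV
  refine ⟨fun a => ?_, ?_⟩
  · obtain ⟨u, hu, h⟩ := hsq a V hV
    rw [h]
    exact V.mul_mem _ _ (V.mul_mem _ _ hu.2.1 (hmem a V hV).1) (hmem a V hV).2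
  · obtain ⟨a, hp, hm⟩ := hmove V hV
    obtain ⟨u, hu, h⟩ := hsq a V hV
    refine ⟨a, ?_⟩
    rw [h]
    exact s17mu_unit_mul (s17mu_unit_mul hu hp) hm

/-- a base-point-free family lies in `L(m D)`. -/
theorem s17bp_mem_LU {ι : Type x} {b : ValuationSubring 𝔉 → 𝔉} {m : ℕ} {s : ι → 𝔉}
    (hs : S17muBpf K b m s) (i : ι) : s i ∈ s27LU K b m :=
  fun V hV => (hs V hV).1 i

/-- `u` is a unit of `V` iff its `V`-valuation is `1`. -/
theorem s17bp_unit_iff (V : ValuationSubring 𝔉) (z : 𝔉) :
    S27IsUnitIn V z ↔ V.valuation z = 1 := by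
  constructor
  · rintro ⟨h0, h1, h2⟩
    have a1 : V.valuation z ≤ 1 := (V.valuation_le_one_iff z).2 h1
    have a2 : V.valuation z⁻¹ ≤ 1 := (V.valuation_le_one_iff z⁻¹).2 h2
    rw [map_inv₀] at a2
    have hpos : 0 < V.valuation z := by
      rw [zero_lt_iff]
      exact (Valuation.ne_zero_iff _).2 h0
    exact le_antisymm a1 ((inv_le_one₀ hpos).1 a2)
  · intro h
    have h0 : z ≠ 0 := by
      intro hz
      rw [hz, map_zero] at h
      exact zero_ne_one h
    refine ⟨h0, (V.valuation_le_one_iff z).1 h.le, (V.valuation_le_one_iff z⁻¹).1 ?_⟩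
    rw [map_inv₀, h, inv_one]

/-- a non-unit of `V` lying in `V` has valuation `< 1`. -/
theorem s17bp_val_lt (V : ValuationSubring 𝔉) {z : 𝔉} (hz : z ∈ V)
    (hnu : ¬ S27IsUnitIn V z) : V.valuation z < 1 := by
  have a1 : V.valuation z ≤ 1 := (V.valuation_le_one_iff z).2 hz
  rcases lt_or_eq_of_le a1 with h | h
  · exact h
  · exact absurd ((s17bp_unit_iff V z).2 h) hnu

/-- sums of `K`-multiples of non-units of `V` (lying in `V`) are non-units. -/
theorem s17bp_sum_not_unit {ι : Type x} (V : ValuationSubring 𝔉) (hV : S27IsKValU K V)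
    (t : Finset ι) (c : ι → K) (z : ι → 𝔉) (hz : ∀ i ∈ t, z i ∈ V)
    (hnu : ∀ i ∈ t, ¬ S27IsUnitIn V (z i)) :
    ¬ S27IsUnitIn V (∑ i ∈ t, c i • z i) := by
  intro hU
  have h1 := (s17bp_unit_iff V _).1 hU
  have h2 : V.valuation (∑ i ∈ t, c i • z i) < 1 := by
    refine Valuation.map_sum_lt _ one_ne_zero fun i hi => ?_
    rw [Algebra.smul_def, map_mul]
    have hc : V.valuation (algebraMap K 𝔉 (c i)) ≤ 1 :=
      (V.valuation_le_one_iff _).2 (hV (c i))
    have hzi := s17bp_val_lt V (hz i hi) (hnu i hi)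
    calc V.valuation (algebraMap K 𝔉 (c i)) * V.valuation (z i)
        ≤ 1 * V.valuation (z i) := mul_le_mul_left hc _
      _ = V.valuation (z i) := one_mul _
      _ < 1 := hzi
  rw [h1] at h2
  exact lt_irrefl _ h2

/-- **a spanning family of `L(m D)`-functions is base-point-free as soon as its span contains a
base-point-free family.** -/
theorem s17bp_span {ι : Type x} {A : Type y} {b : ValuationSubring 𝔉 → 𝔉} {m : ℕ}
    {f : A → 𝔉} (hf : S17muBpf K b m f) {s : ι → 𝔉} (hs : ∀ i, s i ∈ s27LU K b m)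
    (hspan : ∀ a, f a ∈ Submodule.span K (Set.range s)) : S17muBpf K b m s := by
  classical
  intro V hV
  refine ⟨fun i => hs i V hV, ?_⟩
  by_contra hno
  have hno' : ∀ i, ¬ S27IsUnitIn V (s i * b V ^ m) := fun i hi => hno ⟨i, hi⟩
  obtain ⟨-, a, ha⟩ := hf V hV
  obtain ⟨c, hc⟩ := (Finsupp.mem_span_range_iff_exists_finsupp).1 (hspan a)
  have h1 : f a * b V ^ m = ∑ i ∈ c.support, c i • (s i * b V ^ m) := by
    rw [← hc, Finsupp.sum, Finset.sum_mul]
    refine Finset.sum_congr rfl fun i _ => ?_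
    rw [smul_mul_assoc]
  rw [h1] at ha
  exact s17bp_sum_not_unit V hV c.support (fun i => c i) (fun i => s i * b V ^ m)
    (fun i _ => hs i V hV) (fun i _ => hno' i) ha

/-- every `K`-basis of `L(m D)` is base-point-free as soon as ONE family of `L(m D)` is. -/
theorem s17bp_basis {ι : Type x} {A : Type y} {b : ValuationSubring 𝔉 → 𝔉} {m : ℕ}
    {f : A → 𝔉} (hf : S17muBpf K b m f) (B : Module.Basis ι K ↥(s27LU K b m)) :
    S17muBpf K b m (fun i => ((B i : ↥(s27LU K b m)) : 𝔉)) := by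
  refine s17bp_span hf (fun i => (B i).2) fun a => ?_
  have hmem : f a ∈ s27LU K b m := s17bp_mem_LU hf a
  have h1 : (⟨f a, hmem⟩ : ↥(s27LU K b m)) ∈ Submodule.span K (Set.range B) := by
    rw [B.span_eq]
    exact Submodule.mem_top
  have h2 := Submodule.apply_mem_span_image_of_mem_span (s27LU K b m).subtype h1
  have h3 : (s27LU K b m).subtype '' Set.range B =
      Set.range (fun i => ((B i : ↥(s27LU K b m)) : 𝔉)) := by
    ext z
    constructor
    · rintro ⟨_, ⟨i, rfl⟩, rfl⟩
      exact ⟨i, rfl⟩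
    · rintro ⟨i, rfl⟩
      exact ⟨B i, ⟨i, rfl⟩, rfl⟩
  rw [h3] at h2
  exact h2

/-- products of base-point-free families. -/
theorem s17bp_mul {ι : Type x} {ι' : Type y} {b : ValuationSubring 𝔉 → 𝔉} {m m' : ℕ}
    {s : ι → 𝔉} {s' : ι' → 𝔉} (hs : S17muBpf K b m s) (hs' : S17muBpf K b m' s') :
    S17muBpf K b (m + m') (fun p : ι × ι' => s p.1 * s' p.2) := by
  intro V hV
  obtain ⟨h1, i, hi⟩ := hs V hV
  obtain ⟨h2, j, hj⟩ := hs' V hV
  have key : ∀ p : ι × ι', s p.1 * s' p.2 * b V ^ (m + m') =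
      (s p.1 * b V ^ m) * (s' p.2 * b V ^ m') := by
    intro p
    rw [pow_add]
    ring
  refine ⟨fun p => ?_, (i, j), ?_⟩
  · rw [key p]
    exact V.mul_mem _ _ (h1 p.1) (h2 p.2)
  · rw [key (i, j)]
    exact s17mu_unit_mul hi hj

/-- the monomials of degree `d` of a base-point-free family. -/
theorem s17bp_pow {ι : Type x} {b : ValuationSubring 𝔉 → 𝔉} {m : ℕ} {s : ι → 𝔉}
    (hs : S17muBpf K b m s) (d : ℕ) :
    S17muBpf K b (d * m) (fun κ : Fin d → ι => ∏ j, s (κ j)) := by
  intro V hV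
  obtain ⟨-, i, hi⟩ := hs V hV
  have key : ∀ κ : Fin d → ι, (∏ j, s (κ j)) * b V ^ (d * m) =
      (∏ j, s (κ j)) * (b V ^ m) ^ d := by
    intro κ
    rw [← pow_mul, mul_comm m d]
  refine ⟨fun κ => ?_, fun _ => i, ?_⟩
  · rw [key κ]
    exact s17mu_monomial_mem hs V hV d κ
  · rw [key (fun _ => i)]
    exact s17mu_monomial_unit hi d

end Fermat.Agent.S17

end
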