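/-
S17 sprint, leaf H0 (helper13): CERTIFICATE ⇒ HEIGHT (pure Mathlib).

`s17hc_euler`  : a homogeneous polynomial of degree `k + 1` is `∑ i, X i * b i` with `b i`
                 homogeneous of degree `k`;
`s17hc_main`   : if every `y j` satisfies an equation of integral dependence
                 `y j ^ M + ∑ k, (a j k)(x) * y j ^ (M − 1 − k) = 0` over the ideal `(x)`
                 (`a j k` homogeneous of degree `k + 1`, FIXED coefficients), then
                 `mulHeight (Sum.elim x y) ≤ C * mulHeight x` with `C` depending only on `a`;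
`s17hc_main_log` : the logarithmic form.
-/
import Mathlib.NumberTheory.Height.MvPolynomial

set_option autoImplicit false

namespace Fermat.Agent.S17

open MvPolynomial Height

/-- EULER: a homogeneous polynomial of degree `k + 1` lies in the ideal `(X i)` with
homogeneous cofactors of degree `k`. -/
theorem s17hc_euler {K : Type*} [CommRing K] {ι : Type*} [Fintype ι] (k : ℕ)
    (p : MvPolynomial ι K) (hp : p.IsHomogeneous (k + 1)) :
    ∃ b : ι → MvPolynomial ι K, (∀ i, (b i).IsHomogeneous k) ∧ p = ∑ i, X i * b i := by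
  classical
  -- monomials
  have hmon : ∀ d ∈ p.support, ∃ b : ι → MvPolynomial ι K,
      (∀ i, (b i).IsHomogeneous k) ∧ monomial d (coeff d p) = ∑ i, X i * b i := by
    intro d hd
    have hdeg : d.degree = k + 1 := by
      have := hp.degree_eq_sum_deg_support hd
      rw [Finsupp.degree]
      exact this.symm
    have hne : d ≠ 0 := by
      rintro rfl
      simp at hdeg
    obtain ⟨i, hi⟩ : ∃ i, d i ≠ 0 := by
      by_contra hcon
      push Not at hcon
      exact hne (Finsupp.ext hcon)
    have hd' : d = (d - Finsupp.single i 1) + Finsupp.single i 1 := by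
      ext j
      by_cases hj : j = i
      · subst hj
        simp only [Finsupp.coe_add, Finsupp.coe_tsub, Pi.add_apply, Pi.sub_apply,
          Finsupp.single_eq_same]
        omega
      · simp [Finsupp.single_eq_of_ne hj]
    have hdeg' : (d - Finsupp.single i 1).degree = k := by
      have h1 : d.degree = (d - Finsupp.single i 1).degree + 1 := by
        conv_lhs => rw [hd']
        rw [map_add, Finsupp.degree_single]
      omega
    refine ⟨fun j => if j = i then monomial (d - Finsupp.single i 1) (coeff d p) else 0, ?_, ?_⟩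
    · intro j
      by_cases hj : j = i
      · simp only [hj, if_true]
        exact isHomogeneous_monomial _ hdeg'
      · simp only [hj, if_false]
        exact isHomogeneous_zero _ _ _
    · rw [Finset.sum_eq_single i]
      · simp only [if_true]
        have h2 : monomial d (coeff d p)
            = monomial ((d - Finsupp.single i 1) + Finsupp.single i 1) (coeff d p) := by
          rw [← hd']
        rw [h2, monomial_add_single, pow_one, mul_comm]
      · intro j _ hj
        simp [hj]
      · intro h
        exact absurd (Finset.mem_univ i) h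
  -- sums
  have hsum : ∀ s : Finset (ι →₀ ℕ), s ⊆ p.support → ∃ b : ι → MvPolynomial ι K,
      (∀ i, (b i).IsHomogeneous k) ∧ (∑ d ∈ s, monomial d (coeff d p)) = ∑ i, X i * b i := by
    intro s
    induction s using Finset.induction_on with
    | empty =>
      intro _
      exact ⟨fun _ => 0, fun _ => isHomogeneous_zero _ _ _, by simp⟩
    | insert d s hds ih =>
      intro hs
      obtain ⟨b₁, hb₁, e₁⟩ := ih (fun x hx => hs (Finset.mem_insert_of_mem hx))
      obtain ⟨b₂, hb₂, e₂⟩ := hmon d (hs (Finset.mem_insert_self d s))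
      refine ⟨fun i => b₂ i + b₁ i, fun i => (hb₂ i).add (hb₁ i), ?_⟩
      rw [Finset.sum_insert hds, e₁, e₂, ← Finset.sum_add_distrib]
      exact Finset.sum_congr rfl fun i _ => by ring
  obtain ⟨b, hb, e⟩ := hsum p.support (Finset.Subset.refl _)
  refine ⟨b, hb, ?_⟩
  rw [← e]
  exact (support_sum_monomial_coeff p).symm

/-- **H0, CERTIFICATE ⇒ HEIGHT.** Fixed homogeneous coefficient polynomials `a j k` of degree
`k + 1`; whenever every `y j` satisfies the equation of integral dependence
`y j ^ M + ∑ k, (a j k)(x) * y j ^ (M − 1 − k) = 0`, the height of the joint tuple `(x, y)` is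
at most `C` times the height of `x`. -/
theorem s17hc_main {K : Type*} [Field K] [AdmissibleAbsValues K] {ι κ : Type*} [Fintype ι]
    [Fintype κ] (M : ℕ) (a : κ → Fin M → MvPolynomial ι K)
    (ha : ∀ j k, (a j k).IsHomogeneous ((k : ℕ) + 1)) :
    ∃ C > 0, ∀ (x : ι → K) (y : κ → K),
      (∀ j, y j ^ M + ∑ k : Fin M, eval x (a j k) * y j ^ (M - 1 - (k : ℕ)) = 0) →
        mulHeight (Sum.elim x y) ≤ C * mulHeight x := by
  classical
  choose b hb hab using fun (j : κ) (k : Fin M) => s17hc_euler (k : ℕ) (a j k) (ha j k)
  -- the cofactors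
  let q : (ι ⊕ κ) × ι → MvPolynomial (ι ⊕ κ) K := fun t =>
    Sum.elim (fun i₀ => if t.2 = i₀ then X (Sum.inl i₀) ^ (M - 1) else 0)
      (fun j => - ∑ k : Fin M, rename Sum.inl (b j k t.2) * X (Sum.inr j) ^ (M - 1 - (k : ℕ)))
      t.1
  have hq : ∀ t, (q t).IsHomogeneous (M - 1) := by
    rintro ⟨i₀ | j, i⟩
    · simp only [q, Sum.elim_inl]
      split_ifs
      · have := isHomogeneous_X_pow (R := K) (Sum.inl i₀ : ι ⊕ κ) (M - 1)
        exact this
      · exact isHomogeneous_zero _ _ _
    · simp only [q, Sum.elim_inr]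
      refine IsHomogeneous.neg ?_
      refine IsHomogeneous.sum _ _ _ fun k _ => ?_
      have h1 : (rename (Sum.inl : ι → ι ⊕ κ) (b j k i)).IsHomogeneous (k : ℕ) :=
        (hb j k i).rename_isHomogeneous
      have h2 := isHomogeneous_X_pow (R := K) (Sum.inr j : ι ⊕ κ) (M - 1 - (k : ℕ))
      have h3 := h1.mul h2
      have h4 : (k : ℕ) + (M - 1 - (k : ℕ)) = M - 1 := by
        have := k.isLt
        omega
      rwa [h4] at h3
  obtain ⟨C, hC, H⟩ := mulHeight_eval_ge' (K := K) (ι := ι ⊕ κ) (ι' := ι) (M := M - 1) (N := 1)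
    (q := q) hq
  refine ⟨C⁻¹, inv_pos.mpr hC, fun x y hxy => ?_⟩
  have key := H (fun i => X (Sum.inl i)) (x := Sum.elim x y) ?_
  · simp only [eval_X, Sum.elim_inl, pow_one] at key
    rw [le_inv_mul_iff₀ hC]
    exact key
  · rintro (i₀ | j)
    · simp only [q, Sum.elim_inl, eval_X]
      rw [Finset.sum_eq_single i₀]
      · simp only [if_true, map_pow, eval_X, Sum.elim_inl]
        rw [pow_succ]
      · intro i _ hi
        simp [hi]
      · intro h
        exact absurd (Finset.mem_univ i₀) h
    · simp only [q, Sum.elim_inr, eval_X, Sum.elim_inl]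
      have hM : M ≠ 0 := by
        rintro rfl
        have := hxy j
        simp at this
      have hM1 : M - 1 + 1 = M := by omega
      rw [hM1]
      have h0 := hxy j
      have h1 : y j ^ M = - ∑ k : Fin M, eval x (a j k) * y j ^ (M - 1 - (k : ℕ)) :=
        eq_neg_of_add_eq_zero_left h0
      rw [h1]
      simp only [map_neg, map_sum, map_mul, map_pow, eval_X, Sum.elim_inr, neg_mul,
        Finset.sum_neg_distrib, neg_inj, Finset.sum_mul]
      rw [Finset.sum_comm]
      refine Finset.sum_congr rfl fun k _ => ?_
      have h2 : eval x (a j k) = ∑ i, x i * eval x (b j k i) := by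
        conv_lhs => rw [hab j k]
        simp only [map_sum, map_mul, eval_X]
      rw [h2, Finset.sum_mul]
      refine Finset.sum_congr rfl fun i _ => ?_
      have h3 : eval (Sum.elim x y) (rename (Sum.inl : ι → ι ⊕ κ) (b j k i))
          = eval x (b j k i) := by
        rw [eval_rename]
        rfl
      rw [h3]
      ring

/-- logarithmic form of `s17hc_main`. -/
theorem s17hc_main_log {K : Type*} [Field K] [AdmissibleAbsValues K] {ι κ : Type*} [Fintype ι]
    [Fintype κ] (M : ℕ) (a : κ → Fin M → MvPolynomial ι K)
    (ha : ∀ j k, (a j k).IsHomogeneous ((k : ℕ) + 1)) :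
    ∃ C : ℝ, ∀ (x : ι → K) (y : κ → K),
      (∀ j, y j ^ M + ∑ k : Fin M, eval x (a j k) * y j ^ (M - 1 - (k : ℕ)) = 0) →
        logHeight (Sum.elim x y) ≤ C + logHeight x := by
  obtain ⟨C, hC, H⟩ := s17hc_main M a ha
  refine ⟨Real.log C, fun x y hxy => ?_⟩
  have h := H x y hxy
  rw [logHeight_eq_log_mulHeight, logHeight_eq_log_mulHeight,
    ← Real.log_mul hC.ne' (mulHeight_ne_zero x)]
  exact Real.log_le_log (mulHeight_pos _) h

end Fermat.Agent.S17
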