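/-
S17 sprint, leaf H0 complements (helper13): pure Mathlib, on top of `S17/HtCert.lean`.

`s17hc_le_elim`   : `mulHeight x ≤ mulHeight (Sum.elim x y)` (the trivial converse of H0);
`s17hc_two`       : TWO-SIDED form: certificates of integral dependence in both directions give
                    `|logHeight x − logHeight y| ≤ C`;
`s17hc_retract`   : a `K`-linear retraction of the coefficients of a polynomial over an extension
                    `L ⊇ K` commutes with evaluation at `K`-rational points;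
`s17hc_descend`   : H0 with certificate coefficients in an ARBITRARY extension `L ⊇ K`
                    (e.g. `K = ℚ`, `L = ℚ̄`) and `K`-rational `x`, `y`: no number field needed;
`s17hc_descend_two` : the two-sided form of it.
-/
import Fermat.Agent.S17.HtCert
import Mathlib.LinearAlgebra.Basis.VectorSpace

set_option autoImplicit false

namespace Fermat.Agent.S17

open MvPolynomial Height

/-- the trivial converse of H0. -/
theorem s17hc_le_elim {K : Type*} [Field K] [AdmissibleAbsValues K] {ι κ : Type*}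
    [Finite ι] [Finite κ] (x : ι → K) (y : κ → K) :
    mulHeight x ≤ mulHeight (Sum.elim x y) := by
  have h := mulHeight_comp_le (Sum.inl : ι → ι ⊕ κ) (Sum.elim x y)
  have e : (Sum.elim x y) ∘ (Sum.inl : ι → ι ⊕ κ) = x := by
    funext i
    rfl
  rwa [e] at h

/-- the other trivial converse. -/
theorem s17hc_le_elim' {K : Type*} [Field K] [AdmissibleAbsValues K] {ι κ : Type*}
    [Finite ι] [Finite κ] (x : ι → K) (y : κ → K) :
    mulHeight y ≤ mulHeight (Sum.elim x y) := by
  have h := mulHeight_comp_le (Sum.inr : κ → ι ⊕ κ) (Sum.elim x y)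
  have e : (Sum.elim x y) ∘ (Sum.inr : κ → ι ⊕ κ) = y := by
    funext i
    rfl
  rwa [e] at h

/-- **TWO-SIDED FORM.** Certificates in both directions: the heights of `x` and `y` differ by a
bounded factor. -/
theorem s17hc_two_mul {K : Type*} [Field K] [AdmissibleAbsValues K] {ι κ : Type*} [Fintype ι]
    [Fintype κ] (M M' : ℕ) (a : κ → Fin M → MvPolynomial ι K)
    (ha : ∀ j k, (a j k).IsHomogeneous ((k : ℕ) + 1))
    (a' : ι → Fin M' → MvPolynomial κ K)
    (ha' : ∀ i k, (a' i k).IsHomogeneous ((k : ℕ) + 1)) :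
    ∃ C > 0, ∀ (x : ι → K) (y : κ → K),
      (∀ j, y j ^ M + ∑ k : Fin M, eval x (a j k) * y j ^ (M - 1 - (k : ℕ)) = 0) →
      (∀ i, x i ^ M' + ∑ k : Fin M', eval y (a' i k) * x i ^ (M' - 1 - (k : ℕ)) = 0) →
        mulHeight y ≤ C * mulHeight x ∧ mulHeight x ≤ C * mulHeight y := by
  obtain ⟨C₁, hC₁, H₁⟩ := s17hc_main M a ha
  obtain ⟨C₂, hC₂, H₂⟩ := s17hc_main M' a' ha'
  refine ⟨max C₁ C₂, lt_max_of_lt_left hC₁, fun x y h1 h2 => ⟨?_, ?_⟩⟩
  · calc mulHeight y ≤ mulHeight (Sum.elim x y) := s17hc_le_elim' x y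
      _ ≤ C₁ * mulHeight x := H₁ x y h1
      _ ≤ max C₁ C₂ * mulHeight x :=
        mul_le_mul_of_nonneg_right (le_max_left _ _) (mulHeight_pos x).le
  · calc mulHeight x ≤ mulHeight (Sum.elim y x) := s17hc_le_elim' y x
      _ ≤ C₂ * mulHeight y := H₂ y x h2
      _ ≤ max C₁ C₂ * mulHeight y :=
        mul_le_mul_of_nonneg_right (le_max_right _ _) (mulHeight_pos y).le

/-- logarithmic two-sided form. -/
theorem s17hc_two {K : Type*} [Field K] [AdmissibleAbsValues K] {ι κ : Type*} [Fintype ι]
    [Fintype κ] (M M' : ℕ) (a : κ → Fin M → MvPolynomial ι K)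
    (ha : ∀ j k, (a j k).IsHomogeneous ((k : ℕ) + 1))
    (a' : ι → Fin M' → MvPolynomial κ K)
    (ha' : ∀ i k, (a' i k).IsHomogeneous ((k : ℕ) + 1)) :
    ∃ C : ℝ, ∀ (x : ι → K) (y : κ → K),
      (∀ j, y j ^ M + ∑ k : Fin M, eval x (a j k) * y j ^ (M - 1 - (k : ℕ)) = 0) →
      (∀ i, x i ^ M' + ∑ k : Fin M', eval y (a' i k) * x i ^ (M' - 1 - (k : ℕ)) = 0) →
        |logHeight x - logHeight y| ≤ C := by
  obtain ⟨C, hC, H⟩ := s17hc_two_mul M M' a ha a' ha'
  refine ⟨Real.log C, fun x y h1 h2 => ?_⟩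
  obtain ⟨h3, h4⟩ := H x y h1 h2
  have e3 : logHeight y ≤ Real.log C + logHeight x := by
    rw [logHeight_eq_log_mulHeight, logHeight_eq_log_mulHeight,
      ← Real.log_mul hC.ne' (mulHeight_ne_zero x)]
    exact Real.log_le_log (mulHeight_pos _) h3
  have e4 : logHeight x ≤ Real.log C + logHeight y := by
    rw [logHeight_eq_log_mulHeight, logHeight_eq_log_mulHeight,
      ← Real.log_mul hC.ne' (mulHeight_ne_zero y)]
    exact Real.log_le_log (mulHeight_pos _) h4
  rw [abs_le]
  constructor <;> linarith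

/-- the coefficientwise image of a polynomial under an additive map. -/
noncomputable def s17hcMap {K L : Type*} [CommRing K] [CommRing L] {ι : Type*}
    (π : L → K) (p : MvPolynomial ι L) : MvPolynomial ι K :=
  ∑ d ∈ p.support, monomial d (π (coeff d p))

theorem s17hcMap_isHomogeneous {K L : Type*} [CommRing K] [CommRing L] {ι : Type*}
    (π : L → K) (p : MvPolynomial ι L) (n : ℕ) (hp : p.IsHomogeneous n) :
    (s17hcMap π p).IsHomogeneous n := by
  refine IsHomogeneous.sum _ _ _ fun d hd => ?_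
  refine isHomogeneous_monomial _ ?_
  have := hp.degree_eq_sum_deg_support hd
  rw [Finsupp.degree]
  exact this.symm

/-- **RETRACTION.** A `K`-linear map `π : L → K` applied to the coefficients commutes with
evaluation at `K`-rational points. -/
theorem s17hc_retract {K L : Type*} [Field K] [Field L] [Algebra K L] {ι : Type*} [Fintype ι]
    (π : L →ₗ[K] K) (p : MvPolynomial ι L) (x : ι → K) :
    eval x (s17hcMap π p) = π (eval (fun i => algebraMap K L (x i)) p) := by
  rw [s17hcMap, map_sum]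
  conv_rhs => rw [eval_eq, map_sum]
  refine Finset.sum_congr rfl fun d _ => ?_
  rw [eval_monomial]
  have h1 : coeff d p * ∏ i ∈ d.support, algebraMap K L (x i) ^ d i
      = (∏ i ∈ d.support, x i ^ d i) • coeff d p := by
    rw [Algebra.smul_def, map_prod, mul_comm]
    simp only [map_pow]
  rw [h1, map_smul, smul_eq_mul, mul_comm]
  rfl

/-- **H0 WITH COEFFICIENTS IN AN EXTENSION.** The certificates have coefficients in an arbitrary
field extension `L ⊇ K`; the points `x`, `y` are `K`-rational. -/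
theorem s17hc_descend {K L : Type*} [Field K] [Field L] [Algebra K L] [AdmissibleAbsValues K]
    {ι κ : Type*} [Fintype ι] [Fintype κ] (M : ℕ) (a : κ → Fin M → MvPolynomial ι L)
    (ha : ∀ j k, (a j k).IsHomogeneous ((k : ℕ) + 1)) :
    ∃ C > 0, ∀ (x : ι → K) (y : κ → K),
      (∀ j, algebraMap K L (y j) ^ M + ∑ k : Fin M,
          eval (fun i => algebraMap K L (x i)) (a j k) *
            algebraMap K L (y j) ^ (M - 1 - (k : ℕ)) = 0) →
        mulHeight (Sum.elim x y) ≤ C * mulHeight x := by
  obtain ⟨π, hπ⟩ := LinearMap.exists_leftInverse_of_injective (Algebra.linearMap K L)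
    (LinearMap.ker_eq_bot.mpr (algebraMap K L).injective)
  have hπ' : ∀ r : K, π (algebraMap K L r) = r := fun r => by
    have := LinearMap.congr_fun hπ r
    simpa using this
  obtain ⟨C, hC, H⟩ := s17hc_main M (fun j k => s17hcMap π (a j k))
    (fun j k => s17hcMap_isHomogeneous π _ _ (ha j k))
  refine ⟨C, hC, fun x y hxy => H x y fun j => ?_⟩
  have h := congrArg π (hxy j)
  rw [map_zero, map_add, map_sum] at h
  rw [← h]
  congr 1
  · rw [← map_pow, hπ']
  · refine Finset.sum_congr rfl fun k _ => ?_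
    rw [s17hc_retract π (a j k) x]
    have h1 : eval (fun i => algebraMap K L (x i)) (a j k) *
        algebraMap K L (y j) ^ (M - 1 - (k : ℕ))
        = (y j ^ (M - 1 - (k : ℕ))) • eval (fun i => algebraMap K L (x i)) (a j k) := by
      rw [Algebra.smul_def, map_pow, mul_comm]
    rw [h1, map_smul, smul_eq_mul, mul_comm]

/-- logarithmic form of `s17hc_descend`. -/
theorem s17hc_descend_log {K L : Type*} [Field K] [Field L] [Algebra K L]
    [AdmissibleAbsValues K] {ι κ : Type*} [Fintype ι] [Fintype κ] (M : ℕ)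
    (a : κ → Fin M → MvPolynomial ι L)
    (ha : ∀ j k, (a j k).IsHomogeneous ((k : ℕ) + 1)) :
    ∃ C : ℝ, ∀ (x : ι → K) (y : κ → K),
      (∀ j, algebraMap K L (y j) ^ M + ∑ k : Fin M,
          eval (fun i => algebraMap K L (x i)) (a j k) *
            algebraMap K L (y j) ^ (M - 1 - (k : ℕ)) = 0) →
        logHeight (Sum.elim x y) ≤ C + logHeight x := by
  obtain ⟨C, hC, H⟩ := s17hc_descend (K := K) M a ha
  refine ⟨Real.log C, fun x y hxy => ?_⟩
  have h := H x y hxy
  rw [logHeight_eq_log_mulHeight, logHeight_eq_log_mulHeight,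
    ← Real.log_mul hC.ne' (mulHeight_ne_zero x)]
  exact Real.log_le_log (mulHeight_pos _) h

/-- **TWO-SIDED FORM WITH COEFFICIENTS IN AN EXTENSION.** -/
theorem s17hc_descend_two {K L : Type*} [Field K] [Field L] [Algebra K L]
    [AdmissibleAbsValues K] {ι κ : Type*} [Fintype ι] [Fintype κ] (M M' : ℕ)
    (a : κ → Fin M → MvPolynomial ι L)
    (ha : ∀ j k, (a j k).IsHomogeneous ((k : ℕ) + 1))
    (a' : ι → Fin M' → MvPolynomial κ L)
    (ha' : ∀ i k, (a' i k).IsHomogeneous ((k : ℕ) + 1)) :
    ∃ C : ℝ, ∀ (x : ι → K) (y : κ → K),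
      (∀ j, algebraMap K L (y j) ^ M + ∑ k : Fin M,
          eval (fun i => algebraMap K L (x i)) (a j k) *
            algebraMap K L (y j) ^ (M - 1 - (k : ℕ)) = 0) →
      (∀ i, algebraMap K L (x i) ^ M' + ∑ k : Fin M',
          eval (fun j => algebraMap K L (y j)) (a' i k) *
            algebraMap K L (x i) ^ (M' - 1 - (k : ℕ)) = 0) →
        |logHeight x - logHeight y| ≤ C := by
  obtain ⟨C₁, H₁⟩ := s17hc_descend_log (K := K) M a ha
  obtain ⟨C₂, H₂⟩ := s17hc_descend_log (K := K) M' a' ha'
  refine ⟨max C₁ C₂, fun x y h1 h2 => ?_⟩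
  have e1 : logHeight y ≤ logHeight (Sum.elim x y) := by
    rw [logHeight_eq_log_mulHeight, logHeight_eq_log_mulHeight]
    exact Real.log_le_log (mulHeight_pos _) (s17hc_le_elim' x y)
  have e2 : logHeight x ≤ logHeight (Sum.elim y x) := by
    rw [logHeight_eq_log_mulHeight, logHeight_eq_log_mulHeight]
    exact Real.log_le_log (mulHeight_pos _) (s17hc_le_elim' y x)
  have e3 := H₁ x y h1
  have e4 := H₂ y x h2
  have m1 := le_max_left C₁ C₂
  have m2 := le_max_right C₁ C₂
  rw [abs_le]
  constructor <;> linarith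

end Fermat.Agent.S17
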