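/-
S17 sprint, leaf **H1 — VALUATIVE CRITERION** (helper60), pure Mathlib.

`L` a field, `K → L` a subfield, `F : ι → L` a finite tuple, `G : L`.  If for EVERY valuation subring
`W ⊇ K` of `L` some coordinate `F α ≠ 0` is a pivot along `W` (`F β / F α ∈ W` for all `β`) with
`G / F α ∈ W` (i.e. `v_W(G) ≥ min_α v_W(F α)`), then `G` is integral over the ideal `(F)`:

  `s17vc_main`   : `∃ M ≥ 1, a k ∈ K[X_ι]` homogeneous of degree `k + 1` (`k < M`),
                   `G ^ M + ∑ k, a_k(F) · G ^ (M − 1 − k) = 0`;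
  `s17vc_family` : the same for a finite family `G : κ → L`, with a COMMON `M`
                   (the literal hypothesis shape of H0, `S17/HtCert.lean`).

Proof: `y := F / G`; if `1 ∉ (y) ⊂ K[y]`, a valuation subring `B ⊇ K[y]` with `y ⊂ 𝔪_B`
(Mathlib `Ideal.image_subset_nonunits_valuationSubring`) contradicts the hypothesis; otherwise
`1 = P(y)` with `P(0) = 0`, and the homogeneous components of `P` give the certificate.
-/
import Mathlib

set_option autoImplicit false

noncomputable section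

namespace Fermat.Agent.S17

open MvPolynomial

variable {K L : Type*} [Field K] [Field L] [Algebra K L] {ι : Type*}

/-- a homogeneous polynomial of degree `d` at `F / G`. -/
theorem s17vc_aeval_div {Q : MvPolynomial ι K} {d : ℕ} (hQ : Q.IsHomogeneous d) (F : ι → L)
    (G : L) : aeval (fun α => F α / G) Q = aeval F Q / G ^ d := by
  classical
  rw [aeval_def, aeval_def, eval₂_eq, eval₂_eq, Finset.sum_div]
  refine Finset.sum_congr rfl fun s hs => ?_
  have hd : d = ∑ i ∈ s.support, s i := hQ.degree_eq_sum_deg_support hs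
  simp_rw [div_pow]
  rw [Finset.prod_div_distrib, Finset.prod_pow_eq_pow_sum, ← hd, mul_div_assoc]

/-- the polynomial `P` with `P(0) = 0` and `P(F / G) = 1`. -/
theorem s17vc_exists_poly [Fintype ι] (F : ι → L) (G : L) (hG : G ≠ 0)
    (hW : ∀ W : ValuationSubring L, (∀ c : K, algebraMap K L c ∈ W) →
      ∃ α, F α ≠ 0 ∧ (∀ β, F β / F α ∈ W) ∧ G / F α ∈ W) :
    ∃ P : MvPolynomial ι K, constantCoeff P = 0 ∧ aeval (fun α => F α / G) P = 1 := by
  classical
  set y : ι → L := fun α => F α / G with hy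
  by_contra hcon
  push Not at hcon
  let A : Subalgebra K L := Algebra.adjoin K (Set.range y)
  have hyA : ∀ α, y α ∈ A := fun α => Algebra.subset_adjoin ⟨α, rfl⟩
  let I : Ideal A.toSubring :=
    Ideal.span (Set.range fun α => (⟨y α, hyA α⟩ : A.toSubring))
  have hI : I ≠ ⊤ := by
    intro htop
    have h1 : (1 : A.toSubring) ∈ I := by
      rw [htop]
      trivial
    obtain ⟨c, hc⟩ := (Ideal.mem_span_range_iff_exists_fun).1 h1
    have hp : ∀ α, ∃ p : MvPolynomial ι K, aeval y p = ((c α : A.toSubring) : L) := by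
      intro α
      have h2 : ((c α : A.toSubring) : L) ∈ Algebra.adjoin K (Set.range y) := (c α).2
      rw [Algebra.adjoin_range_eq_range_aeval] at h2
      exact h2
    choose p hp using hp
    refine hcon (∑ α, p α * X α) ?_ ?_
    · rw [map_sum]
      refine Finset.sum_eq_zero fun α _ => ?_
      rw [map_mul, constantCoeff_X, mul_zero]
    · rw [map_sum]
      simp_rw [map_mul, aeval_X, hp]
      have h3 := congrArg (Subtype.val : A.toSubring → L) hc
      simpa using h3
  obtain ⟨B, hAB, hIB⟩ := Ideal.image_subset_nonunits_valuationSubring I hI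
  have hKB : ∀ c : K, algebraMap K L c ∈ B := fun c => hAB (A.algebraMap_mem c)
  obtain ⟨α, hα, -, hGα⟩ := hW B hKB
  have hyα : y α ∈ B.nonunits :=
    hIB ⟨⟨y α, hyA α⟩, Ideal.subset_span ⟨α, rfl⟩, rfl⟩
  have h1 : y α * (G / F α) = 1 := by
    simp only [hy]
    field_simp
  have hv1 : B.valuation (y α) < 1 := hyα
  have hv2 : B.valuation (G / F α) ≤ 1 := (B.valuation_le_one_iff _).2 hGα
  have hlt : B.valuation (y α * (G / F α)) < 1 := by
    rw [map_mul]
    calc B.valuation (y α) * B.valuation (G / F α)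
        ≤ B.valuation (y α) * 1 := mul_le_mul' le_rfl hv2
      _ = B.valuation (y α) := mul_one _
      _ < 1 := hv1
  rw [h1, map_one] at hlt
  exact lt_irrefl _ hlt

/-- **H1, range form**: an equation of integral dependence with coefficients `a k` (`k : ℕ`),
`a k` homogeneous of degree `k + 1`, `a k = 0` for `k ≥ M`. -/
theorem s17vc_main_range [Fintype ι] (F : ι → L) (G : L)
    (hW : ∀ W : ValuationSubring L, (∀ c : K, algebraMap K L c ∈ W) →
      ∃ α, F α ≠ 0 ∧ (∀ β, F β / F α ∈ W) ∧ G / F α ∈ W) :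
    ∃ (M : ℕ) (a : ℕ → MvPolynomial ι K), 1 ≤ M ∧
      (∀ k, (a k).IsHomogeneous (k + 1)) ∧ (∀ k, M ≤ k → a k = 0) ∧
      G ^ M + ∑ k ∈ Finset.range M, aeval F (a k) * G ^ (M - 1 - k) = 0 := by
  classical
  by_cases hG : G = 0
  · refine ⟨1, fun _ => 0, le_rfl, fun k => isHomogeneous_zero _ _ _, fun _ _ => rfl, ?_⟩
    simp [hG]
  obtain ⟨P, hP0, hP1⟩ := s17vc_exists_poly F G hG hW
  set D := P.totalDegree with hD
  set A : ℕ → L := fun d => aeval F (homogeneousComponent d P) with hA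
  have hA0 : A 0 = 0 := by
    simp only [hA]
    rw [homogeneousComponent_zero]
    have : coeff 0 P = 0 := by
      rw [← constantCoeff_eq]
      exact hP0
    rw [this, map_zero, map_zero]
  have hAD : A (D + 1) = 0 := by
    simp only [hA]
    rw [homogeneousComponent_eq_zero _ _ (by omega), map_zero]
  -- `1 = Σ_{d ≤ D} A d / G ^ d`
  have hsum : (1 : L) = ∑ d ∈ Finset.range (D + 1), A d / G ^ d := by
    rw [← hP1]
    conv_lhs => rw [← sum_homogeneousComponent P]
    rw [map_sum]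
    exact Finset.sum_congr rfl fun d _ =>
      s17vc_aeval_div (homogeneousComponent_isHomogeneous d P) F G
  -- `G ^ (D + 1) = Σ_{k ≤ D} A (k + 1) G ^ (D − k)`
  have hpow : G ^ (D + 1) = ∑ k ∈ Finset.range (D + 1), A (k + 1) * G ^ (D - k) := by
    have e1 : G ^ (D + 1) = ∑ d ∈ Finset.range (D + 1), A d * G ^ (D + 1 - d) := by
      calc G ^ (D + 1) = G ^ (D + 1) * 1 := (mul_one _).symm
        _ = G ^ (D + 1) * ∑ d ∈ Finset.range (D + 1), A d / G ^ d := by rw [← hsum]
        _ = ∑ d ∈ Finset.range (D + 1), A d * G ^ (D + 1 - d) := by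
          rw [Finset.mul_sum]
          refine Finset.sum_congr rfl fun d hd => ?_
          have hd' : d ≤ D + 1 := by
            have := Finset.mem_range.1 hd
            omega
          have e : G ^ (D + 1) = G ^ (D + 1 - d) * G ^ d := by
            rw [← pow_add, Nat.sub_add_cancel hd']
          rw [e]
          field_simp
    rw [e1, Finset.sum_range_succ' (fun d => A d * G ^ (D + 1 - d)),
      Finset.sum_range_succ (fun k => A (k + 1) * G ^ (D - k)), hA0, hAD, zero_mul, zero_mul,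
      add_zero, add_zero]
    refine Finset.sum_congr rfl fun k _ => ?_
    have : D + 1 - (k + 1) = D - k := by omega
    rw [this]
  refine ⟨D + 1, fun k => - homogeneousComponent (k + 1) P, Nat.le_add_left 1 D,
    fun k => (homogeneousComponent_isHomogeneous _ _).neg, fun k hk => ?_, ?_⟩
  · show - homogeneousComponent (k + 1) P = 0
    rw [homogeneousComponent_eq_zero _ _ (by omega), neg_zero]
  · rw [hpow, ← Finset.sum_add_distrib]
    refine Finset.sum_eq_zero fun k _ => ?_
    have : D + 1 - 1 - k = D - k := by omega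
    rw [this, map_neg]
    simp only [hA]
    ring

/-- padding a certificate (range form) to a larger exponent. -/
theorem s17vc_pad {F : ι → L} {G : L} {M : ℕ} (a : ℕ → MvPolynomial ι K)
    (ha0 : ∀ k, M ≤ k → a k = 0)
    (h : G ^ M + ∑ k ∈ Finset.range M, aeval F (a k) * G ^ (M - 1 - k) = 0)
    (M' : ℕ) (hMM : M ≤ M') :
    G ^ M' + ∑ k ∈ Finset.range M', aeval F (a k) * G ^ (M' - 1 - k) = 0 := by
  have e2 : ∑ k ∈ Finset.range M', aeval F (a k) * G ^ (M' - 1 - k)
      = ∑ k ∈ Finset.range M, aeval F (a k) * G ^ (M' - 1 - k) := by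
    symm
    refine Finset.sum_subset (Finset.range_subset_range.2 hMM) fun k _ hk => ?_
    have hk' : M ≤ k := by
      by_contra hlt
      exact hk (Finset.mem_range.2 (by omega))
    rw [ha0 k hk', map_zero, zero_mul]
  have e3 : ∑ k ∈ Finset.range M, aeval F (a k) * G ^ (M' - 1 - k)
      = G ^ (M' - M) * ∑ k ∈ Finset.range M, aeval F (a k) * G ^ (M - 1 - k) := by
    rw [Finset.mul_sum]
    refine Finset.sum_congr rfl fun k hk => ?_
    have hk' : k < M := Finset.mem_range.1 hk
    have : M' - 1 - k = (M' - M) + (M - 1 - k) := by omega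
    rw [this, pow_add]
    ring
  have e4 : G ^ M' = G ^ (M' - M) * G ^ M := by
    rw [← pow_add, Nat.sub_add_cancel hMM]
  rw [e2, e3, e4, ← mul_add, h, mul_zero]

/-- **H1, the valuative criterion**: a valuative inequality `v_W(G) ≥ min_α v_W(F α)` for every
valuation subring `W ⊇ K` gives an equation of integral dependence of `G` over the ideal `(F)`. -/
theorem s17vc_main [Fintype ι] (F : ι → L) (G : L)
    (hW : ∀ W : ValuationSubring L, (∀ c : K, algebraMap K L c ∈ W) →
      ∃ α, F α ≠ 0 ∧ (∀ β, F β / F α ∈ W) ∧ G / F α ∈ W) :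
    ∃ (M : ℕ) (a : Fin M → MvPolynomial ι K), 1 ≤ M ∧
      (∀ k, (a k).IsHomogeneous ((k : ℕ) + 1)) ∧
      G ^ M + ∑ k : Fin M, aeval F (a k) * G ^ (M - 1 - (k : ℕ)) = 0 := by
  obtain ⟨M, a, hM, ha, -, h⟩ := s17vc_main_range F G hW
  refine ⟨M, fun k => a k, hM, fun k => ha k, ?_⟩
  rw [Fin.sum_univ_eq_sum_range (fun k => aeval F (a k) * G ^ (M - 1 - k)) M]
  exact h

/-- **H1 for a finite family** `G : κ → L`, with a COMMON exponent `M` (the literal hypothesis
shape of H0). -/
theorem s17vc_family [Fintype ι] {κ : Type*} [Fintype κ] (F : ι → L) (G : κ → L)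
    (hW : ∀ W : ValuationSubring L, (∀ c : K, algebraMap K L c ∈ W) →
      ∃ α, F α ≠ 0 ∧ (∀ β, F β / F α ∈ W) ∧ ∀ j, G j / F α ∈ W) :
    ∃ (M : ℕ) (a : κ → Fin M → MvPolynomial ι K), 1 ≤ M ∧
      (∀ j k, (a j k).IsHomogeneous ((k : ℕ) + 1)) ∧
      ∀ j, G j ^ M + ∑ k : Fin M, aeval F (a j k) * G j ^ (M - 1 - (k : ℕ)) = 0 := by
  classical
  have h1 : ∀ j, ∃ (M : ℕ) (a : ℕ → MvPolynomial ι K), 1 ≤ M ∧
      (∀ k, (a k).IsHomogeneous (k + 1)) ∧ (∀ k, M ≤ k → a k = 0) ∧
      G j ^ M + ∑ k ∈ Finset.range M, aeval F (a k) * G j ^ (M - 1 - k) = 0 := fun j =>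
    s17vc_main_range F (G j) fun W hK => by
      obtain ⟨α, hα, hβ, hG⟩ := hW W hK
      exact ⟨α, hα, hβ, hG j⟩
  choose M a hM ha ha0 h using h1
  refine ⟨1 + ∑ j, M j, fun j k => a j k, Nat.le_add_right 1 _, fun j k => ha j k, fun j => ?_⟩
  rw [Fin.sum_univ_eq_sum_range (fun k => aeval F (a j k) * G j ^ (1 + ∑ j, M j - 1 - k))
    (1 + ∑ j, M j)]
  refine s17vc_pad (a j) (ha0 j) (h j) _ ?_
  have := Finset.single_le_sum (f := M) (fun i _ => Nat.zero_le _) (Finset.mem_univ j)
  omega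

/-- the two-sided form: if `min_α v_W(F α) = min_β v_W(G β)` for every `W ⊇ K` (each side has a
pivot which divides everything on both sides), both tuples are integral over each other. -/
theorem s17vc_equiv [Fintype ι] {κ : Type*} [Fintype κ] (F : ι → L) (G : κ → L)
    (hW : ∀ W : ValuationSubring L, (∀ c : K, algebraMap K L c ∈ W) →
      ∃ α β, F α ≠ 0 ∧ G β ≠ 0 ∧ (∀ α', F α' / F α ∈ W) ∧ (∀ β', G β' / G β ∈ W) ∧
        G β / F α ∈ W ∧ F α / G β ∈ W) :
    (∃ (M : ℕ) (a : κ → Fin M → MvPolynomial ι K), 1 ≤ M ∧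
      (∀ j k, (a j k).IsHomogeneous ((k : ℕ) + 1)) ∧
      ∀ j, G j ^ M + ∑ k : Fin M, aeval F (a j k) * G j ^ (M - 1 - (k : ℕ)) = 0) ∧
    (∃ (M : ℕ) (a : ι → Fin M → MvPolynomial κ K), 1 ≤ M ∧
      (∀ j k, (a j k).IsHomogeneous ((k : ℕ) + 1)) ∧
      ∀ j, F j ^ M + ∑ k : Fin M, aeval G (a j k) * F j ^ (M - 1 - (k : ℕ)) = 0) := by
  constructor
  · refine s17vc_family F G fun W hK => ?_
    obtain ⟨α, β, hα, hβ, hF, hG, h1, h2⟩ := hW W hK
    refine ⟨α, hα, hF, fun j => ?_⟩
    have : G j / F α = (G j / G β) * (G β / F α) := by field_simp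
    rw [this]
    exact W.mul_mem _ _ (hG j) h1
  · refine s17vc_family G F fun W hK => ?_
    obtain ⟨α, β, hα, hβ, hF, hG, h1, h2⟩ := hW W hK
    refine ⟨β, hβ, hG, fun j => ?_⟩
    have : F j / G β = (F j / F α) * (F α / G β) := by field_simp
    rw [this]
    exact W.mul_mem _ _ (hF j) h2

end Fermat.Agent.S17

end
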