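import Fermat.Agent.S17.Place
import Fermat.Agent.S17.ValCrit
import Fermat.Agent.S17.HtCert2

/-!
# S17 leaf H2, assembled with H0 and H1 — uniform height comparison at places (helper21)

`K₀ ⊆ K ⊆ L` fields, `K₀` with `AdmissibleAbsValues` (e.g. `K₀ = ℚ`, `K = Qb`), `F : ι → L`,
`G : κ → L` two tuples which are **valuatively equivalent** over `K₀` (the hypothesis of
`s17vc_equiv`: equal minimal valuations at every valuation subring `W ⊇ K₀` of `L`).

* `s17plh_valOver_cert`, `s17plh_valOver_cert_rev` : at a place `P` with residue field `K` the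
  combined place-value `[F, G]_P = Sum.elim x y` satisfies the certificates in both directions
  (explicit `y = s17plValOver`).
* `s17plh_cert_descend` : a certificate between `K₀`-rational tuples, read in `K`, holds in `K₀`.
* `s17plh_main` : **∃ C, ∀ places P**, every `K₀`-rational representative `(x₀, y₀)` of the
  combined value `[F, G]_P` has `|logHeight x₀ − logHeight y₀| ≤ C`.
* `s17plh_main_mul` : the same with `mulHeight`.
-/

namespace Fermat.Agent.S17

open MvPolynomial Height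

section Explicit

variable {K L : Type*} [Field K] [Field L] [Algebra K L] {ι κ : Type*}

/-- the certificates of `G` over `F` at the combined place-value (explicit form). -/
theorem s17plh_valOver_cert (P : S17plPlace K L) (F : ι → L) (α : ι)
    (hα : S17plIsMin P.W F α) (G : κ → L) {M : ℕ} {a : κ → Fin M → MvPolynomial ι K}
    (ha : ∀ j, S17plCert F (G j) M (a j)) (hG : ∀ j, G j / F α ∈ P.W) (j : κ) :
    s17plValOver P F α G hG j ^ M + ∑ k : Fin M,
      eval (s17plVal P F α hα) (a j k) * s17plValOver P F α G hG j ^ (M - 1 - (k : ℕ)) = 0 :=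
  s17pl_valOver_cert P F α hα G ha hG j

/-- the certificates of `F` over `G` at the combined place-value (explicit form). -/
theorem s17plh_valOver_cert_rev (P : S17plPlace K L) (F : ι → L) (α : ι)
    (hα : S17plIsMin P.W F α) (G : κ → L) (β : κ) (hβ : S17plIsMin P.W G β)
    (hG : ∀ j, G j / F α ∈ P.W) {M' : ℕ} {b : ι → Fin M' → MvPolynomial κ K}
    (hb : ∀ i, S17plCert G (F i) M' (b i)) (i : ι) :
    s17plVal P F α hα i ^ M' + ∑ k : Fin M',
      eval (s17plValOver P F α G hG) (b i k) * s17plVal P F α hα i ^ (M' - 1 - (k : ℕ)) = 0 := by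
  have hFi : F i / G β ∈ P.W := s17pl_cert_mem P.W P.hKW G β hβ (hb i)
  have h1 := s17pl_cert_val P G β hβ (hb i) hFi
  have h2 := s17pl_cert_scale (P.res ⟨G β / F α, hG β⟩) (s17plVal P G β hβ)
    (P.res ⟨F i / G β, hFi⟩) (hb i).1 h1
  have hy : (fun j => P.res ⟨G β / F α, hG β⟩ * s17plVal P G β hβ j) =
      s17plValOver P F α G hG := by
    funext j
    rw [s17pl_val_apply, ← map_mul]
    show _ = P.res ⟨G j / F α, hG j⟩
    congr 1
    apply Subtype.ext
    show G β / F α * (G j / G β) = G j / F α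
    have := hα.1
    have := hβ.1
    field_simp
  have hx : P.res ⟨G β / F α, hG β⟩ * P.res ⟨F i / G β, hFi⟩ = s17plVal P F α hα i := by
    rw [s17pl_val_apply, ← map_mul]
    congr 1
    apply Subtype.ext
    show G β / F α * (F i / G β) = F i / F α
    have := hα.1
    have := hβ.1
    field_simp
  rw [hy, hx] at h2
  exact h2

end Explicit

section Descend

variable {K₀ K : Type*} [Field K₀] [Field K] [Algebra K₀ K] {ι : Type*}

theorem s17plh_eval_map (x₀ : ι → K₀) (Q : MvPolynomial ι K₀) :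
    eval (fun i => algebraMap K₀ K (x₀ i)) (map (algebraMap K₀ K) Q) =
      algebraMap K₀ K (eval x₀ Q) := by
  rw [eval_map]
  have := eval₂_comp_left (algebraMap K₀ K) (RingHom.id K₀) x₀ Q
  rw [RingHom.comp_id] at this
  exact this.symm

/-- a certificate between `K₀`-rational tuples, read in `K`, holds in `K₀`. -/
theorem s17plh_cert_descend (x₀ : ι → K₀) (y₀ : K₀) {M : ℕ} (a : Fin M → MvPolynomial ι K₀)
    (h : algebraMap K₀ K y₀ ^ M + ∑ k : Fin M,
      eval (fun i => algebraMap K₀ K (x₀ i)) (map (algebraMap K₀ K) (a k)) *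
        algebraMap K₀ K y₀ ^ (M - 1 - (k : ℕ)) = 0) :
    y₀ ^ M + ∑ k : Fin M, eval x₀ (a k) * y₀ ^ (M - 1 - (k : ℕ)) = 0 := by
  apply (algebraMap K₀ K).injective
  rw [map_add, map_pow, map_sum, map_zero]
  simp_rw [map_mul, map_pow, ← s17plh_eval_map]
  exact h

end Descend

section Main

variable {K₀ K L : Type*} [Field K₀] [AdmissibleAbsValues K₀] [Field K] [Field L]
  [Algebra K₀ K] [Algebra K L] [Algebra K₀ L] [IsScalarTower K₀ K L]
  {ι κ : Type*} [Fintype ι] [Fintype κ]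

omit [AdmissibleAbsValues K₀] in
/-- **certificates at a rational representative of the combined place-value.** -/
theorem s17plh_rational_cert (F : ι → L) (G : κ → L) {M : ℕ}
    {a : κ → Fin M → MvPolynomial ι K₀} (ha : ∀ j k, (a j k).IsHomogeneous ((k : ℕ) + 1))
    (hca : ∀ j, G j ^ M + ∑ k : Fin M, aeval F (a j k) * G j ^ (M - 1 - (k : ℕ)) = 0)
    {M' : ℕ} {b : ι → Fin M' → MvPolynomial κ K₀}
    (hb : ∀ i k, (b i k).IsHomogeneous ((k : ℕ) + 1))
    (hcb : ∀ i, F i ^ M' + ∑ k : Fin M', aeval G (b i k) * F i ^ (M' - 1 - (k : ℕ)) = 0)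
    (P : S17plPlace K L) (γ : ι ⊕ κ) (hγ : S17plIsMin P.W (Sum.elim F G) γ)
    (x₀ : ι → K₀) (y₀ : κ → K₀) (t : K)
    (hx : ∀ i, s17plVal P (Sum.elim F G) γ hγ (Sum.inl i) = t * algebraMap K₀ K (x₀ i))
    (hy : ∀ j, s17plVal P (Sum.elim F G) γ hγ (Sum.inr j) = t * algebraMap K₀ K (y₀ j)) :
    (∀ j, y₀ j ^ M + ∑ k : Fin M, eval x₀ (a j k) * y₀ j ^ (M - 1 - (k : ℕ)) = 0) ∧
    (∀ i, x₀ i ^ M' + ∑ k : Fin M', eval y₀ (b i k) * x₀ i ^ (M' - 1 - (k : ℕ)) = 0) := by
  classical
  have hA : ∀ j, S17plCert (K := K) F (G j) M (fun k => map (algebraMap K₀ K) (a j k)) :=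
    fun j => s17pl_cert_map (ha j) (hca j)
  have hB : ∀ i, S17plCert (K := K) G (F i) M' (fun k => map (algebraMap K₀ K) (b i k)) :=
    fun i => s17pl_cert_map (hb i) (hcb i)
  -- the tuples are nonzero
  have hFG0 : Sum.elim F G ≠ 0 := s17pl_isMin_ne_zero hγ
  have hF0 : F ≠ 0 := by
    intro hF
    apply hFG0
    have hGz : ∀ j, G j = 0 := by
      intro j
      have h := hca j
      have hz : ∀ k : Fin M, aeval F (a j k) = 0 := by
        intro k
        rw [hF]
        have h1 := s17pl_aeval_scale (0 : L) (fun _ : ι => (0 : L)) (ha j k)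
        have h2 : (fun _ : ι => (0 : L) * (0 : L)) = (0 : ι → L) := by
          funext i
          exact mul_zero _
        rw [h2] at h1
        rw [h1, zero_pow (Nat.succ_ne_zero _), zero_mul]
      simp only [hz, zero_mul, Finset.sum_const_zero, add_zero] at h
      by_cases hM : M = 0
      · subst hM
        simp at h
      · exact (pow_eq_zero_iff hM).1 h
    funext c
    cases c with
    | inl i => exact congrFun hF i
    | inr j => exact hGz j
  have hG0 : G ≠ 0 := by
    intro hG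
    apply hF0
    funext i
    have h := hcb i
    have hz : ∀ k : Fin M', aeval G (b i k) = 0 := by
      intro k
      rw [hG]
      have h1 := s17pl_aeval_scale (0 : L) (fun _ : κ => (0 : L)) (hb i k)
      have h2 : (fun _ : κ => (0 : L) * (0 : L)) = (0 : κ → L) := by
        funext i
        exact mul_zero _
      rw [h2] at h1
      rw [h1, zero_pow (Nat.succ_ne_zero _), zero_mul]
    simp only [hz, zero_mul, Finset.sum_const_zero, add_zero] at h
    by_cases hM : M' = 0
    · subst hM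
      simp at h
    · exact (pow_eq_zero_iff hM).1 h
  obtain ⟨α, hα⟩ := s17pl_exists_min P.W hF0
  obtain ⟨β, hβ⟩ := s17pl_exists_min P.W hG0
  have hG : ∀ j, G j / F α ∈ P.W := fun j => s17pl_cert_mem P.W P.hKW F α hα (hA j)
  -- change of chart `γ → inl α`
  obtain ⟨c, hc0, hc⟩ := s17pl_val_change P (Sum.elim F G) γ (Sum.inl α) hγ
    (s17pl_isMin_elim hα hG)
  have hval := s17pl_val_elim P F α hα G hG
  have hxα : ∀ i, s17plVal P F α hα i = c * t * algebraMap K₀ K (x₀ i) := by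
    intro i
    have h1 := hc (Sum.inl i)
    rw [hval, hx i] at h1
    rw [mul_assoc]
    exact h1
  have hyα : ∀ j, s17plValOver P F α G hG j = c * t * algebraMap K₀ K (y₀ j) := by
    intro j
    have h1 := hc (Sum.inr j)
    rw [hval, hy j] at h1
    rw [mul_assoc]
    exact h1
  set u : K := c * t with hu
  have hu0 : u ≠ 0 := by
    intro h0
    have h1 := hxα α
    rw [s17pl_val_self, h0, zero_mul] at h1
    exact one_ne_zero h1
  have hxu : ∀ i, u⁻¹ * s17plVal P F α hα i = algebraMap K₀ K (x₀ i) := by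
    intro i
    rw [hxα i, ← mul_assoc, inv_mul_cancel₀ hu0, one_mul]
  have hyu : ∀ j, u⁻¹ * s17plValOver P F α G hG j = algebraMap K₀ K (y₀ j) := by
    intro j
    rw [hyα j, ← mul_assoc, inv_mul_cancel₀ hu0, one_mul]
  constructor
  · intro j
    have h1 := s17plh_valOver_cert P F α hα G hA hG j
    have h2 := s17pl_cert_scale u⁻¹ (s17plVal P F α hα) (s17plValOver P F α G hG j)
      (hA j).1 h1
    rw [hyu j, funext hxu] at h2
    exact s17plh_cert_descend x₀ (y₀ j) (a j) h2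
  · intro i
    have h1 := s17plh_valOver_cert_rev P F α hα G β hβ hG hB i
    have h2 := s17pl_cert_scale u⁻¹ (s17plValOver P F α G hG) (s17plVal P F α hα i)
      (hB i).1 h1
    rw [hxu i, funext hyu] at h2
    exact s17plh_cert_descend y₀ (x₀ i) (b i) h2

/-- **H1 + H2 + H0, multiplicative form**: valuatively equivalent tuples have place-values of
boundedly different height, uniformly in the place. -/
theorem s17plh_main_mul (F : ι → L) (G : κ → L)
    (hW : ∀ W : ValuationSubring L, (∀ c : K₀, algebraMap K₀ L c ∈ W) →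
      ∃ α β, F α ≠ 0 ∧ G β ≠ 0 ∧ (∀ α', F α' / F α ∈ W) ∧ (∀ β', G β' / G β ∈ W) ∧
        G β / F α ∈ W ∧ F α / G β ∈ W) :
    ∃ C > 0, ∀ (P : S17plPlace K L) (γ : ι ⊕ κ) (hγ : S17plIsMin P.W (Sum.elim F G) γ)
      (x₀ : ι → K₀) (y₀ : κ → K₀) (t : K),
      (∀ i, s17plVal P (Sum.elim F G) γ hγ (Sum.inl i) = t * algebraMap K₀ K (x₀ i)) →
      (∀ j, s17plVal P (Sum.elim F G) γ hγ (Sum.inr j) = t * algebraMap K₀ K (y₀ j)) →
        mulHeight y₀ ≤ C * mulHeight x₀ ∧ mulHeight x₀ ≤ C * mulHeight y₀ := by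
  obtain ⟨⟨M, a, -, ha, hca⟩, ⟨M', b, -, hb, hcb⟩⟩ := s17vc_equiv F G hW
  obtain ⟨C, hC, H⟩ := s17hc_two_mul M M' a ha b hb
  refine ⟨C, hC, fun P γ hγ x₀ y₀ t hx hy => ?_⟩
  obtain ⟨h1, h2⟩ := s17plh_rational_cert (K := K) F G ha hca hb hcb P γ hγ x₀ y₀ t hx hy
  exact H x₀ y₀ h1 h2

/-- **H1 + H2 + H0, logarithmic form.** -/
theorem s17plh_main (F : ι → L) (G : κ → L)
    (hW : ∀ W : ValuationSubring L, (∀ c : K₀, algebraMap K₀ L c ∈ W) →
      ∃ α β, F α ≠ 0 ∧ G β ≠ 0 ∧ (∀ α', F α' / F α ∈ W) ∧ (∀ β', G β' / G β ∈ W) ∧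
        G β / F α ∈ W ∧ F α / G β ∈ W) :
    ∃ C : ℝ, ∀ (P : S17plPlace K L) (γ : ι ⊕ κ) (hγ : S17plIsMin P.W (Sum.elim F G) γ)
      (x₀ : ι → K₀) (y₀ : κ → K₀) (t : K),
      (∀ i, s17plVal P (Sum.elim F G) γ hγ (Sum.inl i) = t * algebraMap K₀ K (x₀ i)) →
      (∀ j, s17plVal P (Sum.elim F G) γ hγ (Sum.inr j) = t * algebraMap K₀ K (y₀ j)) →
        |logHeight x₀ - logHeight y₀| ≤ C := by
  obtain ⟨⟨M, a, -, ha, hca⟩, ⟨M', b, -, hb, hcb⟩⟩ := s17vc_equiv F G hW
  obtain ⟨C, H⟩ := s17hc_two M M' a ha b hb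
  refine ⟨C, fun P γ hγ x₀ y₀ t hx hy => ?_⟩
  obtain ⟨h1, h2⟩ := s17plh_rational_cert (K := K) F G ha hca hb hcb P γ hγ x₀ y₀ t hx hy
  exact H x₀ y₀ h1 h2

end Main

end Fermat.Agent.S17
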