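/-
S17 sprint, leaf H1b (helper60): BASE-FIELD DESCENT for the valuative criterion H1
(`Fermat/Agent/S17/ValCrit.lean`), as asked by helper3 and helper14 (06:21Z):

  a valuation subring `W` of `L` containing a field `K₀` contains every intermediate field `K`
  that is algebraic over `K₀` (`W` is integrally closed in `L`).

Hence "for all valuation subrings `W ⊇ K`" and "for all valuation subrings `W ⊇ K₀`" are the same
hypothesis, and H1 applied over `K₀` produces certificates with coefficients in `K₀`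
(`K₀ = ℚ`, `K = AlgebraicClosure ℚ`): H0 is then applied over `ℚ` only — no relative heights.

Only Mathlib and `ValCrit.lean` are used.
-/
import Fermat.Agent.S17.ValCrit

namespace Fermat.Agent.S17

open MvPolynomial

/-- A valuation subring is integrally closed in its field. -/
theorem s17vcq_mem_of_isIntegral {L : Type*} [Field L] (W : ValuationSubring L) {x : L}
    (hx : IsIntegral W x) : x ∈ W := by
  obtain ⟨y, hy⟩ := (IsIntegrallyClosed.isIntegral_iff (R := W) (K := L)).1 hx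
  rw [← hy]
  exact y.2

section Tower

variable {K₀ K L : Type*} [Field K₀] [Field K] [Field L] [Algebra K₀ K] [Algebra K L]
  [Algebra K₀ L] [IsScalarTower K₀ K L]

/-- A valuation subring of `L` containing `K₀` contains every element of `L` that is integral
over `K₀`. -/
theorem s17vcq_mem_of_isIntegral_base (W : ValuationSubring L)
    (hW : ∀ c : K₀, algebraMap K₀ L c ∈ W) {x : L} (hx : IsIntegral K₀ x) : x ∈ W := by
  apply s17vcq_mem_of_isIntegral W
  obtain ⟨p, hp, hpx⟩ := hx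
  -- the subring of `W` generated by the image of `K₀`
  let φ : K₀ →+* W := (algebraMap K₀ L).codRestrict W.toSubring hW
  refine ⟨p.map φ, hp.map φ, ?_⟩
  have h1 : (algebraMap W L).comp φ = algebraMap K₀ L := by
    ext c
    rfl
  rw [Polynomial.eval₂_map, h1]
  exact hpx

/-- **`W ⊇ K₀ ⇒ W ⊇ K`** for `K / K₀` algebraic. -/
theorem s17vcq_mem_of_algebraic [Algebra.IsAlgebraic K₀ K] (W : ValuationSubring L)
    (hW : ∀ c : K₀, algebraMap K₀ L c ∈ W) (x : K) : algebraMap K L x ∈ W := by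
  apply s17vcq_mem_of_isIntegral_base (K₀ := K₀) W hW
  have hx : IsIntegral K₀ x := (Algebra.IsAlgebraic.isAlgebraic (R := K₀) x).isIntegral
  exact hx.map (IsScalarTower.toAlgHom K₀ K L)

variable {ι : Type*}

/-- **H1 over the small field.**  The hypothesis is only asked for the valuation subrings
containing the big field `K`; the certificate has coefficients in the small field `K₀`. -/
theorem s17vcq_main [Algebra.IsAlgebraic K₀ K] [Fintype ι] (F : ι → L) (G : L)
    (hW : ∀ W : ValuationSubring L, (∀ c : K, algebraMap K L c ∈ W) →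
      ∃ α, F α ≠ 0 ∧ (∀ β, F β / F α ∈ W) ∧ G / F α ∈ W) :
    ∃ (M : ℕ) (a : Fin M → MvPolynomial ι K₀), 1 ≤ M ∧
      (∀ k, (a k).IsHomogeneous ((k : ℕ) + 1)) ∧
      G ^ M + ∑ k : Fin M, aeval F (a k) * G ^ (M - 1 - (k : ℕ)) = 0 :=
  s17vc_main (K := K₀) F G fun W h => hW W (s17vcq_mem_of_algebraic (K₀ := K₀) W h)

/-- Family version of `s17vcq_main` (common `M`; literal hypothesis shape of H0 over `K₀`). -/
theorem s17vcq_family [Algebra.IsAlgebraic K₀ K] [Fintype ι] {κ : Type*} [Fintype κ]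
    (F : ι → L) (G : κ → L)
    (hW : ∀ W : ValuationSubring L, (∀ c : K, algebraMap K L c ∈ W) →
      ∃ α, F α ≠ 0 ∧ (∀ β, F β / F α ∈ W) ∧ ∀ j, G j / F α ∈ W) :
    ∃ (M : ℕ) (a : κ → Fin M → MvPolynomial ι K₀), 1 ≤ M ∧
      (∀ j k, (a j k).IsHomogeneous ((k : ℕ) + 1)) ∧
      ∀ j, G j ^ M + ∑ k : Fin M, aeval F (a j k) * G j ^ (M - 1 - (k : ℕ)) = 0 :=
  s17vc_family (K := K₀) F G fun W h => hW W (s17vcq_mem_of_algebraic (K₀ := K₀) W h)

/-- Two-sided version of `s17vcq_main`. -/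
theorem s17vcq_equiv [Algebra.IsAlgebraic K₀ K] [Fintype ι] {κ : Type*} [Fintype κ]
    (F : ι → L) (G : κ → L)
    (hW : ∀ W : ValuationSubring L, (∀ c : K, algebraMap K L c ∈ W) →
      ∃ α β, F α ≠ 0 ∧ G β ≠ 0 ∧ (∀ α', F α' / F α ∈ W) ∧ (∀ β', G β' / G β ∈ W) ∧
        G β / F α ∈ W ∧ F α / G β ∈ W) :
    (∃ (M : ℕ) (a : κ → Fin M → MvPolynomial ι K₀), 1 ≤ M ∧
      (∀ j k, (a j k).IsHomogeneous ((k : ℕ) + 1)) ∧
      ∀ j, G j ^ M + ∑ k : Fin M, aeval F (a j k) * G j ^ (M - 1 - (k : ℕ)) = 0) ∧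
    (∃ (M : ℕ) (a : ι → Fin M → MvPolynomial κ K₀), 1 ≤ M ∧
      (∀ j k, (a j k).IsHomogeneous ((k : ℕ) + 1)) ∧
      ∀ j, F j ^ M + ∑ k : Fin M, aeval G (a j k) * F j ^ (M - 1 - (k : ℕ)) = 0) :=
  s17vc_equiv (K := K₀) F G fun W h => hW W (s17vcq_mem_of_algebraic (K₀ := K₀) W h)

end Tower

/-- The instance used in the sprint: `K₀ = ℚ`, `K = AlgebraicClosure ℚ`. -/
theorem s17vcq_main_Q {L : Type*} [Field L] [Algebra (AlgebraicClosure ℚ) L] [Algebra ℚ L]
    [IsScalarTower ℚ (AlgebraicClosure ℚ) L] {ι : Type*} [Fintype ι] {κ : Type*} [Fintype κ]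
    (F : ι → L) (G : κ → L)
    (hW : ∀ W : ValuationSubring L, (∀ c : AlgebraicClosure ℚ, algebraMap _ L c ∈ W) →
      ∃ α, F α ≠ 0 ∧ (∀ β, F β / F α ∈ W) ∧ ∀ j, G j / F α ∈ W) :
    ∃ (M : ℕ) (a : κ → Fin M → MvPolynomial ι ℚ), 1 ≤ M ∧
      (∀ j k, (a j k).IsHomogeneous ((k : ℕ) + 1)) ∧
      ∀ j, G j ^ M + ∑ k : Fin M, aeval F (a j k) * G j ^ (M - 1 - (k : ℕ)) = 0 := by
  have : Algebra.IsAlgebraic ℚ (AlgebraicClosure ℚ) := AlgebraicClosure.isAlgebraic ℚ
  exact s17vcq_family (K₀ := ℚ) (K := AlgebraicClosure ℚ) F G hW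

end Fermat.Agent.S17

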