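/-
S17 sprint, layer H — **glue BPF ⇒ H1/H2 shape** (helper11).

`S17muBpf K b m s` (S17/Mult.lean) = "`s ⊆ L(m D)` without common zero" (`b V` local equations of `D`).

* `s17be_equiv`     : TWO base-point-free families `F`, `G` of the SAME `L(m D)` are valuatively
    equivalent, in the LITERAL shape of the hypothesis `hW` of `s17vc_equiv` (H1), `s17vcq_equiv`
    (H1b) and `s17plh_main` (H1 + H2 + H0, helper21);
* `s17be_pull`      : (M) the pulled-back family `H ^ m₀ · φ (s i)` is base-point-free in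
    `L(n² m₀ D)` (from the CRUX `S27IsCrux K φ b H n`);
* `s17be_mult`      : (M), both directions at once: the monomials of degree `n²` in `s` and the
    `H ^ m₀ · φ (s i)` are valuatively equivalent (`hW` shape);
* `s17be_scale`     : a base-point-free family times a fixed function `c ≠ 0` is valuatively
    equivalent to … itself times `c` (projective invariance, shape for place-values);
* `s17be_height`    : **`∃ C, |h x₀ − h y₀| ≤ C`** for the rational representatives `x₀`, `y₀` of the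
    combined place-value of two base-point-free families of the same `L(m D)` at EVERY place `P`
    (`s17plh_main` applied) — over `K₀ ⊆ K` algebraic (`K₀ = ℚ`, `K = ℚ̄`);
* `s17be_height_mult` : the same for (M): monomials of degree `n²` in `s` against `H ^ m₀ · φ (s i)`.
-/
import Fermat.Agent.S17.Bpf
import Fermat.Agent.S17.ValCritQ
import Fermat.Agent.S17.PlaceHt

set_option autoImplicit false
set_option linter.unusedVariables false
set_option linter.unusedSectionVars false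

noncomputable section

namespace Fermat.Agent.S17

open Fermat.Agent.S27 Height

universe u u₀ w x y

section Equiv

variable {K : Type u} [Field K] {𝔉 : Type w} [Field 𝔉] [Algebra K 𝔉]

/-- **two base-point-free families of the same `L(m D)` are valuatively equivalent.** -/
theorem s17be_equiv {ι : Type x} {κ : Type y} {b : ValuationSubring 𝔉 → 𝔉} {m : ℕ}
    {F : ι → 𝔉} {G : κ → 𝔉} (hF : S17muBpf K b m F) (hG : S17muBpf K b m G)
    (V : ValuationSubring 𝔉) (hV : S27IsKValU K V) :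
    ∃ α β, F α ≠ 0 ∧ G β ≠ 0 ∧ (∀ α', F α' / F α ∈ V) ∧ (∀ β', G β' / G β ∈ V) ∧
      G β / F α ∈ V ∧ F α / G β ∈ V := by
  obtain ⟨hFm, α, hα⟩ := hF V hV
  obtain ⟨hGm, β, hβ⟩ := hG V hV
  have hFα : F α ≠ 0 := left_ne_zero_of_mul hα.1
  have hGβ : G β ≠ 0 := left_ne_zero_of_mul hβ.1
  have hb : b V ^ m ≠ 0 := right_ne_zero_of_mul hα.1
  have key : ∀ p q : 𝔉, q ≠ 0 → p / q = (p * b V ^ m) * (q * b V ^ m)⁻¹ := by
    intro p q hq
    field_simp
  refine ⟨α, β, hFα, hGβ, fun α' => ?_, fun β' => ?_, ?_, ?_⟩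
  · rw [key _ _ hFα]
    exact V.mul_mem _ _ (hFm α') hα.2.2
  · rw [key _ _ hGβ]
    exact V.mul_mem _ _ (hGm β') hβ.2.2
  · rw [key _ _ hFα]
    exact V.mul_mem _ _ (hGm β) hα.2.2
  · rw [key _ _ hGβ]
    exact V.mul_mem _ _ (hFm α) hβ.2.2

/-- one-sided version: a family of `L(m D)` is integral over a base-point-free family of
`L(m D)` (LITERAL hypothesis of `s17vc_family`). -/
theorem s17be_le {ι : Type x} {κ : Type y} {b : ValuationSubring 𝔉 → 𝔉} {m : ℕ}
    {F : ι → 𝔉} {G : κ → 𝔉} (hF : S17muBpf K b m F) (hG : ∀ j, G j ∈ s27LU K b m)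
    (V : ValuationSubring 𝔉) (hV : S27IsKValU K V) :
    ∃ α, F α ≠ 0 ∧ (∀ α', F α' / F α ∈ V) ∧ ∀ j, G j / F α ∈ V := by
  obtain ⟨hFm, α, hα⟩ := hF V hV
  have hFα : F α ≠ 0 := left_ne_zero_of_mul hα.1
  have hb : b V ^ m ≠ 0 := right_ne_zero_of_mul hα.1
  have key : ∀ p q : 𝔉, q ≠ 0 → p / q = (p * b V ^ m) * (q * b V ^ m)⁻¹ := by
    intro p q hq
    field_simp
  refine ⟨α, hFα, fun α' => ?_, fun j => ?_⟩
  · rw [key _ _ hFα]
    exact V.mul_mem _ _ (hFm α') hα.2.2
  · rw [key _ _ hFα]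
    exact V.mul_mem _ _ (hG j V hV) hα.2.2

/-- a base-point-free family multiplied by a fixed function `c`, against local equations
divided by … : `c • F` is base-point-free for the local equations `b'` with
`c · b' V ^ m = u · b V ^ m`. -/
theorem s17be_scale {ι : Type x} {b b' : ValuationSubring 𝔉 → 𝔉} {m : ℕ} {F : ι → 𝔉} (c : 𝔉)
    (hF : S17muBpf K b m F)
    (hc : ∀ V, S27IsKValU K V → ∃ u, S27IsUnitIn V u ∧ c * b' V ^ m = u * b V ^ m) :
    S17muBpf K b' m (fun i => c * F i) := by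
  intro V hV
  obtain ⟨u, hu, h⟩ := hc V hV
  obtain ⟨hFm, α, hα⟩ := hF V hV
  have key : ∀ i, c * F i * b' V ^ m = u * (F i * b V ^ m) := by
    intro i
    calc c * F i * b' V ^ m = F i * (c * b' V ^ m) := by ring
      _ = F i * (u * b V ^ m) := by rw [h]
      _ = u * (F i * b V ^ m) := by ring
  refine ⟨fun i => ?_, α, ?_⟩
  · rw [key i]
    exact V.mul_mem _ _ hu.2.1 (hFm i)
  · rw [key α]
    exact s17mu_unit_mul hu hα

variable {ι : Type x} {φ : 𝔉 →ₐ[K] 𝔉} {b : ValuationSubring 𝔉 → 𝔉} {H : 𝔉} {n : ℕ}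

/-- **(M): the pulled-back family `H ^ m₀ · φ (s i)` is base-point-free in `L(n² m₀ D)`.** -/
theorem s17be_pull (hC : S27IsCrux K φ b H n) {m₀ : ℕ} {s : ι → 𝔉} (hs : S17muBpf K b m₀ s) :
    S17muBpf K b (n ^ 2 * m₀) (fun i => H ^ m₀ * φ (s i)) := by
  intro V hV
  obtain ⟨hmem, i₀, hi₀⟩ := s17mu_pull hC hs V hV
  have key : ∀ i, H ^ m₀ * φ (s i) * b V ^ (n ^ 2 * m₀) =
      φ (s i) * (H * b V ^ (n ^ 2)) ^ m₀ := by
    intro i
    rw [mul_pow, ← pow_mul]
    ring
  refine ⟨fun i => ?_, i₀, ?_⟩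
  · rw [key i]
    exact hmem i
  · rw [key i₀]
    exact hi₀

/-- **(M), both directions**: the monomials of degree `n²` in `s` and the `H ^ m₀ · φ (s i)` are
valuatively equivalent. -/
theorem s17be_mult (hC : S27IsCrux K φ b H n) {m₀ : ℕ} {s : ι → 𝔉} (hs : S17muBpf K b m₀ s)
    (V : ValuationSubring 𝔉) (hV : S27IsKValU K V) :
    ∃ (α : Fin (n ^ 2) → ι) (β : ι), (∏ j, s (α j)) ≠ 0 ∧ H ^ m₀ * φ (s β) ≠ 0 ∧
      (∀ α' : Fin (n ^ 2) → ι, (∏ j, s (α' j)) / (∏ j, s (α j)) ∈ V) ∧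
      (∀ β', (H ^ m₀ * φ (s β')) / (H ^ m₀ * φ (s β)) ∈ V) ∧
      (H ^ m₀ * φ (s β)) / (∏ j, s (α j)) ∈ V ∧
      (∏ j, s (α j)) / (H ^ m₀ * φ (s β)) ∈ V :=
  s17be_equiv (s17bp_pow hs (n ^ 2)) (s17be_pull hC hs) V hV

end Equiv

section Height

variable {K₀ : Type u₀} {K : Type u} {L : Type w} [Field K₀] [AdmissibleAbsValues K₀] [Field K]
  [Field L] [Algebra K₀ K] [Algebra K L] [Algebra K₀ L] [IsScalarTower K₀ K L]
  [Algebra.IsAlgebraic K₀ K] {ι : Type x} {κ : Type y} [Fintype ι] [Fintype κ]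

/-- **heights of the place-values of two base-point-free families of the same `L(m D)` differ by
a bounded amount**, uniformly in the place. -/
theorem s17be_height {b : ValuationSubring L → L} {m : ℕ} {F : ι → L} {G : κ → L}
    (hF : S17muBpf K b m F) (hG : S17muBpf K b m G) :
    ∃ C : ℝ, ∀ (P : S17plPlace K L) (γ : ι ⊕ κ) (hγ : S17plIsMin P.W (Sum.elim F G) γ)
      (x₀ : ι → K₀) (y₀ : κ → K₀) (t : K),
      (∀ i, s17plVal P (Sum.elim F G) γ hγ (Sum.inl i) = t * algebraMap K₀ K (x₀ i)) →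
      (∀ j, s17plVal P (Sum.elim F G) γ hγ (Sum.inr j) = t * algebraMap K₀ K (y₀ j)) →
        |logHeight x₀ - logHeight y₀| ≤ C :=
  s17plh_main F G fun W hW =>
    s17be_equiv hF hG W (s17vcq_mem_of_algebraic (K₀ := K₀) (K := K) W hW)

/-- **(M) for heights of place-values**: the monomials of degree `n²` in `s` against the
pulled-back family `H ^ m₀ · φ (s i)`. -/
theorem s17be_height_mult [DecidableEq ι] {φ : L →ₐ[K] L} {b : ValuationSubring L → L} {H : L}
    {n : ℕ} (hC : S27IsCrux K φ b H n) {m₀ : ℕ} {s : ι → L} (hs : S17muBpf K b m₀ s) :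
    ∃ C : ℝ, ∀ (P : S17plPlace K L)
      (γ : (Fin (n ^ 2) → ι) ⊕ ι)
      (hγ : S17plIsMin P.W (Sum.elim (fun α : Fin (n ^ 2) → ι => ∏ j, s (α j))
        (fun i => H ^ m₀ * φ (s i))) γ)
      (x₀ : (Fin (n ^ 2) → ι) → K₀) (y₀ : ι → K₀) (t : K),
      (∀ i, s17plVal P (Sum.elim (fun α : Fin (n ^ 2) → ι => ∏ j, s (α j))
        (fun i => H ^ m₀ * φ (s i))) γ hγ (Sum.inl i) = t * algebraMap K₀ K (x₀ i)) →
      (∀ j, s17plVal P (Sum.elim (fun α : Fin (n ^ 2) → ι => ∏ j, s (α j))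
        (fun i => H ^ m₀ * φ (s i))) γ hγ (Sum.inr j) = t * algebraMap K₀ K (y₀ j)) →
        |logHeight x₀ - logHeight y₀| ≤ C :=
  s17be_height (s17bp_pow hs (n ^ 2)) (s17be_pull hC hs)

end Height

end Fermat.Agent.S17

end
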