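/-
S17 sprint, leaf **H-ABS, part 1** (helper37): THE TOWER FORMULA for heights of tuples, Mathlib only.

For number fields `E ⊆ E'` (any `[Algebra E E']`) and a nonzero tuple `x : ι → E`

  `s17ha_mulHeight_algebraMap : mulHeight (algebraMap E E' ∘ x) = mulHeight x ^ [E' : E]`,
  `s17ha_logHeight_algebraMap : logHeight (algebraMap E E' ∘ x) = [E' : E] * logHeight x`.

Proof: (arch) `s17ha_arch`: products over infinite places with multiplicities are products over
complex embeddings (`s17ha_prod_mult_eq_prod_embeddings`), and every embedding of `E` has exactly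
`[E' : E]` extensions to `E'` (`s17ha_card_extensions`, from `AlgHom.card`);
(fin) `s17ha_fin`: for a tuple of integers the finite part of the height is the inverse of the
absolute norm of the ideal it spans (Mathlib `absNorm_mul_finprod_finitePlace_eq_one`) and
`absNorm (I 𝓞_{E'}) = absNorm I ^ [E' : E]` (Mathlib `Ideal.absNorm_algebraMap`); a general tuple is
scaled to a tuple of integers.  The absolute height over `ℚ̄` is in `S17/HtAbsQb.lean`.
-/
import Mathlib.NumberTheory.Height.NumberField
import Mathlib.RingTheory.Ideal.Norm.RelNorm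
import Mathlib.FieldTheory.PrimitiveElement
import Mathlib.NumberTheory.NumberField.InfinitePlace.Ramification

set_option autoImplicit false
set_option linter.unusedSectionVars false

namespace Fermat.Agent.S17

open NumberField Height

section arch

/-- a product over the infinite places with multiplicities is a product over the complex
embeddings. -/
theorem s17ha_prod_mult_eq_prod_embeddings (K : Type*) [Field K] [NumberField K]
    (f : InfinitePlace K → ℝ) :
    ∏ w : InfinitePlace K, f w ^ w.mult = ∏ φ : K →+* ℂ, f (InfinitePlace.mk φ) := by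
  classical
  rw [← Finset.prod_fiberwise Finset.univ InfinitePlace.mk (fun φ => f (InfinitePlace.mk φ))]
  refine Finset.prod_congr rfl fun w _ => ?_
  have h1 : ∀ φ ∈ Finset.univ.filter (fun φ : K →+* ℂ => InfinitePlace.mk φ = w),
      f (InfinitePlace.mk φ) = f w := fun φ hφ => by rw [(Finset.mem_filter.1 hφ).2]
  rw [Finset.prod_congr rfl h1, Finset.prod_const, InfinitePlace.card_filter_mk_eq]

variable (E E' : Type*) [Field E] [NumberField E] [Field E'] [NumberField E'] [Algebra E E']

/-- every complex embedding of `E` has exactly `[E' : E]` extensions to `E'`. -/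
theorem s17ha_card_extensions (φ₀ : E →+* ℂ) [DecidableEq (E →+* ℂ)] :
    (Finset.univ.filter fun ψ : E' →+* ℂ => ψ.comp (algebraMap E E') = φ₀).card =
      Module.finrank E E' := by
  classical
  let _ : Algebra E ℂ := φ₀.toAlgebra
  rw [← AlgHom.card E E' ℂ]
  symm
  refine Finset.card_nbij (s := Finset.univ) (fun σ : E' →ₐ[E] ℂ => σ.toRingHom)
    (fun σ _ => ?_) (fun σ _ τ _ h => ?_) (fun ψ hψ => ?_)
  · simp only [Finset.coe_filter, Finset.mem_univ, true_and, Set.mem_ofPred_eq]
    ext a
    simp [RingHom.algebraMap_toAlgebra]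
  · exact AlgHom.coe_ringHom_injective h
  · simp only [Finset.coe_filter, Finset.mem_univ, true_and, Set.mem_ofPred_eq] at hψ
    refine ⟨⟨ψ, fun a => ?_⟩, by simp, rfl⟩
    simp [RingHom.algebraMap_toAlgebra, ← hψ]

variable {ι : Type*} [Finite ι]

/-- **the archimedean half of the tower formula.** -/
theorem s17ha_arch (x : ι → E) :
    ∏ w : InfinitePlace E', (⨆ i, w (algebraMap E E' (x i))) ^ w.mult =
      (∏ v : InfinitePlace E, (⨆ i, v (x i)) ^ v.mult) ^ Module.finrank E E' := by
  classical
  rw [s17ha_prod_mult_eq_prod_embeddings E' (fun w => ⨆ i, w (algebraMap E E' (x i))),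
    s17ha_prod_mult_eq_prod_embeddings E (fun v => ⨆ i, v (x i)), ← Finset.prod_pow,
    ← Finset.prod_fiberwise Finset.univ (fun ψ : E' →+* ℂ => ψ.comp (algebraMap E E'))]
  refine Finset.prod_congr rfl fun φ₀ _ => ?_
  rw [← s17ha_card_extensions E E' φ₀, ← Finset.prod_const]
  refine Finset.prod_congr rfl fun ψ hψ => ?_
  have h := (Finset.mem_filter.1 hψ).2
  refine iSup_congr fun i => ?_
  rw [InfinitePlace.apply, InfinitePlace.apply, ← h]
  rfl

end arch

section fin

variable (E E' : Type*) [Field E] [NumberField E] [Field E'] [NumberField E'] [Algebra E E']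
variable {ι : Type*} [Finite ι]

/-- **the non-archimedean half of the tower formula**, for tuples of integers. -/
theorem s17ha_fin (y : ι → 𝓞 E) (hy : y ≠ 0) :
    ∏ᶠ w : FinitePlace E', ⨆ i, w (algebraMap E E' (y i : E)) =
      (∏ᶠ v : FinitePlace E, ⨆ i, v (y i : E)) ^ Module.finrank E E' := by
  have hinj : Function.Injective (algebraMap (𝓞 E) (𝓞 E')) :=
    RingOfIntegers.algebraMap.injective E E'
  have hy' : (fun i => algebraMap (𝓞 E) (𝓞 E') (y i)) ≠ 0 := by
    intro h0
    apply hy
    funext i
    have := congrFun h0 i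
    simp only [Pi.zero_apply] at this ⊢
    exact hinj (by rw [this, map_zero])
  have h1 := absNorm_mul_finprod_finitePlace_eq_one (K := E) hy
  have h2 := absNorm_mul_finprod_finitePlace_eq_one (K := E') hy'
  have h3 : Ideal.span (Set.range fun i => algebraMap (𝓞 E) (𝓞 E') (y i)) =
      (Ideal.span (Set.range y)).map (algebraMap (𝓞 E) (𝓞 E')) := by
    rw [Ideal.map_span, ← Set.range_comp]
    rfl
  have h4 : Ideal.absNorm ((Ideal.span (Set.range y)).map (algebraMap (𝓞 E) (𝓞 E'))) =
      Ideal.absNorm (Ideal.span (Set.range y)) ^ Module.finrank E E' := by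
    rw [Ideal.absNorm_algebraMap, IsFractionRing.finrank_eq (𝓞 E) E (𝓞 E') E']
  rw [h3, h4] at h2
  have h5 : ∀ i, ((algebraMap (𝓞 E) (𝓞 E') (y i) : 𝓞 E') : E') = algebraMap E E' (y i : E) :=
    fun i => rfl
  simp only [h5] at h2
  push_cast at h2
  have hN : ((Ideal.absNorm (Ideal.span (Set.range y)) : ℕ) : ℝ) ≠ 0 := by
    intro h0
    rw [h0, zero_mul] at h1
    exact zero_ne_one h1
  have h6 : (∏ᶠ v : FinitePlace E, ⨆ i, v (y i : E)) =
      ((Ideal.absNorm (Ideal.span (Set.range y)) : ℕ) : ℝ)⁻¹ := eq_inv_of_mul_eq_one_right h1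
  rw [h6, inv_pow]
  exact eq_inv_of_mul_eq_one_right h2

end fin

section tower

variable (E E' : Type*) [Field E] [NumberField E] [Field E'] [NumberField E'] [Algebra E E']
variable {ι : Type*} [Finite ι]

/-- the tower formula for tuples of integers. -/
theorem s17ha_mulHeight_int (y : ι → 𝓞 E) (hy : y ≠ 0) :
    mulHeight (fun i => algebraMap E E' (y i : E)) =
      mulHeight (fun i => (y i : E)) ^ Module.finrank E E' := by
  obtain ⟨i₀, hi₀⟩ := Function.ne_iff.mp hy
  have hi₀E : (y i₀ : E) ≠ 0 := by
    simpa using hi₀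
  have hy1 : (fun i => (y i : E)) ≠ 0 := Function.ne_iff.mpr ⟨i₀, by simpa using hi₀E⟩
  have hy2 : (fun i => algebraMap E E' (y i : E)) ≠ 0 :=
    Function.ne_iff.mpr ⟨i₀, by
      simpa using hi₀E⟩
  rw [NumberField.mulHeight_eq hy1, NumberField.mulHeight_eq hy2, mul_pow, s17ha_arch,
    s17ha_fin E E' y hy]

/-- **THE TOWER FORMULA**: `H_{E'}(x) = H_E(x) ^ [E' : E]` for a nonzero tuple over `E`. -/
theorem s17ha_mulHeight_algebraMap (x : ι → E) (hx : x ≠ 0) :
    mulHeight (fun i => algebraMap E E' (x i)) = mulHeight x ^ Module.finrank E E' := by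
  obtain ⟨b, hb⟩ := IsLocalization.exist_integer_multiples_of_finite (nonZeroDivisors (𝓞 E)) x
  choose y hy using hb
  have hb0 : algebraMap (𝓞 E) E (b : 𝓞 E) ≠ 0 := by
    have h1 : (b : 𝓞 E) ≠ 0 := nonZeroDivisors.coe_ne_zero b
    intro h0
    exact h1 ((map_eq_zero_iff _ (IsFractionRing.injective (𝓞 E) E)).1 h0)
  have hyx : (fun i => (y i : E)) = (algebraMap (𝓞 E) E (b : 𝓞 E)) • x := by
    funext i
    have := hy i
    rw [Algebra.smul_def] at this
    simpa using this
  have hy0 : y ≠ 0 := by
    intro h0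
    apply hx
    funext i
    have h1 := congrFun hyx i
    rw [h0] at h1
    simp only [Pi.zero_apply, map_zero, Pi.smul_apply, smul_eq_mul] at h1
    rcases mul_eq_zero.1 h1.symm with h2 | h2
    · exact absurd h2 hb0
    · simpa using h2
  have h1 := s17ha_mulHeight_int E E' y hy0
  have h2 : (fun i => algebraMap E E' (y i : E)) =
      (algebraMap E E' (algebraMap (𝓞 E) E (b : 𝓞 E))) • fun i => algebraMap E E' (x i) := by
    funext i
    have h3 := congrFun hyx i
    simp only [Pi.smul_apply, smul_eq_mul] at h3 ⊢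
    rw [h3, map_mul]
  have hb0' : algebraMap E E' (algebraMap (𝓞 E) E (b : 𝓞 E)) ≠ 0 := by
    rw [Ne, map_eq_zero_iff _ (algebraMap E E').injective]
    exact hb0
  rw [h2, mulHeight_smul_eq_mulHeight _ hb0', hyx, mulHeight_smul_eq_mulHeight _ hb0] at h1
  exact h1

/-- the tower formula, logarithmic form. -/
theorem s17ha_logHeight_algebraMap (x : ι → E) (hx : x ≠ 0) :
    logHeight (fun i => algebraMap E E' (x i)) = Module.finrank E E' * logHeight x := by
  rw [logHeight_eq_log_mulHeight, logHeight_eq_log_mulHeight, s17ha_mulHeight_algebraMap E E' x hx,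
    Real.log_pow]

end tower

end Fermat.Agent.S17
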