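/-
S17 sprint, leaf **H-ABS, part 2** (helper37): THE ABSOLUTE LOGARITHMIC HEIGHT on tuples of algebraic
numbers, on top of the tower formula (`S17/HtAbs.lean`).  Mathlib only.

* `s17haN E y`            : the normalised height `logHeight y / [E : ℚ]` over a number field `E`;
* `s17haN_ringHom φ y`    : `s17haN E' (φ ∘ y) = s17haN E y` for EVERY ring homomorphism `φ : E → E'`
                            of number fields (extension, isomorphism, automorphism; `y = 0` allowed);
* `s17haAbs x`            : the absolute height of `x : ι → Ω`, `Ω` a field algebraic over `ℚ`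
                            (= `s17haN` over the field `ℚ(x_i)` of the coordinates);
* `s17ha_abs_eq E j y x`  : INDEPENDENCE OF THE FIELD: `s17haAbs x = s17haN E y` for every number
                            field `E`, `j : E →+* Ω`, `y : ι → E` with `j ∘ y = x`;
* `s17ha_abs_rat`         : `= logHeight` over `ℚ` on rational tuples;
* `s17ha_abs_comp`, `s17ha_abs_galois` : invariance under ring homomorphisms `Ω → Ω'`, under `Gal`;
* `s17ha_abs_smul`        : scaling invariance `s17haAbs (c • x) = s17haAbs x`, `c ≠ 0`;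
* `s17ha_abs_nonneg`;
* `s17haAbsQ` + `s17haAbsQ_eq / _rat / _galois / _smul / _nonneg` : the same on `ℚ̄ = AlgebraicClosure ℚ`
  with the `ℚ`-algebra structure of the statement of S17 (`s17ha_Qb_isAlgebraic`).
-/
import Fermat.Agent.S17.HtAbs
import Mathlib.FieldTheory.IntermediateField.Adjoin.Basic

set_option autoImplicit false
set_option linter.unusedSectionVars false
set_option linter.style.haveILetI false

noncomputable section

namespace Fermat.Agent.S17

open NumberField Height IntermediateField

/-- the NORMALISED logarithmic height of a tuple over a number field `E`: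
`logHeight y / [E : ℚ]`. -/
def s17haN (E : Type*) [Field E] [NumberField E] {ι : Type*} (y : ι → E) : ℝ :=
  logHeight y / (Module.finrank ℚ E : ℝ)

theorem s17haN_def (E : Type*) [Field E] [NumberField E] {ι : Type*} (y : ι → E) :
    s17haN E y = logHeight y / (Module.finrank ℚ E : ℝ) := rfl

section ringHom

variable {E E' : Type*} [Field E] [NumberField E] [Field E'] [NumberField E']
variable {ι : Type*} [Finite ι]

/-- **the normalised height is invariant under every ring homomorphism of number fields**
(field extension, isomorphism, automorphism). -/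
theorem s17haN_ringHom (φ : E →+* E') (y : ι → E) :
    s17haN E' (fun i => φ (y i)) = s17haN E y := by
  by_cases hy : y = 0
  · subst hy
    have h0 : (fun i : ι => φ ((0 : ι → E) i)) = 0 := by
      funext i
      simp
    rw [s17haN_def, s17haN_def, h0, logHeight_zero, logHeight_zero, zero_div, zero_div]
  let _ : Algebra E E' := φ.toAlgebra
  have h1 : logHeight (fun i => algebraMap E E' (y i)) = Module.finrank E E' * logHeight y :=
    s17ha_logHeight_algebraMap E E' y hy
  have h2 : (fun i => algebraMap E E' (y i)) = fun i => φ (y i) := rfl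
  rw [h2] at h1
  have h3 : Module.finrank ℚ E * Module.finrank E E' = Module.finrank ℚ E' :=
    Module.finrank_mul_finrank ℚ E E'
  have h4 : 0 < Module.finrank ℚ E := Module.finrank_pos
  have h5 : 0 < Module.finrank ℚ E' := Module.finrank_pos
  have h6 : 0 < Module.finrank E E' := by
    rcases Nat.eq_zero_or_pos (Module.finrank E E') with h | h
    · rw [h, mul_zero] at h3
      omega
    · exact h
  rw [s17haN_def, s17haN_def, h1, ← h3]
  push_cast
  field_simp

end ringHom

section abs

variable {Ω : Type*} [Field Ω] [Algebra ℚ Ω] [Algebra.IsAlgebraic ℚ Ω]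
variable {ι : Type*} [Finite ι]

/-- the field generated over `ℚ` by the coordinates of a tuple. -/
abbrev s17haFld (x : ι → Ω) : IntermediateField ℚ Ω := adjoin ℚ (Set.range x)

theorem s17ha_mem_fld (x : ι → Ω) (i : ι) : x i ∈ s17haFld x :=
  subset_adjoin ℚ _ ⟨i, rfl⟩

theorem s17ha_fld_finite (x : ι → Ω) : FiniteDimensional ℚ (s17haFld x) :=
  finiteDimensional_adjoin fun z _ => Algebra.IsIntegral.isIntegral z

/-- the field of the coordinates is a number field. -/
theorem s17ha_fld_numberField (x : ι → Ω) : NumberField (s17haFld x) where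
  to_charZero := charZero_of_injective_algebraMap (algebraMap ℚ (s17haFld x)).injective
  to_finiteDimensional := by
    have h := s17ha_fld_finite x
    convert h
    exact Subsingleton.elim _ _

/-- the tuple, over the field of its coordinates. -/
def s17haTup (x : ι → Ω) : ι → s17haFld x := fun i => ⟨x i, s17ha_mem_fld x i⟩

/-- **THE ABSOLUTE LOGARITHMIC HEIGHT** of a tuple of algebraic numbers:
`logHeight` over the number field of the coordinates, divided by its degree. -/
def s17haAbs (x : ι → Ω) : ℝ :=
  @s17haN (s17haFld x) _ (s17ha_fld_numberField x) ι (s17haTup x)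

/-- **independence of the field**: the absolute height is the normalised height over ANY number
field `E` with a homomorphism `j : E → Ω` through which the tuple factors. -/
theorem s17ha_abs_eq (E : Type*) [Field E] [NumberField E] (j : E →+* Ω) (y : ι → E)
    (x : ι → Ω) (h : ∀ i, j (y i) = x i) : s17haAbs x = s17haN E y := by
  haveI := s17ha_fld_numberField x
  have hle : s17haFld x ≤ (j.toRatAlgHom).fieldRange :=
    adjoin_le_iff.2 (by
      rintro _ ⟨i, rfl⟩
      exact ⟨y i, h i⟩)
  have hex : ∀ z : s17haFld x, ∃ e : E, j e = (z : Ω) := fun z => by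
    obtain ⟨e, he⟩ := hle z.2
    exact ⟨e, he⟩
  choose ρ hρ using hex
  have hinj : Function.Injective j := j.injective
  let ρ' : s17haFld x →+* E :=
    { toFun := ρ
      map_one' := hinj (by rw [hρ, map_one]; rfl)
      map_mul' := fun a b => hinj (by rw [hρ, map_mul, hρ, hρ]; rfl)
      map_zero' := hinj (by rw [hρ, map_zero]; rfl)
      map_add' := fun a b => hinj (by rw [hρ, map_add, hρ, hρ]; rfl) }
  have hy : (fun i => ρ' (s17haTup x i)) = y := by
    funext i
    exact hinj (by
      change j (ρ (s17haTup x i)) = j (y i)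
      rw [hρ, h]
      rfl)
  have h1 := s17haN_ringHom ρ' (s17haTup x)
  rw [hy] at h1
  rw [h1]
  rfl

/-- the absolute height of a tuple of rational numbers is its height over `ℚ`. -/
theorem s17ha_abs_rat (x : ι → ℚ) :
    s17haAbs (fun i => algebraMap ℚ Ω (x i)) = logHeight x := by
  rw [s17ha_abs_eq ℚ (algebraMap ℚ Ω) x _ (fun _ => rfl), s17haN_def, Module.finrank_self,
    Nat.cast_one, div_one]

/-- the absolute height is invariant under every ring homomorphism `Ω → Ω'`
(in particular under `Gal(ℚ̄/ℚ)`). -/
theorem s17ha_abs_comp {Ω' : Type*} [Field Ω'] [Algebra ℚ Ω'] [Algebra.IsAlgebraic ℚ Ω']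
    (σ : Ω →+* Ω') (x : ι → Ω) : s17haAbs (fun i => σ (x i)) = s17haAbs x := by
  haveI := s17ha_fld_numberField x
  rw [s17ha_abs_eq (s17haFld x) (σ.comp (algebraMap (s17haFld x) Ω)) (s17haTup x)
    (fun i => σ (x i)) (fun _ => rfl)]
  rfl

/-- **Galois invariance** of the absolute height. -/
theorem s17ha_abs_galois (σ : Ω ≃ₐ[ℚ] Ω) (x : ι → Ω) :
    s17haAbs (fun i => σ (x i)) = s17haAbs x :=
  s17ha_abs_comp (σ : Ω →+* Ω) x

/-- **scaling invariance** of the absolute height. -/
theorem s17ha_abs_smul (x : ι → Ω) {c : Ω} (hc : c ≠ 0) : s17haAbs (c • x) = s17haAbs x := by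
  -- the field of `x` and `c`
  let z : Option ι → Ω := fun o => o.elim c x
  haveI := s17ha_fld_numberField z
  let c' : s17haFld z := ⟨c, s17ha_mem_fld z none⟩
  let y : ι → s17haFld z := fun i => ⟨x i, s17ha_mem_fld z (some i)⟩
  have hc' : c' ≠ 0 := fun h0 => hc (congrArg Subtype.val h0)
  rw [s17ha_abs_eq (s17haFld z) (algebraMap (s17haFld z) Ω) (c' • y) (c • x) (fun _ => rfl),
    s17ha_abs_eq (s17haFld z) (algebraMap (s17haFld z) Ω) y x (fun _ => rfl), s17haN_def,
    s17haN_def, logHeight_smul_eq_logHeight _ hc']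

/-- the absolute height is non-negative. -/
theorem s17ha_abs_nonneg (x : ι → Ω) : 0 ≤ s17haAbs x := by
  haveI := s17ha_fld_numberField x
  exact div_nonneg (logHeight_nonneg _) (Nat.cast_nonneg _)

end abs

section Qb

variable {ι : Type*} [Finite ι]

/-- `ℚ̄` is algebraic over `ℚ`, for the `ℚ`-algebra structure that instance search finds
(`DivisionRing.toRatAlgebra`, the one of `Gal(ℚ̄/ℚ) = ℚ̄ ≃ₐ[ℚ] ℚ̄` in the statement of S17). -/
theorem s17ha_Qb_isAlgebraic : Algebra.IsAlgebraic ℚ (AlgebraicClosure ℚ) := by
  have h : @Algebra.IsAlgebraic ℚ (AlgebraicClosure ℚ) _ _ (AlgebraicClosure.instAlgebra ℚ) :=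
    inferInstance
  convert h
  exact Subsingleton.elim _ _

/-- **the absolute logarithmic height on tuples of `ℚ̄`.** -/
def s17haAbsQ (x : ι → AlgebraicClosure ℚ) : ℝ :=
  haveI := s17ha_Qb_isAlgebraic
  s17haAbs x

/-- independence of the field (`ℚ̄`). -/
theorem s17haAbsQ_eq (E : Type*) [Field E] [NumberField E] (j : E →+* AlgebraicClosure ℚ)
    (y : ι → E) (x : ι → AlgebraicClosure ℚ) (h : ∀ i, j (y i) = x i) :
    s17haAbsQ x = logHeight y / (Module.finrank ℚ E : ℝ) := by
  haveI := s17ha_Qb_isAlgebraic
  exact s17ha_abs_eq E j y x h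

/-- rational tuples: the absolute height is the height over `ℚ`. -/
theorem s17haAbsQ_rat (x : ι → ℚ) :
    s17haAbsQ (fun i => algebraMap ℚ (AlgebraicClosure ℚ) (x i)) = logHeight x := by
  haveI := s17ha_Qb_isAlgebraic
  exact s17ha_abs_rat x

/-- **Galois invariance** (`ℚ̄`). -/
theorem s17haAbsQ_galois (σ : AlgebraicClosure ℚ ≃ₐ[ℚ] AlgebraicClosure ℚ)
    (x : ι → AlgebraicClosure ℚ) : s17haAbsQ (fun i => σ (x i)) = s17haAbsQ x := by
  haveI := s17ha_Qb_isAlgebraic
  exact s17ha_abs_galois σ x

/-- **scaling invariance** (`ℚ̄`): the absolute height is a function on projective space. -/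
theorem s17haAbsQ_smul (x : ι → AlgebraicClosure ℚ) {c : AlgebraicClosure ℚ} (hc : c ≠ 0) :
    s17haAbsQ (c • x) = s17haAbsQ x := by
  haveI := s17ha_Qb_isAlgebraic
  exact s17ha_abs_smul x hc

theorem s17haAbsQ_nonneg (x : ι → AlgebraicClosure ℚ) : 0 ≤ s17haAbsQ x := by
  haveI := s17ha_Qb_isAlgebraic
  exact s17ha_abs_nonneg x

end Qb

end Fermat.Agent.S17
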