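/-
S17 sprint, leaf **H-ABS, part 3** (helper37): the tuple-height calculus of Mathlib
(`Mathlib/NumberTheory/Height/Basic.lean`) for the ABSOLUTE height `s17haAbsQ` on tuples over
`ℚ̄ = AlgebraicClosure ℚ` (`S17/HtAbsQb.lean`).  Mathlib only.

* `s17hab_exists_common x y`   : two tuples over `ℚ̄` live over ONE number field `E ⊂ ℚ̄`:
                                 `∃ E j x' y', j ∘ x' = x ∧ j ∘ y' = y`;
* `s17hab_exists_field x`      : the same for one tuple;
* `s17hab_zero`, `s17hab_one`  : `s17haAbsQ 0 = 0`, `s17haAbsQ 1 = 0`;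
* `s17hab_comp_equiv`          : invariance under reindexing by an equivalence;
* `s17hab_comp_le`             : `s17haAbsQ (x ∘ f) ≤ s17haAbsQ x` (sub-tuples, repetitions);
* `s17hab_pow`                 : `s17haAbsQ (x ^ n) = n * s17haAbsQ x`;
* `s17hab_fun_mul`             : SEGRE: `s17haAbsQ (fun a : ι × ι' => x a.1 * y a.2) =
                                 s17haAbsQ x + s17haAbsQ y` for nonzero `x`, `y`;
* `s17hab_mul_le`              : `s17haAbsQ (x * y) ≤ s17haAbsQ x + s17haAbsQ y`;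
* `s17hab_neg`                 : `s17haAbsQ (-x) = s17haAbsQ x`.
-/
import Fermat.Agent.S17.HtAbsQb

set_option autoImplicit false
set_option linter.unusedSectionVars false
set_option linter.style.haveILetI false

noncomputable section

namespace Fermat.Agent.S17

open NumberField Height IntermediateField

variable {ι ι' : Type*} [Finite ι] [Finite ι']

/-- **two tuples over `ℚ̄` live over one number field.** -/
theorem s17hab_exists_common (x : ι → AlgebraicClosure ℚ) (y : ι' → AlgebraicClosure ℚ) :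
    ∃ (E : Type) (_ : Field E) (_ : NumberField E) (j : E →+* AlgebraicClosure ℚ)
      (x' : ι → E) (y' : ι' → E), (∀ i, j (x' i) = x i) ∧ (∀ i, j (y' i) = y i) := by
  haveI := s17ha_Qb_isAlgebraic
  let z : ι ⊕ ι' → AlgebraicClosure ℚ := Sum.elim x y
  exact ⟨s17haFld z, inferInstance, s17ha_fld_numberField z,
    algebraMap (s17haFld z) (AlgebraicClosure ℚ),
    fun i => ⟨x i, s17ha_mem_fld z (Sum.inl i)⟩, fun i => ⟨y i, s17ha_mem_fld z (Sum.inr i)⟩,
    fun _ => rfl, fun _ => rfl⟩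

/-- a tuple over `ℚ̄` lives over a number field. -/
theorem s17hab_exists_field (x : ι → AlgebraicClosure ℚ) :
    ∃ (E : Type) (_ : Field E) (_ : NumberField E) (j : E →+* AlgebraicClosure ℚ)
      (x' : ι → E), ∀ i, j (x' i) = x i := by
  obtain ⟨E, i1, i2, j, x', -, hx, -⟩ := s17hab_exists_common x x
  exact ⟨E, i1, i2, j, x', hx⟩

theorem s17hab_finrank_pos (E : Type) [Field E] [NumberField E] :
    (0 : ℝ) < (Module.finrank ℚ E : ℝ) := by
  exact_mod_cast (Module.finrank_pos : 0 < Module.finrank ℚ E)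

theorem s17hab_zero : s17haAbsQ (0 : ι → AlgebraicClosure ℚ) = 0 := by
  rw [s17haAbsQ_eq ℚ (algebraMap ℚ (AlgebraicClosure ℚ)) (0 : ι → ℚ) 0 (fun _ => by simp),
    logHeight_zero, zero_div]

theorem s17hab_one : s17haAbsQ (1 : ι → AlgebraicClosure ℚ) = 0 := by
  rw [s17haAbsQ_eq ℚ (algebraMap ℚ (AlgebraicClosure ℚ)) (1 : ι → ℚ) 1 (fun _ => by simp),
    logHeight_one, zero_div]

/-- invariance under reindexing. -/
theorem s17hab_comp_equiv (e : ι ≃ ι') (x : ι' → AlgebraicClosure ℚ) :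
    s17haAbsQ (x ∘ e) = s17haAbsQ x := by
  obtain ⟨E, _, _, j, x', hx⟩ := s17hab_exists_field x
  rw [s17haAbsQ_eq E j (x' ∘ e) (x ∘ e) (fun i => hx (e i)), s17haAbsQ_eq E j x' x hx,
    logHeight_comp_equiv]

/-- sub-tuples have smaller height. -/
theorem s17hab_comp_le (f : ι → ι') (x : ι' → AlgebraicClosure ℚ) :
    s17haAbsQ (x ∘ f) ≤ s17haAbsQ x := by
  obtain ⟨E, _, _, j, x', hx⟩ := s17hab_exists_field x
  rw [s17haAbsQ_eq E j (x' ∘ f) (x ∘ f) (fun i => hx (f i)), s17haAbsQ_eq E j x' x hx]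
  exact div_le_div_of_nonneg_right (logHeight_comp_le f x') (s17hab_finrank_pos E).le

/-- powers. -/
theorem s17hab_pow (x : ι → AlgebraicClosure ℚ) (n : ℕ) :
    s17haAbsQ (x ^ n) = n * s17haAbsQ x := by
  obtain ⟨E, _, _, j, x', hx⟩ := s17hab_exists_field x
  rw [s17haAbsQ_eq E j (x' ^ n) (x ^ n) (fun i => by simp [hx i]), s17haAbsQ_eq E j x' x hx,
    logHeight_pow, mul_div_assoc]

/-- negation. -/
theorem s17hab_neg (x : ι → AlgebraicClosure ℚ) : s17haAbsQ (-x) = s17haAbsQ x := by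
  obtain ⟨E, _, _, j, x', hx⟩ := s17hab_exists_field x
  rw [s17haAbsQ_eq E j (-x') (-x) (fun i => by simp [hx i]), s17haAbsQ_eq E j x' x hx,
    logHeight_neg]

/-- **SEGRE**: the absolute height of the tuple of all products is the sum of the heights. -/
theorem s17hab_fun_mul {x : ι → AlgebraicClosure ℚ} (hx : x ≠ 0)
    {y : ι' → AlgebraicClosure ℚ} (hy : y ≠ 0) :
    s17haAbsQ (fun a : ι × ι' => x a.1 * y a.2) = s17haAbsQ x + s17haAbsQ y := by
  obtain ⟨E, _, _, j, x', y', hx', hy'⟩ := s17hab_exists_common x y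
  have hx0 : x' ≠ 0 := by
    rintro rfl
    exact hx (funext fun i => by rw [← hx' i]; simp)
  have hy0 : y' ≠ 0 := by
    rintro rfl
    exact hy (funext fun i => by rw [← hy' i]; simp)
  rw [s17haAbsQ_eq E j (fun a : ι × ι' => x' a.1 * y' a.2) (fun a : ι × ι' => x a.1 * y a.2)
      (fun a => by rw [map_mul, hx', hy']),
    s17haAbsQ_eq E j x' x hx', s17haAbsQ_eq E j y' y hy', logHeight_fun_mul_eq hx0 hy0, add_div]

/-- products of tuples (coordinatewise). -/
theorem s17hab_mul_le (x y : ι → AlgebraicClosure ℚ) :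
    s17haAbsQ (x * y) ≤ s17haAbsQ x + s17haAbsQ y := by
  obtain ⟨E, _, _, j, x', y', hx', hy'⟩ := s17hab_exists_common x y
  rw [s17haAbsQ_eq E j (x' * y') (x * y) (fun i => by simp [hx' i, hy' i]),
    s17haAbsQ_eq E j x' x hx', s17haAbsQ_eq E j y' y hy', ← add_div]
  exact div_le_div_of_nonneg_right (logHeight_mul_le x' y') (s17hab_finrank_pos E).le

end Fermat.Agent.S17
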