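/-
S17 sprint, leaf **H-ABS API** (helper16): UNIFORM (field-independent) polynomial bounds for the
absolute logarithmic height `s17haAbs` / `s17haAbsQ` of `S17/HtAbsQb.lean` (helper37).

KEY (pure Mathlib, any field with admissible absolute values):
* `s17hbCoeff q S`      : the coefficient tuple of a family `q` of polynomials, with a `1` adjoined;
* `s17hb_bound`         : `max (mulHeightBound q) 1 ≤ T ^ totalWeight K * mulHeight (s17hbCoeff q S)`,
                          `T = max #S 1`: Mathlib's explicit constants are bounded by the HEIGHT of the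
                          coefficients, so they scale like `C ^ [E : ℚ]` by the tower formula.
NUMBER FIELDS (normalised height `s17haN E = logHeight / [E : ℚ]`):
* `s17hb_N_eval_le`, `s17hb_N_eval_ge` : explicit constants `log T + s17haN E (coefficients)`.
ABSOLUTE (`Ω` algebraic over `ℚ`, coefficients of the polynomials ANYWHERE in `Ω`):
* `s17hb_abs_comp_le`   : `s17haAbs (x ∘ f) ≤ s17haAbs x`;
* `s17hb_abs_eval_le`   : `s17haAbs (p(x)) ≤ log T + s17haAbs (coeffs p) + N * s17haAbs x`;
* `s17hb_abs_eval_ge`   : `∑ j, q (k, j)(x) * w j = x k ^ (M + N)` ⇒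
                          `N * s17haAbs x ≤ log #ι' + log T + s17haAbs (coeffs q) + s17haAbs w`;
* `s17hbQ_comp_le`, `s17hbQ_eval_le`, `s17hbQ_eval_ge` : the same for `s17haAbsQ` on `ℚ̄`.
-/
import Fermat.Agent.S17.HtAbsQb
import Mathlib.NumberTheory.Height.MvPolynomial

set_option autoImplicit false
set_option linter.unusedSectionVars false
set_option linter.style.haveILetI false

namespace Fermat.Agent.S17

open MvPolynomial Height

section Bound

variable {K : Type*} [Field K] [AdmissibleAbsValues K] {ι ι' : Type*}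

/-- the coefficient tuple of a family of polynomials (over a finite set `S` of exponents),
with a `1` adjoined. -/
noncomputable def s17hbCoeff (q : ι' → MvPolynomial ι K) (S : Finset (ι →₀ ℕ)) :
    Option (ι' × S) → K :=
  fun o => o.elim 1 (fun js => coeff (js.2 : ι →₀ ℕ) (q js.1))

theorem s17hbCoeff_ne_zero (q : ι' → MvPolynomial ι K) (S : Finset (ι →₀ ℕ)) :
    s17hbCoeff q S ≠ 0 := by
  intro h
  have := congrFun h none
  simp [s17hbCoeff] at this

open AdmissibleAbsValues in
/-- local bound at an arbitrary absolute value: the sum of the absolute values of the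
coefficients is at most `#S` times the sup over the coefficient tuple. -/
theorem s17hb_arch_le [Finite ι'] (q : ι' → MvPolynomial ι K) (S : Finset (ι →₀ ℕ))
    (hS : ∀ j, (q j).support ⊆ S) (v : AbsoluteValue K ℝ) :
    (⨆ j, (AddMonoidAlgebra.coeff <| q j).sum (fun _ c ↦ v c)) ≤
      (max S.card 1 : ℕ) * ⨆ o, v (s17hbCoeff q S o) := by
  classical
  have hsup0 : (1 : ℝ) ≤ ⨆ o, v (s17hbCoeff q S o) := by
    have : v (s17hbCoeff q S none) = 1 := by simp [s17hbCoeff]
    rw [← this]
    exact Finite.le_ciSup (fun o => v (s17hbCoeff q S o)) none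
  have hT : (0 : ℝ) ≤ ((max S.card 1 : ℕ) : ℝ) := Nat.cast_nonneg _
  rcases isEmpty_or_nonempty ι' with h | h
  · rw [Real.iSup_of_isEmpty]
    exact mul_nonneg hT (le_trans zero_le_one hsup0)
  refine ciSup_le fun j => ?_
  have h1 : (AddMonoidAlgebra.coeff <| q j).sum (fun _ c ↦ v c) =
      ∑ s ∈ (q j).support, v (coeff s (q j)) := rfl
  rw [h1]
  calc ∑ s ∈ (q j).support, v (coeff s (q j))
      ≤ ∑ s ∈ S, v (coeff s (q j)) :=
        Finset.sum_le_sum_of_subset_of_nonneg (hS j) (fun _ _ _ => by positivity)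
    _ ≤ ∑ _s ∈ S, ⨆ o, v (s17hbCoeff q S o) := by
        refine Finset.sum_le_sum fun s hs => ?_
        exact Finite.le_ciSup_of_le (some (j, ⟨s, hs⟩)) le_rfl
    _ = S.card * ⨆ o, v (s17hbCoeff q S o) := by
        rw [Finset.sum_const, nsmul_eq_mul]
    _ ≤ (max S.card 1 : ℕ) * ⨆ o, v (s17hbCoeff q S o) := by
        gcongr
        exact le_max_left _ _

theorem s17hb_nonarch_le [Finite ι'] (q : ι' → MvPolynomial ι K) (S : Finset (ι →₀ ℕ))
    (hS : ∀ j, (q j).support ⊆ S) (v : AbsoluteValue K ℝ) :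
    (⨆ j, max (⨆ s : (q j).support, v (coeff (s : ι →₀ ℕ) (q j))) 1) ≤
      ⨆ o, v (s17hbCoeff q S o) := by
  classical
  have hsup0 : (1 : ℝ) ≤ ⨆ o, v (s17hbCoeff q S o) := by
    have : v (s17hbCoeff q S none) = 1 := by simp [s17hbCoeff]
    rw [← this]
    exact Finite.le_ciSup (fun o => v (s17hbCoeff q S o)) none
  rcases isEmpty_or_nonempty ι' with h | h
  · rw [Real.iSup_of_isEmpty]
    exact le_trans zero_le_one hsup0
  refine ciSup_le fun j => ?_
  refine max_le ?_ hsup0
  rcases isEmpty_or_nonempty (q j).support with h' | h'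
  · rw [Real.iSup_of_isEmpty]
    exact le_trans zero_le_one hsup0
  refine ciSup_le fun s => ?_
  exact Finite.le_ciSup_of_le (some (j, ⟨s.1, hS j s.2⟩)) le_rfl

open AdmissibleAbsValues Multiset in
/-- **explicit constant**: Mathlib's `mulHeightBound` of a family of polynomials is at most
`T ^ totalWeight K` times the height of the coefficient tuple (with a `1` adjoined),
`T = max #S 1` for a finite set `S` of exponents containing all supports. -/
theorem s17hb_bound [Finite ι'] (q : ι' → MvPolynomial ι K) (S : Finset (ι →₀ ℕ))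
    (hS : ∀ j, (q j).support ⊆ S) :
    max (mulHeightBound q) 1 ≤
      ((max S.card 1 : ℕ) : ℝ) ^ totalWeight K * mulHeight (s17hbCoeff q S) := by
  classical
  have hT1 : (1 : ℝ) ≤ ((max S.card 1 : ℕ) : ℝ) := by
    exact_mod_cast le_max_right _ _
  have hT0 : (0 : ℝ) ≤ ((max S.card 1 : ℕ) : ℝ) := le_trans zero_le_one hT1
  have h1 : (1 : ℝ) ≤ ((max S.card 1 : ℕ) : ℝ) ^ totalWeight K * mulHeight (s17hbCoeff q S) :=
    one_le_mul_of_one_le_of_one_le (one_le_pow₀ hT1) (one_le_mulHeight _)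
  refine max_le ?_ h1
  rcases isEmpty_or_nonempty ι' with h | h
  · have hq : q = 0 := Subsingleton.elim ..
    have h0 := max_mulHeightBound_zero_one_eq_one K ι ι'
    rw [hq] at h1 ⊢
    calc mulHeightBound (0 : ι' → MvPolynomial ι K)
        ≤ max (mulHeightBound (0 : ι' → MvPolynomial ι K)) 1 := le_max_left _ _
      _ = 1 := h0
      _ ≤ _ := h1
  have hsup0 : ∀ v : AbsoluteValue K ℝ, (1 : ℝ) ≤ ⨆ o, v (s17hbCoeff q S o) := by
    intro v
    have : v (s17hbCoeff q S none) = 1 := by simp [s17hbCoeff]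
    rw [← this]
    exact Finite.le_ciSup (fun o => v (s17hbCoeff q S o)) none
  have hfin : (fun v : nonarchAbsVal (K := K) ↦
      ⨆ o, v.val (s17hbCoeff q S o)).HasFiniteMulSupport := by
    have hne := s17hbCoeff_ne_zero q S
    fun_prop (disch := assumption)
  have hfin2 : (fun v : nonarchAbsVal (K := K) ↦
      ⨆ j, max (⨆ s : (q j).support, v.val (coeff (s : ι →₀ ℕ) (q j))) 1).HasFiniteMulSupport := by
    fun_prop (disch := assumption)
  rw [mulHeightBound_eq, mulHeight_eq (s17hbCoeff_ne_zero q S), ← mul_assoc]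
  have hA : (archAbsVal.map fun v : AbsoluteValue K ℝ ↦
      ⨆ j, (AddMonoidAlgebra.coeff <| q j).sum (fun _ c ↦ v c)).prod ≤
      ((max S.card 1 : ℕ) : ℝ) ^ totalWeight K *
        (archAbsVal.map fun v : AbsoluteValue K ℝ ↦ ⨆ o, v (s17hbCoeff q S o)).prod := by
    have e : ((max S.card 1 : ℕ) : ℝ) ^ totalWeight K *
        (archAbsVal.map fun v : AbsoluteValue K ℝ ↦ ⨆ o, v (s17hbCoeff q S o)).prod =
        (archAbsVal.map fun v : AbsoluteValue K ℝ ↦
          ((max S.card 1 : ℕ) : ℝ) * ⨆ o, v (s17hbCoeff q S o)).prod := by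
      rw [prod_map_mul, map_const', prod_replicate, totalWeight]
    rw [e]
    refine prod_map_le_prod_map₀ _ _ (fun v _ ↦ ?_) fun v _ ↦ s17hb_arch_le q S hS v
    exact Real.iSup_nonneg fun j => Finsupp.sum_nonneg fun _ _ => by positivity
  have hB : (∏ᶠ v : nonarchAbsVal (K := K),
      ⨆ j, max (⨆ s : (q j).support, v.val (coeff (s : ι →₀ ℕ) (q j))) 1) ≤
      ∏ᶠ v : nonarchAbsVal (K := K), ⨆ o, v.val (s17hbCoeff q S o) := by
    refine finprod_le_finprod hfin2 (fun v ↦ ?_) hfin fun v => s17hb_nonarch_le q S hS v.val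
    exact Real.iSup_nonneg fun j => le_trans zero_le_one (le_max_right _ _)
  refine mul_le_mul hA hB ?_ ?_
  · exact finprod_nonneg fun v => Real.iSup_nonneg fun j => le_trans zero_le_one (le_max_right _ _)
  · exact mul_nonneg (pow_nonneg hT0 _)
      (prod_map_nonneg fun v _ => le_trans zero_le_one (hsup0 v))

end Bound

section NumberFieldBounds

variable (E : Type*) [Field E] [NumberField E] {ι ι' : Type*} [Fintype ι] [Fintype ι']

theorem s17hb_finrank_pos : (0 : ℝ) < (Module.finrank ℚ E : ℝ) := by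
  have h : 0 < Module.finrank ℚ E := Module.finrank_pos
  exact_mod_cast h

/-- the logarithm of Mathlib's constant, bounded by `[E : ℚ] log T + logHeight (coefficients)`. -/
theorem s17hb_log_bound (q : ι' → MvPolynomial ι E) (S : Finset (ι →₀ ℕ))
    (hS : ∀ j, (q j).support ⊆ S) :
    Real.log (max (mulHeightBound q) 1) ≤
      (Module.finrank ℚ E : ℝ) * Real.log ((max S.card 1 : ℕ) : ℝ) +
        logHeight (s17hbCoeff q S) := by
  have hT1 : (1 : ℝ) ≤ ((max S.card 1 : ℕ) : ℝ) := by
    exact_mod_cast le_max_right _ _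
  have hT0 : (0 : ℝ) < ((max S.card 1 : ℕ) : ℝ) := lt_of_lt_of_le zero_lt_one hT1
  have h := s17hb_bound q S hS
  rw [NumberField.totalWeight_eq_finrank] at h
  have h1 : (0 : ℝ) < max (mulHeightBound q) 1 := lt_of_lt_of_le zero_lt_one (le_max_right _ _)
  have h2 := Real.log_le_log h1 h
  rw [Real.log_mul (pow_pos hT0 _).ne' (mulHeight_ne_zero _), Real.log_pow] at h2
  exact h2

/-- **upper bound, normalised, explicit constant** (number field). -/
theorem s17hb_N_eval_le {N : ℕ} (p : ι' → MvPolynomial ι E)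
    (hp : ∀ j, (p j).IsHomogeneous N) (S : Finset (ι →₀ ℕ)) (hS : ∀ j, (p j).support ⊆ S)
    (x : ι → E) :
    s17haN E (fun j => eval x (p j)) ≤
      Real.log ((max S.card 1 : ℕ) : ℝ) + s17haN E (s17hbCoeff p S) + N * s17haN E x := by
  have d := s17hb_finrank_pos E
  have h1 := logHeight_eval_le hp x
  have h2 := s17hb_log_bound E p S hS
  have key : logHeight (fun j => eval x (p j)) ≤
      (Module.finrank ℚ E : ℝ) * Real.log ((max S.card 1 : ℕ) : ℝ) +
        logHeight (s17hbCoeff p S) + N * logHeight x := by linarith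
  have h3 := div_le_div_of_nonneg_right key d.le
  simp only [s17haN_def]
  calc logHeight (fun j => eval x (p j)) / (Module.finrank ℚ E : ℝ)
      ≤ _ := h3
    _ = _ := by field_simp

/-- **lower bound, normalised, explicit constant** (number field). -/
theorem s17hb_N_eval_ge {M N : ℕ} (q : ι × ι' → MvPolynomial ι E)
    (hq : ∀ a, (q a).IsHomogeneous M) (S : Finset (ι →₀ ℕ)) (hS : ∀ a, (q a).support ⊆ S)
    (x : ι → E) (w : ι' → E)
    (h : ∀ k, ∑ j, eval x (q (k, j)) * w j = x k ^ (M + N)) :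
    N * s17haN E x ≤
      Real.log (Nat.card ι') + Real.log ((max S.card 1 : ℕ) : ℝ) +
        s17haN E (s17hbCoeff q S) + s17haN E w := by
  have d := s17hb_finrank_pos E
  have h1 := logHeight_eval_ge hq (fun j => C (w j)) (x := x) (N := N)
    (by simpa only [eval_C] using h)
  simp only [eval_C] at h1
  have h2 := s17hb_log_bound E q S hS
  rw [NumberField.totalWeight_eq_finrank] at h1
  have h3 : Real.log ((Nat.card ι' : ℝ) ^ Module.finrank ℚ E * max (mulHeightBound q) 1) ≤
      (Module.finrank ℚ E : ℝ) * Real.log (Nat.card ι') +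
        Real.log (max (mulHeightBound q) 1) := by
    have hm : (0 : ℝ) < max (mulHeightBound q) 1 :=
      lt_of_lt_of_le zero_lt_one (le_max_right _ _)
    rcases Nat.eq_zero_or_pos (Nat.card ι') with h0 | h0
    · rw [h0]
      have hd : Module.finrank ℚ E ≠ 0 := (Module.finrank_pos).ne'
      simp only [Nat.cast_zero, zero_pow hd, zero_mul, Real.log_zero, mul_zero, zero_add]
      exact Real.log_nonneg (le_max_right _ _)
    · have hc : (0 : ℝ) < (Nat.card ι' : ℝ) := by exact_mod_cast h0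
      rw [Real.log_mul (pow_pos hc _).ne' hm.ne', Real.log_pow]
  have key : N * logHeight x ≤
      (Module.finrank ℚ E : ℝ) * Real.log (Nat.card ι') +
        (Module.finrank ℚ E : ℝ) * Real.log ((max S.card 1 : ℕ) : ℝ) +
        logHeight (s17hbCoeff q S) + logHeight w := by linarith
  have h4 := div_le_div_of_nonneg_right key d.le
  simp only [s17haN_def]
  calc (N : ℝ) * (logHeight x / (Module.finrank ℚ E : ℝ))
      = (N * logHeight x) / (Module.finrank ℚ E : ℝ) := by ring
    _ ≤ _ := h4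
    _ = _ := by field_simp

end NumberFieldBounds

section Descent

variable {A B : Type*} [Field A] [Field B] {ι ι' : Type*}

/-- evaluation commutes with a ring homomorphism. -/
theorem s17hb_eval_map (f : A →+* B) (x : ι → A) (Q : MvPolynomial ι A) :
    eval (fun i => f (x i)) (map f Q) = f (eval x Q) := by
  rw [eval_map]
  have h := eval₂_comp_left f (RingHom.id A) x Q
  rw [RingHom.comp_id] at h
  exact h.symm

/-- the coefficient tuple commutes with a ring homomorphism. -/
theorem s17hbCoeff_map (f : A →+* B) (q : ι' → MvPolynomial ι A) (S : Finset (ι →₀ ℕ))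
    (o : Option (ι' × S)) :
    f (s17hbCoeff q S o) = s17hbCoeff (fun j => map f (q j)) S o := by
  cases o with
  | none => simp [s17hbCoeff]
  | some js => simp [s17hbCoeff, coeff_map]

/-- descent of a family of polynomials to a subfield containing its coefficients. -/
theorem s17hb_descend_poly (f : A →+* B) (q : ι' → MvPolynomial ι B) (S : Finset (ι →₀ ℕ))
    (hS : ∀ j, (q j).support ⊆ S) (hE : ∀ o, s17hbCoeff q S o ∈ Set.range f) :
    ∃ qE : ι' → MvPolynomial ι A, (∀ j, map f (qE j) = q j) ∧ (∀ j, (qE j).support ⊆ S) ∧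
      (∀ N, (∀ j, (q j).IsHomogeneous N) → ∀ j, (qE j).IsHomogeneous N) ∧
      (∀ o, f (s17hbCoeff qE S o) = s17hbCoeff q S o) := by
  classical
  have h1 : ∀ j, q j ∈ Set.range (MvPolynomial.map f) := by
    intro j
    rw [mem_range_map_iff_coeffs_subset]
    intro c hc
    obtain ⟨s, hs, rfl⟩ := mem_coeffs_iff.1 (Finset.mem_coe.1 hc)
    exact hE (some (j, ⟨s, hS j hs⟩))
  choose qE hqE using h1
  refine ⟨qE, hqE, fun j => ?_, fun N hN j => ?_, fun o => ?_⟩
  · rw [← support_map_of_injective (qE j) f.injective, hqE j]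
    exact hS j
  · exact IsHomogeneous.of_map f.injective (by rw [hqE j]; exact hN j)
  · rw [s17hbCoeff_map]
    congr 1
    funext j
    exact hqE j

end Descent

section Abs

variable {Ω : Type*} [Field Ω] [Algebra ℚ Ω] [Algebra.IsAlgebraic ℚ Ω]
variable {ι ι' : Type*} [Fintype ι] [Fintype ι']

/-- the absolute height does not increase under a projection / re-indexing. -/
theorem s17hb_abs_comp_le {κ : Type*} [Finite κ] (f : κ → ι) (x : ι → Ω) :
    s17haAbs (x ∘ f) ≤ s17haAbs x := by
  haveI := s17ha_fld_numberField x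
  rw [s17ha_abs_eq (s17haFld x) (algebraMap (s17haFld x) Ω) (s17haTup x ∘ f) (x ∘ f)
    (fun _ => rfl),
    s17ha_abs_eq (s17haFld x) (algebraMap (s17haFld x) Ω) (s17haTup x) x (fun _ => rfl),
    s17haN_def, s17haN_def]
  exact div_le_div_of_nonneg_right (logHeight_comp_le f _) (Nat.cast_nonneg _)

/-- **ABSOLUTE UPPER BOUND**: values of homogeneous polynomials of degree `N` with coefficients
in `Ω` (e.g. `ℚ̄`); the constant is explicit and does not depend on the field of `x`. -/
theorem s17hb_abs_eval_le {N : ℕ} (p : ι' → MvPolynomial ι Ω)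
    (hp : ∀ j, (p j).IsHomogeneous N) (S : Finset (ι →₀ ℕ)) (hS : ∀ j, (p j).support ⊆ S)
    (x : ι → Ω) :
    s17haAbs (fun j => eval x (p j)) ≤
      Real.log ((max S.card 1 : ℕ) : ℝ) + s17haAbs (s17hbCoeff p S) + N * s17haAbs x := by
  classical
  let z : Option (ι' × S) ⊕ ι → Ω := Sum.elim (s17hbCoeff p S) x
  haveI := s17ha_fld_numberField z
  have hc : ∀ o, s17hbCoeff p S o ∈ Set.range (algebraMap (s17haFld z) Ω) := fun o =>
    ⟨⟨_, s17ha_mem_fld z (Sum.inl o)⟩, rfl⟩
  obtain ⟨pE, hpE, hsupp, hhom, hcoef⟩ :=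
    s17hb_descend_poly (algebraMap (s17haFld z) Ω) p S hS hc
  let xE : ι → s17haFld z := fun i => ⟨x i, s17ha_mem_fld z (Sum.inr i)⟩
  have h1 := s17hb_N_eval_le (s17haFld z) pE (hhom N hp) S hsupp xE
  rw [← s17ha_abs_eq (s17haFld z) (algebraMap (s17haFld z) Ω) (fun j => eval xE (pE j))
      (fun j => eval x (p j)) (fun j => by
        rw [← s17hb_eval_map, hpE j]
        rfl),
    ← s17ha_abs_eq (s17haFld z) (algebraMap (s17haFld z) Ω) (s17hbCoeff pE S)
      (s17hbCoeff p S) hcoef,
    ← s17ha_abs_eq (s17haFld z) (algebraMap (s17haFld z) Ω) xE x (fun _ => rfl)] at h1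
  exact h1

/-- **ABSOLUTE LOWER BOUND**: if `∑ j, q (k, j)(x) * w j = x k ^ (M + N)` with `q (k, j)`
homogeneous of degree `M` with coefficients in `Ω`, then `N · h(x) ≤ C(q) + h(w)`. -/
theorem s17hb_abs_eval_ge {M N : ℕ} (q : ι × ι' → MvPolynomial ι Ω)
    (hq : ∀ a, (q a).IsHomogeneous M) (S : Finset (ι →₀ ℕ)) (hS : ∀ a, (q a).support ⊆ S)
    (x : ι → Ω) (w : ι' → Ω)
    (h : ∀ k, ∑ j, eval x (q (k, j)) * w j = x k ^ (M + N)) :
    N * s17haAbs x ≤
      Real.log (Nat.card ι') + Real.log ((max S.card 1 : ℕ) : ℝ) +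
        s17haAbs (s17hbCoeff q S) + s17haAbs w := by
  classical
  let z : Option ((ι × ι') × S) ⊕ (ι ⊕ ι') → Ω :=
    Sum.elim (s17hbCoeff q S) (Sum.elim x w)
  haveI := s17ha_fld_numberField z
  have hc : ∀ o, s17hbCoeff q S o ∈ Set.range (algebraMap (s17haFld z) Ω) := fun o =>
    ⟨⟨_, s17ha_mem_fld z (Sum.inl o)⟩, rfl⟩
  obtain ⟨qE, hqE, hsupp, hhom, hcoef⟩ :=
    s17hb_descend_poly (algebraMap (s17haFld z) Ω) q S hS hc
  let xE : ι → s17haFld z := fun i => ⟨x i, s17ha_mem_fld z (Sum.inr (Sum.inl i))⟩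
  let wE : ι' → s17haFld z := fun j => ⟨w j, s17ha_mem_fld z (Sum.inr (Sum.inr j))⟩
  have hE : ∀ k, ∑ j, eval xE (qE (k, j)) * wE j = xE k ^ (M + N) := by
    intro k
    apply (algebraMap (s17haFld z) Ω).injective
    rw [map_sum, map_pow]
    simp_rw [map_mul, ← s17hb_eval_map, hqE]
    exact h k
  have h1 := s17hb_N_eval_ge (s17haFld z) qE (hhom M hq) S hsupp xE wE hE
  rw [← s17ha_abs_eq (s17haFld z) (algebraMap (s17haFld z) Ω) wE w (fun _ => rfl),
    ← s17ha_abs_eq (s17haFld z) (algebraMap (s17haFld z) Ω) (s17hbCoeff qE S)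
      (s17hbCoeff q S) hcoef,
    ← s17ha_abs_eq (s17haFld z) (algebraMap (s17haFld z) Ω) xE x (fun _ => rfl)] at h1
  exact h1

end Abs

section Qb

variable {ι ι' : Type*} [Fintype ι] [Fintype ι']

/-- projection / re-indexing (`ℚ̄`). -/
theorem s17hbQ_comp_le {κ : Type*} [Finite κ] (f : κ → ι) (x : ι → AlgebraicClosure ℚ) :
    s17haAbsQ (x ∘ f) ≤ s17haAbsQ x := by
  haveI := s17ha_Qb_isAlgebraic
  exact s17hb_abs_comp_le f x

/-- **absolute upper bound** (`ℚ̄`). -/
theorem s17hbQ_eval_le {N : ℕ} (p : ι' → MvPolynomial ι (AlgebraicClosure ℚ))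
    (hp : ∀ j, (p j).IsHomogeneous N) (S : Finset (ι →₀ ℕ)) (hS : ∀ j, (p j).support ⊆ S)
    (x : ι → AlgebraicClosure ℚ) :
    s17haAbsQ (fun j => eval x (p j)) ≤
      Real.log ((max S.card 1 : ℕ) : ℝ) + s17haAbsQ (s17hbCoeff p S) + N * s17haAbsQ x := by
  haveI := s17ha_Qb_isAlgebraic
  exact s17hb_abs_eval_le p hp S hS x

/-- **absolute lower bound** (`ℚ̄`). -/
theorem s17hbQ_eval_ge {M N : ℕ} (q : ι × ι' → MvPolynomial ι (AlgebraicClosure ℚ))
    (hq : ∀ a, (q a).IsHomogeneous M) (S : Finset (ι →₀ ℕ)) (hS : ∀ a, (q a).support ⊆ S)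
    (x : ι → AlgebraicClosure ℚ) (w : ι' → AlgebraicClosure ℚ)
    (h : ∀ k, ∑ j, eval x (q (k, j)) * w j = x k ^ (M + N)) :
    N * s17haAbsQ x ≤
      Real.log (Nat.card ι') + Real.log ((max S.card 1 : ℕ) : ℝ) +
        s17haAbsQ (s17hbCoeff q S) + s17haAbsQ w := by
  haveI := s17ha_Qb_isAlgebraic
  exact s17hb_abs_eval_ge q hq S hS x w h

/-- existential forms: the constant depends only on the polynomials. -/
theorem s17hbQ_eval_le' {N : ℕ} (p : ι' → MvPolynomial ι (AlgebraicClosure ℚ))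
    (hp : ∀ j, (p j).IsHomogeneous N) :
    ∃ C : ℝ, ∀ x : ι → AlgebraicClosure ℚ,
      s17haAbsQ (fun j => eval x (p j)) ≤ C + N * s17haAbsQ x := by
  classical
  exact ⟨_, fun x => s17hbQ_eval_le p hp (Finset.univ.biUnion fun j => (p j).support)
    (fun j => Finset.subset_biUnion_of_mem (fun j => (p j).support) (Finset.mem_univ j)) x⟩

theorem s17hbQ_eval_ge' {M N : ℕ} (q : ι × ι' → MvPolynomial ι (AlgebraicClosure ℚ))
    (hq : ∀ a, (q a).IsHomogeneous M) :
    ∃ C : ℝ, ∀ (x : ι → AlgebraicClosure ℚ) (w : ι' → AlgebraicClosure ℚ),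
      (∀ k, ∑ j, eval x (q (k, j)) * w j = x k ^ (M + N)) →
        N * s17haAbsQ x ≤ C + s17haAbsQ w := by
  classical
  exact ⟨_, fun x w h => s17hbQ_eval_ge q hq (Finset.univ.biUnion fun a => (q a).support)
    (fun a => Finset.subset_biUnion_of_mem (fun a => (q a).support) (Finset.mem_univ a)) x w h⟩

end Qb

end Fermat.Agent.S17
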