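/-
S17 sprint, leaf **H-ABS API, part 2** (helper16): the ABSOLUTE certificate bound and the ABSOLUTE
place form, on top of `S17/HtAbsApi.lean` (uniform polynomial bounds), `S17/HtCert.lean`
(helper13: Euler cofactors) and `S17/PlaceHt.lean` (helper21: certificates at place-values).

`Ω` is a field algebraic over `ℚ` (e.g. `ℚ̄`), `s17haAbs` the absolute logarithmic height.

* `s17hbp_cert`   : CERTIFICATE ⇒ HEIGHT, absolute: fixed homogeneous `a j k` of degree `k + 1` with
                    coefficients in `Ω`; whenever `y j ^ M + ∑ k, (a j k)(x) * y j ^ (M-1-k) = 0`,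
                    `s17haAbs (Sum.elim x y) ≤ C + s17haAbs x`, `C` independent of the field of `x, y`;
* `s17hbp_two`    : two-sided form `|s17haAbs x − s17haAbs y| ≤ C`;
* `s17hbp_place`  : **valuatively equivalent tuples `F`, `G` of `L ⊇ Ω` have place-values of
                    boundedly different ABSOLUTE height, uniformly in the `Ω`-place**:
                    `∃ C, ∀ P α hα β hβ, |s17haAbs [F]_P − s17haAbs [G]_P| ≤ C`;
* `s17hbpQ_cert`, `s17hbpQ_two`, `s17hbpQ_place` : the same for `s17haAbsQ` on `ℚ̄`.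
-/
import Fermat.Agent.S17.HtAbsApi
import Fermat.Agent.S17.PlaceHt

set_option autoImplicit false
set_option linter.unusedSectionVars false
set_option linter.style.haveILetI false

namespace Fermat.Agent.S17

open MvPolynomial Height

section Cert

variable {Ω : Type*} [Field Ω] [Algebra ℚ Ω] [Algebra.IsAlgebraic ℚ Ω]
variable {ι κ : Type*} [Fintype ι] [Fintype κ]

/-- **CERTIFICATE ⇒ HEIGHT, absolute form.** -/
theorem s17hbp_cert (M : ℕ) (a : κ → Fin M → MvPolynomial ι Ω)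
    (ha : ∀ j k, (a j k).IsHomogeneous ((k : ℕ) + 1)) :
    ∃ C : ℝ, ∀ (x : ι → Ω) (y : κ → Ω),
      (∀ j, y j ^ M + ∑ k : Fin M, eval x (a j k) * y j ^ (M - 1 - (k : ℕ)) = 0) →
        s17haAbs (Sum.elim x y) ≤ C + s17haAbs x := by
  classical
  choose b hb hab using fun (j : κ) (k : Fin M) => s17hc_euler (k : ℕ) (a j k) (ha j k)
  -- the cofactors
  let q : (ι ⊕ κ) × ι → MvPolynomial (ι ⊕ κ) Ω := fun t =>
    Sum.elim (fun i₀ => if t.2 = i₀ then X (Sum.inl i₀) ^ (M - 1) else 0)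
      (fun j => - ∑ k : Fin M, rename Sum.inl (b j k t.2) * X (Sum.inr j) ^ (M - 1 - (k : ℕ)))
      t.1
  have hq : ∀ t, (q t).IsHomogeneous (M - 1) := by
    rintro ⟨i₀ | j, i⟩
    · simp only [q, Sum.elim_inl]
      split_ifs
      · have := isHomogeneous_X_pow (R := Ω) (Sum.inl i₀ : ι ⊕ κ) (M - 1)
        exact this
      · exact isHomogeneous_zero _ _ _
    · simp only [q, Sum.elim_inr]
      refine IsHomogeneous.neg ?_
      refine IsHomogeneous.sum _ _ _ fun k _ => ?_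
      have h1 : (rename (Sum.inl : ι → ι ⊕ κ) (b j k i)).IsHomogeneous (k : ℕ) :=
        (hb j k i).rename_isHomogeneous
      have h2 := isHomogeneous_X_pow (R := Ω) (Sum.inr j : ι ⊕ κ) (M - 1 - (k : ℕ))
      have h3 := h1.mul h2
      have h4 : (k : ℕ) + (M - 1 - (k : ℕ)) = M - 1 := by
        have := k.isLt
        omega
      rwa [h4] at h3
  let S : Finset ((ι ⊕ κ) →₀ ℕ) := Finset.univ.biUnion fun t => (q t).support
  have hS : ∀ t, (q t).support ⊆ S := fun t =>
    Finset.subset_biUnion_of_mem (fun t => (q t).support) (Finset.mem_univ t)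
  refine ⟨Real.log (Nat.card ι) + Real.log ((max S.card 1 : ℕ) : ℝ) +
    s17haAbs (s17hbCoeff q S), fun x y hxy => ?_⟩
  have key := s17hb_abs_eval_ge (M := M - 1) (N := 1) q hq S hS (Sum.elim x y) x ?_
  · rw [Nat.cast_one, one_mul] at key
    exact key
  · rintro (i₀ | j)
    · simp only [q, Sum.elim_inl]
      rw [Finset.sum_eq_single i₀]
      · simp only [if_true, map_pow, eval_X, Sum.elim_inl]
        rw [pow_succ]
      · intro i _ hi
        simp [hi]
      · intro h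
        exact absurd (Finset.mem_univ i₀) h
    · simp only [q, Sum.elim_inr]
      have hM : M ≠ 0 := by
        rintro rfl
        have := hxy j
        simp at this
      have hM1 : M - 1 + 1 = M := by omega
      rw [hM1]
      have h0 := hxy j
      have h1 : y j ^ M = - ∑ k : Fin M, eval x (a j k) * y j ^ (M - 1 - (k : ℕ)) :=
        eq_neg_of_add_eq_zero_left h0
      rw [h1]
      simp only [map_neg, map_sum, map_mul, map_pow, eval_X, Sum.elim_inr, neg_mul,
        Finset.sum_neg_distrib, neg_inj, Finset.sum_mul]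
      rw [Finset.sum_comm]
      refine Finset.sum_congr rfl fun k _ => ?_
      have h2 : eval x (a j k) = ∑ i, x i * eval x (b j k i) := by
        conv_lhs => rw [hab j k]
        simp only [map_sum, map_mul, eval_X]
      rw [h2, Finset.sum_mul]
      refine Finset.sum_congr rfl fun i _ => ?_
      have h3 : eval (Sum.elim x y) (rename (Sum.inl : ι → ι ⊕ κ) (b j k i))
          = eval x (b j k i) := by
        rw [eval_rename]
        rfl
      rw [h3]
      ring

/-- **two-sided form**: certificates in both directions. -/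
theorem s17hbp_two (M M' : ℕ) (a : κ → Fin M → MvPolynomial ι Ω)
    (ha : ∀ j k, (a j k).IsHomogeneous ((k : ℕ) + 1))
    (a' : ι → Fin M' → MvPolynomial κ Ω)
    (ha' : ∀ i k, (a' i k).IsHomogeneous ((k : ℕ) + 1)) :
    ∃ C : ℝ, ∀ (x : ι → Ω) (y : κ → Ω),
      (∀ j, y j ^ M + ∑ k : Fin M, eval x (a j k) * y j ^ (M - 1 - (k : ℕ)) = 0) →
      (∀ i, x i ^ M' + ∑ k : Fin M', eval y (a' i k) * x i ^ (M' - 1 - (k : ℕ)) = 0) →
        |s17haAbs x - s17haAbs y| ≤ C := by
  obtain ⟨C₁, H₁⟩ := s17hbp_cert M a ha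
  obtain ⟨C₂, H₂⟩ := s17hbp_cert M' a' ha'
  refine ⟨max C₁ C₂, fun x y h1 h2 => ?_⟩
  have e1 := H₁ x y h1
  have e2 := H₂ y x h2
  have p1 : s17haAbs y ≤ s17haAbs (Sum.elim x y) := by
    have h := s17hb_abs_comp_le (Sum.inr : κ → ι ⊕ κ) (Sum.elim x y)
    have e : (Sum.elim x y) ∘ (Sum.inr : κ → ι ⊕ κ) = y := by
      funext i
      rfl
    rwa [e] at h
  have p2 : s17haAbs x ≤ s17haAbs (Sum.elim y x) := by
    have h := s17hb_abs_comp_le (Sum.inr : ι → κ ⊕ ι) (Sum.elim y x)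
    have e : (Sum.elim y x) ∘ (Sum.inr : ι → κ ⊕ ι) = x := by
      funext i
      rfl
    rwa [e] at h
  have m1 : C₁ ≤ max C₁ C₂ := le_max_left _ _
  have m2 : C₂ ≤ max C₁ C₂ := le_max_right _ _
  rw [abs_le]
  constructor <;> linarith

end Cert

section Place

variable {Ω : Type*} [Field Ω] [Algebra ℚ Ω] [Algebra.IsAlgebraic ℚ Ω]
variable {L : Type*} [Field L] [Algebra Ω L]
variable {ι κ : Type*} [Fintype ι] [Fintype κ]

/-- **ABSOLUTE PLACE FORM**: valuatively equivalent tuples (over `Ω`) have place-values of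
boundedly different absolute height, uniformly in the `Ω`-place. -/
theorem s17hbp_place (F : ι → L) (G : κ → L)
    (hW : ∀ W : ValuationSubring L, (∀ c : Ω, algebraMap Ω L c ∈ W) →
      ∃ α β, F α ≠ 0 ∧ G β ≠ 0 ∧ (∀ α', F α' / F α ∈ W) ∧ (∀ β', G β' / G β ∈ W) ∧
        G β / F α ∈ W ∧ F α / G β ∈ W) :
    ∃ C : ℝ, ∀ (P : S17plPlace Ω L) (α : ι) (hα : S17plIsMin P.W F α) (β : κ)
      (hβ : S17plIsMin P.W G β),
        |s17haAbs (s17plVal P F α hα) - s17haAbs (s17plVal P G β hβ)| ≤ C := by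
  classical
  obtain ⟨⟨M, a, -, ha, hca⟩, ⟨M', b, -, hb, hcb⟩⟩ := s17vc_equiv F G hW
  obtain ⟨C, H⟩ := s17hbp_two M M' a ha b hb
  refine ⟨C, fun P α hα β hβ => ?_⟩
  have hA : ∀ j, S17plCert (K := Ω) F (G j) M (a j) := fun j => ⟨ha j, hca j⟩
  have hB : ∀ i, S17plCert (K := Ω) G (F i) M' (b i) := fun i => ⟨hb i, hcb i⟩
  have hG : ∀ j, G j / F α ∈ P.W := fun j => s17pl_cert_mem P.W P.hKW F α hα (hA j)
  have hFβ : F α / G β ∈ P.W := s17pl_cert_mem P.W P.hKW G β hβ (hB α)
  have h1 := H (s17plVal P F α hα) (s17plValOver P F α G hG)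
    (fun j => s17plh_valOver_cert P F α hα G hA hG j)
    (fun i => s17plh_valOver_cert_rev P F α hα G β hβ hG hB i)
  -- the value of `G` over `F α` is a nonzero multiple of the value of `G`
  have hc0 : P.res ⟨G β / F α, hG β⟩ ≠ 0 := by
    refine s17pl_res_ne_zero P (div_ne_zero hβ.1 hα.1) (hG β) ?_
    rw [inv_div]
    exact hFβ
  have hy : s17plValOver P F α G hG = P.res ⟨G β / F α, hG β⟩ • s17plVal P G β hβ := by
    funext j
    rw [Pi.smul_apply, smul_eq_mul, s17pl_val_apply, ← map_mul]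
    show P.res ⟨G j / F α, hG j⟩ = _
    congr 1
    apply Subtype.ext
    show G j / F α = G β / F α * (G j / G β)
    have := hα.1
    have := hβ.1
    field_simp
  rw [hy, s17ha_abs_smul _ hc0] at h1
  exact h1

end Place

section Qb

variable {ι κ : Type*} [Fintype ι] [Fintype κ]

/-- certificate ⇒ height (`ℚ̄`). -/
theorem s17hbpQ_cert (M : ℕ) (a : κ → Fin M → MvPolynomial ι (AlgebraicClosure ℚ))
    (ha : ∀ j k, (a j k).IsHomogeneous ((k : ℕ) + 1)) :
    ∃ C : ℝ, ∀ (x : ι → AlgebraicClosure ℚ) (y : κ → AlgebraicClosure ℚ),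
      (∀ j, y j ^ M + ∑ k : Fin M, eval x (a j k) * y j ^ (M - 1 - (k : ℕ)) = 0) →
        s17haAbsQ (Sum.elim x y) ≤ C + s17haAbsQ x := by
  haveI := s17ha_Qb_isAlgebraic
  exact s17hbp_cert M a ha

/-- two-sided form (`ℚ̄`). -/
theorem s17hbpQ_two (M M' : ℕ) (a : κ → Fin M → MvPolynomial ι (AlgebraicClosure ℚ))
    (ha : ∀ j k, (a j k).IsHomogeneous ((k : ℕ) + 1))
    (a' : ι → Fin M' → MvPolynomial κ (AlgebraicClosure ℚ))
    (ha' : ∀ i k, (a' i k).IsHomogeneous ((k : ℕ) + 1)) :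
    ∃ C : ℝ, ∀ (x : ι → AlgebraicClosure ℚ) (y : κ → AlgebraicClosure ℚ),
      (∀ j, y j ^ M + ∑ k : Fin M, eval x (a j k) * y j ^ (M - 1 - (k : ℕ)) = 0) →
      (∀ i, x i ^ M' + ∑ k : Fin M', eval y (a' i k) * x i ^ (M' - 1 - (k : ℕ)) = 0) →
        |s17haAbsQ x - s17haAbsQ y| ≤ C := by
  haveI := s17ha_Qb_isAlgebraic
  exact s17hbp_two M M' a ha a' ha'

/-- **absolute place form on `ℚ̄`**: `F`, `G` valuatively equivalent over `ℚ̄` ⇒ the absolute
heights of the place-values `[F]_P`, `[G]_P` differ by at most `C`, for ALL `ℚ̄`-places `P`. -/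
theorem s17hbpQ_place {L : Type*} [Field L] [Algebra (AlgebraicClosure ℚ) L]
    (F : ι → L) (G : κ → L)
    (hW : ∀ W : ValuationSubring L, (∀ c : AlgebraicClosure ℚ, algebraMap _ L c ∈ W) →
      ∃ α β, F α ≠ 0 ∧ G β ≠ 0 ∧ (∀ α', F α' / F α ∈ W) ∧ (∀ β', G β' / G β ∈ W) ∧
        G β / F α ∈ W ∧ F α / G β ∈ W) :
    ∃ C : ℝ, ∀ (P : S17plPlace (AlgebraicClosure ℚ) L) (α : ι) (hα : S17plIsMin P.W F α)
      (β : κ) (hβ : S17plIsMin P.W G β),
        |s17haAbsQ (s17plVal P F α hα) - s17haAbsQ (s17plVal P G β hβ)| ≤ C := by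
  haveI := s17ha_Qb_isAlgebraic
  exact s17hbp_place F G hW

end Qb

end Fermat.Agent.S17
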