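/-
S17 sprint, leaf **H4** (helper11), second form — the multiplication bound (M) in VALUATIVE form
for a NON-SYMMETRIC height (design of helper17, 06:30Z): `F = (1, u_1, …, u_g)` with polar divisor
`N · Θ⁻`, `h (m x) = p · h (x) + q · h (− x) + O(1)`, `p = (m² + m) / 2`, `q = (m² − m) / 2`.

Abstract data: `K ⊆ 𝔉` fields, `φ σ : 𝔉 →ₐ[K] 𝔉` (`φ = ψ_m`, `σ = ψ_{−1}`), `b V` the local equations
of `Θ⁻` along `V ⊇ K` (`b = s27indB ψ β (−1)`), and the TELESCOPED cube of S27-B (IND / IndB):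

  (tele)  `φ (b (V.comap φ)) ^ c = u · Ψ · b V ^ (c p) · σ (b (V.comap σ)) ^ (c q)`, `u ∈ Vˣ`
          (`= B (−m) V ^ c ≐ Ψ · B (−1) V ^ (c p) · B 1 V ^ (c q)`),
  (bpf)   `S17muBpf K b N F` : `F j · b V ^ N ∈ V`, a unit for some `j` (POLE-DIV with equality).

* `s17mv_pull`   : `φ ∘ F` is base-point-free w.r.t. the local equations `φ (b (V.comap φ))`;
* **`s17mv_le`** : for every `V ⊇ K` there is `α` with `X α ≠ 0`, `X β / X α ∈ V`, `Y / X α ∈ V`, where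
                   `X j = Ψ ^ N · φ (F j) ^ c` and `Y = ∏_{a < c p} F (κ a) · ∏_{a < c q} σ (F (μ a))`
                   is ANY monomial of bidegree `(c p, c q)` in `(F, σ ∘ F)`
                   (= the literal hypothesis of the valuative criterion H1) — this gives
                   `c · h (m x) ≥ c p · h (x) + c q · h (− x) − C`;
* **`s17mv_ge`** : the converse direction (`X j` integral over the ideal of the monomials `Y`).
-/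
import Fermat.Agent.S17.Mult

set_option autoImplicit false
set_option linter.unusedVariables false
set_option linter.unusedSectionVars false

noncomputable section

namespace Fermat.Agent.S17

open Fermat.Agent.S27

universe u w x

variable {K : Type u} [Field K] {𝔉 : Type w} [Field 𝔉] [Algebra K 𝔉]

/-- the telescoped cube: `φ (b (V.comap φ)) ^ c ≐_V Ψ · b V ^ (c p) · σ (b (V.comap σ)) ^ (c q)`. -/
def S17mvTele (K : Type u) [Field K] {𝔉 : Type w} [Field 𝔉] [Algebra K 𝔉]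
    (φ σ : 𝔉 →ₐ[K] 𝔉) (b : ValuationSubring 𝔉 → 𝔉) (Ψ : 𝔉) (c p q : ℕ) : Prop :=
  ∀ V : ValuationSubring 𝔉, S27IsKValU K V → ∃ u : 𝔉, S27IsUnitIn V u ∧
    φ (b (V.comap (φ : 𝔉 →+* 𝔉))) ^ c =
      u * Ψ * b V ^ (c * p) * σ (b (V.comap (σ : 𝔉 →+* 𝔉))) ^ (c * q)

section Pull

variable {ι : Type x} {b : ValuationSubring 𝔉 → 𝔉}

/-- **pull-back of a base-point-free family** along a `K`-endomorphism. -/
theorem s17mv_pull (φ : 𝔉 →ₐ[K] 𝔉) {N : ℕ} {F : ι → 𝔉} (hF : S17muBpf K b N F)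
    (V : ValuationSubring 𝔉) (hV : S27IsKValU K V) :
    (∀ j, φ (F j) * φ (b (V.comap (φ : 𝔉 →+* 𝔉))) ^ N ∈ V) ∧
      ∃ j, S27IsUnitIn V (φ (F j) * φ (b (V.comap (φ : 𝔉 →+* 𝔉))) ^ N) := by
  obtain ⟨hmem, j₀, hj₀⟩ := hF (V.comap (φ : 𝔉 →+* 𝔉)) (s17mu_comap_isKVal φ hV)
  have key : ∀ j, φ (F j) * φ (b (V.comap (φ : 𝔉 →+* 𝔉))) ^ N =
      φ (F j * b (V.comap (φ : 𝔉 →+* 𝔉)) ^ N) := by
    intro j
    rw [map_mul, map_pow]
  refine ⟨fun j => ?_, j₀, ?_⟩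
  · rw [key j]
    exact hmem j
  · rw [key j₀]
    exact s17mu_unit_comap φ hj₀

end Pull

section Main

variable {ι : Type x} {φ σ : 𝔉 →ₐ[K] 𝔉} {b : ValuationSubring 𝔉 → 𝔉} {Ψ : 𝔉} {c p q N : ℕ}

/-- the normaliser of the monomials of bidegree `(c p, c q)`. -/
def s17mvNorm (σ : 𝔉 →ₐ[K] 𝔉) (b : ValuationSubring 𝔉 → 𝔉) (c p q N : ℕ)
    (V : ValuationSubring 𝔉) : 𝔉 :=
  (b V ^ N) ^ (c * p) * (σ (b (V.comap (σ : 𝔉 →+* 𝔉))) ^ N) ^ (c * q)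

/-- a monomial of bidegree `(d, e)` in `(F, σ ∘ F)`. -/
def s17mvMon (σ : 𝔉 →ₐ[K] 𝔉) (F : ι → 𝔉) {d e : ℕ} (κ : Fin d → ι) (μ : Fin e → ι) : 𝔉 :=
  (∏ a, F (κ a)) * ∏ a, σ (F (μ a))

theorem s17mv_prod_mem {V : ValuationSubring 𝔉} {G : ι → 𝔉} {y : 𝔉}
    (h : ∀ j, G j * y ∈ V) (d : ℕ) (κ : Fin d → ι) : (∏ a, G (κ a)) * y ^ d ∈ V := by
  have h1 : (∏ a, G (κ a)) * y ^ d = ∏ a : Fin d, (G (κ a) * y) := by
    rw [Finset.prod_mul_distrib, Finset.prod_const, Finset.card_univ, Fintype.card_fin]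
  rw [h1]
  exact V.toSubring.prod_mem fun a _ => h (κ a)

theorem s17mv_prod_unit {V : ValuationSubring 𝔉} {G : ι → 𝔉} {y : 𝔉} {j : ι}
    (h : S27IsUnitIn V (G j * y)) (d : ℕ) :
    S27IsUnitIn V ((∏ _a : Fin d, G j) * y ^ d) := by
  have h1 : (∏ _a : Fin d, G j) * y ^ d = (G j * y) ^ d := by
    rw [Finset.prod_const, Finset.card_univ, Fintype.card_fin, mul_pow]
  rw [h1]
  exact s17mu_unit_pow h d

/-- every monomial of bidegree `(c p, c q)`, times the normaliser, lies in `V`. -/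
theorem s17mv_mon_mem {F : ι → 𝔉} (hF : S17muBpf K b N F)
    (V : ValuationSubring 𝔉) (hV : S27IsKValU K V)
    (κ : Fin (c * p) → ι) (μ : Fin (c * q) → ι) :
    s17mvMon σ F κ μ * s17mvNorm σ b c p q N V ∈ V := by
  have h1 := s17mv_prod_mem (V := V) (G := F) (y := b V ^ N) (hF V hV).1 (c * p) κ
  have h2 := s17mv_prod_mem (V := V) (G := fun j => σ (F j))
    (y := σ (b (V.comap (σ : 𝔉 →+* 𝔉))) ^ N) (s17mv_pull σ hF V hV).1 (c * q) μ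
  have h3 : s17mvMon σ F κ μ * s17mvNorm σ b c p q N V =
      ((∏ a, F (κ a)) * (b V ^ N) ^ (c * p)) *
        ((∏ a, σ (F (μ a))) * (σ (b (V.comap (σ : 𝔉 →+* 𝔉))) ^ N) ^ (c * q)) := by
    unfold s17mvMon s17mvNorm
    ring
  rw [h3]
  exact V.mul_mem _ _ h1 h2

/-- some monomial of bidegree `(c p, c q)`, times the normaliser, is a unit of `V`. -/
theorem s17mv_mon_unit {F : ι → 𝔉} (hF : S17muBpf K b N F)
    (V : ValuationSubring 𝔉) (hV : S27IsKValU K V) :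
    ∃ (κ₀ : Fin (c * p) → ι) (μ₀ : Fin (c * q) → ι),
      S27IsUnitIn V (s17mvMon σ F κ₀ μ₀ * s17mvNorm σ b c p q N V) := by
  obtain ⟨-, j₁, hj₁⟩ := hF V hV
  obtain ⟨-, j₂, hj₂⟩ := s17mv_pull σ hF V hV
  refine ⟨fun _ => j₁, fun _ => j₂, ?_⟩
  have h1 := s17mv_prod_unit (V := V) (G := F) (y := b V ^ N) hj₁ (c * p)
  have h2 := s17mv_prod_unit (V := V) (G := fun j => σ (F j))
    (y := σ (b (V.comap (σ : 𝔉 →+* 𝔉))) ^ N) hj₂ (c * q)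
  have h3 : s17mvMon σ F (fun _ : Fin (c * p) => j₁) (fun _ : Fin (c * q) => j₂) *
      s17mvNorm σ b c p q N V =
      ((∏ _a : Fin (c * p), F j₁) * (b V ^ N) ^ (c * p)) *
        ((∏ _a : Fin (c * q), σ (F j₂)) *
          (σ (b (V.comap (σ : 𝔉 →+* 𝔉))) ^ N) ^ (c * q)) := by
    unfold s17mvMon s17mvNorm
    ring
  rw [h3]
  exact s17mu_unit_mul h1 h2

/-- `X j = Ψ ^ N · φ (F j) ^ c`, times the normaliser, is `u⁻ᴺ · (φ (F j) · φ (b') ^ N) ^ c`. -/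
theorem s17mv_X_eq {F : ι → 𝔉} {V : ValuationSubring 𝔉} {u : 𝔉} (hu : u ≠ 0)
    (hcube : φ (b (V.comap (φ : 𝔉 →+* 𝔉))) ^ c =
      u * Ψ * b V ^ (c * p) * σ (b (V.comap (σ : 𝔉 →+* 𝔉))) ^ (c * q)) (j : ι) :
    Ψ ^ N * φ (F j) ^ c * s17mvNorm σ b c p q N V =
      (φ (F j) * φ (b (V.comap (φ : 𝔉 →+* 𝔉))) ^ N) ^ c * (u ^ N)⁻¹ := by
  have hu0 : u ^ N ≠ 0 := pow_ne_zero N hu
  have h1 : (φ (F j) * φ (b (V.comap (φ : 𝔉 →+* 𝔉))) ^ N) ^ c =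
      φ (F j) ^ c * (φ (b (V.comap (φ : 𝔉 →+* 𝔉))) ^ c) ^ N := by
    rw [mul_pow, ← pow_mul, ← pow_mul, mul_comm N c]
  rw [h1, hcube]
  unfold s17mvNorm
  have h2 : (u * Ψ * b V ^ (c * p) * σ (b (V.comap (σ : 𝔉 →+* 𝔉))) ^ (c * q)) ^ N =
      u ^ N * (Ψ ^ N * ((b V ^ N) ^ (c * p) *
        (σ (b (V.comap (σ : 𝔉 →+* 𝔉))) ^ N) ^ (c * q))) := by
    rw [mul_pow, mul_pow, mul_pow, ← pow_mul, ← pow_mul, ← pow_mul, ← pow_mul,
      mul_comm N (c * p), mul_comm N (c * q)]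
    ring
  rw [h2]
  field_simp

/-- **(M), lower bound, valuative form** (non-symmetric): every monomial of bidegree `(c p, c q)`
in `(F, σ ∘ F)` is integral over the ideal generated by the `Ψ ^ N · φ (F j) ^ c` — literal
hypothesis of the valuative criterion (H1), for every `V ⊇ K`. -/
theorem s17mv_le (hT : S17mvTele K φ σ b Ψ c p q) {F : ι → 𝔉} (hF : S17muBpf K b N F)
    (κ : Fin (c * p) → ι) (μ : Fin (c * q) → ι)
    (V : ValuationSubring 𝔉) (hV : S27IsKValU K V) :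
    ∃ α : ι, Ψ ^ N * φ (F α) ^ c ≠ 0 ∧
      (∀ β : ι, (Ψ ^ N * φ (F β) ^ c) / (Ψ ^ N * φ (F α) ^ c) ∈ V) ∧
      s17mvMon σ F κ μ / (Ψ ^ N * φ (F α) ^ c) ∈ V := by
  obtain ⟨u, hu, hcube⟩ := hT V hV
  obtain ⟨hmem, α, hα⟩ := s17mv_pull φ hF V hV
  obtain ⟨κ₀, μ₀, hunit⟩ := s17mv_mon_unit (σ := σ) (c := c) (p := p) (q := q) hF V hV
  have hn0 : s17mvNorm σ b c p q N V ≠ 0 := right_ne_zero_of_mul hunit.1
  have huN : S27IsUnitIn V (u ^ N)⁻¹ := s17mu_unit_inv (s17mu_unit_pow hu N)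
  have hXu : S27IsUnitIn V (Ψ ^ N * φ (F α) ^ c * s17mvNorm σ b c p q N V) := by
    rw [s17mv_X_eq hu.1 hcube α]
    exact s17mu_unit_mul (s17mu_unit_pow hα c) huN
  have hX0 : Ψ ^ N * φ (F α) ^ c ≠ 0 := left_ne_zero_of_mul hXu.1
  refine ⟨α, hX0, fun β => ?_, ?_⟩
  · have h : (Ψ ^ N * φ (F β) ^ c) / (Ψ ^ N * φ (F α) ^ c) =
        (Ψ ^ N * φ (F β) ^ c * s17mvNorm σ b c p q N V) *
          (Ψ ^ N * φ (F α) ^ c * s17mvNorm σ b c p q N V)⁻¹ := by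
      field_simp
    rw [h, s17mv_X_eq hu.1 hcube β]
    exact V.mul_mem _ _ (V.mul_mem _ _ (pow_mem (hmem β) c) huN.2.1) hXu.2.2
  · have h : s17mvMon σ F κ μ / (Ψ ^ N * φ (F α) ^ c) =
        (s17mvMon σ F κ μ * s17mvNorm σ b c p q N V) *
          (Ψ ^ N * φ (F α) ^ c * s17mvNorm σ b c p q N V)⁻¹ := by
      field_simp
    rw [h]
    exact V.mul_mem _ _ (s17mv_mon_mem hF V hV κ μ) hXu.2.2

/-- **(M), upper bound, valuative form** (non-symmetric): every `Ψ ^ N · φ (F j) ^ c` is integral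
over the ideal generated by the monomials of bidegree `(c p, c q)` in `(F, σ ∘ F)`. -/
theorem s17mv_ge (hT : S17mvTele K φ σ b Ψ c p q) {F : ι → 𝔉} (hF : S17muBpf K b N F)
    (j : ι) (V : ValuationSubring 𝔉) (hV : S27IsKValU K V) :
    ∃ (κ₀ : Fin (c * p) → ι) (μ₀ : Fin (c * q) → ι), s17mvMon σ F κ₀ μ₀ ≠ 0 ∧
      (∀ (κ : Fin (c * p) → ι) (μ : Fin (c * q) → ι),
        s17mvMon σ F κ μ / s17mvMon σ F κ₀ μ₀ ∈ V) ∧
      (Ψ ^ N * φ (F j) ^ c) / s17mvMon σ F κ₀ μ₀ ∈ V := by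
  obtain ⟨u, hu, hcube⟩ := hT V hV
  obtain ⟨hmem, -⟩ := s17mv_pull φ hF V hV
  obtain ⟨κ₀, μ₀, hunit⟩ := s17mv_mon_unit (σ := σ) (c := c) (p := p) (q := q) hF V hV
  have hn0 : s17mvNorm σ b c p q N V ≠ 0 := right_ne_zero_of_mul hunit.1
  have hY0 : s17mvMon σ F κ₀ μ₀ ≠ 0 := left_ne_zero_of_mul hunit.1
  have huN : S27IsUnitIn V (u ^ N)⁻¹ := s17mu_unit_inv (s17mu_unit_pow hu N)
  refine ⟨κ₀, μ₀, hY0, fun κ μ => ?_, ?_⟩
  · have h : s17mvMon σ F κ μ / s17mvMon σ F κ₀ μ₀ =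
        (s17mvMon σ F κ μ * s17mvNorm σ b c p q N V) *
          (s17mvMon σ F κ₀ μ₀ * s17mvNorm σ b c p q N V)⁻¹ := by
      field_simp
    rw [h]
    exact V.mul_mem _ _ (s17mv_mon_mem hF V hV κ μ) hunit.2.2
  · have h : (Ψ ^ N * φ (F j) ^ c) / s17mvMon σ F κ₀ μ₀ =
        (Ψ ^ N * φ (F j) ^ c * s17mvNorm σ b c p q N V) *
          (s17mvMon σ F κ₀ μ₀ * s17mvNorm σ b c p q N V)⁻¹ := by
      field_simp
    rw [h, s17mv_X_eq hu.1 hcube j]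
    exact V.mul_mem _ _ (V.mul_mem _ _ (pow_mem (hmem j) c) huN.2.1) hunit.2.2

end Main

end Fermat.Agent.S17

end
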