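import Fermat.Agent.S17.Place

/-!
# S17 leaf H2, part 3 — place-values of products, powers and pull-backs (helper21)

On top of `S17/Place.lean` (`S17plPlace`, `S17plIsMin`, `s17plVal`):

* **Segre**: `s17ps_isMin_mul`, `s17ps_val_mul` : the product tuple `(i, j) ↦ F i * G j` has the
  minimal index `(α, β)` and the value `(i, j) ↦ [F]_P i * [G]_P j`;
  `s17ps_isMin_prod`, `s17ps_val_prod` : the same for a finite family of tuples
  (`I ↦ ∏ a, F a (I a)`, the shape of Mathlib's `mulHeight_fun_prod_eq`);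
  `s17ps_isMin_pow`, `s17ps_val_pow` : the `d`-fold power `I : Fin d → ι ↦ ∏ a, F (I a)`.
* heights (`K` with `AdmissibleAbsValues`): `s17ps_mulHeight_mul`, `s17ps_logHeight_mul`,
  `s17ps_mulHeight_pow`, `s17ps_logHeight_pow` : the height of the value of the product tuple is
  the product of the heights; of the `d`-fold power, the `d`-th power.
* **pull-back**: `s17psComap P' f` : the place of `L` induced by a place `P'` of `L'` along a
  `K`-embedding `f : L →ₐ[K] L'`; `s17ps_isMin_comap`, `s17ps_val_comap` :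
  `[F]_{f^* P'} = [f ∘ F]_{P'}`.
-/

namespace Fermat.Agent.S17

open MvPolynomial

section Segre

variable {K L : Type*} [Field K] [Field L] [Algebra K L] {ι κ : Type*}

theorem s17ps_isMin_mul {W : ValuationSubring L} {F : ι → L} {G : κ → L} {α : ι} {β : κ}
    (hα : S17plIsMin W F α) (hβ : S17plIsMin W G β) :
    S17plIsMin W (fun p : ι × κ => F p.1 * G p.2) (α, β) := by
  refine ⟨mul_ne_zero hα.1 hβ.1, fun p => ?_⟩
  show F p.1 * G p.2 / (F α * G β) ∈ W
  rw [mul_div_mul_comm]
  exact W.mul_mem _ _ (hα.2 p.1) (hβ.2 p.2)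

theorem s17ps_val_mul (P : S17plPlace K L) (F : ι → L) (G : κ → L) (α : ι) (β : κ)
    (hα : S17plIsMin P.W F α) (hβ : S17plIsMin P.W G β) :
    s17plVal P (fun p : ι × κ => F p.1 * G p.2) (α, β) (s17ps_isMin_mul hα hβ) =
      fun p => s17plVal P F α hα p.1 * s17plVal P G β hβ p.2 := by
  funext p
  rw [s17pl_val_apply, s17pl_val_apply, s17pl_val_apply, ← map_mul]
  congr 1
  apply Subtype.ext
  show F p.1 * G p.2 / (F α * G β) = F p.1 / F α * (G p.2 / G β)
  rw [mul_div_mul_comm]

/-- any minimal index of the product tuple has minimal components. -/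
theorem s17ps_isMin_of_mul {W : ValuationSubring L} {F : ι → L} {G : κ → L} {p : ι × κ}
    (h : S17plIsMin W (fun p : ι × κ => F p.1 * G p.2) p) :
    S17plIsMin W F p.1 ∧ S17plIsMin W G p.2 := by
  have h1 : F p.1 ≠ 0 := left_ne_zero_of_mul h.1
  have h2 : G p.2 ≠ 0 := right_ne_zero_of_mul h.1
  refine ⟨⟨h1, fun i => ?_⟩, ⟨h2, fun j => ?_⟩⟩
  · have := h.2 (i, p.2)
    have e : F i * G p.2 / (F p.1 * G p.2) = F i / F p.1 := mul_div_mul_right _ _ h2
    rwa [show (fun p : ι × κ => F p.1 * G p.2) (i, p.2) /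
      (fun p : ι × κ => F p.1 * G p.2) p = F i * G p.2 / (F p.1 * G p.2) from rfl, e] at this
  · have := h.2 (p.1, j)
    have e : F p.1 * G j / (F p.1 * G p.2) = G j / G p.2 := mul_div_mul_left _ _ h1
    rwa [show (fun p : ι × κ => F p.1 * G p.2) (p.1, j) /
      (fun p : ι × κ => F p.1 * G p.2) p = F p.1 * G j / (F p.1 * G p.2) from rfl, e] at this

end Segre

section Family

variable {K L : Type*} [Field K] [Field L] [Algebra K L]
  {A : Type*} [Fintype A] {ι : A → Type*}

theorem s17ps_isMin_prod {W : ValuationSubring L} {F : (a : A) → ι a → L}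
    {α : (a : A) → ι a} (hα : ∀ a, S17plIsMin W (F a) (α a)) :
    S17plIsMin W (fun I : (a : A) → ι a => ∏ a, F a (I a)) α := by
  refine ⟨Finset.prod_ne_zero_iff.mpr fun a _ => (hα a).1, fun I => ?_⟩
  show (∏ a, F a (I a)) / (∏ a, F a (α a)) ∈ W
  rw [← Finset.prod_div_distrib]
  exact W.toSubring.prod_mem fun a _ => (hα a).2 (I a)

theorem s17ps_val_prod (P : S17plPlace K L) (F : (a : A) → ι a → L)
    (α : (a : A) → ι a) (hα : ∀ a, S17plIsMin P.W (F a) (α a)) :
    s17plVal P (fun I : (a : A) → ι a => ∏ a, F a (I a)) α (s17ps_isMin_prod hα) =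
      fun I => ∏ a, s17plVal P (F a) (α a) (hα a) (I a) := by
  funext I
  rw [s17pl_val_apply]
  have h1 : (∏ a, s17plVal P (F a) (α a) (hα a) (I a)) =
      P.res (∏ a, s17plNorm P.W (F a) (α a) (hα a) (I a)) := by
    rw [map_prod]
    rfl
  rw [h1]
  congr 1
  apply Subtype.ext
  rw [show ((∏ a, s17plNorm P.W (F a) (α a) (hα a) (I a) : ↥P.W) : L) =
    P.W.subtype (∏ a, s17plNorm P.W (F a) (α a) (hα a) (I a)) from rfl, map_prod]
  show (∏ a, F a (I a)) / (∏ a, F a (α a)) = ∏ a, F a (I a) / F a (α a)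
  rw [Finset.prod_div_distrib]

/-- the `d`-fold power of a tuple. -/
theorem s17ps_isMin_pow {κ : Type*} {W : ValuationSubring L} {F : κ → L} {α : κ}
    (hα : S17plIsMin W F α) (d : ℕ) :
    S17plIsMin W (fun I : Fin d → κ => ∏ a, F (I a)) (fun _ => α) :=
  s17ps_isMin_prod (A := Fin d) (ι := fun _ => κ) (F := fun _ => F) (α := fun _ => α)
    fun _ => hα

theorem s17ps_val_pow {κ : Type*} (P : S17plPlace K L) (F : κ → L) (α : κ)
    (hα : S17plIsMin P.W F α) (d : ℕ) :
    s17plVal P (fun I : Fin d → κ => ∏ a, F (I a)) (fun _ => α) (s17ps_isMin_pow hα d) =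
      fun I => ∏ a, s17plVal P F α hα (I a) :=
  s17ps_val_prod (A := Fin d) (ι := fun _ => κ) P (fun _ => F) (fun _ => α) fun _ => hα

end Family

section Heights

open Height

variable {K L : Type*} [Field K] [AdmissibleAbsValues K] [Field L] [Algebra K L]
  {ι κ : Type*} [Finite ι] [Finite κ]

theorem s17ps_mulHeight_mul (P : S17plPlace K L) (F : ι → L) (G : κ → L) (α : ι) (β : κ)
    (hα : S17plIsMin P.W F α) (hβ : S17plIsMin P.W G β) :
    mulHeight (s17plVal P (fun p : ι × κ => F p.1 * G p.2) (α, β) (s17ps_isMin_mul hα hβ)) =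
      mulHeight (s17plVal P F α hα) * mulHeight (s17plVal P G β hβ) := by
  rw [s17ps_val_mul]
  exact mulHeight_fun_mul_eq (s17pl_val_ne_zero P F α hα) (s17pl_val_ne_zero P G β hβ)

theorem s17ps_logHeight_mul (P : S17plPlace K L) (F : ι → L) (G : κ → L) (α : ι) (β : κ)
    (hα : S17plIsMin P.W F α) (hβ : S17plIsMin P.W G β) :
    logHeight (s17plVal P (fun p : ι × κ => F p.1 * G p.2) (α, β) (s17ps_isMin_mul hα hβ)) =
      logHeight (s17plVal P F α hα) + logHeight (s17plVal P G β hβ) := by
  rw [s17ps_val_mul]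
  exact logHeight_fun_mul_eq (s17pl_val_ne_zero P F α hα) (s17pl_val_ne_zero P G β hβ)

theorem s17ps_mulHeight_pow (P : S17plPlace K L) (F : ι → L) (α : ι)
    (hα : S17plIsMin P.W F α) (d : ℕ) :
    mulHeight (s17plVal P (fun I : Fin d → ι => ∏ a, F (I a)) (fun _ => α)
      (s17ps_isMin_pow hα d)) = mulHeight (s17plVal P F α hα) ^ d := by
  rw [s17ps_val_pow P F α hα d]
  have := mulHeight_fun_prod_eq (K := K) (α := Fin d) (ι := fun _ => ι)
    (x := fun _ => s17plVal P F α hα) (fun _ => s17pl_val_ne_zero P F α hα)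
  rw [this, Finset.prod_const, Finset.card_univ, Fintype.card_fin]

theorem s17ps_logHeight_pow (P : S17plPlace K L) (F : ι → L) (α : ι)
    (hα : S17plIsMin P.W F α) (d : ℕ) :
    logHeight (s17plVal P (fun I : Fin d → ι => ∏ a, F (I a)) (fun _ => α)
      (s17ps_isMin_pow hα d)) = d * logHeight (s17plVal P F α hα) := by
  rw [logHeight_eq_log_mulHeight, s17ps_mulHeight_pow, Real.log_pow,
    logHeight_eq_log_mulHeight]

end Heights

section Comap

variable {K L L' : Type*} [Field K] [Field L] [Field L'] [Algebra K L] [Algebra K L']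
  {ι : Type*}

/-- the restriction of `f` to the pulled back valuation ring. -/
def s17psComapHom (A : ValuationSubring L') (f : L →+* L') : ↥(A.comap f) →+* ↥A where
  toFun x := ⟨f x, ValuationSubring.mem_comap.1 x.2⟩
  map_one' := Subtype.ext (map_one f)
  map_mul' a b := Subtype.ext (map_mul f (a : L) (b : L))
  map_zero' := Subtype.ext (map_zero f)
  map_add' a b := Subtype.ext (map_add f (a : L) (b : L))

@[simp] theorem s17psComapHom_coe (A : ValuationSubring L') (f : L →+* L')
    (x : ↥(A.comap f)) : ((s17psComapHom A f x : ↥A) : L') = f x := rfl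

/-- **pull-back of a place** along a `K`-embedding. -/
def s17psComap (P' : S17plPlace K L') (f : L →ₐ[K] L') : S17plPlace K L where
  W := P'.W.comap (f : L →+* L')
  hKW c := by
    rw [ValuationSubring.mem_comap]
    show f (algebraMap K L c) ∈ P'.W
    rw [f.commutes]
    exact P'.hKW c
  res := P'.res.comp (s17psComapHom P'.W (f : L →+* L'))
  hres c := by
    have h := P'.hres c
    have e : s17psComapHom P'.W (f : L →+* L')
        ⟨algebraMap K L c, by
          rw [ValuationSubring.mem_comap]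
          show f (algebraMap K L c) ∈ P'.W
          rw [f.commutes]
          exact P'.hKW c⟩ = ⟨algebraMap K L' c, P'.hKW c⟩ := by
      apply Subtype.ext
      show f (algebraMap K L c) = algebraMap K L' c
      exact f.commutes c
    show P'.res (s17psComapHom P'.W (f : L →+* L') _) = c
    rw [e]
    exact h

theorem s17psComap_W (P' : S17plPlace K L') (f : L →ₐ[K] L') :
    (s17psComap P' f).W = P'.W.comap (f : L →+* L') := rfl

theorem s17ps_isMin_comap (A : ValuationSubring L') (f : L →+* L') (F : ι → L) (α : ι) :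
    S17plIsMin (A.comap f) F α ↔ S17plIsMin A (fun i => f (F i)) α := by
  unfold S17plIsMin
  constructor
  · rintro ⟨h0, h⟩
    refine ⟨(map_ne_zero f).2 h0, fun β => ?_⟩
    have := ValuationSubring.mem_comap.1 (h β)
    rwa [map_div₀] at this
  · rintro ⟨h0, h⟩
    refine ⟨(map_ne_zero f).1 h0, fun β => ?_⟩
    rw [ValuationSubring.mem_comap, map_div₀]
    exact h β

/-- `[F]_{f^* P'} = [f ∘ F]_{P'}`. -/
theorem s17ps_val_comap (P' : S17plPlace K L') (f : L →ₐ[K] L') (F : ι → L) (α : ι)
    (h : S17plIsMin (s17psComap P' f).W F α)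
    (h' : S17plIsMin P'.W (fun i => f (F i)) α) :
    s17plVal (s17psComap P' f) F α h = s17plVal P' (fun i => f (F i)) α h' := by
  funext β
  rw [s17pl_val_apply, s17pl_val_apply]
  show P'.res (s17psComapHom P'.W (f : L →+* L') ⟨F β / F α, h.2 β⟩) = _
  congr 1
  apply Subtype.ext
  show f (F β / F α) = f (F β) / f (F α)
  exact map_div₀ f _ _

end Comap

end Fermat.Agent.S17
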