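/-
S17 sprint, design A v2 (ONE theta divisor), sub-integrator file **PlM** (helper11): the
multiplication bound at the level of PLACE-VALUES with ABSOLUTE heights — the literal hypothesis
`hM` of `s17plm_plM` (S17/PlMGlue.lean, helper58).

One field `L ⊇ K = ℚ̄`, `φ σ : L →ₐ[K] L` (`φ = ψ_m`, `σ = ψ_{−1}`), `b V` local equations of `Θ`,
`F : ι → L` a base-point-free family of `L(N Θ)` (`S17muBpf K b N F`), the telescoped cube
`S17mvTele K φ σ b Ψ c p q` (S17/Mult2.lean; instance from S27-B: S17/MultTele.lean, `m = 3`,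
`p = 6`, `q = 3`).

* `s17pm_bpf_X`   : `X j = Ψ ^ N · φ (F j) ^ c` is base-point-free w.r.t. the normaliser
                    `s17mvNorm σ b c p q N`;
* `s17pm_bpf_G`   : so are the pure monomials `G (j, j') = F j ^ (c p) · σ (F j') ^ (c q)`;
* `s17pm_equiv`   : hence `X ~ G` valuatively (literal `hW` of `s17hbpQ_place`);
* `s17pm_isMin_pow`, `s17pm_val_pow` : place-values of coordinatewise powers;
* **`s17pm_hM`**  : `∃ C, ∀ P α β …, p · habs [F]_P − C ≤ habs [φ ∘ F]_P`.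
-/
import Fermat.Agent.S17.BpfEquiv
import Fermat.Agent.S17.Mult2
import Fermat.Agent.S17.HtAbsPl
import Fermat.Agent.S17.HtAbsBasic
import Fermat.Agent.S17.PlaceSeg

set_option autoImplicit false
set_option linter.unusedVariables false
set_option linter.unusedSectionVars false

noncomputable section

namespace Fermat.Agent.S17

open Fermat.Agent.S27 Height

universe u w x

section Val

variable {K : Type u} [Field K] {L : Type w} [Field L] [Algebra K L] {ι : Type x}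
  {φ σ : L →ₐ[K] L} {b : ValuationSubring L → L} {Ψ : L} {c p q N : ℕ}

/-- `X j = Ψ ^ N · φ (F j) ^ c` is base-point-free w.r.t. the normaliser. -/
theorem s17pm_bpf_X (hT : S17mvTele K φ σ b Ψ c p q) {F : ι → L} (hF : S17muBpf K b N F) :
    S17muBpf K (s17mvNorm σ b c p q N) 1 (fun j => Ψ ^ N * φ (F j) ^ c) := by
  intro V hV
  obtain ⟨u, hu, hcube⟩ := hT V hV
  obtain ⟨hmem, α, hα⟩ := s17mv_pull φ hF V hV
  have huN : S27IsUnitIn V (u ^ N)⁻¹ := s17mu_unit_inv (s17mu_unit_pow hu N)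
  refine ⟨fun j => ?_, α, ?_⟩
  · rw [pow_one, s17mv_X_eq hu.1 hcube j]
    exact V.mul_mem _ _ (V.pow_mem (hmem j) c) huN.2.1
  · rw [pow_one, s17mv_X_eq hu.1 hcube α]
    exact s17mu_unit_mul (s17mu_unit_pow hα c) huN

/-- the pure monomials `F j ^ (c p) · σ (F j') ^ (c q)` are base-point-free w.r.t. the
normaliser. -/
theorem s17pm_bpf_G (σ : L →ₐ[K] L) (c p q : ℕ) {F : ι → L} (hF : S17muBpf K b N F) :
    S17muBpf K (s17mvNorm σ b c p q N) 1
      (fun t : ι × ι => F t.1 ^ (c * p) * σ (F t.2) ^ (c * q)) := by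
  intro V hV
  obtain ⟨h1, j₁, hj₁⟩ := hF V hV
  obtain ⟨h2, j₂, hj₂⟩ := s17mv_pull σ hF V hV
  have key : ∀ t : ι × ι, F t.1 ^ (c * p) * σ (F t.2) ^ (c * q) *
      s17mvNorm σ b c p q N V ^ 1 =
      (F t.1 * b V ^ N) ^ (c * p) *
        (σ (F t.2) * σ (b (V.comap (σ : L →+* L))) ^ N) ^ (c * q) := by
    intro t
    unfold s17mvNorm
    rw [pow_one, mul_pow, mul_pow]
    ring
  refine ⟨fun t => ?_, (j₁, j₂), ?_⟩
  · rw [key t]
    exact V.mul_mem _ _ (V.pow_mem (h1 t.1) _) (V.pow_mem (h2 t.2) _)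
  · rw [key (j₁, j₂)]
    exact s17mu_unit_mul (s17mu_unit_pow hj₁ _) (s17mu_unit_pow hj₂ _)

/-- **`X ~ G` valuatively** (literal `hW` of `s17hbpQ_place` / `s17plh_main`). -/
theorem s17pm_equiv (hT : S17mvTele K φ σ b Ψ c p q) {F : ι → L} (hF : S17muBpf K b N F)
    (V : ValuationSubring L) (hV : ∀ a : K, algebraMap K L a ∈ V) :
    ∃ (α : ι) (β : ι × ι), Ψ ^ N * φ (F α) ^ c ≠ 0 ∧
      F β.1 ^ (c * p) * σ (F β.2) ^ (c * q) ≠ 0 ∧
      (∀ α', (Ψ ^ N * φ (F α') ^ c) / (Ψ ^ N * φ (F α) ^ c) ∈ V) ∧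
      (∀ β' : ι × ι, (F β'.1 ^ (c * p) * σ (F β'.2) ^ (c * q)) /
        (F β.1 ^ (c * p) * σ (F β.2) ^ (c * q)) ∈ V) ∧
      (F β.1 ^ (c * p) * σ (F β.2) ^ (c * q)) / (Ψ ^ N * φ (F α) ^ c) ∈ V ∧
      (Ψ ^ N * φ (F α) ^ c) / (F β.1 ^ (c * p) * σ (F β.2) ^ (c * q)) ∈ V :=
  s17be_equiv (s17pm_bpf_X hT hF) (s17pm_bpf_G σ c p q hF) V hV

/-- coordinatewise powers keep the minimal index. -/
theorem s17pm_isMin_pow {W : ValuationSubring L} {F : ι → L} {α : ι} (hα : S17plIsMin W F α)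
    (d : ℕ) : S17plIsMin W (fun j => F j ^ d) α := by
  refine ⟨pow_ne_zero _ hα.1, fun j => ?_⟩
  show F j ^ d / F α ^ d ∈ W
  rw [← div_pow]
  exact W.pow_mem (hα.2 j) d

/-- the place-value of the coordinatewise powers. -/
theorem s17pm_val_pow (P : S17plPlace K L) (F : ι → L) (α : ι) (hα : S17plIsMin P.W F α)
    (d : ℕ) (h : S17plIsMin P.W (fun j => F j ^ d) α) :
    s17plVal P (fun j => F j ^ d) α h = s17plVal P F α hα ^ d := by
  funext j
  rw [Pi.pow_apply, s17pl_val_apply, s17pl_val_apply, ← map_pow]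
  congr 1
  apply Subtype.ext
  show F j ^ d / F α ^ d = (F j / F α) ^ d
  rw [div_pow]

end Val

section Height

variable {L : Type w} [Field L] [Algebra (AlgebraicClosure ℚ) L] {ι : Type x} [Fintype ι]
  {φ σ : L →ₐ[AlgebraicClosure ℚ] L} {b : ValuationSubring L → L} {Ψ : L} {c p q N : ℕ}

/-- **PlM, place-value form with absolute heights** (literal `hM` of `s17plm_plM`). -/
theorem s17pm_hM (hT : S17mvTele (AlgebraicClosure ℚ) φ σ b Ψ c p q) (hc : 0 < c)
    {F : ι → L} (hF : S17muBpf (AlgebraicClosure ℚ) b N F) :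
    ∃ C : ℝ, ∀ (P : S17plPlace (AlgebraicClosure ℚ) L) (α β : ι) (hα : S17plIsMin P.W F α)
      (hβ : S17plIsMin P.W (fun i => φ (F i)) β),
      (p : ℝ) * s17haAbsQ (s17plVal P F α hα) - C ≤
        s17haAbsQ (s17plVal P (fun i => φ (F i)) β hβ) := by
  classical
  obtain ⟨C, hC⟩ := s17hbpQ_place (fun j => Ψ ^ N * φ (F j) ^ c)
    (fun t : ι × ι => F t.1 ^ (c * p) * σ (F t.2) ^ (c * q))
    (fun W hW => s17pm_equiv hT hF W hW)
  have hcR : (0 : ℝ) < c := by exact_mod_cast hc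
  refine ⟨C / c, fun P α β hα hβ => ?_⟩
  -- `Ψ ^ N ≠ 0`
  obtain ⟨α₁, -, hX₁, -⟩ := s17pm_equiv hT hF P.W P.hKW
  have hΨ : Ψ ^ N ≠ 0 := left_ne_zero_of_mul hX₁
  -- minimal index of `X`
  have hβc : S17plIsMin P.W (fun j => φ (F j) ^ c) β := s17pm_isMin_pow hβ c
  have hXβ : S17plIsMin P.W (fun j => Ψ ^ N * φ (F j) ^ c) β :=
    (s17pl_isMin_scale P.W (fun j => φ (F j) ^ c) β hΨ).2 hβc
  -- minimal index of `σ ∘ F`
  have hσF : (fun j => σ (F j)) ≠ 0 := by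
    intro h0
    have := congrFun h0 α
    exact hα.1 ((map_eq_zero σ).1 this)
  obtain ⟨γ, hγ⟩ := s17pl_exists_min P.W hσF
  have hαp : S17plIsMin P.W (fun j => F j ^ (c * p)) α := s17pm_isMin_pow hα _
  have hγq : S17plIsMin P.W (fun j => σ (F j) ^ (c * q)) γ := s17pm_isMin_pow hγ _
  have hG : S17plIsMin P.W (fun t : ι × ι => F t.1 ^ (c * p) * σ (F t.2) ^ (c * q)) (α, γ) :=
    s17ps_isMin_mul hαp hγq
  have hbound := hC P β hXβ (α, γ) hG
  -- the value of `X`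
  have hvX : s17plVal P (fun j => Ψ ^ N * φ (F j) ^ c) β hXβ =
      s17plVal P (fun i => φ (F i)) β hβ ^ c := by
    rw [s17pl_val_scale P (fun j => φ (F j) ^ c) β hΨ hβc hXβ]
    exact s17pm_val_pow P (fun i => φ (F i)) β hβ c hβc
  -- the value of `G`
  have hvG : s17plVal P (fun t : ι × ι => F t.1 ^ (c * p) * σ (F t.2) ^ (c * q)) (α, γ) hG =
      fun t : ι × ι => (s17plVal P F α hα ^ (c * p)) t.1 *
        (s17plVal P (fun j => σ (F j)) γ hγ ^ (c * q)) t.2 := by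
    have h1 := s17ps_val_mul P (fun j => F j ^ (c * p)) (fun j => σ (F j) ^ (c * q)) α γ hαp hγq
    rw [h1, s17pm_val_pow P F α hα _ hαp, s17pm_val_pow P (fun j => σ (F j)) γ hγ _ hγq]
  rw [hvX, hvG, s17hab_pow] at hbound
  have hx0 : s17plVal P F α hα ^ (c * p) ≠ 0 := by
    intro h0
    have := congrFun h0 α
    rw [Pi.pow_apply, s17pl_val_self, one_pow] at this
    exact one_ne_zero this
  have hy0 : s17plVal P (fun j => σ (F j)) γ hγ ^ (c * q) ≠ 0 := by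
    intro h0
    have := congrFun h0 γ
    rw [Pi.pow_apply, s17pl_val_self, one_pow] at this
    exact one_ne_zero this
  rw [s17hab_fun_mul hx0 hy0, s17hab_pow, s17hab_pow] at hbound
  have hn1 := s17haAbsQ_nonneg (s17plVal P (fun j => σ (F j)) γ hγ)
  have hn2 : (0 : ℝ) ≤ ((c * q : ℕ) : ℝ) * s17haAbsQ (s17plVal P (fun j => σ (F j)) γ hγ) :=
    mul_nonneg (Nat.cast_nonneg _) hn1
  have h3 := (abs_le.1 hbound).1
  -- `c · habs[φF] ≥ c p · habs[F] − C`
  have h4 : ((c * p : ℕ) : ℝ) * s17haAbsQ (s17plVal P F α hα) - C ≤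
      (c : ℝ) * s17haAbsQ (s17plVal P (fun i => φ (F i)) β hβ) := by
    linarith
  have h5 : ((c * p : ℕ) : ℝ) = (c : ℝ) * (p : ℝ) := by push_cast; ring
  rw [h5] at h4
  have h6 : (c : ℝ) * ((p : ℝ) * s17haAbsQ (s17plVal P F α hα) - C / c) ≤
      (c : ℝ) * s17haAbsQ (s17plVal P (fun i => φ (F i)) β hβ) := by
    have : (c : ℝ) * (C / c) = C := by field_simp
    nlinarith
  exact le_of_mul_le_mul_left h6 hcR

end Height

end Fermat.Agent.S17

end
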