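import Mathlib

/-!
# S17 leaf H2 — PLACE-VALUES (helper21)

Frame: `K ⊆ L` fields, `P : S17plPlace K L` = a valuation subring `P.W` of `L` containing `K`
together with a residue map `P.res : ↥P.W →+* K` which is the identity on `K`
(a "`K`-rational place of `L`").

* `S17plIsMin W F α` : `α` is a coordinate of minimal valuation of the tuple `F : ι → L`
  (`F α ≠ 0` and every `F β / F α ∈ W`); `s17pl_exists_min` : it exists for `F ≠ 0`.
* `s17plVal P F α h : ι → K` : the place-value `[F]_P` in the chart `α`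
  (`s17pl_val_self`, `s17pl_val_ne_zero`); `s17pl_val_change` : another minimal index changes
  the value by a nonzero scalar; `s17pl_val_scale` : a common factor of `F` changes nothing.
* `s17pl_eval_val` / `s17pl_eval_val_eq_zero` : homogeneous identities with coefficients in `K`
  pass to place-values.
* `S17plCert F G M a` : the integrality certificate of H0/H1
  (`G ^ M + ∑ k, a_k(F) * G ^ (M-1-k) = 0`, `a_k` homogeneous of degree `k+1`);
  `s17pl_cert_mem` : then `G / F α ∈ W`; `s17pl_cert_val` : the certificate passes to values, in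
  the literal shape of `s17hc_main` (H0).
* `s17pl_main` : two tuples `F`, `G` with certificates of `G` over `F`, and one coordinate of `F`
  certified over `G`: the place-value of `G` is, up to a nonzero scalar, a tuple `y` satisfying the
  H0 certificates over the place-value of `F`.
* `s17pl_height_le` : hence `mulHeight [G]_P ≤ C * mulHeight [F]_P` for the H0 constant `C`,
  uniformly in the place `P` (stated for a field `K` with `AdmissibleAbsValues`).
* `s17pl_main_tower` : the same with certificate coefficients in a subfield `K₀ ⊆ K`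
  (H1 over `K₀ = ℚ`, residue field `K = Qb`), with certificates in BOTH directions between
  `[F]_P` and `y = c • [G]_P`; `s17pl_val_elim`, `s17pl_cert_scale` : combined tuples and joint
  scaling.
-/

namespace Fermat.Agent.S17

open MvPolynomial

/-! ## 0. evaluation of a homogeneous polynomial at a scaled point -/

theorem s17pl_eval₂_scale {K A ι : Type*} [CommSemiring K] [CommSemiring A] (f : K →+* A) (c : A)
    (x : ι → A) {Q : MvPolynomial ι K} {d : ℕ} (hQ : Q.IsHomogeneous d) :
    eval₂ f (fun i => c * x i) Q = c ^ d * eval₂ f x Q := by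
  rw [eval₂_eq, eval₂_eq, Finset.mul_sum]
  refine Finset.sum_congr rfl fun m hm => ?_
  have hdeg : ∑ i ∈ m.support, m i = d := (hQ.degree_eq_sum_deg_support hm).symm
  have hprod : ∏ i ∈ m.support, (c * x i) ^ m i = c ^ d * ∏ i ∈ m.support, x i ^ m i := by
    simp_rw [mul_pow]
    rw [Finset.prod_mul_distrib, Finset.prod_pow_eq_pow_sum, hdeg]
  rw [hprod]
  ring

theorem s17pl_aeval_scale {K A ι : Type*} [CommSemiring K] [CommSemiring A] [Algebra K A] (c : A)
    (x : ι → A) {Q : MvPolynomial ι K} {d : ℕ} (hQ : Q.IsHomogeneous d) :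
    aeval (fun i => c * x i) Q = c ^ d * aeval x Q := by
  rw [aeval_def, aeval_def]
  exact s17pl_eval₂_scale _ c x hQ

theorem s17pl_eval_scale {K ι : Type*} [CommSemiring K] (c : K)
    (x : ι → K) {Q : MvPolynomial ι K} {d : ℕ} (hQ : Q.IsHomogeneous d) :
    eval (fun i => c * x i) Q = c ^ d * eval x Q :=
  s17pl_eval₂_scale _ c x hQ

/-! ## 1. minimal indices -/

section Min

variable {L : Type*} [Field L] {ι : Type*}

/-- `α` is a coordinate of minimal valuation of the tuple `F` at `W`. -/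
def S17plIsMin (W : ValuationSubring L) (F : ι → L) (α : ι) : Prop :=
  F α ≠ 0 ∧ ∀ β, F β / F α ∈ W

theorem s17pl_isMin_iff (W : ValuationSubring L) (F : ι → L) (α : ι) :
    S17plIsMin W F α ↔ F α ≠ 0 ∧ ∀ β, W.valuation (F β) ≤ W.valuation (F α) := by
  constructor
  · rintro ⟨h0, h⟩
    refine ⟨h0, fun β => ?_⟩
    have h1 := (ValuationSubring.valuation_le_one_iff W _).2 (h β)
    rw [map_div₀] at h1
    have hpos : 0 < W.valuation (F α) := zero_lt_iff.mpr ((Valuation.ne_zero_iff _).mpr h0)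
    exact (div_le_one₀ hpos).1 h1
  · rintro ⟨h0, h⟩
    refine ⟨h0, fun β => ?_⟩
    rw [← ValuationSubring.valuation_le_one_iff, map_div₀]
    have hpos : 0 < W.valuation (F α) := zero_lt_iff.mpr ((Valuation.ne_zero_iff _).mpr h0)
    exact (div_le_one₀ hpos).2 (h β)

theorem s17pl_exists_min [Finite ι] (W : ValuationSubring L) {F : ι → L} (hF : F ≠ 0) :
    ∃ α, S17plIsMin W F α := by
  classical
  obtain ⟨_⟩ := nonempty_fintype ι
  obtain ⟨i₀, hi₀⟩ : ∃ i, F i ≠ 0 := by
    by_contra h
    exact hF (funext fun i => by_contra fun hi => h ⟨i, hi⟩)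
  obtain ⟨α, -, hα⟩ := Finset.exists_max_image Finset.univ (fun i => W.valuation (F i))
    ⟨i₀, Finset.mem_univ _⟩
  have hα0 : F α ≠ 0 := by
    intro h0
    have h1 := hα i₀ (Finset.mem_univ _)
    rw [h0, map_zero] at h1
    exact hi₀ ((map_eq_zero _).1 (le_antisymm h1 zero_le))
  exact ⟨α, (s17pl_isMin_iff W F α).2 ⟨hα0, fun β => hα β (Finset.mem_univ _)⟩⟩

theorem s17pl_isMin_ne_zero {W : ValuationSubring L} {F : ι → L} {α : ι}
    (h : S17plIsMin W F α) : F ≠ 0 := fun h0 => h.1 (by rw [h0]; rfl)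

theorem s17pl_isMin_scale (W : ValuationSubring L) (F : ι → L) (α : ι) {c : L} (hc : c ≠ 0) :
    S17plIsMin W (fun i => c * F i) α ↔ S17plIsMin W F α := by
  unfold S17plIsMin
  constructor
  · rintro ⟨h0, h⟩
    refine ⟨right_ne_zero_of_mul h0, fun β => ?_⟩
    have := h β
    rwa [mul_div_mul_left _ _ hc] at this
  · rintro ⟨h0, h⟩
    refine ⟨mul_ne_zero hc h0, fun β => ?_⟩
    show c * F β / (c * F α) ∈ W
    rw [mul_div_mul_left _ _ hc]
    exact h β

/-- every element of `W`-valuation at most that of `F α` is divisible by `F α` in `W`. -/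
theorem s17pl_div_mem_of_le {W : ValuationSubring L} {F : ι → L} {α : ι} (h : S17plIsMin W F α)
    {G : L} (hG : W.valuation G ≤ W.valuation (F α)) : G / F α ∈ W := by
  rw [← ValuationSubring.valuation_le_one_iff, map_div₀]
  have hpos : 0 < W.valuation (F α) := zero_lt_iff.mpr ((Valuation.ne_zero_iff _).mpr h.1)
  exact (div_le_one₀ hpos).2 hG

/-- the normalised tuple `F / F α`, with coordinates in `W`. -/
def s17plNorm (W : ValuationSubring L) (F : ι → L) (α : ι) (h : S17plIsMin W F α) : ι → ↥W :=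
  fun β => ⟨F β / F α, h.2 β⟩

@[simp] theorem s17plNorm_coe (W : ValuationSubring L) (F : ι → L) (α : ι)
    (h : S17plIsMin W F α) (β : ι) : ((s17plNorm W F α h β : ↥W) : L) = F β / F α := rfl

theorem s17plNorm_self (W : ValuationSubring L) (F : ι → L) (α : ι)
    (h : S17plIsMin W F α) : s17plNorm W F α h α = 1 := by
  apply Subtype.ext
  rw [s17plNorm_coe, div_self h.1]
  rfl

end Min

/-! ## 2. places and place-values -/

/-- a `K`-rational place of `L`: a valuation subring containing `K` with a residue map to `K`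
which is the identity on `K`. -/
structure S17plPlace (K L : Type*) [Field K] [Field L] [Algebra K L] where
  /-- the valuation ring -/
  W : ValuationSubring L
  /-- it contains the constants -/
  hKW : ∀ c : K, algebraMap K L c ∈ W
  /-- the residue map -/
  res : ↥W →+* K
  /-- which is the identity on constants -/
  hres : ∀ c : K, res ⟨algebraMap K L c, hKW c⟩ = c

section Place

variable {K L : Type*} [Field K] [Field L] [Algebra K L] {ι κ : Type*}

/-- the constants, as a ring homomorphism `K →+* W`. -/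
def s17plConst (P : S17plPlace K L) : K →+* ↥P.W where
  toFun c := ⟨algebraMap K L c, P.hKW c⟩
  map_one' := Subtype.ext (map_one _)
  map_mul' a b := Subtype.ext (map_mul _ a b)
  map_zero' := Subtype.ext (map_zero _)
  map_add' a b := Subtype.ext (map_add _ a b)

@[simp] theorem s17plConst_coe (P : S17plPlace K L) (c : K) :
    ((s17plConst P c : ↥P.W) : L) = algebraMap K L c := rfl

theorem s17pl_res_const (P : S17plPlace K L) (c : K) : P.res (s17plConst P c) = c := P.hres c

theorem s17pl_res_comp_const (P : S17plPlace K L) :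
    P.res.comp (s17plConst P) = RingHom.id K :=
  RingHom.ext fun c => s17pl_res_const P c

theorem s17pl_subtype_comp_const (P : S17plPlace K L) :
    P.W.subtype.comp (s17plConst P) = algebraMap K L :=
  RingHom.ext fun _ => rfl

/-- the residue of a unit of `W` is nonzero. -/
theorem s17pl_res_mul_res_inv (P : S17plPlace K L) {u : L} (hu0 : u ≠ 0) (hu : u ∈ P.W)
    (hu' : u⁻¹ ∈ P.W) : P.res ⟨u, hu⟩ * P.res ⟨u⁻¹, hu'⟩ = 1 := by
  rw [← map_mul]
  have : (⟨u, hu⟩ : ↥P.W) * ⟨u⁻¹, hu'⟩ = 1 := Subtype.ext (mul_inv_cancel₀ hu0)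
  rw [this, map_one]

theorem s17pl_res_ne_zero (P : S17plPlace K L) {u : L} (hu0 : u ≠ 0) (hu : u ∈ P.W)
    (hu' : u⁻¹ ∈ P.W) : P.res ⟨u, hu⟩ ≠ 0 :=
  left_ne_zero_of_mul_eq_one (s17pl_res_mul_res_inv P hu0 hu hu')

/-- the **place-value** of the tuple `F` at `P`, in the chart of the minimal index `α`. -/
def s17plVal (P : S17plPlace K L) (F : ι → L) (α : ι) (h : S17plIsMin P.W F α) : ι → K :=
  fun β => P.res (s17plNorm P.W F α h β)

theorem s17pl_val_apply (P : S17plPlace K L) (F : ι → L) (α : ι) (h : S17plIsMin P.W F α)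
    (β : ι) : s17plVal P F α h β = P.res ⟨F β / F α, h.2 β⟩ := rfl

theorem s17pl_val_self (P : S17plPlace K L) (F : ι → L) (α : ι) (h : S17plIsMin P.W F α) :
    s17plVal P F α h α = 1 := by
  unfold s17plVal
  rw [s17plNorm_self, map_one]

theorem s17pl_val_ne_zero (P : S17plPlace K L) (F : ι → L) (α : ι) (h : S17plIsMin P.W F α) :
    s17plVal P F α h ≠ 0 := by
  intro h0
  have := s17pl_val_self P F α h
  rw [h0] at this
  exact zero_ne_one this

/-- the value does not depend on the proof. -/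
theorem s17pl_val_congr (P : S17plPlace K L) {F F' : ι → L} (hF : F = F') (α : ι)
    (h : S17plIsMin P.W F α) (h' : S17plIsMin P.W F' α) :
    s17plVal P F α h = s17plVal P F' α h' := by
  subst hF
  rfl

/-- **change of chart**: another minimal index changes the value by a nonzero scalar. -/
theorem s17pl_val_change (P : S17plPlace K L) (F : ι → L) (α α' : ι)
    (h : S17plIsMin P.W F α) (h' : S17plIsMin P.W F α') :
    ∃ c : K, c ≠ 0 ∧ ∀ β, s17plVal P F α' h' β = c * s17plVal P F α h β := by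
  refine ⟨P.res ⟨F α / F α', h'.2 α⟩, ?_, fun β => ?_⟩
  · refine s17pl_res_ne_zero P (div_ne_zero h.1 h'.1) (h'.2 α) ?_
    rw [inv_div]
    exact h.2 α'
  · rw [s17pl_val_apply, s17pl_val_apply, ← map_mul]
    congr 1
    apply Subtype.ext
    show F β / F α' = F α / F α' * (F β / F α)
    field_simp [h.1, h'.1]

/-- a common nonzero factor of the tuple does not change the value. -/
theorem s17pl_val_scale (P : S17plPlace K L) (F : ι → L) (α : ι) {c : L} (hc : c ≠ 0)
    (h : S17plIsMin P.W F α) (h' : S17plIsMin P.W (fun i => c * F i) α) :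
    s17plVal P (fun i => c * F i) α h' = s17plVal P F α h := by
  funext β
  rw [s17pl_val_apply, s17pl_val_apply]
  congr 1
  apply Subtype.ext
  show c * F β / (c * F α) = F β / F α
  rw [mul_div_mul_left _ _ hc]

/-! ## 3. homogeneous identities pass to values -/

/-- evaluation of a homogeneous polynomial at the normalised tuple, inside `W`. -/
theorem s17pl_coe_eval₂_norm (P : S17plPlace K L) (F : ι → L) (α : ι)
    (h : S17plIsMin P.W F α) {Q : MvPolynomial ι K} {d : ℕ} (hQ : Q.IsHomogeneous d) :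
    ((eval₂ (s17plConst P) (s17plNorm P.W F α h) Q : ↥P.W) : L) = aeval F Q / F α ^ d := by
  have h1 := eval₂_comp_left P.W.subtype (s17plConst P) (s17plNorm P.W F α h) Q
  have h2 : (P.W.subtype ∘ s17plNorm P.W F α h) = fun β => (F α)⁻¹ * F β := by
    funext β
    show F β / F α = (F α)⁻¹ * F β
    rw [div_eq_inv_mul]
  have h3 : P.W.subtype (eval₂ (s17plConst P) (s17plNorm P.W F α h) Q) =
      (F α)⁻¹ ^ d * aeval F Q := by
    rw [h1, h2, s17pl_subtype_comp_const, aeval_def]
    exact s17pl_eval₂_scale _ _ F hQ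
  have h4 : ((eval₂ (s17plConst P) (s17plNorm P.W F α h) Q : ↥P.W) : L) =
      (F α)⁻¹ ^ d * aeval F Q := h3
  rw [h4, inv_pow, div_eq_inv_mul]

theorem s17pl_aeval_div_mem (P : S17plPlace K L) (F : ι → L) (α : ι)
    (h : S17plIsMin P.W F α) {Q : MvPolynomial ι K} {d : ℕ} (hQ : Q.IsHomogeneous d) :
    aeval F Q / F α ^ d ∈ P.W := by
  rw [← s17pl_coe_eval₂_norm P F α h hQ]
  exact Subtype.property _

theorem s17pl_res_eval₂_norm (P : S17plPlace K L) (F : ι → L) (α : ι)
    (h : S17plIsMin P.W F α) (Q : MvPolynomial ι K) :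
    P.res (eval₂ (s17plConst P) (s17plNorm P.W F α h) Q) = eval (s17plVal P F α h) Q := by
  rw [eval₂_comp_left, s17pl_res_comp_const]
  rfl

/-- **values of homogeneous polynomials**: `res (Q(F) / F_α^d) = Q([F]_P)`. -/
theorem s17pl_eval_val (P : S17plPlace K L) (F : ι → L) (α : ι)
    (h : S17plIsMin P.W F α) {Q : MvPolynomial ι K} {d : ℕ} (hQ : Q.IsHomogeneous d) :
    P.res ⟨aeval F Q / F α ^ d, s17pl_aeval_div_mem P F α h hQ⟩ = eval (s17plVal P F α h) Q := by
  rw [← s17pl_res_eval₂_norm]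
  congr 1
  apply Subtype.ext
  exact (s17pl_coe_eval₂_norm P F α h hQ).symm

/-- **homogeneous identities pass to place-values**. -/
theorem s17pl_eval_val_eq_zero (P : S17plPlace K L) (F : ι → L) (α : ι)
    (h : S17plIsMin P.W F α) {Q : MvPolynomial ι K} {d : ℕ} (hQ : Q.IsHomogeneous d)
    (h0 : aeval F Q = 0) : eval (s17plVal P F α h) Q = 0 := by
  rw [← s17pl_eval_val P F α h hQ]
  have : (⟨aeval F Q / F α ^ d, s17pl_aeval_div_mem P F α h hQ⟩ : ↥P.W) = 0 := by
    apply Subtype.ext
    show aeval F Q / F α ^ d = 0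
    rw [h0, zero_div]
  rw [this, map_zero]

/-! ## 4. integrality certificates -/

/-- the integrality certificate of H0/H1: `G` is integral over the tuple `F`, homogeneously. -/
def S17plCert (F : ι → L) (G : L) (M : ℕ) (a : Fin M → MvPolynomial ι K) : Prop :=
  (∀ k, (a k).IsHomogeneous ((k : ℕ) + 1)) ∧
    G ^ M + ∑ k : Fin M, aeval F (a k) * G ^ (M - 1 - (k : ℕ)) = 0

/-- the normalised certificate. -/
theorem s17pl_cert_norm (P : S17plPlace K L) (F : ι → L) (α : ι)
    (h : S17plIsMin P.W F α) {G : L} {M : ℕ} {a : Fin M → MvPolynomial ι K}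
    (hc : S17plCert F G M a) :
    (G / F α) ^ M + ∑ k : Fin M,
      (aeval F (a k) / F α ^ ((k : ℕ) + 1)) * (G / F α) ^ (M - 1 - (k : ℕ)) = 0 := by
  have h0 := h.1
  have hterm : ∀ k : Fin M, (aeval F (a k) / F α ^ ((k : ℕ) + 1)) * (G / F α) ^ (M - 1 - (k : ℕ))
      = (aeval F (a k) * G ^ (M - 1 - (k : ℕ))) / F α ^ M := by
    intro k
    have hk : (k : ℕ) + 1 + (M - 1 - (k : ℕ)) = M := by have := k.2; omega
    rw [div_pow, div_mul_div_comm, ← pow_add, hk]
  simp_rw [hterm]
  rw [div_pow, ← Finset.sum_div, ← add_div, hc.2, zero_div]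

/-- **integrality**: a certified `G` has valuation at least the minimum of `F`. -/
theorem s17pl_cert_mem (W : ValuationSubring L) (hKW : ∀ c : K, algebraMap K L c ∈ W)
    (F : ι → L) (α : ι) (h : S17plIsMin W F α) {G : L} {M : ℕ}
    {a : Fin M → MvPolynomial ι K} (hc : S17plCert F G M a) : G / F α ∈ W := by
  classical
  have hcoef : ∀ k : Fin M, aeval F (a k) / F α ^ ((k : ℕ) + 1) ∈ W := by
    intro k
    have hk := hc.1 k
    have h1 : aeval (fun β => (F α)⁻¹ * F β) (a k) = (F α)⁻¹ ^ ((k : ℕ) + 1) * aeval F (a k) :=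
      s17pl_aeval_scale _ F hk
    have h2 : aeval (fun β => (F α)⁻¹ * F β) (a k) ∈ W := by
      rw [aeval_def, eval₂_eq]
      refine W.toSubring.sum_mem fun m _ => ?_
      refine W.toSubring.mul_mem (hKW _) ?_
      refine W.toSubring.prod_mem fun i _ => ?_
      refine W.toSubring.pow_mem ?_ _
      have := h.2 i
      rwa [div_eq_inv_mul] at this
    rw [h1] at h2
    rwa [div_eq_inv_mul, ← inv_pow]
  by_contra hg
  have hg1 : 1 < W.valuation (G / F α) := by
    rw [← not_le, ValuationSubring.valuation_le_one_iff]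
    exact hg
  set g := G / F α with hgdef
  have hnorm : g ^ M + ∑ k : Fin M,
      (aeval F (a k) / F α ^ ((k : ℕ) + 1)) * g ^ (M - 1 - (k : ℕ)) = 0 := by
    have h0 := h.1
    have hterm : ∀ k : Fin M,
        (aeval F (a k) / F α ^ ((k : ℕ) + 1)) * (G / F α) ^ (M - 1 - (k : ℕ))
          = (aeval F (a k) * G ^ (M - 1 - (k : ℕ))) / F α ^ M := by
      intro k
      have hk : (k : ℕ) + 1 + (M - 1 - (k : ℕ)) = M := by have := k.2; omega
      rw [div_pow, div_mul_div_comm, ← pow_add, hk]
    rw [hgdef]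
    simp_rw [hterm]
    rw [div_pow, ← Finset.sum_div, ← add_div, hc.2, zero_div]
  have hgM : g ^ M = -∑ k : Fin M,
      (aeval F (a k) / F α ^ ((k : ℕ) + 1)) * g ^ (M - 1 - (k : ℕ)) :=
    eq_neg_of_add_eq_zero_left hnorm
  have hvg0 : W.valuation g ≠ 0 := fun h0 => by
    rw [h0] at hg1
    exact not_lt_of_ge zero_le hg1
  have hlt : W.valuation (∑ k : Fin M,
      (aeval F (a k) / F α ^ ((k : ℕ) + 1)) * g ^ (M - 1 - (k : ℕ))) < W.valuation g ^ M := by
    refine Valuation.map_sum_lt _ (pow_ne_zero _ hvg0) fun k _ => ?_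
    rw [map_mul, map_pow]
    have hck : W.valuation (aeval F (a k) / F α ^ ((k : ℕ) + 1)) ≤ 1 :=
      (ValuationSubring.valuation_le_one_iff W _).2 (hcoef k)
    have hpow : W.valuation g ^ (M - 1 - (k : ℕ)) < W.valuation g ^ M := by
      have hk : M - 1 - (k : ℕ) < M := by have := k.2; omega
      exact pow_lt_pow_right₀ hg1 hk
    calc W.valuation (aeval F (a k) / F α ^ ((k : ℕ) + 1)) * W.valuation g ^ (M - 1 - (k : ℕ))
        ≤ 1 * W.valuation g ^ (M - 1 - (k : ℕ)) := mul_le_mul_left hck _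
      _ = W.valuation g ^ (M - 1 - (k : ℕ)) := one_mul _
      _ < W.valuation g ^ M := hpow
  have : W.valuation (g ^ M) < W.valuation g ^ M := by
    rw [hgM, Valuation.map_neg]
    exact hlt
  rw [map_pow] at this
  exact lt_irrefl _ this

/-- **certificates pass to place-values**, in the literal shape of H0 (`s17hc_main`). -/
theorem s17pl_cert_val (P : S17plPlace K L) (F : ι → L) (α : ι)
    (h : S17plIsMin P.W F α) {G : L} {M : ℕ} {a : Fin M → MvPolynomial ι K}
    (hc : S17plCert F G M a) (hG : G / F α ∈ P.W) :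
    (P.res ⟨G / F α, hG⟩) ^ M + ∑ k : Fin M,
      eval (s17plVal P F α h) (a k) * (P.res ⟨G / F α, hG⟩) ^ (M - 1 - (k : ℕ)) = 0 := by
  have hW : (⟨G / F α, hG⟩ : ↥P.W) ^ M + ∑ k : Fin M,
      (⟨aeval F (a k) / F α ^ ((k : ℕ) + 1), s17pl_aeval_div_mem P F α h (hc.1 k)⟩ : ↥P.W) *
        (⟨G / F α, hG⟩ : ↥P.W) ^ (M - 1 - (k : ℕ)) = 0 := by
    apply Subtype.ext
    have := s17pl_cert_norm P F α h hc
    simpa using this
  have := congrArg P.res hW
  rw [map_add, map_pow, map_sum, map_zero] at this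
  simp_rw [map_mul, map_pow, s17pl_eval_val P F α h (hc.1 _)] at this
  exact this

/-! ## 5. tuples over tuples -/

/-- the values of a tuple `G` dominated by `F`, in the chart `α` of `F`. -/
def s17plValOver (P : S17plPlace K L) (F : ι → L) (α : ι) (G : κ → L)
    (hG : ∀ j, G j / F α ∈ P.W) : κ → K :=
  fun j => P.res ⟨G j / F α, hG j⟩

theorem s17pl_valOver_cert (P : S17plPlace K L) (F : ι → L) (α : ι)
    (h : S17plIsMin P.W F α) (G : κ → L) {M : ℕ} {a : κ → Fin M → MvPolynomial ι K}
    (hc : ∀ j, S17plCert F (G j) M (a j)) (hG : ∀ j, G j / F α ∈ P.W) (j : κ) :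
    s17plValOver P F α G hG j ^ M + ∑ k : Fin M,
      eval (s17plVal P F α h) (a j k) * s17plValOver P F α G hG j ^ (M - 1 - (k : ℕ)) = 0 :=
  s17pl_cert_val P F α h (hc j) (hG j)

/-- if moreover `F α` is dominated by the minimal coordinate `G β` of `G`, then the values of `G`
over `F` are a nonzero multiple of the place-value of `G`. -/
theorem s17pl_valOver_eq (P : S17plPlace K L) (F : ι → L) (α : ι) (h : S17plIsMin P.W F α)
    (G : κ → L) (β : κ) (hβ : S17plIsMin P.W G β) (hG : ∀ j, G j / F α ∈ P.W)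
    (hFG : F α / G β ∈ P.W) :
    ∃ c : K, c ≠ 0 ∧ ∀ j, s17plValOver P F α G hG j = c * s17plVal P G β hβ j := by
  refine ⟨P.res ⟨G β / F α, hG β⟩, ?_, fun j => ?_⟩
  · refine s17pl_res_ne_zero P (div_ne_zero hβ.1 h.1) (hG β) ?_
    rw [inv_div]
    exact hFG
  · rw [s17pl_val_apply, ← map_mul]
    show P.res ⟨G j / F α, hG j⟩ = _
    congr 1
    apply Subtype.ext
    show G j / F α = G β / F α * (G j / G β)
    have := h.1
    have := hβ.1
    field_simp

/-- **MAIN (H2)**: `G` certified over `F`, and the minimal coordinate `F α` certified over `G`: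
the place-value of `G` is, up to a nonzero scalar, a tuple `y` satisfying the H0 certificates
over the place-value of `F`. -/
theorem s17pl_main (P : S17plPlace K L) (F : ι → L) (G : κ → L) {M : ℕ}
    {a : κ → Fin M → MvPolynomial ι K} (ha : ∀ j, S17plCert F (G j) M (a j))
    {M' : ℕ} {b : ι → Fin M' → MvPolynomial κ K} (hb : ∀ i, S17plCert G (F i) M' (b i))
    (α : ι) (hα : S17plIsMin P.W F α) (β : κ) (hβ : S17plIsMin P.W G β) :
    ∃ (y : κ → K) (c : K), c ≠ 0 ∧ (∀ j, y j = c * s17plVal P G β hβ j) ∧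
      ∀ j, y j ^ M + ∑ k : Fin M,
        eval (s17plVal P F α hα) (a j k) * y j ^ (M - 1 - (k : ℕ)) = 0 := by
  have hG : ∀ j, G j / F α ∈ P.W := fun j => s17pl_cert_mem P.W P.hKW F α hα (ha j)
  have hFG : F α / G β ∈ P.W := s17pl_cert_mem P.W P.hKW G β hβ (hb α)
  obtain ⟨c, hc0, hc⟩ := s17pl_valOver_eq P F α hα G β hβ hG hFG
  exact ⟨s17plValOver P F α G hG, c, hc0, hc, fun j => s17pl_valOver_cert P F α hα G ha hG j⟩

/-- valuative form of the domination: certificates both ways ⇒ equal minimal valuations. -/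
theorem s17pl_min_valuation_eq (W : ValuationSubring L) (hKW : ∀ c : K, algebraMap K L c ∈ W)
    (F : ι → L) (G : κ → L) {M : ℕ}
    {a : κ → Fin M → MvPolynomial ι K} (ha : ∀ j, S17plCert F (G j) M (a j))
    {M' : ℕ} {b : ι → Fin M' → MvPolynomial κ K} (hb : ∀ i, S17plCert G (F i) M' (b i))
    (α : ι) (hα : S17plIsMin W F α) (β : κ) (hβ : S17plIsMin W G β) :
    W.valuation (F α) = W.valuation (G β) := by
  have h1 : G β / F α ∈ W := s17pl_cert_mem W hKW F α hα (ha β)
  have h2 : F α / G β ∈ W := s17pl_cert_mem W hKW G β hβ (hb α)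
  rw [← ValuationSubring.valuation_le_one_iff, map_div₀] at h1 h2
  have hpα : 0 < W.valuation (F α) := zero_lt_iff.mpr ((Valuation.ne_zero_iff _).mpr hα.1)
  have hpβ : 0 < W.valuation (G β) := zero_lt_iff.mpr ((Valuation.ne_zero_iff _).mpr hβ.1)
  exact le_antisymm ((div_le_one₀ hpβ).1 h2) ((div_le_one₀ hpα).1 h1)

/-! ## 5b. combined tuples, joint scaling, coefficient fields -/

/-- the combined tuple `(F, G)` of a tuple `G` dominated by `F` has the same minimal index. -/
theorem s17pl_isMin_elim {W : ValuationSubring L} {F : ι → L} {α : ι} (h : S17plIsMin W F α)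
    {G : κ → L} (hG : ∀ j, G j / F α ∈ W) : S17plIsMin W (Sum.elim F G) (Sum.inl α) := by
  refine ⟨h.1, fun β => ?_⟩
  cases β with
  | inl i => exact h.2 i
  | inr j => exact hG j

/-- the place-value of the combined tuple. -/
theorem s17pl_val_elim (P : S17plPlace K L) (F : ι → L) (α : ι) (h : S17plIsMin P.W F α)
    (G : κ → L) (hG : ∀ j, G j / F α ∈ P.W) :
    s17plVal P (Sum.elim F G) (Sum.inl α) (s17pl_isMin_elim h hG) =
      Sum.elim (s17plVal P F α h) (s17plValOver P F α G hG) := by
  funext β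
  cases β with
  | inl i => rfl
  | inr j => rfl

/-- **joint scaling** of a certificate between values. -/
theorem s17pl_cert_scale (t : K) (x : ι → K) (y : K) {M : ℕ} {a : Fin M → MvPolynomial ι K}
    (ha : ∀ k, (a k).IsHomogeneous ((k : ℕ) + 1))
    (h : y ^ M + ∑ k : Fin M, eval x (a k) * y ^ (M - 1 - (k : ℕ)) = 0) :
    (t * y) ^ M + ∑ k : Fin M,
      eval (fun i => t * x i) (a k) * (t * y) ^ (M - 1 - (k : ℕ)) = 0 := by
  have hterm : ∀ k : Fin M, eval (fun i => t * x i) (a k) * (t * y) ^ (M - 1 - (k : ℕ))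
      = t ^ M * (eval x (a k) * y ^ (M - 1 - (k : ℕ))) := by
    intro k
    have hk : (k : ℕ) + 1 + (M - 1 - (k : ℕ)) = M := by have := k.2; omega
    rw [s17pl_eval_scale t x (ha k), mul_pow]
    calc t ^ ((k : ℕ) + 1) * eval x (a k) * (t ^ (M - 1 - (k : ℕ)) * y ^ (M - 1 - (k : ℕ)))
        = t ^ ((k : ℕ) + 1 + (M - 1 - (k : ℕ))) * (eval x (a k) * y ^ (M - 1 - (k : ℕ))) := by
          rw [pow_add]; ring
      _ = t ^ M * (eval x (a k) * y ^ (M - 1 - (k : ℕ))) := by rw [hk]
  simp_rw [hterm]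
  rw [mul_pow, ← Finset.mul_sum, ← mul_add, h, mul_zero]

/-- certificates with coefficients in a subfield `K₀` of the residue field `K`
(the output shape of H1 = `s17vc_main` over `K₀`). -/
theorem s17pl_cert_map {K₀ : Type*} [Field K₀] [Algebra K₀ K] [Algebra K₀ L]
    [IsScalarTower K₀ K L] {F : ι → L} {G : L} {M : ℕ} {a : Fin M → MvPolynomial ι K₀}
    (ha : ∀ k, (a k).IsHomogeneous ((k : ℕ) + 1))
    (h : G ^ M + ∑ k : Fin M, aeval F (a k) * G ^ (M - 1 - (k : ℕ)) = 0) :
    S17plCert (K := K) F G M (fun k => map (algebraMap K₀ K) (a k)) := by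
  refine ⟨fun k => (ha k).map _, ?_⟩
  simp_rw [aeval_map_algebraMap]
  exact h

/-- a valuation subring containing `K` contains every subfield `K₀` of `K`. -/
theorem s17pl_hKW_tower {K₀ : Type*} [Field K₀] [Algebra K₀ K] [Algebra K₀ L]
    [IsScalarTower K₀ K L] {W : ValuationSubring L} (hKW : ∀ c : K, algebraMap K L c ∈ W)
    (c : K₀) : algebraMap K₀ L c ∈ W := by
  rw [IsScalarTower.algebraMap_apply K₀ K L]
  exact hKW _

/-- **MAIN, coefficients in `K₀ ⊆ K`** (H1 output shape in, H0 hypothesis shape out, over the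
residue field `K`; `aeval x a = eval x (map _ a)`). -/
theorem s17pl_main_tower {K₀ : Type*} [Field K₀] [Algebra K₀ K] [Algebra K₀ L]
    [IsScalarTower K₀ K L] (P : S17plPlace K L) (F : ι → L) (G : κ → L) {M : ℕ}
    {a : κ → Fin M → MvPolynomial ι K₀} (ha : ∀ j k, (a j k).IsHomogeneous ((k : ℕ) + 1))
    (hca : ∀ j, G j ^ M + ∑ k : Fin M, aeval F (a j k) * G j ^ (M - 1 - (k : ℕ)) = 0)
    {M' : ℕ} {b : ι → Fin M' → MvPolynomial κ K₀}
    (hb : ∀ i k, (b i k).IsHomogeneous ((k : ℕ) + 1))
    (hcb : ∀ i, F i ^ M' + ∑ k : Fin M', aeval G (b i k) * F i ^ (M' - 1 - (k : ℕ)) = 0)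
    (α : ι) (hα : S17plIsMin P.W F α) (β : κ) (hβ : S17plIsMin P.W G β) :
    ∃ (y : κ → K) (c : K), c ≠ 0 ∧ (∀ j, y j = c * s17plVal P G β hβ j) ∧
      (∀ j, y j ^ M + ∑ k : Fin M,
        aeval (s17plVal P F α hα) (a j k) * y j ^ (M - 1 - (k : ℕ)) = 0) ∧
      (∀ i, s17plVal P F α hα i ^ M' + ∑ k : Fin M',
        aeval y (b i k) * s17plVal P F α hα i ^ (M' - 1 - (k : ℕ)) = 0) := by
  have hA : ∀ j, S17plCert (K := K) F (G j) M (fun k => map (algebraMap K₀ K) (a j k)) :=
    fun j => s17pl_cert_map (ha j) (hca j)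
  have hB : ∀ i, S17plCert (K := K) G (F i) M' (fun k => map (algebraMap K₀ K) (b i k)) :=
    fun i => s17pl_cert_map (hb i) (hcb i)
  have hG : ∀ j, G j / F α ∈ P.W := fun j => s17pl_cert_mem P.W P.hKW F α hα (hA j)
  have hFG : F α / G β ∈ P.W := s17pl_cert_mem P.W P.hKW G β hβ (hB α)
  obtain ⟨c, hc0, hc⟩ := s17pl_valOver_eq P F α hα G β hβ hG hFG
  refine ⟨s17plValOver P F α G hG, c, hc0, hc, fun j => ?_, fun i => ?_⟩
  · have := s17pl_valOver_cert P F α hα G hA hG j
    simpa only [eval_map, ← aeval_def] using this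
  · -- the certificate of `F i` over `G`, read in the chart `β` of `G`, then rescaled by `c`
    have hFi : F i / G β ∈ P.W := s17pl_cert_mem P.W P.hKW G β hβ (hB i)
    have h1 := s17pl_cert_val P G β hβ (hB i) hFi
    have h2 := s17pl_cert_scale c (s17plVal P G β hβ) (P.res ⟨F i / G β, hFi⟩)
      (fun k => (hb i k).map (algebraMap K₀ K)) h1
    have hy : (fun j => c * s17plVal P G β hβ j) = s17plValOver P F α G hG := by
      funext j
      exact (hc j).symm
    have hx : c * P.res ⟨F i / G β, hFi⟩ = s17plVal P F α hα i := by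
      have hcdef : ∀ j, P.res ⟨G j / F α, hG j⟩ = c * s17plVal P G β hβ j := hc
      have h3 := hcdef β
      rw [s17pl_val_self, mul_one] at h3
      rw [← h3, s17pl_val_apply, ← map_mul]
      congr 1
      apply Subtype.ext
      show G β / F α * (F i / G β) = F i / F α
      have := hα.1
      have := hβ.1
      field_simp
    rw [hy, hx] at h2
    simpa only [eval_map, ← aeval_def] using h2

end Place

/-! ## 6. the height comparison, uniform in the place -/

section Height

open Height

variable {K L : Type*} [Field K] [AdmissibleAbsValues K] [Field L] [Algebra K L]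
  {ι κ : Type*} [Finite ι] [Finite κ]

/-- **H0 + H2**: with the constant `C` of H0 (`s17hc_main`, taken as a hypothesis so that this file
stays pure Mathlib), the place-values of two tuples with certificates both ways satisfy
`mulHeight [G]_P ≤ C * mulHeight [F]_P`, uniformly in the place `P` and in the charts. -/
theorem s17pl_height_le (F : ι → L) (G : κ → L) {M : ℕ}
    {a : κ → Fin M → MvPolynomial ι K} (ha : ∀ j, S17plCert F (G j) M (a j))
    {M' : ℕ} {b : ι → Fin M' → MvPolynomial κ K} (hb : ∀ i, S17plCert G (F i) M' (b i))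
    {C : ℝ} (hC : ∀ (x : ι → K) (y : κ → K),
      (∀ j, y j ^ M + ∑ k : Fin M, eval x (a j k) * y j ^ (M - 1 - (k : ℕ)) = 0) →
        mulHeight (Sum.elim x y) ≤ C * mulHeight x)
    (P : S17plPlace K L) (α : ι) (hα : S17plIsMin P.W F α) (β : κ) (hβ : S17plIsMin P.W G β) :
    mulHeight (s17plVal P G β hβ) ≤ C * mulHeight (s17plVal P F α hα) := by
  obtain ⟨y, c, hc0, hy, hcert⟩ := s17pl_main P F G ha hb α hα β hβ
  have h1 := hC (s17plVal P F α hα) y hcert
  have h2 : mulHeight y ≤ mulHeight (Sum.elim (s17plVal P F α hα) y) := by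
    have := mulHeight_comp_le (Sum.inr : κ → ι ⊕ κ) (Sum.elim (s17plVal P F α hα) y)
    simpa using this
  have h3 : y = c • s17plVal P G β hβ := by
    funext j
    rw [hy j]
    rfl
  have h4 : mulHeight y = mulHeight (s17plVal P G β hβ) := by
    rw [h3]
    exact mulHeight_smul_eq_mulHeight _ hc0
  rw [← h4]
  exact h2.trans h1

end Height

end Fermat.Agent.S17
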