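/-
S17 sprint, leaf **A-EXT — extension of `K`-rational places along an algebraic extension**
(helper58).  Frame of `S17/Place.lean` (helper21): `S17plPlace K L` = a valuation subring `W ⊇ K`
of `L` with a residue map `res : W →+* K` which is the identity on `K`.

`K` algebraically closed, `ψ : L' →ₐ[K] L` a `K`-embedding of fields such that `L` is algebraic
over `ψ L'`.  Then every `K`-rational place of `L'` is the trace of a `K`-rational place of `L`:

* `s17px_exists_ext`     : (hypothesis: every `x : L` is a root of a nonzero polynomial over `L'`)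
                           `∃ P : S17plPlace K L, P.W.comap ψ = P'.W ∧
                              ∀ w (hw : w ∈ P'.W) (hw' : ψ w ∈ P.W), P.res ⟨ψ w, hw'⟩ = P'.res ⟨w, hw⟩`;
* `s17px_exists_ext_alg` : the same from `Algebra.IsAlgebraic ψ.fieldRange L`;
* `s17px_exists_ext_fin` : the same from `Module.Finite ψ.fieldRange L` (the shape of S27's `deg_fin`);
* `s17px_exists_ext_equiv` : the same for an automorphism `ρ : L' ≃ₐ[K] L` (no hypothesis on `K`
                           is needed there, but we keep one statement shape);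
* `s17pxComap P ψ`       : the trace `P ∘ ψ` of a place as a place of `L'`, with
                           `s17pxComap_W`, `s17pxComap_res`;
* `s17px_exists_comap`   : `∃ P, (s17pxComap P ψ).W = P'.W ∧ ∀ w hw hw', (s17pxComap P ψ).res ⟨w, hw'⟩ = P'.res ⟨w, hw⟩`.

Proof: Chevalley (`IsLocalRing.exists_factor_valuationRing`) gives `W` with `ψ⁻¹ W = W'`; the
residue field of `W` is algebraic over `K` (reduce an algebraic equation with coefficients in `W'`,
one of them `1`), hence equal to `K`.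
-/
import Fermat.Agent.S17.Place

set_option autoImplicit false
set_option linter.unusedSectionVars false
set_option linter.unusedVariables false
set_option linter.style.haveILetI false

noncomputable section

namespace Fermat.Agent.S17

open Polynomial

universe u v w

section Chevalley

variable {L' : Type v} {L : Type w} [Field L'] [Field L]

/-- **Chevalley**, for a ring homomorphism of fields: every valuation subring of `L'` is the trace
of a valuation subring of `L`. -/
theorem s17px_chevalley (ψ : L' →+* L) (V : ValuationSubring L') :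
    ∃ W : ValuationSubring L, W.comap ψ = V := by
  obtain ⟨W, h, hloc⟩ := IsLocalRing.exists_factor_valuationRing (ψ.comp V.subtype)
  refine ⟨W, ?_⟩
  ext x
  rw [ValuationSubring.mem_comap]
  constructor
  · intro hx
    by_contra hxV
    have hx0 : x ≠ 0 := fun h0 => hxV (h0 ▸ V.zero_mem)
    have hinv : x⁻¹ ∈ V := (V.mem_or_inv_mem x).resolve_left hxV
    -- `x⁻¹` is a non-unit of `V`, but its image is a unit of `W`
    have hu : IsUnit (((ψ.comp V.subtype).codRestrict W.toSubring h) ⟨x⁻¹, hinv⟩) := by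
      refine isUnit_iff_exists_inv.2 ⟨⟨ψ x, hx⟩, Subtype.ext ?_⟩
      show ψ x⁻¹ * ψ x = 1
      rw [← map_mul, inv_mul_cancel₀ hx0, map_one]
    have hu' : IsUnit (⟨x⁻¹, hinv⟩ : ↥V) := hloc.map_nonunit _ hu
    obtain ⟨y, hy⟩ := isUnit_iff_exists_inv.1 hu'
    have hy' : x⁻¹ * (y : L') = 1 := congrArg Subtype.val hy
    have : (y : L') = x := by
      have := congrArg (fun t => x * t) hy'
      simpa [← mul_assoc, mul_inv_cancel₀ hx0] using this
    exact hxV (this ▸ y.2)
  · intro hx
    exact h ⟨x, hx⟩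

end Chevalley

section Ext

variable {K : Type u} {L' : Type v} {L : Type w} [Field K] [Field L'] [Field L]
  [Algebra K L'] [Algebra K L]

/-- the residue map of a `K`-rational place kills the non-units (local copy). -/
theorem s17px_res_eq_zero (P : S17plPlace K L') (x : ↥P.W) (hx : ¬ IsUnit x) : P.res x = 0 := by
  by_contra hr
  -- `x − const (res x)` has residue `0`, so it is a non-unit; `const (res x)` is a unit
  have h1 : P.res (x - s17plConst P (P.res x)) = 0 := by
    rw [map_sub, s17pl_res_const, sub_self]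
  have h2 : ¬ IsUnit (x - s17plConst P (P.res x)) := by
    intro hu
    have := hu.map P.res
    rw [h1] at this
    exact not_isUnit_zero this
  have h3 : IsUnit (s17plConst P (P.res x)) := (Ne.isUnit hr).map (s17plConst P)
  have hmem : x ∈ IsLocalRing.maximalIdeal ↥P.W := (IsLocalRing.mem_maximalIdeal _).2 hx
  have hmem2 : x - s17plConst P (P.res x) ∈ IsLocalRing.maximalIdeal ↥P.W :=
    (IsLocalRing.mem_maximalIdeal _).2 h2
  have hmem3 : s17plConst P (P.res x) ∈ IsLocalRing.maximalIdeal ↥P.W := by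
    have := (IsLocalRing.maximalIdeal ↥P.W).sub_mem hmem hmem2
    simpa using this
  exact ((IsLocalRing.mem_maximalIdeal _).1 hmem3) h3

/-- the constants of `L`, as a ring homomorphism into a valuation subring containing them. -/
def s17pxConst (W : ValuationSubring L) (hKW : ∀ c : K, algebraMap K L c ∈ W) : K →+* ↥W :=
  (algebraMap K L).codRestrict W.toSubring hKW

@[simp] theorem s17pxConst_coe (W : ValuationSubring L) (hKW : ∀ c : K, algebraMap K L c ∈ W)
    (c : K) : ((s17pxConst W hKW c : ↥W) : L) = algebraMap K L c := rfl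

/-- the constants in the residue field. -/
def s17pxIota (W : ValuationSubring L) (hKW : ∀ c : K, algebraMap K L c ∈ W) :
    K →+* IsLocalRing.ResidueField ↥W :=
  (IsLocalRing.residue ↥W).comp (s17pxConst W hKW)

variable (ψ : L' →ₐ[K] L)

/-- the restriction of `ψ` to valuation rings. -/
def s17pxPhi (P' : S17plPlace K L') (W : ValuationSubring L)
    (hW : W.comap (ψ : L' →+* L) = P'.W) : ↥P'.W →+* ↥W :=
  ((ψ : L' →+* L).comp P'.W.subtype).codRestrict W.toSubring (fun x => by
    have hx : (x : L') ∈ W.comap (ψ : L' →+* L) := by rw [hW]; exact x.2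
    exact (ValuationSubring.mem_comap).1 hx)

@[simp] theorem s17pxPhi_coe (P' : S17plPlace K L') (W : ValuationSubring L)
    (hW : W.comap (ψ : L' →+* L) = P'.W) (x : ↥P'.W) :
    ((s17pxPhi ψ P' W hW x : ↥W) : L) = ψ (x : L') := rfl

theorem s17px_hKW (P' : S17plPlace K L') (W : ValuationSubring L)
    (hW : W.comap (ψ : L' →+* L) = P'.W) (c : K) : algebraMap K L c ∈ W := by
  have h1 : algebraMap K L' c ∈ W.comap (ψ : L' →+* L) := by rw [hW]; exact P'.hKW c
  have h2 := (ValuationSubring.mem_comap).1 h1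
  have h3 : (ψ : L' →+* L) (algebraMap K L' c) = algebraMap K L c := ψ.commutes c
  rwa [h3] at h2

/-- non-units go to non-units. -/
theorem s17px_phi_nonunit (P' : S17plPlace K L') (W : ValuationSubring L)
    (hW : W.comap (ψ : L' →+* L) = P'.W) (x : ↥P'.W) (hx : ¬ IsUnit x) :
    ¬ IsUnit (s17pxPhi ψ P' W hW x) := by
  intro hu
  apply hx
  obtain ⟨y, hy⟩ := isUnit_iff_exists_inv.1 hu
  have hy' : ψ (x : L') * (y : L) = 1 := congrArg Subtype.val hy
  have hx0 : (x : L') ≠ 0 := by
    intro h0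
    rw [h0, map_zero, zero_mul] at hy'
    exact zero_ne_one hy'
  have hyx : (y : L) = ψ ((x : L')⁻¹) := by
    rw [map_inv₀]
    have hψx : ψ (x : L') ≠ 0 := by
      intro h0
      rw [h0, zero_mul] at hy'
      exact zero_ne_one hy'
    field_simp
    rw [mul_comm]; exact hy'
  have hinv : (x : L')⁻¹ ∈ P'.W := by
    have h1 : (x : L')⁻¹ ∈ W.comap (ψ : L' →+* L) := by
      rw [ValuationSubring.mem_comap]
      show ψ ((x : L')⁻¹) ∈ W
      rw [← hyx]; exact y.2
    rwa [hW] at h1
  exact isUnit_iff_exists_inv.2 ⟨⟨(x : L')⁻¹, hinv⟩, Subtype.ext (mul_inv_cancel₀ hx0)⟩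

/-- **compatibility**: the residue class of `ψ x` is the constant `res x`. -/
theorem s17px_residue_phi (P' : S17plPlace K L') (W : ValuationSubring L)
    (hW : W.comap (ψ : L' →+* L) = P'.W) (x : ↥P'.W) :
    IsLocalRing.residue ↥W (s17pxPhi ψ P' W hW x)
      = s17pxIota W (s17px_hKW ψ P' W hW) (P'.res x) := by
  -- `x − const (res x)` is a non-unit of `W'`
  have h1 : P'.res (x - s17plConst P' (P'.res x)) = 0 := by
    rw [map_sub, s17pl_res_const, sub_self]
  have h2 : ¬ IsUnit (x - s17plConst P' (P'.res x)) := by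
    intro hu
    have := hu.map P'.res
    rw [h1] at this
    exact not_isUnit_zero this
  have h3 := s17px_phi_nonunit ψ P' W hW _ h2
  have h4 : IsLocalRing.residue ↥W (s17pxPhi ψ P' W hW (x - s17plConst P' (P'.res x))) = 0 :=
    (IsLocalRing.residue_eq_zero_iff _).2 ((IsLocalRing.mem_maximalIdeal _).2 h3)
  have h5 : s17pxPhi ψ P' W hW (s17plConst P' (P'.res x))
      = s17pxConst W (s17px_hKW ψ P' W hW) (P'.res x) := by
    apply Subtype.ext
    show ψ (algebraMap K L' (P'.res x)) = algebraMap K L (P'.res x)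
    exact ψ.commutes _
  rw [map_sub, map_sub, sub_eq_zero, h5] at h4
  rw [h4]; rfl

/-- the residue field of `W` is algebraic over the constants. -/
theorem s17px_exists_root (P' : S17plPlace K L') (W : ValuationSubring L)
    (hW : W.comap (ψ : L' →+* L) = P'.W)
    (halg : ∀ x : L, ∃ p : L'[X], p ≠ 0 ∧ p.eval₂ (ψ : L' →+* L) x = 0)
    (x : ↥W) :
    ∃ q : K[X], q ≠ 0 ∧
      q.eval₂ (s17pxIota W (s17px_hKW ψ P' W hW)) (IsLocalRing.residue ↥W x) = 0 := by
  classical
  obtain ⟨p, hp0, hp⟩ := halg (x : L)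
  -- a coefficient of maximal valuation
  have hsupp : p.support.Nonempty := Polynomial.support_nonempty.2 hp0
  obtain ⟨j, hj, hjmax⟩ := Finset.exists_max_image p.support
    (fun i => P'.W.valuation (p.coeff i)) hsupp
  have ha0 : p.coeff j ≠ 0 := Polynomial.mem_support_iff.1 hj
  set a : L' := p.coeff j with ha
  set p₁ : L'[X] := C a⁻¹ * p with hp₁
  have hcoeff : ∀ i, p₁.coeff i ∈ P'.W := by
    intro i
    rw [hp₁, Polynomial.coeff_C_mul]
    by_cases hi : i ∈ p.support
    · have h1 := hjmax i hi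
      rw [← ValuationSubring.valuation_le_one_iff, map_mul, map_inv₀]
      have hpos : 0 < P'.W.valuation a := zero_lt_iff.mpr ((Valuation.ne_zero_iff _).mpr ha0)
      rw [inv_mul_le_iff₀ hpos, mul_one]
      exact h1
    · rw [Polynomial.notMem_support_iff.1 hi, mul_zero]
      exact P'.W.zero_mem
  have hlift : p₁ ∈ Polynomial.lifts P'.W.subtype := by
    rw [Polynomial.lifts_iff_coeff_lifts]
    intro i
    exact ⟨⟨p₁.coeff i, hcoeff i⟩, rfl⟩
  obtain ⟨p₂, hp₂⟩ := (Polynomial.mem_lifts _).1 hlift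
  have hp₂j : p₂.coeff j = 1 := by
    apply Subtype.ext
    have := congrArg (fun t => Polynomial.coeff t j) hp₂
    simp only [Polynomial.coeff_map] at this
    show ((p₂.coeff j : ↥P'.W) : L') = 1
    have h2 : P'.W.subtype (p₂.coeff j) = p₁.coeff j := this
    rw [ValuationSubring.subtype_apply] at h2
    rw [h2, hp₁, Polynomial.coeff_C_mul, ← ha, inv_mul_cancel₀ ha0]
  -- the equation over `W'`
  have he1 : p₁.eval₂ (ψ : L' →+* L) (x : L) = 0 := by
    rw [hp₁, Polynomial.eval₂_mul, hp, mul_zero]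
  have he2 : p₂.eval₂ ((ψ : L' →+* L).comp P'.W.subtype) (x : L) = 0 := by
    rw [← Polynomial.eval₂_map, hp₂]; exact he1
  have he3 : p₂.eval₂ (s17pxPhi ψ P' W hW) x = 0 := by
    apply Subtype.ext
    have := Polynomial.hom_eval₂ p₂ (s17pxPhi ψ P' W hW) W.subtype x
    rw [ValuationSubring.subtype_apply] at this
    rw [this]
    show p₂.eval₂ (W.subtype.comp (s17pxPhi ψ P' W hW)) (W.subtype x) = 0
    have hcomp : W.subtype.comp (s17pxPhi ψ P' W hW) = (ψ : L' →+* L).comp P'.W.subtype := by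
      ext y; rfl
    rw [hcomp]; exact he2
  have he4 : p₂.eval₂ ((IsLocalRing.residue ↥W).comp (s17pxPhi ψ P' W hW))
      (IsLocalRing.residue ↥W x) = 0 := by
    rw [← Polynomial.hom_eval₂, he3, map_zero]
  have hcomp2 : (IsLocalRing.residue ↥W).comp (s17pxPhi ψ P' W hW)
      = (s17pxIota W (s17px_hKW ψ P' W hW)).comp P'.res := by
    ext y
    exact s17px_residue_phi ψ P' W hW y
  refine ⟨p₂.map P'.res, ?_, ?_⟩
  · intro h0
    have := congrArg (fun t => Polynomial.coeff t j) h0
    simp only [Polynomial.coeff_map, Polynomial.coeff_zero] at this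
    rw [hp₂j, map_one] at this
    exact one_ne_zero this
  · rw [Polynomial.eval₂_map, ← hcomp2]
    exact he4

/-- the constants fill the residue field of `W` (`K` algebraically closed). -/
theorem s17px_iota_bijective [IsAlgClosed K] (P' : S17plPlace K L') (W : ValuationSubring L)
    (hW : W.comap (ψ : L' →+* L) = P'.W)
    (halg : ∀ x : L, ∃ p : L'[X], p ≠ 0 ∧ p.eval₂ (ψ : L' →+* L) x = 0) :
    Function.Bijective (s17pxIota W (s17px_hKW ψ P' W hW)) := by
  letI : Algebra K (IsLocalRing.ResidueField ↥W) :=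
    (s17pxIota W (s17px_hKW ψ P' W hW)).toAlgebra
  haveI : Algebra.IsIntegral K (IsLocalRing.ResidueField ↥W) := ⟨fun y => by
    obtain ⟨x, rfl⟩ := IsLocalRing.residue_surjective y
    obtain ⟨q, hq0, hq⟩ := s17px_exists_root ψ P' W hW halg x
    have hint : IsAlgebraic K (IsLocalRing.residue ↥W x) := ⟨q, hq0, hq⟩
    exact hint.isIntegral⟩
  exact IsAlgClosed.algebraMap_bijective_of_isIntegral (k := K)
    (K := IsLocalRing.ResidueField ↥W)


/-- **A-EXT.**  `K` algebraically closed, `ψ : L' →ₐ[K] L`, every element of `L` algebraic over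
`ψ L'`: every `K`-rational place of `L'` is the trace of a `K`-rational place of `L`, residue
maps included. -/
theorem s17px_exists_ext [IsAlgClosed K] (P' : S17plPlace K L')
    (halg : ∀ x : L, ∃ p : L'[X], p ≠ 0 ∧ p.eval₂ (ψ : L' →+* L) x = 0) :
    ∃ P : S17plPlace K L, P.W.comap (ψ : L' →+* L) = P'.W ∧
      ∀ (w : L') (hw : w ∈ P'.W) (hw' : ψ w ∈ P.W), P.res ⟨ψ w, hw'⟩ = P'.res ⟨w, hw⟩ := by
  obtain ⟨W, hW⟩ := s17px_chevalley (ψ : L' →+* L) P'.W
  have hbij := s17px_iota_bijective ψ P' W hW halg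
  set e : K ≃+* IsLocalRing.ResidueField ↥W := RingEquiv.ofBijective _ hbij with he
  refine ⟨⟨W, s17px_hKW ψ P' W hW, (e.symm : IsLocalRing.ResidueField ↥W →+* K).comp
    (IsLocalRing.residue ↥W), fun c => ?_⟩, hW, fun w hw hw' => ?_⟩
  · show e.symm (IsLocalRing.residue ↥W ⟨algebraMap K L c, _⟩) = c
    have h1 : IsLocalRing.residue ↥W ⟨algebraMap K L c, s17px_hKW ψ P' W hW c⟩ = e c := rfl
    rw [h1, RingEquiv.symm_apply_apply]
  · show e.symm (IsLocalRing.residue ↥W ⟨ψ w, hw'⟩) = P'.res ⟨w, hw⟩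
    have h1 : IsLocalRing.residue ↥W ⟨ψ w, hw'⟩ = e (P'.res ⟨w, hw⟩) :=
      s17px_residue_phi ψ P' W hW ⟨w, hw⟩
    rw [h1, RingEquiv.symm_apply_apply]

/-- the hypothesis of `s17px_exists_ext` from `Algebra.IsAlgebraic ψ.fieldRange L`. -/
theorem s17px_halg_of_isAlgebraic [Algebra.IsAlgebraic ψ.fieldRange L] (x : L) :
    ∃ p : L'[X], p ≠ 0 ∧ p.eval₂ (ψ : L' →+* L) x = 0 := by
  obtain ⟨p, hp0, hp⟩ := Algebra.IsAlgebraic.isAlgebraic (R := ψ.fieldRange) x
  set e : L' ≃ₐ[K] ψ.fieldRange := AlgEquiv.ofInjectiveField ψ with he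
  refine ⟨p.map (e.symm : ψ.fieldRange →+* L'), ?_, ?_⟩
  · intro h0
    apply hp0
    have hinj : Function.Injective (e.symm : ψ.fieldRange →+* L') := e.symm.injective
    exact (Polynomial.map_eq_zero_iff hinj).1 h0
  · rw [Polynomial.eval₂_map]
    have hcomp : (ψ : L' →+* L).comp (e.symm : ψ.fieldRange →+* L')
        = algebraMap ψ.fieldRange L := by
      ext y
      show ψ (e.symm y) = (y : L)
      have h1 : (e (e.symm y) : L) = ψ (e.symm y) := rfl
      rw [← h1, AlgEquiv.apply_symm_apply]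
    rw [hcomp]
    exact hp

/-- **A-EXT**, from `Algebra.IsAlgebraic ψ.fieldRange L`. -/
theorem s17px_exists_ext_alg [IsAlgClosed K] [Algebra.IsAlgebraic ψ.fieldRange L]
    (P' : S17plPlace K L') :
    ∃ P : S17plPlace K L, P.W.comap (ψ : L' →+* L) = P'.W ∧
      ∀ (w : L') (hw : w ∈ P'.W) (hw' : ψ w ∈ P.W), P.res ⟨ψ w, hw'⟩ = P'.res ⟨w, hw⟩ :=
  s17px_exists_ext ψ P' (s17px_halg_of_isAlgebraic ψ)

/-- **A-EXT**, from `Module.Finite ψ.fieldRange L` (the shape of `S27IsBaseU.deg_fin`). -/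
theorem s17px_exists_ext_fin [IsAlgClosed K] (hfin : Module.Finite ψ.fieldRange L)
    (P' : S17plPlace K L') :
    ∃ P : S17plPlace K L, P.W.comap (ψ : L' →+* L) = P'.W ∧
      ∀ (w : L') (hw : w ∈ P'.W) (hw' : ψ w ∈ P.W), P.res ⟨ψ w, hw'⟩ = P'.res ⟨w, hw⟩ := by
  haveI := hfin
  haveI : Algebra.IsAlgebraic ψ.fieldRange L := Algebra.IsAlgebraic.of_finite _ _
  exact s17px_exists_ext_alg ψ P'

/-- **A-EXT** along an isomorphism (e.g. a translation automorphism). -/
theorem s17px_exists_ext_equiv [IsAlgClosed K] (ρ : L' ≃ₐ[K] L) (P' : S17plPlace K L') :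
    ∃ P : S17plPlace K L, P.W.comap ((ρ : L' →ₐ[K] L) : L' →+* L) = P'.W ∧
      ∀ (w : L') (hw : w ∈ P'.W) (hw' : ρ w ∈ P.W), P.res ⟨ρ w, hw'⟩ = P'.res ⟨w, hw⟩ := by
  refine s17px_exists_ext (ρ : L' →ₐ[K] L) P' (fun x => ⟨X - C (ρ.symm x), X_sub_C_ne_zero _, ?_⟩)
  rw [Polynomial.eval₂_sub, Polynomial.eval₂_X, Polynomial.eval₂_C]
  show x - ρ (ρ.symm x) = 0
  rw [AlgEquiv.apply_symm_apply, sub_self]

/-! ## the trace `P ∘ ψ` of a place -/

/-- the trace `P ∘ ψ` on `L'` of a `K`-rational place `P` of `L`. -/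
def s17pxComap (P : S17plPlace K L) : S17plPlace K L' where
  W := P.W.comap (ψ : L' →+* L)
  hKW c := by
    rw [ValuationSubring.mem_comap]
    have h3 : (ψ : L' →+* L) (algebraMap K L' c) = algebraMap K L c := ψ.commutes c
    rw [h3]; exact P.hKW c
  res := P.res.comp (((ψ : L' →+* L).comp (P.W.comap (ψ : L' →+* L)).subtype).codRestrict
    P.W.toSubring (fun x => (ValuationSubring.mem_comap).1 x.2))
  hres c := by
    show P.res ⟨ψ (algebraMap K L' c), _⟩ = c
    have h3 : ψ (algebraMap K L' c) = algebraMap K L c := ψ.commutes c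
    have h4 : (⟨ψ (algebraMap K L' c), by rw [h3]; exact P.hKW c⟩ : ↥P.W)
        = ⟨algebraMap K L c, P.hKW c⟩ := Subtype.ext h3
    rw [h4]; exact P.hres c

@[simp] theorem s17pxComap_W (P : S17plPlace K L) :
    (s17pxComap ψ P).W = P.W.comap (ψ : L' →+* L) := rfl

theorem s17pxComap_mem (P : S17plPlace K L) (x : L') :
    x ∈ (s17pxComap ψ P).W ↔ ψ x ∈ P.W := Iff.rfl

theorem s17pxComap_res (P : S17plPlace K L) (x : L') (hx : x ∈ (s17pxComap ψ P).W) :
    (s17pxComap ψ P).res ⟨x, hx⟩ = P.res ⟨ψ x, (s17pxComap_mem ψ P x).1 hx⟩ := rfl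

/-- **A-EXT**, in terms of traces: every `K`-rational place `P'` of `L'` is `P ∘ ψ`. -/
theorem s17px_exists_comap [IsAlgClosed K] (P' : S17plPlace K L')
    (halg : ∀ x : L, ∃ p : L'[X], p ≠ 0 ∧ p.eval₂ (ψ : L' →+* L) x = 0) :
    ∃ P : S17plPlace K L, (s17pxComap ψ P).W = P'.W ∧
      ∀ (w : L') (hw : w ∈ P'.W) (hw' : w ∈ (s17pxComap ψ P).W),
        (s17pxComap ψ P).res ⟨w, hw'⟩ = P'.res ⟨w, hw⟩ := by
  obtain ⟨P, hW, hres⟩ := s17px_exists_ext ψ P' halg
  exact ⟨P, hW, fun w hw hw' => hres w hw _⟩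

/-- minimal coordinates at the trace. -/
theorem s17px_isMin_comap {ι : Type*} (W : ValuationSubring L) (F : ι → L') (α : ι) :
    S17plIsMin (W.comap (ψ : L' →+* L)) F α ↔ S17plIsMin W (fun i => ψ (F i)) α := by
  unfold S17plIsMin
  constructor
  · rintro ⟨h0, h⟩
    refine ⟨fun h1 => h0 ((map_eq_zero ψ).1 h1), fun β => ?_⟩
    have := (ValuationSubring.mem_comap).1 (h β)
    show ψ (F β) / ψ (F α) ∈ W
    rw [← map_div₀]; exact this
  · rintro ⟨h0, h⟩
    refine ⟨fun h1 => h0 (by show ψ (F α) = 0; rw [h1, map_zero]), fun β => ?_⟩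
    rw [ValuationSubring.mem_comap]
    show ψ (F β / F α) ∈ W
    rw [map_div₀]; exact h β

/-- **place-values at the trace**: `[F]_{P ∘ ψ} = [ψ F]_P`. -/
theorem s17px_val_comap {ι : Type*} (P : S17plPlace K L) (F : ι → L') (α : ι)
    (h : S17plIsMin (s17pxComap ψ P).W F α) :
    s17plVal (s17pxComap ψ P) F α h
      = s17plVal P (fun i => ψ (F i)) α ((s17px_isMin_comap ψ P.W F α).1 h) := by
  funext β
  rw [s17pl_val_apply, s17pl_val_apply]
  show P.res ⟨ψ (F β / F α), _⟩ = P.res ⟨ψ (F β) / ψ (F α), _⟩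
  congr 1
  exact Subtype.ext (map_div₀ ψ _ _)

end Ext

end Fermat.Agent.S17
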