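/-
S17 sprint, shared brick **PLACE-K** (helper84): the K-VALUED PLACE EXTENSION THEOREM
(Atiyah–Macdonald 5.21 / 5.23; Bourbaki AC VI §1 no. 2).

`Ω` a field, `R ≤ Ω` a subring, `k` an ALGEBRAICALLY CLOSED field, `φ : R →+* k`.  Then `φ` extends
to a place of `Ω` with values in `k`: there are a valuation subring `W ⊇ R` of `Ω` and
`res : W →+* k` extending `φ` whose kernel is the maximal ideal of `W`.
(Mathlib's `LocalSubring.exists_le_valuationSubring` gives a dominating valuation ring, but with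
no control of the residue field.)

Proof: Zorn on the FUNCTIONAL subrings `Γ ≤ Ω × k` (graphs of partial homomorphisms) containing the
graph of `φ`; a maximal `Γ` is closed under inverses of elements with nonzero value
(`s17pk_inv_mem`), and for `x ≠ 0` either `x` or `x⁻¹` can be adjoined (A–M 5.20 + a common root).

* `s17pk_exists`     : the theorem;
* `s17pk_exists_alg` : the `K`-algebra form, in the shape of the fields of `S17plPlace K L`
                       (S17/Place.lean): `W ⊇ K`, `res` the identity on `K`.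
-/
import Mathlib

set_option autoImplicit false
set_option linter.unusedVariables false
set_option linter.unusedSectionVars false
set_option linter.style.haveILetI false

noncomputable section

namespace Fermat.Agent.S17

open Polynomial

section Graph

variable {Ω k : Type*} [Field Ω] [Field k]

/-- `Γ ≤ Ω × k` is the graph of a partial map. -/
def S17pkFunc (Γ : Subring (Ω × k)) : Prop := ∀ c : k, ((0 : Ω), c) ∈ Γ → c = 0

theorem s17pk_unique {Γ : Subring (Ω × k)} (hΓ : S17pkFunc Γ) {a : Ω} {c c' : k}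
    (h : (a, c) ∈ Γ) (h' : (a, c') ∈ Γ) : c = c' := by
  have h1 : ((0 : Ω), c - c') ∈ Γ := by
    have h2 := Γ.sub_mem h h'
    rwa [Prod.mk_sub_mk, sub_self] at h2
  exact sub_eq_zero.mp (hΓ _ h1)

/-- the graph of `φ`. -/
def s17pkGraph (R : Subring Ω) (φ : R →+* k) : Subring (Ω × k) := (R.subtype.prod φ).range

theorem s17pk_mem_graph (R : Subring Ω) (φ : R →+* k) (r : R) :
    ((r : Ω), φ r) ∈ s17pkGraph R φ := ⟨r, rfl⟩

theorem s17pk_graph_func (R : Subring Ω) (φ : R →+* k) : S17pkFunc (s17pkGraph R φ) := by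
  rintro c ⟨r, hr⟩
  have h1 : (r : Ω) = 0 := congrArg Prod.fst hr
  have h2 : φ r = c := congrArg Prod.snd hr
  have h3 : r = 0 := Subtype.ext h1
  rw [← h2, h3, map_zero]

/-- a maximal functional subring above `Γ₀`. -/
theorem s17pk_exists_max (Γ₀ : Subring (Ω × k)) (h₀ : S17pkFunc Γ₀) :
    ∃ Γ : Subring (Ω × k), Γ₀ ≤ Γ ∧ S17pkFunc Γ ∧
      ∀ Γ' : Subring (Ω × k), Γ ≤ Γ' → S17pkFunc Γ' → Γ' ≤ Γ := by
  have hz : ∀ c ⊆ {Γ : Subring (Ω × k) | S17pkFunc Γ}, IsChain (· ≤ ·) c → ∀ y ∈ c,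
      ∃ ub ∈ {Γ : Subring (Ω × k) | S17pkFunc Γ}, ∀ z ∈ c, z ≤ ub := by
    intro c hc hchain y hy
    refine ⟨sSup c, ?_, fun z hz => le_sSup hz⟩
    intro d hd
    have hdir : DirectedOn (· ≤ ·) c := hchain.directedOn
    obtain ⟨s, hs, hds⟩ := (Subring.mem_sSup_of_directedOn ⟨y, hy⟩ hdir).mp hd
    exact hc hs d hds
  obtain ⟨Γ, hle, hmax⟩ := zorn_le_nonempty₀ {Γ : Subring (Ω × k) | S17pkFunc Γ} hz Γ₀ h₀
  exact ⟨Γ, hle, hmax.prop, fun Γ' hle' hf => hmax.le_of_ge hf hle'⟩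

/-- the localisation of `Γ` at the powers of `a ∈ Γ`, inside `Ω × k`. -/
def s17pkLoc (Γ : Subring (Ω × k)) (a : Ω × k) (ha : a ∈ Γ) : Subring (Ω × k) where
  carrier := {p | ∃ n : ℕ, p * a ^ n ∈ Γ}
  mul_mem' := by
    rintro p q ⟨n, hn⟩ ⟨m, hm⟩
    refine ⟨n + m, ?_⟩
    have e : p * q * a ^ (n + m) = (p * a ^ n) * (q * a ^ m) := by ring
    rw [e]
    exact Γ.mul_mem hn hm
  one_mem' := ⟨0, by rw [pow_zero, mul_one]; exact Γ.one_mem⟩
  add_mem' := by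
    rintro p q ⟨n, hn⟩ ⟨m, hm⟩
    refine ⟨n + m, ?_⟩
    have e : (p + q) * a ^ (n + m) = (p * a ^ n) * a ^ m + (q * a ^ m) * a ^ n := by ring
    rw [e]
    exact Γ.add_mem (Γ.mul_mem hn (Γ.pow_mem ha m)) (Γ.mul_mem hm (Γ.pow_mem ha n))
  zero_mem' := ⟨0, by rw [zero_mul]; exact Γ.zero_mem⟩
  neg_mem' := by
    rintro p ⟨n, hn⟩
    exact ⟨n, by rw [neg_mul]; exact Γ.neg_mem hn⟩

/-- **a maximal functional subring is local**: elements with nonzero value are invertible. -/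
theorem s17pk_inv_mem {Γ : Subring (Ω × k)} (hΓ : S17pkFunc Γ)
    (hmax : ∀ Γ' : Subring (Ω × k), Γ ≤ Γ' → S17pkFunc Γ' → Γ' ≤ Γ) {s : Ω} {c : k}
    (h : (s, c) ∈ Γ) (hc : c ≠ 0) : (s⁻¹, c⁻¹) ∈ Γ := by
  have hs : s ≠ 0 := by
    rintro rfl
    exact hc (hΓ c h)
  have hle : Γ ≤ s17pkLoc Γ (s, c) h := fun p hp =>
    ⟨0, by rw [pow_zero, mul_one]; exact hp⟩
  have hf : S17pkFunc (s17pkLoc Γ (s, c) h) := by
    rintro d ⟨n, hn⟩
    have h1 : (((0 : Ω), d) : Ω × k) * (s, c) ^ n = ((0 : Ω), d * c ^ n) := by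
      rw [Prod.pow_mk, Prod.mk_mul_mk, zero_mul]
    rw [h1] at hn
    exact (mul_eq_zero.mp (hΓ _ hn)).resolve_right (pow_ne_zero n hc)
  apply hmax _ hle hf
  refine ⟨1, ?_⟩
  have e : ((s⁻¹, c⁻¹) : Ω × k) * (s, c) ^ 1 = 1 := by
    rw [pow_one, Prod.mk_mul_mk, inv_mul_cancel₀ hs, inv_mul_cancel₀ hc]
    rfl
  rw [e]
  exact Γ.one_mem

end Graph

section Poly

variable {k : Type*} [Field k] [IsAlgClosed k]

/-- **common root**: an additive family `N ⊆ k[X]` with coefficients in a "subfield" `κ`, stable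
under `C a * X ^ j * ·` (`a ∈ κ`) and not containing `1`, has a common root in `k`. -/
theorem s17pk_common_root (κ : Set k)
    (hκinv : ∀ a ∈ κ, a ≠ 0 → a⁻¹ ∈ κ) (hκmul : ∀ a ∈ κ, ∀ b ∈ κ, a * b ∈ κ)
    (N : Set k[X]) (hsub : ∀ q ∈ N, ∀ q' ∈ N, q - q' ∈ N)
    (hmul : ∀ q ∈ N, ∀ a ∈ κ, ∀ j : ℕ, C a * X ^ j * q ∈ N)
    (hcoeff : ∀ q ∈ N, ∀ i, q.coeff i ∈ κ) (h1 : (1 : k[X]) ∉ N) :
    ∃ c : k, ∀ q ∈ N, q.eval c = 0 := by
  classical
  by_cases hex : ∃ q ∈ N, q ≠ 0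
  swap
  · refine ⟨0, fun q hq => ?_⟩
    have hq0 : q = 0 := by
      by_contra h
      exact hex ⟨q, hq, h⟩
    rw [hq0, eval_zero]
  have hS : ∃ d : ℕ, ∃ q ∈ N, q ≠ 0 ∧ q.natDegree = d := by
    obtain ⟨q, hq, hq0⟩ := hex
    exact ⟨_, q, hq, hq0, rfl⟩
  obtain ⟨q₀, hq₀N, hq₀0, hq₀d⟩ := Nat.find_spec hS
  have hmin : ∀ q ∈ N, q ≠ 0 → Nat.find hS ≤ q.natDegree := fun q hq hq0 =>
    Nat.find_min' hS ⟨q, hq, hq0, rfl⟩
  have hlc : q₀.leadingCoeff ≠ 0 := leadingCoeff_ne_zero.mpr hq₀0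
  have hlcκ : q₀.leadingCoeff ∈ κ := hcoeff q₀ hq₀N _
  have hd0 : Nat.find hS ≠ 0 := by
    intro h0
    rw [h0] at hq₀d
    have e : q₀ = C (q₀.coeff 0) := eq_C_of_natDegree_eq_zero hq₀d
    have hc0 : q₀.coeff 0 ≠ 0 := by
      intro h
      rw [h, map_zero] at e
      exact hq₀0 e
    have h2 := hmul q₀ hq₀N (q₀.coeff 0)⁻¹ (hκinv _ (hcoeff q₀ hq₀N 0) hc0) 0
    rw [pow_zero, mul_one] at h2
    have h3 : C (q₀.coeff 0)⁻¹ * q₀ = 1 := by
      conv_lhs => rw [e]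
      rw [← C_mul, coeff_C_zero, inv_mul_cancel₀ hc0, C_1]
    rw [h3] at h2
    exact h1 h2
  have hdeg : q₀.degree ≠ 0 := by
    rw [degree_eq_natDegree hq₀0, hq₀d]
    exact_mod_cast hd0
  obtain ⟨c, hc⟩ := IsAlgClosed.exists_root q₀ hdeg
  refine ⟨c, ?_⟩
  have key : ∀ n : ℕ, ∀ q ∈ N, q.natDegree = n → q.eval c = 0 := by
    intro n
    induction n using Nat.strong_induction_on with
    | _ n ih =>
      intro q hq hn
      by_cases hq0 : q = 0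
      · rw [hq0, eval_zero]
      have hdn : Nat.find hS ≤ n := hn ▸ hmin q hq hq0
      have hqlc : q.leadingCoeff ≠ 0 := leadingCoeff_ne_zero.mpr hq0
      have ha0 : q.leadingCoeff * q₀.leadingCoeff⁻¹ ≠ 0 := mul_ne_zero hqlc (inv_ne_zero hlc)
      have haκ : q.leadingCoeff * q₀.leadingCoeff⁻¹ ∈ κ :=
        hκmul _ (hcoeff q hq _) _ (hκinv _ hlcκ hlc)
      have hq'N : q - C (q.leadingCoeff * q₀.leadingCoeff⁻¹) * X ^ (n - Nat.find hS) * q₀ ∈ N :=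
        hsub q hq _ (hmul q₀ hq₀N _ haκ (n - Nat.find hS))
      have hev : q.eval c =
          (q - C (q.leadingCoeff * q₀.leadingCoeff⁻¹) * X ^ (n - Nat.find hS) * q₀).eval c := by
        rw [eval_sub, eval_mul, hc.eq_zero, mul_zero, sub_zero]
      by_cases hq'0 : q - C (q.leadingCoeff * q₀.leadingCoeff⁻¹) * X ^ (n - Nat.find hS) * q₀ = 0
      · rw [hev, hq'0, eval_zero]
      have hdegR : (C (q.leadingCoeff * q₀.leadingCoeff⁻¹) * X ^ (n - Nat.find hS) * q₀).degree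
          = q.degree := by
        rw [degree_mul, degree_mul, degree_C ha0, degree_X_pow, degree_eq_natDegree hq₀0,
          degree_eq_natDegree hq0, hq₀d, hn, zero_add]
        norm_cast
        omega
      have hlcR : (C (q.leadingCoeff * q₀.leadingCoeff⁻¹) * X ^ (n - Nat.find hS) * q₀).leadingCoeff
          = q.leadingCoeff := by
        rw [leadingCoeff_mul, leadingCoeff_mul, leadingCoeff_C, leadingCoeff_X_pow, mul_one,
          mul_assoc, inv_mul_cancel₀ hlc, mul_one]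
      have hlt := degree_sub_lt_left hdegR.symm hq0 hlcR.symm
      have hlt' : (q - C (q.leadingCoeff * q₀.leadingCoeff⁻¹) * X ^ (n - Nat.find hS) * q₀).natDegree
          < n := lt_of_lt_of_eq (natDegree_lt_natDegree hq'0 hlt) hn
      rw [hev]
      exact ih _ hlt' _ hq'N rfl
  exact fun q hq => key _ q hq rfl

end Poly

section Adj

variable {Ω k : Type*} [Field Ω] [Field k]

/-- the first projection on `Γ`. -/
def s17pkF (Γ : Subring (Ω × k)) : Γ →+* Ω := (RingHom.fst Ω k).comp Γ.subtype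

/-- the second projection on `Γ`. -/
def s17pkG (Γ : Subring (Ω × k)) : Γ →+* k := (RingHom.snd Ω k).comp Γ.subtype

theorem s17pkF_apply (Γ : Subring (Ω × k)) (γ : Γ) : s17pkF Γ γ = (γ : Ω × k).1 := rfl

theorem s17pkG_apply (Γ : Subring (Ω × k)) (γ : Γ) : s17pkG Γ γ = (γ : Ω × k).2 := rfl

/-- `Γ[(y, c)]`. -/
def s17pkAdj (Γ : Subring (Ω × k)) (y : Ω) (c : k) : Subring (Ω × k) :=
  (Polynomial.eval₂RingHom Γ.subtype (y, c)).range

theorem s17pk_le_adj (Γ : Subring (Ω × k)) (y : Ω) (c : k) : Γ ≤ s17pkAdj Γ y c := by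
  intro p hp
  refine ⟨C ⟨p, hp⟩, ?_⟩
  rw [coe_eval₂RingHom, eval₂_C]
  rfl

theorem s17pk_mem_adj (Γ : Subring (Ω × k)) (y : Ω) (c : k) : (y, c) ∈ s17pkAdj Γ y c := by
  refine ⟨X, ?_⟩
  rw [coe_eval₂RingHom, eval₂_X]

theorem s17pk_eval₂_fst (Γ : Subring (Ω × k)) (y : Ω) (c : k) (p : Γ[X]) :
    (eval₂ Γ.subtype (y, c) p).1 = eval₂ (s17pkF Γ) y p :=
  Polynomial.hom_eval₂ p Γ.subtype (RingHom.fst Ω k) (y, c)

theorem s17pk_eval₂_snd (Γ : Subring (Ω × k)) (y : Ω) (c : k) (p : Γ[X]) :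
    (eval₂ Γ.subtype (y, c) p).2 = eval₂ (s17pkG Γ) c p :=
  Polynomial.hom_eval₂ p Γ.subtype (RingHom.snd Ω k) (y, c)

/-- **adjunction**: if every relation of `y` over `Γ` is satisfied by `c`, then `(y, c) ∈ Γ`
(`Γ` maximal functional). -/
theorem s17pk_adj_mem {Γ : Subring (Ω × k)} (hΓ : S17pkFunc Γ)
    (hmax : ∀ Γ' : Subring (Ω × k), Γ ≤ Γ' → S17pkFunc Γ' → Γ' ≤ Γ) (y : Ω) (c : k)
    (h : ∀ p : Γ[X], eval₂ (s17pkF Γ) y p = 0 → eval₂ (s17pkG Γ) c p = 0) : (y, c) ∈ Γ := by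
  have hf : S17pkFunc (s17pkAdj Γ y c) := by
    rintro d ⟨p, hp⟩
    rw [coe_eval₂RingHom] at hp
    have h1 : (eval₂ Γ.subtype (y, c) p).1 = 0 := congrArg Prod.fst hp
    have h2 : (eval₂ Γ.subtype (y, c) p).2 = d := congrArg Prod.snd hp
    rw [s17pk_eval₂_fst] at h1
    rw [s17pk_eval₂_snd] at h2
    rw [← h2]
    exact h p h1
  exact hmax _ (s17pk_le_adj Γ y c) hf (s17pk_mem_adj Γ y c)

/-- **claim A**: if no relation of `y` over `Γ` reduces to `1`, then `y` is in the domain. -/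
theorem s17pk_claimA [IsAlgClosed k] {Γ : Subring (Ω × k)} (hΓ : S17pkFunc Γ)
    (hmax : ∀ Γ' : Subring (Ω × k), Γ ≤ Γ' → S17pkFunc Γ' → Γ' ≤ Γ) (y : Ω)
    (h : ¬ ∃ p : Γ[X], eval₂ (s17pkF Γ) y p = 0 ∧ p.map (s17pkG Γ) = 1) :
    ∃ c : k, (y, c) ∈ Γ := by
  have hroot := s17pk_common_root (Set.range (s17pkG Γ))
    (by
      rintro a ⟨γ, rfl⟩ ha
      have hm : ((γ : Ω × k).1, (γ : Ω × k).2) ∈ Γ := γ.2
      exact ⟨⟨_, s17pk_inv_mem hΓ hmax hm ha⟩, rfl⟩)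
    (by
      rintro a ⟨γ, rfl⟩ b ⟨γ', rfl⟩
      exact ⟨γ * γ', map_mul _ _ _⟩)
    {q | ∃ p : Γ[X], eval₂ (s17pkF Γ) y p = 0 ∧ p.map (s17pkG Γ) = q}
    (by
      rintro q ⟨p, hp, rfl⟩ q' ⟨p', hp', rfl⟩
      exact ⟨p - p', by rw [eval₂_sub, hp, hp', sub_zero], Polynomial.map_sub _⟩)
    (by
      rintro q ⟨p, hp, rfl⟩ a ⟨γ, rfl⟩ j
      refine ⟨C γ * X ^ j * p, by rw [eval₂_mul, hp, mul_zero], ?_⟩
      rw [Polynomial.map_mul, Polynomial.map_mul, Polynomial.map_C, Polynomial.map_pow,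
        Polynomial.map_X])
    (by
      rintro q ⟨p, hp, rfl⟩ i
      exact ⟨p.coeff i, (coeff_map _ _).symm⟩)
    (by
      rintro ⟨p, hp, hp1⟩
      exact h ⟨p, hp, hp1⟩)
  obtain ⟨c, hc⟩ := hroot
  refine ⟨c, s17pk_adj_mem hΓ hmax y c fun p hp => ?_⟩
  have := hc (p.map (s17pkG Γ)) ⟨p, hp, rfl⟩
  rwa [eval_map] at this

/-- **reduction step of A–M 5.20**. -/
theorem s17pk_reduce {Γ : Subring (Ω × k)} (hΓ : S17pkFunc Γ)
    (hmax : ∀ Γ' : Subring (Ω × k), Γ ≤ Γ' → S17pkFunc Γ' → Γ' ≤ Γ) {x : Ω} (hx : x ≠ 0)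
    (p p' : Γ[X]) (hp : eval₂ (s17pkF Γ) x p = 0) (hpG : p.map (s17pkG Γ) = 1)
    (hp' : eval₂ (s17pkF Γ) x⁻¹ p' = 0) (hp'G : p'.map (s17pkG Γ) = 1)
    (hle : p'.natDegree ≤ p.natDegree) :
    ∃ p₁ : Γ[X], p₁.natDegree < p.natDegree ∧ eval₂ (s17pkF Γ) x p₁ = 0 ∧
      p₁.map (s17pkG Γ) = 1 := by
  classical
  have h01 : ((0 : Ω), (1 : k)) ∉ Γ := fun h => one_ne_zero (hΓ 1 h)
  by_cases hm0 : p.natDegree = 0
  · exfalso
    have e : p = C (p.coeff 0) := eq_C_of_natDegree_eq_zero hm0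
    have hF : s17pkF Γ (p.coeff 0) = 0 := by
      rw [e, eval₂_C] at hp
      exact hp
    have hG : s17pkG Γ (p.coeff 0) = 1 := by
      have := congrArg (fun q : k[X] => q.coeff 0) hpG
      simpa [coeff_map] using this
    have hm : (((p.coeff 0 : Γ) : Ω × k).1, ((p.coeff 0 : Γ) : Ω × k).2) ∈ Γ := (p.coeff 0).2
    rw [s17pkF_apply] at hF
    rw [s17pkG_apply] at hG
    rw [hF, hG] at hm
    exact h01 hm
  -- the constant coefficient of `p'` is a unit of `Γ`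
  have hG0 : s17pkG Γ (p'.coeff 0) = 1 := by
    have := congrArg (fun q : k[X] => q.coeff 0) hp'G
    simpa [coeff_map] using this
  rw [s17pkG_apply] at hG0
  have hm0' : (((p'.coeff 0 : Γ) : Ω × k).1, ((p'.coeff 0 : Γ) : Ω × k).2) ∈ Γ := (p'.coeff 0).2
  have hc0 : ((p'.coeff 0 : Γ) : Ω × k).2 ≠ 0 := by
    rw [hG0]
    exact one_ne_zero
  have hs0 : ((p'.coeff 0 : Γ) : Ω × k).1 ≠ 0 := by
    intro h0
    rw [h0] at hm0'
    exact hc0 (hΓ _ hm0')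
  have hinv := s17pk_inv_mem hΓ hmax hm0' hc0
  obtain ⟨δ, hδ⟩ : ∃ δ : Γ, δ * p'.coeff 0 = 1 := by
    refine ⟨⟨_, hinv⟩, ?_⟩
    apply Subtype.ext
    apply Prod.ext
    · exact inv_mul_cancel₀ hs0
    · exact inv_mul_cancel₀ hc0
  -- the leading coefficient of `p` has value `0`
  have hGm : s17pkG Γ (p.coeff p.natDegree) = 0 := by
    have := congrArg (fun q : k[X] => q.coeff p.natDegree) hpG
    simpa [coeff_map, coeff_one, hm0] using this
  -- the reflected relation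
  have hr : eval₂ (s17pkF Γ) x (reflect p'.natDegree p') = 0 := by
    letI : Invertible (x⁻¹) := invertibleOfNonzero (inv_ne_zero hx)
    have h := eval₂_reflect_mul_pow (s17pkF Γ) x⁻¹ p'.natDegree p' le_rfl
    rw [invOf_eq_inv, inv_inv, hp'] at h
    exact (mul_eq_zero.mp h).resolve_right (pow_ne_zero _ (inv_ne_zero hx))
  have hrc : ∀ j, p'.natDegree ≤ j →
      (reflect p'.natDegree p').coeff j = if j = p'.natDegree then p'.coeff 0 else 0 := by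
    intro j hj
    rw [coeff_reflect]
    by_cases hjn : j = p'.natDegree
    · rw [if_pos hjn, hjn, revAt_le le_rfl, Nat.sub_self]
    · rw [if_neg hjn]
      have hlt : p'.natDegree < j := lt_of_le_of_ne hj (Ne.symm hjn)
      have : revAt p'.natDegree j = j := by
        show (if j ≤ p'.natDegree then p'.natDegree - j else j) = j
        rw [if_neg (Nat.not_le.mpr hlt)]
      rw [this]
      exact coeff_eq_zero_of_natDegree_lt hlt
  refine ⟨p - C (p.coeff p.natDegree * δ) * X ^ (p.natDegree - p'.natDegree) *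
      reflect p'.natDegree p', ?_, ?_, ?_⟩
  · have hle1 : (p - C (p.coeff p.natDegree * δ) * X ^ (p.natDegree - p'.natDegree) *
        reflect p'.natDegree p').natDegree ≤ p.natDegree - 1 := by
      rw [natDegree_le_iff_coeff_eq_zero]
      intro N hN
      have hN' : p.natDegree ≤ N := by omega
      have hd : p.natDegree - p'.natDegree ≤ N := by omega
      rw [coeff_sub, mul_assoc, coeff_C_mul, coeff_X_pow_mul', if_pos hd,
        hrc _ (by omega)]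
      by_cases hNm : N = p.natDegree
      · have hj : N - (p.natDegree - p'.natDegree) = p'.natDegree := by omega
        rw [if_pos hj, hNm, mul_assoc, hδ, mul_one, sub_self]
      · have hj : N - (p.natDegree - p'.natDegree) ≠ p'.natDegree := by omega
        rw [if_neg hj, mul_zero, sub_zero]
        exact coeff_eq_zero_of_natDegree_lt (by omega)
    omega
  · rw [eval₂_sub, eval₂_mul, hr, mul_zero, hp, sub_zero]
  · rw [Polynomial.map_sub, Polynomial.map_mul, Polynomial.map_mul, Polynomial.map_C, map_mul,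
      hGm, zero_mul, C_0, zero_mul, zero_mul, sub_zero, hpG]

/-- **A–M 5.20**: `x` and `x⁻¹` cannot both have a relation over `Γ` reducing to `1`. -/
theorem s17pk_not_both {Γ : Subring (Ω × k)} (hΓ : S17pkFunc Γ)
    (hmax : ∀ Γ' : Subring (Ω × k), Γ ≤ Γ' → S17pkFunc Γ' → Γ' ≤ Γ) :
    ∀ (d : ℕ) (x : Ω), x ≠ 0 → ∀ p p' : Γ[X], p.natDegree + p'.natDegree = d →
      eval₂ (s17pkF Γ) x p = 0 → p.map (s17pkG Γ) = 1 →
      eval₂ (s17pkF Γ) x⁻¹ p' = 0 → p'.map (s17pkG Γ) = 1 → False := by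
  intro d
  induction d using Nat.strong_induction_on with
  | _ d ih =>
    intro x hx p p' hd hp hpG hp' hp'G
    rcases le_total p'.natDegree p.natDegree with hle | hle
    · obtain ⟨p₁, hlt, h1, h1G⟩ := s17pk_reduce hΓ hmax hx p p' hp hpG hp' hp'G hle
      exact ih (p₁.natDegree + p'.natDegree) (by omega) x hx p₁ p' rfl h1 h1G hp' hp'G
    · have hx' : x⁻¹ ≠ 0 := inv_ne_zero hx
      have hp2 : eval₂ (s17pkF Γ) (x⁻¹)⁻¹ p = 0 := by
        rw [inv_inv]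
        exact hp
      obtain ⟨p₁, hlt, h1, h1G⟩ := s17pk_reduce hΓ hmax hx' p' p hp' hp'G hp2 hpG hle
      exact ih (p₁.natDegree + p.natDegree) (by omega) x⁻¹ hx' p₁ p rfl h1 h1G hp2 hpG

/-- a maximal functional subring has a VALUATION RING as domain. -/
theorem s17pk_mem_or_inv [IsAlgClosed k] {Γ : Subring (Ω × k)} (hΓ : S17pkFunc Γ)
    (hmax : ∀ Γ' : Subring (Ω × k), Γ ≤ Γ' → S17pkFunc Γ' → Γ' ≤ Γ) (x : Ω) :
    (∃ c : k, (x, c) ∈ Γ) ∨ (∃ c : k, (x⁻¹, c) ∈ Γ) := by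
  by_cases hx : x = 0
  · left
    exact ⟨0, hx ▸ Γ.zero_mem⟩
  by_cases h : ∃ p : Γ[X], eval₂ (s17pkF Γ) x p = 0 ∧ p.map (s17pkG Γ) = 1
  · right
    apply s17pk_claimA hΓ hmax
    rintro ⟨p', hp', hp'G⟩
    obtain ⟨p, hp, hpG⟩ := h
    exact s17pk_not_both hΓ hmax _ x hx p p' rfl hp hpG hp' hp'G
  · left
    exact s17pk_claimA hΓ hmax x h

/-- the value of a point of the domain. -/
def s17pkVal (Γ : Subring (Ω × k)) (a : Ω) (h : ∃ c : k, (a, c) ∈ Γ) : k := Classical.choose h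

theorem s17pkVal_spec (Γ : Subring (Ω × k)) (a : Ω) (h : ∃ c : k, (a, c) ∈ Γ) :
    (a, s17pkVal Γ a h) ∈ Γ := Classical.choose_spec h

theorem s17pkVal_eq {Γ : Subring (Ω × k)} (hΓ : S17pkFunc Γ) {a : Ω} (h : ∃ c : k, (a, c) ∈ Γ)
    {c : k} (hc : (a, c) ∈ Γ) : s17pkVal Γ a h = c :=
  s17pk_unique hΓ (s17pkVal_spec Γ a h) hc

/-- the domain of a maximal functional subring, as a valuation subring. -/
def s17pkW [IsAlgClosed k] (Γ : Subring (Ω × k)) (hΓ : S17pkFunc Γ)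
    (hmax : ∀ Γ' : Subring (Ω × k), Γ ≤ Γ' → S17pkFunc Γ' → Γ' ≤ Γ) : ValuationSubring Ω where
  carrier := {a | ∃ c : k, (a, c) ∈ Γ}
  mul_mem' := by
    rintro a b ⟨c, hc⟩ ⟨d, hd⟩
    exact ⟨c * d, Γ.mul_mem hc hd⟩
  one_mem' := ⟨1, Γ.one_mem⟩
  add_mem' := by
    rintro a b ⟨c, hc⟩ ⟨d, hd⟩
    exact ⟨c + d, Γ.add_mem hc hd⟩
  zero_mem' := ⟨0, Γ.zero_mem⟩
  neg_mem' := by
    rintro a ⟨c, hc⟩
    exact ⟨-c, Γ.neg_mem hc⟩
  mem_or_inv_mem' := s17pk_mem_or_inv hΓ hmax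

theorem s17pk_mem_W [IsAlgClosed k] (Γ : Subring (Ω × k)) (hΓ : S17pkFunc Γ)
    (hmax : ∀ Γ' : Subring (Ω × k), Γ ≤ Γ' → S17pkFunc Γ' → Γ' ≤ Γ) (a : Ω) :
    a ∈ s17pkW Γ hΓ hmax ↔ ∃ c : k, (a, c) ∈ Γ := Iff.rfl

/-- the residue map of a maximal functional subring. -/
def s17pkRes [IsAlgClosed k] (Γ : Subring (Ω × k)) (hΓ : S17pkFunc Γ)
    (hmax : ∀ Γ' : Subring (Ω × k), Γ ≤ Γ' → S17pkFunc Γ' → Γ' ≤ Γ) :
    ↥(s17pkW Γ hΓ hmax) →+* k where
  toFun w := s17pkVal Γ (w : Ω) w.2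
  map_one' := s17pkVal_eq hΓ _ Γ.one_mem
  map_mul' a b := s17pkVal_eq hΓ _ (Γ.mul_mem (s17pkVal_spec Γ _ a.2) (s17pkVal_spec Γ _ b.2))
  map_zero' := s17pkVal_eq hΓ _ Γ.zero_mem
  map_add' a b := s17pkVal_eq hΓ _ (Γ.add_mem (s17pkVal_spec Γ _ a.2) (s17pkVal_spec Γ _ b.2))

theorem s17pkRes_spec [IsAlgClosed k] (Γ : Subring (Ω × k)) (hΓ : S17pkFunc Γ)
    (hmax : ∀ Γ' : Subring (Ω × k), Γ ≤ Γ' → S17pkFunc Γ' → Γ' ≤ Γ)
    (w : ↥(s17pkW Γ hΓ hmax)) : ((w : Ω), s17pkRes Γ hΓ hmax w) ∈ Γ :=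
  s17pkVal_spec Γ _ w.2

theorem s17pkRes_eq [IsAlgClosed k] (Γ : Subring (Ω × k)) (hΓ : S17pkFunc Γ)
    (hmax : ∀ Γ' : Subring (Ω × k), Γ ≤ Γ' → S17pkFunc Γ' → Γ' ≤ Γ)
    (w : ↥(s17pkW Γ hΓ hmax)) {c : k} (hc : ((w : Ω), c) ∈ Γ) : s17pkRes Γ hΓ hmax w = c :=
  s17pkVal_eq hΓ _ hc

theorem s17pkRes_eq_zero_iff [IsAlgClosed k] (Γ : Subring (Ω × k)) (hΓ : S17pkFunc Γ)
    (hmax : ∀ Γ' : Subring (Ω × k), Γ ≤ Γ' → S17pkFunc Γ' → Γ' ≤ Γ)
    (w : ↥(s17pkW Γ hΓ hmax)) :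
    s17pkRes Γ hΓ hmax w = 0 ↔ (w : Ω) ∈ (s17pkW Γ hΓ hmax).nonunits := by
  rw [ValuationSubring.mem_nonunits_iff_or]
  constructor
  · intro h0
    by_contra hcon
    rw [not_or, not_not] at hcon
    obtain ⟨hw0, c', hc'⟩ := hcon
    have h1 := s17pkRes_spec Γ hΓ hmax w
    rw [h0] at h1
    have h2 := Γ.mul_mem h1 hc'
    rw [Prod.mk_mul_mk, zero_mul, mul_inv_cancel₀ hw0] at h2
    have h3 : ((1 : Ω), (1 : k)) ∈ Γ := Γ.one_mem
    exact one_ne_zero (s17pk_unique hΓ h3 h2)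
  · rintro (h0 | hinv)
    · have h1 := s17pkRes_spec Γ hΓ hmax w
      rw [h0] at h1
      exact hΓ _ h1
    · by_contra hne
      exact hinv ⟨_, s17pk_inv_mem hΓ hmax (s17pkRes_spec Γ hΓ hmax w) hne⟩

end Adj

section Main

variable {Ω k : Type*} [Field Ω] [Field k] [IsAlgClosed k]

/-- **PLACE-K, graph form**: a functional subring `Γ₀ ≤ Ω × k` (the graph of a homomorphism from a
subring of `Ω` to `k`) is contained in the graph of a `k`-valued place of `Ω`. -/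
theorem s17pk_exists_graph (Γ₀ : Subring (Ω × k)) (h₀ : S17pkFunc Γ₀) :
    ∃ (W : ValuationSubring Ω) (ψ : ↥W →+* k),
      (∀ (a : Ω) (c : k), (a, c) ∈ Γ₀ → ∃ h : a ∈ W, ψ ⟨a, h⟩ = c) ∧
      (∀ w : ↥W, ψ w = 0 ↔ (w : Ω) ∈ W.nonunits) := by
  obtain ⟨Γ, hle, hΓ, hmax⟩ := s17pk_exists_max Γ₀ h₀
  refine ⟨s17pkW Γ hΓ hmax, s17pkRes Γ hΓ hmax, fun a c hac => ⟨⟨c, hle hac⟩, ?_⟩,
    fun w => s17pkRes_eq_zero_iff Γ hΓ hmax w⟩
  exact s17pkRes_eq Γ hΓ hmax _ (hle hac)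

/-- **PLACE-K (Atiyah–Macdonald 5.21 / 5.23)**: a homomorphism from a subring of a field `Ω` to an
algebraically closed field `k` extends to a `k`-valued place of `Ω`. -/
theorem s17pk_exists (R : Subring Ω) (φ : R →+* k) :
    ∃ (W : ValuationSubring Ω) (ψ : ↥W →+* k) (hRW : ∀ r : R, (r : Ω) ∈ W),
      (∀ r : R, ψ ⟨(r : Ω), hRW r⟩ = φ r) ∧ (∀ w : ↥W, ψ w = 0 ↔ (w : Ω) ∈ W.nonunits) := by
  obtain ⟨W, ψ, h1, h2⟩ := s17pk_exists_graph (s17pkGraph R φ) (s17pk_graph_func R φ)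
  refine ⟨W, ψ, fun r => (h1 _ _ (s17pk_mem_graph R φ r)).fst, fun r => ?_, h2⟩
  exact (h1 _ _ (s17pk_mem_graph R φ r)).snd

/-- `s17pk_exists` in the shape of `S17cpPlaceExt` (S17/CompPlace.lean). -/
theorem s17pk_exists' (R : Subring Ω) (φ : R →+* k) :
    ∃ (W : ValuationSubring Ω) (h : ∀ x ∈ R, x ∈ W) (res : ↥W →+* k),
      (∀ r : R, res ⟨(r : Ω), h r r.2⟩ = φ r) ∧ ∀ w : ↥W, res w = 0 ↔ (w : Ω) ∈ W.nonunits := by
  obtain ⟨W, ψ, hRW, h1, h2⟩ := s17pk_exists R φ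
  exact ⟨W, fun x hx => hRW ⟨x, hx⟩, ψ, fun r => h1 r, h2⟩

/-- **PLACE-K, extension form**: a `k`-valued place `(V, resV)` of a field `M` extends along any
field homomorphism `i : M →+* Ω` to a `k`-valued place `(W, res)` of `Ω` with `W ∩ M = V`. -/
theorem s17pk_exists_ext {M : Type*} [Field M] (i : M →+* Ω) (V : ValuationSubring M)
    (resV : ↥V →+* k) (hker : ∀ v : ↥V, (v : M) ∈ V.nonunits → resV v = 0) :
    ∃ (W : ValuationSubring Ω) (res : ↥W →+* k) (hVW : ∀ v : ↥V, i (v : M) ∈ W),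
      W.comap i = V ∧ (∀ v : ↥V, res ⟨i (v : M), hVW v⟩ = resV v) ∧
      (∀ w : ↥W, res w = 0 ↔ (w : Ω) ∈ W.nonunits) := by
  have h₀ : S17pkFunc (((i.comp V.subtype).prod resV).range) := by
    rintro c ⟨v, hv⟩
    have h1 : i (v : M) = 0 := congrArg Prod.fst hv
    have h2 : resV v = c := congrArg Prod.snd hv
    have h3 : (v : M) = 0 := by
      apply i.injective
      rw [h1, map_zero]
    have h4 : v = 0 := Subtype.ext h3
    rw [← h2, h4, map_zero]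
  obtain ⟨W, ψ, h1, h2⟩ := s17pk_exists_graph _ h₀
  have hmem : ∀ v : ↥V, (i (v : M), resV v) ∈ ((i.comp V.subtype).prod resV).range :=
    fun v => ⟨v, rfl⟩
  have hVW : ∀ v : ↥V, i (v : M) ∈ W := fun v => (h1 _ _ (hmem v)).fst
  have hres : ∀ v : ↥V, ψ ⟨i (v : M), hVW v⟩ = resV v := fun v => (h1 _ _ (hmem v)).snd
  refine ⟨W, ψ, hVW, ?_, hres, h2⟩
  ext x
  rw [ValuationSubring.mem_comap]
  constructor
  · intro hx
    by_contra hxV
    have hx0 : x ≠ 0 := by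
      rintro rfl
      exact hxV V.zero_mem
    have hinv : x⁻¹ ∈ V := (V.mem_or_inv_mem x).resolve_left hxV
    have hnu : x⁻¹ ∈ V.nonunits := by
      rw [ValuationSubring.mem_nonunits_iff_or]
      right
      rwa [inv_inv]
    have h0 : ψ ⟨i x⁻¹, hVW ⟨x⁻¹, hinv⟩⟩ = 0 := by
      rw [hres ⟨x⁻¹, hinv⟩]
      exact hker ⟨x⁻¹, hinv⟩ hnu
    have hnuW : i x⁻¹ ∈ W.nonunits := (h2 ⟨i x⁻¹, hVW ⟨x⁻¹, hinv⟩⟩).mp h0
    rw [ValuationSubring.mem_nonunits_iff_or] at hnuW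
    rcases hnuW with h | h
    · rw [map_inv₀, inv_eq_zero] at h
      exact hx0 (i.injective (by rw [h, map_zero]))
    · rw [map_inv₀, inv_inv] at h
      exact h hx
  · intro hx
    exact hVW ⟨x, hx⟩

end Main

section Alg

variable {K L : Type*} [Field K] [IsAlgClosed K] [Field L] [Algebra K L]

/-- **PLACE-K, `K`-algebra form** (the shape of the fields of `S17plPlace K L`, S17/Place.lean):
a `K`-algebra homomorphism `φ : A →ₐ[K] K` on a subalgebra `A` of a field `L ⊇ K`, `K`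
algebraically closed, extends to a `K`-place `(W, res)` of `L`: `W ⊇ K`, `res` is the identity on
`K`, and the kernel of `res` is the maximal ideal of `W`. -/
theorem s17pk_exists_alg (A : Subalgebra K L) (φ : A →ₐ[K] K) :
    ∃ (W : ValuationSubring L) (hKW : ∀ c : K, algebraMap K L c ∈ W) (res : ↥W →+* K)
      (hAW : ∀ a : A, (a : L) ∈ W),
      (∀ c : K, res ⟨algebraMap K L c, hKW c⟩ = c) ∧
      (∀ a : A, res ⟨(a : L), hAW a⟩ = φ a) ∧
      (∀ w : ↥W, res w = 0 ↔ (w : L) ∈ W.nonunits) := by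
  have h₀ : S17pkFunc (((A.val : ↥A →+* L).prod (φ : ↥A →+* K)).range) := by
    rintro c ⟨a, ha⟩
    have h1 : (a : L) = 0 := congrArg Prod.fst ha
    have h2 : φ a = c := congrArg Prod.snd ha
    have h3 : a = 0 := Subtype.ext h1
    rw [← h2, h3, map_zero]
  obtain ⟨W, ψ, h1, h2⟩ := s17pk_exists_graph _ h₀
  have hmem : ∀ a : ↥A, ((a : L), φ a) ∈ ((A.val : ↥A →+* L).prod (φ : ↥A →+* K)).range :=
    fun a => ⟨a, rfl⟩
  have hAW : ∀ a : ↥A, (a : L) ∈ W := fun a => (h1 _ _ (hmem a)).fst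
  have hres : ∀ a : ↥A, ψ ⟨(a : L), hAW a⟩ = φ a := fun a => (h1 _ _ (hmem a)).snd
  have hK : ∀ c : K, ψ ⟨algebraMap K L c, hAW (algebraMap K A c)⟩ = c := by
    intro c
    have := hres (algebraMap K A c)
    rw [φ.commutes c] at this
    exact this
  exact ⟨W, fun c => hAW (algebraMap K A c), ψ, hAW, hK, hres, h2⟩

/-- every field `L ⊇ K` (`K` algebraically closed) has a `K`-place. -/
theorem s17pk_exists_place :
    ∃ (W : ValuationSubring L) (hKW : ∀ c : K, algebraMap K L c ∈ W) (res : ↥W →+* K),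
      (∀ c : K, res ⟨algebraMap K L c, hKW c⟩ = c) ∧
      (∀ w : ↥W, res w = 0 ↔ (w : L) ∈ W.nonunits) := by
  obtain ⟨W, hKW, res, -, h1, -, h2⟩ :=
    s17pk_exists_alg (⊥ : Subalgebra K L) (Algebra.botEquiv K L : (⊥ : Subalgebra K L) →ₐ[K] K)
  exact ⟨W, hKW, res, h1, h2⟩

end Alg

end Fermat.Agent.S17

end
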