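/-
S17 sprint, layer H, leaf **H1-K** (helper36): THE VALUATIVE CRITERION NEEDS ONLY `K`-PLACES.

`K` algebraically closed, `L ⊇ K` a field, `F : ι → L` a finite tuple, `G : L` (or a family).
The hypothesis of H1 (`s17vc_main`, `s17vc_family`, `s17vc_equiv`, S17/ValCrit.lean) asks, for
EVERY valuation subring `W ⊇ K` of `L`, a pivot `α` (`F α ≠ 0`, `F β / F α ∈ W`) with
`G / F α ∈ W`.  It is enough to check this at the `K`-RATIONAL PLACES `P : S17plPlace K L`
(valuation subrings with residue field `K`; S17/Place.lean):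

* `s17vk_val`, `s17vk_ker`  : if all `y β` lie in the maximal ideal of a valuation subring `W ⊇ K`,
                              then `p(y) ≡ p(0)` modulo the maximal ideal, so `p(y) = 0 ⇒ p(0) = 0`;
* **`s17vk_exists_place`**  : ... and then there is a `K`-PLACE `P` with all `y β ∈ 𝔪_P`
                              (`K[y] → K`, `y ↦ 0`, extended by PLACE-K `s17pk_exists`);
* **`s17vk_upgrade`**       : pivot hypothesis at all `K`-places ⇒ pivot hypothesis at ALL valuation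
                              subrings `W ⊇ K` (the literal hypothesis of `s17vc_main`);
* `s17vk_upgrade_family`, `s17vk_upgrade_equiv` : the same for the hypotheses of `s17vc_family`
                              and `s17vc_equiv`;
* `s17vk_main`, `s17vk_family`, `s17vk_equiv` : H1 with hypotheses at `K`-places only;
* `s17vk_family_tower`, `s17vk_equiv_tower`   : certificates with coefficients in a subfield
                              `K₀ ⊆ K`, `K / K₀` algebraic (`K₀ = ℚ`, `K = Qb`).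

USE: base-point-freeness / MOVING, the square, the cube, POLE-DIV ... are needed at `K`-places
only, where the centres are `K`-points of the curve.
-/
import Fermat.Agent.S17.PlaceK
import Fermat.Agent.S17.Place
import Fermat.Agent.S17.ValCritQ

set_option autoImplicit false
set_option linter.unusedVariables false
set_option linter.unusedSectionVars false
set_option linter.style.haveILetI false

noncomputable section

namespace Fermat.Agent.S17

open MvPolynomial

section Core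

variable {K L : Type*} [Field K] [Field L] [Algebra K L] {ι : Type*}

/-- if all `y β` lie in the maximal ideal of `W ⊇ K`, then `p(y) ∈ W` and
`p(y) − p(0) ∈ 𝔪_W`. -/
theorem s17vk_val (W : ValuationSubring L) (hKW : ∀ c : K, algebraMap K L c ∈ W) (y : ι → L)
    (hy : ∀ β, W.valuation (y β) < 1) (p : MvPolynomial ι K) :
    W.valuation (aeval y p) ≤ 1 ∧
      W.valuation (aeval y p - algebraMap K L (constantCoeff p)) < 1 := by
  induction p using MvPolynomial.induction_on with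
  | C a =>
    constructor
    · rw [aeval_C]
      exact (W.valuation_le_one_iff _).2 (hKW a)
    · rw [aeval_C, constantCoeff_C, sub_self, map_zero]
      exact zero_lt_one
  | add p q hp hq =>
    constructor
    · rw [map_add]
      exact (Valuation.map_add _ _ _).trans (max_le hp.1 hq.1)
    · have e : aeval y (p + q) - algebraMap K L (constantCoeff (p + q)) =
          (aeval y p - algebraMap K L (constantCoeff p)) +
            (aeval y q - algebraMap K L (constantCoeff q)) := by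
        rw [map_add, map_add, map_add]
        ring
      rw [e]
      exact lt_of_le_of_lt (Valuation.map_add _ _ _) (max_lt hp.2 hq.2)
  | mul_X p n hp =>
    have h1 : W.valuation (aeval y (p * X n)) < 1 := by
      rw [map_mul, aeval_X, map_mul]
      calc W.valuation (aeval y p) * W.valuation (y n)
          ≤ 1 * W.valuation (y n) := mul_le_mul' hp.1 le_rfl
        _ = W.valuation (y n) := one_mul _
        _ < 1 := hy n
    constructor
    · exact h1.le
    · have e : constantCoeff (p * X n) = 0 := by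
        rw [map_mul, constantCoeff_X, mul_zero]
      rw [e, map_zero, sub_zero]
      exact h1

/-- `p(y) = 0 ⇒ p(0) = 0` when all `y β` lie in the maximal ideal of some `W ⊇ K`. -/
theorem s17vk_ker (W : ValuationSubring L) (hKW : ∀ c : K, algebraMap K L c ∈ W) (y : ι → L)
    (hy : ∀ β, W.valuation (y β) < 1) (p : MvPolynomial ι K) (hp : aeval y p = 0) :
    constantCoeff p = 0 := by
  by_contra hc
  have h1 := (s17vk_val W hKW y hy p).2
  rw [hp, zero_sub, Valuation.map_neg] at h1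
  have h2 : W.valuation (algebraMap K L (constantCoeff p)⁻¹) ≤ 1 :=
    (W.valuation_le_one_iff _).2 (hKW _)
  have h3 : algebraMap K L (constantCoeff p) * algebraMap K L (constantCoeff p)⁻¹ = 1 := by
    rw [← map_mul, mul_inv_cancel₀ hc, map_one]
  have h4 : W.valuation (algebraMap K L (constantCoeff p) *
      algebraMap K L (constantCoeff p)⁻¹) < 1 := by
    rw [map_mul]
    calc W.valuation (algebraMap K L (constantCoeff p)) *
          W.valuation (algebraMap K L (constantCoeff p)⁻¹)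
        ≤ W.valuation (algebraMap K L (constantCoeff p)) * 1 := mul_le_mul' le_rfl h2
      _ = W.valuation (algebraMap K L (constantCoeff p)) := mul_one _
      _ < 1 := h1
  rw [h3, map_one] at h4
  exact lt_irrefl _ h4

end Core

section Place

variable {K L : Type*} [Field K] [IsAlgClosed K] [Field L] [Algebra K L] {ι : Type*}

/-- **`K`-PLACE SPECIALISATION**: if a family `y` lies in the maximal ideal of SOME valuation
subring `W ⊇ K`, it lies in the maximal ideal of some `K`-RATIONAL place. -/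
theorem s17vk_exists_place (W : ValuationSubring L) (hKW : ∀ c : K, algebraMap K L c ∈ W)
    (y : ι → L) (hy : ∀ β, y β ∈ W.nonunits) :
    ∃ P : S17plPlace K L, ∀ β, y β ∈ P.W.nonunits := by
  classical
  have hy' : ∀ β, W.valuation (y β) < 1 := fun β => hy β
  -- the ring `R = K[y]` and the evaluation `y ↦ 0` on it
  let fL : MvPolynomial ι K →+* L := (aeval y : MvPolynomial ι K →ₐ[K] L).toRingHom
  have hfL : ∀ p, fL p = aeval y p := fun p => rfl
  let fR : MvPolynomial ι K →+* fL.range := fL.rangeRestrict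
  have hfR : ∀ p, ((fR p : fL.range) : L) = aeval y p := fun p => rfl
  have hsurj : Function.Surjective fR := fL.rangeRestrict_surjective
  have hker : RingHom.ker fR ≤ RingHom.ker (constantCoeff : MvPolynomial ι K →+* K) := by
    intro p hp
    rw [RingHom.mem_ker] at hp ⊢
    have h0 : aeval y p = 0 := by
      rw [← hfR p, hp]
      rfl
    exact s17vk_ker W hKW y hy' p h0
  let φ : fL.range →+* K := fR.liftOfSurjective hsurj ⟨constantCoeff, hker⟩
  have hφ : ∀ p, φ (fR p) = constantCoeff p := fun p =>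
    RingHom.liftOfSurjective_comp_apply fR hsurj ⟨constantCoeff, hker⟩ p
  obtain ⟨W', ψ, hRW, h1, h2⟩ := s17pk_exists fL.range φ
  have hKW' : ∀ c : K, algebraMap K L c ∈ W' := by
    intro c
    have h := hRW (fR (C c))
    rw [hfR, aeval_C] at h
    exact h
  have hres : ∀ c : K, ψ ⟨algebraMap K L c, hKW' c⟩ = c := by
    intro c
    have e : (⟨algebraMap K L c, hKW' c⟩ : W') = ⟨((fR (C c) : fL.range) : L), hRW _⟩ := by
      apply Subtype.ext
      show algebraMap K L c = ((fR (C c) : fL.range) : L)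
      rw [hfR, aeval_C]
    rw [e, h1, hφ, constantCoeff_C]
  refine ⟨⟨W', hKW', ψ, hres⟩, fun β => ?_⟩
  show y β ∈ W'.nonunits
  have hmem : y β ∈ W' := by
    have h := hRW (fR (X β))
    rw [hfR, aeval_X] at h
    exact h
  have e : (⟨y β, hmem⟩ : W') = ⟨((fR (X β) : fL.range) : L), hRW _⟩ := by
    apply Subtype.ext
    show y β = ((fR (X β) : fL.range) : L)
    rw [hfR, aeval_X]
  have h0 : ψ ⟨y β, hmem⟩ = 0 := by
    rw [e, h1, hφ, constantCoeff_X]
  exact (h2 ⟨y β, hmem⟩).1 h0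

/-- **UPGRADE, pivot form**: if `v_P(G) ≥ min_α v_P(F α)` at every `K`-place `P`, then
`G / F α ∈ W` for every valuation subring `W ⊇ K` and every pivot `α` of `F` along `W`. -/
theorem s17vk_upgrade_min (F : ι → L) (G : L)
    (hP : ∀ P : S17plPlace K L, ∃ α, F α ≠ 0 ∧ G / F α ∈ P.W)
    (W : ValuationSubring L) (hKW : ∀ c : K, algebraMap K L c ∈ W) (α : ι)
    (hα : S17plIsMin W F α) : G / F α ∈ W := by
  by_contra hG
  have hG0 : G ≠ 0 := by
    rintro rfl
    apply hG
    rw [zero_div]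
    exact W.zero_mem
  have hα0 : F α ≠ 0 := hα.1
  -- `F α / G` is a non-unit of `W`
  have h1 : 1 < W.valuation (G / F α) :=
    not_le.1 fun h => hG ((W.valuation_le_one_iff _).1 h)
  have hpos : 0 < W.valuation (G / F α) := lt_trans zero_lt_one h1
  have hinv : W.valuation (F α / G) < 1 := by
    have e : F α / G = (G / F α)⁻¹ := by rw [inv_div]
    rw [e, map_inv₀]
    exact (inv_lt_one₀ hpos).2 h1
  have hy : ∀ β, F β / G ∈ W.nonunits := by
    intro β
    show W.valuation (F β / G) < 1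
    have e : F β / G = (F β / F α) * (F α / G) := by
      field_simp
    rw [e, map_mul]
    have h2 : W.valuation (F β / F α) ≤ 1 := (W.valuation_le_one_iff _).2 (hα.2 β)
    calc W.valuation (F β / F α) * W.valuation (F α / G)
        ≤ 1 * W.valuation (F α / G) := mul_le_mul' h2 le_rfl
      _ = W.valuation (F α / G) := one_mul _
      _ < 1 := hinv
  obtain ⟨P, hPy⟩ := s17vk_exists_place W hKW (fun β => F β / G) hy
  obtain ⟨α', hα', hGα'⟩ := hP P
  have hv1 : P.W.valuation (F α' / G) < 1 := hPy α'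
  have hv2 : P.W.valuation (G / F α') ≤ 1 := (P.W.valuation_le_one_iff _).2 hGα'
  have h3 : F α' / G * (G / F α') = 1 := by
    field_simp
  have hlt : P.W.valuation (F α' / G * (G / F α')) < 1 := by
    rw [map_mul]
    calc P.W.valuation (F α' / G) * P.W.valuation (G / F α')
        ≤ P.W.valuation (F α' / G) * 1 := mul_le_mul' le_rfl hv2
      _ = P.W.valuation (F α' / G) := mul_one _
      _ < 1 := hv1
  rw [h3, map_one] at hlt
  exact lt_irrefl _ hlt

/-- a tuple which has a nonzero coordinate at one `K`-place is not zero. -/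
theorem s17vk_ne_zero (F : ι → L) (hP : ∀ P : S17plPlace K L, ∃ α, F α ≠ 0) : F ≠ 0 := by
  obtain ⟨W₀, hKW₀, res₀, hres₀, -⟩ := s17pk_exists_place (K := K) (L := L)
  obtain ⟨α₀, hα₀⟩ := hP ⟨W₀, hKW₀, res₀, hres₀⟩
  intro h
  apply hα₀
  rw [h]
  rfl

/-- **UPGRADE** of the hypothesis of `s17vc_main`: from the `K`-places to ALL valuation subrings
`W ⊇ K`. -/
theorem s17vk_upgrade [Finite ι] (F : ι → L) (G : L)
    (hP : ∀ P : S17plPlace K L, ∃ α, F α ≠ 0 ∧ (∀ β, F β / F α ∈ P.W) ∧ G / F α ∈ P.W)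
    (W : ValuationSubring L) (hKW : ∀ c : K, algebraMap K L c ∈ W) :
    ∃ α, F α ≠ 0 ∧ (∀ β, F β / F α ∈ W) ∧ G / F α ∈ W := by
  have hF : F ≠ 0 := s17vk_ne_zero F fun P => by
    obtain ⟨α, hα, -, -⟩ := hP P
    exact ⟨α, hα⟩
  obtain ⟨α, hα⟩ := s17pl_exists_min W hF
  refine ⟨α, hα.1, hα.2, s17vk_upgrade_min F G (fun P => ?_) W hKW α hα⟩
  obtain ⟨α', hα', -, hG⟩ := hP P
  exact ⟨α', hα', hG⟩

/-- **UPGRADE** of the hypothesis of `s17vc_family`. -/
theorem s17vk_upgrade_family [Finite ι] {κ : Type*} (F : ι → L) (G : κ → L)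
    (hP : ∀ P : S17plPlace K L, ∃ α, F α ≠ 0 ∧ (∀ β, F β / F α ∈ P.W) ∧ ∀ j, G j / F α ∈ P.W)
    (W : ValuationSubring L) (hKW : ∀ c : K, algebraMap K L c ∈ W) :
    ∃ α, F α ≠ 0 ∧ (∀ β, F β / F α ∈ W) ∧ ∀ j, G j / F α ∈ W := by
  have hF : F ≠ 0 := s17vk_ne_zero F fun P => by
    obtain ⟨α, hα, -, -⟩ := hP P
    exact ⟨α, hα⟩
  obtain ⟨α, hα⟩ := s17pl_exists_min W hF
  refine ⟨α, hα.1, hα.2, fun j => s17vk_upgrade_min F (G j) (fun P => ?_) W hKW α hα⟩
  obtain ⟨α', hα', -, hG⟩ := hP P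
  exact ⟨α', hα', hG j⟩

/-- **UPGRADE** of the hypothesis of `s17vc_equiv` (valuative EQUIVALENCE of two tuples). -/
theorem s17vk_upgrade_equiv [Finite ι] {κ : Type*} [Finite κ] (F : ι → L) (G : κ → L)
    (hP : ∀ P : S17plPlace K L, ∃ α β, F α ≠ 0 ∧ G β ≠ 0 ∧ (∀ α', F α' / F α ∈ P.W) ∧
      (∀ β', G β' / G β ∈ P.W) ∧ G β / F α ∈ P.W ∧ F α / G β ∈ P.W)
    (W : ValuationSubring L) (hKW : ∀ c : K, algebraMap K L c ∈ W) :
    ∃ α β, F α ≠ 0 ∧ G β ≠ 0 ∧ (∀ α', F α' / F α ∈ W) ∧ (∀ β', G β' / G β ∈ W) ∧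
      G β / F α ∈ W ∧ F α / G β ∈ W := by
  have hF : F ≠ 0 := s17vk_ne_zero F fun P => by
    obtain ⟨α, β, hα, -⟩ := hP P
    exact ⟨α, hα⟩
  have hG : G ≠ 0 := s17vk_ne_zero G fun P => by
    obtain ⟨α, β, -, hβ, -⟩ := hP P
    exact ⟨β, hβ⟩
  obtain ⟨α, hα⟩ := s17pl_exists_min W hF
  obtain ⟨β, hβ⟩ := s17pl_exists_min W hG
  refine ⟨α, β, hα.1, hβ.1, hα.2, hβ.2, ?_, ?_⟩
  · refine s17vk_upgrade_min F (G β) (fun P => ?_) W hKW α hα
    obtain ⟨α', β', hα', hβ', -, hGP, h1, -⟩ := hP P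
    refine ⟨α', hα', ?_⟩
    have e : G β / F α' = (G β / G β') * (G β' / F α') := by
      field_simp
    rw [e]
    exact P.W.mul_mem _ _ (hGP β) h1
  · refine s17vk_upgrade_min G (F α) (fun P => ?_) W hKW β hβ
    obtain ⟨α', β', hα', hβ', hFP, -, -, h2⟩ := hP P
    refine ⟨β', hβ', ?_⟩
    have e : F α / G β' = (F α / F α') * (F α' / G β') := by
      field_simp
    rw [e]
    exact P.W.mul_mem _ _ (hFP α) h2

/-! ### H1 with hypotheses at the `K`-places only -/

/-- **H1-K**: `s17vc_main` from the `K`-places. -/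
theorem s17vk_main [Fintype ι] (F : ι → L) (G : L)
    (hP : ∀ P : S17plPlace K L, ∃ α, F α ≠ 0 ∧ (∀ β, F β / F α ∈ P.W) ∧ G / F α ∈ P.W) :
    ∃ (M : ℕ) (a : Fin M → MvPolynomial ι K), 1 ≤ M ∧
      (∀ k, (a k).IsHomogeneous ((k : ℕ) + 1)) ∧
      G ^ M + ∑ k : Fin M, aeval F (a k) * G ^ (M - 1 - (k : ℕ)) = 0 :=
  s17vc_main F G (s17vk_upgrade F G hP)

/-- **H1-K, family form**: `s17vc_family` from the `K`-places. -/
theorem s17vk_family [Fintype ι] {κ : Type*} [Fintype κ] (F : ι → L) (G : κ → L)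
    (hP : ∀ P : S17plPlace K L, ∃ α, F α ≠ 0 ∧ (∀ β, F β / F α ∈ P.W) ∧
      ∀ j, G j / F α ∈ P.W) :
    ∃ (M : ℕ) (a : κ → Fin M → MvPolynomial ι K), 1 ≤ M ∧
      (∀ j k, (a j k).IsHomogeneous ((k : ℕ) + 1)) ∧
      ∀ j, G j ^ M + ∑ k : Fin M, aeval F (a j k) * G j ^ (M - 1 - (k : ℕ)) = 0 :=
  s17vc_family F G (s17vk_upgrade_family F G hP)

/-- **H1-K, two-sided form**: `s17vc_equiv` from the `K`-places. -/
theorem s17vk_equiv [Fintype ι] {κ : Type*} [Fintype κ] (F : ι → L) (G : κ → L)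
    (hP : ∀ P : S17plPlace K L, ∃ α β, F α ≠ 0 ∧ G β ≠ 0 ∧ (∀ α', F α' / F α ∈ P.W) ∧
      (∀ β', G β' / G β ∈ P.W) ∧ G β / F α ∈ P.W ∧ F α / G β ∈ P.W) :
    (∃ (M : ℕ) (a : κ → Fin M → MvPolynomial ι K), 1 ≤ M ∧
      (∀ j k, (a j k).IsHomogeneous ((k : ℕ) + 1)) ∧
      ∀ j, G j ^ M + ∑ k : Fin M, aeval F (a j k) * G j ^ (M - 1 - (k : ℕ)) = 0) ∧
    (∃ (M : ℕ) (a : ι → Fin M → MvPolynomial κ K), 1 ≤ M ∧
      (∀ j k, (a j k).IsHomogeneous ((k : ℕ) + 1)) ∧
      ∀ j, F j ^ M + ∑ k : Fin M, aeval G (a j k) * F j ^ (M - 1 - (k : ℕ)) = 0) :=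
  s17vc_equiv F G (s17vk_upgrade_equiv F G hP)

end Place

/-! ### Certificates with coefficients in a subfield `K₀ ⊆ K` (`K₀ = ℚ`, `K = Qb`) -/

section Tower

variable {K₀ K L : Type*} [Field K₀] [Field K] [IsAlgClosed K] [Field L] [Algebra K₀ K]
  [Algebra K L] [Algebra K₀ L] [IsScalarTower K₀ K L] [Algebra.IsAlgebraic K₀ K] {ι : Type*}

/-- **H1-K over the small field**, family form: hypotheses at the `K`-places, certificate with
coefficients in `K₀`. -/
theorem s17vk_family_tower [Fintype ι] {κ : Type*} [Fintype κ] (F : ι → L) (G : κ → L)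
    (hP : ∀ P : S17plPlace K L, ∃ α, F α ≠ 0 ∧ (∀ β, F β / F α ∈ P.W) ∧
      ∀ j, G j / F α ∈ P.W) :
    ∃ (M : ℕ) (a : κ → Fin M → MvPolynomial ι K₀), 1 ≤ M ∧
      (∀ j k, (a j k).IsHomogeneous ((k : ℕ) + 1)) ∧
      ∀ j, G j ^ M + ∑ k : Fin M, aeval F (a j k) * G j ^ (M - 1 - (k : ℕ)) = 0 :=
  s17vcq_family (K₀ := K₀) (K := K) F G (s17vk_upgrade_family F G hP)

/-- **H1-K over the small field**, two-sided form. -/
theorem s17vk_equiv_tower [Fintype ι] {κ : Type*} [Fintype κ] (F : ι → L) (G : κ → L)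
    (hP : ∀ P : S17plPlace K L, ∃ α β, F α ≠ 0 ∧ G β ≠ 0 ∧ (∀ α', F α' / F α ∈ P.W) ∧
      (∀ β', G β' / G β ∈ P.W) ∧ G β / F α ∈ P.W ∧ F α / G β ∈ P.W) :
    (∃ (M : ℕ) (a : κ → Fin M → MvPolynomial ι K₀), 1 ≤ M ∧
      (∀ j k, (a j k).IsHomogeneous ((k : ℕ) + 1)) ∧
      ∀ j, G j ^ M + ∑ k : Fin M, aeval F (a j k) * G j ^ (M - 1 - (k : ℕ)) = 0) ∧
    (∃ (M : ℕ) (a : ι → Fin M → MvPolynomial κ K₀), 1 ≤ M ∧
      (∀ j k, (a j k).IsHomogeneous ((k : ℕ) + 1)) ∧
      ∀ j, F j ^ M + ∑ k : Fin M, aeval G (a j k) * F j ^ (M - 1 - (k : ℕ)) = 0) :=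
  s17vcq_equiv (K₀ := K₀) (K := K) F G (s17vk_upgrade_equiv F G hP)

/-- the valuative equivalence at ALL valuation subrings `W ⊇ K₀` (the hypothesis `hW` of
`s17plh_main`, S17/PlaceHt.lean) from the `K`-places. -/
theorem s17vk_upgrade_equiv_tower [Finite ι] {κ : Type*} [Finite κ] (F : ι → L) (G : κ → L)
    (hP : ∀ P : S17plPlace K L, ∃ α β, F α ≠ 0 ∧ G β ≠ 0 ∧ (∀ α', F α' / F α ∈ P.W) ∧
      (∀ β', G β' / G β ∈ P.W) ∧ G β / F α ∈ P.W ∧ F α / G β ∈ P.W)
    (W : ValuationSubring L) (hK₀W : ∀ c : K₀, algebraMap K₀ L c ∈ W) :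
    ∃ α β, F α ≠ 0 ∧ G β ≠ 0 ∧ (∀ α', F α' / F α ∈ W) ∧ (∀ β', G β' / G β ∈ W) ∧
      G β / F α ∈ W ∧ F α / G β ∈ W :=
  s17vk_upgrade_equiv F G hP W (s17vcq_mem_of_algebraic (K₀ := K₀) W hK₀W)

end Tower

end Fermat.Agent.S17
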