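/-
S17 sprint, design A v2, **PlM at `K`-PLACES ONLY** (helper36): the `K`-place twin of
S17/PlM.lean (helper11), through H1-K (S17/ValCritK.lean).

`s17pm_hM` (S17/PlM.lean) assumes `S17muBpf K b N F` and `S17mvTele K φ σ b Ψ c p q` at EVERY
valuation subring `V ⊇ K` of `L`.  Here both are assumed at the `K`-RATIONAL places
`P : S17plPlace K L` only:

* `S17pmkBpf K b N F`          : `F ⊆ L(N·D)` without common zero, at the `K`-places;
* `S17pmkTele K φ σ b Ψ c p q` : the telescoped cube at the `K`-places;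
* `s17pmk_bpf_of`, `s17pmk_tele_of` : the global hypotheses imply the `K`-place ones;
* `s17pmk_equiv_of_bpf_at`     : POINTWISE form of `s17be_equiv` (one valuation subring, one
                                 normaliser `y`);
* `s17pmk_equiv_at`            : `X ~ G` at every `K`-place;
* `s17pmk_equiv`               : hence at EVERY valuation subring `V ⊇ K` (`s17vk_upgrade_equiv`)
                                 — literal `hW` of `s17hbpQ_place`;
* **`s17pmk_hM`**              : `∃ C, ∀ P α β …, p · habs [F]_P − C ≤ habs [φ ∘ F]_P`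
                                 = the conclusion of `s17pm_hM`, literal `hM` of `s17plm_plM`.

So PlM-BPF needs MOVING / the unit criterion at `K`-places only.
-/
import Fermat.Agent.S17.PlM
import Fermat.Agent.S17.ValCritK
import Fermat.Agent.S17.PlaceExt

set_option autoImplicit false
set_option linter.unusedVariables false
set_option linter.unusedSectionVars false

noncomputable section

namespace Fermat.Agent.S17

open Fermat.Agent.S27 Height

universe u w x y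

section Val

variable {K : Type u} [Field K] {L : Type w} [Field L] [Algebra K L] {ι : Type x}
  {φ σ : L →ₐ[K] L} {b : ValuationSubring L → L} {Ψ : L} {c p q N : ℕ}

/-- `F ⊆ L(N·D)` without common zero, at the `K`-rational places only. -/
def S17pmkBpf (K : Type u) [Field K] {L : Type w} [Field L] [Algebra K L] {ι : Type x}
    (b : ValuationSubring L → L) (N : ℕ) (F : ι → L) : Prop :=
  ∀ P : S17plPlace K L, (∀ i, F i * b P.W ^ N ∈ P.W) ∧ ∃ i, S27IsUnitIn P.W (F i * b P.W ^ N)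

/-- the telescoped cube at the `K`-rational places only. -/
def S17pmkTele (K : Type u) [Field K] {L : Type w} [Field L] [Algebra K L]
    (φ σ : L →ₐ[K] L) (b : ValuationSubring L → L) (Ψ : L) (c p q : ℕ) : Prop :=
  ∀ P : S17plPlace K L, ∃ u : L, S27IsUnitIn P.W u ∧
    φ (b (P.W.comap (φ : L →+* L))) ^ c =
      u * Ψ * b P.W ^ (c * p) * σ (b (P.W.comap (σ : L →+* L))) ^ (c * q)

theorem s17pmk_bpf_of {F : ι → L} (hF : S17muBpf K b N F) : S17pmkBpf K b N F :=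
  fun P => hF P.W P.hKW

theorem s17pmk_tele_of (hT : S17mvTele K φ σ b Ψ c p q) : S17pmkTele K φ σ b Ψ c p q :=
  fun P => hT P.W P.hKW

/-- pull-back of a family which is base-point-free at the `K`-places. -/
theorem s17pmk_pull (φ : L →ₐ[K] L) {F : ι → L} (hF : S17pmkBpf K b N F)
    (P : S17plPlace K L) :
    (∀ j, φ (F j) * φ (b (P.W.comap (φ : L →+* L))) ^ N ∈ P.W) ∧
      ∃ j, S27IsUnitIn P.W (φ (F j) * φ (b (P.W.comap (φ : L →+* L))) ^ N) := by
  obtain ⟨hmem, j₀, hj₀⟩ := hF (s17pxComap φ P)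
  have key : ∀ j, φ (F j) * φ (b (P.W.comap (φ : L →+* L))) ^ N =
      φ (F j * b (P.W.comap (φ : L →+* L)) ^ N) := by
    intro j
    rw [map_mul, map_pow]
  refine ⟨fun j => ?_, j₀, ?_⟩
  · rw [key j]
    exact hmem j
  · rw [key j₀]
    exact s17mu_unit_comap φ hj₀

/-- POINTWISE form of `s17be_equiv`: two families which are base-point-free along ONE valuation
subring `V` with respect to the same normaliser `y` are valuatively equivalent along `V`. -/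
theorem s17pmk_equiv_of_bpf_at {κ : Type y} {V : ValuationSubring L} {z : L}
    {F : ι → L} {G : κ → L}
    (hF : (∀ i, F i * z ∈ V) ∧ ∃ i, S27IsUnitIn V (F i * z))
    (hG : (∀ i, G i * z ∈ V) ∧ ∃ i, S27IsUnitIn V (G i * z)) :
    ∃ α β, F α ≠ 0 ∧ G β ≠ 0 ∧ (∀ α', F α' / F α ∈ V) ∧ (∀ β', G β' / G β ∈ V) ∧
      G β / F α ∈ V ∧ F α / G β ∈ V := by
  obtain ⟨hFm, α, hα⟩ := hF
  obtain ⟨hGm, β, hβ⟩ := hG
  have hFα : F α ≠ 0 := left_ne_zero_of_mul hα.1
  have hGβ : G β ≠ 0 := left_ne_zero_of_mul hβ.1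
  have hb : z ≠ 0 := right_ne_zero_of_mul hα.1
  have key : ∀ p q : L, q ≠ 0 → p / q = (p * z) * (q * z)⁻¹ := by
    intro p q hq
    field_simp
  refine ⟨α, β, hFα, hGβ, fun α' => ?_, fun β' => ?_, ?_, ?_⟩
  · rw [key _ _ hFα]
    exact V.mul_mem _ _ (hFm α') hα.2.2
  · rw [key _ _ hGβ]
    exact V.mul_mem _ _ (hGm β') hβ.2.2
  · rw [key _ _ hFα]
    exact V.mul_mem _ _ (hGm β) hα.2.2
  · rw [key _ _ hGβ]
    exact V.mul_mem _ _ (hFm α) hβ.2.2

/-- `X j = Ψ ^ N · φ (F j) ^ c` is base-point-free at the `K`-places w.r.t. the normaliser. -/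
theorem s17pmk_bpf_X (hT : S17pmkTele K φ σ b Ψ c p q) {F : ι → L} (hF : S17pmkBpf K b N F)
    (P : S17plPlace K L) :
    (∀ j, Ψ ^ N * φ (F j) ^ c * s17mvNorm σ b c p q N P.W ∈ P.W) ∧
      ∃ j, S27IsUnitIn P.W (Ψ ^ N * φ (F j) ^ c * s17mvNorm σ b c p q N P.W) := by
  obtain ⟨u, hu, hcube⟩ := hT P
  obtain ⟨hmem, α, hα⟩ := s17pmk_pull φ hF P
  have huN : S27IsUnitIn P.W (u ^ N)⁻¹ := s17mu_unit_inv (s17mu_unit_pow hu N)
  refine ⟨fun j => ?_, α, ?_⟩
  · rw [s17mv_X_eq hu.1 hcube j]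
    exact P.W.mul_mem _ _ (P.W.pow_mem (hmem j) c) huN.2.1
  · rw [s17mv_X_eq hu.1 hcube α]
    exact s17mu_unit_mul (s17mu_unit_pow hα c) huN

/-- the pure monomials `F j ^ (c p) · σ (F j') ^ (c q)` are base-point-free at the `K`-places
w.r.t. the normaliser. -/
theorem s17pmk_bpf_G (σ : L →ₐ[K] L) (c p q : ℕ) {F : ι → L} (hF : S17pmkBpf K b N F)
    (P : S17plPlace K L) :
    (∀ t : ι × ι, F t.1 ^ (c * p) * σ (F t.2) ^ (c * q) * s17mvNorm σ b c p q N P.W ∈ P.W) ∧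
      ∃ t : ι × ι, S27IsUnitIn P.W
        (F t.1 ^ (c * p) * σ (F t.2) ^ (c * q) * s17mvNorm σ b c p q N P.W) := by
  obtain ⟨h1, j₁, hj₁⟩ := hF P
  obtain ⟨h2, j₂, hj₂⟩ := s17pmk_pull σ hF P
  have key : ∀ t : ι × ι, F t.1 ^ (c * p) * σ (F t.2) ^ (c * q) *
      s17mvNorm σ b c p q N P.W =
      (F t.1 * b P.W ^ N) ^ (c * p) *
        (σ (F t.2) * σ (b (P.W.comap (σ : L →+* L))) ^ N) ^ (c * q) := by
    intro t
    unfold s17mvNorm
    rw [mul_pow, mul_pow]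
    ring
  refine ⟨fun t => ?_, (j₁, j₂), ?_⟩
  · rw [key t]
    exact P.W.mul_mem _ _ (P.W.pow_mem (h1 t.1) _) (P.W.pow_mem (h2 t.2) _)
  · rw [key (j₁, j₂)]
    exact s17mu_unit_mul (s17mu_unit_pow hj₁ _) (s17mu_unit_pow hj₂ _)

/-- **`X ~ G` at every `K`-place.** -/
theorem s17pmk_equiv_at (hT : S17pmkTele K φ σ b Ψ c p q) {F : ι → L}
    (hF : S17pmkBpf K b N F) (P : S17plPlace K L) :
    ∃ (α : ι) (β : ι × ι), Ψ ^ N * φ (F α) ^ c ≠ 0 ∧
      F β.1 ^ (c * p) * σ (F β.2) ^ (c * q) ≠ 0 ∧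
      (∀ α', (Ψ ^ N * φ (F α') ^ c) / (Ψ ^ N * φ (F α) ^ c) ∈ P.W) ∧
      (∀ β' : ι × ι, (F β'.1 ^ (c * p) * σ (F β'.2) ^ (c * q)) /
        (F β.1 ^ (c * p) * σ (F β.2) ^ (c * q)) ∈ P.W) ∧
      (F β.1 ^ (c * p) * σ (F β.2) ^ (c * q)) / (Ψ ^ N * φ (F α) ^ c) ∈ P.W ∧
      (Ψ ^ N * φ (F α) ^ c) / (F β.1 ^ (c * p) * σ (F β.2) ^ (c * q)) ∈ P.W :=
  s17pmk_equiv_of_bpf_at (V := P.W) (z := s17mvNorm σ b c p q N P.W)
    (F := fun j => Ψ ^ N * φ (F j) ^ c)
    (G := fun t : ι × ι => F t.1 ^ (c * p) * σ (F t.2) ^ (c * q))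
    (s17pmk_bpf_X hT hF P) (s17pmk_bpf_G σ c p q hF P)

/-- **`X ~ G` at EVERY valuation subring `V ⊇ K`**, from the `K`-places (literal `hW` of
`s17hbpQ_place` / `s17plh_main`). -/
theorem s17pmk_equiv [IsAlgClosed K] [Finite ι] (hT : S17pmkTele K φ σ b Ψ c p q) {F : ι → L}
    (hF : S17pmkBpf K b N F) (V : ValuationSubring L) (hV : ∀ a : K, algebraMap K L a ∈ V) :
    ∃ (α : ι) (β : ι × ι), Ψ ^ N * φ (F α) ^ c ≠ 0 ∧
      F β.1 ^ (c * p) * σ (F β.2) ^ (c * q) ≠ 0 ∧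
      (∀ α', (Ψ ^ N * φ (F α') ^ c) / (Ψ ^ N * φ (F α) ^ c) ∈ V) ∧
      (∀ β' : ι × ι, (F β'.1 ^ (c * p) * σ (F β'.2) ^ (c * q)) /
        (F β.1 ^ (c * p) * σ (F β.2) ^ (c * q)) ∈ V) ∧
      (F β.1 ^ (c * p) * σ (F β.2) ^ (c * q)) / (Ψ ^ N * φ (F α) ^ c) ∈ V ∧
      (Ψ ^ N * φ (F α) ^ c) / (F β.1 ^ (c * p) * σ (F β.2) ^ (c * q)) ∈ V :=
  s17vk_upgrade_equiv (fun j => Ψ ^ N * φ (F j) ^ c)
    (fun t : ι × ι => F t.1 ^ (c * p) * σ (F t.2) ^ (c * q))
    (fun P => s17pmk_equiv_at hT hF P) V hV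

end Val

section Height

variable {L : Type w} [Field L] [Algebra (AlgebraicClosure ℚ) L] {ι : Type x} [Fintype ι]
  {φ σ : L →ₐ[AlgebraicClosure ℚ] L} {b : ValuationSubring L → L} {Ψ : L} {c p q N : ℕ}

/-- **PlM at `K`-places only, place-value form with absolute heights**: the conclusion of
`s17pm_hM` (literal `hM` of `s17plm_plM`) from the telescoped cube and base-point-freeness at the
`ℚ̄`-rational places only. -/
theorem s17pmk_hM (hT : S17pmkTele (AlgebraicClosure ℚ) φ σ b Ψ c p q) (hc : 0 < c)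
    {F : ι → L} (hF : S17pmkBpf (AlgebraicClosure ℚ) b N F) :
    ∃ C : ℝ, ∀ (P : S17plPlace (AlgebraicClosure ℚ) L) (α β : ι) (hα : S17plIsMin P.W F α)
      (hβ : S17plIsMin P.W (fun i => φ (F i)) β),
      (p : ℝ) * s17haAbsQ (s17plVal P F α hα) - C ≤
        s17haAbsQ (s17plVal P (fun i => φ (F i)) β hβ) := by
  classical
  obtain ⟨C, hC⟩ := s17hbpQ_place (fun j => Ψ ^ N * φ (F j) ^ c)
    (fun t : ι × ι => F t.1 ^ (c * p) * σ (F t.2) ^ (c * q))
    (fun W hW => s17pmk_equiv hT hF W hW)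
  have hcR : (0 : ℝ) < c := by exact_mod_cast hc
  refine ⟨C / c, fun P α β hα hβ => ?_⟩
  -- `Ψ ^ N ≠ 0`
  obtain ⟨α₁, -, hX₁, -⟩ := s17pmk_equiv_at hT hF P
  have hΨ : Ψ ^ N ≠ 0 := left_ne_zero_of_mul hX₁
  -- minimal index of `X`
  have hβc : S17plIsMin P.W (fun j => φ (F j) ^ c) β := s17pm_isMin_pow hβ c
  have hXβ : S17plIsMin P.W (fun j => Ψ ^ N * φ (F j) ^ c) β :=
    (s17pl_isMin_scale P.W (fun j => φ (F j) ^ c) β hΨ).2 hβc
  -- minimal index of `σ ∘ F`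
  have hσF : (fun j => σ (F j)) ≠ 0 := by
    intro h0
    have := congrFun h0 α
    exact hα.1 ((map_eq_zero σ).1 this)
  obtain ⟨γ, hγ⟩ := s17pl_exists_min P.W hσF
  have hαp : S17plIsMin P.W (fun j => F j ^ (c * p)) α := s17pm_isMin_pow hα _
  have hγq : S17plIsMin P.W (fun j => σ (F j) ^ (c * q)) γ := s17pm_isMin_pow hγ _
  have hG : S17plIsMin P.W (fun t : ι × ι => F t.1 ^ (c * p) * σ (F t.2) ^ (c * q)) (α, γ) :=
    s17ps_isMin_mul hαp hγq
  have hbound := hC P β hXβ (α, γ) hG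
  -- the value of `X`
  have hvX : s17plVal P (fun j => Ψ ^ N * φ (F j) ^ c) β hXβ =
      s17plVal P (fun i => φ (F i)) β hβ ^ c := by
    rw [s17pl_val_scale P (fun j => φ (F j) ^ c) β hΨ hβc hXβ]
    exact s17pm_val_pow P (fun i => φ (F i)) β hβ c hβc
  -- the value of `G`
  have hvG : s17plVal P (fun t : ι × ι => F t.1 ^ (c * p) * σ (F t.2) ^ (c * q)) (α, γ) hG =
      fun t : ι × ι => (s17plVal P F α hα ^ (c * p)) t.1 *
        (s17plVal P (fun j => σ (F j)) γ hγ ^ (c * q)) t.2 := by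
    have h1 := s17ps_val_mul P (fun j => F j ^ (c * p)) (fun j => σ (F j) ^ (c * q)) α γ hαp hγq
    rw [h1, s17pm_val_pow P F α hα _ hαp, s17pm_val_pow P (fun j => σ (F j)) γ hγ _ hγq]
  rw [hvX, hvG, s17hab_pow] at hbound
  have hx0 : s17plVal P F α hα ^ (c * p) ≠ 0 := by
    intro h0
    have := congrFun h0 α
    rw [Pi.pow_apply, s17pl_val_self, one_pow] at this
    exact one_ne_zero this
  have hy0 : s17plVal P (fun j => σ (F j)) γ hγ ^ (c * q) ≠ 0 := by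
    intro h0
    have := congrFun h0 γ
    rw [Pi.pow_apply, s17pl_val_self, one_pow] at this
    exact one_ne_zero this
  rw [s17hab_fun_mul hx0 hy0, s17hab_pow, s17hab_pow] at hbound
  have hn1 := s17haAbsQ_nonneg (s17plVal P (fun j => σ (F j)) γ hγ)
  have hn2 : (0 : ℝ) ≤ ((c * q : ℕ) : ℝ) * s17haAbsQ (s17plVal P (fun j => σ (F j)) γ hγ) :=
    mul_nonneg (Nat.cast_nonneg _) hn1
  have h3 := (abs_le.1 hbound).1
  -- `c · habs[φF] ≥ c p · habs[F] − C`
  have h4 : ((c * p : ℕ) : ℝ) * s17haAbsQ (s17plVal P F α hα) - C ≤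
      (c : ℝ) * s17haAbsQ (s17plVal P (fun i => φ (F i)) β hβ) := by
    linarith
  have h5 : ((c * p : ℕ) : ℝ) = (c : ℝ) * (p : ℝ) := by push_cast; ring
  rw [h5] at h4
  have h6 : (c : ℝ) * ((p : ℝ) * s17haAbsQ (s17plVal P F α hα) - C / c) ≤
      (c : ℝ) * s17haAbsQ (s17plVal P (fun i => φ (F i)) β hβ) := by
    have : (c : ℝ) * (C / c) = C := by field_simp
    nlinarith
  exact le_of_mul_le_mul_left h6 hcR

end Height

end Fermat.Agent.S17
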