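/-
S17 sprint, brick **AFFINE** (helper86, author of DOM): THE AFFINE FAMILY `T k c = (x ↦ k x + c)^*`
on the model `𝔉 = s27gfSym K F g` of S27-B — in particular the TRANSLATIONS `τ_c = T 1 c`
(automorphisms of `𝔉`) for the constant classes `c ∈ Pic0 K F`.

Abstract part (`pkg : S27DegPkg K F L t g Pl P`, `κ : C →+ P` a group of classes fixed by
`Aut(L / K)`):
* `S17afInv pkg κ`     : `actC h (κ c) = κ c`;
* `S17afFam pkg κ q`   : `q k c` (`k ≠ 0`) is a generic tuple of class `k • η + κ c`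
                         (`η = cl taut`);
* `s17af_pt`           : such a tuple is a point datum (`S27PsiPt`);
* `s17afT`, `s17afT_spec` : `T k c : 𝔉 →ₐ[K] 𝔉`, `algebraMap (T k c s) = s (q k c)`;
* `s17afT_comp`        : `T k c ∘ T m d = T (k m) (m • c + d)`;
* `s17afT_one_zero`    : `T 1 0 = id`;   `s17afT_zero_eq_psi` : `T k 0 = ψ_k` (S27-B's family);
* `s17af_tau_add`, `s17afTau` : `τ_c ∘ τ_d = τ_{c + d}`, `τ_c` is an automorphism of `𝔉`;
* `s17af_psi_tau`, `s17af_tau_psi` : `ψ_m ∘ τ_d = T m d`, `τ_c ∘ ψ_m = T m (m • c)`;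
* `s17af_exists_aut`   : an automorphism `ρ` of `L / K` with `actC ρ η = k • η + κ c`.

Model part (`pkg = s27dclPkg hld hgen hx G₀ hG₀`, `κ = β = s27bcBeta` the constant field extension
of classes `Pic0 K F → Pic0 L FL`):
* `s17af_dom`          : DOM with a constant shift (divisor `D₀` of degree `0` without point places);
* `s17af_inv`          : `β c` is fixed by `Aut(L / K)`;
* `s17af_exists_tuple` : `∀ k ≠ 0, c`, a generic `q` with `cl q = k • η + β c`;
* `s17af_exists_translate` : the case `k = 1`: `cl q = η + β c`;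
* `s17af_exists_fam`   : `∃ q, S17afFam pkg β q`.
-/
import Fermat.Agent.S27.ModelPsi
import Fermat.Agent.S27.RigBC
import Fermat.Agent.S27.DomModel

set_option autoImplicit false
set_option linter.unusedVariables false
set_option linter.unusedSectionVars false
set_option linter.style.haveILetI false

noncomputable section

namespace Fermat.Agent.S17

open AlgebraicCurve TensorProduct IntermediateField Fermat.Agent.S27 Fermat.Agent.S26
  Fermat.Agent.S24

universe u v x y z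

/-! ### The abstract affine family -/

section Abs

variable {K : Type u} {F : Type v} [Field K] [IsAlgClosed K] [Field F] [Algebra K F] {g : ℕ}
variable {L : Type (max u v)} [Field L] [Algebra K L] [Algebra (s27gfOm K F g) L]
  [IsScalarTower K (s27gfOm K F g) L]
variable {t : F} {Pl : Type x} {P : Type y} [AddCommGroup P] (pkg : S27DegPkg K F L t g Pl P)
variable {C : Type z} [AddCommGroup C] (κ : C →+ P)

/-- the classes `κ c` are fixed by `Aut(L / K)`. -/
def S17afInv : Prop := ∀ (h : L ≃ₐ[K] L) (c : C), pkg.actC h (κ c) = κ c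

/-- **the affine family**: `q k c` (`k ≠ 0`) is generic of class `k • η + κ c`. -/
def S17afFam (q : ℤ → C → Fin g → F →ₐ[K] L) : Prop :=
  ∀ k : ℤ, k ≠ 0 → ∀ c : C, S27dgGeneric K t (q k c) ∧
    s27pfCl pkg (q k c) =
      k • s27pfCl pkg (s27pfTaut (K := K) (F := F) (g := g) (L := L)) + κ c

/-- the tautological class is fixed by `Gal(L / 𝔉)`. -/
theorem s17af_taut_fixed (σ : L ≃ₐ[s27gfSym K F g] L) :
    pkg.actC (σ.restrictScalars K)
      (s27pfCl pkg (s27pfTaut (K := K) (F := F) (g := g) (L := L))) =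
      s27pfCl pkg (s27pfTaut (K := K) (F := F) (g := g) (L := L)) :=
  s27pf_cl_of_ext pkg _ s27pf_taut_inj (σ.restrictScalars K) (fun s => by
    rw [s27psiEv_apply, s27pf_psiT_taut, ← IsScalarTower.algebraMap_apply]
    exact σ.commutes s)

/-- **`stable`** for a generic tuple of class `k • η + κ c`. -/
theorem s17af_stable (hκ : S17afInv pkg κ) (k : ℤ) (c : C) (q : Fin g → F →ₐ[K] L)
    (hq : S27dgGeneric K t q)
    (hcl : s27pfCl pkg q =
      k • s27pfCl pkg (s27pfTaut (K := K) (F := F) (g := g) (L := L)) + κ c)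
    (σ : L ≃ₐ[s27gfSym K F g] L) :
    ∃ π : Equiv.Perm (Fin g), ∀ i f, σ (q i f) = q (π i) f := by
  have h2 : s27pfCl pkg (fun i => ((σ.restrictScalars K : L ≃ₐ[K] L) : L →ₐ[K] L).comp (q i)) =
      s27pfCl pkg q := by
    rw [s27pf_cl_comp, hcl, map_add, map_zsmul, s17af_taut_fixed, hκ]
  obtain ⟨π, hπ⟩ := s27pf_ns pkg q _ hq h2
  exact ⟨π, fun i f => congrArg (fun c => c f) (hπ i)⟩

/-- a generic tuple of class `k • η + κ c` is a point datum. -/
theorem s17af_pt (hκ : S17afInv pkg κ)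
    (halg : ∀ f : F, IsAlgebraic (IntermediateField.adjoin K {t}) f)
    (k : ℤ) (c : C) (q : Fin g → F →ₐ[K] L) (hq : S27dgGeneric K t q)
    (hcl : s27pfCl pkg q =
      k • s27pfCl pkg (s27pfTaut (K := K) (F := F) (g := g) (L := L)) + κ c) :
    S27PsiPt q :=
  ⟨s27dgx_liftR_injective' q t halg hq, s17af_stable pkg κ hκ k c q hq hcl⟩

theorem s17af_fam_pt (hκ : S17afInv pkg κ)
    (halg : ∀ f : F, IsAlgebraic (IntermediateField.adjoin K {t}) f)
    {q : ℤ → C → Fin g → F →ₐ[K] L} (hq : S17afFam pkg κ q) (k : ℤ) (hk : k ≠ 0) (c : C) :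
    S27PsiPt (q k c) :=
  s17af_pt pkg κ hκ halg k c (q k c) (hq k hk c).1 (hq k hk c).2

section Galois

variable [IsGalois (s27gfSym K F g) L]

/-- **THE affine family `T k c = (x ↦ k x + c)^*`** (`T 0 c := id`, not used). -/
def s17afT (hκ : S17afInv pkg κ)
    (halg : ∀ f : F, IsAlgebraic (IntermediateField.adjoin K {t}) f)
    {q : ℤ → C → Fin g → F →ₐ[K] L} (hq : S17afFam pkg κ q) (k : ℤ) (c : C) :
    s27gfSym K F g →ₐ[K] s27gfSym K F g :=
  if hk : k = 0 then AlgHom.id K _ else s27psi (q k c) (s17af_fam_pt pkg κ hκ halg hq k hk c)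

theorem s17afT_of_ne (hκ : S17afInv pkg κ)
    (halg : ∀ f : F, IsAlgebraic (IntermediateField.adjoin K {t}) f)
    {q : ℤ → C → Fin g → F →ₐ[K] L} (hq : S17afFam pkg κ q) (k : ℤ) (hk : k ≠ 0) (c : C) :
    s17afT pkg κ hκ halg hq k c = s27psi (q k c) (s17af_fam_pt pkg κ hκ halg hq k hk c) := by
  unfold s17afT
  rw [dif_neg hk]

/-- the spec of the affine family. -/
theorem s17afT_spec (hκ : S17afInv pkg κ)
    (halg : ∀ f : F, IsAlgebraic (IntermediateField.adjoin K {t}) f)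
    {q : ℤ → C → Fin g → F →ₐ[K] L} (hq : S17afFam pkg κ q) (k : ℤ) (hk : k ≠ 0) (c : C)
    (s : s27gfSym K F g) :
    algebraMap (s27gfOm K F g) L
        ((s17afT pkg κ hκ halg hq k c s : s27gfSym K F g) : s27gfOm K F g) =
      s27psiT (q k c) (s17af_fam_pt pkg κ hκ halg hq k hk c).inj (s : s27gfOm K F g) := by
  rw [s17afT_of_ne pkg κ hκ halg hq k hk c]
  exact s27psi_spec_om (q k c) (s17af_fam_pt pkg κ hκ halg hq k hk c) s

/-- **`T 1 0 = id`**. -/
theorem s17afT_one_zero (hκ : S17afInv pkg κ)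
    (halg : ∀ f : F, IsAlgebraic (IntermediateField.adjoin K {t}) f)
    {q : ℤ → C → Fin g → F →ₐ[K] L} (hq : S17afFam pkg κ q) :
    s17afT pkg κ hκ halg hq 1 0 = AlgHom.id K (s27gfSym K F g) := by
  rw [s17afT_of_ne pkg κ hκ halg hq 1 one_ne_zero 0]
  have h1 := (hq 1 one_ne_zero 0).2
  rw [one_smul, map_zero, add_zero] at h1
  obtain ⟨π, hπ⟩ := s27pf_ns pkg (q 1 0) _ (hq 1 one_ne_zero 0).1 h1.symm
  have hp : S27PsiPt (s27pfTaut (K := K) (F := F) (g := g) (L := L)) := s27pf_taut_pt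
  rw [← s27pf_psi_taut hp]
  exact (s27psi_perm (q 1 0) _ (s17af_fam_pt pkg κ hκ halg hq 1 one_ne_zero 0) hp π hπ).symm

/-- **`T k 0 = ψ_k`** for every family `q'` of S27-B. -/
theorem s17afT_zero_eq_psi (hκ : S17afInv pkg κ)
    (halg : ∀ f : F, IsAlgebraic (IntermediateField.adjoin K {t}) f)
    {q : ℤ → C → Fin g → F →ₐ[K] L} (hq : S17afFam pkg κ q)
    {q' : ℤ → Fin g → F →ₐ[K] L} (hq' : S27pfFam pkg q') (k : ℤ) (hk : k ≠ 0) :
    s17afT pkg κ hκ halg hq k 0 = s27pfPsi pkg halg hq' k := by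
  rw [s17afT_of_ne pkg κ hκ halg hq k hk 0, s27pfPsi_of_ne pkg halg hq' k hk]
  have h1 := (hq k hk 0).2
  rw [map_zero, add_zero, ← (hq' k hk).2] at h1
  obtain ⟨π, hπ⟩ := s27pf_ns pkg (q' k) _ (hq' k hk).1 h1
  exact s27psi_perm (q' k) (q k 0) (s27pf_fam_pt pkg halg hq' k hk)
    (s17af_fam_pt pkg κ hκ halg hq k hk 0) π hπ

/-- **`T k c ∘ T m d = T (k m) (m • c + d)`**. -/
theorem s17afT_comp (hκ : S17afInv pkg κ)
    (halg : ∀ f : F, IsAlgebraic (IntermediateField.adjoin K {t}) f)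
    (hX1 : ∀ σ : s27gfSym K F g →ₐ[K] L, ∃ ê : L ≃ₐ[K] L,
      ∀ s : s27gfSym K F g, ê (algebraMap (s27gfOm K F g) L (s : s27gfOm K F g)) = σ s)
    {q : ℤ → C → Fin g → F →ₐ[K] L} (hq : S17afFam pkg κ q) (k m : ℤ) (hk : k ≠ 0)
    (hm : m ≠ 0) (c d : C) :
    (s17afT pkg κ hκ halg hq k c).comp (s17afT pkg κ hκ halg hq m d) =
      s17afT pkg κ hκ halg hq (k * m) (m • c + d) := by
  have hkm : k * m ≠ 0 := mul_ne_zero hk hm
  rw [s17afT_of_ne pkg κ hκ halg hq k hk c, s17afT_of_ne pkg κ hκ halg hq m hm d,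
    s17afT_of_ne pkg κ hκ halg hq (k * m) hkm (m • c + d)]
  obtain ⟨ê, hê⟩ := hX1 (s27psiEv (q k c) (s17af_fam_pt pkg κ hκ halg hq k hk c).inj)
  have hh : ∀ s : s27gfSym K F g, ê (algebraMap (s27gfSym K F g) L s) =
      s27psiEv (q k c) (s17af_fam_pt pkg κ hκ halg hq k hk c).inj s := fun s => by
    rw [← hê s]
    rfl
  refine s27pf_comp_of_ext (q k c) (q m d) (q (k * m) (m • c + d)) _ _ _ ê hh ?_
  have h1 : s27pfCl pkg (fun i => (ê : L →ₐ[K] L).comp (q m d i)) =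
      s27pfCl pkg (q (k * m) (m • c + d)) := by
    rw [s27pf_cl_comp, (hq m hm d).2, map_add, map_zsmul, hκ,
      s27pf_cl_of_ext pkg (q k c) (s17af_fam_pt pkg κ hκ halg hq k hk c).inj ê hh,
      (hq k hk c).2, (hq (k * m) hkm (m • c + d)).2, map_add, map_zsmul, smul_add, smul_smul,
      mul_comm m k, add_assoc]
  exact s27pf_ns pkg (q (k * m) (m • c + d)) _ (hq (k * m) hkm (m • c + d)).1 h1

/-- **translations add**: `τ_c ∘ τ_d = τ_{c + d}`. -/
theorem s17af_tau_add (hκ : S17afInv pkg κ)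
    (halg : ∀ f : F, IsAlgebraic (IntermediateField.adjoin K {t}) f)
    (hX1 : ∀ σ : s27gfSym K F g →ₐ[K] L, ∃ ê : L ≃ₐ[K] L,
      ∀ s : s27gfSym K F g, ê (algebraMap (s27gfOm K F g) L (s : s27gfOm K F g)) = σ s)
    {q : ℤ → C → Fin g → F →ₐ[K] L} (hq : S17afFam pkg κ q) (c d : C) :
    (s17afT pkg κ hκ halg hq 1 c).comp (s17afT pkg κ hκ halg hq 1 d) =
      s17afT pkg κ hκ halg hq 1 (c + d) := by
  have h := s17afT_comp pkg κ hκ halg hX1 hq 1 1 one_ne_zero one_ne_zero c d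
  rw [one_smul, mul_one] at h
  exact h

/-- **`ψ_m ∘ τ_d = T m d`**. -/
theorem s17af_psi_tau (hκ : S17afInv pkg κ)
    (halg : ∀ f : F, IsAlgebraic (IntermediateField.adjoin K {t}) f)
    (hX1 : ∀ σ : s27gfSym K F g →ₐ[K] L, ∃ ê : L ≃ₐ[K] L,
      ∀ s : s27gfSym K F g, ê (algebraMap (s27gfOm K F g) L (s : s27gfOm K F g)) = σ s)
    {q : ℤ → C → Fin g → F →ₐ[K] L} (hq : S17afFam pkg κ q) (m : ℤ) (hm : m ≠ 0) (d : C) :
    (s17afT pkg κ hκ halg hq m 0).comp (s17afT pkg κ hκ halg hq 1 d) =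
      s17afT pkg κ hκ halg hq m d := by
  have h := s17afT_comp pkg κ hκ halg hX1 hq m 1 hm one_ne_zero 0 d
  rw [one_smul, mul_one, zero_add] at h
  exact h

/-- **`τ_c ∘ ψ_m = T m (m • c)`**. -/
theorem s17af_tau_psi (hκ : S17afInv pkg κ)
    (halg : ∀ f : F, IsAlgebraic (IntermediateField.adjoin K {t}) f)
    (hX1 : ∀ σ : s27gfSym K F g →ₐ[K] L, ∃ ê : L ≃ₐ[K] L,
      ∀ s : s27gfSym K F g, ê (algebraMap (s27gfOm K F g) L (s : s27gfOm K F g)) = σ s)
    {q : ℤ → C → Fin g → F →ₐ[K] L} (hq : S17afFam pkg κ q) (m : ℤ) (hm : m ≠ 0) (c : C) :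
    (s17afT pkg κ hκ halg hq 1 c).comp (s17afT pkg κ hκ halg hq m 0) =
      s17afT pkg κ hκ halg hq m (m • c) := by
  have h := s17afT_comp pkg κ hκ halg hX1 hq 1 m one_ne_zero hm c 0
  rw [one_mul, add_zero] at h
  exact h

/-- **the translation `τ_c`** as an automorphism of `𝔉`. -/
def s17afTau (hκ : S17afInv pkg κ)
    (halg : ∀ f : F, IsAlgebraic (IntermediateField.adjoin K {t}) f)
    (hX1 : ∀ σ : s27gfSym K F g →ₐ[K] L, ∃ ê : L ≃ₐ[K] L,
      ∀ s : s27gfSym K F g, ê (algebraMap (s27gfOm K F g) L (s : s27gfOm K F g)) = σ s)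
    {q : ℤ → C → Fin g → F →ₐ[K] L} (hq : S17afFam pkg κ q) (c : C) :
    s27gfSym K F g ≃ₐ[K] s27gfSym K F g :=
  AlgEquiv.ofAlgHom (s17afT pkg κ hκ halg hq 1 c) (s17afT pkg κ hκ halg hq 1 (-c))
    (by rw [s17af_tau_add pkg κ hκ halg hX1 hq, add_neg_cancel, s17afT_one_zero])
    (by rw [s17af_tau_add pkg κ hκ halg hX1 hq, neg_add_cancel, s17afT_one_zero])

@[simp] theorem s17afTau_apply (hκ : S17afInv pkg κ)
    (halg : ∀ f : F, IsAlgebraic (IntermediateField.adjoin K {t}) f)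
    (hX1 : ∀ σ : s27gfSym K F g →ₐ[K] L, ∃ ê : L ≃ₐ[K] L,
      ∀ s : s27gfSym K F g, ê (algebraMap (s27gfOm K F g) L (s : s27gfOm K F g)) = σ s)
    {q : ℤ → C → Fin g → F →ₐ[K] L} (hq : S17afFam pkg κ q) (c : C) (s : s27gfSym K F g) :
    s17afTau pkg κ hκ halg hX1 hq c s = s17afT pkg κ hκ halg hq 1 c s := rfl

end Galois

/-- **an automorphism `ρ` of `L / K` with `actC ρ η = k • η + κ c`** (it maps the tautological
points to a permutation of `q k c`). -/
theorem s17af_exists_aut (hκ : S17afInv pkg κ)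
    (halg : ∀ f : F, IsAlgebraic (IntermediateField.adjoin K {t}) f)
    (hX1 : ∀ σ : s27gfSym K F g →ₐ[K] L, ∃ ê : L ≃ₐ[K] L,
      ∀ s : s27gfSym K F g, ê (algebraMap (s27gfOm K F g) L (s : s27gfOm K F g)) = σ s)
    {q : ℤ → C → Fin g → F →ₐ[K] L} (hq : S17afFam pkg κ q) (k : ℤ) (hk : k ≠ 0) (c : C) :
    ∃ ρ : L ≃ₐ[K] L,
      pkg.actC ρ (s27pfCl pkg (s27pfTaut (K := K) (F := F) (g := g) (L := L))) =
        k • s27pfCl pkg (s27pfTaut (K := K) (F := F) (g := g) (L := L)) + κ c ∧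
      ∃ π : Equiv.Perm (Fin g), ∀ i, (ρ : L →ₐ[K] L).comp (s27pfTaut i) = q k c (π i) := by
  have hpt := s17af_fam_pt pkg κ hκ halg hq k hk c
  obtain ⟨ê, hê⟩ := hX1 (s27psiEv (q k c) hpt.inj)
  have hh : ∀ s : s27gfSym K F g, ê (algebraMap (s27gfSym K F g) L s) =
      s27psiEv (q k c) hpt.inj s := fun s => by
    rw [← hê s]
    rfl
  refine ⟨ê, ?_, s27pf_perm_of_ext (q k c) hpt.inj ê hh⟩
  rw [s27pf_cl_of_ext pkg (q k c) hpt.inj ê hh, (hq k hk c).2]

end Abs

/-! ### DOM with a constant shift -/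

section Dom

variable {K 𝔠 𝔎 Ω : Type*} [Field K] [Field 𝔠] [Field 𝔎] [Field Ω]
  [Algebra K 𝔠] [Algebra K 𝔎] [Algebra K Ω] [Algebra 𝔠 Ω] [Algebra 𝔎 Ω]
  [IsScalarTower K 𝔠 Ω] [IsScalarTower K 𝔎 Ω]
variable (hld : Function.Injective (s26gspMu K 𝔠 𝔎 Ω)) (hgen : S26gspGen K 𝔠 𝔎 Ω)
  {x : 𝔠} (hx : Transcendental K x)
  [FiniteDimensional ↥(IntermediateField.adjoin K {x}) 𝔠]
  [Algebra.IsSeparable ↥(IntermediateField.adjoin K {x}) 𝔠]

/-- **DOM for classes with a constant shift**: a tuple of places of class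
`k • cl_O (pt ∘ e) + [D₀]` (`k ≠ 0`, `e` generic and non-special, `O` and `D₀` without point
places) consists of the point places of a generic tuple. -/
theorem s17af_dom [IsAlgClosed K] [CharZero K] [IsAlgClosed 𝔎] {g : ℕ}
    (hdeg : ∀ w : Place 𝔎 Ω, w.deg = 1) (O : Divisor 𝔎 Ω) (hO : Divisor.degree O = g)
    (hOpt : ∀ q : 𝔠 →ₐ[K] 𝔎, O (s27gpPlace hld hgen q hx) = 0)
    (D₀ : Divisor.degZero (K := 𝔎) (F := Ω))
    (hD₀ : ∀ q : 𝔠 →ₐ[K] 𝔎, (D₀ : Divisor 𝔎 Ω) (s27gpPlace hld hgen q hx) = 0)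
    (e : Fin g → 𝔠 →ₐ[K] 𝔎) (he : AlgebraicIndependent K (fun i => e i x))
    (hS : ∀ f ∈ riemannRochSpace (s27pkgSum fun i => s27gpPlace hld hgen (e i) hx),
      ∃ c : 𝔎, f = algebraMap 𝔎 Ω c)
    (k : ℤ) (hk : k ≠ 0) (R' : Fin g → Place 𝔎 Ω)
    (hR' : s27pkgClO hdeg O hO R' =
      k • s27pkgClO hdeg O hO (fun i => s27gpPlace hld hgen (e i) hx) + Pic0.mk D₀) :
    ∃ q : Fin g → 𝔠 →ₐ[K] 𝔎, AlgebraicIndependent K (fun j => q j x) ∧
      ∀ j, R' j = s27gpPlace hld hgen (q j) hx := by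
  classical
  have heinj : Function.Injective e := by
    intro i j hij
    exact he.injective (show e i x = e j x by rw [hij])
  have hPinj : Function.Injective (fun i => s27gpPlace hld hgen (e i) hx) := fun i j hij =>
    heinj (s27pt_gpPlace_injective hld hgen hx hij)
  have hmk : k • s27pkgClO hdeg O hO (fun i => s27gpPlace hld hgen (e i) hx) + Pic0.mk D₀ =
      Pic0.mk (k • s27pkgDivZeroO hdeg O hO (fun i => s27gpPlace hld hgen (e i) hx) + D₀) := rfl
  rw [hmk] at hR'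
  unfold s27pkgClO at hR'
  obtain ⟨f, hf, hfv⟩ := (s27pkg_mk_eq_iff _ _).1 hR'
  have hfv' : ∀ v : Place 𝔎 Ω, v.ord f =
      (∑ j, Finsupp.single (R' j) (1 : ℤ)) v - O v
        - k * ((∑ i, Finsupp.single (s27gpPlace hld hgen (e i) hx) (1 : ℤ)) v - O v)
        - (D₀ : Divisor 𝔎 Ω) v := by
    intro v
    have h1 := hfv v
    have h2 : ((s27pkgDivZeroO hdeg O hO R' : Divisor.degZero (K := 𝔎) (F := Ω)) :
        Divisor 𝔎 Ω) v = (∑ j, Finsupp.single (R' j) (1 : ℤ)) v - O v := by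
      rw [s27pkgDivZeroO_coe, Finsupp.sub_apply]; rfl
    have h3 : ((k • s27pkgDivZeroO hdeg O hO (fun i => s27gpPlace hld hgen (e i) hx) + D₀ :
        Divisor.degZero (K := 𝔎) (F := Ω)) : Divisor 𝔎 Ω) v
        = k * ((∑ i, Finsupp.single (s27gpPlace hld hgen (e i) hx) (1 : ℤ)) v - O v)
          + (D₀ : Divisor 𝔎 Ω) v := by
      show (k • (s27pkgSum (fun i => s27gpPlace hld hgen (e i) hx) - O) + (D₀ : Divisor 𝔎 Ω)) v
        = _
      rw [Finsupp.add_apply, Finsupp.smul_apply, Finsupp.sub_apply, smul_eq_mul]; rfl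
    rw [h2, h3] at h1
    omega
  have hprin : Divisor.IsPrincipal
      (k • ∑ i, Finsupp.single (s27gpPlace hld hgen (e i) hx) (1 : ℤ)
        - ∑ j, Finsupp.single (R' j) (1 : ℤ) + (O - k • O + (D₀ : Divisor 𝔎 Ω))) := by
    refine ⟨f⁻¹, inv_ne_zero hf, fun v => ?_⟩
    rw [Place.ord_inv, hfv' v]
    simp only [Finsupp.coe_add, Finsupp.coe_sub, Finsupp.coe_smul, Pi.add_apply, Pi.sub_apply,
      Pi.smul_apply, smul_eq_mul]
    ring
  refine s27dom_appZ hld hgen (fun P => s26gspf_hall hx P) hx e he ?_ k hk R'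
    (O - k • O + (D₀ : Divisor 𝔎 Ω)) ?_ hprin
  · exact s27dom_hns_of_rr (fun i => s27gpPlace hld hgen (e i) hx) hPinj
      (fun i => algebraMap 𝔠 Ω x - algebraMap 𝔎 Ω (e i x))
      (fun i => s27gpPlace_ord_unif hld hgen (e i) hx) hS
  · intro q
    rw [Finsupp.add_apply, Finsupp.sub_apply, Finsupp.smul_apply, hOpt q, hD₀ q]
    simp

end Dom

/-! ### The affine family on the model -/

section Model

variable {K : Type u} {F : Type v} [Field K] [IsAlgClosed K] [CharZero K] [Field F] [Algebra K F]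
  [IsCurveOver K F] [Algebra.EssFiniteType K F]
  {L : Type (max u v)} [Field L] [Algebra K L]
  [Algebra (s27gfOm K F (genusFF K F)) L] [IsScalarTower K (s27gfOm K F (genusFF K F)) L]
  [IsAlgClosed L] [Algebra.IsAlgebraic (s27gfOm K F (genusFF K F)) L]
  {FL : Type y} [Field FL] [Algebra K FL] [Algebra F FL] [Algebra L FL]
  [IsScalarTower K F FL] [IsScalarTower K L FL]
  (hld : Function.Injective (s26gspMu K F L FL)) (hgen : S26gspGen K F L FL)
  {x : F} (hx : Transcendental K x)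
  [FiniteDimensional ↥(IntermediateField.adjoin K {x}) F]
  [Algebra.IsSeparable ↥(IntermediateField.adjoin K {x}) F]
  (G₀ : Divisor K F) (hG₀ : Divisor.degree G₀ = (genusFF K F : ℤ))

/-- the constant classes are fixed by `Aut(L / K)`. -/
theorem s17af_inv :
    S17afInv (s27dclPkg hld hgen hx G₀ hG₀) (s27bcBeta hld hgen (s26gspf_hall hx)) := by
  intro h c
  obtain ⟨D, rfl⟩ := Pic0.mk_surjective c
  show s27pkgActC (s27dwAct hld hgen) (s27pkg_hdeg hld hgen hx) h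
    (s27bcBeta hld hgen (s26gspf_hall hx) (Pic0.mk D)) = _
  rw [s27bcBeta_mk, s27pkgActC_mk]
  congr 1
  apply Subtype.ext
  rw [s27pkgActZero_coe, s27bcConZero_coe]
  exact s27pkg_raDiv_con (s27dwAct hld hgen) hld hgen (s26gspf_hall hx) h (D : Divisor K F)

/-- **a generic tuple of class `k • η + β c`** (`k ≠ 0`, `c` a constant class). -/
theorem s17af_exists_tuple (k : ℤ) (hk : k ≠ 0) (c : Pic0 K F) :
    ∃ q : Fin (genusFF K F) → F →ₐ[K] L, S27dgGeneric K x q ∧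
      s27pfCl (s27dclPkg hld hgen hx G₀ hG₀) q =
        k • s27pfCl (s27dclPkg hld hgen hx G₀ hG₀)
            (s27pfTaut (K := K) (F := F) (g := genusFF K F) (L := L)) +
          s27bcBeta hld hgen (s26gspf_hall hx) c := by
  obtain ⟨D, rfl⟩ := Pic0.mk_surjective c
  obtain ⟨R', hR'⟩ := (s27dclPkg hld hgen hx G₀ hG₀).rr
    (k • s27pfCl (s27dclPkg hld hgen hx G₀ hG₀)
        (s27pfTaut (K := K) (F := F) (g := genusFF K F) (L := L)) +
      s27bcBeta hld hgen (s26gspf_hall hx) (Pic0.mk D))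
  obtain ⟨q, hq, hqR⟩ := s17af_dom hld hgen hx (s27pkg_hdeg hld hgen hx)
    (Finsupp.mapDomain (s26gspCon hld hgen (s26gspf_hall hx)) G₀)
    (s27pkgO_degree hld hgen hx G₀ hG₀)
    (fun p => s26gspc_mapDomain_apply_of_trivial hld hgen (s26gspf_hall hx) G₀ _
      (s27pt_gpPlace_trivial hld hgen hx p))
    (s27bcConZero hld hgen (s26gspf_hall hx) D)
    (fun p => by
      rw [s27bcConZero_coe]
      exact s26gspc_mapDomain_apply_of_trivial hld hgen (s26gspf_hall hx) (D : Divisor K F) _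
        (s27pt_gpPlace_trivial hld hgen hx p))
    (s27pfTaut (K := K) (F := F) (g := genusFF K F) (L := L)) (s27dom_taut_generic hx)
    (s27dcl_hns hld hgen hx _ (s27dom_taut_generic hx)) k hk R' hR'
  refine ⟨q, hq, ?_⟩
  rw [← hR']
  show (s27dclPkg hld hgen hx G₀ hG₀).cl (fun i => s27gpPlace hld hgen (q i) hx) = _
  congr 1
  funext j
  exact (hqR j).symm

/-- **the generic translate**: a generic tuple of class `η + β c` (`k = 1`). -/
theorem s17af_exists_translate (c : Pic0 K F) :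
    ∃ q : Fin (genusFF K F) → F →ₐ[K] L, S27dgGeneric K x q ∧
      s27pfCl (s27dclPkg hld hgen hx G₀ hG₀) q =
        s27pfCl (s27dclPkg hld hgen hx G₀ hG₀)
            (s27pfTaut (K := K) (F := F) (g := genusFF K F) (L := L)) +
          s27bcBeta hld hgen (s26gspf_hall hx) c := by
  obtain ⟨q, hq, hcl⟩ := s17af_exists_tuple hld hgen hx G₀ hG₀ 1 one_ne_zero c
  rw [one_smul] at hcl
  exact ⟨q, hq, hcl⟩

/-- **the affine family exists on the model.** -/
theorem s17af_exists_fam :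
    ∃ q : ℤ → Pic0 K F → Fin (genusFF K F) → F →ₐ[K] L,
      S17afFam (s27dclPkg hld hgen hx G₀ hG₀) (s27bcBeta hld hgen (s26gspf_hall hx)) q := by
  classical
  have h : ∀ (k : ℤ) (c : Pic0 K F), ∃ q : Fin (genusFF K F) → F →ₐ[K] L,
      k ≠ 0 → (S27dgGeneric K x q ∧
        s27pfCl (s27dclPkg hld hgen hx G₀ hG₀) q =
          k • s27pfCl (s27dclPkg hld hgen hx G₀ hG₀)
              (s27pfTaut (K := K) (F := F) (g := genusFF K F) (L := L)) +
            s27bcBeta hld hgen (s26gspf_hall hx) c) := by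
    intro k c
    by_cases hk : k = 0
    · exact ⟨s27pfTaut (K := K) (F := F) (g := genusFF K F) (L := L), fun h => absurd hk h⟩
    · obtain ⟨q, hq⟩ := s17af_exists_tuple hld hgen hx G₀ hG₀ k hk c
      exact ⟨q, fun _ => hq⟩
  choose q hq using h
  exact ⟨q, fun k hk c => hq k c hk⟩

end Model

end Fermat.Agent.S17

end
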