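/-
S17 sprint, leaf W6b / H3-core (helper50): **the SPECIALISATION HOMOMORPHISM of classes**.

Part A (abstract, `RedData` of `DEU/Defs.lean` + the key identity `s26eredev_RDiv`):
* `s17ds_degree_mapDomain` : `deg (r_* D) = deg D` when `r` preserves the degrees of the places;
* `s17ds_principal`        : `r_*` maps principal divisors to principal divisors
                             (`R.exists_scale` + `r_*(div u) = div(ū)`);
* `s17dsZero`, `s17dsSp`   : `r_*` on `Divisor.degZero`, and **`sp : Pic0 K F →+ Pic0 k Fb`**;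
* `s17dsSp_mk`, `s17dsSp_clO` : `sp [Σ R i − O] = [Σ r (R i) − r_* O]`.

Part B (the Gauss frame of `S27/RedPt.lean` with residue field `k = K`, `Fb = Γ`):
* `s17ds_hldK`, `s17ds_hgenK` : the frame `(K, Γ, K, Γ)`;  `s17ds_conK : Con_K Q = Q`;
* **`s17ds_exists`** : for a valuation subring `V ⊇ K` of `L` with a residue map `res : V → K`
  which is the identity on `K`: `∃ sp : Pic0 L F →+ Pic0 K Γ` with
    (1) `sp (β x) = x`                         (`β = s27bcBeta`, the constant classes),
    (2) `sp [Σ w i − Con B] = [Σ Q i − B]`     whenever `w i` is the point place of `e i` and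
                                                `Q i` is the CENTRE of `V` on `e i`
                                                (`S27ptIsPt`, `S27ptIsCentre`).
-/
import Fermat.Agent.S27.RedPt
import Fermat.Agent.S27.RigBC
import Fermat.Agent.S27.DegPkgO

set_option autoImplicit false
set_option linter.unusedVariables false
set_option linter.unusedSectionVars false
set_option linter.style.haveILetI false
set_option linter.style.longLine false

noncomputable section

namespace Fermat.Agent.S17

open AlgebraicCurve Module TensorProduct IntermediateField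
open Fermat.Agent.S24 Fermat.Agent.S26 Fermat.Agent.S27 Fermat.Agent.DEU

/-! ### Part A: the abstract specialisation homomorphism -/

section Abs

variable {K F k Fb : Type*} [Field K] [Field F] [Algebra K F] [Field k] [Field Fb]
  [Algebra k Fb]

/-- `deg (r_* D) = deg D`. -/
theorem s17ds_degree_mapDomain (r : Place K F → Place k Fb) (hdeg : ∀ P, (r P).deg = P.deg)
    (D : Divisor K F) : Divisor.degree (Finsupp.mapDomain r D) = Divisor.degree D := by
  induction D using Finsupp.induction_linear with
  | zero => simp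
  | add D E hD hE => rw [Finsupp.mapDomain_add, map_add, map_add, hD, hE]
  | single P n =>
    rw [Finsupp.mapDomain_single, Divisor.degree_single, Divisor.degree_single, hdeg]

/-- `r_*` maps principal divisors to principal divisors. -/
theorem s17ds_principal (R : RedData K F k Fb) (r : Place K F → Place k Fb)
    (hdiv : s26eredev_RDiv R r) (D : Divisor K F)
    (hD : D ∈ Divisor.principal (K := K) (F := F)) :
    Finsupp.mapDomain r D ∈ Divisor.principal (K := k) (F := Fb) := by
  obtain ⟨f, hf, hDf⟩ := hD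
  obtain ⟨c, hc, h, hred⟩ := R.exists_scale f hf
  refine ⟨R.red ⟨_, h⟩, hred, fun Q => ?_⟩
  refine hdiv ⟨_, h⟩ hred D (fun P => ?_) Q
  rw [hDf P]
  show P.ord f = P.ord (algebraMap K F c * f)
  have hc' : algebraMap K F c ≠ 0 := by simpa using hc
  rw [P.ord_mul hc' hf, PlaceAux.ord_algebraMap, zero_add]

/-- `r_*` on the divisors of degree `0`. -/
def s17dsZero (r : Place K F → Place k Fb) (hdeg : ∀ P, (r P).deg = P.deg) :
    Divisor.degZero (K := K) (F := F) →+ Divisor.degZero (K := k) (F := Fb) :=
  ((Finsupp.mapDomain.addMonoidHom r).comp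
      (Divisor.degZero (K := K) (F := F)).subtype).codRestrict _
    (fun D => by
      rw [Divisor.mem_degZero]
      show Divisor.degree (Finsupp.mapDomain r (D : Divisor K F)) = 0
      rw [s17ds_degree_mapDomain r hdeg]
      exact D.2)

@[simp] theorem s17dsZero_coe (r : Place K F → Place k Fb) (hdeg : ∀ P, (r P).deg = P.deg)
    (D : Divisor.degZero (K := K) (F := F)) :
    (s17dsZero r hdeg D : Divisor k Fb) = Finsupp.mapDomain r (D : Divisor K F) := rfl

/-- **the specialisation homomorphism** `sp : Pic0 K F →+ Pic0 k Fb`, `sp [D] = [r_* D]`. -/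
def s17dsSp (R : RedData K F k Fb) (r : Place K F → Place k Fb)
    (hdeg : ∀ P, (r P).deg = P.deg) (hdiv : s26eredev_RDiv R r) : Pic0 K F →+ Pic0 k Fb :=
  QuotientAddGroup.map _ _ (s17dsZero r hdeg) (by
    intro D hD
    rw [AddSubgroup.mem_comap, AddSubgroup.mem_addSubgroupOf]
    rw [AddSubgroup.mem_addSubgroupOf] at hD
    exact s17ds_principal R r hdiv _ hD)

theorem s17dsSp_mk (R : RedData K F k Fb) (r : Place K F → Place k Fb)
    (hdeg : ∀ P, (r P).deg = P.deg) (hdiv : s26eredev_RDiv R r)
    (D : Divisor.degZero (K := K) (F := F)) :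
    s17dsSp R r hdeg hdiv (Pic0.mk D) = Pic0.mk (s17dsZero r hdeg D) := rfl

theorem s17ds_mapDomain_sum (r : Place K F → Place k Fb) {g : ℕ} (w : Fin g → Place K F) :
    Finsupp.mapDomain r (s27pkgSum w) = s27pkgSum fun i => r (w i) := by
  unfold s27pkgSum
  rw [← Finsupp.mapDomain.addMonoidHom_apply, map_sum]
  simp only [Finsupp.mapDomain.addMonoidHom_apply, Finsupp.mapDomain_single]

/-- **`sp [Σ w i − O] = [Σ r (w i) − O']`** when `r_* O = O'`. -/
theorem s17dsSp_clO (R : RedData K F k Fb) (r : Place K F → Place k Fb)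
    (hdeg : ∀ P, (r P).deg = P.deg) (hdiv : s26eredev_RDiv R r)
    (hdK : ∀ w : Place K F, w.deg = 1) (hdk : ∀ w : Place k Fb, w.deg = 1) {g : ℕ}
    (O : Divisor K F) (hO : Divisor.degree O = g) (O' : Divisor k Fb)
    (hO' : Divisor.degree O' = g) (hOO' : Finsupp.mapDomain r O = O')
    (w : Fin g → Place K F) :
    s17dsSp R r hdeg hdiv (s27pkgClO hdK O hO w) = s27pkgClO hdk O' hO' fun i => r (w i) := by
  unfold s27pkgClO
  rw [s17dsSp_mk]
  congr 1
  apply Subtype.ext
  show Finsupp.mapDomain r (s27pkgSum w - O) = s27pkgSum (fun i => r (w i)) - O'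
  rw [← hOO', ← s17ds_mapDomain_sum]
  exact Finsupp.mapDomain_sub

end Abs

/-! ### Part B: the Gauss frame with residue field `K` -/

section Gauss

variable {K Γ L F : Type*} [Field K] [Field Γ] [Field L] [Field F]
  [Algebra K Γ] [Algebra K L] [Algebra K F] [Algebra Γ F] [Algebra L F]
  [IsScalarTower K Γ F] [IsScalarTower K L F]

/-- the frame `(K, Γ, K, Γ)`: `μ : Γ ⊗[K] K → Γ` is injective. -/
theorem s17ds_hldK : Function.Injective (s26gspMu K Γ K Γ) := by
  have h : ∀ z : Γ ⊗[K] K, s26gspMu K Γ K Γ z = Algebra.TensorProduct.rid K K Γ z := by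
    intro z
    induction z using TensorProduct.induction_on with
    | zero => simp
    | tmul f c =>
      rw [s26gspMu_tmul, Algebra.TensorProduct.rid_tmul, Algebra.smul_def, mul_comm]
      rfl
    | add a b ha hb => rw [map_add, map_add, ha, hb]
  intro a b hab
  rw [h, h] at hab
  exact (Algebra.TensorProduct.rid K K Γ).injective hab

/-- the frame `(K, Γ, K, Γ)`: `Γ` is generated by `μ`. -/
theorem s17ds_hgenK : S26gspGen K Γ K Γ := by
  intro x
  refine ⟨x ⊗ₜ[K] (1 : K), (1 : Γ) ⊗ₜ[K] (1 : K), ?_, ?_⟩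
  · rw [s26gspMu_tmul]
    simp
  · rw [s26gspMu_tmul, s26gspMu_tmul]
    simp

/-- in the frame `(K, Γ, K, Γ)` the constant place of `Q` is `Q`. -/
theorem s17ds_conK (hall : ∀ P : Place K Γ, Function.Surjective (algebraMap K P.ResidueField))
    (Q : Place K Γ) :
    s26gspCon (s17ds_hldK (K := K) (Γ := Γ)) s17ds_hgenK hall Q = Q := by
  apply Place.ext
  ext f
  have h := s26gspPlace_mem_algebraMap Q (hall Q) (s17ds_hldK (K := K) (Γ := Γ)) s17ds_hgenK f
  exact h

theorem s17ds_mapDomain_conK
    (hall : ∀ P : Place K Γ, Function.Surjective (algebraMap K P.ResidueField))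
    (B : Divisor K Γ) :
    Finsupp.mapDomain (s26gspCon (s17ds_hldK (K := K) (Γ := Γ)) s17ds_hgenK hall) B = B := by
  have : s26gspCon (s17ds_hldK (K := K) (Γ := Γ)) s17ds_hgenK hall = id :=
    funext fun Q => s17ds_conK hall Q
  rw [this, Finsupp.mapDomain_id]

/-- all places of `Γ / K` have degree one. -/
theorem s17ds_hdegK
    (hall : ∀ P : Place K Γ, Function.Surjective (algebraMap K P.ResidueField))
    (Q : Place K Γ) : Q.deg = 1 :=
  s26gspc_deg_eq_one Q (hall Q)

/-- **W6b / H3-core: the specialisation homomorphism along a `K`-rational place of `L`.** -/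
theorem s17ds_exists [IsAlgClosed K] [IsAlgClosed L]
    (hld : Function.Injective (s26gspMu K Γ L F)) (hgen : S26gspGen K Γ L F)
    {x : Γ} (hx : Transcendental K x) [FiniteDimensional K⟮x⟯ Γ]
    (hall : ∀ P : Place K Γ, Function.Surjective (algebraMap K P.ResidueField))
    (hdL : ∀ w : Place L F, w.deg = 1)
    (V : ValuationSubring L) (hKV : ∀ c : K, algebraMap K L c ∈ V) (res : ↥V →+* K)
    (hresK : ∀ c : K, res ⟨algebraMap K L c, hKV c⟩ = c) :
    ∃ sp : Pic0 L F →+ Pic0 K Γ,
      (∀ c : Pic0 K Γ, sp (s27bcBeta hld hgen hall c) = c) ∧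
      (∀ (g : ℕ) (B : Divisor K Γ) (hB : Divisor.degree B = g)
        (hB' : Divisor.degree (Finsupp.mapDomain (s26gspCon hld hgen hall) B) = g)
        (e : Fin g → Γ →ₐ[K] L) (w : Fin g → Place L F) (Q : Fin g → Place K Γ),
        (∀ i, S27ptIsPt (w i) (e i)) → (∀ i, S27ptIsCentre V (e i) (Q i)) →
        sp (s27pkgClO hdL (Finsupp.mapDomain (s26gspCon hld hgen hall) B) hB' w) =
          s27pkgClO (s17ds_hdegK hall) B hB Q) := by
  have hres : Function.Surjective res := fun c => ⟨⟨algebraMap K L c, hKV c⟩, hresK c⟩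
  obtain ⟨r, -, hdiv, -, hdeg, hcon, hpt, -, -⟩ :=
    s27rpt_main (k := K) (Fb := Γ) hld hgen (s17ds_hldK (K := K) (Γ := Γ)) s17ds_hgenK hx hall
      V hKV res hresK hres
  have hcon' : ∀ Q : Place K Γ, r (s26gspCon hld hgen hall Q) = Q := fun Q => by
    rw [hcon Q, s17ds_conK]
  have hmd : ∀ B : Divisor K Γ,
      Finsupp.mapDomain r (Finsupp.mapDomain (s26gspCon hld hgen hall) B) = B := by
    intro B
    rw [← Finsupp.mapDomain_comp]
    have : r ∘ s26gspCon hld hgen hall = id := funext fun Q => hcon' Q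
    rw [this, Finsupp.mapDomain_id]
  refine ⟨s17dsSp _ r hdeg hdiv, ?_, ?_⟩
  · intro c
    obtain ⟨D, rfl⟩ := Pic0.mk_surjective c
    rw [s27bcBeta_mk, s17dsSp_mk]
    congr 1
    apply Subtype.ext
    show Finsupp.mapDomain r (Finsupp.mapDomain (s26gspCon hld hgen hall) (D : Divisor K Γ)) = D
    exact hmd _
  · intro g B hB hB' e w Q hw hQ
    rw [s17dsSp_clO _ r hdeg hdiv hdL (s17ds_hdegK hall) _ hB' B hB (hmd B) w]
    congr 1
    funext i
    rw [hpt (w i) (e i) (Q i) (hw i) (hQ i), s17ds_conK]

end Gauss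

end Fermat.Agent.S17

end
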