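/-
S17 sprint, layer H, design A, leaf **A-PTb** (helper42): THE CENTRE OF A `K`-PLACE IS ADDITIVE
AND NATURAL.

Setting = the model of S27-B (`S17/Affine.lean`, section Model): `K` algebraically closed,
`F / K` the function field of the curve, `L ⊇ Ω_g` algebraically closed, `FL = F·L`,
`pkg = s27dclPkg hld hgen hx G₀ hG₀`, `η = s27pfCl pkg taut`, `β = s27bcBeta` (constant classes).
A `K`-place `P : S17plPlace K L` (`S17/Place.lean`), a tuple of points `q : Fin g → F →ₐ[K] L`;
the CENTRE of `q i` along `P` is the place `Q i` of `F / K` with `P.W ∩ q i (F) = O_{Q i}`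
(`S27ptIsCentre P.W (q i) (Q i)`).

* `s17ch2Cl hx G₀ hG₀ Q`      : the class `[Σ Q i − G₀] ∈ Pic0 K F` of a tuple of closed places;
* `s17ch2_exists_sp`          : the specialisation homomorphism `sp_P : Pic0 L FL →+ Pic0 K F`
                                 with `sp (β c) = c` and `sp (cl q) = [Σ Q i − G₀]` for EVERY
                                 tuple `q` with centres `Q` (`s17ds_exists` in the package);
* `s17ch2_centre_affine`      : `cl q' = k • cl q + β c` ⇒ `[centres of q'] = k • [centres of q] + c`;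
* `s17ch2_isCentre_comap`     : the centres of `q` along `P ∘ ρ = s17pxComap ρ P`
                                 (`S17/PlaceExt.lean`) are the centres of `ρ ∘ q` along `P`;
* `s17ch2_exists_centre`, `s17ch2_centre_unique` : every point has exactly one centre along a
                                 `K`-place;
* `s17ch2Centre P`            : THE CENTRE `x_P ∈ Pic0 K F` of a `K`-place (the class of the
                                 centres of the tautological points); `s17ch2Centre_eq`,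
                                 `s17ch2_centre_eq_sp` : `x_P = sp_P (η)`;
* **`s17ch2_centre_aut`**     : `actC ρ η = k • η + β c` ⇒ `x_{P ∘ ρ} = k • x_P + c`;
* **`s17ch2_centre_mul`**     : `actC ρ η = n • η` ⇒ `x_{P ∘ ρ} = n • x_P`  (`ψ₃`: `n = 3`);
* **`s17ch2_centre_add`**     : `actC ρ η = η + β c` ⇒ `x_{P ∘ ρ} = x_P + c`  (translation);

Sorry-free; axioms: propext, Classical.choice, Quot.sound.
-/
import Fermat.Agent.S17.DivSp
import Fermat.Agent.S17.PlaceExt
import Fermat.Agent.S17.Affine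

set_option autoImplicit false
set_option linter.unusedVariables false
set_option linter.unusedSectionVars false
set_option linter.style.haveILetI false
set_option linter.style.longLine false

noncomputable section

namespace Fermat.Agent.S17

open AlgebraicCurve TensorProduct IntermediateField Fermat.Agent.S27 Fermat.Agent.S26
  Fermat.Agent.S24

universe u v y

/-! ### Centres along `P ∘ ρ` -/

section Comap

variable {K : Type*} {L : Type*} [Field K] [Field L] [Algebra K L]

variable {F : Type*} [Field F] [Algebra K F]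

/-- the centres of `q` along `P ∘ ρ` are the centres of `ρ ∘ q` along `P`. -/
theorem s17ch2_isCentre_comap (P : S17plPlace K L) (ρ : L →ₐ[K] L) (q : F →ₐ[K] L)
    (Q : Place K F) :
    S27ptIsCentre (s17pxComap ρ P).W q Q ↔ S27ptIsCentre P.W (ρ.comp q) Q := by
  unfold S27ptIsCentre
  have h : (s17pxComap ρ P).W.comap (q : F →+* L) =
      P.W.comap ((ρ.comp q : F →ₐ[K] L) : F →+* L) := by
    ext f
    rfl
  rw [h]

/-- a point has at most one centre. -/
theorem s17ch2_centre_unique (W : ValuationSubring L) (q : F →ₐ[K] L) {Q Q' : Place K F}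
    (hQ : S27ptIsCentre W q Q) (hQ' : S27ptIsCentre W q Q') : Q = Q' := by
  unfold S27ptIsCentre at hQ hQ'
  have h : Q.toValuationSubring = Q'.toValuationSubring := hQ.symm.trans hQ'
  obtain ⟨a, h1, h2, h3⟩ := Q
  obtain ⟨b, h1', h2', h3'⟩ := Q'
  have hab : a = b := h
  subst hab
  rfl

/-- along a `K`-place every point of a function field has a (closed) centre. -/
theorem s17ch2_exists_centre (P : S17plPlace K L) {x : F} (hx : Transcendental K x)
    [FiniteDimensional K⟮x⟯ F] (q : F →ₐ[K] L) : ∃ Q : Place K F, S27ptIsCentre P.W q Q := by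
  rcases s27rpt_centre_dichotomy x hx P.W P.hKW q with h | h
  · exfalso
    -- the composite `res ∘ q : F → K` is a ring homomorphism which is the identity on `K`
    let f : F →+* K := P.res.comp
      { toFun := fun u => (⟨q u, h u⟩ : ↥P.W)
        map_one' := Subtype.ext (map_one q)
        map_mul' := fun a b => Subtype.ext (map_mul q _ _)
        map_zero' := Subtype.ext (map_zero q)
        map_add' := fun a b => Subtype.ext (map_add q _ _) }
    have hf : ∀ c : K, f (algebraMap K F c) = c := by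
      intro c
      have h1 : (⟨q (algebraMap K F c), h _⟩ : ↥P.W) = ⟨algebraMap K L c, P.hKW c⟩ :=
        Subtype.ext (q.commutes c)
      show P.res ⟨q (algebraMap K F c), _⟩ = c
      rw [h1]
      exact P.hres c
    have h0 : f (x - algebraMap K F (f x)) = 0 := by
      rw [map_sub, hf, sub_self]
    have h1 : x - algebraMap K F (f x) = 0 := (map_eq_zero f).1 h0
    have h2 : x = algebraMap K F (f x) := sub_eq_zero.1 h1
    apply hx
    rw [h2]
    exact isAlgebraic_algebraMap _
  · exact h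

end Comap

/-! ### The model -/

section Model

variable {K : Type u} {F : Type v} [Field K] [IsAlgClosed K] [CharZero K] [Field F] [Algebra K F]
  [IsCurveOver K F] [Algebra.EssFiniteType K F]
  {L : Type (max u v)} [Field L] [Algebra K L]
  [Algebra (s27gfOm K F (genusFF K F)) L] [IsScalarTower K (s27gfOm K F (genusFF K F)) L]
  [IsAlgClosed L] [Algebra.IsAlgebraic (s27gfOm K F (genusFF K F)) L]
  {FL : Type y} [Field FL] [Algebra K FL] [Algebra F FL] [Algebra L FL]
  [IsScalarTower K F FL] [IsScalarTower K L FL]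
  (hld : Function.Injective (s26gspMu K F L FL)) (hgen : S26gspGen K F L FL)
  {x : F} (hx : Transcendental K x)
  [FiniteDimensional ↥(IntermediateField.adjoin K {x}) F]
  [Algebra.IsSeparable ↥(IntermediateField.adjoin K {x}) F]
  (G₀ : Divisor K F) (hG₀ : Divisor.degree G₀ = (genusFF K F : ℤ))

/-- the class `[Σ Q i − G₀] ∈ Pic0 K F` of a tuple of closed places. -/
def s17ch2Cl (Q : Fin (genusFF K F) → Place K F) : Pic0 K F :=
  s27pkgClO (s17ds_hdegK (fun P => s26gspf_hall hx P)) G₀ hG₀ Q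

/-- **the specialisation homomorphism along a `K`-place**, on the classes of the package. -/
theorem s17ch2_exists_sp (P : S17plPlace K L) :
    ∃ sp : Pic0 L FL →+ Pic0 K F,
      (∀ c : Pic0 K F, sp (s27bcBeta hld hgen (s26gspf_hall hx) c) = c) ∧
      ∀ (q : Fin (genusFF K F) → F →ₐ[K] L) (Q : Fin (genusFF K F) → Place K F),
        (∀ i, S27ptIsCentre P.W (q i) (Q i)) →
        sp (s27pfCl (s27dclPkg hld hgen hx G₀ hG₀) q) = s17ch2Cl hx G₀ hG₀ Q := by
  obtain ⟨sp, h1, h2⟩ := s17ds_exists hld hgen hx (fun P => s26gspf_hall hx P)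
    (s27pkg_hdeg hld hgen hx) P.W P.hKW P.res P.hres
  refine ⟨sp, h1, fun q Q hQ => ?_⟩
  exact h2 (genusFF K F) G₀ hG₀ (s27pkgO_degree hld hgen hx G₀ hG₀) q
    (fun i => s27gpPlace hld hgen (q i) hx) Q (fun i => s27pt_isPt_gpPlace hld hgen hx (q i)) hQ

/-- **the centres are affine in the class**: `cl q' = k • cl q + β c` ⇒
`[centres of q'] = k • [centres of q] + c`. -/
theorem s17ch2_centre_affine (P : S17plPlace K L) (q q' : Fin (genusFF K F) → F →ₐ[K] L)
    (k : ℤ) (c : Pic0 K F)
    (hcl : s27pfCl (s27dclPkg hld hgen hx G₀ hG₀) q' =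
      k • s27pfCl (s27dclPkg hld hgen hx G₀ hG₀) q + s27bcBeta hld hgen (s26gspf_hall hx) c)
    (Q Q' : Fin (genusFF K F) → Place K F) (hQ : ∀ i, S27ptIsCentre P.W (q i) (Q i))
    (hQ' : ∀ i, S27ptIsCentre P.W (q' i) (Q' i)) :
    s17ch2Cl hx G₀ hG₀ Q' = k • s17ch2Cl hx G₀ hG₀ Q + c := by
  obtain ⟨sp, h1, h2⟩ := s17ch2_exists_sp hld hgen hx G₀ hG₀ P
  rw [← h2 q' Q' hQ', hcl, map_add, map_zsmul, h2 q Q hQ, h1]

/-- the centres of a tuple along `P ∘ ρ`, for an automorphism `ρ` acting on the class of the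
tuple by `k • _ + β c`. -/
theorem s17ch2_centre_aut_tuple (P : S17plPlace K L) (ρ : L ≃ₐ[K] L)
    (q : Fin (genusFF K F) → F →ₐ[K] L) (k : ℤ) (c : Pic0 K F)
    (hρ : (s27dclPkg hld hgen hx G₀ hG₀).actC ρ (s27pfCl (s27dclPkg hld hgen hx G₀ hG₀) q) =
      k • s27pfCl (s27dclPkg hld hgen hx G₀ hG₀) q + s27bcBeta hld hgen (s26gspf_hall hx) c)
    (Q Q' : Fin (genusFF K F) → Place K F) (hQ : ∀ i, S27ptIsCentre P.W (q i) (Q i))
    (hQ' : ∀ i, S27ptIsCentre (s17pxComap (ρ : L →ₐ[K] L) P).W (q i) (Q' i)) :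
    s17ch2Cl hx G₀ hG₀ Q' = k • s17ch2Cl hx G₀ hG₀ Q + c := by
  exact s17ch2_centre_affine hld hgen hx G₀ hG₀ P q
    (fun i => (ρ : L →ₐ[K] L).comp (q i)) k c
    ((s27pf_cl_comp (s27dclPkg hld hgen hx G₀ hG₀) ρ q).trans hρ) Q Q' hQ
    (fun i => (s17ch2_isCentre_comap P (ρ : L →ₐ[K] L) (q i) (Q' i)).1 (hQ' i))

/-! ### The centre of a `K`-place -/

/-- the centres of the tautological points along `P`. -/
def s17ch2CentrePl (P : S17plPlace K L) (i : Fin (genusFF K F)) : Place K F :=
  Classical.choose (s17ch2_exists_centre P hx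
    (s27pfTaut (K := K) (F := F) (g := genusFF K F) (L := L) i))

theorem s17ch2CentrePl_spec (P : S17plPlace K L) (i : Fin (genusFF K F)) :
    S27ptIsCentre P.W (s27pfTaut (K := K) (F := F) (g := genusFF K F) (L := L) i)
      (s17ch2CentrePl hx P i) :=
  Classical.choose_spec (s17ch2_exists_centre P hx
    (s27pfTaut (K := K) (F := F) (g := genusFF K F) (L := L) i))

/-- **THE CENTRE** `x_P ∈ Pic0 K F` of a `K`-place `P` of `L`: the class `[Σ Q i − G₀]` of the
centres `Q i` of the tautological points. -/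
def s17ch2Centre (P : S17plPlace K L) : Pic0 K F :=
  s17ch2Cl hx G₀ hG₀ (s17ch2CentrePl hx P)

/-- the centre, computed with any tuple of centres of the tautological points. -/
theorem s17ch2Centre_eq (P : S17plPlace K L) (Q : Fin (genusFF K F) → Place K F)
    (hQ : ∀ i, S27ptIsCentre P.W
      (s27pfTaut (K := K) (F := F) (g := genusFF K F) (L := L) i) (Q i)) :
    s17ch2Centre hx G₀ hG₀ P = s17ch2Cl hx G₀ hG₀ Q := by
  have h : s17ch2CentrePl hx P = Q :=
    funext fun i => s17ch2_centre_unique P.W _ (s17ch2CentrePl_spec hx P i) (hQ i)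
  unfold s17ch2Centre
  rw [h]

/-- `x_P = sp_P (η)` for every specialisation homomorphism along `P`. -/
theorem s17ch2_centre_eq_sp (P : S17plPlace K L) (sp : Pic0 L FL →+ Pic0 K F)
    (hsp : ∀ (q : Fin (genusFF K F) → F →ₐ[K] L) (Q : Fin (genusFF K F) → Place K F),
      (∀ i, S27ptIsCentre P.W (q i) (Q i)) →
      sp (s27pfCl (s27dclPkg hld hgen hx G₀ hG₀) q) = s17ch2Cl hx G₀ hG₀ Q) :
    s17ch2Centre hx G₀ hG₀ P =
      sp (s27pfCl (s27dclPkg hld hgen hx G₀ hG₀)
        (s27pfTaut (K := K) (F := F) (g := genusFF K F) (L := L))) :=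
  (hsp _ _ (s17ch2CentrePl_spec hx P)).symm

/-- **A-PTb, general form**: `actC ρ η = k • η + β c` ⇒ `x_{P ∘ ρ} = k • x_P + c`. -/
theorem s17ch2_centre_aut (P : S17plPlace K L) (ρ : L ≃ₐ[K] L) (k : ℤ) (c : Pic0 K F)
    (hρ : (s27dclPkg hld hgen hx G₀ hG₀).actC ρ
        (s27pfCl (s27dclPkg hld hgen hx G₀ hG₀)
          (s27pfTaut (K := K) (F := F) (g := genusFF K F) (L := L))) =
      k • s27pfCl (s27dclPkg hld hgen hx G₀ hG₀)
          (s27pfTaut (K := K) (F := F) (g := genusFF K F) (L := L)) +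
        s27bcBeta hld hgen (s26gspf_hall hx) c) :
    s17ch2Centre hx G₀ hG₀ (s17pxComap (ρ : L →ₐ[K] L) P) =
      k • s17ch2Centre hx G₀ hG₀ P + c :=
  s17ch2_centre_aut_tuple hld hgen hx G₀ hG₀ P ρ _ k c hρ _ _ (s17ch2CentrePl_spec hx P)
    (s17ch2CentrePl_spec hx (s17pxComap (ρ : L →ₐ[K] L) P))

/-- **A-PTb (i)**: `actC ρ η = n • η` ⇒ `x_{P ∘ ρ} = n • x_P`  (`ψ₃` : `n = 3`). -/
theorem s17ch2_centre_mul (P : S17plPlace K L) (ρ : L ≃ₐ[K] L) (n : ℤ)
    (hρ : (s27dclPkg hld hgen hx G₀ hG₀).actC ρ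
        (s27pfCl (s27dclPkg hld hgen hx G₀ hG₀)
          (s27pfTaut (K := K) (F := F) (g := genusFF K F) (L := L))) =
      n • s27pfCl (s27dclPkg hld hgen hx G₀ hG₀)
          (s27pfTaut (K := K) (F := F) (g := genusFF K F) (L := L))) :
    s17ch2Centre hx G₀ hG₀ (s17pxComap (ρ : L →ₐ[K] L) P) = n • s17ch2Centre hx G₀ hG₀ P := by
  have h := s17ch2_centre_aut hld hgen hx G₀ hG₀ P ρ n 0 (by rw [map_zero, add_zero]; exact hρ)
  rw [add_zero] at h
  exact h

/-- **A-PTb (ii)**: `actC ρ η = η + β c` ⇒ `x_{P ∘ ρ} = x_P + c`  (translations). -/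
theorem s17ch2_centre_add (P : S17plPlace K L) (ρ : L ≃ₐ[K] L) (c : Pic0 K F)
    (hρ : (s27dclPkg hld hgen hx G₀ hG₀).actC ρ
        (s27pfCl (s27dclPkg hld hgen hx G₀ hG₀)
          (s27pfTaut (K := K) (F := F) (g := genusFF K F) (L := L))) =
      s27pfCl (s27dclPkg hld hgen hx G₀ hG₀)
          (s27pfTaut (K := K) (F := F) (g := genusFF K F) (L := L)) +
        s27bcBeta hld hgen (s26gspf_hall hx) c) :
    s17ch2Centre hx G₀ hG₀ (s17pxComap (ρ : L →ₐ[K] L) P) = s17ch2Centre hx G₀ hG₀ P + c := by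
  have h := s17ch2_centre_aut hld hgen hx G₀ hG₀ P ρ 1 c (by rw [one_smul]; exact hρ)
  rw [one_smul] at h
  exact h

/-- the centre of a constant class: `sp (β c) = c` (recorded for the wiring). -/
theorem s17ch2_sp_beta (P : S17plPlace K L) :
    ∃ sp : Pic0 L FL →+ Pic0 K F,
      (∀ c : Pic0 K F, sp (s27bcBeta hld hgen (s26gspf_hall hx) c) = c) ∧
      sp (s27pfCl (s27dclPkg hld hgen hx G₀ hG₀)
        (s27pfTaut (K := K) (F := F) (g := genusFF K F) (L := L))) =
        s17ch2Centre hx G₀ hG₀ P := by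
  obtain ⟨sp, h1, h2⟩ := s17ch2_exists_sp hld hgen hx G₀ hG₀ P
  exact ⟨sp, h1, h2 _ _ (s17ch2CentrePl_spec hx P)⟩

end Model

end Fermat.Agent.S17

end
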