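/-
S17 sprint, layer H, sub-leaf **PlM-RHO** (helper86, author of S17/Affine.lean): the automorphisms
`ρ` of `L / K` which EXTEND the affine family `T k c` (in particular `ψ_n = T n 0` and the
translations `τ_c = T 1 c`) and their effect on the centres, in the shape of the MODEL
(`s17coCl`, `s17pxComap`) and of `s17plm_plM` / `s17plm_transport` (S17/PlMGlue.lean).

Abstract part (`pkg`, `κ`, the affine family `q`):
* `s17prh_exists_aut` : `∀ k ≠ 0, c`, `∃ ρ : L ≃ₐ[K] L`,  `ρ ∘ ι = ι ∘ T k c` (`ι = algebraMap 𝔉 L`),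
                        `actC ρ η = k • η + κ c`, `ρ ∘ taut = q k c ∘ π`.

Model part (`pkg = s27dclPkg …`, `κ = β`, `cl = s17coCl`):
* `s17prh_cl`         : `actC ρ η = k • η + β c` ⇒ `cl (P ∘ ρ) = k • cl P + c` for every place `P`;
* **`s17prh_affine`** : `∀ k ≠ 0, c`, `∃ ρ`, `ρ ∘ ι = ι ∘ T k c` ∧ `∀ P, cl (P ∘ ρ) = k • cl P + c`;
* **`s17prh_mul`**    : `∀ n ≠ 0`, for EVERY family `q'` of S27-B: `∃ ρ`, `ρ ∘ ι = ι ∘ ψ_n`
                        (`ψ_n = s27pfPsi pkg halg hq' n`) ∧ `∀ P, cl (P ∘ ρ) = n • cl P`;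
* `s17prh_mul_nat`    : the same for `m : ℕ`, `0 < m` (`hcl` of `s17plm_plM`);
* `s17prh_neg`        : `n = −1`: `ρ ∘ ι = ι ∘ ψ_{−1}`, `cl (P ∘ ρ) = − cl P`;
* **`s17prh_add`**    : `∀ g`, `∃ ρ`, `ρ ∘ ι = ι ∘ τ_{−g}` ∧ `∀ P, g + cl (P ∘ ρ) = cl P`
                        (`hcl` of `s17plm_transport`);
* `s17prh_fin`        : `Module.Finite ρ.fieldRange L` for an automorphism (`hfin` of `s17plm_plM`).
-/
import Fermat.Agent.S17.Affine
import Fermat.Agent.S17.CentreOnto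
import Fermat.Agent.S17.CentreHom

set_option autoImplicit false
set_option linter.unusedVariables false
set_option linter.unusedSectionVars false
set_option linter.style.haveILetI false
set_option linter.style.longLine false

noncomputable section

namespace Fermat.Agent.S17

open AlgebraicCurve TensorProduct IntermediateField Fermat.Agent.S27 Fermat.Agent.S26
  Fermat.Agent.S24

universe u v x y z

section Abs

variable {K : Type u} {F : Type v} [Field K] [IsAlgClosed K] [Field F] [Algebra K F] {g : ℕ}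
variable {L : Type (max u v)} [Field L] [Algebra K L] [Algebra (s27gfOm K F g) L]
  [IsScalarTower K (s27gfOm K F g) L]
variable {t : F} {Pl : Type x} {P : Type y} [AddCommGroup P] (pkg : S27DegPkg K F L t g Pl P)
variable {C : Type z} [AddCommGroup C] (κ : C →+ P)
variable [IsGalois (s27gfSym K F g) L]

/-- **an automorphism `ρ` of `L / K` extending `T k c`**, with `actC ρ η = k • η + κ c`. -/
theorem s17prh_exists_aut (hκ : S17afInv pkg κ)
    (halg : ∀ f : F, IsAlgebraic (IntermediateField.adjoin K {t}) f)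
    (hX1 : ∀ σ : s27gfSym K F g →ₐ[K] L, ∃ ê : L ≃ₐ[K] L,
      ∀ s : s27gfSym K F g, ê (algebraMap (s27gfOm K F g) L (s : s27gfOm K F g)) = σ s)
    {q : ℤ → C → Fin g → F →ₐ[K] L} (hq : S17afFam pkg κ q) (k : ℤ) (hk : k ≠ 0) (c : C) :
    ∃ ρ : L ≃ₐ[K] L,
      (∀ s : s27gfSym K F g, ρ (algebraMap (s27gfSym K F g) L s) =
        algebraMap (s27gfSym K F g) L (s17afT pkg κ hκ halg hq k c s)) ∧
      pkg.actC ρ (s27pfCl pkg (s27pfTaut (K := K) (F := F) (g := g) (L := L))) =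
        k • s27pfCl pkg (s27pfTaut (K := K) (F := F) (g := g) (L := L)) + κ c ∧
      ∃ π : Equiv.Perm (Fin g), ∀ i, (ρ : L →ₐ[K] L).comp (s27pfTaut i) = q k c (π i) := by
  have hpt := s17af_fam_pt pkg κ hκ halg hq k hk c
  obtain ⟨ê, hê⟩ := hX1 (s27psiEv (q k c) hpt.inj)
  have hh : ∀ s : s27gfSym K F g, ê (algebraMap (s27gfSym K F g) L s) =
      s27psiEv (q k c) hpt.inj s := fun s => by
    rw [← hê s]
    rfl
  refine ⟨ê, fun s => ?_, ?_, s27pf_perm_of_ext (q k c) hpt.inj ê hh⟩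
  · rw [hh s, s17afT_of_ne pkg κ hκ halg hq k hk c, s27psi_spec']
  · rw [s27pf_cl_of_ext pkg (q k c) hpt.inj ê hh, (hq k hk c).2]

end Abs

section Fin

variable {K : Type*} {L : Type*} [Field K] [Field L] [Algebra K L]

/-- the range of an automorphism is everything: `hfin` of `s17plm_plM`. -/
theorem s17prh_fin (ρ : L ≃ₐ[K] L) : Module.Finite (ρ : L →ₐ[K] L).fieldRange L :=
  Module.Finite.of_surjective (Algebra.linearMap (ρ : L →ₐ[K] L).fieldRange L)
    (fun y => ⟨⟨y, AlgHom.mem_fieldRange.2 ⟨ρ.symm y, ρ.apply_symm_apply y⟩⟩, rfl⟩)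

end Fin


/-! ### The model -/

section Model

variable {K : Type u} {F : Type v} [Field K] [IsAlgClosed K] [CharZero K] [Field F] [Algebra K F]
  [IsCurveOver K F] [Algebra.EssFiniteType K F]
  {L : Type (max u v)} [Field L] [Algebra K L]
  [Algebra (s27gfOm K F (genusFF K F)) L] [IsScalarTower K (s27gfOm K F (genusFF K F)) L]
  [IsAlgClosed L] [Algebra.IsAlgebraic (s27gfOm K F (genusFF K F)) L]
  {FL : Type y} [Field FL] [Algebra K FL] [Algebra F FL] [Algebra L FL]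
  [IsScalarTower K F FL] [IsScalarTower K L FL]
  (hld : Function.Injective (s26gspMu K F L FL)) (hgen : S26gspGen K F L FL)
  {x : F} (hx : Transcendental K x)
  [FiniteDimensional ↥(IntermediateField.adjoin K {x}) F]
  [Algebra.IsSeparable ↥(IntermediateField.adjoin K {x}) F]
  (G₀ : Divisor K F) (hG₀ : Divisor.degree G₀ = (genusFF K F : ℤ))

/-- **the centre of `P ∘ ρ`** (in the Model's `s17coCl`): `actC ρ η = k • η + β c` ⇒
`cl (P ∘ ρ) = k • cl P + c`. -/
theorem s17prh_cl (ρ : L ≃ₐ[K] L) (k : ℤ) (c : Pic0 K F)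
    (hρ : (s27dclPkg hld hgen hx G₀ hG₀).actC ρ
        (s27pfCl (s27dclPkg hld hgen hx G₀ hG₀)
          (s27pfTaut (K := K) (F := F) (g := genusFF K F) (L := L))) =
      k • s27pfCl (s27dclPkg hld hgen hx G₀ hG₀)
          (s27pfTaut (K := K) (F := F) (g := genusFF K F) (L := L)) +
        s27bcBeta hld hgen (s26gspf_hall hx) c)
    (P : S17plPlace K L) :
    s17coCl hld hgen hx G₀ hG₀ (s17pxComap (ρ : L →ₐ[K] L) P) =
      k • s17coCl hld hgen hx G₀ hG₀ P + c := by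
  have hQ : ∀ i : Fin (genusFF K F), ∃ Q : Place K F,
      S27ptIsCentre (s17pxComap (ρ : L →ₐ[K] L) P).W
        (s27pfTaut (K := K) (F := F) (g := genusFF K F) (L := L) i) Q :=
    fun i => s17ch2_exists_centre (s17pxComap (ρ : L →ₐ[K] L) P) hx _
  choose Q hQ using hQ
  rw [s17coCl_eq hld hgen hx G₀ hG₀ (s17pxComap (ρ : L →ₐ[K] L) P) Q hQ]
  refine s17coCl_affine hld hgen hx G₀ hG₀ P k c
    (fun i => (ρ : L →ₐ[K] L).comp
      (s27pfTaut (K := K) (F := F) (g := genusFF K F) (L := L) i)) Q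
    (fun i => (s17ch2_isCentre_comap P (ρ : L →ₐ[K] L) _ (Q i)).1 (hQ i)) ?_
  have h1 := s27pf_cl_comp (s27dclPkg hld hgen hx G₀ hG₀) ρ
    (s27pfTaut (K := K) (F := F) (g := genusFF K F) (L := L))
  rw [hρ] at h1
  exact h1

variable [IsGalois (s27gfSym K F (genusFF K F)) L]

/-- **PlM-RHO, affine form**: for `k ≠ 0` and a constant class `c` an automorphism `ρ` of `L / K`
which extends `T k c` and acts on the centres by `x ↦ k x + c`. -/
theorem s17prh_affine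
    {q : ℤ → Pic0 K F → Fin (genusFF K F) → F →ₐ[K] L}
    (hq : S17afFam (s27dclPkg hld hgen hx G₀ hG₀) (s27bcBeta hld hgen (s26gspf_hall hx)) q)
    (k : ℤ) (hk : k ≠ 0) (c : Pic0 K F) :
    ∃ ρ : L ≃ₐ[K] L,
      (∀ s : s27gfSym K F (genusFF K F), ρ (algebraMap (s27gfSym K F (genusFF K F)) L s) =
        algebraMap (s27gfSym K F (genusFF K F)) L
          (s17afT (s27dclPkg hld hgen hx G₀ hG₀) (s27bcBeta hld hgen (s26gspf_hall hx))
            (s17af_inv hld hgen hx G₀ hG₀) (s27dcl_halg (x := x)) hq k c s)) ∧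
      (s27dclPkg hld hgen hx G₀ hG₀).actC ρ
          (s27pfCl (s27dclPkg hld hgen hx G₀ hG₀)
            (s27pfTaut (K := K) (F := F) (g := genusFF K F) (L := L))) =
        k • s27pfCl (s27dclPkg hld hgen hx G₀ hG₀)
            (s27pfTaut (K := K) (F := F) (g := genusFF K F) (L := L)) +
          s27bcBeta hld hgen (s26gspf_hall hx) c ∧
      ∀ P : S17plPlace K L,
        s17coCl hld hgen hx G₀ hG₀ (s17pxComap (ρ : L →ₐ[K] L) P) =
          k • s17coCl hld hgen hx G₀ hG₀ P + c := by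
  obtain ⟨ρ, h1, h2, -⟩ := s17prh_exists_aut (s27dclPkg hld hgen hx G₀ hG₀)
    (s27bcBeta hld hgen (s26gspf_hall hx)) (s17af_inv hld hgen hx G₀ hG₀)
    (s27dcl_halg (x := x))
    (fun σ => s27dgx_X1 (s27dclFld (L := L) hx) (s27dcl_halg (x := x)) σ) hq k hk c
  exact ⟨ρ, h1, h2, fun P => s17prh_cl hld hgen hx G₀ hG₀ ρ k c h2 P⟩

/-- **PlM-RHO**: for `n ≠ 0` and EVERY family `q'` of S27-B an automorphism `ρ_n` of `L / K` with
`ρ_n ∘ ι = ι ∘ ψ_n` and `cl (P ∘ ρ_n) = n • cl P`. -/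
theorem s17prh_mul {q' : ℤ → Fin (genusFF K F) → F →ₐ[K] L}
    (hq' : S27pfFam (s27dclPkg hld hgen hx G₀ hG₀) q') (n : ℤ) (hn : n ≠ 0) :
    ∃ ρ : L ≃ₐ[K] L,
      (∀ s : s27gfSym K F (genusFF K F), ρ (algebraMap (s27gfSym K F (genusFF K F)) L s) =
        algebraMap (s27gfSym K F (genusFF K F)) L
          (s27pfPsi (s27dclPkg hld hgen hx G₀ hG₀) (s27dcl_halg (x := x)) hq' n s)) ∧
      (s27dclPkg hld hgen hx G₀ hG₀).actC ρ
          (s27pfCl (s27dclPkg hld hgen hx G₀ hG₀)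
            (s27pfTaut (K := K) (F := F) (g := genusFF K F) (L := L))) =
        n • s27pfCl (s27dclPkg hld hgen hx G₀ hG₀)
            (s27pfTaut (K := K) (F := F) (g := genusFF K F) (L := L)) ∧
      ∀ P : S17plPlace K L,
        s17coCl hld hgen hx G₀ hG₀ (s17pxComap (ρ : L →ₐ[K] L) P) =
          n • s17coCl hld hgen hx G₀ hG₀ P := by
  obtain ⟨q, hq⟩ := s17af_exists_fam (L := L) hld hgen hx G₀ hG₀
  obtain ⟨ρ, h1, h2, h3⟩ := s17prh_affine hld hgen hx G₀ hG₀ hq n hn 0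
  refine ⟨ρ, fun s => ?_, ?_, fun P => ?_⟩
  · rw [h1 s, s17afT_zero_eq_psi (s27dclPkg hld hgen hx G₀ hG₀)
      (s27bcBeta hld hgen (s26gspf_hall hx)) (s17af_inv hld hgen hx G₀ hG₀)
      (s27dcl_halg (x := x)) hq hq' n hn]
  · rw [h2, map_zero, add_zero]
  · rw [h3 P, add_zero]

/-- **PlM-RHO for a natural multiplier** (`hcl` of `s17plm_plM`). -/
theorem s17prh_mul_nat {q' : ℤ → Fin (genusFF K F) → F →ₐ[K] L}
    (hq' : S27pfFam (s27dclPkg hld hgen hx G₀ hG₀) q') (m : ℕ) (hm : 0 < m) :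
    ∃ ρ : L ≃ₐ[K] L,
      (∀ s : s27gfSym K F (genusFF K F), ρ (algebraMap (s27gfSym K F (genusFF K F)) L s) =
        algebraMap (s27gfSym K F (genusFF K F)) L
          (s27pfPsi (s27dclPkg hld hgen hx G₀ hG₀) (s27dcl_halg (x := x)) hq' (m : ℤ) s)) ∧
      (∀ P : S17plPlace K L,
        s17coCl hld hgen hx G₀ hG₀ (s17pxComap (ρ : L →ₐ[K] L) P) =
          m • s17coCl hld hgen hx G₀ hG₀ P) ∧
      Module.Finite (ρ : L →ₐ[K] L).fieldRange L := by
  have hm0 : (m : ℤ) ≠ 0 := by exact_mod_cast hm.ne'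
  obtain ⟨ρ, h1, -, h3⟩ := s17prh_mul hld hgen hx G₀ hG₀ hq' (m : ℤ) hm0
  refine ⟨ρ, h1, fun P => ?_, s17prh_fin ρ⟩
  rw [h3 P, natCast_zsmul]

/-- **PlM-RHO at `n = −1`**: `ρ ∘ ι = ι ∘ ψ_{−1}` and `cl (P ∘ ρ) = − cl P`. -/
theorem s17prh_neg {q' : ℤ → Fin (genusFF K F) → F →ₐ[K] L}
    (hq' : S27pfFam (s27dclPkg hld hgen hx G₀ hG₀) q') :
    ∃ ρ : L ≃ₐ[K] L,
      (∀ s : s27gfSym K F (genusFF K F), ρ (algebraMap (s27gfSym K F (genusFF K F)) L s) =
        algebraMap (s27gfSym K F (genusFF K F)) L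
          (s27pfPsi (s27dclPkg hld hgen hx G₀ hG₀) (s27dcl_halg (x := x)) hq' (-1) s)) ∧
      ∀ P : S17plPlace K L,
        s17coCl hld hgen hx G₀ hG₀ (s17pxComap (ρ : L →ₐ[K] L) P) =
          - s17coCl hld hgen hx G₀ hG₀ P := by
  obtain ⟨ρ, h1, -, h3⟩ := s17prh_mul hld hgen hx G₀ hG₀ hq' (-1) (by norm_num)
  refine ⟨ρ, h1, fun P => ?_⟩
  rw [h3 P, neg_one_zsmul]

/-- **PlT-RHO**: for every constant class `g` an automorphism `ρ` of `L / K` which extends the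
translation `τ_{−g} = T 1 (−g)` and satisfies `g + cl (P ∘ ρ) = cl P` (`hcl` of
`s17plm_transport`). -/
theorem s17prh_add
    {q : ℤ → Pic0 K F → Fin (genusFF K F) → F →ₐ[K] L}
    (hq : S17afFam (s27dclPkg hld hgen hx G₀ hG₀) (s27bcBeta hld hgen (s26gspf_hall hx)) q)
    (g : Pic0 K F) :
    ∃ ρ : L ≃ₐ[K] L,
      (∀ s : s27gfSym K F (genusFF K F), ρ (algebraMap (s27gfSym K F (genusFF K F)) L s) =
        algebraMap (s27gfSym K F (genusFF K F)) L
          (s17afT (s27dclPkg hld hgen hx G₀ hG₀) (s27bcBeta hld hgen (s26gspf_hall hx))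
            (s17af_inv hld hgen hx G₀ hG₀) (s27dcl_halg (x := x)) hq 1 (-g) s)) ∧
      (s27dclPkg hld hgen hx G₀ hG₀).actC ρ
          (s27pfCl (s27dclPkg hld hgen hx G₀ hG₀)
            (s27pfTaut (K := K) (F := F) (g := genusFF K F) (L := L))) =
        s27pfCl (s27dclPkg hld hgen hx G₀ hG₀)
            (s27pfTaut (K := K) (F := F) (g := genusFF K F) (L := L)) +
          s27bcBeta hld hgen (s26gspf_hall hx) (-g) ∧
      ∀ P : S17plPlace K L,
        g + s17coCl hld hgen hx G₀ hG₀ (s17pxComap (ρ : L →ₐ[K] L) P) =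
          s17coCl hld hgen hx G₀ hG₀ P := by
  obtain ⟨ρ, h1, h2, h3⟩ := s17prh_affine hld hgen hx G₀ hG₀ hq 1 one_ne_zero (-g)
  refine ⟨ρ, h1, ?_, fun P => ?_⟩
  · rw [h2, one_smul]
  · rw [h3 P, one_smul]
    abel

end Model

end Fermat.Agent.S17

end
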