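/-
S17 sprint, design A v2 (ONE theta divisor), sub-integrator file **PlM-STAGE, L-level form**
(helper11) — answer to the gap (G1) of PlM-BPF (helper33, helper95: the NORM exponent of the
descent `L → 𝔉` is not uniform): **NO descent is needed.**

PlM holds on the closed S27-B stage over `K = ℚ̄` for EVERY finite family `F : ι → L` of elements
of the BIG field `L = s27mtL K F` which is base-point-free AT THE `K`-PLACES of `L` w.r.t. the
LIFTED local equations `b_L W = ι (B 1 (W ∩ 𝔉))` (`s17pmtB`, `B 1 = s27indB ψ β 1`):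

  `S17pmkBpf K (s17pmtB (s27indB ψ β 1)) N₀ F`   (S17/PlMK.lean, helper36).

E.g. `F = (Φ_D⁻¹)_{D ∈ T}` for a FINITE pool `T` of constant classes, `N₀ = 2`
(SQUARE `s17squ_square` + MOVE-UP + (PSI-NAT) `b_L W ≐ y_η`): no NORM, no FIN, no basis.

* `s17pmx_hM`   : the literal `hM` of `s17plm_plM` for such an `F`;
* `s17pmx_plM`  : the body of `S17hyPlM s17coCl (s17plmH s17haAbsQ F) n (n(n+1)/2)`;
* `s17pmx_plM_three` : `n = 3`, `b = 6`.
-/
import Fermat.Agent.S17.PlMTop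
import Fermat.Agent.S17.PlMCubeB
import Fermat.Agent.S17.PlMRho
import Fermat.Agent.S17.PlMK

set_option autoImplicit false
set_option linter.unusedVariables false
set_option linter.unusedSectionVars false
set_option linter.style.haveILetI false
set_option linter.style.longLine false

noncomputable section

namespace Fermat.Agent.S17

open AlgebraicCurve Module TensorProduct IntermediateField Fermat.Agent.S26 Fermat.Agent.S27

universe x

section Stage

variable {F : Type} [Field F] [Algebra (AlgebraicClosure ℚ) F]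
  [IsCurveOver (AlgebraicClosure ℚ) F] [Algebra.EssFiniteType (AlgebraicClosure ℚ) F]
variable {x : F} (hx : Transcendental (AlgebraicClosure ℚ) x)
  [FiniteDimensional ↥(IntermediateField.adjoin (AlgebraicClosure ℚ) {x}) F]
  [Algebra.IsSeparable ↥(IntermediateField.adjoin (AlgebraicClosure ℚ) {x}) F]
  (G₀ : Divisor (AlgebraicClosure ℚ) F)
  (hG₀ : Divisor.degree G₀ = (genusFF (AlgebraicClosure ℚ) F : ℤ))

/-- **PlM on the closed stage, L-level**: every multiplier `n > 0`, every finite family of `L`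
which is base-point-free at the `ℚ̄`-places w.r.t. the lifted local equations. -/
theorem s17pmx_plM (hg : 0 < genusFF (AlgebraicClosure ℚ) F)
    (O : Place (AlgebraicClosure ℚ) F) (hc : S27cstIsConst x G₀ O)
    (q : ℤ → Fin (genusFF (AlgebraicClosure ℚ) F) → F →ₐ[AlgebraicClosure ℚ]
      s27mtL (AlgebraicClosure ℚ) F)
    (hq : S27pfFam (s27ftPkg hx G₀ hG₀) q) (n : ℕ) (hn : 0 < n)
    {ι : Type x} [Fintype ι] (N₀ : ℕ)
    (Fam : ι → s27mtL (AlgebraicClosure ℚ) F)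
    (hF : S17pmkBpf (AlgebraicClosure ℚ)
      (s17pmtB (L := s27mtL (AlgebraicClosure ℚ) F)
        (s27indB (s27pfPsi (s27ftPkg hx G₀ hG₀) (s27dcl_halg (x := x)) hq)
          (s27beta (g := genusFF (AlgebraicClosure ℚ) F) (G₀ + s27cstAo G₀ O)) 1)) N₀ Fam)
    (hF0 : Fam ≠ 0) :
    ∃ C : ℝ, ∀ p'' : S17plPlace (AlgebraicClosure ℚ) (s27mtL (AlgebraicClosure ℚ) F),
      ∃ p' : S17plPlace (AlgebraicClosure ℚ) (s27mtL (AlgebraicClosure ℚ) F),
        n • s17coCl (FL := s27mtFL (AlgebraicClosure ℚ) F)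
            (s27stg_hld (AlgebraicClosure ℚ) F (s27mtL (AlgebraicClosure ℚ) F))
            (s27stg_hgen (AlgebraicClosure ℚ) F (s27mtL (AlgebraicClosure ℚ) F)) hx G₀ hG₀ p' =
          s17coCl (FL := s27mtFL (AlgebraicClosure ℚ) F)
            (s27stg_hld (AlgebraicClosure ℚ) F (s27mtL (AlgebraicClosure ℚ) F))
            (s27stg_hgen (AlgebraicClosure ℚ) F (s27mtL (AlgebraicClosure ℚ) F)) hx G₀ hG₀ p'' ∧
        ((s27indTri n : ℕ) : ℝ) * s17plmH s17haAbsQ Fam p' - C ≤ s17plmH s17haAbsQ Fam p'' := by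
  obtain ⟨Ψ, c, hcpos, hT⟩ := s17pmd_tele hx G₀ hG₀ hg O hc q hq n hn
  obtain ⟨ρ, hρ, hcl, hfin⟩ := s17prh_mul_nat (FL := s27mtFL (AlgebraicClosure ℚ) F)
    (s27stg_hld (AlgebraicClosure ℚ) F (s27mtL (AlgebraicClosure ℚ) F))
    (s27stg_hgen (AlgebraicClosure ℚ) F (s27mtL (AlgebraicClosure ℚ) F)) hx G₀ hG₀ hq n hn
  obtain ⟨τ, hτ, -⟩ := s17prh_neg (FL := s27mtFL (AlgebraicClosure ℚ) F)
    (s27stg_hld (AlgebraicClosure ℚ) F (s27mtL (AlgebraicClosure ℚ) F))
    (s27stg_hgen (AlgebraicClosure ℚ) F (s27mtL (AlgebraicClosure ℚ) F)) hx G₀ hG₀ hq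
  have hTL := s17pmt_tele (L := s27mtL (AlgebraicClosure ℚ) F)
    (ρ := (ρ : s27mtL (AlgebraicClosure ℚ) F →ₐ[AlgebraicClosure ℚ]
      s27mtL (AlgebraicClosure ℚ) F))
    (τ := (τ : s27mtL (AlgebraicClosure ℚ) F →ₐ[AlgebraicClosure ℚ]
      s27mtL (AlgebraicClosure ℚ) F))
    (fun s => hρ s) (fun s => hτ s) hT
  exact s17plm_plM (ρ : s27mtL (AlgebraicClosure ℚ) F →ₐ[AlgebraicClosure ℚ]
      s27mtL (AlgebraicClosure ℚ) F) hfin _ n hcl s17haAbsQ
    (fun c v hc => s17haAbsQ_smul v hc) Fam hF0 ((s27indTri n : ℕ) : ℝ)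
    (s17pmk_hM (s17pmk_tele_of hTL) hcpos hF)

/-- `n = 3`, `b = 6`. -/
theorem s17pmx_plM_three (hg : 0 < genusFF (AlgebraicClosure ℚ) F)
    (O : Place (AlgebraicClosure ℚ) F) (hc : S27cstIsConst x G₀ O)
    (q : ℤ → Fin (genusFF (AlgebraicClosure ℚ) F) → F →ₐ[AlgebraicClosure ℚ]
      s27mtL (AlgebraicClosure ℚ) F)
    (hq : S27pfFam (s27ftPkg hx G₀ hG₀) q)
    {ι : Type x} [Fintype ι] (N₀ : ℕ)
    (Fam : ι → s27mtL (AlgebraicClosure ℚ) F)
    (hF : S17pmkBpf (AlgebraicClosure ℚ)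
      (s17pmtB (L := s27mtL (AlgebraicClosure ℚ) F)
        (s27indB (s27pfPsi (s27ftPkg hx G₀ hG₀) (s27dcl_halg (x := x)) hq)
          (s27beta (g := genusFF (AlgebraicClosure ℚ) F) (G₀ + s27cstAo G₀ O)) 1)) N₀ Fam)
    (hF0 : Fam ≠ 0) :
    ∃ C : ℝ, ∀ p'' : S17plPlace (AlgebraicClosure ℚ) (s27mtL (AlgebraicClosure ℚ) F),
      ∃ p' : S17plPlace (AlgebraicClosure ℚ) (s27mtL (AlgebraicClosure ℚ) F),
        3 • s17coCl (FL := s27mtFL (AlgebraicClosure ℚ) F)
            (s27stg_hld (AlgebraicClosure ℚ) F (s27mtL (AlgebraicClosure ℚ) F))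
            (s27stg_hgen (AlgebraicClosure ℚ) F (s27mtL (AlgebraicClosure ℚ) F)) hx G₀ hG₀ p' =
          s17coCl (FL := s27mtFL (AlgebraicClosure ℚ) F)
            (s27stg_hld (AlgebraicClosure ℚ) F (s27mtL (AlgebraicClosure ℚ) F))
            (s27stg_hgen (AlgebraicClosure ℚ) F (s27mtL (AlgebraicClosure ℚ) F)) hx G₀ hG₀ p'' ∧
        (6 : ℝ) * s17plmH s17haAbsQ Fam p' - C ≤ s17plmH s17haAbsQ Fam p'' := by
  have h := s17pmx_plM hx G₀ hG₀ hg O hc q hq 3 (by norm_num) N₀ Fam hF hF0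
  have e : ((s27indTri 3 : ℕ) : ℝ) = 6 := by
    rw [show s27indTri 3 = 6 from rfl]
    norm_num
  rw [e] at h
  exact h

end Stage

end Fermat.Agent.S17

end
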