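/-
S17 (item 17, Mordell–Weil for `J₀(N)`, `N ≥ 5` prime) — the FORMAL ROOT of the sprint (helper17).

`s17MW N`          : the Mordell–Weil group `J₀(N)(ℚ̄)^{G_ℚ}` (the type of the frozen statement);
`S17IsWeak N m`    : WEAK MORDELL–WEIL: `m · J₀(N)(ℚ)` has finite index;
`S17IsHeight N m h`: HEIGHT certificate for `h : J₀(N)(ℚ) → ℝ`: Northcott, the translation bound
                     `h x ≤ a · h (g + x) + c g` and the multiplication bound
                     `b · h x − c₀ ≤ h (m • x)` with `0 ≤ a < b`;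
`S17IsQuad N h`    : the QUADRATIC form of the certificate (`m = 2`): `0 ≤ h`, Northcott and the
                     quasi-parallelogram law;
`s17_top`          : WEAK + HEIGHT ⇒ `AddGroup.FG (s17MW N)` (Mathlib `AddCommGroup.fg_of_descent`);
`s17_top_quad`     : WEAK (`m = 2`) + QUAD ⇒ the same;
`s17_Stmt`, `s17_result` : the one open statement and the frozen type of S17.
-/
import Fermat.Prelude.Def_ModularCurve_ArithmeticGalois
import Mathlib.Algebra.Ring.Action.Submonoid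
import Mathlib.GroupTheory.Descent
import Mathlib.NumberTheory.Height.Northcott

set_option autoImplicit false

namespace Fermat.Agent.S17

open ModularCurve AlgebraicCurve

/-- the Mordell–Weil group `J₀(N)(ℚ) = J₀(N)(ℚ̄)^{G_ℚ}`. -/
abbrev s17MW (N : ℕ) [NeZero N] : Type :=
  ↥(FixedPoints.addSubgroup ((AlgebraicClosure ℚ) ≃ₐ[ℚ] (AlgebraicClosure ℚ)) (JZero N))

/-- **WEAK MORDELL–WEIL** for the multiplier `m`. -/
def S17IsWeak (N : ℕ) [NeZero N] (m : ℕ) : Prop :=
  (nsmulAddMonoidHom (α := s17MW N) m).range.FiniteIndex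

/-- **HEIGHT certificate** for `h : J₀(N)(ℚ) → ℝ` and the multiplier `m`. -/
structure S17IsHeight (N : ℕ) [NeZero N] (m : ℕ) (h : s17MW N → ℝ) : Prop where
  northcott : ∀ B : ℝ, {x : s17MW N | h x ≤ B}.Finite
  bounds : ∃ (a b c₀ : ℝ) (c : s17MW N → ℝ), 0 ≤ a ∧ a < b ∧
    (∀ g x : s17MW N, h x ≤ a * h (g + x) + c g) ∧ (∀ x : s17MW N, b * h x - c₀ ≤ h (m • x))

/-- **QUADRATIC height certificate** (`m = 2`). -/
structure S17IsQuad (N : ℕ) [NeZero N] (h : s17MW N → ℝ) : Prop where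
  northcott : ∀ B : ℝ, {x : s17MW N | h x ≤ B}.Finite
  nonneg : ∀ x : s17MW N, 0 ≤ h x
  quad : ∃ C : ℝ, ∀ x y : s17MW N, |h (x + y) + h (x - y) - 2 * (h x + h y)| ≤ C

/-- WEAK + HEIGHT ⇒ finitely generated. -/
theorem s17_top (N : ℕ) [NeZero N] (m : ℕ) (h : s17MW N → ℝ) (hw : S17IsWeak N m)
    (hh : S17IsHeight N m h) : AddGroup.FG (s17MW N) := by
  obtain ⟨a, b, c₀, c, ha, hab, h2, h3⟩ := hh.bounds
  have : Northcott h := ⟨hh.northcott⟩
  exact AddCommGroup.fg_of_descent ha hab hw h2 h3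

/-- WEAK (`m = 2`) + QUAD ⇒ finitely generated. -/
theorem s17_top_quad (N : ℕ) [NeZero N] (h : s17MW N → ℝ) (hw : S17IsWeak N 2)
    (hh : S17IsQuad N h) : AddGroup.FG (s17MW N) := by
  obtain ⟨C, hC⟩ := hh.quad
  have : Northcott h := ⟨hh.northcott⟩
  exact AddCommGroup.fg_of_descent' hw hh.nonneg hC

/-- **the one open statement of S17**: for every prime `N ≥ 5` there are a multiplier `m` and a
height `h` on `J₀(N)(ℚ)` with WEAK and HEIGHT. -/
def s17_Stmt : Prop :=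
  ∀ (N : ℕ) [NeZero N], N.Prime → 5 ≤ N →
    ∃ (m : ℕ) (h : s17MW N → ℝ), S17IsWeak N m ∧ S17IsHeight N m h

/-- the frozen type of S17 from `s17_Stmt`. -/
theorem s17_result (H : s17_Stmt) (N : ℕ) [NeZero N] (hN : N.Prime) (hN5 : 5 ≤ N) :
    AddGroup.FG ↥(FixedPoints.addSubgroup ((AlgebraicClosure ℚ) ≃ₐ[ℚ] (AlgebraicClosure ℚ))
      (JZero N)) := by
  obtain ⟨m, h, hw, hh⟩ := H N hN hN5
  exact s17_top N m h hw hh

end Fermat.Agent.S17
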