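/-
S17 sprint, leaf W-KUM (helper74): the ABSTRACT Kummer finiteness step of weak Mordell–Weil.

`s17ka_finiteIndex_of_map` : a map `φ : G → F` to a finite type whose fibres lie in cosets of `H`
                             makes `H` of finite index;
`s17ka_weak_abs`           : `Γ` acts on `J`, `G = J^Γ`; if every `x ∈ G` is `m • y` with `y : J` (DIV),
                             `J[m]` is finite (TORS) and a finite-index subgroup `Δ ≤ Γ` fixes every
                             `m`-division point of `G` (FIN), then `m • G` has finite index in `G`;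
`S17kaDiv`, `S17kaTors`, `S17kaFin` : the three inputs for `J₀(N)`;
`s17ka_weak`               : DIV + TORS + FIN ⇒ `S17IsWeak N m`.
-/
import Fermat.Agent.S17.Top

set_option autoImplicit false

namespace Fermat.Agent.S17

open ModularCurve AlgebraicCurve

/-- a map to a finite type whose fibres lie in cosets of `H` makes `H` of finite index. -/
theorem s17ka_finiteIndex_of_map {G : Type*} [AddCommGroup G] (H : AddSubgroup G) {F : Type*}
    [Finite F] (φ : G → F) (hφ : ∀ x x' : G, φ x = φ x' → x - x' ∈ H) : H.FiniteIndex := by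
  classical
  have hsurj : Function.Surjective
      (fun f : Set.range φ => (QuotientAddGroup.mk (Classical.choose f.2) : G ⧸ H)) := by
    intro q
    obtain ⟨x, rfl⟩ := QuotientAddGroup.mk_surjective q
    refine ⟨⟨φ x, x, rfl⟩, ?_⟩
    have h1 : φ (Classical.choose (⟨φ x, x, rfl⟩ : Set.range φ).2) = φ x :=
      Classical.choose_spec (⟨φ x, x, rfl⟩ : Set.range φ).2
    have h2 := hφ _ _ h1
    exact (QuotientAddGroup.eq_iff_sub_mem).2 h2
  have : Finite (G ⧸ H) := Finite.of_surjective _ hsurj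
  exact AddSubgroup.finiteIndex_of_finite_quotient

section abstract

variable {Γ J : Type*} [Group Γ] [AddCommGroup J] [DistribMulAction Γ J]

/-- **abstract Kummer finiteness**: DIV + TORS + FIN ⇒ `m • J^Γ` has finite index in `J^Γ`. -/
theorem s17ka_weak_abs (m : ℕ)
    (hdiv : ∀ x ∈ FixedPoints.addSubgroup Γ J, ∃ y : J, m • y = x)
    (htors : {t : J | m • t = 0}.Finite)
    (Δ : Subgroup Γ) (hΔ : Δ.FiniteIndex)
    (hfix : ∀ y : J, m • y ∈ FixedPoints.addSubgroup Γ J → ∀ δ ∈ Δ, δ • y = y) :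
    (nsmulAddMonoidHom (α := ↥(FixedPoints.addSubgroup Γ J)) m).range.FiniteIndex := by
  classical
  -- division points
  choose y hy using fun x : ↥(FixedPoints.addSubgroup Γ J) => hdiv x.1 x.2
  have hyG : ∀ x : ↥(FixedPoints.addSubgroup Γ J), m • y x ∈ FixedPoints.addSubgroup Γ J :=
    fun x => by rw [hy x]; exact x.2
  have hmem : ∀ (x : ↥(FixedPoints.addSubgroup Γ J)) (σ : Γ),
      σ • y x - y x ∈ {t : J | m • t = 0} := by
    intro x σ
    have h1 : σ • (m • y x) = m • y x := by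
      have := x.2
      rw [← hy x] at this
      exact this σ
    show m • (σ • y x - y x) = 0
    rw [smul_sub, ← h1]
    simp [smul_comm σ m (y x)]
  have : Finite ↥{t : J | m • t = 0} := htors.to_subtype
  have : Finite (Γ ⧸ Δ) := Subgroup.finite_quotient_of_finiteIndex
  let φ : ↥(FixedPoints.addSubgroup Γ J) → (Γ ⧸ Δ → ↥{t : J | m • t = 0}) :=
    fun x q => ⟨q.out • y x - y x, hmem x q.out⟩
  refine s17ka_finiteIndex_of_map _ φ ?_
  intro x x' hxx'
  -- `z = y x - y x'` is Γ-fixed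
  have hz : ∀ σ : Γ, σ • (y x - y x') = y x - y x' := by
    intro σ
    obtain ⟨n, hn⟩ := QuotientGroup.mk_out_eq_mul Δ σ
    have hq := congrArg Subtype.val (congrFun hxx' (QuotientGroup.mk σ))
    simp only [φ] at hq
    rw [hn] at hq
    have e1 : (n : Γ) • y x = y x := hfix _ (hyG x) n n.2
    have e2 : (n : Γ) • y x' = y x' := hfix _ (hyG x') n n.2
    rw [mul_smul, mul_smul, e1, e2] at hq
    rw [smul_sub]
    have : σ • y x - σ • y x' - (y x - y x') = (σ • y x - y x) - (σ • y x' - y x') := by abel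
    rw [← sub_eq_zero, this, hq, sub_self]
  refine ⟨⟨y x - y x', hz⟩, ?_⟩
  apply Subtype.ext
  show m • (y x - y x') = (x - x' : ↥(FixedPoints.addSubgroup Γ J)).1
  rw [smul_sub, hy x, hy x']
  rfl

end abstract

/-- DIV for `J₀(N)`: every rational class is `m` times a class over `ℚ̄`. -/
def S17kaDiv (N : ℕ) [NeZero N] (m : ℕ) : Prop :=
  ∀ x ∈ FixedPoints.addSubgroup ((AlgebraicClosure ℚ) ≃ₐ[ℚ] (AlgebraicClosure ℚ)) (JZero N),
    ∃ y : JZero N, m • y = x

/-- TORS for `J₀(N)`: the `m`-torsion is finite. -/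
def S17kaTors (N : ℕ) [NeZero N] (m : ℕ) : Prop :=
  {t : JZero N | m • t = 0}.Finite

/-- FIN for `J₀(N)`: a finite-index subgroup of `G_ℚ` fixes every `m`-division point of `J₀(N)(ℚ)`
(the field `ℚ(m⁻¹ J₀(N)(ℚ))` is a number field). -/
def S17kaFin (N : ℕ) [NeZero N] (m : ℕ) : Prop :=
  ∃ Δ : Subgroup ((AlgebraicClosure ℚ) ≃ₐ[ℚ] (AlgebraicClosure ℚ)), Δ.FiniteIndex ∧
    ∀ y : JZero N,
      m • y ∈ FixedPoints.addSubgroup ((AlgebraicClosure ℚ) ≃ₐ[ℚ] (AlgebraicClosure ℚ)) (JZero N) →
      ∀ δ ∈ Δ, δ • y = y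

/-- **weak Mordell–Weil from DIV + TORS + FIN**. -/
theorem s17ka_weak (N : ℕ) [NeZero N] (m : ℕ) (hdiv : S17kaDiv N m) (htors : S17kaTors N m)
    (hfin : S17kaFin N m) : S17IsWeak N m := by
  obtain ⟨Δ, hΔ, hfix⟩ := hfin
  exact s17ka_weak_abs m hdiv htors Δ hΔ hfix

end Fermat.Agent.S17
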