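/-
S17 sprint — leaf **W5 (tors)** (helper81): the torsion of `J₀(N)(ℚ̄)` is finite.

* `s17to_isCurveOver N`     : `IsCurveOver ℚ̄ (FF N)` for the function field of `X₀(N)` over `ℚ̄`
                              (principal divisors and residue fields from ES/HModular, `Ω` of rank one
                              from S24/DiffSpan);
* `s17to_essFiniteType N`   : `Algebra.EssFiniteType ℚ̄ (FF N)`;
* `s17to_card N ℓ k`        : `#J₀(N)[ℓ^k] = ℓ^(2 g k)` (the instance of S27, `s27final_main`);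
* `s17to_finite_pow N ℓ k`  : `{t : JZero N | ℓ^k • t = 0}` is finite;
* `s17to_tors N ℓ`          : `S17kaTors N ℓ` for every prime `ℓ` (input TORS of `s17ka_weak`);
* `s17to_tors_two N`        : `S17kaTors N 2`.
-/
import Fermat.Agent.S17.KumAbs
import Fermat.Agent.S27.Final
import Fermat.Agent.ES.HModular
import Fermat.Agent.S24.DiffSpan

set_option autoImplicit false

noncomputable section

namespace Fermat.Agent.S17

open ModularCurve AlgebraicCurve IntermediateField Fermat.Agent.S24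

/-- the function field of `X₀(N)` over `ℚ̄` is a curve in the sense of the prelude. -/
theorem s17to_isCurveOver (N : ℕ) [NeZero N] : IsCurveOver Kb (FF N) := by
  have := Fermat.Agent.ES.H.finiteDimensional_adjoin_jF N
  have := Fermat.Agent.ES.H.hasPrincipalDivisors_FF N
  refine { finiteResidue := fun v => ?_, kaehler_free_rank_one := ⟨inferInstance, ?_⟩ }
  · have hbij := Fermat.Agent.ES.H.residue_bijective_FF N v
    exact Module.Finite.of_surjective (Algebra.linearMap Kb v.ResidueField) hbij.2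
  · exact Fermat.Agent.S24.DiffSpan.finrank_kaehler_of_finite (jF N) (transcendental_jF N)

/-- the function field of `X₀(N)` over `ℚ̄` is finitely generated as a field. -/
theorem s17to_essFiniteType (N : ℕ) [NeZero N] : Algebra.EssFiniteType Kb (FF N) := by
  have := Fermat.Agent.ES.H.finiteDimensional_adjoin_jF N
  have : Algebra.EssFiniteType Kb ↥(Kb⟮jF N⟯) :=
    IntermediateField.essFiniteType_iff.2 ⟨{jF N}, by simp⟩
  have : Algebra.EssFiniteType ↥(Kb⟮jF N⟯) (FF N) := inferInstance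
  exact Algebra.EssFiniteType.comp Kb ↥(Kb⟮jF N⟯) (FF N)

/-- **S27 for `J₀(N)`**: `#J₀(N)[ℓ^k] = ℓ^(2 g k)`. -/
theorem s17to_card (N : ℕ) [NeZero N] (ℓ : ℕ) [Fact ℓ.Prime] (k : ℕ) :
    Nat.card (Pic0.torsion Kb (FF N) (ℓ ^ k)) = ℓ ^ (2 * genusFF Kb (FF N) * k) := by
  have := s17to_isCurveOver N
  have := s17to_essFiniteType N
  exact Fermat.Agent.S27.s27final_main Kb (FF N) ℓ k

/-- the `ℓ^k`-torsion of `J₀(N)(ℚ̄)` is finite. -/
theorem s17to_finite_pow (N : ℕ) [NeZero N] (ℓ : ℕ) [hℓ : Fact ℓ.Prime] (k : ℕ) :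
    {t : JZero N | (ℓ ^ k) • t = 0}.Finite := by
  have hcard := s17to_card N ℓ k
  have hpos : 0 < Nat.card (Pic0.torsion Kb (FF N) (ℓ ^ k)) := by
    rw [hcard]; exact pow_pos hℓ.out.pos _
  have hfin : Finite (Pic0.torsion Kb (FF N) (ℓ ^ k)) := (Nat.card_pos_iff.1 hpos).2
  have hset : {t : JZero N | (ℓ ^ k) • t = 0} =
      ((Pic0.torsion Kb (FF N) (ℓ ^ k) : AddSubgroup (Pic0 Kb (FF N))) : Set (JZero N)) := by
    ext t
    simp only [Set.mem_ofPred_eq, SetLike.mem_coe, Pic0.mem_torsion]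
    rw [natCast_zsmul]
  rw [hset]
  exact Set.toFinite _

/-- **W5 (tors)**: `S17kaTors N ℓ` for every prime `ℓ`. -/
theorem s17to_tors (N : ℕ) [NeZero N] (ℓ : ℕ) [Fact ℓ.Prime] : S17kaTors N ℓ := by
  have h := s17to_finite_pow N ℓ 1
  simpa [S17kaTors, pow_one] using h

/-- **W5 (tors)** at `m = 2`. -/
theorem s17to_tors_two (N : ℕ) [NeZero N] : S17kaTors N 2 :=
  haveI : Fact (Nat.Prime 2) := ⟨Nat.prime_two⟩
  s17to_tors N 2

/-- **W5 (tors)** at `m = 3`. -/
theorem s17to_tors_three (N : ℕ) [NeZero N] : S17kaTors N 3 :=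
  haveI : Fact (Nat.Prime 3) := ⟨Nat.prime_three⟩
  s17to_tors N 3

end Fermat.Agent.S17

end
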