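/-
S17 sprint — leaf **G0** (helper81): the case of genus `0` and the case split for the top.

All S27-B bricks (stage, `ψ`, `b`, cube, …) need `0 < genusFF K F`.  For `N ∈ {5, 7, 13}` the
curve `X₀(N)` has genus `0`; then `J₀(N) = 0` and there is nothing to prove.

* `s17g0_eq_zero N h0 x`   : `genusFF Kb (FF N) = 0 → x = 0` for every `x : JZero N`;
* `s17g0_subsingleton`     : then the Mordell–Weil group `s17MW N` is a subsingleton;
* `s17g0_fg N h0`          : and it is finitely generated;
* `s17g0_cases`            : `(0 < genusFF Kb (FF N) → AddGroup.FG (s17MW N)) → AddGroup.FG (s17MW N)`;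
* `s17g0_cases_frozen`     : the same with the literal frozen type of S17.
-/
import Fermat.Agent.S17.Tors
import Fermat.Agent.S27.G0Final

set_option autoImplicit false

noncomputable section

namespace Fermat.Agent.S17

open ModularCurve AlgebraicCurve Fermat.Agent.S24

/-- genus `0` ⇒ `J₀(N)(ℚ̄) = 0`. -/
theorem s17g0_eq_zero (N : ℕ) [NeZero N] (h0 : genusFF Kb (FF N) = 0) (x : JZero N) : x = 0 := by
  have := s17to_isCurveOver N
  have := s17to_essFiniteType N
  exact Fermat.Agent.S27.s27g0_pic0_final Kb (FF N) h0 x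

/-- genus `0` ⇒ the Mordell–Weil group is trivial. -/
theorem s17g0_subsingleton (N : ℕ) [NeZero N] (h0 : genusFF Kb (FF N) = 0) :
    Subsingleton (s17MW N) :=
  ⟨fun x y => Subtype.ext ((s17g0_eq_zero N h0 x.1).trans (s17g0_eq_zero N h0 y.1).symm)⟩

/-- genus `0` ⇒ the Mordell–Weil group is finitely generated. -/
theorem s17g0_fg (N : ℕ) [NeZero N] (h0 : genusFF Kb (FF N) = 0) : AddGroup.FG (s17MW N) := by
  have := s17g0_subsingleton N h0
  exact AddGroup.fg_of_finite

/-- **case split**: it suffices to prove Mordell–Weil for `X₀(N)` of positive genus. -/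
theorem s17g0_cases (N : ℕ) [NeZero N]
    (hpos : 0 < genusFF Kb (FF N) → AddGroup.FG (s17MW N)) : AddGroup.FG (s17MW N) := by
  rcases Nat.eq_zero_or_pos (genusFF Kb (FF N)) with h0 | h
  · exact s17g0_fg N h0
  · exact hpos h

/-- the case split with the literal frozen type of S17. -/
theorem s17g0_cases_frozen (N : ℕ) [NeZero N]
    (hpos : 0 < genusFF (AlgebraicClosure ℚ) ↥(modularFunctionFieldBar N) →
      AddGroup.FG ↥(FixedPoints.addSubgroup ((AlgebraicClosure ℚ) ≃ₐ[ℚ] (AlgebraicClosure ℚ))
        (JZero N))) :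
    AddGroup.FG ↥(FixedPoints.addSubgroup ((AlgebraicClosure ℚ) ≃ₐ[ℚ] (AlgebraicClosure ℚ))
      (JZero N)) :=
  s17g0_cases N hpos

end Fermat.Agent.S17

end
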