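/-
S17 sprint, layer H (helper61): **the INFIMUM HEIGHT — formal assembly** (Mathlib only).

`P` = a set of "places" (e.g. `K`-places of the stage field, or the `Γ`-stable ones), `cl : P → J` the
class of the centre, `H : P → ℝ`, `0 ≤ H` (the height of the place-value of a fixed tuple).

    `s17ihInf cl H x := sInf (H '' {p | cl p = x})`        (no well-definedness of values needed)

Place-level statements pass to the infimum:

* `s17ih_le`, `s17ih_nonneg`, `s17ih_exists_lt`        : basic facts;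
* `s17ih_northcott`  : Northcott on places ⇒ Northcott for the infimum on `range cl`;
* `s17ih_lift`       : LIFT (`every place of class m • x lies under a place of class x` with
                       `b * H p' - c₀ ≤ H p''`) ⇒ (M) `b * h x - c₀ ≤ h (m • x)`;
* `s17ih_transport`  : TRANSPORT ⇒ (T) `h x ≤ a * h (γ + x) + c γ`;
* `s17ih_upper`      : upper parallelogram on places ⇒ on the infimum;
* `s17ih_lower`      : lower parallelogram on places, exact centres ⇒ on the infimum;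
* `s17ih_lower_tors` : lower parallelogram up to a torsion point `τ` in a FINITE set `T`
                       (pigeonhole) ⇒ `∃ τ ∈ T, 2 h (x + τ) + 2 h (g + τ) ≤ h (x + g) + h (x − g) + C`;
* `s17ih_fg`         : weak Mordell–Weil + LIFT + TRANSPORT + Northcott on places, `a < b`,
                       `cl` onto ⇒ `AddGroup.FG`.
-/
import Mathlib.GroupTheory.Descent
import Mathlib.Order.Northcott
import Mathlib.Tactic

set_option autoImplicit false
set_option linter.style.haveILetI false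

namespace Fermat.Agent.S17

variable {J P : Type*} (cl : P → J) (H : P → ℝ)

/-- the infimum height. -/
noncomputable def s17ihInf (x : J) : ℝ := sInf (H '' {p | cl p = x})

variable {cl H}

theorem s17ih_bddBelow (hH : ∀ p, 0 ≤ H p) (x : J) : BddBelow (H '' {p | cl p = x}) :=
  ⟨0, by rintro _ ⟨p, -, rfl⟩; exact hH p⟩

theorem s17ih_le (hH : ∀ p, 0 ≤ H p) {x : J} {p : P} (hp : cl p = x) : s17ihInf cl H x ≤ H p :=
  csInf_le (s17ih_bddBelow hH x) ⟨p, hp, rfl⟩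

theorem s17ih_nonneg (hH : ∀ p, 0 ≤ H p) (x : J) : 0 ≤ s17ihInf cl H x :=
  Real.sInf_nonneg (by rintro _ ⟨p, -, rfl⟩; exact hH p)

theorem s17ih_le_of_forall {x : J} (hx : ∃ p, cl p = x) {r : ℝ}
    (h : ∀ p, cl p = x → r ≤ H p) : r ≤ s17ihInf cl H x := by
  obtain ⟨p₀, hp₀⟩ := hx
  refine le_csInf ⟨H p₀, p₀, hp₀, rfl⟩ ?_
  rintro _ ⟨p, hp, rfl⟩
  exact h p hp

theorem s17ih_exists_lt {x : J} (hx : ∃ p, cl p = x) {ε : ℝ} (hε : 0 < ε) :
    ∃ p, cl p = x ∧ H p < s17ihInf cl H x + ε := by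
  obtain ⟨p₀, hp₀⟩ := hx
  have hne : (H '' {p | cl p = x}).Nonempty := ⟨H p₀, p₀, hp₀, rfl⟩
  obtain ⟨_, ⟨p, hp, rfl⟩, hlt⟩ := Real.lt_sInf_add_pos hne hε
  exact ⟨p, hp, hlt⟩

/-- **Northcott** passes to the infimum (on the classes which are centres). -/
theorem s17ih_northcott (hN : ∀ B : ℝ, {x : J | ∃ p, cl p = x ∧ H p ≤ B}.Finite) (B : ℝ) :
    {x : J | (∃ p, cl p = x) ∧ s17ihInf cl H x ≤ B}.Finite := by
  refine (hN (B + 1)).subset ?_
  rintro x ⟨hx, hB⟩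
  obtain ⟨p, hp, hlt⟩ := s17ih_exists_lt (H := H) hx one_pos
  exact ⟨p, hp, by linarith⟩

/-- **(M) from LIFT.** -/
theorem s17ih_lift (hH : ∀ p, 0 ≤ H p) {m : ℕ} {b c₀ : ℝ} (hb : 0 ≤ b) [AddMonoid J]
    (lift : ∀ (x : J) (p'' : P), cl p'' = m • x → ∃ p', cl p' = x ∧ b * H p' - c₀ ≤ H p'')
    (x : J) (hx : ∃ p, cl p = m • x) : b * s17ihInf cl H x - c₀ ≤ s17ihInf cl H (m • x) := by
  refine s17ih_le_of_forall hx fun p'' hp'' => ?_
  obtain ⟨p', hp', h1⟩ := lift x p'' hp''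
  have h2 : b * s17ihInf cl H x ≤ b * H p' := mul_le_mul_of_nonneg_left (s17ih_le hH hp') hb
  linarith

/-- **(T) from TRANSPORT.** -/
theorem s17ih_transport (hH : ∀ p, 0 ≤ H p) {a : ℝ} (ha : 0 ≤ a) [Add J] {γ : J} {cγ : ℝ}
    (transp : ∀ (x : J) (p : P), cl p = γ + x → ∃ p₁, cl p₁ = x ∧ H p₁ ≤ a * H p + cγ)
    (x : J) (hx : ∃ p, cl p = γ + x) :
    s17ihInf cl H x ≤ a * s17ihInf cl H (γ + x) + cγ := by
  refine le_of_forall_pos_le_add fun ε hε => ?_
  have ha1 : 0 < a + 1 := by linarith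
  obtain ⟨p, hp, hlt⟩ := s17ih_exists_lt (H := H) hx (div_pos hε ha1)
  obtain ⟨p₁, hp₁, h1⟩ := transp x p hp
  have h2 : s17ihInf cl H x ≤ H p₁ := s17ih_le hH hp₁
  have h3 : a * H p ≤ a * (s17ihInf cl H (γ + x) + ε / (a + 1)) :=
    mul_le_mul_of_nonneg_left hlt.le ha
  have h4 : a * (ε / (a + 1)) ≤ ε := by
    rw [← mul_div_assoc, div_le_iff₀ ha1]
    nlinarith
  nlinarith

/-- **upper parallelogram** passes to the infimum. -/
theorem s17ih_upper (hH : ∀ p, 0 ≤ H p) [AddGroup J] {C : ℝ}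
    (up : ∀ p₁ p₂ : P, ∃ pP pM : P, cl pP = cl p₁ + cl p₂ ∧ cl pM = cl p₁ - cl p₂ ∧
      H pP + H pM ≤ 2 * H p₁ + 2 * H p₂ + C)
    (x g : J) (hx : ∃ p, cl p = x) (hg : ∃ p, cl p = g) :
    s17ihInf cl H (x + g) + s17ihInf cl H (x - g) ≤
      2 * s17ihInf cl H x + 2 * s17ihInf cl H g + C := by
  refine le_of_forall_pos_le_add fun ε hε => ?_
  obtain ⟨p₁, hp₁, h1⟩ := s17ih_exists_lt (H := H) hx (by positivity : 0 < ε / 4)
  obtain ⟨p₂, hp₂, h2⟩ := s17ih_exists_lt (H := H) hg (by positivity : 0 < ε / 4)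
  obtain ⟨pP, pM, hcP, hcM, h3⟩ := up p₁ p₂
  rw [hp₁, hp₂] at hcP hcM
  have h4 := s17ih_le hH hcP
  have h5 := s17ih_le hH hcM
  linarith

/-- **lower parallelogram**, exact centres, passes to the infimum. -/
theorem s17ih_lower (hH : ∀ p, 0 ≤ H p) [AddGroup J] {C : ℝ}
    (low : ∀ (x g : J) (pP pM : P), cl pP = x + g → cl pM = x - g →
      ∃ p₁ p₂ : P, cl p₁ = x ∧ cl p₂ = g ∧ 2 * H p₁ + 2 * H p₂ ≤ H pP + H pM + C)
    (x g : J) (hp : ∃ p, cl p = x + g) (hm : ∃ p, cl p = x - g) :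
    2 * s17ihInf cl H x + 2 * s17ihInf cl H g ≤
      s17ihInf cl H (x + g) + s17ihInf cl H (x - g) + C := by
  refine le_of_forall_pos_le_add fun ε hε => ?_
  obtain ⟨pP, hpP, h1⟩ := s17ih_exists_lt (H := H) hp (by positivity : 0 < ε / 2)
  obtain ⟨pM, hpM, h2⟩ := s17ih_exists_lt (H := H) hm (by positivity : 0 < ε / 2)
  obtain ⟨p₁, p₂, hc₁, hc₂, h3⟩ := low x g pP pM hpP hpM
  have h4 := s17ih_le hH hc₁
  have h5 := s17ih_le hH hc₂
  linarith

/-- **lower parallelogram up to torsion** in a finite set `T` (pigeonhole on `ε = 1/(n+1)`). -/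
theorem s17ih_lower_tors (hH : ∀ p, 0 ≤ H p) [AddGroup J] {C : ℝ} (T : Set J) (hT : T.Finite)
    (low : ∀ (x g : J) (pP pM : P), cl pP = x + g → cl pM = x - g →
      ∃ τ ∈ T, ∃ p₁ p₂ : P, cl p₁ = x + τ ∧ cl p₂ = g + τ ∧
        2 * H p₁ + 2 * H p₂ ≤ H pP + H pM + C)
    (x g : J) (hp : ∃ p, cl p = x + g) (hm : ∃ p, cl p = x - g) :
    ∃ τ ∈ T, 2 * s17ihInf cl H (x + τ) + 2 * s17ihInf cl H (g + τ) ≤
      s17ihInf cl H (x + g) + s17ihInf cl H (x - g) + C := by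
  have key : ∀ n : ℕ, ∃ τ ∈ T, 2 * s17ihInf cl H (x + τ) + 2 * s17ihInf cl H (g + τ) ≤
      s17ihInf cl H (x + g) + s17ihInf cl H (x - g) + C + 1 / ((n : ℝ) + 1) := by
    intro n
    have hε : (0 : ℝ) < 1 / ((n : ℝ) + 1) := by positivity
    obtain ⟨pP, hpP, h1⟩ := s17ih_exists_lt (H := H) hp (half_pos hε)
    obtain ⟨pM, hpM, h2⟩ := s17ih_exists_lt (H := H) hm (half_pos hε)
    obtain ⟨τ, hτ, p₁, p₂, hc₁, hc₂, h3⟩ := low x g pP pM hpP hpM
    have h4 := s17ih_le hH hc₁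
    have h5 := s17ih_le hH hc₂
    exact ⟨τ, hτ, by linarith⟩
  choose τ hτT hτ using key
  -- some value of `τ` is taken infinitely often
  haveI : Finite T := hT
  obtain ⟨t, ht⟩ := Finite.exists_infinite_fiber (fun n : ℕ => (⟨τ n, hτT n⟩ : T))
  refine ⟨t.1, t.2, le_of_forall_pos_le_add fun ε hε => ?_⟩
  obtain ⟨N, hN⟩ := exists_nat_one_div_lt hε
  have hinf : (((fun n : ℕ => (⟨τ n, hτT n⟩ : T)) ⁻¹' {t}) : Set ℕ).Infinite :=
    Set.infinite_coe_iff.1 ht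
  obtain ⟨n, hn, hNn⟩ := hinf.exists_gt N
  have hτn : τ n = t.1 := congrArg Subtype.val hn
  have h6 := hτ n
  rw [hτn] at h6
  have h7 : 1 / ((n : ℝ) + 1) ≤ 1 / ((N : ℝ) + 1) := by
    apply one_div_le_one_div_of_le (by positivity)
    have : (N : ℝ) ≤ n := by exact_mod_cast hNn.le
    linarith
  linarith

/-- **the descent for the infimum height**: weak Mordell–Weil + LIFT + TRANSPORT + Northcott on
places ⇒ finitely generated. -/
theorem s17ih_fg {G : Type*} [AddCommGroup G] {P : Type*} {cl : P → G} {H : P → ℝ}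
    (hH : ∀ p, 0 ≤ H p) (hsurj : Function.Surjective cl) {m : ℕ} {a b c₀ : ℝ} {c : G → ℝ}
    (ha : 0 ≤ a) (hab : a < b)
    (hw : (nsmulAddMonoidHom (α := G) m).range.FiniteIndex)
    (lift : ∀ (x : G) (p'' : P), cl p'' = m • x → ∃ p', cl p' = x ∧ b * H p' - c₀ ≤ H p'')
    (transp : ∀ (γ x : G) (p : P), cl p = γ + x → ∃ p₁, cl p₁ = x ∧ H p₁ ≤ a * H p + c γ)
    (hN : ∀ B : ℝ, {x : G | ∃ p, cl p = x ∧ H p ≤ B}.Finite) : AddGroup.FG G := by
  have hN' : ∀ B : ℝ, {x : G | s17ihInf cl H x ≤ B}.Finite := fun B =>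
    (s17ih_northcott hN B).subset fun x hx => ⟨hsurj x, hx⟩
  haveI : Northcott (s17ihInf cl H) := ⟨hN'⟩
  exact AddCommGroup.fg_of_descent ha hab hw
    (fun γ x => s17ih_transport hH ha (transp γ) x (hsurj _))
    (fun x => s17ih_lift hH (ha.trans hab.le) lift x (hsurj _))

end Fermat.Agent.S17
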