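/-
S17 sprint, layer H — **formal root for a MULTI-VALUED (infimum) height** (helper46).

If the height `h` is only defined on the big group `J = J₀(N)(ℚ̄)` as an infimum over places with a
given centre, the multiplication bound comes with a torsion ambiguity:

  (T)  `h x ≤ a * h (g + x) + c g`                         for ALL `g, x : J`;
  (M′) `∃ ρ, m • ρ = 0 ∧ b * h (x + ρ) − C ≤ h (m • x)`    for all `x : J`;

with `J[m]` finite and `a² < b`.  Then every subgroup `G ≤ J` with weak Mordell–Weil at `m` and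
the Northcott property for `h` on `G` is finitely generated:

* `s17ti_mult`  : (T) + (M′) + `J[m]` finite ⇒ `(b / a) * h x − c₀ ≤ h (m • x)`;
* `s17ti_fg`    : the descent (Mathlib `AddCommGroup.fg_of_descent`);
* `s17ti_fg_four` : the case `m = 4`, `a = 2`, `b = 16` of the design note (no well-definedness
                  of place-values, no translations needed).
-/
import Mathlib.GroupTheory.Descent
import Mathlib.Order.Northcott
import Mathlib.Tactic

set_option autoImplicit false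
set_option linter.style.haveILetI false

namespace Fermat.Agent.S17

/-- (T) + (M′) + finiteness of the `m`-torsion ⇒ a genuine multiplication bound. -/
theorem s17ti_mult {J : Type*} [AddCommGroup J] (m : ℕ) (h : J → ℝ) (a b C : ℝ) (c : J → ℝ)
    (ha : 0 < a) (hb : 0 ≤ b)
    (hT : ∀ g x : J, h x ≤ a * h (g + x) + c g)
    (hM : ∀ x : J, ∃ ρ : J, m • ρ = 0 ∧ b * h (x + ρ) - C ≤ h (m • x))
    (htors : {t : J | m • t = 0}.Finite) :
    ∃ c₀ : ℝ, ∀ x : J, b / a * h x - c₀ ≤ h (m • x) := by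
  obtain ⟨M, hMb⟩ := (htors.image c).bddAbove
  have hM' : ∀ ρ : J, m • ρ = 0 → c ρ ≤ M := fun ρ hρ => hMb ⟨ρ, hρ, rfl⟩
  have hM0 : 0 ≤ b / a := div_nonneg hb ha.le
  refine ⟨b / a * M + C, fun x => ?_⟩
  obtain ⟨ρ, hρ, h1⟩ := hM x
  have h2 := hT ρ x
  rw [add_comm ρ x] at h2
  -- `h (x + ρ) ≥ (h x − c ρ) / a`
  have h3 : (h x - c ρ) / a ≤ h (x + ρ) := by
    rw [div_le_iff₀ ha]
    linarith
  have h4 : b / a * (h x - c ρ) ≤ b * h (x + ρ) := by
    have h5 := mul_le_mul_of_nonneg_left h3 hb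
    have h6 : b * ((h x - c ρ) / a) = b / a * (h x - c ρ) := by ring
    rwa [h6] at h5
  have h7 : b / a * c ρ ≤ b / a * M := mul_le_mul_of_nonneg_left (hM' ρ hρ) hM0
  have h8 : b / a * (h x - c ρ) = b / a * h x - b / a * c ρ := by ring
  linarith

/-- **descent with a multi-valued height.** -/
theorem s17ti_fg {J : Type*} [AddCommGroup J] (G : AddSubgroup J) (m : ℕ) (h : J → ℝ)
    (a b C : ℝ) (c : J → ℝ) (ha : 0 < a) (hab : a ^ 2 < b)
    (hT : ∀ g x : J, h x ≤ a * h (g + x) + c g)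
    (hM : ∀ x : J, ∃ ρ : J, m • ρ = 0 ∧ b * h (x + ρ) - C ≤ h (m • x))
    (htors : {t : J | m • t = 0}.Finite)
    (hN : ∀ B : ℝ, {x : G | h (x : J) ≤ B}.Finite)
    (hw : (nsmulAddMonoidHom (α := G) m).range.FiniteIndex) : AddGroup.FG G := by
  have hb : 0 ≤ b := (sq_nonneg a).trans hab.le
  obtain ⟨c₀, hc₀⟩ := s17ti_mult m h a b C c ha hb hT hM htors
  have hab' : a < b / a := by
    rw [lt_div_iff₀ ha]
    nlinarith
  haveI : Northcott (fun x : G => h (x : J)) := ⟨hN⟩
  refine AddCommGroup.fg_of_descent (n := m) (h := fun x : G => h (x : J)) (a := a)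
    (b := b / a) (c₀ := c₀) (c := fun g : G => c (g : J)) ha.le hab' hw ?_ ?_
  · intro g x
    exact hT (g : J) (x : J)
  · intro x
    have := hc₀ (x : J)
    simpa using this

/-- the case `m = 4`, `a = 2`, `b = 16`. -/
theorem s17ti_fg_four {J : Type*} [AddCommGroup J] (G : AddSubgroup J) (h : J → ℝ)
    (C : ℝ) (c : J → ℝ)
    (hT : ∀ g x : J, h x ≤ 2 * h (g + x) + c g)
    (hM : ∀ x : J, ∃ ρ : J, 4 • ρ = 0 ∧ 16 * h (x + ρ) - C ≤ h (4 • x))
    (htors : {t : J | 4 • t = 0}.Finite)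
    (hN : ∀ B : ℝ, {x : G | h (x : J) ≤ B}.Finite)
    (hw : (nsmulAddMonoidHom (α := G) 4).range.FiniteIndex) : AddGroup.FG G :=
  s17ti_fg G 4 h 2 16 C c (by norm_num) (by norm_num) hT hM htors hN hw

end Fermat.Agent.S17
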