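/-
S17 sprint, layer H — **A-TOP** (helper77): the FORMAL END of design A v2 (NOTES/S17-designA.md).

`J := JZero N` (all of `J₀(N)(ℚ̄)`), `G := s17MW N = J^Γ`.

LEVEL 1 (a height `h : J → ℝ`), multiplier `3`, `a = 2`, `b = 9`:
* `S17hxT N h`   : (T)  `∃ c, ∀ g x, h x ≤ 2 * h (g + x) + c g`;
* `S17hxM N h`   : (M′) `∃ C, ∀ x, ∃ ρ, 3 • ρ = 0 ∧ 9 * h (x + ρ) - C ≤ h (3 • x)`;
* `S17hxN N h`   : (N)  `∀ B, {x : G | h x ≤ B}.Finite`;
* `s17hx_fg`     : (T) + (M′) + (N) + `S17kaTors N 3` + `S17IsWeak N 3` ⇒ `AddGroup.FG G`.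

LEVEL 2 (PLACES: a type `P`, the class of the centre `cl : P → J`, the height of the place-value
`H : P → ℝ`; the height is `s17ihInf cl H`, the infimum over the places of a given class):
* `S17hxPlM cl H` : `∃ C, ∀ p'', ∃ p', 3 • cl p' = cl p'' ∧ 9 * H p' - C ≤ H p''`
                    (A-EXT + A-PTb + A-M: every place is `p' ∘ ψ₃`);
* `S17hxPlT cl H` : `∀ g, ∃ c, ∀ p, ∃ p₁, g + cl p₁ = cl p ∧ H p₁ ≤ 2 * H p + c`
                    (A-PTb + A-T: `p₁ = p ∘ ρ_g`);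
* `S17hxPlN cl H` : `∀ B, {x : G | ∃ p, cl p = x ∧ H p ≤ B}.Finite`   (A-N, on places);
* `s17hx_lift_tors` : the pigeonhole which turns `S17hxPlM` into (M′) for the infimum;
* `s17hx_fg_places` : `0 ≤ H`, `cl` onto (A-PTa), the three place statements, TORS and WEAK ⇒
                      `AddGroup.FG G`.

`s17hx_Stmt`, `s17hx_result` : the one open statement of layer H in place form and the frozen type
of S17 from it (TORS and WEAK as hypotheses: they are closed in `S17/TorsES.lean` and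
`S17/WeakClosed.lean`; the closed form is `S17/HTopClosed.lean`).
-/
import Fermat.Agent.S17.Top
import Fermat.Agent.S17.KumAbs
import Fermat.Agent.S17.TopInf
import Fermat.Agent.S17.InfHeight

set_option autoImplicit false
set_option linter.style.haveILetI false

namespace Fermat.Agent.S17

open ModularCurve AlgebraicCurve

/-! ### level 1: a height on `J` -/

/-- **(T)** translation bound on all of `J₀(N)(ℚ̄)`. -/
def S17hxT (N : ℕ) [NeZero N] (h : JZero N → ℝ) : Prop :=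
  ∃ c : JZero N → ℝ, ∀ g x : JZero N, h x ≤ 2 * h (g + x) + c g

/-- **(M′)** multiplication bound up to a `3`-torsion point. -/
def S17hxM (N : ℕ) [NeZero N] (h : JZero N → ℝ) : Prop :=
  ∃ C : ℝ, ∀ x : JZero N, ∃ ρ : JZero N, 3 • ρ = 0 ∧ 9 * h (x + ρ) - C ≤ h (3 • x)

/-- **(N)** Northcott on the rational classes. -/
def S17hxN (N : ℕ) [NeZero N] (h : JZero N → ℝ) : Prop :=
  ∀ B : ℝ, {x : s17MW N | h (x : JZero N) ≤ B}.Finite

/-- **A-TOP, level 1**: (T) + (M′) + (N) + TORS + WEAK ⇒ finitely generated. -/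
theorem s17hx_fg (N : ℕ) [NeZero N] (h : JZero N → ℝ) (hT : S17hxT N h) (hM : S17hxM N h)
    (hN : S17hxN N h) (htors : S17kaTors N 3) (hw : S17IsWeak N 3) :
    AddGroup.FG (s17MW N) := by
  obtain ⟨c, hc⟩ := hT
  obtain ⟨C, hC⟩ := hM
  exact s17ti_fg
    (FixedPoints.addSubgroup ((AlgebraicClosure ℚ) ≃ₐ[ℚ] (AlgebraicClosure ℚ)) (JZero N))
    3 h 2 9 C c (by norm_num) (by norm_num) hc hC htors hN hw

/-! ### level 2: places -/

/-- **pigeonhole**: a LIFT of places up to `m`-torsion gives (M′) for the infimum height. -/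
theorem s17hx_lift_tors {J P : Type*} [AddCommGroup J] {cl : P → J} {H : P → ℝ}
    (hH : ∀ p, 0 ≤ H p) (m : ℕ) {b C : ℝ} (hb : 0 ≤ b)
    (htors : {t : J | m • t = 0}.Finite)
    (lift : ∀ p'' : P, ∃ p' : P, m • cl p' = cl p'' ∧ b * H p' - C ≤ H p'')
    (x : J) (hx : ∃ p, cl p = m • x) :
    ∃ ρ : J, m • ρ = 0 ∧ b * s17ihInf cl H (x + ρ) - C ≤ s17ihInf cl H (m • x) := by
  have key : ∀ n : ℕ, ∃ ρ ∈ {t : J | m • t = 0},
      b * s17ihInf cl H (x + ρ) - C ≤ s17ihInf cl H (m • x) + 1 / ((n : ℝ) + 1) := by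
    intro n
    have hε : (0 : ℝ) < 1 / ((n : ℝ) + 1) := by positivity
    obtain ⟨p'', hp'', hlt⟩ := s17ih_exists_lt (H := H) hx hε
    obtain ⟨p', hp', h1⟩ := lift p''
    refine ⟨cl p' - x, ?_, ?_⟩
    · show m • (cl p' - x) = 0
      rw [smul_sub, hp', hp'', sub_self]
    · have h2 : s17ihInf cl H (x + (cl p' - x)) ≤ H p' :=
        s17ih_le hH (by abel)
      have h3 : b * s17ihInf cl H (x + (cl p' - x)) ≤ b * H p' :=
        mul_le_mul_of_nonneg_left h2 hb
      linarith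
  choose τ hτT hτ using key
  haveI : Finite {t : J | m • t = 0} := htors
  obtain ⟨t, ht⟩ := Finite.exists_infinite_fiber
    (fun n : ℕ => (⟨τ n, hτT n⟩ : {t : J | m • t = 0}))
  refine ⟨t.1, t.2, le_of_forall_pos_le_add fun ε hε => ?_⟩
  obtain ⟨N, hN⟩ := exists_nat_one_div_lt hε
  have hinf : (((fun n : ℕ => (⟨τ n, hτT n⟩ : {t : J | m • t = 0})) ⁻¹' {t}) : Set ℕ).Infinite :=
    Set.infinite_coe_iff.1 ht
  obtain ⟨n, hn, hNn⟩ := hinf.exists_gt N
  have hτn : τ n = t.1 := congrArg Subtype.val hn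
  have h6 := hτ n
  rw [hτn] at h6
  have h7 : 1 / ((n : ℝ) + 1) ≤ 1 / ((N : ℝ) + 1) := by
    apply one_div_le_one_div_of_le (by positivity)
    have : (N : ℝ) ≤ n := by exact_mod_cast hNn.le
    linarith
  linarith

/-- place form of (M′): every place `p''` is a lift (`p'' = p' ∘ ψ₃`) of a place `p'` whose class
is a third of the class of `p''`, with `9 * H p' - C ≤ H p''`. -/
def S17hxPlM {N : ℕ} [NeZero N] {P : Type*} (cl : P → JZero N) (H : P → ℝ) : Prop :=
  ∃ C : ℝ, ∀ p'' : P, ∃ p' : P, 3 • cl p' = cl p'' ∧ 9 * H p' - C ≤ H p''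

/-- place form of (T): every place `p` has a translate `p₁` (`= p ∘ ρ_g`) with
`g + cl p₁ = cl p` and `H p₁ ≤ 2 * H p + c_g`. -/
def S17hxPlT {N : ℕ} [NeZero N] {P : Type*} (cl : P → JZero N) (H : P → ℝ) : Prop :=
  ∀ g : JZero N, ∃ c : ℝ, ∀ p : P, ∃ p₁ : P, g + cl p₁ = cl p ∧ H p₁ ≤ 2 * H p + c

/-- place form of (N): finitely many RATIONAL classes are centres of a place of bounded height. -/
def S17hxPlN {N : ℕ} [NeZero N] {P : Type*} (cl : P → JZero N) (H : P → ℝ) : Prop :=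
  ∀ B : ℝ, {x : s17MW N | ∃ p : P, cl p = (x : JZero N) ∧ H p ≤ B}.Finite

/-- (T) for the infimum height from the place form. -/
theorem s17hx_T_of_places {N : ℕ} [NeZero N] {P : Type*} {cl : P → JZero N} {H : P → ℝ}
    (hH : ∀ p, 0 ≤ H p) (hsurj : Function.Surjective cl) (hT : S17hxPlT cl H) :
    S17hxT N (s17ihInf cl H) := by
  choose c hc using hT
  refine ⟨c, fun g x => ?_⟩
  refine s17ih_transport hH (by norm_num) (γ := g) (cγ := c g) ?_ x (hsurj _)
  intro x' p hp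
  obtain ⟨p₁, h1, h2⟩ := hc g p
  refine ⟨p₁, ?_, h2⟩
  have h3 : g + cl p₁ = g + x' := h1.trans hp
  exact add_left_cancel h3

/-- (M′) for the infimum height from the place form. -/
theorem s17hx_M_of_places {N : ℕ} [NeZero N] {P : Type*} {cl : P → JZero N} {H : P → ℝ}
    (hH : ∀ p, 0 ≤ H p) (hsurj : Function.Surjective cl) (htors : S17kaTors N 3)
    (hM : S17hxPlM cl H) : S17hxM N (s17ihInf cl H) := by
  obtain ⟨C, hC⟩ := hM
  exact ⟨C, fun x => s17hx_lift_tors hH 3 (by norm_num) htors hC x (hsurj _)⟩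

/-- (N) for the infimum height from the place form. -/
theorem s17hx_N_of_places {N : ℕ} [NeZero N] {P : Type*} {cl : P → JZero N} {H : P → ℝ}
    (hsurj : Function.Surjective cl) (hN : S17hxPlN cl H) : S17hxN N (s17ihInf cl H) := by
  intro B
  refine (hN (B + 1)).subset ?_
  intro x hx
  obtain ⟨p, hp, hlt⟩ := s17ih_exists_lt (H := H) (hsurj (x : JZero N)) one_pos
  have hx' : s17ihInf cl H (x : JZero N) ≤ B := hx
  exact ⟨p, hp, by linarith⟩

/-- **A-TOP, level 2**: the place statements + TORS + WEAK ⇒ finitely generated. -/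
theorem s17hx_fg_places (N : ℕ) [NeZero N] {P : Type*} (cl : P → JZero N) (H : P → ℝ)
    (hH : ∀ p, 0 ≤ H p) (hsurj : Function.Surjective cl)
    (hM : S17hxPlM cl H) (hT : S17hxPlT cl H) (hN : S17hxPlN cl H)
    (htors : S17kaTors N 3) (hw : S17IsWeak N 3) : AddGroup.FG (s17MW N) :=
  s17hx_fg N (s17ihInf cl H) (s17hx_T_of_places hH hsurj hT)
    (s17hx_M_of_places hH hsurj htors hM) (s17hx_N_of_places hsurj hN) htors hw

/-! ### the open statement of layer H and the frozen type -/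

/-- **the one open statement of layer H** (design A v2, place form): for every prime `N ≥ 5`
there are places `P` with classes `cl` (onto) and heights `H ≥ 0` satisfying the place forms of
(M′), (T) and (N). -/
def s17hx_Stmt : Prop :=
  ∀ (N : ℕ) [NeZero N], N.Prime → 5 ≤ N →
    ∃ (P : Type) (cl : P → JZero N) (H : P → ℝ), (∀ p, 0 ≤ H p) ∧ Function.Surjective cl ∧
      S17hxPlM cl H ∧ S17hxPlT cl H ∧ S17hxPlN cl H

/-- the same with a height on `J` (level 1). -/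
def s17hx_Stmt₁ : Prop :=
  ∀ (N : ℕ) [NeZero N], N.Prime → 5 ≤ N →
    ∃ h : JZero N → ℝ, S17hxT N h ∧ S17hxM N h ∧ S17hxN N h

theorem s17hx_Stmt₁_of_Stmt (htors : ∀ (N : ℕ) [NeZero N], S17kaTors N 3) (H : s17hx_Stmt) :
    s17hx_Stmt₁ := by
  intro N _ hN hN5
  obtain ⟨P, cl, Ht, hH, hsurj, hM, hT, hNo⟩ := H N hN hN5
  exact ⟨s17ihInf cl Ht, s17hx_T_of_places hH hsurj hT,
    s17hx_M_of_places hH hsurj (htors N) hM, s17hx_N_of_places hsurj hNo⟩

/-- the frozen type of S17 from the level-1 statement, TORS and WEAK. -/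
theorem s17hx_result₁ (htors : ∀ (N : ℕ) [NeZero N], S17kaTors N 3)
    (hw : ∀ (N : ℕ) [NeZero N], S17IsWeak N 3) (H : s17hx_Stmt₁)
    (N : ℕ) [NeZero N] (hN : N.Prime) (hN5 : 5 ≤ N) :
    AddGroup.FG ↥(FixedPoints.addSubgroup ((AlgebraicClosure ℚ) ≃ₐ[ℚ] (AlgebraicClosure ℚ))
      (JZero N)) := by
  obtain ⟨h, hT, hM, hNo⟩ := H N hN hN5
  exact s17hx_fg N h hT hM hNo (htors N) (hw N)

/-- the frozen type of S17 from the place statement, TORS and WEAK. -/
theorem s17hx_result (htors : ∀ (N : ℕ) [NeZero N], S17kaTors N 3)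
    (hw : ∀ (N : ℕ) [NeZero N], S17IsWeak N 3) (H : s17hx_Stmt)
    (N : ℕ) [NeZero N] (hN : N.Prime) (hN5 : 5 ≤ N) :
    AddGroup.FG ↥(FixedPoints.addSubgroup ((AlgebraicClosure ℚ) ≃ₐ[ℚ] (AlgebraicClosure ℚ))
      (JZero N)) :=
  s17hx_result₁ htors hw (s17hx_Stmt₁_of_Stmt htors H) N hN hN5

end Fermat.Agent.S17
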