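/-
S17 sprint, layer H — **A-TOP with FREE CONSTANTS** (helper77): the formal end of design A for
every multiplier `m` and all constants `0 < a`, `a ^ 2 < b` (captain's ruling 06:49Z: ONE theta
divisor, `m = 3`, `a = 2`, `b = 6`; S17/HTop.lean is the case `a = 2`, `b = 9`).

LEVEL 1 (a height `h : J → ℝ`, `J := JZero N`):
* `S17hyT N a h`   : (T)  `∃ c, ∀ g x, h x ≤ a * h (g + x) + c g`;
* `S17hyM N m b h` : (M′) `∃ C, ∀ x, ∃ ρ, m • ρ = 0 ∧ b * h (x + ρ) - C ≤ h (m • x)`;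
* (N) is `S17hxN N h` of S17/HTop.lean;
* `s17hy_fg`       : (T) + (M′) + (N) + `S17kaTors N m` + `S17IsWeak N m` ⇒ `AddGroup.FG`.

LEVEL 2 (places `P`, `cl : P → J`, `H : P → ℝ`, height `s17ihInf cl H`):
* `S17hyPlM cl H m b` : `∃ C, ∀ p'', ∃ p', m • cl p' = cl p'' ∧ b * H p' - C ≤ H p''`;
* `S17hyPlT cl H a`   : `∀ g, ∃ c, ∀ p, ∃ p₁, g + cl p₁ = cl p ∧ H p₁ ≤ a * H p + c`;
* (N) is `S17hxPlN cl H` of S17/HTop.lean;
* `s17hy_fg_places`   : `0 ≤ H`, `cl` onto, the place statements, TORS, WEAK ⇒ `AddGroup.FG`.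

`s17hy_Stmt m a b`, `s17hy_result` : the open statement in place form and the frozen type of S17.
-/
import Fermat.Agent.S17.HTop

set_option autoImplicit false
set_option linter.style.haveILetI false

namespace Fermat.Agent.S17

open ModularCurve AlgebraicCurve

/-- **(T)** with the constant `a`. -/
def S17hyT (N : ℕ) [NeZero N] (a : ℝ) (h : JZero N → ℝ) : Prop :=
  ∃ c : JZero N → ℝ, ∀ g x : JZero N, h x ≤ a * h (g + x) + c g

/-- **(M′)** for the multiplier `m` with the constant `b`, up to an `m`-torsion point. -/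
def S17hyM (N : ℕ) [NeZero N] (m : ℕ) (b : ℝ) (h : JZero N → ℝ) : Prop :=
  ∃ C : ℝ, ∀ x : JZero N, ∃ ρ : JZero N, m • ρ = 0 ∧ b * h (x + ρ) - C ≤ h (m • x)

/-- **A-TOP, level 1, free constants.** -/
theorem s17hy_fg (N : ℕ) [NeZero N] (m : ℕ) (a b : ℝ) (ha : 0 < a) (hab : a ^ 2 < b)
    (h : JZero N → ℝ) (hT : S17hyT N a h) (hM : S17hyM N m b h) (hN : S17hxN N h)
    (htors : S17kaTors N m) (hw : S17IsWeak N m) : AddGroup.FG (s17MW N) := by
  obtain ⟨c, hc⟩ := hT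
  obtain ⟨C, hC⟩ := hM
  exact s17ti_fg
    (FixedPoints.addSubgroup ((AlgebraicClosure ℚ) ≃ₐ[ℚ] (AlgebraicClosure ℚ)) (JZero N))
    m h a b C c ha hab hc hC htors hN hw

/-- place form of (M′), free constants. -/
def S17hyPlM {N : ℕ} [NeZero N] {P : Type*} (cl : P → JZero N) (H : P → ℝ) (m : ℕ) (b : ℝ) :
    Prop :=
  ∃ C : ℝ, ∀ p'' : P, ∃ p' : P, m • cl p' = cl p'' ∧ b * H p' - C ≤ H p''

/-- place form of (T), free constant. -/
def S17hyPlT {N : ℕ} [NeZero N] {P : Type*} (cl : P → JZero N) (H : P → ℝ) (a : ℝ) : Prop :=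
  ∀ g : JZero N, ∃ c : ℝ, ∀ p : P, ∃ p₁ : P, g + cl p₁ = cl p ∧ H p₁ ≤ a * H p + c

/-- (T) for the infimum height from the place form. -/
theorem s17hy_T_of_places {N : ℕ} [NeZero N] {P : Type*} {cl : P → JZero N} {H : P → ℝ}
    {a : ℝ} (ha : 0 ≤ a) (hH : ∀ p, 0 ≤ H p) (hsurj : Function.Surjective cl)
    (hT : S17hyPlT cl H a) : S17hyT N a (s17ihInf cl H) := by
  choose c hc using hT
  refine ⟨c, fun g x => ?_⟩
  refine s17ih_transport hH ha (γ := g) (cγ := c g) ?_ x (hsurj _)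
  intro x' p hp
  obtain ⟨p₁, h1, h2⟩ := hc g p
  refine ⟨p₁, ?_, h2⟩
  have h3 : g + cl p₁ = g + x' := h1.trans hp
  exact add_left_cancel h3

/-- (M′) for the infimum height from the place form. -/
theorem s17hy_M_of_places {N : ℕ} [NeZero N] {P : Type*} {cl : P → JZero N} {H : P → ℝ}
    {m : ℕ} {b : ℝ} (hb : 0 ≤ b) (hH : ∀ p, 0 ≤ H p) (hsurj : Function.Surjective cl)
    (htors : S17kaTors N m) (hM : S17hyPlM cl H m b) : S17hyM N m b (s17ihInf cl H) := by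
  obtain ⟨C, hC⟩ := hM
  exact ⟨C, fun x => s17hx_lift_tors hH m hb htors hC x (hsurj _)⟩

/-- **A-TOP, level 2, free constants.** -/
theorem s17hy_fg_places (N : ℕ) [NeZero N] (m : ℕ) (a b : ℝ) (ha : 0 < a) (hab : a ^ 2 < b)
    {P : Type*} (cl : P → JZero N) (H : P → ℝ)
    (hH : ∀ p, 0 ≤ H p) (hsurj : Function.Surjective cl)
    (hM : S17hyPlM cl H m b) (hT : S17hyPlT cl H a) (hN : S17hxPlN cl H)
    (htors : S17kaTors N m) (hw : S17IsWeak N m) : AddGroup.FG (s17MW N) :=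
  s17hy_fg N m a b ha hab (s17ihInf cl H) (s17hy_T_of_places ha.le hH hsurj hT)
    (s17hy_M_of_places ((sq_nonneg a).trans hab.le) hH hsurj htors hM)
    (s17hx_N_of_places hsurj hN) htors hw

/-- **the open statement of layer H**, place form, free constants. -/
def s17hy_Stmt (m : ℕ) (a b : ℝ) : Prop :=
  ∀ (N : ℕ) [NeZero N], N.Prime → 5 ≤ N →
    ∃ (P : Type) (cl : P → JZero N) (H : P → ℝ), (∀ p, 0 ≤ H p) ∧ Function.Surjective cl ∧
      S17hyPlM cl H m b ∧ S17hyPlT cl H a ∧ S17hxPlN cl H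

/-- the frozen type of S17 from the place statement, TORS and WEAK. -/
theorem s17hy_result (m : ℕ) (a b : ℝ) (ha : 0 < a) (hab : a ^ 2 < b)
    (htors : ∀ (N : ℕ) [NeZero N], S17kaTors N m)
    (hw : ∀ (N : ℕ) [NeZero N], S17IsWeak N m) (H : s17hy_Stmt m a b)
    (N : ℕ) [NeZero N] (hN : N.Prime) (hN5 : 5 ≤ N) :
    AddGroup.FG ↥(FixedPoints.addSubgroup ((AlgebraicClosure ℚ) ≃ₐ[ℚ] (AlgebraicClosure ℚ))
      (JZero N)) := by
  obtain ⟨P, cl, Ht, hH, hsurj, hM, hT, hNo⟩ := H N hN hN5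
  exact s17hy_fg_places N m a b ha hab cl Ht hH hsurj hM hT hNo (htors N) (hw N)

end Fermat.Agent.S17
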