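/-
S17 sprint, design A v2, **PlM-GLUE** (helper58): the LIFT shape of `S17hxPlM` / `S17hyPlM`
(S17/HTop.lean, S17/HTopAB.lean) from

* A-EXT   (`s17px_exists_ext`, S17/PlaceExt.lean): every `K`-place of `L` is a trace `P ∘ ψ`;
* A-PTb   (hypothesis `hcl`): `cl (P ∘ ψ) = m • cl P`;
* A-M     (hypothesis `hM`): `b · ht [s]_P − C ≤ ht [ψ s]_P` for every place `P` (any charts);
* naturality of place-values `[s]_{P ∘ ψ} = [ψ s]_P` (`s17px_val_comap`).

Everything is abstract in the height `ht : (ι → K) → ℝ` of a projective point (only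
`ht (c • v) = ht v` for `c ≠ 0` is used) and in the class map `cl`.

* `s17plm_place_ext`  : two places with the same valuation ring and the same residue map are EQUAL
                       (as structures);
* `s17plm_comap_eq`   : hence `s17pxComap ψ P = P'` for the `P` of A-EXT;
* `s17plm_exists_comap_eq` : A-EXT as an equality of places: `∀ P', ∃ P, s17pxComap ψ P = P'`;
* `s17plmH ht s P`    : the height `ht [s]_P` of the place-value (chart chosen; `0` if `s = 0`);
* `s17plmH_eq`        : `s17plmH ht s P = ht (s17plVal P s α hα)` for EVERY minimal index `α`;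
* `s17plmH_comap`     : `s17plmH ht s (P ∘ ψ) = ht (s17plVal P (ψ ∘ s) β hβ)`;
* `s17plmH_nonneg`    : `0 ≤ s17plmH` if `0 ≤ ht`;
* **`s17plm_lift`**   : `∀ p'', ∃ p', m • cl p' = cl p'' ∧ b * H p' − C ≤ H p''`, `H = s17plmH ht s`;
* **`s17plm_plM`**    : `∃ C, ∀ p'', ∃ p', …` (the literal body of `S17hxPlM` / `S17hyPlM`);
* `s17plm_transport`  : the same glue for (T): along an automorphism `ρ` with
                       `g + cl (P ∘ ρ) = cl P`-type hypotheses (every place is a trace).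
-/
import Fermat.Agent.S17.PlaceExt

set_option autoImplicit false
set_option linter.unusedSectionVars false
set_option linter.unusedVariables false
set_option linter.style.haveILetI false

noncomputable section

namespace Fermat.Agent.S17

open Polynomial

universe u v w x

section Ext

variable {K : Type u} {L : Type w} [Field K] [Field L] [Algebra K L]

/-- two `K`-rational places with the same valuation ring and the same residue map are equal. -/
theorem s17plm_place_ext (P Q : S17plPlace K L) (hW : P.W = Q.W)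
    (hres : ∀ (x : L) (hx : x ∈ P.W) (hx' : x ∈ Q.W), P.res ⟨x, hx⟩ = Q.res ⟨x, hx'⟩) :
    P = Q := by
  obtain ⟨W, hKW, res, hr⟩ := P
  obtain ⟨W', hKW', res', hr'⟩ := Q
  simp only at hW
  subst hW
  have h : res = res' := RingHom.ext fun x => hres x.1 x.2 x.2
  subst h
  rfl

end Ext

section Glue

variable {K : Type u} {L' : Type v} {L : Type w} [Field K] [Field L'] [Field L]
  [Algebra K L'] [Algebra K L] (ψ : L' →ₐ[K] L)

/-- the trace of the place of A-EXT is the given place. -/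
theorem s17plm_comap_eq (P : S17plPlace K L) (P' : S17plPlace K L')
    (hW : P.W.comap (ψ : L' →+* L) = P'.W)
    (hres : ∀ (w : L') (hw : w ∈ P'.W) (hw' : ψ w ∈ P.W), P.res ⟨ψ w, hw'⟩ = P'.res ⟨w, hw⟩) :
    s17pxComap ψ P = P' :=
  s17plm_place_ext _ _ hW fun x hx hx' => hres x hx' _

/-- **A-EXT as an equality of places.** -/
theorem s17plm_exists_comap_eq [IsAlgClosed K]
    (halg : ∀ x : L, ∃ p : L'[X], p ≠ 0 ∧ p.eval₂ (ψ : L' →+* L) x = 0)
    (P' : S17plPlace K L') : ∃ P : S17plPlace K L, s17pxComap ψ P = P' := by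
  obtain ⟨P, hW, hres⟩ := s17px_exists_ext ψ P' halg
  exact ⟨P, s17plm_comap_eq ψ P P' hW hres⟩

/-- **A-EXT as an equality of places**, finite extension. -/
theorem s17plm_exists_comap_eq_fin [IsAlgClosed K] (hfin : Module.Finite ψ.fieldRange L)
    (P' : S17plPlace K L') : ∃ P : S17plPlace K L, s17pxComap ψ P = P' := by
  obtain ⟨P, hW, hres⟩ := s17px_exists_ext_fin ψ hfin P'
  exact ⟨P, s17plm_comap_eq ψ P P' hW hres⟩

/-- **A-EXT as an equality of places**, along an isomorphism. -/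
theorem s17plm_exists_comap_eq_equiv [IsAlgClosed K] (ρ : L' ≃ₐ[K] L)
    (P' : S17plPlace K L') : ∃ P : S17plPlace K L, s17pxComap (ρ : L' →ₐ[K] L) P = P' := by
  obtain ⟨P, hW, hres⟩ := s17px_exists_ext_equiv ρ P'
  exact ⟨P, s17plm_comap_eq (ρ : L' →ₐ[K] L) P P' hW hres⟩

end Glue

section Height

variable {K : Type u} {L' : Type v} {L : Type w} [Field K] [Field L'] [Field L]
  [Algebra K L'] [Algebra K L] {ι : Type x}

open Classical in
/-- the height `ht [s]_P` of the place-value of the tuple `s` at `P` (`0` if there is no minimal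
index, i.e. if `s = 0` or `ι` is infinite and unlucky). -/
def s17plmH (ht : (ι → K) → ℝ) (s : ι → L) (P : S17plPlace K L) : ℝ :=
  if h : ∃ α, S17plIsMin P.W s α then ht (s17plVal P s h.choose h.choose_spec) else 0

/-- the height of the place-value does not depend on the chart. -/
theorem s17plmH_eq (ht : (ι → K) → ℝ)
    (hsc : ∀ (c : K) (v : ι → K), c ≠ 0 → ht (fun i => c * v i) = ht v)
    (s : ι → L) (P : S17plPlace K L) (α : ι) (hα : S17plIsMin P.W s α) :
    s17plmH ht s P = ht (s17plVal P s α hα) := by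
  have hex : ∃ α, S17plIsMin P.W s α := ⟨α, hα⟩
  unfold s17plmH
  rw [dif_pos hex]
  obtain ⟨c, hc0, hc⟩ := s17pl_val_change P s α hex.choose hα hex.choose_spec
  have h1 : s17plVal P s hex.choose hex.choose_spec = fun i => c * s17plVal P s α hα i :=
    funext hc
  rw [h1, hsc c _ hc0]

theorem s17plmH_nonneg (ht : (ι → K) → ℝ) (hnn : ∀ v, 0 ≤ ht v) (s : ι → L)
    (P : S17plPlace K L) : 0 ≤ s17plmH ht s P := by
  unfold s17plmH
  split_ifs
  · exact hnn _
  · exact le_refl _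

variable (ψ : L' →ₐ[K] L)

/-- the height of `s` at the trace `P ∘ ψ` is the height of `ψ ∘ s` at `P`. -/
theorem s17plmH_comap (ht : (ι → K) → ℝ)
    (hsc : ∀ (c : K) (v : ι → K), c ≠ 0 → ht (fun i => c * v i) = ht v)
    (s : ι → L') (P : S17plPlace K L) (β : ι) (hβ : S17plIsMin P.W (fun i => ψ (s i)) β) :
    s17plmH ht s (s17pxComap ψ P) = ht (s17plVal P (fun i => ψ (s i)) β hβ) := by
  have hβ' : S17plIsMin (s17pxComap ψ P).W s β := (s17px_isMin_comap ψ P.W s β).2 hβ
  rw [s17plmH_eq ht hsc s (s17pxComap ψ P) β hβ', s17px_val_comap ψ P s β hβ']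

/-- the same, as an equality of `s17plmH`. -/
theorem s17plmH_comap' (ht : (ι → K) → ℝ)
    (hsc : ∀ (c : K) (v : ι → K), c ≠ 0 → ht (fun i => c * v i) = ht v)
    (s : ι → L') (P : S17plPlace K L) (hex : ∃ β, S17plIsMin P.W (fun i => ψ (s i)) β) :
    s17plmH ht s (s17pxComap ψ P) = s17plmH ht (fun i => ψ (s i)) P := by
  obtain ⟨β, hβ⟩ := hex
  rw [s17plmH_comap ψ ht hsc s P β hβ, s17plmH_eq ht hsc _ P β hβ]

end Height

section Lift

variable {K : Type u} {L : Type w} [Field K] [Field L] [Algebra K L] {ι : Type x}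
  {J : Type*} [AddCommGroup J]

/-- **PlM-GLUE (LIFT)**: A-EXT + A-PTb (`hcl`) + A-M (`hM`, on place-values, any charts) give the
LIFT of `S17hxPlM` / `S17hyPlM` for `H = ht [s]_P`. -/
theorem s17plm_lift [IsAlgClosed K] [Finite ι] (ψ : L →ₐ[K] L)
    (halg : ∀ x : L, ∃ p : L[X], p ≠ 0 ∧ p.eval₂ (ψ : L →+* L) x = 0)
    (cl : S17plPlace K L → J) (m : ℕ)
    (hcl : ∀ P : S17plPlace K L, cl (s17pxComap ψ P) = m • cl P)
    (ht : (ι → K) → ℝ)
    (hsc : ∀ (c : K) (v : ι → K), c ≠ 0 → ht (fun i => c * v i) = ht v)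
    (s : ι → L) (hs : s ≠ 0) (b C : ℝ)
    (hM : ∀ (P : S17plPlace K L) (α β : ι) (hα : S17plIsMin P.W s α)
      (hβ : S17plIsMin P.W (fun i => ψ (s i)) β),
      b * ht (s17plVal P s α hα) - C ≤ ht (s17plVal P (fun i => ψ (s i)) β hβ))
    (p'' : S17plPlace K L) :
    ∃ p' : S17plPlace K L, m • cl p' = cl p'' ∧ b * s17plmH ht s p' - C ≤ s17plmH ht s p'' := by
  obtain ⟨P, rfl⟩ := s17plm_exists_comap_eq ψ halg p''
  refine ⟨P, (hcl P).symm, ?_⟩
  obtain ⟨α, hα⟩ := s17pl_exists_min P.W hs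
  have hψs : (fun i => ψ (s i)) ≠ 0 := by
    intro h0
    apply hs
    funext i
    have := congrFun h0 i
    exact (map_eq_zero ψ).1 this
  obtain ⟨β, hβ⟩ := s17pl_exists_min P.W hψs
  rw [s17plmH_eq ht hsc s P α hα, s17plmH_comap ψ ht hsc s P β hβ]
  exact hM P α β hα hβ

/-- **PlM-GLUE**: the literal body of `S17hxPlM cl H` (`m = 3`, `b = 9`) and of
`S17hyPlM cl H m b`, with `P := S17plPlace K L`, `H := s17plmH ht s`. -/
theorem s17plm_plM [IsAlgClosed K] [Finite ι] (ψ : L →ₐ[K] L)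
    (hfin : Module.Finite ψ.fieldRange L)
    (cl : S17plPlace K L → J) (m : ℕ)
    (hcl : ∀ P : S17plPlace K L, cl (s17pxComap ψ P) = m • cl P)
    (ht : (ι → K) → ℝ)
    (hsc : ∀ (c : K) (v : ι → K), c ≠ 0 → ht (fun i => c * v i) = ht v)
    (s : ι → L) (hs : s ≠ 0) (b : ℝ)
    (hM : ∃ C : ℝ, ∀ (P : S17plPlace K L) (α β : ι) (hα : S17plIsMin P.W s α)
      (hβ : S17plIsMin P.W (fun i => ψ (s i)) β),
      b * ht (s17plVal P s α hα) - C ≤ ht (s17plVal P (fun i => ψ (s i)) β hβ)) :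
    ∃ C : ℝ, ∀ p'' : S17plPlace K L, ∃ p' : S17plPlace K L,
      m • cl p' = cl p'' ∧ b * s17plmH ht s p' - C ≤ s17plmH ht s p'' := by
  obtain ⟨C, hC⟩ := hM
  haveI := hfin
  haveI : Algebra.IsAlgebraic ψ.fieldRange L := Algebra.IsAlgebraic.of_finite _ _
  exact ⟨C, fun p'' => s17plm_lift ψ (s17px_halg_of_isAlgebraic ψ) cl m hcl ht hsc s hs b C hC p''⟩

/-- **PlT-GLUE**: the same for a translation: `ρ` an automorphism with
`g + cl (P ∘ ρ) = cl P`, and `ht [ρ s]_P ≤ a · ht [s]_P + c` on place-values: then every place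
`p` has the translate `p₁ := p ∘ ρ` with `g + cl p₁ = cl p ∧ H p₁ ≤ a * H p + c`
(the literal body of `S17hxPlT` / `S17hyPlT` at `g`). -/
theorem s17plm_transport [Finite ι] (ρ : L →ₐ[K] L)
    (cl : S17plPlace K L → J) (g : J)
    (hcl : ∀ P : S17plPlace K L, g + cl (s17pxComap ρ P) = cl P)
    (ht : (ι → K) → ℝ)
    (hsc : ∀ (c : K) (v : ι → K), c ≠ 0 → ht (fun i => c * v i) = ht v)
    (s : ι → L) (hs : s ≠ 0) (a c : ℝ)
    (hT : ∀ (P : S17plPlace K L) (α β : ι) (hα : S17plIsMin P.W s α)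
      (hβ : S17plIsMin P.W (fun i => ρ (s i)) β),
      ht (s17plVal P (fun i => ρ (s i)) β hβ) ≤ a * ht (s17plVal P s α hα) + c)
    (p : S17plPlace K L) :
    ∃ p₁ : S17plPlace K L, g + cl p₁ = cl p ∧ s17plmH ht s p₁ ≤ a * s17plmH ht s p + c := by
  refine ⟨s17pxComap ρ p, hcl p, ?_⟩
  obtain ⟨α, hα⟩ := s17pl_exists_min p.W hs
  have hρs : (fun i => ρ (s i)) ≠ 0 := by
    intro h0
    apply hs
    funext i
    have := congrFun h0 i
    exact (map_eq_zero ρ).1 this
  obtain ⟨β, hβ⟩ := s17pl_exists_min p.W hρs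
  rw [s17plmH_eq ht hsc s p α hα, s17plmH_comap ρ ht hsc s p β hβ]
  exact hT p α β hα hβ

end Lift

end Fermat.Agent.S17
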