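/-
S17 sprint, layer H — **STAGE TOP** (helper77; the definitions of the MODEL are helper24's
S17/Model.lean — this file is the stage-level top for ANY constants): places, centres and the
height for `J₀(N)`, the common target of the leaves PlM, PlT, PlN.

Stage (S27/ModelPsi, S17/DivMain, S17/CentreOnto) with `K := Kb = ℚ̄`, `F := FF N`:
`L ⊇ Ω_g` algebraic and algebraically closed, `FL ⊇ F, L`, `hld`, `hgen`, `x`, `G₀` of degree `g`.

* PLACES  `P  := S17plPlace Kb L`                          (S17/Place.lean);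
* CENTRE  `cl := s17coCl hld hgen hx G₀ hG₀ : P → JZero N` (S17/CentreOnto.lean, `x_P = sp_P η`);
* HEIGHT  `H  := s17sxHt s : P → ℝ`, `s17sxHt s P = s17plmH s17haAbsQ s P` = the ABSOLUTE
  logarithmic height of the place-value `[s]_P` of a finite tuple `s : ι → L`
  (S17/PlMGlue.lean, S17/HtAbsQb.lean); `s17sxHt_eq` : any chart computes it.

* `s17sx_fg_stage` : for ANY stage, ANY finite tuple `s` and ANY multiplier `m`: the three place
  statements `S17hyPlM cl H m b`, `S17hyPlT cl H a`, `S17hxPlN cl H`  (`0 < a`, `a ^ 2 < b`)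
  with TORS and WEAK at `m` give `AddGroup.FG (s17MW N)`  (`0 ≤ H` and `cl` onto are plugged in).
* `s17sx_fg` : the same on the concrete stage `L := s27mtL`, `FL := s27mtFL` with constants
  `S27cstIsConst x G₀ O`.
* `S17sxStmt m a b`, `s17sx_result` : the one open statement of layer H on the model (only for
  levels of positive genus) and the frozen type of S17 from it (TORS, WEAK as hypotheses; the
  closed form for odd primes `m` is S17/StageTopClosed.lean).
-/
import Fermat.Agent.S17.HTopAB
import Fermat.Agent.S17.CentreOnto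
import Fermat.Agent.S17.PlMGlue
import Fermat.Agent.S17.HtAbsQb
import Fermat.Agent.S17.G0

set_option autoImplicit false
set_option linter.unusedVariables false
set_option linter.unusedSectionVars false
set_option linter.style.haveILetI false
set_option linter.style.longLine false

noncomputable section

namespace Fermat.Agent.S17

open ModularCurve AlgebraicCurve Module TensorProduct IntermediateField
open Fermat.Agent.S24 Fermat.Agent.S26 Fermat.Agent.S27 Fermat.Agent.DEU

universe w y

/-! ### the height of a place -/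

section Height

variable {L : Type w} [Field L] [Algebra Kb L] {ι : Type*} [Finite ι]

/-- **the height of a place**: the absolute logarithmic height of the place-value `[s]_P`. -/
def s17sxHt (s : ι → L) (P : S17plPlace Kb L) : ℝ :=
  s17plmH (s17haAbsQ (ι := ι)) s P

theorem s17sxHt_nonneg (s : ι → L) (P : S17plPlace Kb L) : 0 ≤ s17sxHt s P :=
  s17plmH_nonneg _ (fun v => s17haAbsQ_nonneg v) s P

/-- scaling invariance of the absolute height, in the shape of S17/PlMGlue.lean. -/
theorem s17sx_hsc (c : Kb) (v : ι → Kb) (hc : c ≠ 0) :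
    s17haAbsQ (fun i => c * v i) = s17haAbsQ v :=
  s17haAbsQ_smul v hc

/-- every chart computes the height of a place. -/
theorem s17sxHt_eq (s : ι → L) (P : S17plPlace Kb L) (α : ι) (hα : S17plIsMin P.W s α) :
    s17sxHt s P = s17haAbsQ (s17plVal P s α hα) :=
  s17plmH_eq _ s17sx_hsc s P α hα

end Height

/-! ### the stage-level top -/

section Stage

variable (N : ℕ) [NeZero N] [IsCurveOver Kb (FF N)] [Algebra.EssFiniteType Kb (FF N)]
  {L : Type} [Field L] [Algebra Kb L]
  [Algebra (s27gfOm Kb (FF N) (genusFF Kb (FF N))) L]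
  [IsScalarTower Kb (s27gfOm Kb (FF N) (genusFF Kb (FF N))) L]
  [IsAlgClosed L] [Algebra.IsAlgebraic (s27gfOm Kb (FF N) (genusFF Kb (FF N))) L]
  {FL : Type y} [Field FL] [Algebra Kb FL] [Algebra (FF N) FL] [Algebra L FL]
  [IsScalarTower Kb (FF N) FL] [IsScalarTower Kb L FL]
  (hld : Function.Injective (s26gspMu Kb (FF N) L FL)) (hgen : S26gspGen Kb (FF N) L FL)
  {x : FF N} (hx : Transcendental Kb x)
  [FiniteDimensional ↥(IntermediateField.adjoin Kb {x}) (FF N)]
  [Algebra.IsSeparable ↥(IntermediateField.adjoin Kb {x}) (FF N)]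
  (G₀ : Divisor Kb (FF N)) (hG₀ : Divisor.degree G₀ = (genusFF Kb (FF N) : ℤ))

/-- **the centre map of the model**, with values in `J₀(N)(ℚ̄)`. -/
def s17sxCl (P : S17plPlace Kb L) : JZero N :=
  s17coCl hld hgen hx G₀ hG₀ P

theorem s17sxCl_onto : Function.Surjective (s17sxCl N (L := L) hld hgen hx G₀ hG₀) :=
  s17coCl_onto hld hgen hx G₀ hG₀

/-- **MODEL TOP, stage level**: the three place statements for the centre map and the height of
a finite tuple `s` give Mordell–Weil. -/
theorem s17sx_fg_stage {ι : Type*} [Finite ι] (s : ι → L) (m : ℕ) (a b : ℝ) (ha : 0 < a)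
    (hab : a ^ 2 < b)
    (hM : S17hyPlM (s17sxCl N (L := L) hld hgen hx G₀ hG₀) (s17sxHt s) m b)
    (hT : S17hyPlT (s17sxCl N (L := L) hld hgen hx G₀ hG₀) (s17sxHt s) a)
    (hN : S17hxPlN (s17sxCl N (L := L) hld hgen hx G₀ hG₀) (s17sxHt s))
    (htors : S17kaTors N m) (hw : S17IsWeak N m) :
    AddGroup.FG (s17MW N) :=
  s17hy_fg_places N m a b ha hab (s17sxCl N (L := L) hld hgen hx G₀ hG₀) (s17sxHt s)
    (fun p => s17sxHt_nonneg s p) (s17sxCl_onto N hld hgen hx G₀ hG₀) hM hT hN htors hw

end Stage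

/-! ### the concrete stage -/

section Model

variable (N : ℕ) [NeZero N]

/-- **the one open statement of layer H on the model**, for ONE level `N`: on the concrete stage
(`L := s27mtL`, `FL := s27mtFL`) there are constants `(x, G₀, O)` and a finite tuple `s` with the
three place statements. -/
def S17sxStmtAt (m : ℕ) (a b : ℝ) : Prop :=
  ∀ (_ : IsCurveOver Kb (FF N)) (_ : Algebra.EssFiniteType Kb (FF N)),
    ∃ (x : FF N) (G₀ : Divisor Kb (FF N)) (O : Place Kb (FF N)) (hc : S27cstIsConst x G₀ O)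
      (ι : Type) (_ : Finite ι) (s : ι → s27mtL Kb (FF N)),
      haveI := hc.fin
      haveI := hc.sep
      S17hyPlM (s17sxCl N (L := s27mtL Kb (FF N)) (FL := s27mtFL Kb (FF N))
          (s27stg_hld Kb (FF N) (s27mtL Kb (FF N))) (s27stg_hgen Kb (FF N) (s27mtL Kb (FF N)))
          hc.trans G₀ hc.deg) (s17sxHt s) m b ∧
      S17hyPlT (s17sxCl N (L := s27mtL Kb (FF N)) (FL := s27mtFL Kb (FF N))
          (s27stg_hld Kb (FF N) (s27mtL Kb (FF N))) (s27stg_hgen Kb (FF N) (s27mtL Kb (FF N)))
          hc.trans G₀ hc.deg) (s17sxHt s) a ∧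
      S17hxPlN (s17sxCl N (L := s27mtL Kb (FF N)) (FL := s27mtFL Kb (FF N))
          (s27stg_hld Kb (FF N) (s27mtL Kb (FF N))) (s27stg_hgen Kb (FF N) (s27mtL Kb (FF N)))
          hc.trans G₀ hc.deg) (s17sxHt s)

/-- **MODEL TOP, one level.** -/
theorem s17sx_fg (m : ℕ) (a b : ℝ) (ha : 0 < a) (hab : a ^ 2 < b) (H : S17sxStmtAt N m a b)
    (htors : S17kaTors N m) (hw : S17IsWeak N m) : AddGroup.FG (s17MW N) := by
  haveI h1 := s17to_isCurveOver N
  haveI h2 := s17to_essFiniteType N
  obtain ⟨x, G₀, O, hc, ι, hι, s, hM, hT, hN⟩ := H h1 h2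
  haveI := hc.fin
  haveI := hc.sep
  exact s17sx_fg_stage N (s27stg_hld Kb (FF N) (s27mtL Kb (FF N)))
    (s27stg_hgen Kb (FF N) (s27mtL Kb (FF N))) hc.trans G₀ hc.deg s m a b ha hab hM hT hN
    htors hw

end Model

/-- **the one open statement of layer H on the model**: `S17sxStmtAt N m a b` for every prime
level `N ≥ 5` of positive genus. -/
def S17sxStmt (m : ℕ) (a b : ℝ) : Prop :=
  ∀ (N : ℕ) [NeZero N], N.Prime → 5 ≤ N → 0 < genusFF Kb (FF N) → S17sxStmtAt N m a b

/-- the frozen type of S17 from the model statement, TORS and WEAK. -/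
theorem s17sx_result (m : ℕ) (a b : ℝ) (ha : 0 < a) (hab : a ^ 2 < b) (H : S17sxStmt m a b)
    (htors : ∀ (N : ℕ) [NeZero N], S17kaTors N m)
    (hw : ∀ (N : ℕ) [NeZero N], S17IsWeak N m)
    (N : ℕ) [NeZero N] (hN : N.Prime) (hN5 : 5 ≤ N) :
    AddGroup.FG ↥(FixedPoints.addSubgroup ((AlgebraicClosure ℚ) ≃ₐ[ℚ] (AlgebraicClosure ℚ))
      (JZero N)) :=
  s17g0_cases N fun hg => s17sx_fg N m a b ha hab (H N hN hN5 hg) (htors N) (hw N)

end Fermat.Agent.S17

end
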