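/-
S17 sprint, layer H, design A, class side of [PlM] and [PlT] (helper42), on top of A-PTb
(`S17/CentreHom.lean`) and the affine family (`S17/Affine.lean`).

Setting = the model of S27-B (section Model of `S17/Affine.lean`); `x_P = s17ch2Centre hx G₀ hG₀ P`
the centre of a `K`-place `P : S17plPlace K L`, `P ∘ ρ = s17pxComap ρ P`.

* **`s17cau_exists`** : for every `k ≠ 0` and every constant class `c` there are an automorphism
  `ρ` of `L / K` and a generic tuple `q` with `ρ ∘ taut = q ∘ π` (a permutation `π`),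
  `actC ρ η = k • η + β c`, and, for EVERY `K`-place `P`,  `x_{P ∘ ρ} = k • x_P + c`;
* **`s17cau_exists_mul`** : `k = n ≠ 0`, `c = 0`:  `x_{P ∘ ρ} = n • x_P`      (class side of PlM);
* **`s17cau_exists_add`** : `k = 1`:                `x_{P ∘ ρ} = x_P + c`      (class side of PlT);
* `s17cau_exists_sub`     : the shape of `S17hxPlT`: `g + x_{P ∘ ρ} = x_P`.

Sorry-free; axioms: propext, Classical.choice, Quot.sound.
-/
import Fermat.Agent.S17.CentreHom
import Fermat.Agent.S27.DegClosed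

set_option autoImplicit false
set_option linter.unusedVariables false
set_option linter.unusedSectionVars false
set_option linter.style.haveILetI false
set_option linter.style.longLine false

noncomputable section

namespace Fermat.Agent.S17

open AlgebraicCurve TensorProduct IntermediateField Fermat.Agent.S27 Fermat.Agent.S26
  Fermat.Agent.S24

universe u v y

section Model

variable {K : Type u} {F : Type v} [Field K] [IsAlgClosed K] [CharZero K] [Field F] [Algebra K F]
  [IsCurveOver K F] [Algebra.EssFiniteType K F]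
  {L : Type (max u v)} [Field L] [Algebra K L]
  [Algebra (s27gfOm K F (genusFF K F)) L] [IsScalarTower K (s27gfOm K F (genusFF K F)) L]
  [IsAlgClosed L] [Algebra.IsAlgebraic (s27gfOm K F (genusFF K F)) L]
  {FL : Type y} [Field FL] [Algebra K FL] [Algebra F FL] [Algebra L FL]
  [IsScalarTower K F FL] [IsScalarTower K L FL]
  (hld : Function.Injective (s26gspMu K F L FL)) (hgen : S26gspGen K F L FL)
  {x : F} (hx : Transcendental K x)
  [FiniteDimensional ↥(IntermediateField.adjoin K {x}) F]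
  [Algebra.IsSeparable ↥(IntermediateField.adjoin K {x}) F]
  (G₀ : Divisor K F) (hG₀ : Divisor.degree G₀ = (genusFF K F : ℤ))

/-- **the automorphisms of `L / K` realising `x ↦ k x + c` on the centres.** -/
theorem s17cau_exists (k : ℤ) (hk : k ≠ 0) (c : Pic0 K F) :
    ∃ (ρ : L ≃ₐ[K] L) (q : Fin (genusFF K F) → F →ₐ[K] L), S27dgGeneric K x q ∧
      (∃ π : Equiv.Perm (Fin (genusFF K F)), ∀ i,
        (ρ : L →ₐ[K] L).comp (s27pfTaut (K := K) (F := F) (g := genusFF K F) (L := L) i) =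
          q (π i)) ∧
      (s27dclPkg hld hgen hx G₀ hG₀).actC ρ
          (s27pfCl (s27dclPkg hld hgen hx G₀ hG₀)
            (s27pfTaut (K := K) (F := F) (g := genusFF K F) (L := L))) =
        k • s27pfCl (s27dclPkg hld hgen hx G₀ hG₀)
            (s27pfTaut (K := K) (F := F) (g := genusFF K F) (L := L)) +
          s27bcBeta hld hgen (s26gspf_hall hx) c ∧
      ∀ P : S17plPlace K L,
        s17ch2Centre hx G₀ hG₀ (s17pxComap (ρ : L →ₐ[K] L) P) =
          k • s17ch2Centre hx G₀ hG₀ P + c := by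
  obtain ⟨q, hq⟩ := s17af_exists_fam (L := L) hld hgen hx G₀ hG₀
  obtain ⟨ρ, hρ, π, hπ⟩ := s17af_exists_aut (s27dclPkg hld hgen hx G₀ hG₀)
    (s27bcBeta hld hgen (s26gspf_hall hx)) (s17af_inv hld hgen hx G₀ hG₀)
    (s27dcl_halg (x := x))
    (fun σ => s27dgx_X1 (s27dclFld (L := L) hx) (s27dcl_halg (x := x)) σ) hq k hk c
  exact ⟨ρ, q k c, (hq k hk c).1, ⟨π, hπ⟩, hρ,
    fun P => s17ch2_centre_aut hld hgen hx G₀ hG₀ P ρ k c hρ⟩

/-- **class side of [PlM]**: an automorphism `ρ` with `x_{P ∘ ρ} = n • x_P` for every place. -/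
theorem s17cau_exists_mul (n : ℤ) (hn : n ≠ 0) :
    ∃ (ρ : L ≃ₐ[K] L) (q : Fin (genusFF K F) → F →ₐ[K] L), S27dgGeneric K x q ∧
      (∃ π : Equiv.Perm (Fin (genusFF K F)), ∀ i,
        (ρ : L →ₐ[K] L).comp (s27pfTaut (K := K) (F := F) (g := genusFF K F) (L := L) i) =
          q (π i)) ∧
      (s27dclPkg hld hgen hx G₀ hG₀).actC ρ
          (s27pfCl (s27dclPkg hld hgen hx G₀ hG₀)
            (s27pfTaut (K := K) (F := F) (g := genusFF K F) (L := L))) =
        n • s27pfCl (s27dclPkg hld hgen hx G₀ hG₀)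
            (s27pfTaut (K := K) (F := F) (g := genusFF K F) (L := L)) ∧
      ∀ P : S17plPlace K L,
        s17ch2Centre hx G₀ hG₀ (s17pxComap (ρ : L →ₐ[K] L) P) =
          n • s17ch2Centre hx G₀ hG₀ P := by
  obtain ⟨ρ, q, hq, hπ, hρ, hP⟩ := s17cau_exists (L := L) hld hgen hx G₀ hG₀ n hn 0
  refine ⟨ρ, q, hq, hπ, ?_, fun P => ?_⟩
  · rw [hρ, map_zero, add_zero]
  · rw [hP P, add_zero]

/-- **class side of [PlT]**: an automorphism `ρ` with `x_{P ∘ ρ} = x_P + c` for every place. -/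
theorem s17cau_exists_add (c : Pic0 K F) :
    ∃ (ρ : L ≃ₐ[K] L) (q : Fin (genusFF K F) → F →ₐ[K] L), S27dgGeneric K x q ∧
      (∃ π : Equiv.Perm (Fin (genusFF K F)), ∀ i,
        (ρ : L →ₐ[K] L).comp (s27pfTaut (K := K) (F := F) (g := genusFF K F) (L := L) i) =
          q (π i)) ∧
      (s27dclPkg hld hgen hx G₀ hG₀).actC ρ
          (s27pfCl (s27dclPkg hld hgen hx G₀ hG₀)
            (s27pfTaut (K := K) (F := F) (g := genusFF K F) (L := L))) =
        s27pfCl (s27dclPkg hld hgen hx G₀ hG₀)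
            (s27pfTaut (K := K) (F := F) (g := genusFF K F) (L := L)) +
          s27bcBeta hld hgen (s26gspf_hall hx) c ∧
      ∀ P : S17plPlace K L,
        s17ch2Centre hx G₀ hG₀ (s17pxComap (ρ : L →ₐ[K] L) P) =
          s17ch2Centre hx G₀ hG₀ P + c := by
  obtain ⟨ρ, q, hq, hπ, hρ, hP⟩ := s17cau_exists (L := L) hld hgen hx G₀ hG₀ 1 one_ne_zero c
  refine ⟨ρ, q, hq, hπ, ?_, fun P => ?_⟩
  · rw [hρ, one_smul]
  · rw [hP P, one_smul]

include hld hgen in
/-- the shape of `S17hxPlT`: for every `g` an automorphism `ρ` with `g + x_{P ∘ ρ} = x_P`. -/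
theorem s17cau_exists_sub (g : Pic0 K F) :
    ∃ ρ : L ≃ₐ[K] L, ∀ P : S17plPlace K L,
      g + s17ch2Centre hx G₀ hG₀ (s17pxComap (ρ : L →ₐ[K] L) P) = s17ch2Centre hx G₀ hG₀ P := by
  obtain ⟨ρ, q, hq, hπ, hρ, hP⟩ := s17cau_exists_add (L := L) hld hgen hx G₀ hG₀ (-g)
  refine ⟨ρ, fun P => ?_⟩
  rw [hP P]
  abel

end Model

end Fermat.Agent.S17

end
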