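/-
S17 sprint, leaf W6c / H3-core (helper50): **EXISTENCE of `K`-rational places with given centres**.

* `s17dxComp R hval Q`     : the COMPOSITE valuation ring of a Gauss reduction datum `R`
                             (`DEU.RedData`, `R.O` a valuation ring) and a valuation subring `Q` of
                             the reduced function field: `{f ∈ R.O | red f ∈ Q}`;
  `s17dxCompRed`           : the reduction `↥(s17dxComp R hval Q) →+* ↥Q`;
* `s17dxResK`              : the residue map `A →+* K` of a local `K`-algebra with residue field `K`;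
* `s17dx_step`             : **one step** in the Gauss frame `(K, Γ, L, F)`: a `K`-rational place
                             `(V, res)` of `L` and a place `Q` of `Γ / K` give a `K`-rational place
                             `(V', res')` of `F = Frac (Γ ⊗ L)` with `V' ∩ L = V`, `V' ∩ Γ = O_Q`,
                             `res' = res` on `V`.
-/
import Fermat.Agent.S17.DivSp
import Fermat.Agent.S27.LEGaussI

set_option autoImplicit false
set_option linter.unusedVariables false
set_option linter.unusedSectionVars false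
set_option linter.style.haveILetI false
set_option linter.style.longLine false

noncomputable section

namespace Fermat.Agent.S17

open AlgebraicCurve Module TensorProduct IntermediateField
open Fermat.Agent.S24 Fermat.Agent.S26 Fermat.Agent.S27 Fermat.Agent.DEU

/-! ### The composite valuation ring -/

section Comp

variable {L F k Fb : Type*} [Field L] [Field F] [Algebra L F] [Field k] [Field Fb]
  [Algebra k Fb]

theorem s17dx_red_inv (R : RedData L F k Fb) (f : F) (h : f ∈ R.O) (h' : f⁻¹ ∈ R.O)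
    (hf : R.red ⟨f, h⟩ ≠ 0) : R.red ⟨f⁻¹, h'⟩ = (R.red ⟨f, h⟩)⁻¹ := by
  have hf0 : f ≠ 0 := by
    rintro rfl
    apply hf
    have : (⟨0, h⟩ : R.O) = 0 := rfl
    rw [this, map_zero]
  have h1 : R.red ⟨f, h⟩ * R.red ⟨f⁻¹, h'⟩ = 1 := by
    rw [← map_mul]
    have : (⟨f, h⟩ : R.O) * ⟨f⁻¹, h'⟩ = 1 := Subtype.ext (mul_inv_cancel₀ hf0)
    rw [this, map_one]
  exact eq_inv_of_mul_eq_one_right h1

theorem s17dx_aux (R : RedData L F k Fb) (Q : ValuationSubring Fb) (f : F) (h : f ∈ R.O) :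
    (∃ h : f ∈ R.O, R.red ⟨f, h⟩ ∈ Q) ∨ (∃ h : f⁻¹ ∈ R.O, R.red ⟨f⁻¹, h⟩ ∈ Q) := by
  by_cases h0 : R.red ⟨f, h⟩ = 0
  · left
    exact ⟨h, by rw [h0]; exact Q.zero_mem⟩
  · have h' : f⁻¹ ∈ R.O := R.inv_mem ⟨f, h⟩ h0
    rcases Q.mem_or_inv_mem (R.red ⟨f, h⟩) with hq | hq
    · exact Or.inl ⟨h, hq⟩
    · right
      refine ⟨h', ?_⟩
      rw [s17dx_red_inv R f h h' h0]
      exact hq

/-- **the composite valuation ring** `{f ∈ R.O | red f ∈ Q}`. -/
def s17dxComp (R : RedData L F k Fb) (hval : ∀ f : F, f ∈ R.O ∨ f⁻¹ ∈ R.O)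
    (Q : ValuationSubring Fb) : ValuationSubring F where
  carrier := {f | ∃ h : f ∈ R.O, R.red ⟨f, h⟩ ∈ Q}
  mul_mem' := by
    rintro a b ⟨ha, ha'⟩ ⟨hb, hb'⟩
    refine ⟨mul_mem ha hb, ?_⟩
    have : (⟨a * b, mul_mem ha hb⟩ : R.O) = ⟨a, ha⟩ * ⟨b, hb⟩ := rfl
    rw [this, map_mul]
    exact Q.mul_mem _ _ ha' hb'
  one_mem' := by
    refine ⟨one_mem _, ?_⟩
    have : (⟨1, one_mem _⟩ : R.O) = 1 := rfl
    rw [this, map_one]
    exact Q.one_mem
  add_mem' := by
    rintro a b ⟨ha, ha'⟩ ⟨hb, hb'⟩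
    refine ⟨add_mem ha hb, ?_⟩
    have : (⟨a + b, add_mem ha hb⟩ : R.O) = ⟨a, ha⟩ + ⟨b, hb⟩ := rfl
    rw [this, map_add]
    exact Q.add_mem _ _ ha' hb'
  zero_mem' := by
    refine ⟨zero_mem _, ?_⟩
    have : (⟨0, zero_mem _⟩ : R.O) = 0 := rfl
    rw [this, map_zero]
    exact Q.zero_mem
  neg_mem' := by
    rintro a ⟨ha, ha'⟩
    refine ⟨neg_mem ha, ?_⟩
    have : (⟨-a, neg_mem ha⟩ : R.O) = -⟨a, ha⟩ := rfl
    rw [this, map_neg]
    exact Q.neg_mem _ ha'
  mem_or_inv_mem' := by
    intro f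
    rcases hval f with h | h
    · exact s17dx_aux R Q f h
    · rcases s17dx_aux R Q f⁻¹ h with h1 | h1
      · exact Or.inr h1
      · left
        rw [inv_inv] at h1
        exact h1

theorem s17dxComp_mem_iff (R : RedData L F k Fb) (hval : ∀ f : F, f ∈ R.O ∨ f⁻¹ ∈ R.O)
    (Q : ValuationSubring Fb) (f : F) :
    f ∈ s17dxComp R hval Q ↔ ∃ h : f ∈ R.O, R.red ⟨f, h⟩ ∈ Q := Iff.rfl

theorem s17dxComp_mem_O (R : RedData L F k Fb) (hval : ∀ f : F, f ∈ R.O ∨ f⁻¹ ∈ R.O)
    (Q : ValuationSubring Fb) (f : ↥(s17dxComp R hval Q)) : (f : F) ∈ R.O := f.2.choose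

/-- the reduction `↥(s17dxComp R hval Q) →+* ↥Q`. -/
def s17dxCompRed (R : RedData L F k Fb) (hval : ∀ f : F, f ∈ R.O ∨ f⁻¹ ∈ R.O)
    (Q : ValuationSubring Fb) : ↥(s17dxComp R hval Q) →+* ↥Q where
  toFun f := ⟨R.red ⟨f, s17dxComp_mem_O R hval Q f⟩, f.2.choose_spec⟩
  map_one' := by
    apply Subtype.ext
    show R.red ⟨((1 : ↥(s17dxComp R hval Q)) : F), _⟩ = 1
    have : (⟨((1 : ↥(s17dxComp R hval Q)) : F), s17dxComp_mem_O R hval Q 1⟩ : R.O) = 1 := rfl
    rw [this, map_one]
  map_mul' a b := by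
    apply Subtype.ext
    show R.red ⟨((a * b : ↥(s17dxComp R hval Q)) : F), _⟩ = R.red ⟨a, _⟩ * R.red ⟨b, _⟩
    rw [← map_mul]
    rfl
  map_zero' := by
    apply Subtype.ext
    show R.red ⟨((0 : ↥(s17dxComp R hval Q)) : F), _⟩ = 0
    have : (⟨((0 : ↥(s17dxComp R hval Q)) : F), s17dxComp_mem_O R hval Q 0⟩ : R.O) = 0 := rfl
    rw [this, map_zero]
  map_add' a b := by
    apply Subtype.ext
    show R.red ⟨((a + b : ↥(s17dxComp R hval Q)) : F), _⟩ = R.red ⟨a, _⟩ + R.red ⟨b, _⟩
    rw [← map_add]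
    rfl

theorem s17dxCompRed_coe (R : RedData L F k Fb) (hval : ∀ f : F, f ∈ R.O ∨ f⁻¹ ∈ R.O)
    (Q : ValuationSubring Fb) (f : F) (hf : f ∈ s17dxComp R hval Q) (h : f ∈ R.O) :
    ((s17dxCompRed R hval Q ⟨f, hf⟩ : ↥Q) : Fb) = R.red ⟨f, h⟩ := rfl

end Comp

/-! ### The residue map to `K` -/

section ResK

variable {K A : Type*} [Field K] [CommRing A] [IsLocalRing A] [Algebra K A]

/-- the residue map `A →+* K` of a local `K`-algebra with residue field `K`. -/
def s17dxResK (h : Function.Surjective (algebraMap K (IsLocalRing.ResidueField A))) : A →+* K :=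
  ((RingEquiv.ofBijective (algebraMap K (IsLocalRing.ResidueField A))
    ⟨(algebraMap K (IsLocalRing.ResidueField A)).injective, h⟩).symm : _ →+* K).comp
    (IsLocalRing.residue A)

theorem s17dxResK_algebraMap (h : Function.Surjective (algebraMap K (IsLocalRing.ResidueField A)))
    (c : K) : s17dxResK h (algebraMap K A c) = c := by
  show (RingEquiv.ofBijective (algebraMap K (IsLocalRing.ResidueField A))
    ⟨(algebraMap K (IsLocalRing.ResidueField A)).injective, h⟩).symm
      (IsLocalRing.residue A (algebraMap K A c)) = c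
  rw [RingEquiv.symm_apply_eq]
  rfl

end ResK

/-! ### One step in the Gauss frame -/

section Step

variable {K Γ L F : Type*} [Field K] [Field Γ] [Field L] [Field F]
  [Algebra K Γ] [Algebra K L] [Algebra K F] [Algebra Γ F] [Algebra L F]
  [IsScalarTower K Γ F] [IsScalarTower K L F]

/-- **W6c, one step**: a `K`-rational place `(V, res)` of `L` and a place `Q` of `Γ / K` with
residue field `K` give a `K`-rational place `(V', res')` of `F = Frac (Γ ⊗[K] L)` with
`V' ∩ L = V`, `V' ∩ Γ = O_Q` and `res' = res` on `V`. -/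
theorem s17dx_step (hld : Function.Injective (s26gspMu K Γ L F)) (hgen : S26gspGen K Γ L F)
    (V : ValuationSubring L) (hKV : ∀ c : K, algebraMap K L c ∈ V) (res : ↥V →+* K)
    (hresK : ∀ c : K, res ⟨algebraMap K L c, hKV c⟩ = c)
    (Q : Place K Γ) (hQ : Function.Surjective (algebraMap K Q.ResidueField)) :
    ∃ (V' : ValuationSubring F) (hKV' : ∀ c : K, algebraMap K F c ∈ V') (res' : ↥V' →+* K),
      (∀ c : K, res' ⟨algebraMap K F c, hKV' c⟩ = c) ∧
      V'.comap (algebraMap L F) = V ∧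
      V'.comap (algebraMap Γ F) = Q.toValuationSubring ∧
      (∀ (a : L) (ha : a ∈ V) (ha' : algebraMap L F a ∈ V'),
        res' ⟨algebraMap L F a, ha'⟩ = res ⟨a, ha⟩) := by
  have hres : Function.Surjective res := fun c => ⟨⟨algebraMap K L c, hKV c⟩, hresK c⟩
  set R : RedData L F K Γ :=
    s26eriData hld hgen (s17ds_hldK (K := K) (Γ := Γ)) V hKV res hresK hres with hR
  have hval : ∀ f : F, f ∈ R.O ∨ f⁻¹ ∈ R.O :=
    s26eri_mem_or_inv_mem hld hgen (s17ds_hldK (K := K) (Γ := Γ)) V hKV res hresK hres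
  have hconst : ∀ a : L, algebraMap L F a ∈ R.O ↔ a ∈ V :=
    s27legi_const_mem_iff hld hgen (s17ds_hldK (K := K) (Γ := Γ)) V hKV res hresK hres
  have hfun : ∀ u : Γ, algebraMap Γ F u ∈ R.O :=
    s26eri_mem hld hgen (s17ds_hldK (K := K) (Γ := Γ)) V hKV res hresK hres
  have hfred : ∀ u : Γ, R.red ⟨algebraMap Γ F u, hfun u⟩ = u :=
    s26eri_red hld hgen (s17ds_hldK (K := K) (Γ := Γ)) V hKV res hresK hres
  have hcred : ∀ (a : L) (ha : a ∈ V) (h : algebraMap L F a ∈ R.O),
      R.red ⟨algebraMap L F a, h⟩ = algebraMap K Γ (res ⟨a, ha⟩) := by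
    intro a ha h
    exact R.red_algebraMap ⟨a, ha⟩
  have hcmem : ∀ (a : L) (ha : a ∈ V), algebraMap L F a ∈ s17dxComp R hval Q.toValuationSubring := by
    intro a ha
    refine ⟨(hconst a).2 ha, ?_⟩
    rw [hcred a ha]
    exact Q.algebraMap_mem' _
  have hKV' : ∀ c : K, algebraMap K F c ∈ s17dxComp R hval Q.toValuationSubring := by
    intro c
    rw [IsScalarTower.algebraMap_apply K L F]
    exact hcmem _ (hKV c)
  have hres'c : ∀ (a : L) (ha : a ∈ V)
      (ha' : algebraMap L F a ∈ s17dxComp R hval Q.toValuationSubring),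
      (s17dxResK hQ).comp (s17dxCompRed R hval Q.toValuationSubring) ⟨algebraMap L F a, ha'⟩
        = res ⟨a, ha⟩ := by
    intro a ha ha'
    show s17dxResK hQ (s17dxCompRed R hval Q.toValuationSubring ⟨algebraMap L F a, ha'⟩) = _
    have e : s17dxCompRed R hval Q.toValuationSubring ⟨algebraMap L F a, ha'⟩
        = algebraMap K ↥Q.toValuationSubring (res ⟨a, ha⟩) := by
      apply Subtype.ext
      rw [s17dxCompRed_coe R hval _ _ ha' ((hconst a).2 ha), hcred a ha]
      rfl
    rw [e, s17dxResK_algebraMap]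
  refine ⟨s17dxComp R hval Q.toValuationSubring, hKV',
    (s17dxResK hQ).comp (s17dxCompRed R hval Q.toValuationSubring), ?_, ?_, ?_, hres'c⟩
  · intro c
    have hm : algebraMap L F (algebraMap K L c) ∈ s17dxComp R hval Q.toValuationSubring := by
      rw [← IsScalarTower.algebraMap_apply K L F]; exact hKV' c
    have h1 := hres'c (algebraMap K L c) (hKV c) hm
    rw [hresK] at h1
    have e : (⟨algebraMap K F c, hKV' c⟩ : ↥(s17dxComp R hval Q.toValuationSubring))
        = ⟨algebraMap L F (algebraMap K L c), hm⟩ :=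
      Subtype.ext (IsScalarTower.algebraMap_apply K L F c)
    rw [e]
    exact h1
  · ext a
    rw [ValuationSubring.mem_comap]
    constructor
    · rintro ⟨h, -⟩
      exact (hconst a).1 h
    · intro ha
      exact hcmem a ha
  · ext u
    rw [ValuationSubring.mem_comap]
    constructor
    · rintro ⟨h, hq⟩
      have := hfred u
      rw [← this]
      exact hq
    · intro hu
      refine ⟨hfun u, ?_⟩
      rw [hfred u]
      exact hu

end Step

end Fermat.Agent.S17

end
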