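/-
S17 sprint, leaf W6c / H3-core, part 2 (helper50): **`K`-rational places of the MODEL with given
centres**.  `Ω_g = s27gfOm K F g = K(C^g)` (S27/GenField.lean), `ι_i = s27gfIota i : F → Ω_g`.

* `s17dm_model` : for every tuple of places `Q : Fin g → Place K F` there is a valuation subring
                  `V ⊇ K` of `Ω_g` with a residue map `res : V →+* K` (identity on `K`) such that
                  `V ∩ ι_i F = O_{Q i}` for every `i`  (induction on `g` with `s17dx_step` in the
                  tower `Ω_g ⊂ Ω_{g+1}` of S27/GenFieldTower.lean).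
-/
import Fermat.Agent.S17.DivSpEx
import Fermat.Agent.S27.GenFieldTower

set_option autoImplicit false
set_option linter.unusedVariables false
set_option linter.unusedSectionVars false
set_option linter.style.haveILetI false
set_option linter.style.longLine false

noncomputable section

namespace Fermat.Agent.S17

open AlgebraicCurve Module TensorProduct IntermediateField
open Fermat.Agent.S24 Fermat.Agent.S26 Fermat.Agent.S27 Fermat.Agent.DEU

universe u v

section Model

variable {K : Type u} {F : Type v} [Field K] [IsAlgClosed K] [Field F] [Algebra K F]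

/-- **W6c on the model**: `K`-rational places of `Ω_g` with given centres. -/
theorem s17dm_model
    (hall : ∀ P : Place K F, Function.Surjective (algebraMap K P.ResidueField)) :
    ∀ (g : ℕ) (Q : Fin g → Place K F),
      ∃ (V : ValuationSubring (s27gfOm K F g))
        (hKV : ∀ c : K, algebraMap K (s27gfOm K F g) c ∈ V) (res : ↥V →+* K),
        (∀ c : K, res ⟨algebraMap K (s27gfOm K F g) c, hKV c⟩ = c) ∧
        ∀ i : Fin g, V.comap ((s27gfIota (K := K) (F := F) i : F →ₐ[K] s27gfOm K F g) :
          F →+* s27gfOm K F g) = (Q i).toValuationSubring := by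
  intro g
  induction g with
  | zero =>
    intro Q
    refine ⟨⊤, fun c => ValuationSubring.mem_top _,
      ((RingEquiv.ofBijective (algebraMap K (s27gfOm K F 0)) s27gft_zero_bijective).symm :
        s27gfOm K F 0 →+* K).comp (⊤ : ValuationSubring (s27gfOm K F 0)).subtype, ?_,
      fun i => i.elim0⟩
    intro c
    show (RingEquiv.ofBijective (algebraMap K (s27gfOm K F 0)) s27gft_zero_bijective).symm
      (algebraMap K (s27gfOm K F 0) c) = c
    rw [RingEquiv.symm_apply_eq]
    rfl
  | succ g ih =>
    intro Q
    obtain ⟨V, hKV, res, hresK, hcen⟩ := ih fun k => Q ((0 : Fin (g + 1)).succAbove k)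
    letI := s27gftAlgF (K := K) (F := F) (0 : Fin (g + 1))
    letI := s27gftAlgOm (K := K) (F := F) (0 : Fin (g + 1))
    haveI := s27gft_towerF (K := K) (F := F) (0 : Fin (g + 1))
    haveI := s27gft_towerOm (K := K) (F := F) (0 : Fin (g + 1))
    obtain ⟨V', hKV', res', hresK', hL, hΓ, -⟩ :=
      s17dx_step (K := K) (Γ := F) (L := s27gfOm K F g) (F := s27gfOm K F (g + 1))
        (s27gft_hld (K := K) (F := F) (0 : Fin (g + 1)))
        (s27gft_hgen (K := K) (F := F) (0 : Fin (g + 1))) V hKV res hresK (Q 0) (hall (Q 0))
    refine ⟨V', hKV', res', hresK', ?_⟩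
    intro i
    induction i using Fin.succAboveCases (0 : Fin (g + 1)) with
    | x => exact hΓ
    | p k =>
      rw [← hcen k, ← hL]
      ext u
      rw [ValuationSubring.mem_comap, ValuationSubring.mem_comap, ValuationSubring.mem_comap]
      show s27gfIota ((0 : Fin (g + 1)).succAbove k) u ∈ V' ↔
        s27gftKappa (0 : Fin (g + 1)) (s27gfIota k u) ∈ V'
      rw [s27gftKappa_iota]

end Model

end Fermat.Agent.S17

end
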