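/-
S17 sprint, leaf W6c / H3-core, part 4 (helper50): **EVERY CLASS IS A CENTRE**, on the stage of
S27/ModelPsi.lean (`Ω_g ⊆ L` algebraic, `L` algebraically closed, `FL = Frac (F ⊗[K] L)`,
`g = genusFF K F`, origin `G₀` of degree `g`, `pkg = s27dclPkg hld hgen hx G₀ hG₀`,
`η = pkg.cl (pt ∘ taut)` the class of the tautological tuple).

* `s17dg_centres` : for every tuple of places `Q : Fin g → Place K F` there is a `K`-rational
                    place `(V, res)` of `L` whose centre on the tautological point `taut i` is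
                    `Q i`  (`s17dm_model` + `s17de_ext`);
* `s17dg_riemann` : every class of `Pic0 K F` is `[Σ Q i − G₀]`;
* `s17dg_sp`      : for EVERY `K`-rational place `(V, res)` of `L`: the specialisation
                    `sp : Pic0 L FL →+ Pic0 K F` with `sp ∘ β = id` and
                    `sp (pkg.cl (pt ∘ e)) = [Σ centre_V (e i) − G₀]`;
* **`s17dg_class`** : every `c : Pic0 K F` is the centre `sp_V η` of a `K`-rational place.
-/
import Fermat.Agent.S17.DivSpMod
import Fermat.Agent.S17.DivSpExt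
import Fermat.Agent.S27.DegClosed
import Fermat.Agent.S27.PsiFam
import Fermat.Agent.S27.RR0Final

set_option autoImplicit false
set_option linter.unusedVariables false
set_option linter.unusedSectionVars false
set_option linter.style.haveILetI false
set_option linter.style.longLine false

noncomputable section

namespace Fermat.Agent.S17

open AlgebraicCurve Module TensorProduct IntermediateField
open Fermat.Agent.S24 Fermat.Agent.S26 Fermat.Agent.S27 Fermat.Agent.DEU

universe u v w y

section Centres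

variable {K : Type u} {F : Type v} [Field K] [IsAlgClosed K] [Field F] [Algebra K F] {g : ℕ}
  {L : Type (max u v)} [Field L] [Algebra K L]
  [Algebra (s27gfOm K F g) L] [IsScalarTower K (s27gfOm K F g) L]
  [Algebra.IsAlgebraic (s27gfOm K F g) L]

/-- **W6c**: `K`-rational places of `L` with given centres on the tautological points. -/
theorem s17dg_centres
    (hall : ∀ P : Place K F, Function.Surjective (algebraMap K P.ResidueField))
    (Q : Fin g → Place K F) :
    ∃ (V : ValuationSubring L) (hKV : ∀ c : K, algebraMap K L c ∈ V) (res : ↥V →+* K),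
      (∀ c : K, res ⟨algebraMap K L c, hKV c⟩ = c) ∧
      ∀ i : Fin g, S27ptIsCentre V (s27pfTaut (K := K) (F := F) (g := g) (L := L) i) (Q i) := by
  obtain ⟨V, hKV, res, hresK, hcen⟩ := s17dm_model hall g Q
  obtain ⟨W, hKW, resW, hresKW, hW, -⟩ := s17de_ext (L := L) V hKV res hresK
  refine ⟨W, hKW, resW, hresKW, fun i => ?_⟩
  unfold S27ptIsCentre
  rw [← hcen i, ← hW]
  ext u
  rw [ValuationSubring.mem_comap, ValuationSubring.mem_comap, ValuationSubring.mem_comap]
  rfl

end Centres

section Stage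

variable {K : Type u} {F : Type v} [Field K] [IsAlgClosed K] [CharZero K] [Field F] [Algebra K F]
  [IsCurveOver K F] [Algebra.EssFiniteType K F]
  {L : Type (max u v)} [Field L] [Algebra K L]
  [Algebra (s27gfOm K F (genusFF K F)) L] [IsScalarTower K (s27gfOm K F (genusFF K F)) L]
  [IsAlgClosed L] [Algebra.IsAlgebraic (s27gfOm K F (genusFF K F)) L]
  {FL : Type y} [Field FL] [Algebra K FL] [Algebra F FL] [Algebra L FL]
  [IsScalarTower K F FL] [IsScalarTower K L FL]
  (hld : Function.Injective (s26gspMu K F L FL)) (hgen : S26gspGen K F L FL)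
  {x : F} (hx : Transcendental K x)
  [FiniteDimensional ↥(IntermediateField.adjoin K {x}) F]
  [Algebra.IsSeparable ↥(IntermediateField.adjoin K {x}) F]
  (G₀ : Divisor K F) (hG₀ : Divisor.degree G₀ = (genusFF K F : ℤ))

include hx in
/-- **Riemann**: every class of degree `0` is `[Σ Q i − G₀]`. -/
theorem s17dg_riemann (c : Pic0 K F) :
    ∃ Q : Fin (genusFF K F) → Place K F,
      s27pkgClO (s17ds_hdegK (s26gspf_hall hx)) G₀ hG₀ Q = c := by
  haveI := s26err_hasPrincipalDivisors (K := K) x hx
  exact s27pkgO_rr (s17ds_hdegK (s26gspf_hall hx)) G₀ hG₀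
    (fun Δ => s27rr_riemann_final x hx Δ) c

/-- **the specialisation along a `K`-rational place of `L`, on the package.** -/
theorem s17dg_sp (V : ValuationSubring L) (hKV : ∀ c : K, algebraMap K L c ∈ V)
    (res : ↥V →+* K) (hresK : ∀ c : K, res ⟨algebraMap K L c, hKV c⟩ = c) :
    ∃ sp : Pic0 L FL →+ Pic0 K F,
      (∀ c : Pic0 K F, sp (s27bcBeta hld hgen (s26gspf_hall hx) c) = c) ∧
      ∀ (e : Fin (genusFF K F) → F →ₐ[K] L) (Q : Fin (genusFF K F) → Place K F),
        (∀ i, S27ptIsCentre V (e i) (Q i)) →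
        sp ((s27dclPkg hld hgen hx G₀ hG₀).cl
          (fun i => (s27dclPkg hld hgen hx G₀ hG₀).pt (e i))) =
          s27pkgClO (s17ds_hdegK (s26gspf_hall hx)) G₀ hG₀ Q := by
  obtain ⟨sp, h1, h2⟩ := s17ds_exists hld hgen hx (s26gspf_hall hx)
    (s27pkg_hdeg hld hgen hx) V hKV res hresK
  refine ⟨sp, h1, fun e Q hQ => ?_⟩
  exact h2 (genusFF K F) G₀ hG₀ (s27pkgO_degree hld hgen hx G₀ hG₀) e
    (fun i => s27gpPlace hld hgen (e i) hx) Q
    (fun i => s27pt_isPt_gpPlace hld hgen hx (e i)) hQ

/-- **H3-core: every class of `Pic0 K F` is the centre `sp_V η` of a `K`-rational place `V` of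
`L`** (`η` the class of the tautological tuple). -/
theorem s17dg_class (c : Pic0 K F) :
    ∃ (V : ValuationSubring L) (hKV : ∀ a : K, algebraMap K L a ∈ V) (res : ↥V →+* K)
      (_ : ∀ a : K, res ⟨algebraMap K L a, hKV a⟩ = a)
      (Q : Fin (genusFF K F) → Place K F) (sp : Pic0 L FL →+ Pic0 K F),
      (∀ i, S27ptIsCentre V
        (s27pfTaut (K := K) (F := F) (g := genusFF K F) (L := L) i) (Q i)) ∧
      s27pkgClO (s17ds_hdegK (s26gspf_hall hx)) G₀ hG₀ Q = c ∧
      (∀ d : Pic0 K F, sp (s27bcBeta hld hgen (s26gspf_hall hx) d) = d) ∧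
      (∀ (e : Fin (genusFF K F) → F →ₐ[K] L) (Q' : Fin (genusFF K F) → Place K F),
        (∀ i, S27ptIsCentre V (e i) (Q' i)) →
        sp ((s27dclPkg hld hgen hx G₀ hG₀).cl
          (fun i => (s27dclPkg hld hgen hx G₀ hG₀).pt (e i))) =
          s27pkgClO (s17ds_hdegK (s26gspf_hall hx)) G₀ hG₀ Q') ∧
      sp ((s27dclPkg hld hgen hx G₀ hG₀).cl
        (fun i => (s27dclPkg hld hgen hx G₀ hG₀).pt
          (s27pfTaut (K := K) (F := F) (g := genusFF K F) (L := L) i))) = c := by
  obtain ⟨Q, hQ⟩ := s17dg_riemann hx G₀ hG₀ c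
  obtain ⟨V, hKV, res, hresK, hcen⟩ :=
    s17dg_centres (K := K) (F := F) (g := genusFF K F) (L := L) (s26gspf_hall hx) Q
  obtain ⟨sp, h1, h2⟩ := s17dg_sp hld hgen hx G₀ hG₀ V hKV res hresK
  refine ⟨V, hKV, res, hresK, Q, sp, hcen, hQ, h1, h2, ?_⟩
  rw [h2 _ Q hcen, hQ]

end Stage

end Fermat.Agent.S17

end
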