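/-
S17 sprint, layer H, leaf **A-PTa "cl onto"** (helper50): EVERY CLASS IS THE CENTRE OF A
`K`-RATIONAL PLACE, in the language of `S17plPlace K L` (S17/Place.lean).

Stage of S27/ModelPsi.lean (`K` algebraically closed of characteristic `0`, `F / K` a curve,
`g = genusFF K F`, `Ω_g ⊆ L` algebraic, `L` algebraically closed, `FL = Frac (F ⊗[K] L)`, `x`, `G₀`
of degree `g`), `pkg = s27dclPkg hld hgen hx G₀ hG₀`, `η = pkg.cl (pt ∘ taut)`.

* `s17co_exists`  : `∀ c, ∃ (P : S17plPlace K L) (Q : Fin g → Place K F)`, the `Q i` are the centres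
                    of `P` on the tautological points and `[Σ Q i − G₀] = c`;
* `s17co_onto_of` : ANY map `cl : S17plPlace K L → Pic0 K F` with
                    `cl P = [Σ Q i − G₀]` whenever the `Q i` are the centres of `P` on the
                    tautological points is ONTO  (the input `hsurj` of `s17hx_fg_places`);
* `s17coSp P`     : the specialisation `Pic0 L FL →+ Pic0 K F` along `P`  (`s17coSp_beta`,
                    `s17coSp_cl`);
* `s17coCl P`     : the centre `x_P = sp_P η`;  `s17coCl_eq`, **`s17coCl_onto`**;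
* `s17coCl_add`   : `sp_P` is additive: `sp_P (k • η + β c) = k • x_P + c`.
-/
import Fermat.Agent.S17.DivSpStage
import Fermat.Agent.S17.Place

set_option autoImplicit false
set_option linter.unusedVariables false
set_option linter.unusedSectionVars false
set_option linter.style.haveILetI false
set_option linter.style.longLine false

noncomputable section

namespace Fermat.Agent.S17

open AlgebraicCurve Module TensorProduct IntermediateField
open Fermat.Agent.S24 Fermat.Agent.S26 Fermat.Agent.S27 Fermat.Agent.DEU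

universe u v y

section Stage

variable {K : Type u} {F : Type v} [Field K] [IsAlgClosed K] [CharZero K] [Field F] [Algebra K F]
  [IsCurveOver K F] [Algebra.EssFiniteType K F]
  {L : Type (max u v)} [Field L] [Algebra K L]
  [Algebra (s27gfOm K F (genusFF K F)) L] [IsScalarTower K (s27gfOm K F (genusFF K F)) L]
  [IsAlgClosed L] [Algebra.IsAlgebraic (s27gfOm K F (genusFF K F)) L]
  {FL : Type y} [Field FL] [Algebra K FL] [Algebra F FL] [Algebra L FL]
  [IsScalarTower K F FL] [IsScalarTower K L FL]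
  (hld : Function.Injective (s26gspMu K F L FL)) (hgen : S26gspGen K F L FL)
  {x : F} (hx : Transcendental K x)
  [FiniteDimensional ↥(IntermediateField.adjoin K {x}) F]
  [Algebra.IsSeparable ↥(IntermediateField.adjoin K {x}) F]
  (G₀ : Divisor K F) (hG₀ : Divisor.degree G₀ = (genusFF K F : ℤ))

include hx in
/-- every class is `[Σ Q i − G₀]` for the tuple `Q` of the centres of a `K`-rational place on the
tautological points. -/
theorem s17co_exists (c : Pic0 K F) :
    ∃ (P : S17plPlace K L) (Q : Fin (genusFF K F) → Place K F),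
      (∀ i, S27ptIsCentre P.W
        (s27pfTaut (K := K) (F := F) (g := genusFF K F) (L := L) i) (Q i)) ∧
      s27pkgClO (s17ds_hdegK (s26gspf_hall hx)) G₀ hG₀ Q = c := by
  obtain ⟨Q, hQ⟩ := s17dg_riemann hx G₀ hG₀ c
  obtain ⟨V, hKV, res, hresK, hcen⟩ :=
    s17dg_centres (K := K) (F := F) (g := genusFF K F) (L := L) (s26gspf_hall hx) Q
  exact ⟨⟨V, hKV, res, hresK⟩, Q, hcen, hQ⟩

include hx in
/-- **"cl onto"**: a centre map is surjective. -/
theorem s17co_onto_of (cl : S17plPlace K L → Pic0 K F)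
    (hcl : ∀ (P : S17plPlace K L) (Q : Fin (genusFF K F) → Place K F),
      (∀ i, S27ptIsCentre P.W
        (s27pfTaut (K := K) (F := F) (g := genusFF K F) (L := L) i) (Q i)) →
      cl P = s27pkgClO (s17ds_hdegK (s26gspf_hall hx)) G₀ hG₀ Q) :
    Function.Surjective cl := by
  intro c
  obtain ⟨P, Q, hcen, hQ⟩ := s17co_exists (L := L) hx G₀ hG₀ c
  exact ⟨P, (hcl P Q hcen).trans hQ⟩

/-- the specialisation along a `K`-rational place. -/
def s17coSp (P : S17plPlace K L) : Pic0 L FL →+ Pic0 K F :=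
  Classical.choose (s17dg_sp hld hgen hx G₀ hG₀ P.W P.hKW P.res P.hres)

theorem s17coSp_beta (P : S17plPlace K L) (c : Pic0 K F) :
    s17coSp hld hgen hx G₀ hG₀ P (s27bcBeta hld hgen (s26gspf_hall hx) c) = c :=
  (Classical.choose_spec (s17dg_sp hld hgen hx G₀ hG₀ P.W P.hKW P.res P.hres)).1 c

theorem s17coSp_cl (P : S17plPlace K L) (e : Fin (genusFF K F) → F →ₐ[K] L)
    (Q : Fin (genusFF K F) → Place K F) (hQ : ∀ i, S27ptIsCentre P.W (e i) (Q i)) :
    s17coSp hld hgen hx G₀ hG₀ P ((s27dclPkg hld hgen hx G₀ hG₀).cl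
      (fun i => (s27dclPkg hld hgen hx G₀ hG₀).pt (e i))) =
      s27pkgClO (s17ds_hdegK (s26gspf_hall hx)) G₀ hG₀ Q :=
  (Classical.choose_spec (s17dg_sp hld hgen hx G₀ hG₀ P.W P.hKW P.res P.hres)).2 e Q hQ

/-- **the centre** `x_P = sp_P η` of a `K`-rational place of `L`. -/
def s17coCl (P : S17plPlace K L) : Pic0 K F :=
  s17coSp hld hgen hx G₀ hG₀ P ((s27dclPkg hld hgen hx G₀ hG₀).cl
    (fun i => (s27dclPkg hld hgen hx G₀ hG₀).pt
      (s27pfTaut (K := K) (F := F) (g := genusFF K F) (L := L) i)))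

theorem s17coCl_eq (P : S17plPlace K L) (Q : Fin (genusFF K F) → Place K F)
    (hQ : ∀ i, S27ptIsCentre P.W
      (s27pfTaut (K := K) (F := F) (g := genusFF K F) (L := L) i) (Q i)) :
    s17coCl hld hgen hx G₀ hG₀ P = s27pkgClO (s17ds_hdegK (s26gspf_hall hx)) G₀ hG₀ Q :=
  s17coSp_cl hld hgen hx G₀ hG₀ P _ Q hQ

/-- **A-PTa: the centre map is onto.** -/
theorem s17coCl_onto : Function.Surjective (s17coCl (L := L) hld hgen hx G₀ hG₀) :=
  s17co_onto_of hx G₀ hG₀ _ fun P Q hQ => s17coCl_eq hld hgen hx G₀ hG₀ P Q hQ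

/-- `sp_P (k • η + β c) = k • x_P + c`. -/
theorem s17coCl_add (P : S17plPlace K L) (k : ℤ) (c : Pic0 K F) :
    s17coSp hld hgen hx G₀ hG₀ P (k • ((s27dclPkg hld hgen hx G₀ hG₀).cl
      (fun i => (s27dclPkg hld hgen hx G₀ hG₀).pt
        (s27pfTaut (K := K) (F := F) (g := genusFF K F) (L := L) i)))
        + s27bcBeta hld hgen (s26gspf_hall hx) c) =
      k • s17coCl hld hgen hx G₀ hG₀ P + c := by
  rw [map_add, map_zsmul, s17coSp_beta]
  rfl

/-- the class of ANY tuple `e` with class `k • η + β c`: its centres along `P` represent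
`k • x_P + c`. -/
theorem s17coCl_affine (P : S17plPlace K L) (k : ℤ) (c : Pic0 K F)
    (e : Fin (genusFF K F) → F →ₐ[K] L) (Q : Fin (genusFF K F) → Place K F)
    (hQ : ∀ i, S27ptIsCentre P.W (e i) (Q i))
    (he : (s27dclPkg hld hgen hx G₀ hG₀).cl
        (fun i => (s27dclPkg hld hgen hx G₀ hG₀).pt (e i)) =
      k • ((s27dclPkg hld hgen hx G₀ hG₀).cl
        (fun i => (s27dclPkg hld hgen hx G₀ hG₀).pt
          (s27pfTaut (K := K) (F := F) (g := genusFF K F) (L := L) i)))
        + s27bcBeta hld hgen (s26gspf_hall hx) c) :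
    s27pkgClO (s17ds_hdegK (s26gspf_hall hx)) G₀ hG₀ Q =
      k • s17coCl hld hgen hx G₀ hG₀ P + c := by
  rw [← s17coSp_cl hld hgen hx G₀ hG₀ P e Q hQ, he, s17coCl_add]

end Stage

end Fermat.Agent.S17

end
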