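/-
S17 sprint, layer H — **CENTRE BRIDGE** (helper50): the two definitions of the centre of a
`K`-rational place agree, and the centre map of A-PTb is ONTO.

* `s17ch2Centre hx G₀ hG₀ P` (helper42, S17/CentreHom.lean) : `[Σ Q i − G₀]`, `Q i` the chosen
  centres of the tautological points;
* `s17coCl hld hgen hx G₀ hG₀ P` (S17/CentreOnto.lean)      : `sp_P η`.

* `s17cb_eq`   : `s17ch2Centre hx G₀ hG₀ P = s17coCl hld hgen hx G₀ hG₀ P`;
* `s17cb_onto` : `Function.Surjective (s17ch2Centre hx G₀ hG₀)`  (A-PTa for the centre of A-PTb);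
* `s17cb_aut`, `s17cb_mul`, `s17cb_add` : A-PTb for `s17coCl`.
-/
import Fermat.Agent.S17.CentreHom
import Fermat.Agent.S17.CentreOnto

set_option autoImplicit false
set_option linter.unusedVariables false
set_option linter.unusedSectionVars false
set_option linter.style.haveILetI false
set_option linter.style.longLine false

noncomputable section

namespace Fermat.Agent.S17

open AlgebraicCurve Module TensorProduct IntermediateField
open Fermat.Agent.S24 Fermat.Agent.S26 Fermat.Agent.S27 Fermat.Agent.DEU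

universe u v y

section Stage

variable {K : Type u} {F : Type v} [Field K] [IsAlgClosed K] [CharZero K] [Field F] [Algebra K F]
  [IsCurveOver K F] [Algebra.EssFiniteType K F]
  {L : Type (max u v)} [Field L] [Algebra K L]
  [Algebra (s27gfOm K F (genusFF K F)) L] [IsScalarTower K (s27gfOm K F (genusFF K F)) L]
  [IsAlgClosed L] [Algebra.IsAlgebraic (s27gfOm K F (genusFF K F)) L]
  {FL : Type y} [Field FL] [Algebra K FL] [Algebra F FL] [Algebra L FL]
  [IsScalarTower K F FL] [IsScalarTower K L FL]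
  (hld : Function.Injective (s26gspMu K F L FL)) (hgen : S26gspGen K F L FL)
  {x : F} (hx : Transcendental K x)
  [FiniteDimensional ↥(IntermediateField.adjoin K {x}) F]
  [Algebra.IsSeparable ↥(IntermediateField.adjoin K {x}) F]
  (G₀ : Divisor K F) (hG₀ : Divisor.degree G₀ = (genusFF K F : ℤ))

/-- the two centres agree. -/
theorem s17cb_eq (P : S17plPlace K L) :
    s17ch2Centre hx G₀ hG₀ P = s17coCl hld hgen hx G₀ hG₀ P :=
  s17ch2_centre_eq_sp hld hgen hx G₀ hG₀ P (s17coSp hld hgen hx G₀ hG₀ P)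
    (fun q Q hQ => s17coSp_cl hld hgen hx G₀ hG₀ P q Q hQ)

include hld hgen in
/-- **A-PTa for the centre of A-PTb**: the centre map is onto. -/
theorem s17cb_onto : Function.Surjective (s17ch2Centre (L := L) hx G₀ hG₀) := by
  intro c
  obtain ⟨P, hP⟩ := s17coCl_onto (L := L) hld hgen hx G₀ hG₀ c
  exact ⟨P, (s17cb_eq hld hgen hx G₀ hG₀ P).trans hP⟩

/-- **A-PTb for `s17coCl`**: `actC ρ η = k • η + β c` ⇒ `x_{P ∘ ρ} = k • x_P + c`. -/
theorem s17cb_aut (P : S17plPlace K L) (ρ : L ≃ₐ[K] L) (k : ℤ) (c : Pic0 K F)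
    (hρ : (s27dclPkg hld hgen hx G₀ hG₀).actC ρ
        (s27pfCl (s27dclPkg hld hgen hx G₀ hG₀)
          (s27pfTaut (K := K) (F := F) (g := genusFF K F) (L := L))) =
      k • s27pfCl (s27dclPkg hld hgen hx G₀ hG₀)
          (s27pfTaut (K := K) (F := F) (g := genusFF K F) (L := L)) +
        s27bcBeta hld hgen (s26gspf_hall hx) c) :
    s17coCl hld hgen hx G₀ hG₀ (s17pxComap (ρ : L →ₐ[K] L) P) =
      k • s17coCl hld hgen hx G₀ hG₀ P + c := by
  rw [← s17cb_eq, ← s17cb_eq]
  exact s17ch2_centre_aut hld hgen hx G₀ hG₀ P ρ k c hρ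

/-- `actC ρ η = n • η` ⇒ `x_{P ∘ ρ} = n • x_P`. -/
theorem s17cb_mul (P : S17plPlace K L) (ρ : L ≃ₐ[K] L) (n : ℤ)
    (hρ : (s27dclPkg hld hgen hx G₀ hG₀).actC ρ
        (s27pfCl (s27dclPkg hld hgen hx G₀ hG₀)
          (s27pfTaut (K := K) (F := F) (g := genusFF K F) (L := L))) =
      n • s27pfCl (s27dclPkg hld hgen hx G₀ hG₀)
          (s27pfTaut (K := K) (F := F) (g := genusFF K F) (L := L))) :
    s17coCl hld hgen hx G₀ hG₀ (s17pxComap (ρ : L →ₐ[K] L) P) =
      n • s17coCl hld hgen hx G₀ hG₀ P := by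
  rw [← s17cb_eq, ← s17cb_eq]
  exact s17ch2_centre_mul hld hgen hx G₀ hG₀ P ρ n hρ

/-- `actC ρ η = η + β c` ⇒ `x_{P ∘ ρ} = x_P + c`. -/
theorem s17cb_add (P : S17plPlace K L) (ρ : L ≃ₐ[K] L) (c : Pic0 K F)
    (hρ : (s27dclPkg hld hgen hx G₀ hG₀).actC ρ
        (s27pfCl (s27dclPkg hld hgen hx G₀ hG₀)
          (s27pfTaut (K := K) (F := F) (g := genusFF K F) (L := L))) =
      s27pfCl (s27dclPkg hld hgen hx G₀ hG₀)
          (s27pfTaut (K := K) (F := F) (g := genusFF K F) (L := L)) +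
        s27bcBeta hld hgen (s26gspf_hall hx) c) :
    s17coCl hld hgen hx G₀ hG₀ (s17pxComap (ρ : L →ₐ[K] L) P) =
      s17coCl hld hgen hx G₀ hG₀ P + c := by
  rw [← s17cb_eq, ← s17cb_eq]
  exact s17ch2_centre_add hld hgen hx G₀ hG₀ P ρ c hρ

end Stage

end Fermat.Agent.S17

end
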