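/-
S17 sprint (item 17), leaf **W-MUL** (helper15): weak Mordell–Weil is multiplicative in the
multiplier.  (For the descents with `m = 4`, `m = 9`, … : `b(m) > a` may force a composite `m`,
while the Kummer side gives prime multipliers.)

* `s17wm_range_finiteIndex_mul` : abstract: in an additive commutative group, if `m • G` and
  `n • G` have finite index, then `(m * n) • G` has finite index;
* `s17wm_range_finiteIndex_pow`, `s17wm_range_finiteIndex_of_dvd`;
* `s17wm_mul`, `s17wm_pow`, `s17wm_of_dvd` : the same for `S17IsWeak N ·`.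
-/
import Fermat.Agent.S17.Top

set_option autoImplicit false

namespace Fermat.Agent.S17

section Abstract

variable {G : Type*} [AddCommGroup G]

/-- `(m * n) • G = m • (n • G)` -/
theorem s17wm_range_mul (m n : ℕ) :
    (nsmulAddMonoidHom (α := G) (m * n)).range
      = ((nsmulAddMonoidHom (α := G) n).range).map (nsmulAddMonoidHom (α := G) m) := by
  ext x
  constructor
  · rintro ⟨y, rfl⟩
    refine ⟨n • y, ⟨y, rfl⟩, ?_⟩
    show m • (n • y) = (m * n) • y
    rw [mul_smul]
  · rintro ⟨z, ⟨y, rfl⟩, rfl⟩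
    refine ⟨y, ?_⟩
    show (m * n) • y = m • (n • y)
    rw [mul_smul]

/-- if `m • G` and `n • G` have finite index, so has `(m * n) • G`. -/
theorem s17wm_range_finiteIndex_mul (m n : ℕ)
    (hm : (nsmulAddMonoidHom (α := G) m).range.FiniteIndex)
    (hn : (nsmulAddMonoidHom (α := G) n).range.FiniteIndex) :
    (nsmulAddMonoidHom (α := G) (m * n)).range.FiniteIndex := by
  rw [s17wm_range_mul]
  refine ⟨?_⟩
  rw [AddSubgroup.index_map]
  have h1 : ((nsmulAddMonoidHom (α := G) n).range ⊔ (nsmulAddMonoidHom (α := G) m).ker).index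
      ≠ 0 := by
    have hle : (nsmulAddMonoidHom (α := G) n).range
        ≤ (nsmulAddMonoidHom (α := G) n).range ⊔ (nsmulAddMonoidHom (α := G) m).ker := le_sup_left
    exact (AddSubgroup.finiteIndex_of_le hle).index_ne_zero
  exact mul_ne_zero h1 hm.index_ne_zero

/-- if `m • G` has finite index, so has `m ^ k • G`. -/
theorem s17wm_range_finiteIndex_pow (m : ℕ)
    (hm : (nsmulAddMonoidHom (α := G) m).range.FiniteIndex) (k : ℕ) :
    (nsmulAddMonoidHom (α := G) (m ^ k)).range.FiniteIndex := by
  induction k with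
  | zero =>
      have : (nsmulAddMonoidHom (α := G) (m ^ 0)).range = ⊤ := by
        rw [eq_top_iff]
        intro x _
        exact ⟨x, by simp⟩
      rw [this]
      infer_instance
  | succ k ih =>
      rw [pow_succ]
      exact s17wm_range_finiteIndex_mul (m ^ k) m ih hm

/-- if `m ∣ m'` and `m' • G` has finite index, so has `m • G`. -/
theorem s17wm_range_finiteIndex_of_dvd {m m' : ℕ} (h : m ∣ m')
    (hm' : (nsmulAddMonoidHom (α := G) m').range.FiniteIndex) :
    (nsmulAddMonoidHom (α := G) m).range.FiniteIndex := by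
  obtain ⟨c, rfl⟩ := h
  have hle : (nsmulAddMonoidHom (α := G) (m * c)).range ≤ (nsmulAddMonoidHom (α := G) m).range := by
    rintro x ⟨y, rfl⟩
    refine ⟨c • y, ?_⟩
    show m • (c • y) = (m * c) • y
    rw [mul_smul]
  exact AddSubgroup.finiteIndex_of_le hle

end Abstract

/-- **W-MUL**: weak Mordell–Weil for `m` and for `n` gives it for `m * n`. -/
theorem s17wm_mul (N : ℕ) [NeZero N] (m n : ℕ) (hm : S17IsWeak N m) (hn : S17IsWeak N n) :
    S17IsWeak N (m * n) :=
  s17wm_range_finiteIndex_mul m n hm hn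

/-- weak Mordell–Weil for `m` gives it for `m ^ k`. -/
theorem s17wm_pow (N : ℕ) [NeZero N] (m : ℕ) (hm : S17IsWeak N m) (k : ℕ) :
    S17IsWeak N (m ^ k) :=
  s17wm_range_finiteIndex_pow m hm k

/-- weak Mordell–Weil for a multiple of `m` gives it for `m`. -/
theorem s17wm_of_dvd (N : ℕ) [NeZero N] {m m' : ℕ} (h : m ∣ m') (hm' : S17IsWeak N m') :
    S17IsWeak N m :=
  s17wm_range_finiteIndex_of_dvd h hm'

end Fermat.Agent.S17
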