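/-
S17 sprint, layer H — **TOP at `m = 9`: the special translations are not needed** (helper97).

The square (T) is proved by the team for translations `g` in a set `NS` only (`g ∉ Θ ∪ −Θ`:
`ℓ(Ao − D) = ℓ(Ao + D) = 0`).  Formal repair, no new geometry:

* `s17t9_plT_comp` : (T) on `NS` with the constant `a` and `g = u + v`, `u, v ∈ NS` for every `g`
  (MOVING, class form) give (T) for ALL `g` with the constant `a ^ 2` (two steps);
* `s17t9_plM_comp` : (M′) for `m` with `b` and for `n` with `b'` give (M′) for `m * n` with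
  `b * b'` (place form: two lifts);
* `s17t9_fg`       : (T) on `NS` with `a = 2`, (M′) at `3` with `b = 6`, (N), TORS and WEAK at `9`
  give `AddGroup.FG`: `s17hy_fg_places N 9 4 36` (`4 ^ 2 = 16 < 36`);
* `s17t9_fg_of_three` : the same from TORS at `9` and WEAK at `3` (`s17wm_pow`).
-/
import Fermat.Agent.S17.HTopAB
import Fermat.Agent.S17.WeakMul

set_option autoImplicit false
set_option linter.style.haveILetI false

namespace Fermat.Agent.S17

open ModularCurve AlgebraicCurve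

/-- place form of (T) for the translations in a set `NS` only. -/
def S17t9PlTOn {N : ℕ} [NeZero N] {P : Type*} (cl : P → JZero N) (H : P → ℝ) (a : ℝ)
    (NS : Set (JZero N)) : Prop :=
  ∀ g ∈ NS, ∃ c : ℝ, ∀ p : P, ∃ p₁ : P, g + cl p₁ = cl p ∧ H p₁ ≤ a * H p + c

/-- (T) for all translations is (T) on `Set.univ`. -/
theorem s17t9_plTOn_univ {N : ℕ} [NeZero N] {P : Type*} {cl : P → JZero N} {H : P → ℝ} {a : ℝ}
    (hT : S17t9PlTOn cl H a Set.univ) : S17hyPlT cl H a :=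
  fun g => hT g (Set.mem_univ g)

/-- two steps of (T): translations `u ∈ NS₁` with the constant `a₁`, `v ∈ NS₂` with `a₂`
give the translation `u + v` with the constant `a₂ * a₁`. -/
theorem s17t9_plT_step {N : ℕ} [NeZero N] {P : Type*} {cl : P → JZero N} {H : P → ℝ}
    {a₁ a₂ : ℝ} (ha₂ : 0 ≤ a₂) {u v : JZero N}
    (hu : ∃ c : ℝ, ∀ p : P, ∃ p₁ : P, u + cl p₁ = cl p ∧ H p₁ ≤ a₁ * H p + c)
    (hv : ∃ c : ℝ, ∀ p : P, ∃ p₁ : P, v + cl p₁ = cl p ∧ H p₁ ≤ a₂ * H p + c) :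
    ∃ c : ℝ, ∀ p : P, ∃ p₁ : P, (u + v) + cl p₁ = cl p ∧ H p₁ ≤ (a₂ * a₁) * H p + c := by
  obtain ⟨cu, hcu⟩ := hu
  obtain ⟨cv, hcv⟩ := hv
  refine ⟨a₂ * cu + cv, fun p => ?_⟩
  obtain ⟨p₁, h1, h1'⟩ := hcu p
  obtain ⟨p₂, h2, h2'⟩ := hcv p₁
  refine ⟨p₂, ?_, ?_⟩
  · rw [add_assoc, h2, h1]
  · have h3 : a₂ * H p₁ ≤ a₂ * (a₁ * H p + cu) := mul_le_mul_of_nonneg_left h1' ha₂
    calc H p₂ ≤ a₂ * H p₁ + cv := h2'
      _ ≤ a₂ * (a₁ * H p + cu) + cv := by linarith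
      _ = (a₂ * a₁) * H p + (a₂ * cu + cv) := by ring

/-- **(T) for ALL translations from (T) on `NS`**: if every `g` is a sum of two elements of `NS`
then (T) holds for all `g` with the constant `a ^ 2`. -/
theorem s17t9_plT_comp {N : ℕ} [NeZero N] {P : Type*} {cl : P → JZero N} {H : P → ℝ}
    {a : ℝ} (ha : 0 ≤ a) (NS : Set (JZero N)) (hT : S17t9PlTOn cl H a NS)
    (hdec : ∀ g : JZero N, ∃ u ∈ NS, ∃ v ∈ NS, u + v = g) : S17hyPlT cl H (a ^ 2) := by
  intro g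
  obtain ⟨u, hu, v, hv, rfl⟩ := hdec g
  have h := s17t9_plT_step (cl := cl) (H := H) ha (hT u hu) (hT v hv)
  simpa [pow_two] using h

/-- **(M′) composes**: lifts for `m` (constant `b`) and for `n` (constant `b'`) give lifts for
`m * n` with the constant `b * b'`. -/
theorem s17t9_plM_comp {N : ℕ} [NeZero N] {P : Type*} {cl : P → JZero N} {H : P → ℝ}
    {m n : ℕ} {b b' : ℝ} (hb : 0 ≤ b) (hM : S17hyPlM cl H m b) (hM' : S17hyPlM cl H n b') :
    S17hyPlM cl H (m * n) (b * b') := by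
  obtain ⟨C, hC⟩ := hM
  obtain ⟨C', hC'⟩ := hM'
  refine ⟨b * C' + C, fun p'' => ?_⟩
  obtain ⟨p', h1, h1'⟩ := hC p''
  obtain ⟨p, h2, h2'⟩ := hC' p'
  refine ⟨p, ?_, ?_⟩
  · rw [mul_smul, h2, h1]
  · have h3 : b * (b' * H p - C') ≤ b * H p' := mul_le_mul_of_nonneg_left h2' hb
    calc b * b' * H p - (b * C' + C) = b * (b' * H p - C') - C := by ring
      _ ≤ b * H p' - C := by linarith
      _ ≤ H p'' := h1'

/-- (M′) at `m` with `b` gives (M′) at `m ^ 2` with `b ^ 2`. -/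
theorem s17t9_plM_sq {N : ℕ} [NeZero N] {P : Type*} {cl : P → JZero N} {H : P → ℝ}
    {m : ℕ} {b : ℝ} (hb : 0 ≤ b) (hM : S17hyPlM cl H m b) : S17hyPlM cl H (m ^ 2) (b ^ 2) := by
  have h := s17t9_plM_comp hb hM hM
  simpa [pow_two] using h

/-- **TOP at `m = 9`**: (T) for the translations of `NS` with `a = 2`, every class a sum of two
elements of `NS`, (M′) at `3` with `b = 6`, (N), TORS and WEAK at `9` ⇒ finitely generated. -/
theorem s17t9_fg (N : ℕ) [NeZero N] {P : Type*} (cl : P → JZero N) (H : P → ℝ)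
    (hH : ∀ p, 0 ≤ H p) (hsurj : Function.Surjective cl)
    (NS : Set (JZero N)) (hdec : ∀ g : JZero N, ∃ u ∈ NS, ∃ v ∈ NS, u + v = g)
    (hT : S17t9PlTOn cl H 2 NS) (hM : S17hyPlM cl H 3 6) (hN : S17hxPlN cl H)
    (htors : S17kaTors N 9) (hw : S17IsWeak N 9) : AddGroup.FG (s17MW N) := by
  have hT4 : S17hyPlT cl H 4 := by
    have h := s17t9_plT_comp (cl := cl) (H := H) (a := 2) (by norm_num) NS hT hdec
    have e : (2 : ℝ) ^ 2 = 4 := by norm_num
    rwa [e] at h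
  have hM9 : S17hyPlM cl H 9 36 := by
    have h := s17t9_plM_sq (cl := cl) (H := H) (m := 3) (b := 6) (by norm_num) hM
    have e : (6 : ℝ) ^ 2 = 36 := by norm_num
    have e' : (3 : ℕ) ^ 2 = 9 := by norm_num
    rwa [e, e'] at h
  exact s17hy_fg_places N 9 4 36 (by norm_num) (by norm_num) cl H hH hsurj hM9 hT4 hN htors hw

/-- the same from WEAK at `3`. -/
theorem s17t9_fg_of_three (N : ℕ) [NeZero N] {P : Type*} (cl : P → JZero N) (H : P → ℝ)
    (hH : ∀ p, 0 ≤ H p) (hsurj : Function.Surjective cl)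
    (NS : Set (JZero N)) (hdec : ∀ g : JZero N, ∃ u ∈ NS, ∃ v ∈ NS, u + v = g)
    (hT : S17t9PlTOn cl H 2 NS) (hM : S17hyPlM cl H 3 6) (hN : S17hxPlN cl H)
    (htors : S17kaTors N 9) (hw : S17IsWeak N 3) : AddGroup.FG (s17MW N) := by
  have hw9 : S17IsWeak N 9 := by
    have h := s17wm_pow N 3 hw 2
    have e' : (3 : ℕ) ^ 2 = 9 := by norm_num
    rwa [e'] at h
  exact s17t9_fg N cl H hH hsurj NS hdec hT hM hN htors hw9

/-- **the open statement of layer H at `m = 9`** (place form, translations in `NS` only). -/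
def s17t9_Stmt : Prop :=
  ∀ (N : ℕ) [NeZero N], N.Prime → 5 ≤ N →
    ∃ (P : Type) (cl : P → JZero N) (H : P → ℝ) (NS : Set (JZero N)),
      (∀ p, 0 ≤ H p) ∧ Function.Surjective cl ∧
      (∀ g : JZero N, ∃ u ∈ NS, ∃ v ∈ NS, u + v = g) ∧
      S17t9PlTOn cl H 2 NS ∧ S17hyPlM cl H 3 6 ∧ S17hxPlN cl H

/-- the frozen type of S17 from `s17t9_Stmt`, TORS at `9` and WEAK at `3`. -/
theorem s17t9_result (htors : ∀ (N : ℕ) [NeZero N], S17kaTors N 9)
    (hw : ∀ (N : ℕ) [NeZero N], S17IsWeak N 3) (H : s17t9_Stmt)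
    (N : ℕ) [NeZero N] (hN : N.Prime) (hN5 : 5 ≤ N) :
    AddGroup.FG ↥(FixedPoints.addSubgroup ((AlgebraicClosure ℚ) ≃ₐ[ℚ] (AlgebraicClosure ℚ))
      (JZero N)) := by
  obtain ⟨P, cl, Ht, NS, hH, hsurj, hdec, hT, hM, hNo⟩ := H N hN hN5
  exact s17t9_fg_of_three N cl Ht hH hsurj NS hdec hT hM hNo (htors N) (hw N)

end Fermat.Agent.S17
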