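/-
S17 sprint, layer H — **MOVING lemma, Riemann–Roch half** (helper26).

`K` algebraically closed, `F / K` a function field of one variable (`x` transcendental,
`[F : K(x)] < ∞`), `g = genusFF K F`.  For finitely many divisors `Dp i`, `Dm j` of degree `g − 1`
and a finite set `T` of places there is a divisor `M` of degree `0`, supported off `T`, with

    `L(Dp i + M) = 0`  and  `L(Dm j − M) = 0`      for all `i`, `j`.

In words: finitely many translates `Θ_{c}`, `Θ⁻_{c'}` of the theta divisor do not cover `Pic⁰`.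
This is the input "∃ a : x ± a ∉ Θ" of the moving lemma `hmove` of `s17bp_of_square`
(S17/Bpf.lean): for the centre `x` of a place take `Dp = Dm = ![Ao − x, Ao]`.

* `s17mrr_sub_point` : `L(D) ≠ 0` ⇒ `ℓ(D − P) + 1 ≤ ℓ(D)` for all but finitely many `P`;
* `s17mrr_add_point` : `ℓ(D) > deg D + 1 − g` ⇒ `ℓ(D + Q) ≤ ℓ(D)` for all but finitely many `Q`;
* `s17mrr_step`      : one generic pair `(P, Q)` lowers all `ℓ(Dp i + P − Q)`, `ℓ(Dm j − P + Q)`;
* `s17mrr_main`      : the statement above;
* `s17mrr_pm`        : the symmetric form `L(D i + M) = L(D i − M) = 0`.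
-/
import Fermat.Agent.S27.RR0Final

set_option autoImplicit false
set_option linter.unusedVariables false
set_option linter.unusedSectionVars false
set_option linter.style.haveILetI false

noncomputable section

namespace Fermat.Agent.S17

open AlgebraicCurve Module IntermediateField Fermat.Agent.S26 Fermat.Agent.S27

variable {K : Type*} {F : Type*} [Field K] [Field F] [Algebra K F]

/-- monotonicity of `L(D)`. -/
theorem s17mrr_mono {A B : Divisor K F} (h : A ≤ B) :
    riemannRochSpace A ≤ riemannRochSpace B := by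
  intro f hf
  rw [mem_riemannRochSpace_iff] at hf ⊢
  intro v
  rcases hf v with h0 | h1
  · exact Or.inl h0
  · right
    have := Finsupp.le_def.mp h v
    omega

/-- `0 ≤ single P 1`. -/
theorem s17mrr_single_nonneg (P : Place K F) : (0 : Divisor K F) ≤ Finsupp.single P 1 := by
  classical
  intro v
  rw [Finsupp.single_apply]
  split_ifs <;> simp

section AlgClosed

variable [IsAlgClosed K] (x : F) (hx : Transcendental K x) [FiniteDimensional K⟮x⟯ F]

include hx

/-- the one-point bound `ℓ(D + Q) ≤ ℓ(D) + 1`. -/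
theorem s17mrr_add_le (D : Divisor K F) (Q : Place K F) :
    finrank K ↥(riemannRochSpace (D + Finsupp.single Q 1)) ≤
      finrank K ↥(riemannRochSpace D) + 1 := by
  haveI := s26err_hasPrincipalDivisors (K := K) x hx
  have h := s26err_finrank_le (fun v => s26err_residue_finite x hx v)
    (le_add_of_nonneg_right (s17mrr_single_nonneg Q) : D ≤ D + Finsupp.single Q 1)
  rw [map_add, Divisor.degree_single, s26errg_deg_eq_one x hx Q] at h
  push_cast at h
  omega

/-- **generic `P` lowers `ℓ`**: if `L(D) ≠ 0`, then `ℓ(D − P) + 1 ≤ ℓ(D)` for all but finitely many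
places `P`. -/
theorem s17mrr_sub_point (D : Divisor K F) (hD : riemannRochSpace D ≠ ⊥) :
    ∃ S : Finset (Place K F), ∀ P : Place K F, P ∉ S →
      finrank K ↥(riemannRochSpace (D - Finsupp.single P 1)) + 1 ≤
        finrank K ↥(riemannRochSpace D) := by
  classical
  haveI := s26err_hasPrincipalDivisors (K := K) x hx
  obtain ⟨f, hfD, hf0⟩ := Submodule.exists_mem_ne_zero_of_ne_bot hD
  obtain ⟨Df, hDf, -⟩ := HasPrincipalDivisors.exists_divisor (K := K) f hf0
  refine ⟨D.support ∪ Df.support, fun P hP => ?_⟩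
  rw [Finset.mem_union, not_or, Finsupp.notMem_support_iff, Finsupp.notMem_support_iff] at hP
  have hord : P.ord f = 0 := by rw [← hDf P]; exact hP.2
  have hle : riemannRochSpace (D - Finsupp.single P 1) ≤ riemannRochSpace D :=
    s17mrr_mono (sub_le_self _ (s17mrr_single_nonneg P))
  have hnot : f ∉ riemannRochSpace (D - Finsupp.single P 1) := by
    intro hmem
    rw [mem_riemannRochSpace_iff] at hmem
    rcases hmem P with h0 | h1
    · exact hf0 h0
    · rw [Finsupp.sub_apply, Finsupp.single_eq_same, hP.1, hord] at h1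
      omega
  have hlt : riemannRochSpace (D - Finsupp.single P 1) < riemannRochSpace D :=
    lt_of_le_of_ne hle (fun h => hnot (h ▸ hfD))
  haveI : Module.Finite K ↥(riemannRochSpace D) := s26err_rr_finite' x hx D
  have := Submodule.finrank_lt_finrank_of_lt hlt
  omega

/-- adding distinct places of the "bad" set raises `ℓ` each time. -/
theorem s17mrr_chain (D : Divisor K F) (s : Finset (Place K F))
    (hs : ∀ Q ∈ s, finrank K ↥(riemannRochSpace D) <
      finrank K ↥(riemannRochSpace (D + Finsupp.single Q 1))) :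
    finrank K ↥(riemannRochSpace D) + s.card ≤
      finrank K ↥(riemannRochSpace (D + ∑ Q ∈ s, Finsupp.single Q 1)) := by
  classical
  induction s using Finset.induction_on with
  | empty =>
    rw [Finset.sum_empty, add_zero, Finset.card_empty, Nat.add_zero]
  | insert Q s hQ ih =>
    have ih' := ih (fun Q' hQ' => hs Q' (Finset.mem_insert_of_mem hQ'))
    have hQB := hs Q (Finset.mem_insert_self Q s)
    rw [Finset.sum_insert hQ, Finset.card_insert_of_notMem hQ]
    set Ds : Divisor K F := D + ∑ Q' ∈ s, Finsupp.single Q' 1 with hDs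
    have hsum0 : (0 : Divisor K F) ≤ ∑ Q' ∈ s, Finsupp.single Q' 1 :=
      Finset.sum_nonneg fun Q' _ => s17mrr_single_nonneg Q'
    have hsumQ : (∑ Q' ∈ s, (Finsupp.single Q' 1 : Divisor K F)) Q = 0 := by
      rw [Finsupp.finsetSum_apply]
      refine Finset.sum_eq_zero fun Q' hQ' => ?_
      rw [Finsupp.single_apply, if_neg]
      rintro rfl
      exact hQ hQ'
    have e : D + (Finsupp.single Q 1 + ∑ Q' ∈ s, Finsupp.single Q' 1) =
        Ds + Finsupp.single Q 1 := by
      rw [hDs]; abel
    rw [e]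
    -- an element of `L(D + Q)` outside `L(D)`
    have hnle : ¬ riemannRochSpace (D + Finsupp.single Q 1) ≤ riemannRochSpace D := by
      intro hle
      have heq : riemannRochSpace (D + Finsupp.single Q 1) = riemannRochSpace D :=
        le_antisymm hle (s17mrr_mono (le_add_of_nonneg_right (s17mrr_single_nonneg Q)))
      rw [heq] at hQB
      exact lt_irrefl _ hQB
    obtain ⟨f, hfQ, hfD⟩ := SetLike.not_le_iff_exists.1 hnle
    have hf0 : f ≠ 0 := fun h => hfD (h ▸ Submodule.zero_mem _)
    -- the pole of `f` at `Q`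
    have hpole : Q.ord f < -D Q := by
      rw [mem_riemannRochSpace_iff] at hfQ hfD
      obtain ⟨v, hv'⟩ := not_forall.1 hfD
      rw [not_or, not_le] at hv'
      have hv := hv'.2
      rcases hfQ v with h0 | h1
      · exact absurd h0 hf0
      · rw [Finsupp.add_apply, Finsupp.single_apply] at h1
        by_cases hvQ : Q = v
        · subst hvQ
          exact hv
        · rw [if_neg hvQ] at h1
          omega
    have hmemS : f ∈ riemannRochSpace (Ds + Finsupp.single Q 1) := by
      refine s17mrr_mono ?_ hfQ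
      rw [hDs]
      exact add_le_add (le_add_of_nonneg_right hsum0) le_rfl
    have hnotS : f ∉ riemannRochSpace Ds := by
      intro hmem
      rw [mem_riemannRochSpace_iff] at hmem
      rcases hmem Q with h0 | h1
      · exact hf0 h0
      · rw [hDs, Finsupp.add_apply, hsumQ, add_zero] at h1
        omega
    have hlt : riemannRochSpace Ds < riemannRochSpace (Ds + Finsupp.single Q 1) :=
      lt_of_le_of_ne (s17mrr_mono (le_add_of_nonneg_right (s17mrr_single_nonneg Q)))
        (fun h => hnotS (h ▸ hmemS))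
    haveI : Module.Finite K ↥(riemannRochSpace (Ds + Finsupp.single Q 1)) :=
      s26err_rr_finite' x hx _
    have := Submodule.finrank_lt_finrank_of_lt hlt
    omega

/-- **generic `Q` does not raise `ℓ` of a special divisor**: if `deg D + 1 − g < ℓ(D)`, then
`ℓ(D + Q) ≤ ℓ(D)` for all but finitely many places `Q`. -/
theorem s17mrr_add_point (D : Divisor K F)
    (hδ : Divisor.degree D + 1 - genusFF K F < (finrank K ↥(riemannRochSpace D) : ℤ)) :
    ∃ S : Finset (Place K F), ∀ Q : Place K F, Q ∉ S →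
      finrank K ↥(riemannRochSpace (D + Finsupp.single Q 1)) ≤
        finrank K ↥(riemannRochSpace D) := by
  classical
  set B : Set (Place K F) := {Q | finrank K ↥(riemannRochSpace D) <
    finrank K ↥(riemannRochSpace (D + Finsupp.single Q 1))} with hB
  have hfinB : B.Finite := by
    by_contra hinf
    obtain ⟨c, hc⟩ := s27rr_large x hx
    obtain ⟨s, hsB, hcard⟩ :=
      (Set.not_finite.mp hinf).exists_subset_card_eq (c - Divisor.degree D).toNat
    have hchain := s17mrr_chain x hx D s (fun Q hQ => hsB hQ)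
    have hdeg : Divisor.degree (D + ∑ Q ∈ s, Finsupp.single Q 1) =
        Divisor.degree D + s.card := by
      rw [map_add, map_sum]
      have : ∀ Q ∈ s, Divisor.degree (Finsupp.single Q 1 : Divisor K F) = 1 := fun Q _ => by
        rw [Divisor.degree_single, s26errg_deg_eq_one x hx Q]
        simp
      rw [Finset.sum_congr rfl this]
      simp
    have hlarge := hc (D + ∑ Q ∈ s, Finsupp.single Q 1) (by
      rw [hdeg, hcard]
      have := Int.self_le_toNat (c - Divisor.degree D)
      omega)
    rw [hdeg] at hlarge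
    have hchain' : (finrank K ↥(riemannRochSpace D) : ℤ) + s.card ≤
        finrank K ↥(riemannRochSpace (D + ∑ Q ∈ s, Finsupp.single Q 1)) := by
      exact_mod_cast hchain
    omega
  refine ⟨hfinB.toFinset, fun Q hQ => ?_⟩
  have hQ' : Q ∉ B := fun h => hQ ((Set.Finite.mem_toFinset _).2 h)
  exact not_lt.1 hQ'

/-- `ℓ(D) = 0` gives `L(D) = ⊥`. -/
theorem s17mrr_eq_bot (D : Divisor K F)
    (h : finrank K ↥(riemannRochSpace D) = 0) : riemannRochSpace D = ⊥ := by
  haveI : Module.Finite K ↥(riemannRochSpace D) := s26err_rr_finite' x hx D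
  exact Submodule.finrank_eq_zero.1 h

/-- the degree of `D + P − Q`. -/
theorem s17mrr_degree_add_sub (D : Divisor K F) (P Q : Place K F) :
    Divisor.degree (D + Finsupp.single P 1 - Finsupp.single Q 1) = Divisor.degree D := by
  rw [map_sub, map_add, Divisor.degree_single, Divisor.degree_single,
    s26errg_deg_eq_one x hx P, s26errg_deg_eq_one x hx Q]
  ring

/-- the degree of `D − P + Q`. -/
theorem s17mrr_degree_sub_add (D : Divisor K F) (P Q : Place K F) :
    Divisor.degree (D - Finsupp.single P 1 + Finsupp.single Q 1) = Divisor.degree D := by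
  rw [map_add, map_sub, Divisor.degree_single, Divisor.degree_single,
    s26errg_deg_eq_one x hx P, s26errg_deg_eq_one x hx Q]
  ring

/-- **one generic step**: for divisors of degree `g − 1` with `ℓ ≤ n + 1` a generic pair
`(P, Q)` gives `ℓ(Dp i + P − Q) ≤ n` and `ℓ(Dm j − P + Q) ≤ n`. -/
theorem s17mrr_step {ι κ : Type*} [Fintype ι] [Fintype κ]
    (Dp : ι → Divisor K F) (Dm : κ → Divisor K F)
    (hp : ∀ i, Divisor.degree (Dp i) = (genusFF K F : ℤ) - 1)
    (hm : ∀ j, Divisor.degree (Dm j) = (genusFF K F : ℤ) - 1)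
    (T : Finset (Place K F)) (n : ℕ)
    (hnp : ∀ i, finrank K ↥(riemannRochSpace (Dp i)) ≤ n + 1)
    (hnm : ∀ j, finrank K ↥(riemannRochSpace (Dm j)) ≤ n + 1) :
    ∃ P Q : Place K F, P ∉ T ∧ Q ∉ T ∧
      (∀ i, finrank K ↥(riemannRochSpace (Dp i + Finsupp.single P 1 - Finsupp.single Q 1)) ≤ n) ∧
      (∀ j, finrank K ↥(riemannRochSpace (Dm j - Finsupp.single P 1 + Finsupp.single Q 1)) ≤ n) := by
  classical
  haveI : Infinite (Place K F) := s26errg_infinite_place x hx
  -- the choice of `P`
  have h1 : ∀ i, ∃ S : Finset (Place K F), ∀ P : Place K F, P ∉ S →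
      finrank K ↥(riemannRochSpace (Dp i + Finsupp.single P 1)) ≤ n + 1 := by
    intro i
    by_cases h0 : finrank K ↥(riemannRochSpace (Dp i)) = 0
    · refine ⟨∅, fun P _ => ?_⟩
      have := s17mrr_add_le x hx (Dp i) P
      omega
    · obtain ⟨S, hS⟩ := s17mrr_add_point x hx (Dp i) (by
        rw [hp i]
        have : (0 : ℤ) < finrank K ↥(riemannRochSpace (Dp i)) := by
          exact_mod_cast Nat.pos_of_ne_zero h0
        omega)
      exact ⟨S, fun P hP => (hS P hP).trans (hnp i)⟩
  have h2 : ∀ j, ∃ S : Finset (Place K F), ∀ P : Place K F, P ∉ S →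
      finrank K ↥(riemannRochSpace (Dm j - Finsupp.single P 1)) ≤ n := by
    intro j
    by_cases h0 : riemannRochSpace (Dm j) = ⊥
    · refine ⟨∅, fun P _ => ?_⟩
      have hle : riemannRochSpace (Dm j - Finsupp.single P 1) ≤ riemannRochSpace (Dm j) :=
        s17mrr_mono (sub_le_self _ (s17mrr_single_nonneg P))
      rw [h0, le_bot_iff] at hle
      rw [hle, finrank_bot]
      exact Nat.zero_le n
    · obtain ⟨S, hS⟩ := s17mrr_sub_point x hx (Dm j) h0
      refine ⟨S, fun P hP => ?_⟩
      have := hS P hP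
      have := hnm j
      omega
  choose S1 hS1 using h1
  choose S2 hS2 using h2
  obtain ⟨P, hP⟩ := Infinite.exists_notMem_finset
    (T ∪ (Finset.univ.biUnion S1 ∪ Finset.univ.biUnion S2))
  simp only [Finset.mem_union, Finset.mem_biUnion, Finset.mem_univ, true_and, not_or,
    not_exists] at hP
  obtain ⟨hPT, hP1, hP2⟩ := hP
  -- the choice of `Q`
  have h3 : ∀ i, ∃ S : Finset (Place K F), ∀ Q : Place K F, Q ∉ S →
      finrank K ↥(riemannRochSpace (Dp i + Finsupp.single P 1 - Finsupp.single Q 1)) ≤ n := by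
    intro i
    have hb := hS1 i P (hP1 i)
    by_cases h0 : riemannRochSpace (Dp i + Finsupp.single P 1) = ⊥
    · refine ⟨∅, fun Q _ => ?_⟩
      have hle : riemannRochSpace (Dp i + Finsupp.single P 1 - Finsupp.single Q 1) ≤
          riemannRochSpace (Dp i + Finsupp.single P 1) :=
        s17mrr_mono (sub_le_self _ (s17mrr_single_nonneg Q))
      rw [h0, le_bot_iff] at hle
      rw [hle, finrank_bot]
      exact Nat.zero_le n
    · obtain ⟨S, hS⟩ := s17mrr_sub_point x hx (Dp i + Finsupp.single P 1) h0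
      refine ⟨S, fun Q hQ => ?_⟩
      have := hS Q hQ
      omega
  have h4 : ∀ j, ∃ S : Finset (Place K F), ∀ Q : Place K F, Q ∉ S →
      finrank K ↥(riemannRochSpace (Dm j - Finsupp.single P 1 + Finsupp.single Q 1)) ≤ n := by
    intro j
    have hb := hS2 j P (hP2 j)
    obtain ⟨S, hS⟩ := s17mrr_add_point x hx (Dm j - Finsupp.single P 1) (by
      rw [map_sub, Divisor.degree_single, s26errg_deg_eq_one x hx P, hm j]
      have : (0 : ℤ) ≤ finrank K ↥(riemannRochSpace (Dm j - Finsupp.single P 1)) :=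
        Int.natCast_nonneg _
      push_cast
      omega)
    exact ⟨S, fun Q hQ => (hS Q hQ).trans hb⟩
  choose S3 hS3 using h3
  choose S4 hS4 using h4
  obtain ⟨Q, hQ⟩ := Infinite.exists_notMem_finset
    (T ∪ (Finset.univ.biUnion S3 ∪ Finset.univ.biUnion S4))
  simp only [Finset.mem_union, Finset.mem_biUnion, Finset.mem_univ, true_and, not_or,
    not_exists] at hQ
  obtain ⟨hQT, hQ3, hQ4⟩ := hQ
  exact ⟨P, Q, hPT, hQT, fun i => hS3 i Q (hQ3 i), fun j => hS4 j Q (hQ4 j)⟩

/-- **MOVING, Riemann–Roch half**, with a bound `n` on the dimensions. -/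
theorem s17mrr_main_aux {ι κ : Type*} [Fintype ι] [Fintype κ] (T : Finset (Place K F)) (n : ℕ) :
    ∀ (Dp : ι → Divisor K F) (Dm : κ → Divisor K F),
      (∀ i, Divisor.degree (Dp i) = (genusFF K F : ℤ) - 1) →
      (∀ j, Divisor.degree (Dm j) = (genusFF K F : ℤ) - 1) →
      (∀ i, finrank K ↥(riemannRochSpace (Dp i)) ≤ n) →
      (∀ j, finrank K ↥(riemannRochSpace (Dm j)) ≤ n) →
      ∃ M : Divisor K F, Divisor.degree M = 0 ∧ (∀ v ∈ T, M v = 0) ∧
        (∀ i, riemannRochSpace (Dp i + M) = ⊥) ∧ (∀ j, riemannRochSpace (Dm j - M) = ⊥) := by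
  classical
  induction n with
  | zero =>
    intro Dp Dm hp hm hnp hnm
    refine ⟨0, map_zero _, fun v _ => rfl, fun i => ?_, fun j => ?_⟩
    · rw [add_zero]
      exact s17mrr_eq_bot x hx _ (Nat.le_zero.1 (hnp i))
    · rw [sub_zero]
      exact s17mrr_eq_bot x hx _ (Nat.le_zero.1 (hnm j))
  | succ n ih =>
    intro Dp Dm hp hm hnp hnm
    obtain ⟨P, Q, hPT, hQT, h1, h2⟩ := s17mrr_step x hx Dp Dm hp hm T n hnp hnm
    obtain ⟨M', hM'deg, hM'T, hM'p, hM'm⟩ :=
      ih (fun i => Dp i + Finsupp.single P 1 - Finsupp.single Q 1)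
        (fun j => Dm j - Finsupp.single P 1 + Finsupp.single Q 1)
        (fun i => by rw [s17mrr_degree_add_sub x hx, hp i])
        (fun j => by rw [s17mrr_degree_sub_add x hx, hm j]) h1 h2
    refine ⟨Finsupp.single P 1 - Finsupp.single Q 1 + M', ?_, fun v hv => ?_, fun i => ?_,
      fun j => ?_⟩
    · rw [map_add, map_sub, Divisor.degree_single, Divisor.degree_single,
        s26errg_deg_eq_one x hx P, s26errg_deg_eq_one x hx Q, hM'deg]
      ring
    · have hvP : P ≠ v := fun h => hPT (h ▸ hv)
      have hvQ : Q ≠ v := fun h => hQT (h ▸ hv)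
      rw [Finsupp.add_apply, Finsupp.sub_apply, Finsupp.single_apply, Finsupp.single_apply,
        if_neg hvP, if_neg hvQ, hM'T v hv]
      ring
    · have e : Dp i + (Finsupp.single P 1 - Finsupp.single Q 1 + M') =
          Dp i + Finsupp.single P 1 - Finsupp.single Q 1 + M' := by abel
      rw [e]
      exact hM'p i
    · have e : Dm j - (Finsupp.single P 1 - Finsupp.single Q 1 + M') =
          Dm j - Finsupp.single P 1 + Finsupp.single Q 1 - M' := by abel
      rw [e]
      exact hM'm j

/-- **MOVING, Riemann–Roch half**: finitely many divisors `Dp i`, `Dm j` of degree `g − 1`,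
`T` finite ⇒ some `M` of degree `0` off `T` has `L(Dp i + M) = 0 = L(Dm j − M)`. -/
theorem s17mrr_main {ι κ : Type*} [Fintype ι] [Fintype κ] (T : Finset (Place K F))
    (Dp : ι → Divisor K F) (Dm : κ → Divisor K F)
    (hp : ∀ i, Divisor.degree (Dp i) = (genusFF K F : ℤ) - 1)
    (hm : ∀ j, Divisor.degree (Dm j) = (genusFF K F : ℤ) - 1) :
    ∃ M : Divisor K F, Divisor.degree M = 0 ∧ (∀ v ∈ T, M v = 0) ∧
      (∀ i, riemannRochSpace (Dp i + M) = ⊥) ∧ (∀ j, riemannRochSpace (Dm j - M) = ⊥) := by
  classical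
  refine s17mrr_main_aux x hx T
    ((Finset.univ.sup fun i => finrank K ↥(riemannRochSpace (Dp i))) +
      (Finset.univ.sup fun j => finrank K ↥(riemannRochSpace (Dm j)))) Dp Dm hp hm
    (fun i => ?_) (fun j => ?_)
  · exact (Finset.le_sup (f := fun i => finrank K ↥(riemannRochSpace (Dp i)))
      (Finset.mem_univ i)).trans (Nat.le_add_right _ _)
  · exact (Finset.le_sup (f := fun j => finrank K ↥(riemannRochSpace (Dm j)))
      (Finset.mem_univ j)).trans (Nat.le_add_left _ _)

/-- **MOVING, symmetric form**: `L(D i + M) = L(D i − M) = 0` for finitely many `D i` of degree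
`g − 1`. -/
theorem s17mrr_pm {ι : Type*} [Fintype ι] (T : Finset (Place K F)) (D : ι → Divisor K F)
    (hD : ∀ i, Divisor.degree (D i) = (genusFF K F : ℤ) - 1) :
    ∃ M : Divisor K F, Divisor.degree M = 0 ∧ (∀ v ∈ T, M v = 0) ∧
      ∀ i, riemannRochSpace (D i + M) = ⊥ ∧ riemannRochSpace (D i - M) = ⊥ := by
  obtain ⟨M, h0, hT, h1, h2⟩ := s17mrr_main x hx T D D hD hD
  exact ⟨M, h0, hT, fun i => ⟨h1 i, h2 i⟩⟩

/-- **the two translates of `Θ` at a centre**: for `Ao`, `Dx` of degree `g − 1` (`Dx = Ao − x` for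
the centre `x`) some `M` of degree `0` has `L(Ao ± M) = 0` and `L(Dx ± M) = 0`. -/
theorem s17mrr_centre (T : Finset (Place K F)) (Ao Dx : Divisor K F)
    (hAo : Divisor.degree Ao = (genusFF K F : ℤ) - 1)
    (hDx : Divisor.degree Dx = (genusFF K F : ℤ) - 1) :
    ∃ M : Divisor K F, Divisor.degree M = 0 ∧ (∀ v ∈ T, M v = 0) ∧
      riemannRochSpace (Ao + M) = ⊥ ∧ riemannRochSpace (Ao - M) = ⊥ ∧
      riemannRochSpace (Dx + M) = ⊥ ∧ riemannRochSpace (Dx - M) = ⊥ := by
  obtain ⟨M, h0, hT, h⟩ := s17mrr_pm x hx T (fun b : Bool => if b then Ao else Dx)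
    (fun b => by cases b <;> simp [hAo, hDx])
  have ht := h true
  have hf := h false
  simp only [if_true] at ht
  simp only [Bool.false_eq_true, if_false] at hf
  exact ⟨M, h0, hT, ht.1, ht.2, hf.1, hf.2⟩

end AlgClosed

end Fermat.Agent.S17

end
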