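/-
S17 sprint, layer H — **MOVING lemma, class form of the Riemann–Roch half** (helper26).

`K` algebraically closed, `F / K` a function field of one variable, `g = genusFF K F`,
`Ao` a divisor of degree `g − 1`, `Θ_{Ao} = {x ∈ Pic⁰ : L(Ao − x) ≠ 0}`.

* `S17mvcOff Ao x`   : the class `x` is OFF `Θ_{Ao}`: `L(Ao − X) = 0` for every representative `X`;
* `s17mvc_off_iff`   : one representative suffices;
* `s17mvc_exists`    : **for every class `x` there is `D` of degree `0` (off a finite set `T`) with
                        `L(Ao − D) = L(Ao + D) = 0` and `x + [D]`, `x − [D]` off `Θ_{Ao}`**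
                        (the constants of the SQUARE at the centre `x`: `s17su_unit_const`,
                        `s17su_trSq` ask for `L(Ao ∓ D) = 0`; MOVE-VAL asks for the centres
                        `x ± [D]` of `η ± β[D]` to be off `Θ_{Ao}`);
* `s17mvc_exists_fin`: the same for finitely many classes `x i` at once.
-/
import Fermat.Agent.S17.MoveRR
import Fermat.Agent.S27.RepInst

set_option autoImplicit false
set_option linter.unusedVariables false
set_option linter.unusedSectionVars false
set_option linter.style.haveILetI false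

noncomputable section

namespace Fermat.Agent.S17

open AlgebraicCurve Module IntermediateField Fermat.Agent.S26 Fermat.Agent.S27

variable {K : Type*} {F : Type*} [Field K] [Field F] [Algebra K F]

/-- the class `x` is off the theta divisor `Θ_{Ao}`. -/
def S17mvcOff (Ao : Divisor K F) (x : Pic0 K F) : Prop :=
  ∀ X : Divisor.degZero (K := K) (F := F), Pic0.mk X = x →
    riemannRochSpace (Ao - (X : Divisor K F)) = ⊥

/-- one representative suffices. -/
theorem s17mvc_off_of_rep (Ao : Divisor K F) (X : Divisor.degZero (K := K) (F := F))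
    (h : riemannRochSpace (Ao - (X : Divisor K F)) = ⊥) : S17mvcOff Ao (Pic0.mk X) := by
  intro X' hX'
  obtain ⟨f, hf, hfD⟩ := (s27pkg_mk_eq_iff X' X).1 hX'
  refine (s27ri_rr_bot_congr (Ao - (X' : Divisor K F)) (Ao - (X : Divisor K F))
    ⟨f⁻¹, inv_ne_zero hf, fun v => ?_⟩).2 h
  have := hfD v
  rw [Finsupp.sub_apply, Finsupp.sub_apply, Place.ord_inv]
  omega

theorem s17mvc_off_iff (Ao : Divisor K F) (X : Divisor.degZero (K := K) (F := F)) :
    S17mvcOff Ao (Pic0.mk X) ↔ riemannRochSpace (Ao - (X : Divisor K F)) = ⊥ :=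
  ⟨fun h => h X rfl, s17mvc_off_of_rep Ao X⟩

section AlgClosed

variable [IsAlgClosed K] (x : F) (hx : Transcendental K x) [FiniteDimensional K⟮x⟯ F]

include hx

/-- **MOVING, class form, finitely many centres**: for classes `c i` there is `D` of degree `0`,
off `T`, with `L(Ao ∓ D) = 0` and all `c i ± [D]` off `Θ_{Ao}`. -/
theorem s17mvc_exists_fin {ι : Type*} [Fintype ι] (Ao : Divisor K F)
    (hAo : Divisor.degree Ao = (genusFF K F : ℤ) - 1) (c : ι → Pic0 K F)
    (T : Finset (Place K F)) :
    ∃ D : Divisor.degZero (K := K) (F := F), (∀ v ∈ T, (D : Divisor K F) v = 0) ∧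
      riemannRochSpace (Ao - (D : Divisor K F)) = ⊥ ∧
      riemannRochSpace (Ao + (D : Divisor K F)) = ⊥ ∧
      ∀ i, S17mvcOff Ao (c i + Pic0.mk D) ∧ S17mvcOff Ao (c i - Pic0.mk D) := by
  classical
  choose X hX using fun i => Pic0.mk_surjective (K := K) (F := F) (c i)
  have hXdeg : ∀ i, Divisor.degree ((X i : Divisor K F)) = 0 := fun i => (X i).2
  obtain ⟨M, hM0, hMT, hM⟩ := s17mrr_pm x hx T
    (fun o : Option ι => match o with
      | none => Ao
      | some i => Ao - (X i : Divisor K F))
    (fun o => by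
      cases o with
      | none => exact hAo
      | some i =>
        show Divisor.degree (Ao - (X i : Divisor K F)) = _
        rw [map_sub, hXdeg i, hAo, sub_zero])
  refine ⟨⟨M, hM0⟩, hMT, (hM none).2, (hM none).1, fun i => ⟨?_, ?_⟩⟩
  · rw [← hX i, ← Pic0.mk_add]
    refine s17mvc_off_of_rep Ao _ ?_
    have e : Ao - ((X i + ⟨M, hM0⟩ : Divisor.degZero (K := K) (F := F)) : Divisor K F) =
        Ao - (X i : Divisor K F) - M := by
      rw [AddSubgroup.coe_add]
      abel
    rw [e]
    exact (hM (some i)).2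
  · have hsub : c i - Pic0.mk (⟨M, hM0⟩ : Divisor.degZero (K := K) (F := F)) =
        Pic0.mk (X i - ⟨M, hM0⟩) := by
      rw [← hX i]
      rfl
    rw [hsub]
    refine s17mvc_off_of_rep Ao _ ?_
    have e : Ao - ((X i - ⟨M, hM0⟩ : Divisor.degZero (K := K) (F := F)) : Divisor K F) =
        Ao - (X i : Divisor K F) + M := by
      rw [AddSubgroup.coe_sub]
      abel
    rw [e]
    exact (hM (some i)).1

/-- **MOVING, class form**: for every class `c` there is `D` of degree `0`, off `T`, with
`L(Ao ∓ D) = 0` and `c ± [D]` off `Θ_{Ao}`. -/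
theorem s17mvc_exists (Ao : Divisor K F)
    (hAo : Divisor.degree Ao = (genusFF K F : ℤ) - 1) (c : Pic0 K F)
    (T : Finset (Place K F)) :
    ∃ D : Divisor.degZero (K := K) (F := F), (∀ v ∈ T, (D : Divisor K F) v = 0) ∧
      riemannRochSpace (Ao - (D : Divisor K F)) = ⊥ ∧
      riemannRochSpace (Ao + (D : Divisor K F)) = ⊥ ∧
      S17mvcOff Ao (c + Pic0.mk D) ∧ S17mvcOff Ao (c - Pic0.mk D) := by
  obtain ⟨D, hT, h1, h2, h⟩ := s17mvc_exists_fin x hx Ao hAo (fun _ : Unit => c) T
  exact ⟨D, hT, h1, h2, (h ()).1, (h ()).2⟩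

end AlgClosed

end Fermat.Agent.S17

end
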