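/-
S17 sprint, layer H — **the decomposition `g = u + v` with `u`, `v` non-special** (helper97).

`K` algebraically closed, `F / K` a function field of one variable, `Ao` of degree `g − 1`.
`S17t9NS Ao` := the classes `[D]` with `L(Ao − D) = 0 = L(Ao + D)` (`[D] ∉ Θ ∪ −Θ`: exactly the
translations for which the SQUARE `s17ssq_sq` / `s17squ_square` is proved).

* `s17t9_ns_iff`  : membership does not depend on the representative;
* `s17t9_ns_neg`  : `S17t9NS Ao` is symmetric;
* `s17t9_dec`     : **every class is `u + v` with `u, v ∈ S17t9NS Ao`** (MOVING, class form: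
                    `s17mvc_exists_fin` for the two centres `g`, `−g`).
This is the hypothesis `hdec` of `s17t9_fg` (S17/TopNine.lean).
-/
import Fermat.Agent.S17.MoveCls

set_option autoImplicit false
set_option linter.unusedVariables false
set_option linter.unusedSectionVars false
set_option linter.style.haveILetI false

noncomputable section

namespace Fermat.Agent.S17

open AlgebraicCurve Module IntermediateField Fermat.Agent.S26 Fermat.Agent.S27

variable {K : Type*} {F : Type*} [Field K] [Field F] [Algebra K F]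

/-- the non-special translations: classes `[D]` with `L(Ao − D) = 0 = L(Ao + D)`. -/
def S17t9NS (Ao : Divisor K F) : Set (Pic0 K F) :=
  {g | ∃ D : Divisor.degZero (K := K) (F := F), Pic0.mk D = g ∧
    riemannRochSpace (Ao - (D : Divisor K F)) = ⊥ ∧
    riemannRochSpace (Ao + (D : Divisor K F)) = ⊥}

/-- membership in terms of `S17mvcOff`. -/
theorem s17t9_ns_iff_off (Ao : Divisor K F) (g : Pic0 K F) :
    g ∈ S17t9NS Ao ↔ S17mvcOff Ao g ∧ S17mvcOff Ao (-g) := by
  constructor
  · rintro ⟨D, rfl, h1, h2⟩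
    refine ⟨s17mvc_off_of_rep Ao D h1, ?_⟩
    have e : -Pic0.mk D = Pic0.mk (-D) := rfl
    rw [e]
    refine s17mvc_off_of_rep Ao _ ?_
    have e2 : Ao - ((-D : Divisor.degZero (K := K) (F := F)) : Divisor K F) =
        Ao + (D : Divisor K F) := by
      rw [AddSubgroup.coe_neg]
      abel
    rw [e2]
    exact h2
  · rintro ⟨h1, h2⟩
    obtain ⟨D, rfl⟩ := Pic0.mk_surjective (K := K) (F := F) g
    refine ⟨D, rfl, h1 D rfl, ?_⟩
    have h3 := h2 (-D) rfl
    have e2 : Ao - ((-D : Divisor.degZero (K := K) (F := F)) : Divisor K F) =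
        Ao + (D : Divisor K F) := by
      rw [AddSubgroup.coe_neg]
      abel
    rw [e2] at h3
    exact h3

/-- membership does not depend on the representative. -/
theorem s17t9_ns_iff (Ao : Divisor K F) (D : Divisor.degZero (K := K) (F := F)) :
    Pic0.mk D ∈ S17t9NS Ao ↔
      riemannRochSpace (Ao - (D : Divisor K F)) = ⊥ ∧
        riemannRochSpace (Ao + (D : Divisor K F)) = ⊥ := by
  constructor
  · intro h
    have h' := (s17t9_ns_iff_off Ao _).1 h
    refine ⟨h'.1 D rfl, ?_⟩
    have h3 := h'.2 (-D) rfl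
    have e2 : Ao - ((-D : Divisor.degZero (K := K) (F := F)) : Divisor K F) =
        Ao + (D : Divisor K F) := by
      rw [AddSubgroup.coe_neg]
      abel
    rw [e2] at h3
    exact h3
  · rintro ⟨h1, h2⟩
    exact ⟨D, rfl, h1, h2⟩

/-- `S17t9NS Ao` is symmetric. -/
theorem s17t9_ns_neg (Ao : Divisor K F) {g : Pic0 K F} (hg : g ∈ S17t9NS Ao) :
    -g ∈ S17t9NS Ao := by
  rw [s17t9_ns_iff_off] at hg ⊢
  exact ⟨hg.2, by rw [neg_neg]; exact hg.1⟩

section AlgClosed

variable [IsAlgClosed K] (x : F) (hx : Transcendental K x) [FiniteDimensional K⟮x⟯ F]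

include hx

/-- **every class is a sum of two non-special classes**. -/
theorem s17t9_dec (Ao : Divisor K F)
    (hAo : Divisor.degree Ao = (genusFF K F : ℤ) - 1) (g : Pic0 K F) :
    ∃ u ∈ S17t9NS Ao, ∃ v ∈ S17t9NS Ao, u + v = g := by
  classical
  obtain ⟨D, -, h1, h2, h⟩ := s17mvc_exists_fin x hx Ao hAo
    (fun b : Bool => if b then g else -g) ∅
  have ht := h true
  have hf := h false
  simp only [if_true] at ht
  simp only [Bool.false_eq_true, if_false] at hf
  refine ⟨Pic0.mk D, ⟨D, rfl, h1, h2⟩, g - Pic0.mk D, ?_, by abel⟩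
  rw [s17t9_ns_iff_off]
  refine ⟨ht.2, ?_⟩
  have e : -(g - Pic0.mk D) = -g + Pic0.mk D := by abel
  rw [e]
  exact hf.1

/-- the same, off a finite set of places and with a third class avoided: for every `g` there is
`D` of degree `0` off `T` with `[D]`, `g − [D]` non-special. -/
theorem s17t9_dec_off (Ao : Divisor K F)
    (hAo : Divisor.degree Ao = (genusFF K F : ℤ) - 1) (g : Pic0 K F) (T : Finset (Place K F)) :
    ∃ D : Divisor.degZero (K := K) (F := F), (∀ v ∈ T, (D : Divisor K F) v = 0) ∧
      Pic0.mk D ∈ S17t9NS Ao ∧ g - Pic0.mk D ∈ S17t9NS Ao := by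
  classical
  obtain ⟨D, hT, h1, h2, h⟩ := s17mvc_exists_fin x hx Ao hAo
    (fun b : Bool => if b then g else -g) T
  have ht := h true
  have hf := h false
  simp only [if_true] at ht
  simp only [Bool.false_eq_true, if_false] at hf
  refine ⟨D, hT, ⟨D, rfl, h1, h2⟩, ?_⟩
  rw [s17t9_ns_iff_off]
  refine ⟨ht.2, ?_⟩
  have e : -(g - Pic0.mk D) = -g + Pic0.mk D := by abel
  rw [e]
  exact hf.1

end AlgClosed

end Fermat.Agent.S17

end
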