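/-
S17 sprint, design A v2, leaf **T4 — SEGRE** (helper58), for the PRODUCT form of (T) (helper18).

(a) place-values (frame of S17/Place.lean): for tuples `F : ι → L`, `G : κ → L` and a `K`-place `P`
* `s17sg_isMin`        : `(α, β)` is a minimal index of the product tuple
                         `F ⊗ G = fun p : ι × κ => F p.1 * G p.2` if `α`, `β` are minimal for `F`, `G`;
* `s17sg_isMin_fst/_snd` : conversely, a minimal index of `F ⊗ G` has minimal components;
* `s17sg_val`          : `[F ⊗ G]_P = [F]_P ⊗ [G]_P` in the chart `(α, β)`;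
* `s17sg_val_any`      : in ANY chart `γ` of `F ⊗ G` the value is `c • ([F]_P ⊗ [G]_P)`, `c ≠ 0`.

(b) absolute heights (S17/HtAbsQb.lean, helper37): for `x`, `y ≠ 0`
* `s17sg_abs_mul`      : `s17haAbs  (fun p => x p.1 * y p.2) = s17haAbs x + s17haAbs y`;
* `s17sg_absQ_mul`     : `s17haAbsQ (fun p => x p.1 * y p.2) = s17haAbsQ x + s17haAbsQ y`;
* `s17sg_absQ_scale`   : `s17haAbsQ (fun i => c * v i) = s17haAbsQ v` (`c ≠ 0`; the `hsc` of PlMGlue).

(c) both: `s17sg_ht_val` : `s17haAbsQ [F ⊗ G]_P (any chart) = s17haAbsQ [F]_P + s17haAbsQ [G]_P`.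
-/
import Fermat.Agent.S17.Place
import Fermat.Agent.S17.HtAbsQb

set_option autoImplicit false
set_option linter.unusedSectionVars false
set_option linter.unusedVariables false
set_option linter.style.haveILetI false

noncomputable section

namespace Fermat.Agent.S17

open NumberField Height IntermediateField

section Val

variable {K L : Type*} [Field K] [Field L] [Algebra K L] {ι κ : Type*}

/-- the product tuple `F ⊗ G`. -/
def s17sgProd {A : Type*} [Mul A] (F : ι → A) (G : κ → A) : ι × κ → A :=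
  fun p => F p.1 * G p.2

@[simp] theorem s17sgProd_apply {A : Type*} [Mul A] (F : ι → A) (G : κ → A) (p : ι × κ) :
    s17sgProd F G p = F p.1 * G p.2 := rfl

theorem s17sg_div (F : ι → L) (G : κ → L) (α : ι) (β : κ) (p : ι × κ) :
    s17sgProd F G p / s17sgProd F G (α, β) = F p.1 / F α * (G p.2 / G β) := by
  simp only [s17sgProd_apply]
  rw [mul_div_mul_comm]

/-- minimal indices of the factors give a minimal index of the product tuple. -/
theorem s17sg_isMin (W : ValuationSubring L) (F : ι → L) (G : κ → L) (α : ι) (β : κ)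
    (hα : S17plIsMin W F α) (hβ : S17plIsMin W G β) :
    S17plIsMin W (s17sgProd F G) (α, β) := by
  refine ⟨mul_ne_zero hα.1 hβ.1, fun p => ?_⟩
  rw [s17sg_div]
  exact W.mul_mem _ _ (hα.2 p.1) (hβ.2 p.2)

/-- a minimal index of the product tuple has a minimal first component. -/
theorem s17sg_isMin_fst (W : ValuationSubring L) (F : ι → L) (G : κ → L) (γ : ι × κ)
    (hγ : S17plIsMin W (s17sgProd F G) γ) : S17plIsMin W F γ.1 := by
  have h0 : F γ.1 * G γ.2 ≠ 0 := hγ.1
  refine ⟨left_ne_zero_of_mul h0, fun i => ?_⟩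
  have h1 := hγ.2 (i, γ.2)
  have h2 : s17sgProd F G (i, γ.2) / s17sgProd F G γ = F i / F γ.1 := by
    simp only [s17sgProd_apply]
    rw [mul_div_mul_right _ _ (right_ne_zero_of_mul h0)]
  rwa [h2] at h1

/-- a minimal index of the product tuple has a minimal second component. -/
theorem s17sg_isMin_snd (W : ValuationSubring L) (F : ι → L) (G : κ → L) (γ : ι × κ)
    (hγ : S17plIsMin W (s17sgProd F G) γ) : S17plIsMin W G γ.2 := by
  have h0 : F γ.1 * G γ.2 ≠ 0 := hγ.1
  refine ⟨right_ne_zero_of_mul h0, fun j => ?_⟩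
  have h1 := hγ.2 (γ.1, j)
  have h2 : s17sgProd F G (γ.1, j) / s17sgProd F G γ = G j / G γ.2 := by
    simp only [s17sgProd_apply]
    rw [mul_div_mul_left _ _ (left_ne_zero_of_mul h0)]
  rwa [h2] at h1

/-- **SEGRE for place-values**: `[F ⊗ G]_P = [F]_P ⊗ [G]_P` in the chart `(α, β)`. -/
theorem s17sg_val (P : S17plPlace K L) (F : ι → L) (G : κ → L) (α : ι) (β : κ)
    (hα : S17plIsMin P.W F α) (hβ : S17plIsMin P.W G β)
    (hαβ : S17plIsMin P.W (s17sgProd F G) (α, β)) :
    s17plVal P (s17sgProd F G) (α, β) hαβ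
      = s17sgProd (s17plVal P F α hα) (s17plVal P G β hβ) := by
  funext p
  rw [s17sgProd_apply, s17pl_val_apply, s17pl_val_apply, s17pl_val_apply, ← map_mul]
  congr 1
  apply Subtype.ext
  exact s17sg_div F G α β p

/-- **SEGRE for place-values, any chart**: the value of `F ⊗ G` in a chart `γ` is a nonzero
multiple of `[F]_P ⊗ [G]_P` (charts `α`, `β` of the factors arbitrary). -/
theorem s17sg_val_any (P : S17plPlace K L) (F : ι → L) (G : κ → L) (α : ι) (β : κ)
    (hα : S17plIsMin P.W F α) (hβ : S17plIsMin P.W G β) (γ : ι × κ)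
    (hγ : S17plIsMin P.W (s17sgProd F G) γ) :
    ∃ c : K, c ≠ 0 ∧ ∀ p, s17plVal P (s17sgProd F G) γ hγ p
      = c * s17sgProd (s17plVal P F α hα) (s17plVal P G β hβ) p := by
  have hαβ := s17sg_isMin P.W F G α β hα hβ
  obtain ⟨c, hc0, hc⟩ := s17pl_val_change P (s17sgProd F G) (α, β) γ hαβ hγ
  refine ⟨c, hc0, fun p => ?_⟩
  rw [hc p, s17sg_val P F G α β hα hβ hαβ]

end Val

section Abs

variable {Ω : Type*} [Field Ω] [Algebra ℚ Ω] [Algebra.IsAlgebraic ℚ Ω]
variable {ι κ : Type*} [Finite ι] [Finite κ]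

/-- **SEGRE for the absolute height**: `habs (x ⊗ y) = habs x + habs y` for `x, y ≠ 0`. -/
theorem s17sg_abs_mul (x : ι → Ω) (y : κ → Ω) (hx : x ≠ 0) (hy : y ≠ 0) :
    s17haAbs (s17sgProd x y) = s17haAbs x + s17haAbs y := by
  -- the number field of all coordinates
  let z : ι ⊕ κ → Ω := Sum.elim x y
  haveI := s17ha_fld_numberField z
  let x' : ι → s17haFld z := fun i => ⟨x i, s17ha_mem_fld z (Sum.inl i)⟩
  let y' : κ → s17haFld z := fun j => ⟨y j, s17ha_mem_fld z (Sum.inr j)⟩
  have hx' : x' ≠ 0 := by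
    intro h0
    apply hx
    funext i
    exact congrArg Subtype.val (congrFun h0 i)
  have hy' : y' ≠ 0 := by
    intro h0
    apply hy
    funext j
    exact congrArg Subtype.val (congrFun h0 j)
  rw [s17ha_abs_eq (s17haFld z) (algebraMap (s17haFld z) Ω) (fun p : ι × κ => x' p.1 * y' p.2)
      (s17sgProd x y) (fun _ => rfl),
    s17ha_abs_eq (s17haFld z) (algebraMap (s17haFld z) Ω) x' x (fun _ => rfl),
    s17ha_abs_eq (s17haFld z) (algebraMap (s17haFld z) Ω) y' y (fun _ => rfl),
    s17haN_def, s17haN_def, s17haN_def, logHeight_fun_mul_eq hx' hy', add_div]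

end Abs

section Qb

variable {ι κ : Type*} [Finite ι] [Finite κ]

/-- **SEGRE for the absolute height on `ℚ̄`.** -/
theorem s17sg_absQ_mul (x : ι → AlgebraicClosure ℚ) (y : κ → AlgebraicClosure ℚ)
    (hx : x ≠ 0) (hy : y ≠ 0) :
    s17haAbsQ (s17sgProd x y) = s17haAbsQ x + s17haAbsQ y := by
  haveI := s17ha_Qb_isAlgebraic
  exact s17sg_abs_mul x y hx hy

/-- the literal form: `habs (fun p => x p.1 * y p.2) = habs x + habs y`. -/
theorem s17sg_absQ_mul' (x : ι → AlgebraicClosure ℚ) (y : κ → AlgebraicClosure ℚ)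
    (hx : x ≠ 0) (hy : y ≠ 0) :
    s17haAbsQ (fun p : ι × κ => x p.1 * y p.2) = s17haAbsQ x + s17haAbsQ y :=
  s17sg_absQ_mul x y hx hy

/-- scaling invariance in the shape `hsc` of S17/PlMGlue.lean. -/
theorem s17sg_absQ_scale (c : AlgebraicClosure ℚ) (v : ι → AlgebraicClosure ℚ) (hc : c ≠ 0) :
    s17haAbsQ (fun i => c * v i) = s17haAbsQ v :=
  s17haAbsQ_smul v hc

/-- **SEGRE, heights of place-values**: for `K = ℚ̄`, the absolute height of the place-value of
`F ⊗ G` (in any chart) is the sum of the absolute heights of the place-values of `F` and `G`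
(in any charts). -/
theorem s17sg_ht_val {L : Type*} [Field L] [Algebra (AlgebraicClosure ℚ) L]
    (P : S17plPlace (AlgebraicClosure ℚ) L) (F : ι → L) (G : κ → L) (α : ι) (β : κ)
    (hα : S17plIsMin P.W F α) (hβ : S17plIsMin P.W G β) (γ : ι × κ)
    (hγ : S17plIsMin P.W (s17sgProd F G) γ) :
    s17haAbsQ (s17plVal P (s17sgProd F G) γ hγ)
      = s17haAbsQ (s17plVal P F α hα) + s17haAbsQ (s17plVal P G β hβ) := by
  obtain ⟨c, hc0, hc⟩ := s17sg_val_any P F G α β hα hβ γ hγ
  have h1 : s17plVal P (s17sgProd F G) γ hγ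
      = fun p => c * s17sgProd (s17plVal P F α hα) (s17plVal P G β hβ) p := funext hc
  have hx : s17plVal P F α hα ≠ 0 := fun h0 => by
    have := s17pl_val_self P F α hα
    rw [h0] at this
    exact zero_ne_one this
  have hy : s17plVal P G β hβ ≠ 0 := fun h0 => by
    have := s17pl_val_self P G β hβ
    rw [h0] at this
    exact zero_ne_one this
  rw [h1, s17sg_absQ_scale c _ hc0, s17sg_absQ_mul _ _ hx hy]

end Qb

end Fermat.Agent.S17
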