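/-
S17 sprint, support for H1 / H6 (helper3): a valuation subring of `L` that contains (the image
of) a field `K₀` contains every element of `L` that is algebraic over `K₀`.  Hence the valuation
subrings of `L` over `ℚ` and over `AlgebraicClosure ℚ` are the same, and the valuative criterion
(H1) may be run with `K := ℚ`: its certificate then has coefficients in `ℚ` and the height bound
(H0) is needed over `ℚ` only.

`s17vq_mem_of_isAlgebraic`   : `x` algebraic over `K₀ ⊆ W` ⇒ `x ∈ W`;
`s17vq_algebraMap_mem`       : tower form `K₀ → K → L`, `K / K₀` algebraic, `K₀ ⊆ W` ⇒ `K ⊆ W`;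
`s17vq_forall_iff`           : `(∀ c : K, algebraMap K L c ∈ W) ↔ (∀ c : K₀, algebraMap K₀ L c ∈ W)`.
-/
import Mathlib.RingTheory.Valuation.Integral
import Mathlib.RingTheory.Valuation.LocalSubring
import Mathlib.RingTheory.Valuation.ValuationSubring
import Mathlib.RingTheory.Algebraic.Integral

set_option autoImplicit false

namespace Fermat.Agent.S17

/-- a valuation subring containing the field `K₀` contains every element algebraic over `K₀`. -/
theorem s17vq_mem_of_isAlgebraic {K₀ L : Type*} [Field K₀] [Field L] [Algebra K₀ L]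
    (W : ValuationSubring L) (hK : ∀ c : K₀, algebraMap K₀ L c ∈ W) {x : L}
    (hx : IsAlgebraic K₀ x) : x ∈ W := by
  obtain ⟨p, hp, hpx⟩ := hx.isIntegral
  let φ : K₀ →+* W := (algebraMap K₀ L).codRestrict W.toSubring hK
  have hint : IsIntegral W x := by
    refine ⟨p.map φ, hp.map φ, ?_⟩
    rw [Polynomial.eval₂_map]
    have hcomp : (algebraMap W L).comp φ = algebraMap K₀ L := by
      ext c; rfl
    rw [hcomp]; exact hpx
  obtain ⟨y, hy⟩ := IsIntegrallyClosed.isIntegral_iff.mp hint
  rw [← hy]; exact y.2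

/-- tower form: `K / K₀` algebraic and `K₀ ⊆ W` ⇒ `K ⊆ W`. -/
theorem s17vq_algebraMap_mem {K₀ K L : Type*} [Field K₀] [Field K] [Field L] [Algebra K₀ K]
    [Algebra K₀ L] [Algebra K L] [IsScalarTower K₀ K L] [Algebra.IsAlgebraic K₀ K]
    (W : ValuationSubring L) (hK : ∀ c : K₀, algebraMap K₀ L c ∈ W) (c : K) :
    algebraMap K L c ∈ W :=
  s17vq_mem_of_isAlgebraic W hK ((Algebra.IsAlgebraic.isAlgebraic (R := K₀) c).algebraMap)

/-- the valuation subrings of `L` over `K` and over `K₀` are the same when `K / K₀` is algebraic. -/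
theorem s17vq_forall_iff {K₀ K L : Type*} [Field K₀] [Field K] [Field L] [Algebra K₀ K]
    [Algebra K₀ L] [Algebra K L] [IsScalarTower K₀ K L] [Algebra.IsAlgebraic K₀ K]
    (W : ValuationSubring L) :
    (∀ c : K, algebraMap K L c ∈ W) ↔ (∀ c : K₀, algebraMap K₀ L c ∈ W) := by
  constructor
  · intro h c
    rw [IsScalarTower.algebraMap_apply K₀ K L]
    exact h _
  · intro h c
    exact s17vq_algebraMap_mem W h c

end Fermat.Agent.S17
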