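/-
S17 sprint, leaf A-T / T2 (helper32): **the PRODUCT form of the translation bound (T)** — formal
half, valuative.

Setting of `S17/Transl.lean`: `K ⊆ 𝔏` fields, `W` runs through the valuation subrings `W ⊇ K` of
`𝔏`; `X : ι → 𝔏` the family of the height, `Y : κ → 𝔏`, `Y' : κ' → 𝔏` its two TRANSLATES
(`Y = τ_g ∘ X`, `Y' = τ_{−g} ∘ X`), `y W`, `y₁ W`, `y₂ W` local equations along `W` of the polar
divisor `D` of `X`, of `τ_g^* D` and of `τ_{−g}^* D`, `Φ` the function of the theorem of the square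
(`S17trSq K y y₁ y₂ Φ` : `y₁ W · y₂ W = u · Φ · y W ^ 2`, `u ∈ Wˣ`).

WHY: the one-sided certificate of `S17/Transl.lean` (`Φ ^ N · Y j` integral over the monomials of
degree `2` in `X`) bounds the height of the combined place-value `(x, y)`; its `Y`-part is the
place-value of `Y` only where `y₂ W` is a unit of `W`.  The PRODUCT tuple has no such defect:

* `s17tp_key`       : `Φ ^ N · (a · a') · (y ^ N) ^ 2 = (a · y₁ ^ N) · (a' · y₂ ^ N) · (u ^ N)⁻¹`;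
* `s17tp_sq_bpf`    : `X` bpf for `N · D` ⇒ the products `X i · X i'` are bpf for `2 N · D`;
* **`s17tp_prod_bpf`** : `Y` bpf for `N · τ_g^* D`, `Y'` bpf for `N · τ_{−g}^* D` and (sq) ⇒ the
                      products `Φ ^ N · (Y j · Y' j')` are bpf for `2 N · D`;
* `s17tp_equiv_of_bpf` : two bpf families for the same `M · D` are valuatively equivalent;
* **`s17tp_equiv`** : `(X i · X i')` and `(Φ ^ N · (Y j · Y' j'))` are valuatively EQUIVALENT at every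
                      `W ⊇ K` — the LITERAL hypothesis `hW` of `s17plh_main` / `s17plh_main_mul`
                      (S17/PlaceHt.lean);
* `s17tp_equiv_base` : the same for the valuation subrings `W ⊇ K₀`, `K / K₀` algebraic
                      (`K₀ = ℚ`, `K = Qb`).
With Segre (`mulHeight` of a product tuple) this is
`h[Y]_W + h[Y']_W = 2 · h[X]_W + O(1)` uniformly in the place `W`, hence (T) with `a = 2`.
-/
import Fermat.Agent.S17.Transl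
import Fermat.Agent.S17.ValQ

set_option autoImplicit false
set_option linter.unusedVariables false
set_option linter.unusedSectionVars false

noncomputable section

namespace Fermat.Agent.S17

open Fermat.Agent.S27

universe u w x x' x''

variable {K : Type u} [Field K] {𝔏 : Type w} [Field 𝔏] [Algebra K 𝔏]
variable {ι : Type x} {κ : Type x'} {κ' : Type x''} {y y₁ y₂ : ValuationSubring 𝔏 → 𝔏} {Φ : 𝔏}
  {N : ℕ} {X : ι → 𝔏} {Y : κ → 𝔏} {Y' : κ' → 𝔏}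

/-- the product identity behind the square:
`Φ ^ N · (a · a') · (y ^ N) ^ 2 = (a · y₁ ^ N) · (a' · y₂ ^ N) · (u ^ N)⁻¹`. -/
theorem s17tp_key {W : ValuationSubring 𝔏} {u : 𝔏} (hu : u ≠ 0)
    (hsq : y₁ W * y₂ W = u * Φ * y W ^ 2) (N : ℕ) (a a' : 𝔏) :
    Φ ^ N * (a * a') * (y W ^ N) ^ 2 = (a * y₁ W ^ N) * (a' * y₂ W ^ N) * (u ^ N)⁻¹ := by
  have hu0 : u ^ N ≠ 0 := pow_ne_zero N hu
  have h2 : (y₁ W * y₂ W) ^ N = (u * Φ * y W ^ 2) ^ N := by rw [hsq]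
  rw [mul_pow, mul_pow, mul_pow] at h2
  have h3 : (a * y₁ W ^ N) * (a' * y₂ W ^ N) * (u ^ N)⁻¹ =
      a * a' * (y₁ W ^ N * y₂ W ^ N) * (u ^ N)⁻¹ := by ring
  rw [h3, h2]
  have h4 : a * a' * (u ^ N * Φ ^ N * (y W ^ 2) ^ N) * (u ^ N)⁻¹ =
      Φ ^ N * (a * a') * (y W ^ 2) ^ N * (u ^ N * (u ^ N)⁻¹) := by ring
  rw [h4, mul_inv_cancel₀ hu0, mul_one, ← pow_mul, ← pow_mul, mul_comm 2 N]

/-- the inverse of a unit is a unit. -/
theorem s17tp_unit_inv {W : ValuationSubring 𝔏} {a : 𝔏} (ha : S27IsUnitIn W a) :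
    S27IsUnitIn W a⁻¹ :=
  ⟨inv_ne_zero ha.1, ha.2.2, by rw [inv_inv]; exact ha.2.1⟩

/-- `X` bpf for `N · D` ⇒ the products `X i · X i'` are bpf for `2 N · D`. -/
theorem s17tp_sq_bpf (hX : S17trBpf K y N X) :
    S17trBpf K y (2 * N) (fun α : ι × ι => X α.1 * X α.2) := by
  intro W hW
  obtain ⟨hmem, i₀, hi₀⟩ := hX W hW
  have key : ∀ α : ι × ι, X α.1 * X α.2 * y W ^ (2 * N) =
      (X α.1 * y W ^ N) * (X α.2 * y W ^ N) := by
    intro α
    rw [two_mul, pow_add]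
    ring
  refine ⟨fun α => ?_, (i₀, i₀), ?_⟩
  · show X α.1 * X α.2 * y W ^ (2 * N) ∈ W
    rw [key α]
    exact W.mul_mem _ _ (hmem α.1) (hmem α.2)
  · show S27IsUnitIn W (X i₀ * X i₀ * y W ^ (2 * N))
    rw [key (i₀, i₀)]
    exact s17tr_unit_mul hi₀ hi₀

/-- **the PRODUCT tuple is bpf for `2 N · D`**: `Y` bpf for `N · D₁`, `Y'` bpf for `N · D₂` and
the square `D₁ + D₂ = 2 D + div Φ`. -/
theorem s17tp_prod_bpf (hY : S17trBpf K y₁ N Y) (hY' : S17trBpf K y₂ N Y')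
    (hS : S17trSq K y y₁ y₂ Φ) :
    S17trBpf K y (2 * N) (fun β : κ × κ' => Φ ^ N * (Y β.1 * Y' β.2)) := by
  intro W hW
  obtain ⟨u, hu, hsq⟩ := hS W hW
  obtain ⟨h1, j, hj⟩ := hY W hW
  obtain ⟨h2, j', hj'⟩ := hY' W hW
  have hun : S27IsUnitIn W (u ^ N)⁻¹ := s17tp_unit_inv (s17tr_unit_pow hu N)
  have key : ∀ β : κ × κ', Φ ^ N * (Y β.1 * Y' β.2) * y W ^ (2 * N) =
      (Y β.1 * y₁ W ^ N) * (Y' β.2 * y₂ W ^ N) * (u ^ N)⁻¹ := by
    intro β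
    rw [← s17tp_key hu.1 hsq N (Y β.1) (Y' β.2), ← pow_mul, mul_comm N 2]
  refine ⟨fun β => ?_, (j, j'), ?_⟩
  · show Φ ^ N * (Y β.1 * Y' β.2) * y W ^ (2 * N) ∈ W
    rw [key β]
    exact W.mul_mem _ _ (W.mul_mem _ _ (h1 β.1) (h2 β.2)) hun.2.1
  · show S27IsUnitIn W (Φ ^ N * (Y j * Y' j') * y W ^ (2 * N))
    rw [key (j, j')]
    exact s17tr_unit_mul (s17tr_unit_mul hj hj') hun

/-- two bpf families for the same `M · D` are valuatively equivalent (shape `hW` of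
`s17plh_main`). -/
theorem s17tp_equiv_of_bpf {α : Type x} {β : Type x'} {M : ℕ} {F : α → 𝔏} {G : β → 𝔏}
    (hF : S17trBpf K y M F) (hG : S17trBpf K y M G) (W : ValuationSubring 𝔏)
    (hW : S27IsKValU K W) :
    ∃ a b, F a ≠ 0 ∧ G b ≠ 0 ∧ (∀ a', F a' / F a ∈ W) ∧ (∀ b', G b' / G b ∈ W) ∧
      G b / F a ∈ W ∧ F a / G b ∈ W := by
  obtain ⟨hFm, a, ha⟩ := hF W hW
  obtain ⟨hGm, b, hb⟩ := hG W hW
  have hFa : F a ≠ 0 := left_ne_zero_of_mul ha.1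
  have hGb : G b ≠ 0 := left_ne_zero_of_mul hb.1
  have hy : y W ^ M ≠ 0 := right_ne_zero_of_mul ha.1
  refine ⟨a, b, hFa, hGb, fun a' => ?_, fun b' => ?_, ?_, ?_⟩
  · rw [s17tr_div_eq (F a') hFa hy]
    exact W.mul_mem _ _ (hFm a') ha.2.2
  · rw [s17tr_div_eq (G b') hGb hy]
    exact W.mul_mem _ _ (hGm b') hb.2.2
  · rw [s17tr_div_eq (G b) hFa hy]
    exact W.mul_mem _ _ (hGm b) ha.2.2
  · rw [s17tr_div_eq (F a) hGb hy]
    exact W.mul_mem _ _ (hFm a) hb.2.2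

/-- **(T), PRODUCT form, valuative**: the monomials of degree `2` in `X` and the products
`Φ ^ N · (Y j · Y' j')` of the two translates are valuatively EQUIVALENT at every `W ⊇ K`. -/
theorem s17tp_equiv (hX : S17trBpf K y N X) (hY : S17trBpf K y₁ N Y)
    (hY' : S17trBpf K y₂ N Y') (hS : S17trSq K y y₁ y₂ Φ) (W : ValuationSubring 𝔏)
    (hW : S27IsKValU K W) :
    ∃ (a : ι × ι) (b : κ × κ'),
      (fun α : ι × ι => X α.1 * X α.2) a ≠ 0 ∧
      (fun β : κ × κ' => Φ ^ N * (Y β.1 * Y' β.2)) b ≠ 0 ∧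
      (∀ a', (fun α : ι × ι => X α.1 * X α.2) a' / (fun α : ι × ι => X α.1 * X α.2) a ∈ W) ∧
      (∀ b', (fun β : κ × κ' => Φ ^ N * (Y β.1 * Y' β.2)) b' /
        (fun β : κ × κ' => Φ ^ N * (Y β.1 * Y' β.2)) b ∈ W) ∧
      (fun β : κ × κ' => Φ ^ N * (Y β.1 * Y' β.2)) b /
        (fun α : ι × ι => X α.1 * X α.2) a ∈ W ∧
      (fun α : ι × ι => X α.1 * X α.2) a /
        (fun β : κ × κ' => Φ ^ N * (Y β.1 * Y' β.2)) b ∈ W :=
  s17tp_equiv_of_bpf (s17tp_sq_bpf hX) (s17tp_prod_bpf hY hY' hS) W hW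

/-- the same for the valuation subrings `W ⊇ K₀`, `K / K₀` algebraic: the LITERAL hypothesis
`hW` of `s17plh_main` with `F = (X i · X i')`, `G = (Φ ^ N · (Y j · Y' j'))`. -/
theorem s17tp_equiv_base {K₀ : Type*} [Field K₀] [Algebra K₀ K] [Algebra K₀ 𝔏]
    [IsScalarTower K₀ K 𝔏] [Algebra.IsAlgebraic K₀ K]
    (hX : S17trBpf K y N X) (hY : S17trBpf K y₁ N Y)
    (hY' : S17trBpf K y₂ N Y') (hS : S17trSq K y y₁ y₂ Φ) :
    ∀ W : ValuationSubring 𝔏, (∀ c : K₀, algebraMap K₀ 𝔏 c ∈ W) →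
      ∃ (a : ι × ι) (b : κ × κ'),
        (fun α : ι × ι => X α.1 * X α.2) a ≠ 0 ∧
        (fun β : κ × κ' => Φ ^ N * (Y β.1 * Y' β.2)) b ≠ 0 ∧
        (∀ a', (fun α : ι × ι => X α.1 * X α.2) a' / (fun α : ι × ι => X α.1 * X α.2) a ∈ W) ∧
        (∀ b', (fun β : κ × κ' => Φ ^ N * (Y β.1 * Y' β.2)) b' /
          (fun β : κ × κ' => Φ ^ N * (Y β.1 * Y' β.2)) b ∈ W) ∧
        (fun β : κ × κ' => Φ ^ N * (Y β.1 * Y' β.2)) b /
          (fun α : ι × ι => X α.1 * X α.2) a ∈ W ∧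
        (fun α : ι × ι => X α.1 * X α.2) a /
          (fun β : κ × κ' => Φ ^ N * (Y β.1 * Y' β.2)) b ∈ W :=
  fun W hW => s17tp_equiv hX hY hY' hS W (fun c => s17vq_algebraMap_mem W hW c)

/-- the one-sided consequences in the shape of `S17/Transl.lean` (`s17tr_le`), now for the
product tuple: it is integral over the monomials of degree `2` in `X` with a NONZERO value. -/
theorem s17tp_le (hX : S17trBpf K y N X) (hY : S17trBpf K y₁ N Y)
    (hY' : S17trBpf K y₂ N Y') (hS : S17trSq K y y₁ y₂ Φ) (W : ValuationSubring 𝔏)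
    (hW : S27IsKValU K W) :
    ∃ α : ι × ι, X α.1 * X α.2 ≠ 0 ∧ (∀ β : ι × ι, X β.1 * X β.2 / (X α.1 * X α.2) ∈ W) ∧
      (∀ β : κ × κ', Φ ^ N * (Y β.1 * Y' β.2) / (X α.1 * X α.2) ∈ W) ∧
      ∃ β : κ × κ', S27IsUnitIn W (Φ ^ N * (Y β.1 * Y' β.2) / (X α.1 * X α.2)) := by
  obtain ⟨hFm, a, ha⟩ := s17tp_sq_bpf hX W hW
  obtain ⟨hGm, b, hb⟩ := s17tp_prod_bpf hY hY' hS W hW
  have hFa : X a.1 * X a.2 ≠ 0 := left_ne_zero_of_mul ha.1
  have hy : y W ^ (2 * N) ≠ 0 := right_ne_zero_of_mul ha.1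
  refine ⟨a, hFa, fun β => ?_, fun β => ?_, b, ?_⟩
  · rw [s17tr_div_eq (X β.1 * X β.2) hFa hy]
    exact W.mul_mem _ _ (hFm β) ha.2.2
  · rw [s17tr_div_eq (Φ ^ N * (Y β.1 * Y' β.2)) hFa hy]
    exact W.mul_mem _ _ (hGm β) ha.2.2
  · rw [s17tr_div_eq (Φ ^ N * (Y b.1 * Y' b.2)) hFa hy]
    exact s17tr_unit_mul hb (s17tp_unit_inv ha)

end Fermat.Agent.S17
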