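/-
S17 sprint, design A v2, [PlT] leaf **T5 — HEIGHT, formal** (helper58; twin of helper32's
`S17/TranslHt.lean`).

`K = ℚ̄`, `X`, `Y`, `Y'` base-point-free families for `N · D`, `N · D₁`, `N · D₂` (local equations
`y`, `y₁`, `y₂`), and the square `D₁ + D₂ = 2 D + div Φ` (`S17trSq`).  Then the place-values satisfy

  `| habs [Y]_P + habs [Y']_P − 2 · habs [X]_P | ≤ C`      for ALL `ℚ̄`-places `P`, any charts,

with ONE constant `C` (`s17thf_abs`); in particular `habs [Y]_P ≤ 2 · habs [X]_P + C`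
(`s17thf_le`, `s17thf_le'`), and for `Y = ρ ∘ X` the hypothesis `hT` of `s17plm_transport`
(`s17thf_hT`).

Proof: `s17tp_equiv` (TranslProd, helper32) is the hypothesis `hW` of `s17hbpQ_place` (HtAbsPl,
helper16) for `F = X ⊗ X`, `G = Φ^N · (Y ⊗ Y')`; `s17pl_val_scale` removes `Φ^N`;
`s17sg_ht_val` (Segre) splits both sides.
-/
import Fermat.Agent.S17.TranslProd
import Fermat.Agent.S17.Segre
import Fermat.Agent.S17.HtAbsPl

set_option autoImplicit false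
set_option linter.unusedVariables false
set_option linter.unusedSectionVars false

noncomputable section

namespace Fermat.Agent.S17

open Fermat.Agent.S27

section HtF

variable {𝔏 : Type*} [Field 𝔏] [Algebra (AlgebraicClosure ℚ) 𝔏]
variable {ι κ κ' : Type*} [Fintype ι] [Fintype κ] [Fintype κ']
  {y y₁ y₂ : ValuationSubring 𝔏 → 𝔏} {Φ : 𝔏} {N : ℕ} {X : ι → 𝔏} {Y : κ → 𝔏} {Y' : κ' → 𝔏}

/-- **T5, two-sided**: `|habs [Y]_P + habs [Y']_P − 2 habs [X]_P| ≤ C` uniformly in the place. -/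
theorem s17thf_abs (hΦ : Φ ≠ 0) (hX : S17trBpf (AlgebraicClosure ℚ) y N X)
    (hY : S17trBpf (AlgebraicClosure ℚ) y₁ N Y) (hY' : S17trBpf (AlgebraicClosure ℚ) y₂ N Y')
    (hS : S17trSq (AlgebraicClosure ℚ) y y₁ y₂ Φ) :
    ∃ C : ℝ, ∀ (P : S17plPlace (AlgebraicClosure ℚ) 𝔏) (α : ι) (hα : S17plIsMin P.W X α)
      (β : κ) (hβ : S17plIsMin P.W Y β) (β' : κ') (hβ' : S17plIsMin P.W Y' β'),
      |s17haAbsQ (s17plVal P Y β hβ) + s17haAbsQ (s17plVal P Y' β' hβ')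
        - 2 * s17haAbsQ (s17plVal P X α hα)| ≤ C := by
  obtain ⟨C, hC⟩ := s17hbpQ_place (fun a : ι × ι => X a.1 * X a.2)
    (fun b : κ × κ' => Φ ^ N * (Y b.1 * Y' b.2))
    (fun W hW => s17tp_equiv hX hY hY' hS W hW)
  refine ⟨C, fun P α hα β hβ β' hβ' => ?_⟩
  have hΦN : Φ ^ N ≠ 0 := pow_ne_zero N hΦ
  -- minimal indices
  have hXX : S17plIsMin P.W (s17sgProd X X) (α, α) := s17sg_isMin P.W X X α α hα hα
  have hYY : S17plIsMin P.W (s17sgProd Y Y') (β, β') := s17sg_isMin P.W Y Y' β β' hβ hβ'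
  have hG : S17plIsMin P.W (fun b : κ × κ' => Φ ^ N * s17sgProd Y Y' b) (β, β') :=
    (s17pl_isMin_scale P.W (s17sgProd Y Y') (β, β') hΦN).2 hYY
  have h1 := hC P (α, α) hXX (β, β') hG
  -- the two sides
  have e1 : s17haAbsQ (s17plVal P (fun a : ι × ι => X a.1 * X a.2) (α, α) hXX)
      = s17haAbsQ (s17plVal P X α hα) + s17haAbsQ (s17plVal P X α hα) :=
    s17sg_ht_val P X X α α hα hα (α, α) hXX
  have e2 : s17plVal P (fun b : κ × κ' => Φ ^ N * (Y b.1 * Y' b.2)) (β, β') hG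
      = s17plVal P (s17sgProd Y Y') (β, β') hYY :=
    s17pl_val_scale P (s17sgProd Y Y') (β, β') hΦN hYY hG
  have e3 : s17haAbsQ (s17plVal P (s17sgProd Y Y') (β, β') hYY)
      = s17haAbsQ (s17plVal P Y β hβ) + s17haAbsQ (s17plVal P Y' β' hβ') :=
    s17sg_ht_val P Y Y' β β' hβ hβ' (β, β') hYY
  rw [e1, e2, e3] at h1
  rw [abs_le] at h1 ⊢
  constructor <;> linarith [h1.1, h1.2]

/-- **T5, the sum**: `habs [Y]_P + habs [Y']_P ≤ 2 habs [X]_P + C`. -/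
theorem s17thf_sum_le (hΦ : Φ ≠ 0) (hX : S17trBpf (AlgebraicClosure ℚ) y N X)
    (hY : S17trBpf (AlgebraicClosure ℚ) y₁ N Y) (hY' : S17trBpf (AlgebraicClosure ℚ) y₂ N Y')
    (hS : S17trSq (AlgebraicClosure ℚ) y y₁ y₂ Φ) :
    ∃ C : ℝ, ∀ (P : S17plPlace (AlgebraicClosure ℚ) 𝔏) (α : ι) (hα : S17plIsMin P.W X α)
      (β : κ) (hβ : S17plIsMin P.W Y β) (β' : κ') (hβ' : S17plIsMin P.W Y' β'),
      s17haAbsQ (s17plVal P Y β hβ) + s17haAbsQ (s17plVal P Y' β' hβ')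
        ≤ 2 * s17haAbsQ (s17plVal P X α hα) + C := by
  obtain ⟨C, hC⟩ := s17thf_abs hΦ hX hY hY' hS
  refine ⟨C, fun P α hα β hβ β' hβ' => ?_⟩
  have h := (abs_le.1 (hC P α hα β hβ β' hβ')).2
  linarith

/-- **T5, lower bound of the sum**: `2 habs [X]_P − C ≤ habs [Y]_P + habs [Y']_P`. -/
theorem s17thf_sum_ge (hΦ : Φ ≠ 0) (hX : S17trBpf (AlgebraicClosure ℚ) y N X)
    (hY : S17trBpf (AlgebraicClosure ℚ) y₁ N Y) (hY' : S17trBpf (AlgebraicClosure ℚ) y₂ N Y')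
    (hS : S17trSq (AlgebraicClosure ℚ) y y₁ y₂ Φ) :
    ∃ C : ℝ, ∀ (P : S17plPlace (AlgebraicClosure ℚ) 𝔏) (α : ι) (hα : S17plIsMin P.W X α)
      (β : κ) (hβ : S17plIsMin P.W Y β) (β' : κ') (hβ' : S17plIsMin P.W Y' β'),
      2 * s17haAbsQ (s17plVal P X α hα) - C
        ≤ s17haAbsQ (s17plVal P Y β hβ) + s17haAbsQ (s17plVal P Y' β' hβ') := by
  obtain ⟨C, hC⟩ := s17thf_abs hΦ hX hY hY' hS
  refine ⟨C, fun P α hα β hβ β' hβ' => ?_⟩
  have h := (abs_le.1 (hC P α hα β hβ β' hβ')).1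
  linarith

/-- **T5, one translate**: `habs [Y]_P ≤ 2 habs [X]_P + C` (uses `0 ≤ habs [Y']_P`;
`Y'` needs a minimal index at `P`: automatic for a bpf family, see `s17thf_le'`). -/
theorem s17thf_le (hΦ : Φ ≠ 0) (hX : S17trBpf (AlgebraicClosure ℚ) y N X)
    (hY : S17trBpf (AlgebraicClosure ℚ) y₁ N Y) (hY' : S17trBpf (AlgebraicClosure ℚ) y₂ N Y')
    (hS : S17trSq (AlgebraicClosure ℚ) y y₁ y₂ Φ) :
    ∃ C : ℝ, ∀ (P : S17plPlace (AlgebraicClosure ℚ) 𝔏) (α : ι) (hα : S17plIsMin P.W X α)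
      (β : κ) (hβ : S17plIsMin P.W Y β) (β' : κ') (hβ' : S17plIsMin P.W Y' β'),
      s17haAbsQ (s17plVal P Y β hβ) ≤ 2 * s17haAbsQ (s17plVal P X α hα) + C := by
  obtain ⟨C, hC⟩ := s17thf_sum_le hΦ hX hY hY' hS
  refine ⟨C, fun P α hα β hβ β' hβ' => ?_⟩
  have h := hC P α hα β hβ β' hβ'
  have h0 := s17haAbsQ_nonneg (s17plVal P Y' β' hβ')
  linarith

/-- a bpf family has a minimal index at every `K`-place. -/
theorem s17thf_exists_min {K : Type*} [Field K] {𝔏 : Type*} [Field 𝔏] [Algebra K 𝔏]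
    {ι : Type*} {y : ValuationSubring 𝔏 → 𝔏} {N : ℕ} {X : ι → 𝔏}
    (hX : S17trBpf K y N X) (P : S17plPlace K 𝔏) : ∃ α, S17plIsMin P.W X α := by
  obtain ⟨hmem, i, hi⟩ := hX P.W P.hKW
  have hXi : X i ≠ 0 := left_ne_zero_of_mul hi.1
  have hy : y P.W ^ N ≠ 0 := right_ne_zero_of_mul hi.1
  refine ⟨i, hXi, fun j => ?_⟩
  rw [s17tr_div_eq (X j) hXi hy]
  exact P.W.mul_mem _ _ (hmem j) hi.2.2

/-- **T5, one translate, no chart of `Y'` needed.** -/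
theorem s17thf_le' (hΦ : Φ ≠ 0) (hX : S17trBpf (AlgebraicClosure ℚ) y N X)
    (hY : S17trBpf (AlgebraicClosure ℚ) y₁ N Y) (hY' : S17trBpf (AlgebraicClosure ℚ) y₂ N Y')
    (hS : S17trSq (AlgebraicClosure ℚ) y y₁ y₂ Φ) :
    ∃ C : ℝ, ∀ (P : S17plPlace (AlgebraicClosure ℚ) 𝔏) (α : ι) (hα : S17plIsMin P.W X α)
      (β : κ) (hβ : S17plIsMin P.W Y β),
      s17haAbsQ (s17plVal P Y β hβ) ≤ 2 * s17haAbsQ (s17plVal P X α hα) + C := by
  obtain ⟨C, hC⟩ := s17thf_le hΦ hX hY hY' hS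
  refine ⟨C, fun P α hα β hβ => ?_⟩
  obtain ⟨β', hβ'⟩ := s17thf_exists_min hY' P
  exact hC P α hα β hβ β' hβ'

/-- **T5 in the shape `hT` of `s17plm_transport`** (`Y = ρ ∘ X`, `a = 2`). -/
theorem s17thf_hT (ρ : 𝔏 →ₐ[AlgebraicClosure ℚ] 𝔏) (hΦ : Φ ≠ 0)
    (hX : S17trBpf (AlgebraicClosure ℚ) y N X)
    (hY : S17trBpf (AlgebraicClosure ℚ) y₁ N (fun i => ρ (X i)))
    (hY' : S17trBpf (AlgebraicClosure ℚ) y₂ N Y')
    (hS : S17trSq (AlgebraicClosure ℚ) y y₁ y₂ Φ) :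
    ∃ c : ℝ, ∀ (P : S17plPlace (AlgebraicClosure ℚ) 𝔏) (α β : ι) (hα : S17plIsMin P.W X α)
      (hβ : S17plIsMin P.W (fun i => ρ (X i)) β),
      s17haAbsQ (s17plVal P (fun i => ρ (X i)) β hβ)
        ≤ 2 * s17haAbsQ (s17plVal P X α hα) + c := by
  obtain ⟨C, hC⟩ := s17thf_le' hΦ hX hY hY' hS
  exact ⟨C, fun P α β hα hβ => hC P α hα β hβ⟩

end HtF

end Fermat.Agent.S17
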