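/-
S17 sprint, leaf **H5-SQ** (helper18): the **theorem of the cube / of the square in valuative form
at ARBITRARY classes**, on the stage of S27-B.

Setting (= S27/RepInstIc.lean): `F / K` a curve, `L ⊇ Ω_g` algebraically closed, `FL ⊇ F, L`,
classes `s27icCl R B hB = [Σ pt (R i) − Con B] ∈ Pic0 L FL`, local equations
`S27icIdx hld hgen hx Ao W c y` of the theta divisor `Θ_{Ao}` at the class `c` along `W`.

* `S17sqGood hld hgen hx Ao c` : the class `c` is OFF `Θ_{Ao}`: `θ(R; B + Ao) ≠ 0` for every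
  injective tuple `R` with `[Σ pt R − Con B] = c` and every basis of `L_K(B + Ao)`;
* `s17sq_good_of_tuple`  : ONE tuple of the class with `θ ≠ 0` suffices;
* `s17sq_good_zero`      : `0` is good if `L_K(Ao) = 0`;
* `s17sq_good_beta`      : a CONSTANT class `β [D]` is good if `L_K(Ao − D) = 0`;
* `s17sq_good_beta_neg`  : `−β [D]` is good if `L_K(Ao + D) = 0`;
* `s17sq_good_generic`   : the class of a GENERIC `g`-tuple (origin `G₀`) is good;
* `s17sq_good_eta`       : `j • η` is good (`s27ric_theta_ne`);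
* `s17sq_tuples`         : three arbitrary classes are represented by three pairwise disjoint
                           injective `N`-tuples (origin any constant `B` of degree `N`, `N ≥ N₀`);
* **`s17sq_cp`**         : for ALL classes `c₁ c₂` with `c₁, c₂, −c₂, c₁ + c₂, c₁ − c₂` good and
                           `L_K(Ao) = 0`:  `∃ Φ ≠ 0, S27ckCP K (S27icIdx … Ao) c₁ c₂ Φ`, i.e. for every
                           valuation subring `W ⊇ K` of `L`
                           `y_{c₁} · y_{c₁} · y_{c₂} · y_{−c₂} ≐_W Φ · y_{c₁+c₂} · y_{c₁−c₂} · y_0`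
                           (`Φ` independent of `W`) — the theorem of the square
                           `τ_{c₂}^*Θ + τ_{−c₂}^*Θ − 2Θ = div Φ` at `c₁ = η`, `c₂ = β γ`;
* **`s17sq_square`**     : the case `c₁ = η` (generic class), `c₂ = β [D]` constant, from generic
                           tuples of the classes `η ± β [D]` (the translation brick).
-/
import Fermat.Agent.S27.RepInstIc
import Fermat.Agent.S27.CpLat
import Fermat.Agent.S27.RR0Dim
import Fermat.Agent.S27.RigBC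

set_option autoImplicit false
set_option linter.style.haveILetI false
set_option linter.unusedSectionVars false
set_option linter.unusedVariables false

noncomputable section

namespace Fermat.Agent.S17

open AlgebraicCurve Module TensorProduct IntermediateField Fermat.Agent.S26 Fermat.Agent.S27

universe u v y

section Stage

variable {K : Type u} {F : Type v} [Field K] [IsAlgClosed K] [CharZero K] [Field F] [Algebra K F]
  [IsCurveOver K F] [Algebra.EssFiniteType K F]
  {L : Type (max u v)} [Field L] [Algebra K L]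
  [Algebra (s27gfOm K F (genusFF K F)) L] [IsScalarTower K (s27gfOm K F (genusFF K F)) L]
  [IsAlgClosed L] [Algebra.IsAlgebraic (s27gfOm K F (genusFF K F)) L]
  {FL : Type y} [Field FL] [Algebra K FL] [Algebra F FL] [Algebra L FL]
  [IsScalarTower K F FL] [IsScalarTower K L FL]
  (hld : Function.Injective (s26gspMu K F L FL)) (hgen : S26gspGen K F L FL)
  {x : F} (hx : Transcendental K x)
  [FiniteDimensional ↥(IntermediateField.adjoin K {x}) F]
  [Algebra.IsSeparable ↥(IntermediateField.adjoin K {x}) F]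
  [IsGalois (s27gfSym K F (genusFF K F)) L]

/-- the class `c` is OFF the theta divisor `Θ_{Ao}`. -/
def S17sqGood (Ao : Divisor K F) (c : Pic0 L FL) : Prop :=
  ∀ (M : ℕ) (B : Divisor K F) (hB : Divisor.degree B = (M : ℤ)) (R : Fin M → F →ₐ[K] L),
    Function.Injective R → s27icCl hld hgen hx R B hB = c →
    ∀ f : Module.Basis (Fin M) K ↥(riemannRochSpace (B + Ao)), (s27ptValB R f).det ≠ 0

/-- ONE tuple of the class with `θ ≠ 0` suffices. -/
theorem s17sq_good_of_tuple (Ao : Divisor K F) (c : Pic0 L FL) {M' : ℕ} (B' : Divisor K F)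
    (hB' : Divisor.degree B' = (M' : ℤ)) (R' : Fin M' → F →ₐ[K] L)
    (hR' : Function.Injective R') (hcl' : s27icCl hld hgen hx R' B' hB' = c)
    (f' : Module.Basis (Fin M') K ↥(riemannRochSpace (B' + Ao)))
    (hdet : (s27ptValB R' f').det ≠ 0) : S17sqGood hld hgen hx Ao c := by
  intro M B hB R hR hcl f
  exact (s27ri_det_ne_of_class hld hgen hx Ao B B' (by rw [s26gspc_degree, hB])
    (by rw [s26gspc_degree, hB']) R R' hR hR' (hcl.trans hcl'.symm) f f').2 hdet

/-- the class `0` is good. -/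
theorem s17sq_good_zero (Ao : Divisor K F) (hAo : riemannRochSpace Ao = ⊥) :
    S17sqGood hld hgen hx Ao (0 : Pic0 L FL) := by
  intro M B hB R hR hcl f
  exact s27ri_det_ne_zero_class hld hgen hx Ao B hAo (by rw [s26gspc_degree, hB]) R hR hcl f

/-- a constant class `β [D]` is good if `L_K(Ao − D) = 0`. -/
theorem s17sq_good_beta (Ao : Divisor K F) (D : Divisor.degZero (K := K) (F := F))
    (hD : riemannRochSpace (Ao - (D : Divisor K F)) = ⊥) :
    S17sqGood hld hgen hx Ao (s27bcBeta hld hgen (s26gspf_hall hx) (Pic0.mk D)) := by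
  classical
  intro M B hB R hR hcl f
  rw [s27ri_det_ne_iff hld hgen hx (B + Ao) R hR f]
  unfold s27icCl s27pkgClO at hcl
  rw [s27bcBeta_mk, s27pkg_mk_eq_iff] at hcl
  obtain ⟨φ, hφ, hφD⟩ := hcl
  rw [s27ri_rr_bot_congr _
    (Finsupp.mapDomain (s26gspCon hld hgen (s26gspf_hall hx)) (Ao - (D : Divisor K F)))
    ⟨φ⁻¹, inv_ne_zero hφ, fun v => ?_⟩]
  · exact s27ri_rr_con_bot hld hgen hx (Ao - (D : Divisor K F)) hD
  · have h1 := hφD v
    rw [s27pkgDivZeroO_coe, s27bcConZero_coe, Finsupp.sub_apply] at h1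
    unfold s27brgCon s27brgPts
    rw [Finsupp.sub_apply, Finsupp.mapDomain_add, Finsupp.add_apply, Finsupp.mapDomain_sub,
      Finsupp.sub_apply, Place.ord_inv]
    omega

/-- `−β [D]` is good if `L_K(Ao + D) = 0`. -/
theorem s17sq_good_beta_neg (Ao : Divisor K F) (D : Divisor.degZero (K := K) (F := F))
    (hD : riemannRochSpace (Ao + (D : Divisor K F)) = ⊥) :
    S17sqGood hld hgen hx Ao (-s27bcBeta hld hgen (s26gspf_hall hx) (Pic0.mk D)) := by
  have h := s17sq_good_beta hld hgen hx Ao (-D) (by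
    rw [show ((-D : Divisor.degZero (K := K) (F := F)) : Divisor K F) = -(D : Divisor K F) from rfl,
      sub_neg_eq_add]
    exact hD)
  have e : s27bcBeta hld hgen (s26gspf_hall hx) (Pic0.mk (-D)) =
      -s27bcBeta hld hgen (s26gspf_hall hx) (Pic0.mk D) := by
    rw [← map_neg]
    rfl
  rwa [e] at h

/-- the class of a generic `g`-tuple (origin `G₀`) is good. -/
theorem s17sq_good_generic (Ao G₀ : Divisor K F)
    (hG₀ : Divisor.degree G₀ = (genusFF K F : ℤ))
    (f₀ : Module.Basis (Fin (genusFF K F)) K ↥(riemannRochSpace (G₀ + Ao)))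
    (e : Fin (genusFF K F) → F →ₐ[K] L) (he : Function.Injective e)
    (hgl : Function.Injective (s27gfLiftR e)) :
    S17sqGood hld hgen hx Ao (s27icCl hld hgen hx e G₀ hG₀) :=
  s17sq_good_of_tuple hld hgen hx Ao _ G₀ hG₀ e he rfl f₀
    (s27ris_theta_pt_basis e hgl (G₀ + Ao) f₀)

/-- `j • η` is good. -/
theorem s17sq_good_eta (G₀ : Divisor K F) (hG₀ : Divisor.degree G₀ = (genusFF K F : ℤ))
    {q : ℤ → Fin (genusFF K F) → F →ₐ[K] L}
    (hq : S27pfFam (s27dclPkg hld hgen hx G₀ hG₀) q)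
    (Ao : Divisor K F) (hAo : riemannRochSpace Ao = ⊥)
    (f₀ : Module.Basis (Fin (genusFF K F)) K ↥(riemannRochSpace (G₀ + Ao))) (j : ℤ) :
    S17sqGood hld hgen hx Ao
      (j • s27pfCl (s27dclPkg hld hgen hx G₀ hG₀)
        (s27pfTaut (K := K) (F := F) (g := genusFF K F) (L := L))) := by
  intro M B hB R hR hcl f
  exact s27ric_theta_ne hld hgen hx G₀ hG₀ hq Ao hAo f₀ j B (B + Ao) rfl hB R hR hcl f

/-- three arbitrary classes are represented by three pairwise disjoint injective tuples. -/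
theorem s17sq_tuples (hg : 0 < genusFF K F) :
    ∃ N₀ : ℕ, ∀ N : ℕ, N₀ ≤ N → ∀ (B : Divisor K F) (hB : Divisor.degree B = (N : ℤ))
      (S : Finset (F →ₐ[K] L)) (c₁ c₂ c₃ : Pic0 L FL),
      ∃ R₁ R₂ R₃ : Fin N → (F →ₐ[K] L),
        Function.Injective R₁ ∧ Function.Injective R₂ ∧ Function.Injective R₃ ∧
        (∀ j, R₁ j ∉ S) ∧ (∀ j, R₂ j ∉ S) ∧ (∀ j, R₃ j ∉ S) ∧
        (∀ j j', R₁ j ≠ R₂ j') ∧ (∀ j j', R₁ j ≠ R₃ j') ∧ (∀ j j', R₂ j ≠ R₃ j') ∧
        s27icCl hld hgen hx R₁ B hB = c₁ ∧ s27icCl hld hgen hx R₂ B hB = c₂ ∧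
        s27icCl hld hgen hx R₃ B hB = c₃ := by
  obtain ⟨τ, hτ⟩ := s27ris_tau (K := K) (F := F) (g := genusFF K F) (L := L) hx hg
  obtain ⟨N₀, hN₀⟩ := s27ri_tuples hld hgen hx τ hτ
  refine ⟨N₀, fun N hN B hB S c₁ c₂ c₃ => ?_⟩
  obtain ⟨R, h1, h2, h3, h4⟩ := hN₀ N hN
    (Finsupp.mapDomain (s26gspCon hld hgen (s26gspf_hall hx)) B)
    (by rw [s26gspc_degree (K := K) hld hgen (s26gspf_hall hx) B, hB]) ![c₁, c₂, c₃] S
  exact ⟨R 0, R 1, R 2, h1 0, h1 1, h1 2, h2 0, h2 1, h2 2,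
    h3 0 1 (by decide), h3 0 2 (by decide), h3 1 2 (by decide), h4 0, h4 1, h4 2⟩

/-- **the cube at arbitrary classes, valuative form.** -/
theorem s17sq_cp (hg : 0 < genusFF K F) (Ao : Divisor K F)
    (hAo : riemannRochSpace Ao = ⊥) (hAod : Divisor.degree Ao = (genusFF K F : ℤ) - 1)
    (O : Place K F) (c₁ c₂ : Pic0 L FL)
    (g1 : S17sqGood hld hgen hx Ao c₁) (g2 : S17sqGood hld hgen hx Ao c₂)
    (g3 : S17sqGood hld hgen hx Ao (-c₂)) (g12 : S17sqGood hld hgen hx Ao (c₁ + c₂))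
    (g13 : S17sqGood hld hgen hx Ao (c₁ - c₂)) :
    ∃ Φ : L, Φ ≠ 0 ∧ S27ckCP K (S27icIdx hld hgen hx Ao) c₁ c₂ Φ := by
  obtain ⟨N, hN₀⟩ := s17sq_tuples hld hgen hx hg
  have hB0 : 0 ≤ (Finsupp.single O (N : ℤ) : Divisor K F) := by
    intro P
    by_cases hP : O = P
    · subst hP
      simp
    · simp [hP]
  have hB : Divisor.degree (Finsupp.single O (N : ℤ) : Divisor K F) = (N : ℤ) := by
    rw [Divisor.degree_single, s27rd_deg_eq_one x hx O]
    simp
  set B : Divisor K F := Finsupp.single O (N : ℤ) with hBdef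
  obtain ⟨R₁, R₂, R₃, h1, h2, h3, -, -, -, d12, d13, d23, hc₁, hc₂, hc₃⟩ :=
    hN₀ N le_rfl B hB ∅ c₁ c₂ (-c₂)
  have hAo0 : finrank K ↥(riemannRochSpace Ao) = 0 := by
    rw [hAo]
    exact finrank_bot K F
  have hBB : Divisor.degree (B + B) = ((N + N : ℕ) : ℤ) := s27ica_degree_add hB hB
  have hBBB : Divisor.degree (B + B + B) = ((N + N + N : ℕ) : ℤ) := s27ica_degree_add hBB hB
  obtain ⟨f₁⟩ := s27rd_exists_basis x hx Ao hAod hAo0 B hB0 hB
  obtain ⟨f₁₂⟩ := s27rd_exists_basis x hx Ao hAod hAo0 (B + B) (add_nonneg hB0 hB0) hBB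
  obtain ⟨f₁₂₃⟩ := s27rd_exists_basis x hx Ao hAod hAo0 (B + B + B)
    (add_nonneg (add_nonneg hB0 hB0) hB0) hBBB
  have h₁₂' : Function.Injective (Fin.append R₁ R₂) := s27pka_append_injective h1 h2 d12
  have h₁₃' : Function.Injective (Fin.append R₁ R₃) := s27pka_append_injective h1 h3 d13
  have h₂₃' : Function.Injective (Fin.append R₂ R₃) := s27pka_append_injective h2 h3 d23
  have h₁₂₃' : Function.Injective (Fin.append (Fin.append R₁ R₂) R₃) := by
    refine s27pka_append_injective h₁₂' h3 ?_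
    intro i j
    induction i using Fin.addCases with
    | left i => rw [Fin.append_left]; exact d13 i j
    | right i => rw [Fin.append_right]; exact d23 i j
  have t1 := g1 N B hB R₁ h1 hc₁ f₁
  have t2 := g2 N B hB R₂ h2 hc₂ f₁
  have t3 := g3 N B hB R₃ h3 hc₃ f₁
  have t12 := g12 (N + N) (B + B) hBB (Fin.append R₁ R₂) h₁₂'
    (by rw [s27ica_cl_append hld hgen hx R₁ R₂ B B hB hB, hc₁, hc₂]) f₁₂
  have t13 := g13 (N + N) (B + B) hBB (Fin.append R₁ R₃) h₁₃'
    (by rw [s27ica_cl_append hld hgen hx R₁ R₃ B B hB hB, hc₁, hc₃, sub_eq_add_neg]) f₁₂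
  have t23 := s17sq_good_zero hld hgen hx Ao hAo (N + N) (B + B) hBB (Fin.append R₂ R₃) h₂₃'
    (by rw [s27ica_cl_append hld hgen hx R₂ R₃ B B hB hB, hc₂, hc₃, add_neg_cancel]) f₁₂
  have t123 := g1 (N + N + N) (B + B + B) hBBB (Fin.append (Fin.append R₁ R₂) R₃) h₁₂₃'
    (by rw [s27ica_cl_append3 hld hgen hx R₁ R₂ R₃ B B B hB hB hB, hc₁, hc₂, hc₃,
      add_neg_cancel_right]) f₁₂₃
  refine ⟨_, s27caPhi_ne_zero t1 t2 t3 t12 t13 t23 t123,
    s27cplat_cp (S27icIdx hld hgen hx Ao) c₁ c₂ R₁ R₂ R₃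
      h1 h2 h3 d12 d13 d23 Ao B B B f₁ f₁ f₁ f₁₂ f₁₂ f₁₂ f₁₂₃ t12 t13 t23
      ?_ ?_ ?_ ?_ ?_ ?_ ?_⟩
  · intro W hW y hy
    exact s27ica_idx _ _ hx Ao W h1 hB hc₁ hy
  · intro W hW y hy
    exact s27ica_idx _ _ hx Ao W h2 hB hc₂ hy
  · intro W hW y hy
    exact s27ica_idx _ _ hx Ao W h3 hB hc₃ hy
  · intro W hW y hy
    exact s27ica_idx_append _ _ hx Ao W h1 h2 d12 hB hB hc₁ hc₂ hy
  · intro W hW y hy
    have := s27ica_idx_append _ _ hx Ao W h1 h3 d13 hB hB hc₁ hc₃ hy
    rwa [← sub_eq_add_neg] at this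
  · intro W hW y hy
    have := s27ica_idx_append _ _ hx Ao W h2 h3 d23 hB hB hc₂ hc₃ hy
    rwa [add_neg_cancel] at this
  · intro W hW y hy
    have := s27ica_idx_append3 _ _ hx Ao W h1 h2 h3 d12 d13 d23 hB hB hB hc₁ hc₂ hc₃ hy
    rwa [add_neg_cancel_right] at this

/-- **THE SQUARE** at the generic class `η` and a constant class `β [D]`:
`τ_γ^*Θ + τ_{−γ}^*Θ − 2Θ = div Φ_γ`, valuative form.  The generic tuples `e₊`, `e₋` of classes
`η + β[D]`, `η − β[D]` are the translation brick. -/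
theorem s17sq_square (hg : 0 < genusFF K F) (G₀ : Divisor K F)
    (hG₀ : Divisor.degree G₀ = (genusFF K F : ℤ))
    {q : ℤ → Fin (genusFF K F) → F →ₐ[K] L}
    (hq : S27pfFam (s27dclPkg hld hgen hx G₀ hG₀) q)
    (Ao : Divisor K F) (hAo : riemannRochSpace Ao = ⊥)
    (hAod : Divisor.degree Ao = (genusFF K F : ℤ) - 1) (O : Place K F)
    (f₀ : Module.Basis (Fin (genusFF K F)) K ↥(riemannRochSpace (G₀ + Ao)))
    (D : Divisor.degZero (K := K) (F := F))
    (hDm : riemannRochSpace (Ao - (D : Divisor K F)) = ⊥)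
    (hDp : riemannRochSpace (Ao + (D : Divisor K F)) = ⊥)
    (ep em : Fin (genusFF K F) → F →ₐ[K] L)
    (hep : Function.Injective ep) (hepl : Function.Injective (s27gfLiftR ep))
    (hem : Function.Injective em) (heml : Function.Injective (s27gfLiftR em))
    (hcp : s27icCl hld hgen hx ep G₀ hG₀ =
      s27pfCl (s27dclPkg hld hgen hx G₀ hG₀)
          (s27pfTaut (K := K) (F := F) (g := genusFF K F) (L := L)) +
        s27bcBeta hld hgen (s26gspf_hall hx) (Pic0.mk D))
    (hcm : s27icCl hld hgen hx em G₀ hG₀ =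
      s27pfCl (s27dclPkg hld hgen hx G₀ hG₀)
          (s27pfTaut (K := K) (F := F) (g := genusFF K F) (L := L)) -
        s27bcBeta hld hgen (s26gspf_hall hx) (Pic0.mk D)) :
    ∃ Φ : L, Φ ≠ 0 ∧ S27ckCP K (S27icIdx hld hgen hx Ao)
      (s27pfCl (s27dclPkg hld hgen hx G₀ hG₀)
        (s27pfTaut (K := K) (F := F) (g := genusFF K F) (L := L)))
      (s27bcBeta hld hgen (s26gspf_hall hx) (Pic0.mk D)) Φ := by
  refine s17sq_cp hld hgen hx hg Ao hAo hAod O _ _ ?_
    (s17sq_good_beta hld hgen hx Ao D hDm) (s17sq_good_beta_neg hld hgen hx Ao D hDp) ?_ ?_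
  · have := s17sq_good_eta hld hgen hx G₀ hG₀ hq Ao hAo f₀ 1
    rwa [one_zsmul] at this
  · rw [← hcp]
    exact s17sq_good_generic hld hgen hx Ao G₀ hG₀ f₀ ep hep hepl
  · rw [← hcm]
    exact s17sq_good_generic hld hgen hx Ao G₀ hG₀ f₀ em hem heml

end Stage

end Fermat.Agent.S17

end
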