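/-
S17 sprint, leaf **H5-SQ, unconditional** (helper18): the theorem of the square in valuative form
at the generic class `η` and a constant class `β c`, with the translation brick of helper86
(`s17af_exists_translate`, S17/Affine.lean) plugged into `s17sq_square` (S17/Square.lean).

* `s17squ_good_translate` : `η + β c` is OFF `Θ_{Ao}` for every constant class `c`
                            (`S17sqGood`), and so is `k • η + β c` for `k ≠ 0`
                            (`s17squ_good_affine`);
* **`s17squ_square`**     : `L_K(Ao) = 0`, `deg Ao = g − 1`, `D` a constant divisor of degree `0`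
                            with `L_K(Ao − D) = L_K(Ao + D) = 0`:
      `∃ Φ ≠ 0, S27ckCP K (S27icIdx hld hgen hx Ao) η (β [D]) Φ`,
  i.e. for every valuation subring `W ⊇ K` of `L` there are local equations with
      `y_η · y_η · y_{β D} · y_{−β D} ≐_W Φ · y_{η + β D} · y_{η − β D} · y_0`;
* **`s17squ_cube_affine`** : the cube at `c₁ = k • η + β c` (`k ≠ 0`), `c₂ = β [D]`.
-/
import Fermat.Agent.S17.Square
import Fermat.Agent.S17.Affine

set_option autoImplicit false
set_option linter.style.haveILetI false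
set_option linter.unusedSectionVars false
set_option linter.unusedVariables false

noncomputable section

namespace Fermat.Agent.S17

open AlgebraicCurve Module TensorProduct IntermediateField Fermat.Agent.S26 Fermat.Agent.S27

universe u v y

section Stage

variable {K : Type u} {F : Type v} [Field K] [IsAlgClosed K] [CharZero K] [Field F] [Algebra K F]
  [IsCurveOver K F] [Algebra.EssFiniteType K F]
  {L : Type (max u v)} [Field L] [Algebra K L]
  [Algebra (s27gfOm K F (genusFF K F)) L] [IsScalarTower K (s27gfOm K F (genusFF K F)) L]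
  [IsAlgClosed L] [Algebra.IsAlgebraic (s27gfOm K F (genusFF K F)) L]
  {FL : Type y} [Field FL] [Algebra K FL] [Algebra F FL] [Algebra L FL]
  [IsScalarTower K F FL] [IsScalarTower K L FL]
  (hld : Function.Injective (s26gspMu K F L FL)) (hgen : S26gspGen K F L FL)
  {x : F} (hx : Transcendental K x)
  [FiniteDimensional ↥(IntermediateField.adjoin K {x}) F]
  [Algebra.IsSeparable ↥(IntermediateField.adjoin K {x}) F]
  [IsGalois (s27gfSym K F (genusFF K F)) L]
  (G₀ : Divisor K F) (hG₀ : Divisor.degree G₀ = (genusFF K F : ℤ))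

/-- `k • η + β c` (`k ≠ 0`) is off `Θ_{Ao}`. -/
theorem s17squ_good_affine (Ao : Divisor K F)
    (f₀ : Module.Basis (Fin (genusFF K F)) K ↥(riemannRochSpace (G₀ + Ao)))
    (k : ℤ) (hk : k ≠ 0) (c : Pic0 K F) :
    S17sqGood hld hgen hx Ao
      (k • s27pfCl (s27dclPkg hld hgen hx G₀ hG₀)
          (s27pfTaut (K := K) (F := F) (g := genusFF K F) (L := L)) +
        s27bcBeta hld hgen (s26gspf_hall hx) c) := by
  obtain ⟨q, hq, hcl⟩ := s17af_exists_tuple hld hgen hx G₀ hG₀ k hk c
  have h1 : s27icCl hld hgen hx q G₀ hG₀ =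
      k • s27pfCl (s27dclPkg hld hgen hx G₀ hG₀)
          (s27pfTaut (K := K) (F := F) (g := genusFF K F) (L := L)) +
        s27bcBeta hld hgen (s26gspf_hall hx) c := by
    rw [← hcl]
    exact (s27ris_pfCl hld hgen hx (s27dclPkg hld hgen hx G₀ hG₀) G₀
      (s27pkgO_degree hld hgen hx G₀ hG₀) (fun _ => rfl) (fun _ => rfl) q).symm
  rw [← h1]
  exact s17sq_good_generic hld hgen hx Ao G₀ hG₀ f₀ q (s27ris_generic_inj q hq)
    (s27dgx_liftR_injective' q x (s27dcl_halg (x := x)) hq)

/-- `η + β c` is off `Θ_{Ao}`. -/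
theorem s17squ_good_translate (Ao : Divisor K F)
    (f₀ : Module.Basis (Fin (genusFF K F)) K ↥(riemannRochSpace (G₀ + Ao)))
    (c : Pic0 K F) :
    S17sqGood hld hgen hx Ao
      (s27pfCl (s27dclPkg hld hgen hx G₀ hG₀)
          (s27pfTaut (K := K) (F := F) (g := genusFF K F) (L := L)) +
        s27bcBeta hld hgen (s26gspf_hall hx) c) := by
  have := s17squ_good_affine hld hgen hx G₀ hG₀ Ao f₀ 1 one_ne_zero c
  rwa [one_zsmul] at this

/-- **the cube at `k • η + β c` and a constant class `β [D]`**, valuative form. -/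
theorem s17squ_cube_affine (hg : 0 < genusFF K F)
    (Ao : Divisor K F) (hAo : riemannRochSpace Ao = ⊥)
    (hAod : Divisor.degree Ao = (genusFF K F : ℤ) - 1) (O : Place K F)
    (f₀ : Module.Basis (Fin (genusFF K F)) K ↥(riemannRochSpace (G₀ + Ao)))
    (k : ℤ) (hk : k ≠ 0) (c : Pic0 K F)
    (D : Divisor.degZero (K := K) (F := F))
    (hDm : riemannRochSpace (Ao - (D : Divisor K F)) = ⊥)
    (hDp : riemannRochSpace (Ao + (D : Divisor K F)) = ⊥) :
    ∃ Φ : L, Φ ≠ 0 ∧ S27ckCP K (S27icIdx hld hgen hx Ao)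
      (k • s27pfCl (s27dclPkg hld hgen hx G₀ hG₀)
          (s27pfTaut (K := K) (F := F) (g := genusFF K F) (L := L)) +
        s27bcBeta hld hgen (s26gspf_hall hx) c)
      (s27bcBeta hld hgen (s26gspf_hall hx) (Pic0.mk D)) Φ := by
  refine s17sq_cp hld hgen hx hg Ao hAo hAod O _ _
    (s17squ_good_affine hld hgen hx G₀ hG₀ Ao f₀ k hk c)
    (s17sq_good_beta hld hgen hx Ao D hDm) (s17sq_good_beta_neg hld hgen hx Ao D hDp) ?_ ?_
  · have := s17squ_good_affine hld hgen hx G₀ hG₀ Ao f₀ k hk (c + Pic0.mk D)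
    rwa [map_add, ← add_assoc] at this
  · have := s17squ_good_affine hld hgen hx G₀ hG₀ Ao f₀ k hk (c - Pic0.mk D)
    rwa [map_sub, ← add_sub_assoc] at this

/-- **THE SQUARE**, unconditional: `τ_γ^*Θ + τ_{−γ}^*Θ − 2Θ = div Φ_γ` in valuative form, at the
generic class `η` and the constant class `γ = β [D]` with `±γ ∉ Θ_{Ao}`. -/
theorem s17squ_square (hg : 0 < genusFF K F)
    (Ao : Divisor K F) (hAo : riemannRochSpace Ao = ⊥)
    (hAod : Divisor.degree Ao = (genusFF K F : ℤ) - 1) (O : Place K F)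
    (f₀ : Module.Basis (Fin (genusFF K F)) K ↥(riemannRochSpace (G₀ + Ao)))
    (D : Divisor.degZero (K := K) (F := F))
    (hDm : riemannRochSpace (Ao - (D : Divisor K F)) = ⊥)
    (hDp : riemannRochSpace (Ao + (D : Divisor K F)) = ⊥) :
    ∃ Φ : L, Φ ≠ 0 ∧ S27ckCP K (S27icIdx hld hgen hx Ao)
      (s27pfCl (s27dclPkg hld hgen hx G₀ hG₀)
        (s27pfTaut (K := K) (F := F) (g := genusFF K F) (L := L)))
      (s27bcBeta hld hgen (s26gspf_hall hx) (Pic0.mk D)) Φ := by
  have h := s17squ_cube_affine hld hgen hx G₀ hG₀ hg Ao hAo hAod O f₀ 1 one_ne_zero 0 D hDm hDp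
  rwa [one_zsmul, map_zero, add_zero] at h

end Stage

end Fermat.Agent.S17

end
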