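/-
S17 sprint, leaf **H5** (helper27): the translation bound (T) in VALUATIVE form — formal half.

Setting: `K ⊆ 𝔏` fields, `W` runs through the valuation subrings `W ⊇ K` of `𝔏`;
`X : ι → 𝔏` the family of the height (`X = (1, u_1, …, u_g)` upstairs), `Y : κ → 𝔏` the TRANSLATED
family (`Y = τ_g ∘ X`), `y W`, `y₁ W`, `y₂ W` local equations along `W` of the polar divisor `D` of
`X`, of `τ_g^* D` and of `τ_{−g}^* D`, `Φ ∈ 𝔏` the function of the THEOREM OF THE SQUARE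
`τ_g^* D + τ_{−g}^* D = 2 D + div Φ`:

  (bpf)  `S17trBpf K y N X`     : `X i · y W ^ N ∈ W` for all `i`, a unit of `W` for some `i`;
  (mem)  `S17trMem K y₁ N Y`    : `Y j · y₁ W ^ N ∈ W`  (`Y ⊂ L(N · τ_g^* D)`);
  (int)  `S17trInt K y₂`        : `y₂ W ∈ W`             (`τ_{−g}^* D ≥ 0`);
  (sq)   `S17trSq K y y₁ y₂ Φ`  : `y₁ W · y₂ W = u · Φ · y W ^ 2`, `u ∈ Wˣ`.

* **`s17tr_le`**   : for every `W ⊇ K` there is a pivot `α : ι × ι` with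
                     `X α.1 · X α.2 ≠ 0`, `X β.1 · X β.2 / (X α.1 · X α.2) ∈ W` for all `β` and
                     `Φ ^ N · Y j / (X α.1 · X α.2) ∈ W` for all `j`
                     (= the LITERAL hypothesis of the valuative criterion H1, `s17vc_family`);
* **`s17tr_cert`** : the certificate of integral dependence of `Φ ^ N · Y j` over the ideal of the
                     monomials of degree `2` in `X` (H1 applied) — with H0 this is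
                     `h (x + g) ≤ 2 · h (x) + c_g`, i.e. (T) with `a = 2`;
* `s17tr_sq_of_cp` : (sq) from the class form of S27-B: (LE) `S27ckLE K Idx`, the pointwise cube
                     `S27ckCP K Idx c γ Φ₀` at a class `c` and a CONSTANT class `γ` whose local
                     equations are units (`Idx W γ 1`, `Idx W (−γ) 1`), for ANY local equations
                     `y W`, `y₁ W`, `y₂ W` at the classes `c`, `c + γ`, `c − γ`; `Φ = Φ₀⁻¹`;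
* `s17tr_int_of_idx`, `s17tr_le_idx`, `s17tr_cert_idx` : the same in class form.
-/
import Fermat.Agent.S27.CubeK
import Fermat.Agent.S17.ValCrit

set_option autoImplicit false
set_option linter.unusedVariables false
set_option linter.unusedSectionVars false

noncomputable section

namespace Fermat.Agent.S17

open Fermat.Agent.S27

universe u w x x'

variable {K : Type u} [Field K] {𝔏 : Type w} [Field 𝔏] [Algebra K 𝔏]

/-! ### The four valuative inputs -/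

/-- (bpf): `X ⊂ L(N · D)` without common zero (`D` with local equations `y`). -/
def S17trBpf (K : Type u) [Field K] {𝔏 : Type w} [Field 𝔏] [Algebra K 𝔏] {ι : Type x}
    (y : ValuationSubring 𝔏 → 𝔏) (N : ℕ) (X : ι → 𝔏) : Prop :=
  ∀ W : ValuationSubring 𝔏, S27IsKValU K W →
    (∀ i, X i * y W ^ N ∈ W) ∧ ∃ i, S27IsUnitIn W (X i * y W ^ N)

/-- (mem): `Y ⊂ L(N · D₁)` (`D₁` with local equations `y₁`). -/
def S17trMem (K : Type u) [Field K] {𝔏 : Type w} [Field 𝔏] [Algebra K 𝔏] {κ : Type x'}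
    (y₁ : ValuationSubring 𝔏 → 𝔏) (N : ℕ) (Y : κ → 𝔏) : Prop :=
  ∀ W : ValuationSubring 𝔏, S27IsKValU K W → ∀ j, Y j * y₁ W ^ N ∈ W

/-- (int): the local equations `y₂` are integral. -/
def S17trInt (K : Type u) [Field K] {𝔏 : Type w} [Field 𝔏] [Algebra K 𝔏]
    (y₂ : ValuationSubring 𝔏 → 𝔏) : Prop :=
  ∀ W : ValuationSubring 𝔏, S27IsKValU K W → y₂ W ∈ W

/-- (sq): the theorem of the square in local-equation form. -/
def S17trSq (K : Type u) [Field K] {𝔏 : Type w} [Field 𝔏] [Algebra K 𝔏]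
    (y y₁ y₂ : ValuationSubring 𝔏 → 𝔏) (Φ : 𝔏) : Prop :=
  ∀ W : ValuationSubring 𝔏, S27IsKValU K W →
    ∃ u : 𝔏, S27IsUnitIn W u ∧ y₁ W * y₂ W = u * Φ * y W ^ 2

/-! ### Units -/

theorem s17tr_unit_mul {W : ValuationSubring 𝔏} {a c : 𝔏} (ha : S27IsUnitIn W a)
    (hc : S27IsUnitIn W c) : S27IsUnitIn W (a * c) :=
  ⟨mul_ne_zero ha.1 hc.1, W.mul_mem _ _ ha.2.1 hc.2.1, by
    rw [mul_inv]
    exact W.mul_mem _ _ ha.2.2 hc.2.2⟩

theorem s17tr_unit_pow {W : ValuationSubring 𝔏} {a : 𝔏} (ha : S27IsUnitIn W a) (k : ℕ) :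
    S27IsUnitIn W (a ^ k) :=
  ⟨pow_ne_zero k ha.1, pow_mem ha.2.1 k, by
    rw [← inv_pow]
    exact pow_mem ha.2.2 k⟩

/-- `p / a = (p · b) · (a · b)⁻¹`. -/
theorem s17tr_div_eq (p : 𝔏) {a b : 𝔏} (ha : a ≠ 0) (hb : b ≠ 0) :
    p / a = (p * b) * (a * b)⁻¹ := by
  rw [div_eq_mul_inv, mul_inv, mul_assoc, mul_left_comm b, mul_inv_cancel₀ hb, mul_one]

/-! ### (T), valuative form -/

section Main

variable {ι : Type x} {κ : Type x'} {y y₁ y₂ : ValuationSubring 𝔏 → 𝔏} {Φ : 𝔏} {N : ℕ}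
  {X : ι → 𝔏} {Y : κ → 𝔏}

/-- the key membership: `Φ ^ N · Y j · (y W ^ N) ^ 2 ∈ W`. -/
theorem s17tr_key (hY : S17trMem K y₁ N Y) (hI : S17trInt K y₂) (hS : S17trSq K y y₁ y₂ Φ)
    (W : ValuationSubring 𝔏) (hW : S27IsKValU K W) (j : κ) :
    Φ ^ N * Y j * (y W ^ N) ^ 2 ∈ W := by
  obtain ⟨u, hu, hsq⟩ := hS W hW
  have hu0 : u ^ N ≠ 0 := pow_ne_zero N hu.1
  have h1 : Φ ^ N * Y j * (y W ^ N) ^ 2 =
      (Y j * y₁ W ^ N) * (y₂ W ^ N * (u ^ N)⁻¹) := by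
    have h2 : (y₁ W * y₂ W) ^ N = (u * Φ * y W ^ 2) ^ N := by rw [hsq]
    rw [mul_pow, mul_pow, mul_pow] at h2
    have h3 : Y j * y₁ W ^ N * (y₂ W ^ N * (u ^ N)⁻¹) =
        Y j * (y₁ W ^ N * y₂ W ^ N) * (u ^ N)⁻¹ := by ring
    rw [h3, h2]
    have h4 : Y j * (u ^ N * Φ ^ N * (y W ^ 2) ^ N) * (u ^ N)⁻¹ =
        Φ ^ N * Y j * (y W ^ 2) ^ N * (u ^ N * (u ^ N)⁻¹) := by ring
    rw [h4, mul_inv_cancel₀ hu0, mul_one, ← pow_mul, ← pow_mul, mul_comm 2 N]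
  rw [h1]
  refine W.mul_mem _ _ (hY W hW j) (W.mul_mem _ _ (pow_mem (hI W hW) N) ?_)
  exact (s17tr_unit_pow hu N).2.2

/-- **(T), valuative form** = the literal hypothesis of the valuative criterion H1
(`s17vc_family`): the `Φ ^ N · Y j` are integral over the ideal generated by the monomials of
degree `2` in `X`. -/
theorem s17tr_le (hX : S17trBpf K y N X) (hY : S17trMem K y₁ N Y) (hI : S17trInt K y₂)
    (hS : S17trSq K y y₁ y₂ Φ) (W : ValuationSubring 𝔏) (hW : S27IsKValU K W) :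
    ∃ α : ι × ι, X α.1 * X α.2 ≠ 0 ∧ (∀ β : ι × ι, X β.1 * X β.2 / (X α.1 * X α.2) ∈ W) ∧
      ∀ j, Φ ^ N * Y j / (X α.1 * X α.2) ∈ W := by
  obtain ⟨hmem, i₀, hi₀⟩ := hX W hW
  have hU : S27IsUnitIn W (X i₀ * X i₀ * (y W ^ N) ^ 2) := by
    have h : X i₀ * X i₀ * (y W ^ N) ^ 2 = (X i₀ * y W ^ N) ^ 2 := by ring
    rw [h]
    exact s17tr_unit_pow hi₀ 2
  have hX0 : X i₀ * X i₀ ≠ 0 := left_ne_zero_of_mul hU.1
  have hy0 : (y W ^ N) ^ 2 ≠ 0 := right_ne_zero_of_mul hU.1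
  refine ⟨(i₀, i₀), hX0, fun β => ?_, fun j => ?_⟩
  · have h : X β.1 * X β.2 / (X i₀ * X i₀) =
        ((X β.1 * y W ^ N) * (X β.2 * y W ^ N)) * (X i₀ * X i₀ * (y W ^ N) ^ 2)⁻¹ := by
      rw [s17tr_div_eq (X β.1 * X β.2) hX0 hy0]
      congr 1
      ring
    show X β.1 * X β.2 / (X i₀ * X i₀) ∈ W
    rw [h]
    exact W.mul_mem _ _ (W.mul_mem _ _ (hmem β.1) (hmem β.2)) hU.2.2
  · show Φ ^ N * Y j / (X i₀ * X i₀) ∈ W
    rw [s17tr_div_eq (Φ ^ N * Y j) hX0 hy0]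
    exact W.mul_mem _ _ (s17tr_key hY hI hS W hW j) hU.2.2

/-- **(T), certificate form** (H1 applied): equations of integral dependence of the
`Φ ^ N · Y j` over the monomials of degree `2` in `X`, with a common exponent `M`. -/
theorem s17tr_cert [Fintype ι] [Fintype κ] (hX : S17trBpf K y N X) (hY : S17trMem K y₁ N Y)
    (hI : S17trInt K y₂) (hS : S17trSq K y y₁ y₂ Φ) :
    ∃ (M : ℕ) (a : κ → Fin M → MvPolynomial (ι × ι) K), 1 ≤ M ∧
      (∀ j k, (a j k).IsHomogeneous ((k : ℕ) + 1)) ∧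
      ∀ j, (Φ ^ N * Y j) ^ M +
        ∑ k : Fin M, MvPolynomial.aeval (fun α : ι × ι => X α.1 * X α.2) (a j k) *
          (Φ ^ N * Y j) ^ (M - 1 - (k : ℕ)) = 0 :=
  s17vc_family (K := K) (fun α : ι × ι => X α.1 * X α.2) (fun j => Φ ^ N * Y j)
    (fun W hW => s17tr_le hX hY hI hS W hW)

end Main

/-! ### (sq) and (int) from the class form of S27-B -/

section Class

variable {C : Type x} [AddCommGroup C] {Idx : ValuationSubring 𝔏 → C → 𝔏 → Prop}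

/-- **(sq) from (LE) + (CP)** at a class `c` and a constant class `γ` with unit local equations:
for ANY local equations `y`, `y₁`, `y₂` at `c`, `c + γ`, `c − γ`. -/
theorem s17tr_sq_of_cp (hLE : S27ckLE K Idx) (c γ : C) (Φ₀ : 𝔏) (hΦ₀ : Φ₀ ≠ 0)
    (hcp : S27ckCP K Idx c γ Φ₀)
    (hγ : ∀ W : ValuationSubring 𝔏, S27IsKValU K W → Idx W γ 1 ∧ Idx W (-γ) 1)
    (y y₁ y₂ : ValuationSubring 𝔏 → 𝔏)
    (hy : ∀ W : ValuationSubring 𝔏, S27IsKValU K W → Idx W c (y W))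
    (hy₁ : ∀ W : ValuationSubring 𝔏, S27IsKValU K W → Idx W (c + γ) (y₁ W))
    (hy₂ : ∀ W : ValuationSubring 𝔏, S27IsKValU K W → Idx W (c - γ) (y₂ W)) :
    S17trSq K y y₁ y₂ Φ₀⁻¹ := by
  intro W hW
  obtain ⟨u, hu, hue⟩ := s27ck_abs W (Idx W) (hLE W hW).2 (hLE W hW).1 c γ Φ₀ hΦ₀ (hcp W hW)
    (hy₁ W hW) (hy₂ W hW) (hy W hW) (hγ W hW).1 (hγ W hW).2
  refine ⟨u, hu, ?_⟩
  rw [hue, mul_one, mul_one]

/-- **(int) from the class form**: local equations at a class are integral as soon as ONE local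
equation at this class is (LE). -/
theorem s17tr_int_of_idx (hLE : S27ckLE K Idx) (c : C) (y₂ : ValuationSubring 𝔏 → 𝔏)
    (hy₂ : ∀ W : ValuationSubring 𝔏, S27IsKValU K W → Idx W c (y₂ W))
    (hint : ∀ W : ValuationSubring 𝔏, S27IsKValU K W → ∃ z, Idx W c z ∧ z ∈ W) :
    S17trInt K y₂ := by
  intro W hW
  obtain ⟨z, hz, hzW⟩ := hint W hW
  obtain ⟨u, hu, hyu⟩ := (hLE W hW).2 c _ _ (hy₂ W hW) hz
  rw [hyu]
  exact W.mul_mem _ _ hu.2.1 hzW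

variable {ι : Type x} {κ : Type x'} {N : ℕ} {X : ι → 𝔏} {Y : κ → 𝔏}

/-- **(T), valuative form, from the class form of S27-B.** -/
theorem s17tr_le_idx (hLE : S27ckLE K Idx) (c γ : C) (Φ₀ : 𝔏) (hΦ₀ : Φ₀ ≠ 0)
    (hcp : S27ckCP K Idx c γ Φ₀)
    (hγ : ∀ W : ValuationSubring 𝔏, S27IsKValU K W → Idx W γ 1 ∧ Idx W (-γ) 1)
    (y y₁ y₂ : ValuationSubring 𝔏 → 𝔏)
    (hy : ∀ W : ValuationSubring 𝔏, S27IsKValU K W → Idx W c (y W))
    (hy₁ : ∀ W : ValuationSubring 𝔏, S27IsKValU K W → Idx W (c + γ) (y₁ W))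
    (hy₂ : ∀ W : ValuationSubring 𝔏, S27IsKValU K W → Idx W (c - γ) (y₂ W))
    (hint : ∀ W : ValuationSubring 𝔏, S27IsKValU K W → ∃ z, Idx W (c - γ) z ∧ z ∈ W)
    (hX : S17trBpf K y N X) (hY : S17trMem K y₁ N Y)
    (W : ValuationSubring 𝔏) (hW : S27IsKValU K W) :
    ∃ α : ι × ι, X α.1 * X α.2 ≠ 0 ∧ (∀ β : ι × ι, X β.1 * X β.2 / (X α.1 * X α.2) ∈ W) ∧
      ∀ j, Φ₀⁻¹ ^ N * Y j / (X α.1 * X α.2) ∈ W :=
  s17tr_le hX hY (s17tr_int_of_idx hLE (c - γ) y₂ hy₂ hint)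
    (s17tr_sq_of_cp hLE c γ Φ₀ hΦ₀ hcp hγ y y₁ y₂ hy hy₁ hy₂) W hW

/-- **(T), certificate form, from the class form of S27-B.** -/
theorem s17tr_cert_idx [Fintype ι] [Fintype κ] (hLE : S27ckLE K Idx) (c γ : C) (Φ₀ : 𝔏)
    (hΦ₀ : Φ₀ ≠ 0) (hcp : S27ckCP K Idx c γ Φ₀)
    (hγ : ∀ W : ValuationSubring 𝔏, S27IsKValU K W → Idx W γ 1 ∧ Idx W (-γ) 1)
    (y y₁ y₂ : ValuationSubring 𝔏 → 𝔏)
    (hy : ∀ W : ValuationSubring 𝔏, S27IsKValU K W → Idx W c (y W))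
    (hy₁ : ∀ W : ValuationSubring 𝔏, S27IsKValU K W → Idx W (c + γ) (y₁ W))
    (hy₂ : ∀ W : ValuationSubring 𝔏, S27IsKValU K W → Idx W (c - γ) (y₂ W))
    (hint : ∀ W : ValuationSubring 𝔏, S27IsKValU K W → ∃ z, Idx W (c - γ) z ∧ z ∈ W)
    (hX : S17trBpf K y N X) (hY : S17trMem K y₁ N Y) :
    ∃ (M : ℕ) (a : κ → Fin M → MvPolynomial (ι × ι) K), 1 ≤ M ∧
      (∀ j k, (a j k).IsHomogeneous ((k : ℕ) + 1)) ∧
      ∀ j, (Φ₀⁻¹ ^ N * Y j) ^ M +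
        ∑ k : Fin M, MvPolynomial.aeval (fun α : ι × ι => X α.1 * X α.2) (a j k) *
          (Φ₀⁻¹ ^ N * Y j) ^ (M - 1 - (k : ℕ)) = 0 :=
  s17tr_cert hX hY (s17tr_int_of_idx hLE (c - γ) y₂ hy₂ hint)
    (s17tr_sq_of_cp hLE c γ Φ₀ hΦ₀ hcp hγ y y₁ y₂ hy hy₁ hy₂)

end Class

end Fermat.Agent.S17

end
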