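/-
S17 sprint, leaf **A-T, inputs** (helper18): the inputs of helper27's `s17tr_sq_of_cp`
(S17/Transl.lean) ON THE MODEL of S27-B, from the valuative square `s17squ_square`.

Stage as in S17/Square.lean; `Idx = S27icIdx hld hgen hx Ao`, `η` the generic class,
`γ = β [D]` a constant class with `L_K(Ao − D) = L_K(Ao + D) = 0`.

* `s17ssq_cl_empty`     : the class of the EMPTY tuple with origin `B` (`deg B = 0`) is `β [−B]`;
* `s17ssq_idx_beta_one` : `Idx W (β [D]) 1` if `L_K(Ao − D) = 0`  (the empty tuple, origin `−D`);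
* `s17ssq_idx_beta_neg_one` : `Idx W (−β [D]) 1` if `L_K(Ao + D) = 0`;
* `s17ssq_idx_mem`      : every local equation lies in `W`;
* **`s17ssq_sq`**       : `S17trSq K y y₁ y₂ Φ` for ANY local equations `y`, `y₁`, `y₂` at `η`,
                          `η + γ`, `η − γ` (with `Φ = Φ₀⁻¹`, `Φ₀` the function of the square);
* **`s17ssq_int`**      : `S17trInt K y₂` for ANY local equations `y₂` at a class.
-/
import Fermat.Agent.S17.SquareU
import Fermat.Agent.S17.Transl
import Fermat.Agent.S27.LE5Top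
import Fermat.Agent.S27.LEZero

set_option autoImplicit false
set_option linter.style.haveILetI false
set_option linter.unusedSectionVars false
set_option linter.unusedVariables false

noncomputable section

namespace Fermat.Agent.S17

open AlgebraicCurve Module TensorProduct IntermediateField Fermat.Agent.S26 Fermat.Agent.S27

universe u v y

section Stage

variable {K : Type u} {F : Type v} [Field K] [IsAlgClosed K] [CharZero K] [Field F] [Algebra K F]
  [IsCurveOver K F] [Algebra.EssFiniteType K F]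
  {L : Type (max u v)} [Field L] [Algebra K L]
  [Algebra (s27gfOm K F (genusFF K F)) L] [IsScalarTower K (s27gfOm K F (genusFF K F)) L]
  [IsAlgClosed L] [Algebra.IsAlgebraic (s27gfOm K F (genusFF K F)) L]
  {FL : Type y} [Field FL] [Algebra K FL] [Algebra F FL] [Algebra L FL]
  [IsScalarTower K F FL] [IsScalarTower K L FL]
  (hld : Function.Injective (s26gspMu K F L FL)) (hgen : S26gspGen K F L FL)
  {x : F} (hx : Transcendental K x)
  [FiniteDimensional ↥(IntermediateField.adjoin K {x}) F]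
  [Algebra.IsSeparable ↥(IntermediateField.adjoin K {x}) F]
  [IsGalois (s27gfSym K F (genusFF K F)) L]
  (G₀ : Divisor K F) (hG₀ : Divisor.degree G₀ = (genusFF K F : ℤ))

/-- the class of the empty tuple with origin `−D` is `β [D]`. -/
theorem s17ssq_cl_empty (D : Divisor.degZero (K := K) (F := F)) (R : Fin 0 → F →ₐ[K] L)
    (hB : Divisor.degree (-(D : Divisor K F)) = ((0 : ℕ) : ℤ)) :
    s27icCl hld hgen hx R (-(D : Divisor K F)) hB =
      s27bcBeta hld hgen (s26gspf_hall hx) (Pic0.mk D) := by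
  unfold s27icCl s27pkgClO
  rw [s27bcBeta_mk]
  congr 1
  apply Subtype.ext
  rw [s27pkgDivZeroO_coe, s27bcConZero_coe]
  have h1 : s27pkgSum (fun i => s27gpPlace hld hgen (R i) hx) = 0 := by
    unfold s27pkgSum
    exact Finset.sum_empty
  rw [h1, zero_sub]
  have h2 := map_neg (Finsupp.mapDomain.addMonoidHom (M := ℤ)
    (s26gspCon hld hgen (s26gspf_hall hx))) (D : Divisor K F)
  simp only [Finsupp.mapDomain.addMonoidHom_apply] at h2
  rw [h2, neg_neg]

/-- a constant class off `Θ_{Ao}` has the local equation `1`. -/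
theorem s17ssq_idx_beta_one (Ao : Divisor K F) (D : Divisor.degZero (K := K) (F := F))
    (hD : riemannRochSpace (Ao - (D : Divisor K F)) = ⊥) (W : ValuationSubring L) :
    S27icIdx hld hgen hx Ao W (s27bcBeta hld hgen (s26gspf_hall hx) (Pic0.mk D)) 1 := by
  have hB : Divisor.degree (-(D : Divisor K F)) = ((0 : ℕ) : ℤ) := by
    rw [map_neg, Divisor.mem_degZero.1 D.2]
    simp
  refine Or.inr ⟨0, fun i => i.elim0, -(D : Divisor K F), hB, fun i => i.elim0,
    s17ssq_cl_empty hld hgen hx D _ hB, ?_⟩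
  refine s27lez_idx_empty' W _ _ ?_
  rw [neg_add_eq_sub]
  exact hD

/-- the opposite constant class. -/
theorem s17ssq_idx_beta_neg_one (Ao : Divisor K F) (D : Divisor.degZero (K := K) (F := F))
    (hD : riemannRochSpace (Ao + (D : Divisor K F)) = ⊥) (W : ValuationSubring L) :
    S27icIdx hld hgen hx Ao W (-s27bcBeta hld hgen (s26gspf_hall hx) (Pic0.mk D)) 1 := by
  have h := s17ssq_idx_beta_one hld hgen hx Ao (-D) (by
    rw [show ((-D : Divisor.degZero (K := K) (F := F)) : Divisor K F) = -(D : Divisor K F) from rfl,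
      sub_neg_eq_add]
    exact hD) W
  have e : s27bcBeta hld hgen (s26gspf_hall hx) (Pic0.mk (-D)) =
      -s27bcBeta hld hgen (s26gspf_hall hx) (Pic0.mk D) := by
    rw [← map_neg]
    rfl
  rwa [e] at h

/-- every local equation is integral. -/
theorem s17ssq_idx_mem (Ao : Divisor K F) {W : ValuationSubring L} {c : Pic0 L FL} {z : L}
    (hz : S27icIdx hld hgen hx Ao W c z) : z ∈ W := by
  rcases hz with ⟨-, hu⟩ | ⟨N, R, B, hB, -, -, hidx⟩
  · exact hu.2.1
  · exact s27pt_idx_mem hidx

/-- **(int)** for any local equations at a class. -/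
theorem s17ssq_int (Ao : Divisor K F) (c : Pic0 L FL) (y₂ : ValuationSubring L → L)
    (hy₂ : ∀ W : ValuationSubring L, S27IsKValU K W → S27icIdx hld hgen hx Ao W c (y₂ W)) :
    S17trInt K y₂ :=
  fun W hW => s17ssq_idx_mem hld hgen hx Ao (hy₂ W hW)

/-- **(sq) on the model**: the theorem of the square for ANY local equations at `η`, `η + γ`,
`η − γ`, `γ = β [D]` with `L_K(Ao ∓ D) = 0`. -/
theorem s17ssq_sq (hg : 0 < genusFF K F)
    (Ao : Divisor K F) (hAo : riemannRochSpace Ao = ⊥)
    (hAod : Divisor.degree Ao = (genusFF K F : ℤ) - 1) (O : Place K F)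
    (f₀ : Module.Basis (Fin (genusFF K F)) K ↥(riemannRochSpace (G₀ + Ao)))
    (D : Divisor.degZero (K := K) (F := F))
    (hDm : riemannRochSpace (Ao - (D : Divisor K F)) = ⊥)
    (hDp : riemannRochSpace (Ao + (D : Divisor K F)) = ⊥) :
    ∃ Φ : L, Φ ≠ 0 ∧ ∀ (y y₁ y₂ : ValuationSubring L → L),
      (∀ W : ValuationSubring L, S27IsKValU K W → S27icIdx hld hgen hx Ao W
        (s27pfCl (s27dclPkg hld hgen hx G₀ hG₀)
          (s27pfTaut (K := K) (F := F) (g := genusFF K F) (L := L))) (y W)) →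
      (∀ W : ValuationSubring L, S27IsKValU K W → S27icIdx hld hgen hx Ao W
        (s27pfCl (s27dclPkg hld hgen hx G₀ hG₀)
            (s27pfTaut (K := K) (F := F) (g := genusFF K F) (L := L)) +
          s27bcBeta hld hgen (s26gspf_hall hx) (Pic0.mk D)) (y₁ W)) →
      (∀ W : ValuationSubring L, S27IsKValU K W → S27icIdx hld hgen hx Ao W
        (s27pfCl (s27dclPkg hld hgen hx G₀ hG₀)
            (s27pfTaut (K := K) (F := F) (g := genusFF K F) (L := L)) -
          s27bcBeta hld hgen (s26gspf_hall hx) (Pic0.mk D)) (y₂ W)) →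
      S17trSq K y y₁ y₂ Φ := by
  obtain ⟨Φ₀, hΦ₀, hcp⟩ := s17squ_square hld hgen hx G₀ hG₀ hg Ao hAo hAod O f₀ D hDm hDp
  refine ⟨Φ₀⁻¹, inv_ne_zero hΦ₀, fun y y₁ y₂ hy hy₁ hy₂ => ?_⟩
  exact s17tr_sq_of_cp (s27le5_ckLE hld hgen hx Ao hAod hAo) _ _ Φ₀ hΦ₀ hcp
    (fun W hW => ⟨s17ssq_idx_beta_one hld hgen hx Ao D hDm W,
      s17ssq_idx_beta_neg_one hld hgen hx Ao D hDp W⟩) y y₁ y₂ hy hy₁ hy₂

end Stage

end Fermat.Agent.S17

end
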