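/-
S17 sprint, sub-integration **[PlT]**, leaf **T1 = NAT-τ** (helper18): the class-indexed local
equation `S27icIdx` of the theta divisor `Θ_{Ao}` is NATURAL under every `h : L ≃ₐ[K] L`, and the
base-point-free families are transported.

Stage as in S17/Square.lean; `actC h = s27pkgActC (s27dwAct hld hgen) (s27pkg_hdeg hld hgen hx) h`
(`= (s27dclPkg hld hgen hx G₀ hG₀).actC h`, definitionally, for every origin `G₀`).

* `s17tn_cl_comp`   : `[Σ h∘R − Con B] = actC h [Σ R − Con B]` (any length, any constant origin);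
* **`s17tn_idx`**   : `S27icIdx Ao (W.comap h) c z → S27icIdx Ao W (actC h c) (h z)`;
* `s17tn_kval`      : `W ⊇ K ⇒ W.comap h ⊇ K`;
* **`s17tn_eq`**    : local equations `y` at the class `c` give the local equations
                      `s17tnEq h y W := h (y (W.comap h))` at the class `actC h c`;
* **`s17tn_bpf`**   : `S17trBpf K y N X → S17trBpf K (s17tnEq h y) N (h ∘ X)`;
* `s17tn_eq_pkg`    : the same for the package `s27dclPkg`, with `actC h η = η + γ` as a hypothesis: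
                      local equations at `η + γ`.
-/
import Fermat.Agent.S17.Transl
import Fermat.Agent.S27.IdxCls
import Fermat.Agent.S27.Nat

set_option autoImplicit false
set_option linter.style.haveILetI false
set_option linter.unusedSectionVars false
set_option linter.unusedVariables false

noncomputable section

namespace Fermat.Agent.S17

open AlgebraicCurve Module TensorProduct IntermediateField Fermat.Agent.S26 Fermat.Agent.S27

universe u v y x'

/-! ### formal part: transport along an automorphism -/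

section Formal

variable {K : Type u} [Field K] {𝔏 : Type v} [Field 𝔏] [Algebra K 𝔏]

/-- the transported local equations `W ↦ h (y (W.comap h))`. -/
def s17tnEq (h : 𝔏 ≃ₐ[K] 𝔏) (y : ValuationSubring 𝔏 → 𝔏) (W : ValuationSubring 𝔏) : 𝔏 :=
  h (y (W.comap (((h : 𝔏 ≃ₐ[K] 𝔏) : 𝔏 →ₐ[K] 𝔏) : 𝔏 →+* 𝔏)))

theorem s17tn_kval (h : 𝔏 ≃ₐ[K] 𝔏) {W : ValuationSubring 𝔏} (hW : S27IsKValU K W) :
    S27IsKValU K (W.comap (((h : 𝔏 ≃ₐ[K] 𝔏) : 𝔏 →ₐ[K] 𝔏) : 𝔏 →+* 𝔏)) := by
  intro a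
  rw [ValuationSubring.mem_comap]
  show h (algebraMap K 𝔏 a) ∈ W
  rw [AlgEquiv.commutes]
  exact hW a

/-- **transport of a base-point-free family.** -/
theorem s17tn_bpf {ι : Type x'} (h : 𝔏 ≃ₐ[K] 𝔏) {y : ValuationSubring 𝔏 → 𝔏} {N : ℕ}
    {X : ι → 𝔏} (hX : S17trBpf K y N X) :
    S17trBpf K (s17tnEq h y) N (fun i => h (X i)) := by
  intro W hW
  obtain ⟨hmem, i₀, hi₀⟩ := hX _ (s17tn_kval h hW)
  have key : ∀ i, h (X i) * s17tnEq h y W ^ N =
      (((h : 𝔏 ≃ₐ[K] 𝔏) : 𝔏 →ₐ[K] 𝔏) : 𝔏 →+* 𝔏)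
        (X i * y (W.comap (((h : 𝔏 ≃ₐ[K] 𝔏) : 𝔏 →ₐ[K] 𝔏) : 𝔏 →+* 𝔏)) ^ N) := by
    intro i
    rw [map_mul, map_pow]
    rfl
  refine ⟨fun i => ?_, i₀, ?_⟩
  · rw [key i]
    exact hmem i
  · rw [key i₀]
    exact (s27nat_unit_iff (((h : 𝔏 ≃ₐ[K] 𝔏) : 𝔏 →ₐ[K] 𝔏) : 𝔏 →+* 𝔏) W _).1 hi₀

/-- **transport of (mem)**. -/
theorem s17tn_mem {ι : Type x'} (h : 𝔏 ≃ₐ[K] 𝔏) {y : ValuationSubring 𝔏 → 𝔏} {N : ℕ}
    {X : ι → 𝔏} (hX : S17trMem K y N X) :
    S17trMem K (s17tnEq h y) N (fun i => h (X i)) := by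
  intro W hW i
  have h1 := hX _ (s17tn_kval h hW) i
  have key : h (X i) * s17tnEq h y W ^ N =
      (((h : 𝔏 ≃ₐ[K] 𝔏) : 𝔏 →ₐ[K] 𝔏) : 𝔏 →+* 𝔏)
        (X i * y (W.comap (((h : 𝔏 ≃ₐ[K] 𝔏) : 𝔏 →ₐ[K] 𝔏) : 𝔏 →+* 𝔏)) ^ N) := by
    rw [map_mul, map_pow]
    rfl
  rw [key]
  exact h1

end Formal

/-! ### the stage -/

section Stage

variable {K : Type u} {F : Type v} [Field K] [IsAlgClosed K] [CharZero K] [Field F] [Algebra K F]
  [IsCurveOver K F] [Algebra.EssFiniteType K F]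
  {L : Type (max u v)} [Field L] [Algebra K L]
  [Algebra (s27gfOm K F (genusFF K F)) L] [IsScalarTower K (s27gfOm K F (genusFF K F)) L]
  [IsAlgClosed L] [Algebra.IsAlgebraic (s27gfOm K F (genusFF K F)) L]
  {FL : Type y} [Field FL] [Algebra K FL] [Algebra F FL] [Algebra L FL]
  [IsScalarTower K F FL] [IsScalarTower K L FL]
  (hld : Function.Injective (s26gspMu K F L FL)) (hgen : S26gspGen K F L FL)
  {x : F} (hx : Transcendental K x)
  [FiniteDimensional ↥(IntermediateField.adjoin K {x}) F]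
  [Algebra.IsSeparable ↥(IntermediateField.adjoin K {x}) F]

/-- the action of `Aut(L / K)` on the classes. -/
def s17tnAct (h : L ≃ₐ[K] L) : Pic0 L FL →+ Pic0 L FL :=
  s27pkgActC (s27dwAct hld hgen) (s27pkg_hdeg hld hgen hx) h

/-- it is the action of the package, for every origin. -/
theorem s17tnAct_pkg [IsGalois (s27gfSym K F (genusFF K F)) L]
    (G₀ : Divisor K F) (hG₀ : Divisor.degree G₀ = (genusFF K F : ℤ)) (h : L ≃ₐ[K] L) :
    (s27dclPkg hld hgen hx G₀ hG₀).actC h = s17tnAct hld hgen hx h := rfl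

/-- the class of a transported tuple. -/
theorem s17tn_cl_comp (h : L ≃ₐ[K] L) {N : ℕ} (R : Fin N → F →ₐ[K] L) (B : Divisor K F)
    (hB : Divisor.degree B = (N : ℤ)) :
    s27icCl hld hgen hx (fun i => ((h : L ≃ₐ[K] L) : L →ₐ[K] L).comp (R i)) B hB =
      s17tnAct hld hgen hx h (s27icCl hld hgen hx R B hB) := by
  unfold s27icCl s17tnAct
  rw [s27pkgActC_clO (s27dwAct hld hgen) (s27pkg_hdeg hld hgen hx) h _ _
    (s27pkg_raDiv_con (s27dwAct hld hgen) hld hgen (s26gspf_hall hx) h B)]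
  congr 1
  funext i
  exact (s27pkg_act_pt (s27dwAct hld hgen) hld hgen hx h (R i)).symm

/-- **NAT-τ**: the class-indexed local equation is natural under `Aut(L / K)`. -/
theorem s17tn_idx (h : L ≃ₐ[K] L) (Ao : Divisor K F) (W : ValuationSubring L) (c : Pic0 L FL)
    (z : L)
    (hz : S27icIdx hld hgen hx Ao
      (W.comap (((h : L ≃ₐ[K] L) : L →ₐ[K] L) : L →+* L)) c z) :
    S27icIdx hld hgen hx Ao W (s17tnAct hld hgen hx h c) (h z) := by
  rcases hz with ⟨hc, hu⟩ | ⟨N, R, B, hB, hinj, hcl, hidx⟩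
  · refine Or.inl ⟨?_, ?_⟩
    · rw [hc, map_zero]
    · exact (s27nat_unit_iff (((h : L ≃ₐ[K] L) : L →ₐ[K] L) : L →+* L) W z).1 hu
  · refine Or.inr ⟨N, fun i => ((h : L ≃ₐ[K] L) : L →ₐ[K] L).comp (R i), B, hB, ?_, ?_, ?_⟩
    · intro i j hij
      apply hinj
      apply AlgHom.ext
      intro f
      have h1 : h (R i f) = h (R j f) := congrArg (fun e : F →ₐ[K] L => e f) hij
      exact h.injective h1
    · rw [s17tn_cl_comp, hcl]
    · exact s27pt_idx_nat ((h : L ≃ₐ[K] L) : L →ₐ[K] L) W hidx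

/-- **transport of the local equations**: `y` at the class `c` ⇒ `s17tnEq h y` at `actC h c`. -/
theorem s17tn_eq (h : L ≃ₐ[K] L) (Ao : Divisor K F) (c : Pic0 L FL)
    (y : ValuationSubring L → L)
    (hy : ∀ W : ValuationSubring L, S27IsKValU K W → S27icIdx hld hgen hx Ao W c (y W))
    (W : ValuationSubring L) (hW : S27IsKValU K W) :
    S27icIdx hld hgen hx Ao W (s17tnAct hld hgen hx h c) (s17tnEq h y W) :=
  s17tn_idx hld hgen hx h Ao W c _ (hy _ (s17tn_kval h hW))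

/-- the same at `η + γ` for the package. -/
theorem s17tn_eq_pkg [IsGalois (s27gfSym K F (genusFF K F)) L]
    (G₀ : Divisor K F) (hG₀ : Divisor.degree G₀ = (genusFF K F : ℤ))
    (h : L ≃ₐ[K] L) (Ao : Divisor K F) (c c' : Pic0 L FL)
    (hc : (s27dclPkg hld hgen hx G₀ hG₀).actC h c = c')
    (y : ValuationSubring L → L)
    (hy : ∀ W : ValuationSubring L, S27IsKValU K W → S27icIdx hld hgen hx Ao W c (y W))
    (W : ValuationSubring L) (hW : S27IsKValU K W) :
    S27icIdx hld hgen hx Ao W c' (s17tnEq h y W) := by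
  rw [← hc, s17tnAct_pkg]
  exact s17tn_eq hld hgen hx h Ao c y hy W hW

end Stage

end Fermat.Agent.S17

end
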