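/-
S17 sprint, sub-integration **[PlT]**, leaf **T3 = STAGE** (helper18): the LITERAL valuative
hypotheses of the PRODUCT form of (T) (helper32's S17/TranslProd.lean, `s17tp_equiv`) ON THE STAGE
of S27-B, for a constant class `β [D]` off `Θ_{Ao} ∪ −Θ_{Ao}` (`L_K(Ao ∓ D) = 0`).

Stage as in S17/Square.lean; `η` the generic class, `y W` local equations of `Θ_{Ao}` at `η`
(`S27icIdx … Ao W η (y W)`), `X : ι → L` a base-point-free family w.r.t. `y`
(`S17trBpf K y N X`: `X ⊂ L(N · Θ)`), `ρ₁ ρ₂ : L ≃ₐ[K] L` with `actC ρ₁ η = η + β [D]`,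
`actC ρ₂ η = η − β [D]` (the translations by `± [D]`).

* **`s17tsg_inputs`** : `∃ Φ ≠ 0`, `ρ₁ ∘ X` is bpf w.r.t. `y₁ := s17tnEq ρ₁ y`, `ρ₂ ∘ X` is bpf
                        w.r.t. `y₂ := s17tnEq ρ₂ y`, and `S17trSq K y y₁ y₂ Φ`;
* **`s17tsg_equiv`**  : `∃ Φ ≠ 0`, the monomials `X i · X i'` and the products
                        `Φ ^ N · (ρ₁ (X j) · ρ₂ (X j'))` are valuatively equivalent at every
                        `W ⊇ K` (the shape `hW` of `s17plh_main` / `s17hbpQ_place`);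
* `s17tsg_neg_shift`  : `actC ρ η = η + β [−D]` is `actC ρ η = η − β [D]`.
-/
import Fermat.Agent.S17.SquareSq
import Fermat.Agent.S17.TranslNat
import Fermat.Agent.S17.TranslProd

set_option autoImplicit false
set_option linter.style.haveILetI false
set_option linter.unusedSectionVars false
set_option linter.unusedVariables false

noncomputable section

namespace Fermat.Agent.S17

open AlgebraicCurve Module TensorProduct IntermediateField Fermat.Agent.S26 Fermat.Agent.S27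

universe u v y x'

section Stage

variable {K : Type u} {F : Type v} [Field K] [IsAlgClosed K] [CharZero K] [Field F] [Algebra K F]
  [IsCurveOver K F] [Algebra.EssFiniteType K F]
  {L : Type (max u v)} [Field L] [Algebra K L]
  [Algebra (s27gfOm K F (genusFF K F)) L] [IsScalarTower K (s27gfOm K F (genusFF K F)) L]
  [IsAlgClosed L] [Algebra.IsAlgebraic (s27gfOm K F (genusFF K F)) L]
  {FL : Type y} [Field FL] [Algebra K FL] [Algebra F FL] [Algebra L FL]
  [IsScalarTower K F FL] [IsScalarTower K L FL]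
  (hld : Function.Injective (s26gspMu K F L FL)) (hgen : S26gspGen K F L FL)
  {x : F} (hx : Transcendental K x)
  [FiniteDimensional ↥(IntermediateField.adjoin K {x}) F]
  [Algebra.IsSeparable ↥(IntermediateField.adjoin K {x}) F]
  [IsGalois (s27gfSym K F (genusFF K F)) L]
  (G₀ : Divisor K F) (hG₀ : Divisor.degree G₀ = (genusFF K F : ℤ))

/-- the shift by `β [−D]` is the shift by `−β [D]`. -/
theorem s17tsg_neg_shift (D : Divisor.degZero (K := K) (F := F)) (c : Pic0 L FL) :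
    c + s27bcBeta hld hgen (s26gspf_hall hx) (Pic0.mk (-D)) =
      c - s27bcBeta hld hgen (s26gspf_hall hx) (Pic0.mk D) := by
  have e : s27bcBeta hld hgen (s26gspf_hall hx) (Pic0.mk (-D)) =
      -s27bcBeta hld hgen (s26gspf_hall hx) (Pic0.mk D) := by
    rw [← map_neg]
    rfl
  rw [e, sub_eq_add_neg]

/-- **T3, inputs**: the literal hypotheses of the PRODUCT form of (T) on the stage. -/
theorem s17tsg_inputs (hg : 0 < genusFF K F)
    (Ao : Divisor K F) (hAo : riemannRochSpace Ao = ⊥)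
    (hAod : Divisor.degree Ao = (genusFF K F : ℤ) - 1) (O : Place K F)
    (f₀ : Module.Basis (Fin (genusFF K F)) K ↥(riemannRochSpace (G₀ + Ao)))
    (D : Divisor.degZero (K := K) (F := F))
    (hDm : riemannRochSpace (Ao - (D : Divisor K F)) = ⊥)
    (hDp : riemannRochSpace (Ao + (D : Divisor K F)) = ⊥)
    (ρ₁ ρ₂ : L ≃ₐ[K] L)
    (hρ₁ : (s27dclPkg hld hgen hx G₀ hG₀).actC ρ₁
        (s27pfCl (s27dclPkg hld hgen hx G₀ hG₀)
          (s27pfTaut (K := K) (F := F) (g := genusFF K F) (L := L))) =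
      s27pfCl (s27dclPkg hld hgen hx G₀ hG₀)
          (s27pfTaut (K := K) (F := F) (g := genusFF K F) (L := L)) +
        s27bcBeta hld hgen (s26gspf_hall hx) (Pic0.mk D))
    (hρ₂ : (s27dclPkg hld hgen hx G₀ hG₀).actC ρ₂
        (s27pfCl (s27dclPkg hld hgen hx G₀ hG₀)
          (s27pfTaut (K := K) (F := F) (g := genusFF K F) (L := L))) =
      s27pfCl (s27dclPkg hld hgen hx G₀ hG₀)
          (s27pfTaut (K := K) (F := F) (g := genusFF K F) (L := L)) -
        s27bcBeta hld hgen (s26gspf_hall hx) (Pic0.mk D))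
    (y : ValuationSubring L → L)
    (hy : ∀ W : ValuationSubring L, S27IsKValU K W → S27icIdx hld hgen hx Ao W
      (s27pfCl (s27dclPkg hld hgen hx G₀ hG₀)
        (s27pfTaut (K := K) (F := F) (g := genusFF K F) (L := L))) (y W))
    {ι : Type x'} (X : ι → L) (N : ℕ) (hX : S17trBpf K y N X) :
    ∃ Φ : L, Φ ≠ 0 ∧
      S17trBpf K (s17tnEq ρ₁ y) N (fun i => ρ₁ (X i)) ∧
      S17trBpf K (s17tnEq ρ₂ y) N (fun i => ρ₂ (X i)) ∧
      S17trSq K y (s17tnEq ρ₁ y) (s17tnEq ρ₂ y) Φ := by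
  obtain ⟨Φ, hΦ, hsq⟩ := s17ssq_sq hld hgen hx G₀ hG₀ hg Ao hAo hAod O f₀ D hDm hDp
  refine ⟨Φ, hΦ, s17tn_bpf ρ₁ hX, s17tn_bpf ρ₂ hX, ?_⟩
  exact hsq y (s17tnEq ρ₁ y) (s17tnEq ρ₂ y) hy
    (fun W hW => s17tn_eq_pkg hld hgen hx G₀ hG₀ ρ₁ Ao _ _ hρ₁ y hy W hW)
    (fun W hW => s17tn_eq_pkg hld hgen hx G₀ hG₀ ρ₂ Ao _ _ hρ₂ y hy W hW)

/-- **T3, valuative equivalence**: `X ⊗ X` and `Φ ^ N · (ρ₁ X ⊗ ρ₂ X)` at every `W ⊇ K`. -/
theorem s17tsg_equiv (hg : 0 < genusFF K F)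
    (Ao : Divisor K F) (hAo : riemannRochSpace Ao = ⊥)
    (hAod : Divisor.degree Ao = (genusFF K F : ℤ) - 1) (O : Place K F)
    (f₀ : Module.Basis (Fin (genusFF K F)) K ↥(riemannRochSpace (G₀ + Ao)))
    (D : Divisor.degZero (K := K) (F := F))
    (hDm : riemannRochSpace (Ao - (D : Divisor K F)) = ⊥)
    (hDp : riemannRochSpace (Ao + (D : Divisor K F)) = ⊥)
    (ρ₁ ρ₂ : L ≃ₐ[K] L)
    (hρ₁ : (s27dclPkg hld hgen hx G₀ hG₀).actC ρ₁
        (s27pfCl (s27dclPkg hld hgen hx G₀ hG₀)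
          (s27pfTaut (K := K) (F := F) (g := genusFF K F) (L := L))) =
      s27pfCl (s27dclPkg hld hgen hx G₀ hG₀)
          (s27pfTaut (K := K) (F := F) (g := genusFF K F) (L := L)) +
        s27bcBeta hld hgen (s26gspf_hall hx) (Pic0.mk D))
    (hρ₂ : (s27dclPkg hld hgen hx G₀ hG₀).actC ρ₂
        (s27pfCl (s27dclPkg hld hgen hx G₀ hG₀)
          (s27pfTaut (K := K) (F := F) (g := genusFF K F) (L := L))) =
      s27pfCl (s27dclPkg hld hgen hx G₀ hG₀)
          (s27pfTaut (K := K) (F := F) (g := genusFF K F) (L := L)) -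
        s27bcBeta hld hgen (s26gspf_hall hx) (Pic0.mk D))
    (y : ValuationSubring L → L)
    (hy : ∀ W : ValuationSubring L, S27IsKValU K W → S27icIdx hld hgen hx Ao W
      (s27pfCl (s27dclPkg hld hgen hx G₀ hG₀)
        (s27pfTaut (K := K) (F := F) (g := genusFF K F) (L := L))) (y W))
    {ι : Type x'} (X : ι → L) (N : ℕ) (hX : S17trBpf K y N X) :
    ∃ Φ : L, Φ ≠ 0 ∧ ∀ W : ValuationSubring L, S27IsKValU K W →
      ∃ (a : ι × ι) (b : ι × ι),
        (fun α : ι × ι => X α.1 * X α.2) a ≠ 0 ∧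
        (fun β : ι × ι => Φ ^ N * (ρ₁ (X β.1) * ρ₂ (X β.2))) b ≠ 0 ∧
        (∀ a', (fun α : ι × ι => X α.1 * X α.2) a' / (fun α : ι × ι => X α.1 * X α.2) a ∈ W) ∧
        (∀ b', (fun β : ι × ι => Φ ^ N * (ρ₁ (X β.1) * ρ₂ (X β.2))) b' /
          (fun β : ι × ι => Φ ^ N * (ρ₁ (X β.1) * ρ₂ (X β.2))) b ∈ W) ∧
        (fun β : ι × ι => Φ ^ N * (ρ₁ (X β.1) * ρ₂ (X β.2))) b /
          (fun α : ι × ι => X α.1 * X α.2) a ∈ W ∧
        (fun α : ι × ι => X α.1 * X α.2) a /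
          (fun β : ι × ι => Φ ^ N * (ρ₁ (X β.1) * ρ₂ (X β.2))) b ∈ W := by
  obtain ⟨Φ, hΦ, hY, hY', hS⟩ := s17tsg_inputs hld hgen hx G₀ hG₀ hg Ao hAo hAod O f₀ D hDm hDp
    ρ₁ ρ₂ hρ₁ hρ₂ y hy X N hX
  exact ⟨Φ, hΦ, fun W hW => s17tp_equiv hX hY hY' hS W hW⟩

end Stage

end Fermat.Agent.S17

end
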