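/-
S17 sprint, leaf [PlT] T5 (helper32): **the translation bound (T) on PLACE-VALUES, absolute heights**
— formal: T2 (product form, `S17/TranslProd.lean`) + A-ABS CERT (`s17hbpQ_place`,
`S17/HtAbsPl.lean`) + SEGRE (`s17sg_ht_val`, `S17/Segre.lean`).

`K = ℚ̄ ⊆ L`, `X : ι → L` the family of the height, `Y : κ → L`, `Y' : κ' → L` its two translates,
`y`, `y₁`, `y₂` local equations of the polar divisors `D`, `τ_g^* D`, `τ_{−g}^* D`, `Φ` the function
of the theorem of the square (`S17trSq`), all three families base-point-free (`S17trBpf`).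

* **`s17th_two_sided`** : `∃ C, ∀ ℚ̄-places P` and all charts,
      `|h[Y]_P + h[Y']_P − 2 · h[X]_P| ≤ C`        (`h = s17haAbsQ` of the place-value);
* **`s17th_hT`**        : `∃ C, ∀ P, h[Y]_P ≤ 2 · h[X]_P + C`   (`h ≥ 0`) — for `Y = ρ ∘ X` this is
                          the LITERAL hypothesis `hT` of `s17plm_transport` (S17/PlMGlue.lean) with
                          `a = 2`;
* `s17th_hT'`           : the same for the other translate `Y'`;
* `s17th_lower`         : `2 · h[X]_P ≤ h[Y]_P + h[Y']_P + C` (the lower half, for (M′)-type use);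
* **`s17th_transport`** : GLUE with `s17plm_transport`: for automorphisms `ρ`, `ρ'` of `L / ℚ̄` with
                          `ρ ∘ s`, `ρ' ∘ s` bpf for `y₁`, `y₂`, (sq), and `g + cl (P ∘ ρ) = cl P`:
                          `∃ c, ∀ p, ∃ p₁, g + cl p₁ = cl p ∧ H p₁ ≤ 2 * H p + c`,
                          `H = s17plmH s17haAbsQ s` — the literal body of `S17hxPlT` at `g`.
-/
import Fermat.Agent.S17.TranslProd
import Fermat.Agent.S17.HtAbsPl
import Fermat.Agent.S17.Segre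
import Fermat.Agent.S17.PlMGlue

set_option autoImplicit false
set_option linter.unusedVariables false
set_option linter.unusedSectionVars false

noncomputable section

namespace Fermat.Agent.S17

open Fermat.Agent.S27

section Ht

variable {L : Type*} [Field L] [Algebra (AlgebraicClosure ℚ) L]
variable {ι κ κ' : Type*} [Fintype ι] [Fintype κ] [Fintype κ']
variable {y y₁ y₂ : ValuationSubring L → L} {Φ : L} {N : ℕ}
  {X : ι → L} {Y : κ → L} {Y' : κ' → L}

/-- `Φ ^ N ≠ 0` (from the unit of the product tuple at the trivial valuation ring). -/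
theorem s17th_phi_ne (hY : S17trBpf (AlgebraicClosure ℚ) y₁ N Y)
    (hY' : S17trBpf (AlgebraicClosure ℚ) y₂ N Y')
    (hS : S17trSq (AlgebraicClosure ℚ) y y₁ y₂ Φ) : Φ ^ N ≠ 0 := by
  have hW : S27IsKValU (AlgebraicClosure ℚ) (⊤ : ValuationSubring L) := fun a => trivial
  obtain ⟨-, b, hb⟩ := s17tp_prod_bpf hY hY' hS ⊤ hW
  have h1 : Φ ^ N * (Y b.1 * Y' b.2) ≠ 0 := left_ne_zero_of_mul hb.1
  exact left_ne_zero_of_mul h1

/-- **(T) on place-values, two-sided**: `|h[Y]_P + h[Y']_P − 2 h[X]_P| ≤ C` uniformly in the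
place `P` and in the charts. -/
theorem s17th_two_sided (hX : S17trBpf (AlgebraicClosure ℚ) y N X)
    (hY : S17trBpf (AlgebraicClosure ℚ) y₁ N Y)
    (hY' : S17trBpf (AlgebraicClosure ℚ) y₂ N Y')
    (hS : S17trSq (AlgebraicClosure ℚ) y y₁ y₂ Φ) :
    ∃ C : ℝ, ∀ (P : S17plPlace (AlgebraicClosure ℚ) L) (α : ι) (hα : S17plIsMin P.W X α)
      (β : κ) (hβ : S17plIsMin P.W Y β) (β' : κ') (hβ' : S17plIsMin P.W Y' β'),
      |2 * s17haAbsQ (s17plVal P X α hα) -
        (s17haAbsQ (s17plVal P Y β hβ) + s17haAbsQ (s17plVal P Y' β' hβ'))| ≤ C := by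
  have hΦ : Φ ^ N ≠ 0 := s17th_phi_ne hY hY' hS
  obtain ⟨C, hC⟩ := s17hbpQ_place (s17sgProd X X)
    (fun b : κ × κ' => Φ ^ N * s17sgProd Y Y' b)
    (fun W hW => s17tp_equiv hX hY hY' hS W hW)
  refine ⟨C, fun P α hα β hβ β' hβ' => ?_⟩
  have hF : S17plIsMin P.W (s17sgProd X X) (α, α) := s17sg_isMin P.W X X α α hα hα
  have hG0 : S17plIsMin P.W (s17sgProd Y Y') (β, β') := s17sg_isMin P.W Y Y' β β' hβ hβ'
  have hG : S17plIsMin P.W (fun b : κ × κ' => Φ ^ N * s17sgProd Y Y' b) (β, β') :=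
    (s17pl_isMin_scale P.W (s17sgProd Y Y') (β, β') hΦ).2 hG0
  have h1 := hC P (α, α) hF (β, β') hG
  rw [s17pl_val_scale P (s17sgProd Y Y') (β, β') hΦ hG0 hG,
    s17sg_ht_val P X X α α hα hα (α, α) hF,
    s17sg_ht_val P Y Y' β β' hβ hβ' (β, β') hG0] at h1
  rw [two_mul]
  exact h1

/-- a base-point-free family is not `0`. -/
theorem s17th_ne_zero {σ : Type*} {z : ValuationSubring L → L} {Z : σ → L}
    (hZ : S17trBpf (AlgebraicClosure ℚ) z N Z) : Z ≠ 0 := by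
  have hW : S27IsKValU (AlgebraicClosure ℚ) (⊤ : ValuationSubring L) := fun a => trivial
  obtain ⟨-, i, hi⟩ := hZ ⊤ hW
  intro h0
  have : Z i ≠ 0 := left_ne_zero_of_mul hi.1
  exact this (by rw [h0]; rfl)

/-- **(T) on place-values**, `a = 2`: `h[Y]_P ≤ 2 · h[X]_P + C` for every place `P`, in all
charts. For `Y = ρ ∘ X` this is the hypothesis `hT` of `s17plm_transport`. -/
theorem s17th_hT (hX : S17trBpf (AlgebraicClosure ℚ) y N X)
    (hY : S17trBpf (AlgebraicClosure ℚ) y₁ N Y)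
    (hY' : S17trBpf (AlgebraicClosure ℚ) y₂ N Y')
    (hS : S17trSq (AlgebraicClosure ℚ) y y₁ y₂ Φ) :
    ∃ C : ℝ, ∀ (P : S17plPlace (AlgebraicClosure ℚ) L) (α : ι) (β : κ)
      (hα : S17plIsMin P.W X α) (hβ : S17plIsMin P.W Y β),
      s17haAbsQ (s17plVal P Y β hβ) ≤ 2 * s17haAbsQ (s17plVal P X α hα) + C := by
  obtain ⟨C, hC⟩ := s17th_two_sided hX hY hY' hS
  refine ⟨C, fun P α β hα hβ => ?_⟩
  obtain ⟨β', hβ'⟩ := s17pl_exists_min P.W (s17th_ne_zero hY')
  have h1 := hC P α hα β hβ β' hβ'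
  have h2 := (abs_le.1 h1).1
  have h3 : 0 ≤ s17haAbsQ (s17plVal P Y' β' hβ') := s17haAbsQ_nonneg _
  linarith

/-- the same for the other translate. -/
theorem s17th_hT' (hX : S17trBpf (AlgebraicClosure ℚ) y N X)
    (hY : S17trBpf (AlgebraicClosure ℚ) y₁ N Y)
    (hY' : S17trBpf (AlgebraicClosure ℚ) y₂ N Y')
    (hS : S17trSq (AlgebraicClosure ℚ) y y₁ y₂ Φ) :
    ∃ C : ℝ, ∀ (P : S17plPlace (AlgebraicClosure ℚ) L) (α : ι) (β' : κ')
      (hα : S17plIsMin P.W X α) (hβ' : S17plIsMin P.W Y' β'),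
      s17haAbsQ (s17plVal P Y' β' hβ') ≤ 2 * s17haAbsQ (s17plVal P X α hα) + C := by
  obtain ⟨C, hC⟩ := s17th_two_sided hX hY hY' hS
  refine ⟨C, fun P α β' hα hβ' => ?_⟩
  obtain ⟨β, hβ⟩ := s17pl_exists_min P.W (s17th_ne_zero hY)
  have h1 := hC P α hα β hβ β' hβ'
  have h2 := (abs_le.1 h1).1
  have h3 : 0 ≤ s17haAbsQ (s17plVal P Y β hβ) := s17haAbsQ_nonneg _
  linarith

/-- the lower half: `2 · h[X]_P ≤ h[Y]_P + h[Y']_P + C`. -/
theorem s17th_lower (hX : S17trBpf (AlgebraicClosure ℚ) y N X)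
    (hY : S17trBpf (AlgebraicClosure ℚ) y₁ N Y)
    (hY' : S17trBpf (AlgebraicClosure ℚ) y₂ N Y')
    (hS : S17trSq (AlgebraicClosure ℚ) y y₁ y₂ Φ) :
    ∃ C : ℝ, ∀ (P : S17plPlace (AlgebraicClosure ℚ) L) (α : ι) (hα : S17plIsMin P.W X α)
      (β : κ) (hβ : S17plIsMin P.W Y β) (β' : κ') (hβ' : S17plIsMin P.W Y' β'),
      2 * s17haAbsQ (s17plVal P X α hα) ≤
        s17haAbsQ (s17plVal P Y β hβ) + s17haAbsQ (s17plVal P Y' β' hβ') + C := by
  obtain ⟨C, hC⟩ := s17th_two_sided hX hY hY' hS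
  refine ⟨C, fun P α hα β hβ β' hβ' => ?_⟩
  have h1 := hC P α hα β hβ β' hβ'
  have h2 := (abs_le.1 h1).2
  linarith

/-- **[PlT] at `g`, GLUE**: the literal body of `S17hxPlT cl H` at the class `g`, for the height
`H = s17plmH s17haAbsQ s` of the place-values of `s`, from the product form of the square. -/
theorem s17th_transport {J : Type*} [AddCommGroup J] {s : ι → L}
    (ρ ρ' : L →ₐ[AlgebraicClosure ℚ] L)
    (hX : S17trBpf (AlgebraicClosure ℚ) y N s)
    (hY : S17trBpf (AlgebraicClosure ℚ) y₁ N (fun i => ρ (s i)))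
    (hY' : S17trBpf (AlgebraicClosure ℚ) y₂ N (fun i => ρ' (s i)))
    (hS : S17trSq (AlgebraicClosure ℚ) y y₁ y₂ Φ)
    (cl : S17plPlace (AlgebraicClosure ℚ) L → J) (g : J)
    (hcl : ∀ P : S17plPlace (AlgebraicClosure ℚ) L, g + cl (s17pxComap ρ P) = cl P) :
    ∃ c : ℝ, ∀ p : S17plPlace (AlgebraicClosure ℚ) L,
      ∃ p₁ : S17plPlace (AlgebraicClosure ℚ) L,
        g + cl p₁ = cl p ∧ s17plmH s17haAbsQ s p₁ ≤ 2 * s17plmH s17haAbsQ s p + c := by
  obtain ⟨C, hC⟩ := s17th_hT hX hY hY' hS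
  exact ⟨C, fun p => s17plm_transport ρ cl g hcl s17haAbsQ
    (fun c v hc => s17sg_absQ_scale c v hc) s (s17th_ne_zero hX) 2 C hC p⟩

end Ht

end Fermat.Agent.S17
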