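/-
S17 sprint, leaf [PlT] T2 + T5, **K-PLACE form** (helper32): the translation bound (T) on
place-values from base-point-freeness and the square AT THE `ℚ̄`-PLACES ONLY.

`S17/TranslProd.lean` + `S17/TranslHt.lean` ask (bpf) and (sq) at EVERY valuation subring `W ⊇ ℚ̄`
of `L`.  MOVING (hence bpf) is proved at the `ℚ̄`-rational places, where the centres are closed
points of the curve; by H1-K (`s17vk_upgrade_equiv`, S17/ValCritK.lean, helper36) that is enough: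

* `S17thkBpf y N X`      : (bpf) at the `ℚ̄`-places `P : S17plPlace ℚ̄ L`;
* `S17thkSq y y₁ y₂ Φ`   : (sq) at the `ℚ̄`-places;
* `s17thk_bpf_of`, `s17thk_sq_of` : the all-`W` forms (`S17trBpf`, `S17trSq`) imply them;
* `s17thk_sq_at`, `s17thk_prod_at`, `s17thk_equiv_at` : T2 at ONE valuation ring (pointwise);
* **`s17thk_equiv`**     : `(X i · X i')` and `(Φ ^ N · (Y j · Y' j'))` are valuatively equivalent at
                           ALL `W ⊇ ℚ̄` (the literal `hW` of `s17hbpQ_place`);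
* **`s17thk_two_sided`** : `∃ C, ∀ P` and all charts, `|2 h[X]_P − (h[Y]_P + h[Y']_P)| ≤ C`;
* **`s17thk_hT`**        : `∃ C, ∀ P, h[Y]_P ≤ 2 · h[X]_P + C` (= `hT` of `s17plm_transport`);
* **`s17thk_transport`** : the literal body of `S17hxPlT` / `S17t9PlTOn` at `g`.
-/
import Fermat.Agent.S17.TranslHt
import Fermat.Agent.S17.ValCritK

set_option autoImplicit false
set_option linter.unusedVariables false
set_option linter.unusedSectionVars false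

noncomputable section

namespace Fermat.Agent.S17

open Fermat.Agent.S27

/-! ### T2 at one valuation ring -/

section At

variable {𝔏 : Type*} [Field 𝔏] {ι κ κ' : Type*} {W : ValuationSubring 𝔏}
  {b b₁ b₂ Φ : 𝔏} {N : ℕ} {X : ι → 𝔏} {Y : κ → 𝔏} {Y' : κ' → 𝔏}

/-- the product identity at one ring (constants `b`, `b₁`, `b₂`). -/
theorem s17thk_key {u : 𝔏} (hu : u ≠ 0) (hsq : b₁ * b₂ = u * Φ * b ^ 2) (N : ℕ) (a a' : 𝔏) :
    Φ ^ N * (a * a') * b ^ (2 * N) = (a * b₁ ^ N) * (a' * b₂ ^ N) * (u ^ N)⁻¹ := by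
  have hu0 : u ^ N ≠ 0 := pow_ne_zero N hu
  have h2 : (b₁ * b₂) ^ N = (u * Φ * b ^ 2) ^ N := by rw [hsq]
  rw [mul_pow, mul_pow, mul_pow] at h2
  have h3 : (a * b₁ ^ N) * (a' * b₂ ^ N) * (u ^ N)⁻¹ =
      a * a' * (b₁ ^ N * b₂ ^ N) * (u ^ N)⁻¹ := by ring
  rw [h3, h2]
  have h4 : a * a' * (u ^ N * Φ ^ N * (b ^ 2) ^ N) * (u ^ N)⁻¹ =
      Φ ^ N * (a * a') * (b ^ 2) ^ N * (u ^ N * (u ^ N)⁻¹) := by ring
  rw [h4, mul_inv_cancel₀ hu0, mul_one, ← pow_mul]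

/-- the squares are bpf for `2 N · D` at `W`. -/
theorem s17thk_sq_at
    (hX : (∀ i, X i * b ^ N ∈ W) ∧ ∃ i, S27IsUnitIn W (X i * b ^ N)) :
    (∀ α : ι × ι, X α.1 * X α.2 * b ^ (2 * N) ∈ W) ∧
      ∃ α : ι × ι, S27IsUnitIn W (X α.1 * X α.2 * b ^ (2 * N)) := by
  obtain ⟨hmem, i₀, hi₀⟩ := hX
  have key : ∀ α : ι × ι, X α.1 * X α.2 * b ^ (2 * N) =
      (X α.1 * b ^ N) * (X α.2 * b ^ N) := by
    intro α
    rw [two_mul, pow_add]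
    ring
  refine ⟨fun α => ?_, (i₀, i₀), ?_⟩
  · rw [key α]
    exact W.mul_mem _ _ (hmem α.1) (hmem α.2)
  · rw [key (i₀, i₀)]
    exact s17tr_unit_mul hi₀ hi₀

/-- the products of the two translates are bpf for `2 N · D` at `W`. -/
theorem s17thk_prod_at
    (hY : (∀ j, Y j * b₁ ^ N ∈ W) ∧ ∃ j, S27IsUnitIn W (Y j * b₁ ^ N))
    (hY' : (∀ j, Y' j * b₂ ^ N ∈ W) ∧ ∃ j, S27IsUnitIn W (Y' j * b₂ ^ N))
    (hS : ∃ u : 𝔏, S27IsUnitIn W u ∧ b₁ * b₂ = u * Φ * b ^ 2) :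
    (∀ β : κ × κ', Φ ^ N * (Y β.1 * Y' β.2) * b ^ (2 * N) ∈ W) ∧
      ∃ β : κ × κ', S27IsUnitIn W (Φ ^ N * (Y β.1 * Y' β.2) * b ^ (2 * N)) := by
  obtain ⟨u, hu, hsq⟩ := hS
  obtain ⟨h1, j, hj⟩ := hY
  obtain ⟨h2, j', hj'⟩ := hY'
  have hun : S27IsUnitIn W (u ^ N)⁻¹ := s17tp_unit_inv (s17tr_unit_pow hu N)
  refine ⟨fun β => ?_, (j, j'), ?_⟩
  · rw [s17thk_key hu.1 hsq N (Y β.1) (Y' β.2)]
    exact W.mul_mem _ _ (W.mul_mem _ _ (h1 β.1) (h2 β.2)) hun.2.1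
  · rw [s17thk_key hu.1 hsq N (Y j) (Y' j')]
    exact s17tr_unit_mul (s17tr_unit_mul hj hj') hun

/-- two families which are bpf for the same `c` at `W` are valuatively equivalent at `W`. -/
theorem s17thk_equiv_of_at {α : Type*} {β : Type*} {c : 𝔏} {F : α → 𝔏} {G : β → 𝔏}
    (hF : (∀ a, F a * c ∈ W) ∧ ∃ a, S27IsUnitIn W (F a * c))
    (hG : (∀ a, G a * c ∈ W) ∧ ∃ a, S27IsUnitIn W (G a * c)) :
    ∃ a b', F a ≠ 0 ∧ G b' ≠ 0 ∧ (∀ a', F a' / F a ∈ W) ∧ (∀ b'', G b'' / G b' ∈ W) ∧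
      G b' / F a ∈ W ∧ F a / G b' ∈ W := by
  obtain ⟨hFm, a, ha⟩ := hF
  obtain ⟨hGm, b', hb⟩ := hG
  have hFa : F a ≠ 0 := left_ne_zero_of_mul ha.1
  have hGb : G b' ≠ 0 := left_ne_zero_of_mul hb.1
  have hc : c ≠ 0 := right_ne_zero_of_mul ha.1
  refine ⟨a, b', hFa, hGb, fun a' => ?_, fun b'' => ?_, ?_, ?_⟩
  · rw [s17tr_div_eq (F a') hFa hc]
    exact W.mul_mem _ _ (hFm a') ha.2.2
  · rw [s17tr_div_eq (G b'') hGb hc]
    exact W.mul_mem _ _ (hGm b'') hb.2.2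
  · rw [s17tr_div_eq (G b') hFa hc]
    exact W.mul_mem _ _ (hGm b') ha.2.2
  · rw [s17tr_div_eq (F a) hGb hc]
    exact W.mul_mem _ _ (hFm a) hb.2.2

/-- **T2 at one valuation ring**: the squares of `X` and the products of the two translates are
valuatively equivalent at `W`. -/
theorem s17thk_equiv_at
    (hX : (∀ i, X i * b ^ N ∈ W) ∧ ∃ i, S27IsUnitIn W (X i * b ^ N))
    (hY : (∀ j, Y j * b₁ ^ N ∈ W) ∧ ∃ j, S27IsUnitIn W (Y j * b₁ ^ N))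
    (hY' : (∀ j, Y' j * b₂ ^ N ∈ W) ∧ ∃ j, S27IsUnitIn W (Y' j * b₂ ^ N))
    (hS : ∃ u : 𝔏, S27IsUnitIn W u ∧ b₁ * b₂ = u * Φ * b ^ 2) :
    ∃ (a : ι × ι) (b' : κ × κ'),
      s17sgProd X X a ≠ 0 ∧ (fun β : κ × κ' => Φ ^ N * s17sgProd Y Y' β) b' ≠ 0 ∧
      (∀ a', s17sgProd X X a' / s17sgProd X X a ∈ W) ∧
      (∀ b'', (fun β : κ × κ' => Φ ^ N * s17sgProd Y Y' β) b'' /
        (fun β : κ × κ' => Φ ^ N * s17sgProd Y Y' β) b' ∈ W) ∧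
      (fun β : κ × κ' => Φ ^ N * s17sgProd Y Y' β) b' / s17sgProd X X a ∈ W ∧
      s17sgProd X X a / (fun β : κ × κ' => Φ ^ N * s17sgProd Y Y' β) b' ∈ W :=
  s17thk_equiv_of_at (c := b ^ (2 * N)) (s17thk_sq_at hX) (s17thk_prod_at hY hY' hS)

end At

/-! ### (T) from the `ℚ̄`-places -/

section Ht

variable {L : Type*} [Field L] [Algebra (AlgebraicClosure ℚ) L]
variable {ι κ κ' : Type*} [Fintype ι] [Fintype κ] [Fintype κ']
variable {y y₁ y₂ : ValuationSubring L → L} {Φ : L} {N : ℕ}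
  {X : ι → L} {Y : κ → L} {Y' : κ' → L}

/-- (bpf) at the `ℚ̄`-places only. -/
def S17thkBpf {σ : Type*} (y : ValuationSubring L → L) (N : ℕ) (X : σ → L) : Prop :=
  ∀ P : S17plPlace (AlgebraicClosure ℚ) L,
    (∀ i, X i * y P.W ^ N ∈ P.W) ∧ ∃ i, S27IsUnitIn P.W (X i * y P.W ^ N)

/-- (sq) at the `ℚ̄`-places only. -/
def S17thkSq (y y₁ y₂ : ValuationSubring L → L) (Φ : L) : Prop :=
  ∀ P : S17plPlace (AlgebraicClosure ℚ) L,
    ∃ u : L, S27IsUnitIn P.W u ∧ y₁ P.W * y₂ P.W = u * Φ * y P.W ^ 2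

theorem s17thk_bpf_of {σ : Type*} {z : ValuationSubring L → L} {Z : σ → L}
    (h : S17trBpf (AlgebraicClosure ℚ) z N Z) : S17thkBpf z N Z :=
  fun P => h P.W P.hKW

theorem s17thk_sq_of (h : S17trSq (AlgebraicClosure ℚ) y y₁ y₂ Φ) : S17thkSq y y₁ y₂ Φ :=
  fun P => h P.W P.hKW

/-- a family which is bpf at the `ℚ̄`-places is not `0`. -/
theorem s17thk_ne_zero {σ : Type*} {z : ValuationSubring L → L} {Z : σ → L}
    (hZ : S17thkBpf z N Z) : Z ≠ 0 := by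
  obtain ⟨W₀, hKW₀, res₀, hres₀, -⟩ :=
    s17pk_exists_place (K := AlgebraicClosure ℚ) (L := L)
  obtain ⟨-, i, hi⟩ := hZ ⟨W₀, hKW₀, res₀, hres₀⟩
  intro h0
  have : Z i ≠ 0 := left_ne_zero_of_mul hi.1
  exact this (by rw [h0]; rfl)

/-- `Φ ^ N ≠ 0`. -/
theorem s17thk_phi_ne (hY : S17thkBpf y₁ N Y) (hY' : S17thkBpf y₂ N Y')
    (hS : S17thkSq y y₁ y₂ Φ) : Φ ^ N ≠ 0 := by
  obtain ⟨W₀, hKW₀, res₀, hres₀, -⟩ :=
    s17pk_exists_place (K := AlgebraicClosure ℚ) (L := L)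
  obtain ⟨-, b', hb⟩ := s17thk_prod_at (hY ⟨W₀, hKW₀, res₀, hres₀⟩)
    (hY' ⟨W₀, hKW₀, res₀, hres₀⟩) (hS ⟨W₀, hKW₀, res₀, hres₀⟩)
  have h1 : Φ ^ N * (Y b'.1 * Y' b'.2) ≠ 0 := left_ne_zero_of_mul hb.1
  exact left_ne_zero_of_mul h1

/-- **T2 from the `ℚ̄`-places**: valuative equivalence at ALL valuation subrings `W ⊇ ℚ̄`
(the literal hypothesis `hW` of `s17hbpQ_place`). -/
theorem s17thk_equiv (hX : S17thkBpf y N X) (hY : S17thkBpf y₁ N Y)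
    (hY' : S17thkBpf y₂ N Y') (hS : S17thkSq y y₁ y₂ Φ) :
    ∀ W : ValuationSubring L, (∀ c : AlgebraicClosure ℚ, algebraMap _ L c ∈ W) →
      ∃ (a : ι × ι) (b' : κ × κ'),
        s17sgProd X X a ≠ 0 ∧ (fun β : κ × κ' => Φ ^ N * s17sgProd Y Y' β) b' ≠ 0 ∧
        (∀ a', s17sgProd X X a' / s17sgProd X X a ∈ W) ∧
        (∀ b'', (fun β : κ × κ' => Φ ^ N * s17sgProd Y Y' β) b'' /
          (fun β : κ × κ' => Φ ^ N * s17sgProd Y Y' β) b' ∈ W) ∧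
        (fun β : κ × κ' => Φ ^ N * s17sgProd Y Y' β) b' / s17sgProd X X a ∈ W ∧
        s17sgProd X X a / (fun β : κ × κ' => Φ ^ N * s17sgProd Y Y' β) b' ∈ W :=
  fun W hW => s17vk_upgrade_equiv (K := AlgebraicClosure ℚ) (s17sgProd X X)
    (fun β : κ × κ' => Φ ^ N * s17sgProd Y Y' β)
    (fun P => s17thk_equiv_at (hX P) (hY P) (hY' P) (hS P)) W hW

/-- **(T) on place-values, two-sided, from the `ℚ̄`-places.** -/
theorem s17thk_two_sided (hX : S17thkBpf y N X) (hY : S17thkBpf y₁ N Y)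
    (hY' : S17thkBpf y₂ N Y') (hS : S17thkSq y y₁ y₂ Φ) :
    ∃ C : ℝ, ∀ (P : S17plPlace (AlgebraicClosure ℚ) L) (α : ι) (hα : S17plIsMin P.W X α)
      (β : κ) (hβ : S17plIsMin P.W Y β) (β' : κ') (hβ' : S17plIsMin P.W Y' β'),
      |2 * s17haAbsQ (s17plVal P X α hα) -
        (s17haAbsQ (s17plVal P Y β hβ) + s17haAbsQ (s17plVal P Y' β' hβ'))| ≤ C := by
  have hΦ : Φ ^ N ≠ 0 := s17thk_phi_ne hY hY' hS
  obtain ⟨C, hC⟩ := s17hbpQ_place (s17sgProd X X)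
    (fun b : κ × κ' => Φ ^ N * s17sgProd Y Y' b) (s17thk_equiv hX hY hY' hS)
  refine ⟨C, fun P α hα β hβ β' hβ' => ?_⟩
  have hF : S17plIsMin P.W (s17sgProd X X) (α, α) := s17sg_isMin P.W X X α α hα hα
  have hG0 : S17plIsMin P.W (s17sgProd Y Y') (β, β') := s17sg_isMin P.W Y Y' β β' hβ hβ'
  have hG : S17plIsMin P.W (fun b : κ × κ' => Φ ^ N * s17sgProd Y Y' b) (β, β') :=
    (s17pl_isMin_scale P.W (s17sgProd Y Y') (β, β') hΦ).2 hG0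
  have h1 := hC P (α, α) hF (β, β') hG
  rw [s17pl_val_scale P (s17sgProd Y Y') (β, β') hΦ hG0 hG,
    s17sg_ht_val P X X α α hα hα (α, α) hF,
    s17sg_ht_val P Y Y' β β' hβ hβ' (β, β') hG0] at h1
  rw [two_mul]
  exact h1

/-- **(T) on place-values**, `a = 2`, from the `ℚ̄`-places. -/
theorem s17thk_hT (hX : S17thkBpf y N X) (hY : S17thkBpf y₁ N Y)
    (hY' : S17thkBpf y₂ N Y') (hS : S17thkSq y y₁ y₂ Φ) :
    ∃ C : ℝ, ∀ (P : S17plPlace (AlgebraicClosure ℚ) L) (α : ι) (β : κ)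
      (hα : S17plIsMin P.W X α) (hβ : S17plIsMin P.W Y β),
      s17haAbsQ (s17plVal P Y β hβ) ≤ 2 * s17haAbsQ (s17plVal P X α hα) + C := by
  obtain ⟨C, hC⟩ := s17thk_two_sided hX hY hY' hS
  refine ⟨C, fun P α β hα hβ => ?_⟩
  obtain ⟨β', hβ'⟩ := s17pl_exists_min P.W (s17thk_ne_zero hY')
  have h1 := hC P α hα β hβ β' hβ'
  have h2 := (abs_le.1 h1).1
  have h3 : 0 ≤ s17haAbsQ (s17plVal P Y' β' hβ') := s17haAbsQ_nonneg _
  linarith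

/-- **[PlT] at `g`, from the `ℚ̄`-places**: the literal body of `S17hxPlT cl H` at `g`. -/
theorem s17thk_transport {J : Type*} [AddCommGroup J] {s : ι → L}
    (ρ ρ' : L →ₐ[AlgebraicClosure ℚ] L)
    (hX : S17thkBpf y N s)
    (hY : S17thkBpf y₁ N (fun i => ρ (s i)))
    (hY' : S17thkBpf y₂ N (fun i => ρ' (s i)))
    (hS : S17thkSq y y₁ y₂ Φ)
    (cl : S17plPlace (AlgebraicClosure ℚ) L → J) (g : J)
    (hcl : ∀ P : S17plPlace (AlgebraicClosure ℚ) L, g + cl (s17pxComap ρ P) = cl P) :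
    ∃ c : ℝ, ∀ p : S17plPlace (AlgebraicClosure ℚ) L,
      ∃ p₁ : S17plPlace (AlgebraicClosure ℚ) L,
        g + cl p₁ = cl p ∧ s17plmH s17haAbsQ s p₁ ≤ 2 * s17plmH s17haAbsQ s p + c := by
  obtain ⟨C, hC⟩ := s17thk_hT hX hY hY' hS
  exact ⟨C, fun p => s17plm_transport ρ cl g hcl s17haAbsQ
    (fun c v hc => s17sg_absQ_scale c v hc) s (s17thk_ne_zero hX) 2 C hC p⟩

end Ht

end Fermat.Agent.S17
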