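/-
S17 sprint, sub-integration **[PlT]**, leaves **T3-K + T7-K** (helper32): the translation bound (T)
ON THE STAGE of S27-B over `K = ℚ̄`, from base-point-freeness at the `ℚ̄`-PLACES ONLY.

Twin of helper18's `S17/TranslStage.lean` (`s17tsg_inputs`), whose hypothesis `S17trBpf K y N X`
asks (bpf) at every valuation subring `W ⊇ K`.  MOVING gives (bpf) at the `ℚ̄`-rational places;
`S17/TranslHtK.lean` needs nothing more.

* `s17tsk_bpf`        : transport of `S17thkBpf` along an automorphism `h` of `L / ℚ̄`: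
                        `S17thkBpf y N X → S17thkBpf (s17tnEq h y) N (h ∘ X)`;
* **`s17tsk_inputs`** : for a constant class `β [D]` with `L_K(Ao ∓ D) = 0` and automorphisms
                        `ρ₁`, `ρ₂` with `actC ρ₁ η = η + β [D]`, `actC ρ₂ η = η − β [D]`:
                        `∃ Φ ≠ 0`, `ρ₁ ∘ X`, `ρ₂ ∘ X` are bpf at the places w.r.t. the transported
                        local equations, and (sq) holds (the hypotheses of `s17thk_two_sided`);
* **`s17tsk_two_sided`** : `∃ C, ∀ P`, `|2 h[X]_P − (h[ρ₁ X]_P + h[ρ₂ X]_P)| ≤ C`;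
* **`s17tsk_plT_at`** : the literal body of `S17hxPlT` / `S17t9PlTOn` at `g`:
                        `∃ c, ∀ p, ∃ p₁, g + cl p₁ = cl p ∧ H p₁ ≤ 2 * H p + c`,
                        `H = s17plmH s17haAbsQ s`, given `g + cl (P ∘ ρ₁) = cl P` (A-PTb).
-/
import Fermat.Agent.S17.TranslStage
import Fermat.Agent.S17.TranslHtK

set_option autoImplicit false
set_option linter.style.haveILetI false
set_option linter.unusedSectionVars false
set_option linter.unusedVariables false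

noncomputable section

namespace Fermat.Agent.S17

open AlgebraicCurve Module TensorProduct IntermediateField Fermat.Agent.S26 Fermat.Agent.S27

universe v y x'

/-! ### transport of (bpf) at the places -/

section Formal

variable {L : Type*} [Field L] [Algebra (AlgebraicClosure ℚ) L]

/-- **transport of a family which is base-point-free at the `ℚ̄`-places.** -/
theorem s17tsk_bpf {ι : Type*} (h : L ≃ₐ[AlgebraicClosure ℚ] L) {y : ValuationSubring L → L}
    {N : ℕ} {X : ι → L} (hX : S17thkBpf y N X) :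
    S17thkBpf (s17tnEq h y) N (fun i => h (X i)) := by
  intro P
  obtain ⟨hmem, i₀, hi₀⟩ :=
    hX (s17pxComap ((h : L ≃ₐ[AlgebraicClosure ℚ] L) : L →ₐ[AlgebraicClosure ℚ] L) P)
  have key : ∀ i, h (X i) * s17tnEq h y P.W ^ N =
      (((h : L ≃ₐ[AlgebraicClosure ℚ] L) : L →ₐ[AlgebraicClosure ℚ] L) : L →+* L)
        (X i * y (P.W.comap
          (((h : L ≃ₐ[AlgebraicClosure ℚ] L) : L →ₐ[AlgebraicClosure ℚ] L) : L →+* L)) ^ N) := by
    intro i
    rw [map_mul, map_pow]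
    rfl
  refine ⟨fun i => ?_, i₀, ?_⟩
  · rw [key i]
    exact hmem i
  · rw [key i₀]
    exact (s27nat_unit_iff
      (((h : L ≃ₐ[AlgebraicClosure ℚ] L) : L →ₐ[AlgebraicClosure ℚ] L) : L →+* L) P.W _).1 hi₀

end Formal

/-! ### the stage over `ℚ̄` -/

section Stage

variable {F : Type v} [Field F] [Algebra (AlgebraicClosure ℚ) F]
  [IsCurveOver (AlgebraicClosure ℚ) F] [Algebra.EssFiniteType (AlgebraicClosure ℚ) F]
  {L : Type v} [Field L] [Algebra (AlgebraicClosure ℚ) L]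
  [Algebra (s27gfOm (AlgebraicClosure ℚ) F (genusFF (AlgebraicClosure ℚ) F)) L]
  [IsScalarTower (AlgebraicClosure ℚ)
    (s27gfOm (AlgebraicClosure ℚ) F (genusFF (AlgebraicClosure ℚ) F)) L]
  [IsAlgClosed L]
  [Algebra.IsAlgebraic (s27gfOm (AlgebraicClosure ℚ) F (genusFF (AlgebraicClosure ℚ) F)) L]
  {FL : Type y} [Field FL] [Algebra (AlgebraicClosure ℚ) FL] [Algebra F FL] [Algebra L FL]
  [IsScalarTower (AlgebraicClosure ℚ) F FL] [IsScalarTower (AlgebraicClosure ℚ) L FL]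
  (hld : Function.Injective (s26gspMu (AlgebraicClosure ℚ) F L FL))
  (hgen : S26gspGen (AlgebraicClosure ℚ) F L FL)
  {x : F} (hx : Transcendental (AlgebraicClosure ℚ) x)
  [FiniteDimensional ↥(IntermediateField.adjoin (AlgebraicClosure ℚ) {x}) F]
  [Algebra.IsSeparable ↥(IntermediateField.adjoin (AlgebraicClosure ℚ) {x}) F]
  [IsGalois (s27gfSym (AlgebraicClosure ℚ) F (genusFF (AlgebraicClosure ℚ) F)) L]
  (G₀ : Divisor (AlgebraicClosure ℚ) F)
  (hG₀ : Divisor.degree G₀ = (genusFF (AlgebraicClosure ℚ) F : ℤ))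

/-- **T3-K, inputs**: the hypotheses of the `ℚ̄`-place form of (T) on the stage. -/
theorem s17tsk_inputs (hg : 0 < genusFF (AlgebraicClosure ℚ) F)
    (Ao : Divisor (AlgebraicClosure ℚ) F) (hAo : riemannRochSpace Ao = ⊥)
    (hAod : Divisor.degree Ao = (genusFF (AlgebraicClosure ℚ) F : ℤ) - 1)
    (O : Place (AlgebraicClosure ℚ) F)
    (f₀ : Module.Basis (Fin (genusFF (AlgebraicClosure ℚ) F)) (AlgebraicClosure ℚ)
      ↥(riemannRochSpace (G₀ + Ao)))
    (D : Divisor.degZero (K := AlgebraicClosure ℚ) (F := F))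
    (hDm : riemannRochSpace (Ao - (D : Divisor (AlgebraicClosure ℚ) F)) = ⊥)
    (hDp : riemannRochSpace (Ao + (D : Divisor (AlgebraicClosure ℚ) F)) = ⊥)
    (ρ₁ ρ₂ : L ≃ₐ[AlgebraicClosure ℚ] L)
    (hρ₁ : (s27dclPkg hld hgen hx G₀ hG₀).actC ρ₁
        (s27pfCl (s27dclPkg hld hgen hx G₀ hG₀)
          (s27pfTaut (K := AlgebraicClosure ℚ) (F := F)
            (g := genusFF (AlgebraicClosure ℚ) F) (L := L))) =
      s27pfCl (s27dclPkg hld hgen hx G₀ hG₀)
          (s27pfTaut (K := AlgebraicClosure ℚ) (F := F)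
            (g := genusFF (AlgebraicClosure ℚ) F) (L := L)) +
        s27bcBeta hld hgen (s26gspf_hall hx) (Pic0.mk D))
    (hρ₂ : (s27dclPkg hld hgen hx G₀ hG₀).actC ρ₂
        (s27pfCl (s27dclPkg hld hgen hx G₀ hG₀)
          (s27pfTaut (K := AlgebraicClosure ℚ) (F := F)
            (g := genusFF (AlgebraicClosure ℚ) F) (L := L))) =
      s27pfCl (s27dclPkg hld hgen hx G₀ hG₀)
          (s27pfTaut (K := AlgebraicClosure ℚ) (F := F)
            (g := genusFF (AlgebraicClosure ℚ) F) (L := L)) -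
        s27bcBeta hld hgen (s26gspf_hall hx) (Pic0.mk D))
    (y : ValuationSubring L → L)
    (hy : ∀ W : ValuationSubring L, S27IsKValU (AlgebraicClosure ℚ) W →
      S27icIdx hld hgen hx Ao W
        (s27pfCl (s27dclPkg hld hgen hx G₀ hG₀)
          (s27pfTaut (K := AlgebraicClosure ℚ) (F := F)
            (g := genusFF (AlgebraicClosure ℚ) F) (L := L))) (y W))
    {ι : Type x'} (X : ι → L) (N : ℕ) (hX : S17thkBpf y N X) :
    ∃ Φ : L, Φ ≠ 0 ∧
      S17thkBpf (s17tnEq ρ₁ y) N (fun i => ρ₁ (X i)) ∧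
      S17thkBpf (s17tnEq ρ₂ y) N (fun i => ρ₂ (X i)) ∧
      S17thkSq y (s17tnEq ρ₁ y) (s17tnEq ρ₂ y) Φ := by
  obtain ⟨Φ, hΦ, hsq⟩ := s17ssq_sq hld hgen hx G₀ hG₀ hg Ao hAo hAod O f₀ D hDm hDp
  refine ⟨Φ, hΦ, s17tsk_bpf ρ₁ hX, s17tsk_bpf ρ₂ hX, ?_⟩
  exact s17thk_sq_of (hsq y (s17tnEq ρ₁ y) (s17tnEq ρ₂ y) hy
    (fun W hW => s17tn_eq_pkg hld hgen hx G₀ hG₀ ρ₁ Ao _ _ hρ₁ y hy W hW)
    (fun W hW => s17tn_eq_pkg hld hgen hx G₀ hG₀ ρ₂ Ao _ _ hρ₂ y hy W hW))

/-- **T5-K on the stage**: the two-sided translation bound on place-values. -/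
theorem s17tsk_two_sided (hg : 0 < genusFF (AlgebraicClosure ℚ) F)
    (Ao : Divisor (AlgebraicClosure ℚ) F) (hAo : riemannRochSpace Ao = ⊥)
    (hAod : Divisor.degree Ao = (genusFF (AlgebraicClosure ℚ) F : ℤ) - 1)
    (O : Place (AlgebraicClosure ℚ) F)
    (f₀ : Module.Basis (Fin (genusFF (AlgebraicClosure ℚ) F)) (AlgebraicClosure ℚ)
      ↥(riemannRochSpace (G₀ + Ao)))
    (D : Divisor.degZero (K := AlgebraicClosure ℚ) (F := F))
    (hDm : riemannRochSpace (Ao - (D : Divisor (AlgebraicClosure ℚ) F)) = ⊥)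
    (hDp : riemannRochSpace (Ao + (D : Divisor (AlgebraicClosure ℚ) F)) = ⊥)
    (ρ₁ ρ₂ : L ≃ₐ[AlgebraicClosure ℚ] L)
    (hρ₁ : (s27dclPkg hld hgen hx G₀ hG₀).actC ρ₁
        (s27pfCl (s27dclPkg hld hgen hx G₀ hG₀)
          (s27pfTaut (K := AlgebraicClosure ℚ) (F := F)
            (g := genusFF (AlgebraicClosure ℚ) F) (L := L))) =
      s27pfCl (s27dclPkg hld hgen hx G₀ hG₀)
          (s27pfTaut (K := AlgebraicClosure ℚ) (F := F)
            (g := genusFF (AlgebraicClosure ℚ) F) (L := L)) +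
        s27bcBeta hld hgen (s26gspf_hall hx) (Pic0.mk D))
    (hρ₂ : (s27dclPkg hld hgen hx G₀ hG₀).actC ρ₂
        (s27pfCl (s27dclPkg hld hgen hx G₀ hG₀)
          (s27pfTaut (K := AlgebraicClosure ℚ) (F := F)
            (g := genusFF (AlgebraicClosure ℚ) F) (L := L))) =
      s27pfCl (s27dclPkg hld hgen hx G₀ hG₀)
          (s27pfTaut (K := AlgebraicClosure ℚ) (F := F)
            (g := genusFF (AlgebraicClosure ℚ) F) (L := L)) -
        s27bcBeta hld hgen (s26gspf_hall hx) (Pic0.mk D))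
    (y : ValuationSubring L → L)
    (hy : ∀ W : ValuationSubring L, S27IsKValU (AlgebraicClosure ℚ) W →
      S27icIdx hld hgen hx Ao W
        (s27pfCl (s27dclPkg hld hgen hx G₀ hG₀)
          (s27pfTaut (K := AlgebraicClosure ℚ) (F := F)
            (g := genusFF (AlgebraicClosure ℚ) F) (L := L))) (y W))
    {ι : Type x'} [Fintype ι] (X : ι → L) (N : ℕ) (hX : S17thkBpf y N X) :
    ∃ C : ℝ, ∀ (P : S17plPlace (AlgebraicClosure ℚ) L) (α : ι) (hα : S17plIsMin P.W X α)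
      (β : ι) (hβ : S17plIsMin P.W (fun i => ρ₁ (X i)) β)
      (β' : ι) (hβ' : S17plIsMin P.W (fun i => ρ₂ (X i)) β'),
      |2 * s17haAbsQ (s17plVal P X α hα) -
        (s17haAbsQ (s17plVal P (fun i => ρ₁ (X i)) β hβ) +
          s17haAbsQ (s17plVal P (fun i => ρ₂ (X i)) β' hβ'))| ≤ C := by
  obtain ⟨Φ, hΦ, hY, hY', hS⟩ := s17tsk_inputs hld hgen hx G₀ hG₀ hg Ao hAo hAod O f₀ D hDm hDp
    ρ₁ ρ₂ hρ₁ hρ₂ y hy X N hX
  exact s17thk_two_sided hX hY hY' hS

/-- **T7-K, [PlT] at `g`** on the stage: the literal body of `S17hxPlT` / `S17t9PlTOn` at the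
class `g`, once the centre map satisfies `g + cl (P ∘ ρ₁) = cl P` (A-PTb). -/
theorem s17tsk_plT_at (hg : 0 < genusFF (AlgebraicClosure ℚ) F)
    (Ao : Divisor (AlgebraicClosure ℚ) F) (hAo : riemannRochSpace Ao = ⊥)
    (hAod : Divisor.degree Ao = (genusFF (AlgebraicClosure ℚ) F : ℤ) - 1)
    (O : Place (AlgebraicClosure ℚ) F)
    (f₀ : Module.Basis (Fin (genusFF (AlgebraicClosure ℚ) F)) (AlgebraicClosure ℚ)
      ↥(riemannRochSpace (G₀ + Ao)))
    (D : Divisor.degZero (K := AlgebraicClosure ℚ) (F := F))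
    (hDm : riemannRochSpace (Ao - (D : Divisor (AlgebraicClosure ℚ) F)) = ⊥)
    (hDp : riemannRochSpace (Ao + (D : Divisor (AlgebraicClosure ℚ) F)) = ⊥)
    (ρ₁ ρ₂ : L ≃ₐ[AlgebraicClosure ℚ] L)
    (hρ₁ : (s27dclPkg hld hgen hx G₀ hG₀).actC ρ₁
        (s27pfCl (s27dclPkg hld hgen hx G₀ hG₀)
          (s27pfTaut (K := AlgebraicClosure ℚ) (F := F)
            (g := genusFF (AlgebraicClosure ℚ) F) (L := L))) =
      s27pfCl (s27dclPkg hld hgen hx G₀ hG₀)
          (s27pfTaut (K := AlgebraicClosure ℚ) (F := F)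
            (g := genusFF (AlgebraicClosure ℚ) F) (L := L)) +
        s27bcBeta hld hgen (s26gspf_hall hx) (Pic0.mk D))
    (hρ₂ : (s27dclPkg hld hgen hx G₀ hG₀).actC ρ₂
        (s27pfCl (s27dclPkg hld hgen hx G₀ hG₀)
          (s27pfTaut (K := AlgebraicClosure ℚ) (F := F)
            (g := genusFF (AlgebraicClosure ℚ) F) (L := L))) =
      s27pfCl (s27dclPkg hld hgen hx G₀ hG₀)
          (s27pfTaut (K := AlgebraicClosure ℚ) (F := F)
            (g := genusFF (AlgebraicClosure ℚ) F) (L := L)) -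
        s27bcBeta hld hgen (s26gspf_hall hx) (Pic0.mk D))
    (y : ValuationSubring L → L)
    (hy : ∀ W : ValuationSubring L, S27IsKValU (AlgebraicClosure ℚ) W →
      S27icIdx hld hgen hx Ao W
        (s27pfCl (s27dclPkg hld hgen hx G₀ hG₀)
          (s27pfTaut (K := AlgebraicClosure ℚ) (F := F)
            (g := genusFF (AlgebraicClosure ℚ) F) (L := L))) (y W))
    {ι : Type x'} [Fintype ι] (s : ι → L) (N : ℕ) (hX : S17thkBpf y N s)
    {J : Type*} [AddCommGroup J] (cl : S17plPlace (AlgebraicClosure ℚ) L → J) (g : J)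
    (hcl : ∀ P : S17plPlace (AlgebraicClosure ℚ) L,
      g + cl (s17pxComap ((ρ₁ : L ≃ₐ[AlgebraicClosure ℚ] L) : L →ₐ[AlgebraicClosure ℚ] L) P)
        = cl P) :
    ∃ c : ℝ, ∀ p : S17plPlace (AlgebraicClosure ℚ) L,
      ∃ p₁ : S17plPlace (AlgebraicClosure ℚ) L,
        g + cl p₁ = cl p ∧ s17plmH s17haAbsQ s p₁ ≤ 2 * s17plmH s17haAbsQ s p + c := by
  obtain ⟨Φ, hΦ, hY, hY', hS⟩ := s17tsk_inputs hld hgen hx G₀ hG₀ hg Ao hAo hAod O f₀ D hDm hDp
    ρ₁ ρ₂ hρ₁ hρ₂ y hy s N hX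
  exact s17thk_transport ((ρ₁ : L ≃ₐ[AlgebraicClosure ℚ] L) : L →ₐ[AlgebraicClosure ℚ] L)
    ((ρ₂ : L ≃ₐ[AlgebraicClosure ℚ] L) : L →ₐ[AlgebraicClosure ℚ] L) hX hY hY' hS cl g hcl

end Stage

end Fermat.Agent.S17
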