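/-
S17 sprint, sub-integration **[PlT]**, leaf **T7-K = WRAP at the places** (helper32): the
`ℚ̄`-PLACE twin of helper18's `S17/TranslWrap.lean`.  The place form of (T) ON THE MODEL from a
family `s` which is base-point-free AT THE `ℚ̄`-RATIONAL PLACES ONLY (`S17thkBpf y M s`,
S17/TranslHtK.lean) — MOVING is needed at the places only.

* **`s17twk_hT`**     : for `D` with `L(Ao ∓ D) = 0` an automorphism `ρ` of `L / K` with
                        `[D] + x_{P ∘ ρ} = x_P` and `habs [ρ ∘ s]_P ≤ 2 · habs [s]_P + c`;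
* **`s17twk_plT_on`** : `S17t9PlTOn cl H 2 (S17t9NS Ao)`;
* `s17twk_plT_on_plm` : the same for `H = s17plmH s17haAbsQ s`;
* **`s17twk_plT4`**   : `S17hyPlT cl H (2 ^ 2)` (all translations).

Chain: `s17tsk_inputs` (S17/TranslStageK.lean) + `s17thk_hT` (S17/TranslHtK.lean, via H1-K
`s17vk_upgrade_equiv`) + the class side `s17cau_exists_add`, `s17cb_add` + `s17t9_plT_comp`.
-/
import Fermat.Agent.S17.PlMGlue
import Fermat.Agent.S24.Defs
import Fermat.Agent.S17.HtAbsQb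
import Fermat.Agent.S17.TranslStage
import Fermat.Agent.S17.TranslHtF
import Fermat.Agent.S17.TranslStageK
import Fermat.Agent.S17.CentreAut
import Fermat.Agent.S17.CentreBridge
import Fermat.Agent.S17.TopNineDec
import Fermat.Agent.S17.TopNine

set_option autoImplicit false
set_option linter.unusedVariables false
set_option linter.unusedSectionVars false
set_option linter.style.haveILetI false
set_option linter.style.longLine false

noncomputable section

namespace Fermat.Agent.S17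

open ModularCurve AlgebraicCurve Module TensorProduct IntermediateField
open Fermat.Agent.S24 Fermat.Agent.S26 Fermat.Agent.S27 Fermat.Agent.DEU

universe y

section Stage

variable (N : ℕ) [NeZero N] [IsCurveOver Kb (FF N)] [Algebra.EssFiniteType Kb (FF N)]
  {L : Type} [Field L] [Algebra Kb L]
  [Algebra (s27gfOm Kb (FF N) (genusFF Kb (FF N))) L]
  [IsScalarTower Kb (s27gfOm Kb (FF N) (genusFF Kb (FF N))) L]
  [IsAlgClosed L] [Algebra.IsAlgebraic (s27gfOm Kb (FF N) (genusFF Kb (FF N))) L]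
  {FL : Type y} [Field FL] [Algebra Kb FL] [Algebra (FF N) FL] [Algebra L FL]
  [IsScalarTower Kb (FF N) FL] [IsScalarTower Kb L FL]
  (hld : Function.Injective (s26gspMu Kb (FF N) L FL)) (hgen : S26gspGen Kb (FF N) L FL)
  {x : FF N} (hx : Transcendental Kb x)
  [FiniteDimensional ↥(IntermediateField.adjoin Kb {x}) (FF N)]
  [Algebra.IsSeparable ↥(IntermediateField.adjoin Kb {x}) (FF N)]
  [IsGalois (s27gfSym Kb (FF N) (genusFF Kb (FF N))) L]
  (G₀ : Divisor Kb (FF N)) (hG₀ : Divisor.degree G₀ = (genusFF Kb (FF N) : ℤ))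

/-- a family which is base-point-free at the places is not zero. -/
theorem s17twk_ne_zero {ι : Type*} {y : ValuationSubring L → L} {M : ℕ} {s : ι → L}
    (hX : S17thkBpf y M s) : s ≠ 0 :=
  s17thk_ne_zero hX

/-- **T7, one translation**: the automorphism, its class side and its height side. -/
theorem s17twk_hT (hg : 0 < genusFF Kb (FF N))
    (Ao : Divisor Kb (FF N)) (hAo : riemannRochSpace Ao = ⊥)
    (hAod : Divisor.degree Ao = (genusFF Kb (FF N) : ℤ) - 1) (O : Place Kb (FF N))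
    (f₀ : Module.Basis (Fin (genusFF Kb (FF N))) Kb ↥(riemannRochSpace (G₀ + Ao)))
    (y : ValuationSubring L → L)
    (hy : ∀ W : ValuationSubring L, S27IsKValU Kb W → S27icIdx hld hgen hx Ao W
      (s27pfCl (s27dclPkg hld hgen hx G₀ hG₀)
        (s27pfTaut (K := Kb) (F := FF N) (g := genusFF Kb (FF N)) (L := L))) (y W))
    {ι : Type*} [Fintype ι] (s : ι → L) (M : ℕ) (hX : S17thkBpf y M s)
    (D : Divisor.degZero (K := Kb) (F := FF N))
    (hDm : riemannRochSpace (Ao - (D : Divisor Kb (FF N))) = ⊥)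
    (hDp : riemannRochSpace (Ao + (D : Divisor Kb (FF N))) = ⊥) :
    ∃ ρ : L ≃ₐ[Kb] L,
      (∀ P : S17plPlace Kb L,
        Pic0.mk D + s17coCl hld hgen hx G₀ hG₀ (s17pxComap (ρ : L →ₐ[Kb] L) P) =
          s17coCl hld hgen hx G₀ hG₀ P) ∧
      ∃ c : ℝ, ∀ (P : S17plPlace Kb L) (α β : ι) (hα : S17plIsMin P.W s α)
        (hβ : S17plIsMin P.W (fun i => (ρ : L →ₐ[Kb] L) (s i)) β),
        s17haAbsQ (s17plVal P (fun i => (ρ : L →ₐ[Kb] L) (s i)) β hβ)
          ≤ 2 * s17haAbsQ (s17plVal P s α hα) + c := by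
  obtain ⟨ρ₁, q₁, -, -, hρ₁, -⟩ :=
    s17cau_exists_add (L := L) hld hgen hx G₀ hG₀ (Pic0.mk (-D))
  obtain ⟨ρ₂, q₂, -, -, hρ₂, -⟩ :=
    s17cau_exists_add (L := L) hld hgen hx G₀ hG₀ (Pic0.mk D)
  have hDm' : riemannRochSpace
      (Ao - ((-D : Divisor.degZero (K := Kb) (F := FF N)) : Divisor Kb (FF N))) = ⊥ := by
    rw [AddSubgroup.coe_neg, sub_neg_eq_add]
    exact hDp
  have hDp' : riemannRochSpace
      (Ao + ((-D : Divisor.degZero (K := Kb) (F := FF N)) : Divisor Kb (FF N))) = ⊥ := by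
    rw [AddSubgroup.coe_neg, ← sub_eq_add_neg]
    exact hDm
  have hρ₂' : (s27dclPkg hld hgen hx G₀ hG₀).actC ρ₂
        (s27pfCl (s27dclPkg hld hgen hx G₀ hG₀)
          (s27pfTaut (K := Kb) (F := FF N) (g := genusFF Kb (FF N)) (L := L))) =
      s27pfCl (s27dclPkg hld hgen hx G₀ hG₀)
          (s27pfTaut (K := Kb) (F := FF N) (g := genusFF Kb (FF N)) (L := L)) -
        s27bcBeta hld hgen (s26gspf_hall hx) (Pic0.mk (-D)) := by
    rw [hρ₂, ← s17tsg_neg_shift hld hgen hx (-D), neg_neg]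
  obtain ⟨Φ, hΦ, hY, hY', hS⟩ := s17tsk_inputs hld hgen hx G₀ hG₀ hg Ao hAo hAod O f₀ (-D)
    hDm' hDp' ρ₁ ρ₂ hρ₁ hρ₂' y hy s M hX
  refine ⟨ρ₁, fun P => ?_, ?_⟩
  · rw [s17cb_add hld hgen hx G₀ hG₀ P ρ₁ (Pic0.mk (-D)) hρ₁]
    have e : (Pic0.mk (-D) : Pic0 Kb (FF N)) = -Pic0.mk D := rfl
    rw [e]
    abel
  · obtain ⟨C, hC⟩ := s17thk_hT hX hY hY' hS
    exact ⟨C, fun P α β hα hβ => hC P α β hα hβ⟩

/-- scaling invariance of the absolute height, in the shape of S17/PlMGlue.lean. -/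
theorem s17twk_hsc {ι : Type*} [Finite ι] (c : Kb) (v : ι → Kb) (hc : c ≠ 0) :
    s17haAbsQ (fun i => c * v i) = s17haAbsQ v :=
  s17haAbsQ_smul v hc

/-- **[PlT] on the non-special translations**, `a = 2`, for ANY centre map equal to `s17coCl` and
ANY height which is `habs [s]_P` in every chart. -/
theorem s17twk_plT_on (hg : 0 < genusFF Kb (FF N))
    (Ao : Divisor Kb (FF N)) (hAo : riemannRochSpace Ao = ⊥)
    (hAod : Divisor.degree Ao = (genusFF Kb (FF N) : ℤ) - 1) (O : Place Kb (FF N))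
    (f₀ : Module.Basis (Fin (genusFF Kb (FF N))) Kb ↥(riemannRochSpace (G₀ + Ao)))
    (y : ValuationSubring L → L)
    (hy : ∀ W : ValuationSubring L, S27IsKValU Kb W → S27icIdx hld hgen hx Ao W
      (s27pfCl (s27dclPkg hld hgen hx G₀ hG₀)
        (s27pfTaut (K := Kb) (F := FF N) (g := genusFF Kb (FF N)) (L := L))) (y W))
    {ι : Type*} [Fintype ι] (s : ι → L) (M : ℕ) (hX : S17thkBpf y M s)
    (cl : S17plPlace Kb L → JZero N) (hcl : ∀ P, cl P = s17coCl hld hgen hx G₀ hG₀ P)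
    (H : S17plPlace Kb L → ℝ)
    (hH : ∀ (P : S17plPlace Kb L) (α : ι) (hα : S17plIsMin P.W s α),
      H P = s17haAbsQ (s17plVal P s α hα)) :
    S17t9PlTOn cl H 2 (S17t9NS Ao) := by
  intro g hgNS
  obtain ⟨D, hD, hDm, hDp⟩ := hgNS
  obtain ⟨ρ, hρcl, c, hc⟩ := s17twk_hT N hld hgen hx G₀ hG₀ hg Ao hAo hAod O f₀ y hy s M hX D
    hDm hDp
  refine ⟨c, fun p => ⟨s17pxComap (ρ : L →ₐ[Kb] L) p, ?_, ?_⟩⟩
  · rw [hcl, hcl, ← hD]
    exact hρcl p
  · have hs : s ≠ 0 := s17twk_ne_zero hX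
    obtain ⟨α, hα⟩ := s17pl_exists_min p.W hs
    have hρs : (fun i => (ρ : L →ₐ[Kb] L) (s i)) ≠ 0 := by
      intro h0
      apply hs
      funext i
      have h1 : (ρ : L →ₐ[Kb] L) (s i) = 0 := congrFun h0 i
      exact (map_eq_zero (ρ : L →ₐ[Kb] L)).1 h1
    obtain ⟨β, hβ⟩ := s17pl_exists_min p.W hρs
    have hβ' : S17plIsMin (s17pxComap (ρ : L →ₐ[Kb] L) p).W s β :=
      (s17px_isMin_comap (ρ : L →ₐ[Kb] L) p.W s β).2 hβ
    rw [hH _ β hβ', hH p α hα, s17px_val_comap (ρ : L →ₐ[Kb] L) p s β hβ']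
    exact hc p α β hα hβ

/-- **[PlT] on the non-special translations** for the height `s17plmH s17haAbsQ s`
(`= s17sxHt s`, S17/StageTop.lean). -/
theorem s17twk_plT_on_plm (hg : 0 < genusFF Kb (FF N))
    (Ao : Divisor Kb (FF N)) (hAo : riemannRochSpace Ao = ⊥)
    (hAod : Divisor.degree Ao = (genusFF Kb (FF N) : ℤ) - 1) (O : Place Kb (FF N))
    (f₀ : Module.Basis (Fin (genusFF Kb (FF N))) Kb ↥(riemannRochSpace (G₀ + Ao)))
    (y : ValuationSubring L → L)
    (hy : ∀ W : ValuationSubring L, S27IsKValU Kb W → S27icIdx hld hgen hx Ao W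
      (s27pfCl (s27dclPkg hld hgen hx G₀ hG₀)
        (s27pfTaut (K := Kb) (F := FF N) (g := genusFF Kb (FF N)) (L := L))) (y W))
    {ι : Type*} [Fintype ι] (s : ι → L) (M : ℕ) (hX : S17thkBpf y M s) :
    S17t9PlTOn (fun P : S17plPlace Kb L => (s17coCl hld hgen hx G₀ hG₀ P : JZero N))
      (s17plmH (s17haAbsQ (ι := ι)) s) 2 (S17t9NS Ao) :=
  s17twk_plT_on N hld hgen hx G₀ hG₀ hg Ao hAo hAod O f₀ y hy s M hX _ (fun _ => rfl) _
    (fun P α hα => s17plmH_eq _ s17twk_hsc s P α hα)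

/-- **[PlT] for all translations**, `a = 2 ^ 2` (two non-special steps). -/
theorem s17twk_plT4 (hg : 0 < genusFF Kb (FF N))
    (Ao : Divisor Kb (FF N)) (hAo : riemannRochSpace Ao = ⊥)
    (hAod : Divisor.degree Ao = (genusFF Kb (FF N) : ℤ) - 1) (O : Place Kb (FF N))
    (f₀ : Module.Basis (Fin (genusFF Kb (FF N))) Kb ↥(riemannRochSpace (G₀ + Ao)))
    (y : ValuationSubring L → L)
    (hy : ∀ W : ValuationSubring L, S27IsKValU Kb W → S27icIdx hld hgen hx Ao W
      (s27pfCl (s27dclPkg hld hgen hx G₀ hG₀)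
        (s27pfTaut (K := Kb) (F := FF N) (g := genusFF Kb (FF N)) (L := L))) (y W))
    {ι : Type*} [Fintype ι] (s : ι → L) (M : ℕ) (hX : S17thkBpf y M s)
    (cl : S17plPlace Kb L → JZero N) (hcl : ∀ P, cl P = s17coCl hld hgen hx G₀ hG₀ P)
    (H : S17plPlace Kb L → ℝ)
    (hH : ∀ (P : S17plPlace Kb L) (α : ι) (hα : S17plIsMin P.W s α),
      H P = s17haAbsQ (s17plVal P s α hα)) :
    S17hyPlT cl H (2 ^ 2) :=
  s17t9_plT_comp (by norm_num) (S17t9NS Ao)
    (s17twk_plT_on N hld hgen hx G₀ hG₀ hg Ao hAo hAod O f₀ y hy s M hX cl hcl H hH)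
    (fun g => s17t9_dec x hx Ao hAod g)

end Stage

end Fermat.Agent.S17

end
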