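/-
S17 sprint, layer H — **FINAL ASSEMBLY, part (M) + (T)** (helper77, top integrator).

On the CONCRETE stage of `X₀(N)` over `ℚ̄` (`L := s27mtL Kb (FF N)`, `FL := s27mtFL Kb (FF N)`,
constants `S27cstIsConst x G₀ O`, a family `q` of S27-B) with the lifted local equations

    `s17amY … := s17pmtB (s27indB ψ β 1)`        (`b = B(+1)`: ruling (A)),

for EVERY finite family `Fam : ι → L` which is base-point-free at the `ℚ̄`-places w.r.t. `s17amY`
(`S17pmkBpf`, the SAME statement as `S17thkBpf`) and for which `s17amY` is a local equation of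
`Θ_Ao` at `η` (`hy`):

* `s17am_plM n` : `S17hyPlM (s17sxCl …) (s17sxHt Fam) n (n (n + 1) / 2)`     (helper11's `s17pmx_plM`);
* `s17am_plT4`  : `S17hyPlT (s17sxCl …) (s17sxHt Fam) 4`                      (helper32's `s17twk_plT4`);
* `s17am_stmtAt_7` : with (N) for the same `cl`, `H`: `S17sxStmtAt N 7 4 28`.
-/
import Fermat.Agent.S17.StageTop
import Fermat.Agent.S17.PlMStageL
import Fermat.Agent.S17.TranslWrapK
import Fermat.Agent.S27.FitCG

set_option autoImplicit false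
set_option linter.unusedVariables false
set_option linter.unusedSectionVars false
set_option linter.style.haveILetI false
set_option linter.style.longLine false

noncomputable section

namespace Fermat.Agent.S17

open ModularCurve AlgebraicCurve Module TensorProduct IntermediateField
open Fermat.Agent.S24 Fermat.Agent.S26 Fermat.Agent.S27 Fermat.Agent.DEU

section Stage

variable (N : ℕ) [NeZero N] [IsCurveOver Kb (FF N)] [Algebra.EssFiniteType Kb (FF N)]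
  {x : FF N} (hx : Transcendental Kb x)
  [FiniteDimensional ↥(IntermediateField.adjoin Kb {x}) (FF N)]
  [Algebra.IsSeparable ↥(IntermediateField.adjoin Kb {x}) (FF N)]
  (G₀ : Divisor Kb (FF N)) (hG₀ : Divisor.degree G₀ = (genusFF Kb (FF N) : ℤ))

/-- **the lifted local equations** `b_L` of `Θ_Ao` at `η` (`b = B(+1)`), on the concrete stage. -/
def s17amY (O : Place Kb (FF N))
    (q : ℤ → Fin (genusFF Kb (FF N)) → FF N →ₐ[Kb] s27mtL Kb (FF N))
    (hq : S27pfFam (s27ftPkg hx G₀ hG₀) q) :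
    ValuationSubring (s27mtL Kb (FF N)) → s27mtL Kb (FF N) :=
  s17pmtB (L := s27mtL Kb (FF N))
    (s27indB (s27pfPsi (s27ftPkg hx G₀ hG₀) (s27dcl_halg (x := x)) hq)
      (s27beta (g := genusFF Kb (FF N)) (G₀ + s27cstAo G₀ O)) 1)

/-- the centre map of the concrete stage. -/
abbrev s17amCl : S17plPlace Kb (s27mtL Kb (FF N)) → JZero N :=
  s17sxCl N (L := s27mtL Kb (FF N)) (FL := s27mtFL Kb (FF N))
    (s27stg_hld Kb (FF N) (s27mtL Kb (FF N))) (s27stg_hgen Kb (FF N) (s27mtL Kb (FF N)))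
    hx G₀ hG₀

/-- **(M′)** on the concrete stage, every multiplier `n > 0`. -/
theorem s17am_plM (hg : 0 < genusFF Kb (FF N)) (O : Place Kb (FF N))
    (hc : S27cstIsConst x G₀ O)
    (q : ℤ → Fin (genusFF Kb (FF N)) → FF N →ₐ[Kb] s27mtL Kb (FF N))
    (hq : S27pfFam (s27ftPkg hx G₀ hG₀) q) (n : ℕ) (hn : 0 < n)
    {ι : Type} [Fintype ι] (N₀ : ℕ) (Fam : ι → s27mtL Kb (FF N))
    (hF : S17pmkBpf Kb (s17amY N hx G₀ hG₀ O q hq) N₀ Fam) (hF0 : Fam ≠ 0) :
    S17hyPlM (s17amCl N hx G₀ hG₀) (s17sxHt Fam) n ((s27indTri n : ℕ) : ℝ) := by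
  obtain ⟨C, hC⟩ := s17pmx_plM hx G₀ hG₀ hg O hc q hq n hn N₀ Fam hF hF0
  refine ⟨C, fun p'' => ?_⟩
  obtain ⟨p', h1, h2⟩ := hC p''
  exact ⟨p', h1, h2⟩

/-- **(T)** on the concrete stage, all translations, `a = 4`. -/
theorem s17am_plT4 (hg : 0 < genusFF Kb (FF N)) (O : Place Kb (FF N))
    (hc : S27cstIsConst x G₀ O)
    (q : ℤ → Fin (genusFF Kb (FF N)) → FF N →ₐ[Kb] s27mtL Kb (FF N))
    (hq : S27pfFam (s27ftPkg hx G₀ hG₀) q)
    (hy : ∀ W : ValuationSubring (s27mtL Kb (FF N)), S27IsKValU Kb W →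
      S27icIdx (FL := s27mtFL Kb (FF N))
        (s27stg_hld Kb (FF N) (s27mtL Kb (FF N))) (s27stg_hgen Kb (FF N) (s27mtL Kb (FF N)))
        hx (s27cstAo G₀ O) W
        (s27pfCl (s27dclPkg (FL := s27mtFL Kb (FF N))
            (s27stg_hld Kb (FF N) (s27mtL Kb (FF N)))
            (s27stg_hgen Kb (FF N) (s27mtL Kb (FF N))) hx G₀ hG₀)
          (s27pfTaut (K := Kb) (F := FF N) (g := genusFF Kb (FF N)) (L := s27mtL Kb (FF N))))
        (s17amY N hx G₀ hG₀ O q hq W))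
    {ι : Type} [Fintype ι] (N₀ : ℕ) (Fam : ι → s27mtL Kb (FF N))
    (hF : S17pmkBpf Kb (s17amY N hx G₀ hG₀ O q hq) N₀ Fam) :
    S17hyPlT (s17amCl N hx G₀ hG₀) (s17sxHt Fam) 4 := by
  have f₀ : Module.Basis (Fin (genusFF Kb (FF N))) Kb
      ↥(riemannRochSpace (G₀ + s27cstAo G₀ O)) :=
    s27fgrBasis (K := Kb) (F := FF N) hc hg
  have h := s17twk_plT4 N (L := s27mtL Kb (FF N)) (FL := s27mtFL Kb (FF N))
    (s27stg_hld Kb (FF N) (s27mtL Kb (FF N))) (s27stg_hgen Kb (FF N) (s27mtL Kb (FF N)))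
    hx G₀ hG₀ hg (s27cstAo G₀ O) hc.bot hc.deg_Ao O f₀ (s17amY N hx G₀ hG₀ O q hq) hy Fam N₀
    (fun P => hF P) (s17amCl N hx G₀ hG₀) (fun _ => rfl) (s17sxHt Fam)
    (fun P α hα => s17sxHt_eq Fam P α hα)
  have e : ((2 : ℝ) ^ 2) = 4 := by norm_num
  rw [e] at h
  exact h

/-- **FINAL ASSEMBLY at `(m, a, b) = (7, 4, 28)`**: the concrete stage, (M′) + (T) closed, (N)
as input. -/
theorem s17am_stmtAt_7 (hg : 0 < genusFF Kb (FF N)) (O : Place Kb (FF N))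
    (hc : S27cstIsConst x G₀ O)
    (q : ℤ → Fin (genusFF Kb (FF N)) → FF N →ₐ[Kb] s27mtL Kb (FF N))
    (hq : S27pfFam (s27ftPkg hx G₀ hG₀) q)
    (hy : ∀ W : ValuationSubring (s27mtL Kb (FF N)), S27IsKValU Kb W →
      S27icIdx (FL := s27mtFL Kb (FF N))
        (s27stg_hld Kb (FF N) (s27mtL Kb (FF N))) (s27stg_hgen Kb (FF N) (s27mtL Kb (FF N)))
        hx (s27cstAo G₀ O) W
        (s27pfCl (s27dclPkg (FL := s27mtFL Kb (FF N))
            (s27stg_hld Kb (FF N) (s27mtL Kb (FF N)))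
            (s27stg_hgen Kb (FF N) (s27mtL Kb (FF N))) hx G₀ hG₀)
          (s27pfTaut (K := Kb) (F := FF N) (g := genusFF Kb (FF N)) (L := s27mtL Kb (FF N))))
        (s17amY N hx G₀ hG₀ O q hq W))
    {ι : Type} [Fintype ι] (N₀ : ℕ) (Fam : ι → s27mtL Kb (FF N))
    (hF : S17pmkBpf Kb (s17amY N hx G₀ hG₀ O q hq) N₀ Fam) (hF0 : Fam ≠ 0)
    (hN : S17hxPlN (s17amCl N hx G₀ hG₀) (s17sxHt Fam)) :
    S17hyPlM (s17amCl N hx G₀ hG₀) (s17sxHt Fam) 7 28 ∧
      S17hyPlT (s17amCl N hx G₀ hG₀) (s17sxHt Fam) 4 ∧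
      S17hxPlN (s17amCl N hx G₀ hG₀) (s17sxHt Fam) := by
  refine ⟨?_, s17am_plT4 N hx G₀ hG₀ hg O hc q hq hy N₀ Fam hF, hN⟩
  have h := s17am_plM N hx G₀ hG₀ hg O hc q hq 7 (by norm_num) N₀ Fam hF hF0
  have e : ((s27indTri 7 : ℕ) : ℝ) = 28 := by
    rw [show s27indTri 7 = 28 from rfl]
    norm_num
  rw [e] at h
  exact h

end Stage

end Fermat.Agent.S17

end
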