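/-
S17 sprint, final assembly, small input **(hint)** of `s17pnt_plN` (S17/PlNTop.lean) on the concrete
stage (helper47): the lifted local equation `y = s17amY = ι ∘ B(+1)` of S17/AsmMT.lean is INTEGRAL
and NONZERO at every place of `L = s27mtL`:

* `s17ait_indB_one` : `B(+1) V = β V` (`ψ 1 = id`);
* `s17ait_mem`      : `y W ∈ W` for every `W ⊇ K`;
* `s17ait_hint`     : `y P.W ∈ P.W` for every `P : S17plPlace Kb L` (literal `hint`);
* `s17ait_ne`       : `y W ≠ 0`.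
-/
import Fermat.Agent.S17.AsmMT
import Fermat.Agent.S17.PlMCubeB

set_option autoImplicit false
set_option linter.unusedVariables false
set_option linter.unusedSectionVars false
set_option linter.style.haveILetI false
set_option linter.style.longLine false

noncomputable section

namespace Fermat.Agent.S17

open ModularCurve AlgebraicCurve Module TensorProduct IntermediateField
open Fermat.Agent.S24 Fermat.Agent.S26 Fermat.Agent.S27 Fermat.Agent.DEU

section Int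

variable (N : ℕ) [NeZero N] [IsCurveOver Kb (FF N)] [Algebra.EssFiniteType Kb (FF N)]
  {x : FF N} (hx : Transcendental Kb x)
  [FiniteDimensional ↥(IntermediateField.adjoin Kb {x}) (FF N)]
  [Algebra.IsSeparable ↥(IntermediateField.adjoin Kb {x}) (FF N)]
  (G₀ : Divisor Kb (FF N)) (hG₀ : Divisor.degree G₀ = (genusFF Kb (FF N) : ℤ))

/-- `B(+1) V = β V`, since `ψ 1 = id`. -/
theorem s17ait_indB_one (A' : Divisor Kb (FF N))
    (q : ℤ → Fin (genusFF Kb (FF N)) → FF N →ₐ[Kb] s27mtL Kb (FF N))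
    (hq : S27pfFam (s27ftPkg hx G₀ hG₀) q)
    (V : ValuationSubring (s27gfSym Kb (FF N) (genusFF Kb (FF N)))) :
    s27indB (s27pfPsi (s27ftPkg hx G₀ hG₀) (s27dcl_halg (x := x)) hq)
      (s27beta (g := genusFF Kb (FF N)) A') 1 V = s27beta (g := genusFF Kb (FF N)) A' V := by
  unfold s27indB
  rw [if_neg one_ne_zero, s27pfPsi_one]
  have h1 : V.comap ((AlgHom.id Kb (s27gfSym Kb (FF N) (genusFF Kb (FF N))) :
      s27gfSym Kb (FF N) (genusFF Kb (FF N)) →ₐ[Kb] s27gfSym Kb (FF N) (genusFF Kb (FF N))) :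
      s27gfSym Kb (FF N) (genusFF Kb (FF N)) →+* s27gfSym Kb (FF N) (genusFF Kb (FF N))) = V := by
    ext y
    rfl
  rw [h1]
  rfl

/-- `y W ∈ W` for every valuation subring `W ⊇ K` of `L`. -/
theorem s17ait_mem (hg : 0 < genusFF Kb (FF N)) (O : Place Kb (FF N))
    (hc : S27cstIsConst x G₀ O)
    (q : ℤ → Fin (genusFF Kb (FF N)) → FF N →ₐ[Kb] s27mtL Kb (FF N))
    (hq : S27pfFam (s27ftPkg hx G₀ hG₀) q)
    (W : ValuationSubring (s27mtL Kb (FF N))) (hW : S27IsKValU Kb W) :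
    s17amY N hx G₀ hG₀ O q hq W ∈ W := by
  have hV : S27IsKValU Kb (W.comap (algebraMap (s27gfSym Kb (FF N) (genusFF Kb (FF N)))
      (s27mtL Kb (FF N)))) := s17pmt_isKVal hW
  have hb := (s17pmd_beta hx (G₀ + s27cstAo G₀ O) hc.l_A hg).2 _ hV
  unfold s17amY s17pmtB
  rw [s17ait_indB_one N hx G₀ hG₀ (G₀ + s27cstAo G₀ O) q hq]
  exact ValuationSubring.mem_comap.1 hb

/-- **(hint)**: `y P.W ∈ P.W` for every place `P` of `L`. -/
theorem s17ait_hint (hg : 0 < genusFF Kb (FF N)) (O : Place Kb (FF N))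
    (hc : S27cstIsConst x G₀ O)
    (q : ℤ → Fin (genusFF Kb (FF N)) → FF N →ₐ[Kb] s27mtL Kb (FF N))
    (hq : S27pfFam (s27ftPkg hx G₀ hG₀) q)
    (P : S17plPlace Kb (s27mtL Kb (FF N))) :
    s17amY N hx G₀ hG₀ O q hq P.W ∈ P.W :=
  s17ait_mem N hx G₀ hG₀ hg O hc q hq P.W P.hKW

/-- `y W ≠ 0` for every valuation subring `W ⊇ K` of `L`. -/
theorem s17ait_ne (hg : 0 < genusFF Kb (FF N)) (O : Place Kb (FF N))
    (hc : S27cstIsConst x G₀ O)
    (q : ℤ → Fin (genusFF Kb (FF N)) → FF N →ₐ[Kb] s27mtL Kb (FF N))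
    (hq : S27pfFam (s27ftPkg hx G₀ hG₀) q)
    (W : ValuationSubring (s27mtL Kb (FF N))) (hW : S27IsKValU Kb W) :
    s17amY N hx G₀ hG₀ O q hq W ≠ 0 := by
  have hV : S27IsKValU Kb (W.comap (algebraMap (s27gfSym Kb (FF N) (genusFF Kb (FF N)))
      (s27mtL Kb (FF N)))) := s17pmt_isKVal hW
  have hb := (s17pmd_beta hx (G₀ + s27cstAo G₀ O) hc.l_A hg).1 _ hV
  unfold s17amY s17pmtB
  rw [s17ait_indB_one N hx G₀ hG₀ (G₀ + s27cstAo G₀ O) q hq]
  exact (map_ne_zero _).2 hb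

end Int

end Fermat.Agent.S17

end
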