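/-
S17 sprint, layer H — **IDX-GEN** (helper26): local equations GENERALISE.

`W₀ ≤ W` valuation subrings of `𝔏`, `K ⊆ W₀`, `R i : F →ₐ[K] 𝔏` points of the curve `F / K`.

* `s17ig_centre`        : a closed centre of `R` along `W` is its centre along `W₀`;
* `s17ig_F_le`          : `𝓕_{W₀}(R, A') ⊆ 𝓕_W(R, A')`;
* **`s17ig_latBasis`**  : a lattice basis at `W₀` is a lattice basis at `W`
                          (`M_W(R, A') = W · M_{W₀}(R, A')`);
* `s17ig_idx`           : a local equation at `W₀` is a local equation at `W`;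
* **`s17ig_unit`**      : if ONE local equation at `W₀` is a `W₀`-unit, EVERY local equation at
                          `W` is a `W`-unit;
* `s17ig_exists_place`  : every valuation subring `V ⊇ K` (`K` algebraically closed) contains a
                          `K`-PLACE `V₀ ≤ V` (`K ⊆ V₀`, residue field `K`).

So "units at `K`-places" (MOVE-VAL, S17/MoveVal.lean `s17mvv_unit`) gives "units at ALL valuation
subrings `⊇ K`" — the form of `hmove` in S17/Bpf.lean.

Proof of `s17ig_latBasis`: for `ψ ∈ 𝓕_W` choose (weak approximation) `s ≠ 0` of order `0` at the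
closed centres along `W` and of order `1` at the other centres along `W₀`; then `s^m ψ ∈ 𝓕_{W₀}`
for `m ≥ k`, the `d i := R i s` are units of `W`, the lattice `W · M_{W₀}` is stable under
`Diag d`, hence (Cayley–Hamilton for `∏ (X − d i)`) under `Diag d⁻¹`, and
`Val ψ = Diag d ^ (−k) · Val (s^k ψ)`.
-/
import Fermat.Agent.S27.PoleDivSecT
import Fermat.Agent.S27.Plan
import Fermat.Agent.S17.PlaceK

set_option autoImplicit false
set_option linter.unusedVariables false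
set_option linter.unusedSectionVars false
set_option linter.style.haveILetI false

noncomputable section

namespace Fermat.Agent.S17

open AlgebraicCurve IsDedekindDomain WithZero IntermediateField Polynomial
open Fermat.Agent.S24.PlaceAux Fermat.Agent.S27

universe u v w

section Centre

variable {K : Type u} {F : Type v} [Field K] [Field F] [Algebra K F]
variable {𝔏 : Type w} [Field 𝔏] [Algebra K 𝔏]

/-- a place is a proper valuation subring: a uniformiser has no inverse in it. -/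
theorem s17ig_exists_not_mem (Q : Place K F) : ∃ f : F, f ∉ Q.toValuationSubring := by
  obtain ⟨π, hπ0, hπ1⟩ := s27adex_exists_unif Q
  refine ⟨π⁻¹, fun h => ?_⟩
  have h1 := (ord_nonneg_iff Q (inv_ne_zero hπ0)).2 h
  rw [Place.ord_inv, hπ1] at h1
  omega

/-- two places with `𝒪_{Q'} ≤ 𝒪_Q` are equal. -/
theorem s17ig_place_eq_of_le {Q Q' : Place K F}
    (h : Q'.toValuationSubring ≤ Q.toValuationSubring) : Q' = Q := by
  classical
  by_contra hne
  obtain ⟨τ, hτ0, hτ1, hτ2⟩ := s27pds_exists_tau Q {Q'}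
  have h0 : Q'.ord τ = 0 := hτ2 Q' (Finset.mem_singleton_self _) hne
  have h1 : τ⁻¹ ∈ Q'.toValuationSubring := by
    apply mem_of_ord_nonneg
    rw [Place.ord_inv, h0]
    simp
  have h2 := (ord_nonneg_iff Q (inv_ne_zero hτ0)).2 (h h1)
  rw [Place.ord_inv, hτ1] at h2
  omega

variable [CharZero K] [IsCurveOver K F] [Algebra.EssFiniteType K F]

/-- a closed centre along `W` is the centre along every `W₀ ≤ W` (`K ⊆ W₀`). -/
theorem s17ig_centre {W₀ W : ValuationSubring 𝔏} (hle : W₀ ≤ W)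
    (hK : ∀ c : K, algebraMap K 𝔏 c ∈ W₀) (R : F →ₐ[K] 𝔏) (Q : Place K F)
    (h : S27ptIsCentre W R Q) : S27ptIsCentre W₀ R Q := by
  have h' : W.comap (R : F →+* 𝔏) = Q.toValuationSubring := h
  obtain ⟨x, hx, hfin⟩ := s27td_exists_of_isCurveOver (K := K) (F := F)
  haveI := hfin
  rcases s27adex_hred_curve x hx W₀ hK R with h0 | ⟨Q', hQ'⟩
  · exfalso
    obtain ⟨f, hf⟩ := s17ig_exists_not_mem Q
    apply hf
    rw [← h']
    exact hle (h0 f)
  · have hle' : Q'.toValuationSubring ≤ Q.toValuationSubring := by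
      rw [← hQ', ← h']
      intro f hf
      exact hle hf
    have := s17ig_place_eq_of_le hle'
    subst this
    exact hQ'

/-- `𝓕_{W₀} ⊆ 𝓕_W`. -/
theorem s17ig_F_le {N : ℕ} {W₀ W : ValuationSubring 𝔏} (hle : W₀ ≤ W)
    (hK : ∀ c : K, algebraMap K 𝔏 c ∈ W₀) (R : Fin N → F →ₐ[K] 𝔏) (A' : Divisor K F) :
    s27ptF W₀ R A' ≤ s27ptF W R A' := by
  intro f hf Q i hQ
  exact hf Q i (s17ig_centre hle hK (R i) Q hQ)

/-- a function of order `0` at the closed centre (if any) of `R` along `W` has a unit value. -/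
theorem s17ig_value_unit {W : ValuationSubring 𝔏} (hK : ∀ c : K, algebraMap K 𝔏 c ∈ W)
    (R : F →ₐ[K] 𝔏) {s : F} (hs : s ≠ 0)
    (h0 : ∀ Q : Place K F, S27ptIsCentre W R Q → Q.ord s = 0) :
    R s ∈ W ∧ (R s)⁻¹ ∈ W := by
  obtain ⟨x, hx, hfin⟩ := s27td_exists_of_isCurveOver (K := K) (F := F)
  haveI := hfin
  rcases s27adex_hred_curve x hx W hK R with h | ⟨Q, hQ⟩
  · refine ⟨h s, ?_⟩
    rw [← map_inv₀]
    exact h _
  · have hs0 := h0 Q hQ
    have h1 : s ∈ Q.toValuationSubring := mem_of_ord_nonneg Q (by rw [hs0])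
    have h2 : s⁻¹ ∈ Q.toValuationSubring := mem_of_ord_nonneg Q (by rw [Place.ord_inv, hs0]; simp)
    rw [← hQ] at h1 h2
    refine ⟨h1, ?_⟩
    rw [← map_inv₀]
    exact h2

end Centre

section Lat

variable {K : Type u} {F : Type v} [Field K] [Field F] [Algebra K F]
variable {𝔏 : Type w} [Field 𝔏] [Algebra K 𝔏]

/-- the `W`-lattice spanned by the columns `(R i (φ j))_i`. -/
def s17igLat {N : ℕ} (W : ValuationSubring 𝔏) (R : Fin N → F →ₐ[K] 𝔏) (φ : Fin N → F) :
    Submodule ↥W (Fin N → 𝔏) where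
  carrier := {v | ∃ c : Fin N → 𝔏, (∀ j, c j ∈ W) ∧ ∀ i, v i = ∑ j, R i (φ j) * c j}
  zero_mem' := ⟨fun _ => 0, fun _ => W.zero_mem, fun i => by simp⟩
  add_mem' := by
    rintro v v' ⟨c, hc, h⟩ ⟨c', hc', h'⟩
    refine ⟨fun j => c j + c' j, fun j => W.add_mem _ _ (hc j) (hc' j), fun i => ?_⟩
    rw [Pi.add_apply, h i, h' i, ← Finset.sum_add_distrib]
    exact Finset.sum_congr rfl fun j _ => by ring
  smul_mem' := by
    rintro a v ⟨c, hc, h⟩
    refine ⟨fun j => (a : 𝔏) * c j, fun j => W.mul_mem _ _ a.2 (hc j), fun i => ?_⟩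
    have h1 : (a • v) i = (a : 𝔏) * v i := rfl
    rw [h1, h i, Finset.mul_sum]
    exact Finset.sum_congr rfl fun j _ => by ring

theorem s17ig_mem_lat {N : ℕ} {W : ValuationSubring 𝔏} {R : Fin N → F →ₐ[K] 𝔏}
    {φ : Fin N → F} {v : Fin N → 𝔏} :
    v ∈ s17igLat W R φ ↔
      ∃ c : Fin N → 𝔏, (∀ j, c j ∈ W) ∧ ∀ i, v i = ∑ j, R i (φ j) * c j := Iff.rfl

/-- a `W`-submodule of `𝔏^N` stable under `Diag d` is stable under `Diag (p(d))`, `p ∈ W[X]`. -/
theorem s17ig_poly_stable {N : ℕ} {W : ValuationSubring 𝔏} (M : Submodule ↥W (Fin N → 𝔏))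
    (d : Fin N → 𝔏) (hM : ∀ v ∈ M, (fun i => d i * v i) ∈ M) (p : Polynomial ↥W) :
    ∀ v ∈ M, (fun i => Polynomial.aeval (d i) p * v i) ∈ M := by
  induction p using Polynomial.induction_on with
  | C a =>
    intro v hv
    have h1 : (fun i => Polynomial.aeval (d i) (Polynomial.C a) * v i) = a • v := by
      funext i
      rw [Polynomial.aeval_C]
      rfl
    rw [h1]
    exact M.smul_mem a hv
  | add p q hp hq =>
    intro v hv
    have h1 : (fun i => Polynomial.aeval (d i) (p + q) * v i) =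
        (fun i => Polynomial.aeval (d i) p * v i) + (fun i => Polynomial.aeval (d i) q * v i) := by
      funext i
      rw [map_add, add_mul]
      rfl
    rw [h1]
    exact M.add_mem (hp v hv) (hq v hv)
  | monomial n a h =>
    intro v hv
    have h1 : (fun i => Polynomial.aeval (d i) (Polynomial.C a * Polynomial.X ^ (n + 1)) * v i) =
        (fun i => d i *
          (fun i => Polynomial.aeval (d i) (Polynomial.C a * Polynomial.X ^ n) * v i) i) := by
      funext i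
      simp only [map_mul, map_pow, Polynomial.aeval_X, Polynomial.aeval_C]
      ring
    rw [h1]
    exact hM _ (h v hv)

/-- **Cayley–Hamilton for a diagonal matrix with unit entries**: a `W`-submodule of `𝔏^N` stable
under `Diag d`, `d i ∈ Wˣ`, is stable under `Diag d⁻¹`. -/
theorem s17ig_inv_stable {N : ℕ} {W : ValuationSubring 𝔏} (M : Submodule ↥W (Fin N → 𝔏))
    (d : Fin N → 𝔏) (hd : ∀ i, d i ∈ W) (hd' : ∀ i, (d i)⁻¹ ∈ W) (hd0 : ∀ i, d i ≠ 0)
    (hM : ∀ v ∈ M, (fun i => d i * v i) ∈ M) :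
    ∀ v ∈ M, (fun i => (d i)⁻¹ * v i) ∈ M := by
  classical
  intro v hv
  let dW : Fin N → ↥W := fun i => ⟨d i, hd i⟩
  let P : Polynomial ↥W := ∏ j, (Polynomial.X - Polynomial.C (dW j))
  -- the constant term and its inverse
  let e : ↥W := ∏ j, (-(dW j))
  let e' : ↥W := ∏ j, (-(⟨(d j)⁻¹, hd' j⟩ : ↥W))
  have hee' : e * e' = 1 := by
    rw [← Finset.prod_mul_distrib]
    refine Finset.prod_eq_one fun j _ => ?_
    apply Subtype.ext
    show (-(d j)) * (-(d j)⁻¹) = 1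
    rw [neg_mul_neg, mul_inv_cancel₀ (hd0 j)]
  have hP0 : P.coeff 0 = e := by
    rw [Polynomial.coeff_zero_eq_eval_zero, Polynomial.eval_prod]
    refine Finset.prod_congr rfl fun j _ => ?_
    simp
  have hPd : ∀ i, Polynomial.aeval (d i) P = 0 := by
    intro i
    rw [map_prod]
    refine Finset.prod_eq_zero (Finset.mem_univ i) ?_
    rw [map_sub, Polynomial.aeval_X, Polynomial.aeval_C]
    show d i - d i = 0
    exact sub_self _
  have hsplit : P = P.divX * Polynomial.X + Polynomial.C e := by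
    rw [← hP0]
    exact (Polynomial.divX_mul_X_add P).symm
  have hkey : ∀ i, (d i)⁻¹ = -((e' : 𝔏) * Polynomial.aeval (d i) P.divX) := by
    intro i
    have h1 := hPd i
    rw [hsplit, map_add, map_mul, Polynomial.aeval_X, Polynomial.aeval_C] at h1
    have h2 : (algebraMap ↥W 𝔏 e) = (e : 𝔏) := rfl
    rw [h2] at h1
    have h3 : (e : 𝔏) * (e' : 𝔏) = 1 := by
      have := congrArg (Subtype.val) hee'
      exact this
    have h4 : Polynomial.aeval (d i) P.divX * d i = -(e : 𝔏) := by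
      linear_combination h1
    have h5 : (d i)⁻¹ * (Polynomial.aeval (d i) P.divX * d i) = Polynomial.aeval (d i) P.divX := by
      field_simp [hd0 i]
    calc (d i)⁻¹ = (d i)⁻¹ * ((e : 𝔏) * (e' : 𝔏)) := by rw [h3, mul_one]
      _ = -((e' : 𝔏) * ((d i)⁻¹ * (-(e : 𝔏)))) := by ring
      _ = -((e' : 𝔏) * ((d i)⁻¹ * (Polynomial.aeval (d i) P.divX * d i))) := by rw [h4]
      _ = -((e' : 𝔏) * Polynomial.aeval (d i) P.divX) := by rw [h5]
  have h1 := s17ig_poly_stable M d hM P.divX v hv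
  have h2 : (fun i => (d i)⁻¹ * v i) =
      (-e') • (fun i => Polynomial.aeval (d i) P.divX * v i) := by
    funext i
    have : ((-e') • (fun i => Polynomial.aeval (d i) P.divX * v i)) i =
        ((-e' : ↥W) : 𝔏) * (Polynomial.aeval (d i) P.divX * v i) := rfl
    rw [this, hkey i]
    push_cast
    ring
  rw [h2]
  exact M.smul_mem _ h1

/-- iterate: stability under `Diag d⁻ᵏ`. -/
theorem s17ig_inv_pow_stable {N : ℕ} {W : ValuationSubring 𝔏} (M : Submodule ↥W (Fin N → 𝔏))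
    (d : Fin N → 𝔏) (hd : ∀ i, d i ∈ W) (hd' : ∀ i, (d i)⁻¹ ∈ W) (hd0 : ∀ i, d i ≠ 0)
    (hM : ∀ v ∈ M, (fun i => d i * v i) ∈ M) (k : ℕ) :
    ∀ v ∈ M, (fun i => ((d i)⁻¹) ^ k * v i) ∈ M := by
  induction k with
  | zero =>
    intro v hv
    simpa using hv
  | succ k ih =>
    intro v hv
    have h1 := s17ig_inv_stable M d hd hd' hd0 hM _ (ih v hv)
    have h2 : (fun i => ((d i)⁻¹) ^ (k + 1) * v i) =
        (fun i => (d i)⁻¹ * (fun i => ((d i)⁻¹) ^ k * v i) i) := by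
      funext i
      ring
    rw [h2]
    exact h1

end Lat

section Main

variable {K : Type u} {F : Type v} [Field K] [Field F] [Algebra K F]
variable {𝔏 : Type w} [Field 𝔏] [Algebra K 𝔏]

/-- weak approximation: `s ≠ 0` of order `0` at the places of `T₀` with `P`, of order `1` at the
others. -/
theorem s17ig_exists_s (T₀ : Finset (Place K F)) (P : Place K F → Prop) :
    ∃ s : F, s ≠ 0 ∧ (∀ Q ∈ T₀, P Q → Q.ord s = 0) ∧ (∀ Q ∈ T₀, ¬ P Q → Q.ord s = 1) := by
  classical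
  by_cases hex : ∃ O ∈ T₀, ¬ P O
  · obtain ⟨O, hO, hPO⟩ := hex
    choose π hπ0 hπ1 using fun Q : Place K F => s27adex_exists_unif Q
    let u : ↥T₀ → Place K F := fun q => q.1
    have hu : Function.Injective u := fun a b h => Subtype.ext h
    let y : ↥T₀ → F := fun q => if P q.1 then 1 else π q.1
    obtain ⟨z, hz⟩ := s27adex_approx u hu y 2
    have hy0 : ∀ q, y q ≠ 0 := by
      intro q
      show (if P q.1 then (1 : F) else π q.1) ≠ 0
      split_ifs
      · exact one_ne_zero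
      · exact hπ0 _
    have hord : ∀ q : ↥T₀, (q.1).ord z = (q.1).ord (y q) := by
      intro q
      refine s27pds_ord_of_approx q.1 z (y q) (hy0 q) 2 ?_ (hz q)
      show (q.1).ord (if P q.1 then (1 : F) else π q.1) < ((2 : ℕ) : ℤ)
      split_ifs
      · rw [Place.ord_one]; norm_num
      · rw [hπ1]; norm_num
    have hzN : ∀ Q ∈ T₀, ¬ P Q → Q.ord z = 1 := by
      intro Q hQ hP
      have h := hord ⟨Q, hQ⟩
      have h2 : y ⟨Q, hQ⟩ = π Q := if_neg hP
      rw [h2, hπ1] at h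
      exact h
    refine ⟨z, ?_, fun Q hQ hP => ?_, hzN⟩
    · rintro rfl
      have := hzN O hO hPO
      rw [Place.ord_zero] at this
      exact zero_ne_one this
    · have h := hord ⟨Q, hQ⟩
      have h2 : y ⟨Q, hQ⟩ = 1 := if_pos hP
      rw [h2, Place.ord_one] at h
      exact h
  · refine ⟨1, one_ne_zero, fun Q _ _ => Place.ord_one Q, fun Q hQ hP => ?_⟩
    exact absurd ⟨Q, hQ, hP⟩ hex

variable [CharZero K] [IsCurveOver K F] [Algebra.EssFiniteType K F]

/-- **IDX-GEN, lattice form**: a lattice basis at `W₀` is a lattice basis at every `W ≥ W₀`. -/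
theorem s17ig_latBasis {N : ℕ} {W₀ W : ValuationSubring 𝔏} (hle : W₀ ≤ W)
    (hK : ∀ c : K, algebraMap K 𝔏 c ∈ W₀) (R : Fin N → F →ₐ[K] 𝔏) (A' : Divisor K F)
    {φ : Fin N → F} (hφ : S27ptIsLatBasis W₀ R A' φ) : S27ptIsLatBasis W R A' φ := by
  classical
  refine ⟨fun j => s17ig_F_le hle hK R A' (hφ.mem j), hφ.det_ne, fun ψ hψ => ?_⟩
  suffices h : (fun i => R i ψ) ∈ s17igLat W R φ from s17ig_mem_lat.1 h
  by_cases hψ0 : ψ = 0
  · have h0 : (fun i => R i ψ) = (0 : Fin N → 𝔏) := by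
      funext i
      rw [hψ0, map_zero]
      rfl
    rw [h0]
    exact Submodule.zero_mem _
  have hKW : ∀ c : K, algebraMap K 𝔏 c ∈ W := fun c => hle (hK c)
  obtain ⟨T₀, hT₀⟩ := s27pds_exists_centres W₀ R
  let P : Place K F → Prop := fun Q => ∃ i, S27ptIsCentre W (R i) Q
  obtain ⟨s, hs0, hsP, hsN⟩ := s17ig_exists_s T₀ P
  let k : ℕ := ∑ Q ∈ T₀, (-(A' Q) - Q.ord ψ).toNat
  have hk : ∀ Q ∈ T₀, -(A' Q) - Q.ord ψ ≤ (k : ℤ) := by
    intro Q hQ
    refine (Int.self_le_toNat _).trans ?_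
    have : (-(A' Q) - Q.ord ψ).toNat ≤ k :=
      Finset.single_le_sum (f := fun Q => (-(A' Q) - Q.ord ψ).toNat)
        (fun _ _ => Nat.zero_le _) hQ
    exact_mod_cast this
  have hsnn : ∀ Q ∈ T₀, 0 ≤ Q.ord s := by
    intro Q hQ
    by_cases hP : P Q
    · rw [hsP Q hQ hP]
    · rw [hsN Q hQ hP]
      norm_num
  -- values of `𝓕_{W₀}` lie in the lattice
  have h1 : ∀ ψ₀ ∈ s27ptF W₀ R A', (fun i => R i ψ₀) ∈ s17igLat W R φ := by
    intro ψ₀ h
    obtain ⟨c, hc, hv⟩ := hφ.span ψ₀ h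
    exact ⟨c, fun j => hle (hc j), hv⟩
  -- `s · 𝓕_{W₀} ⊆ 𝓕_{W₀}`
  have hsmul : ∀ ψ₀ ∈ s27ptF W₀ R A', s * ψ₀ ∈ s27ptF W₀ R A' := by
    intro ψ₀ h Q i hQ
    rw [map_mul]
    have hs1 : Q.adicValuation s ≤ 1 :=
      (mem_iff_adicValuation_le_one Q s).1 (mem_of_ord_nonneg Q (hsnn Q (hT₀ i Q hQ)))
    calc Q.adicValuation s * Q.adicValuation ψ₀ ≤ 1 * exp (A' Q) := mul_le_mul' hs1 (h Q i hQ)
      _ = exp (A' Q) := one_mul _
  let d : Fin N → 𝔏 := fun i => R i s
  have hdu : ∀ i, d i ∈ W ∧ (d i)⁻¹ ∈ W := fun i =>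
    s17ig_value_unit hKW (R i) hs0 fun Q hQ =>
      hsP Q (hT₀ i Q (s17ig_centre hle hK (R i) Q hQ)) ⟨i, hQ⟩
  have hd0 : ∀ i, d i ≠ 0 := fun i => (map_ne_zero (R i)).2 hs0
  -- the lattice is stable under `Diag d`
  have hM : ∀ v ∈ s17igLat W R φ, (fun i => d i * v i) ∈ s17igLat W R φ := by
    rintro v ⟨c, hc, hv⟩
    have hsum : (fun i => d i * v i) =
        ∑ j, (⟨c j, hc j⟩ : ↥W) • (fun i => R i (s * φ j)) := by
      funext i
      rw [Finset.sum_apply, hv i, Finset.mul_sum]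
      refine Finset.sum_congr rfl fun j _ => ?_
      have h2 : ((⟨c j, hc j⟩ : ↥W) • (fun i => R i (s * φ j))) i = c j * R i (s * φ j) := rfl
      rw [h2, map_mul]
      show R i s * (R i (φ j) * c j) = c j * (R i s * R i (φ j))
      ring
    rw [hsum]
    exact Submodule.sum_mem _ fun j _ => Submodule.smul_mem _ _ (h1 _ (hsmul _ (hφ.mem j)))
  -- `s^k ψ ∈ 𝓕_{W₀}`
  have hpow : s ^ k * ψ ∈ s27ptF W₀ R A' := by
    intro Q i hQ
    have hne : s ^ k * ψ ≠ 0 := mul_ne_zero (pow_ne_zero _ hs0) hψ0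
    rw [adicValuation_eq_exp_neg_ord Q hne, WithZero.exp_le_exp,
      Place.ord_mul Q (pow_ne_zero _ hs0) hψ0]
    have hordpow : Q.ord (s ^ k) = (k : ℤ) * Q.ord s := by
      rw [← zpow_natCast, Place.ord_zpow]
    rw [hordpow]
    by_cases hP : P Q
    · obtain ⟨j, hj⟩ := hP
      rw [hsP Q (hT₀ i Q hQ) ⟨j, hj⟩]
      have h3 := hψ Q j hj
      rw [adicValuation_eq_exp_neg_ord Q hψ0, WithZero.exp_le_exp] at h3
      omega
    · rw [hsN Q (hT₀ i Q hQ) hP]
      have h3 := hk Q (hT₀ i Q hQ)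
      omega
  have h2 := s17ig_inv_pow_stable _ d (fun i => (hdu i).1) (fun i => (hdu i).2) hd0 hM k _
    (h1 _ hpow)
  have h3 : (fun i => ((d i)⁻¹) ^ k * (fun i => R i (s ^ k * ψ)) i) = fun i => R i ψ := by
    funext i
    show ((R i s)⁻¹) ^ k * R i (s ^ k * ψ) = R i ψ
    rw [map_mul, map_pow, ← mul_assoc, ← mul_pow, inv_mul_cancel₀ (hd0 i), one_pow, one_mul]
  rw [h3] at h2
  exact h2

/-- **IDX-GEN**: a local equation at `W₀` is a local equation at every `W ≥ W₀`. -/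
theorem s17ig_idx {N : ℕ} {W₀ W : ValuationSubring 𝔏} (hle : W₀ ≤ W)
    (hK : ∀ c : K, algebraMap K 𝔏 c ∈ W₀) (R : Fin N → F →ₐ[K] 𝔏) (A' : Divisor K F)
    {y : 𝔏} (hy : S27ptIsIdx W₀ R A' y) : S27ptIsIdx W R A' y := by
  obtain ⟨f, φ, hφ, rfl⟩ := hy
  exact ⟨f, φ, s17ig_latBasis hle hK R A' hφ, rfl⟩

/-- **IDX-GEN, units**: if a local equation at `W₀` is a unit of `W₀`, every local equation at
`W ≥ W₀` is a unit of `W`. -/
theorem s17ig_unit {N : ℕ} {W₀ W : ValuationSubring 𝔏} (hle : W₀ ≤ W)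
    (hK : ∀ c : K, algebraMap K 𝔏 c ∈ W₀) (R : Fin N → F →ₐ[K] 𝔏) (A' : Divisor K F)
    {y₀ : 𝔏} (hy₀ : S27ptIsIdx W₀ R A' y₀) (hu : S27IsUnitIn W₀ y₀)
    {y : 𝔏} (hy : S27ptIsIdx W R A' y) : S27IsUnitIn W y := by
  obtain ⟨a, ha0, ha, ha', rfl⟩ :=
    s27pt_idx_unique (fun c => hle (hK c)) hy (s17ig_idx hle hK R A' hy₀)
  refine ⟨mul_ne_zero ha0 hu.1, W.mul_mem _ _ ha (hle hu.2.1), ?_⟩
  rw [mul_inv]
  exact W.mul_mem _ _ ha' (hle hu.2.2)

end Main

section Refine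

variable {K : Type u} [Field K] [IsAlgClosed K] {𝔏 : Type w} [Field 𝔏] [Algebra K 𝔏]

/-- the graph of the residue map `K + 𝔪_V → K`. -/
def s17igGraph (V : ValuationSubring 𝔏) (hKV : ∀ c : K, algebraMap K 𝔏 c ∈ V) :
    Subring (𝔏 × K) where
  carrier := {p | p.1 - algebraMap K 𝔏 p.2 ∈ V.nonunits}
  zero_mem' := by
    show (0 : 𝔏) - algebraMap K 𝔏 0 ∈ V.nonunits
    rw [map_zero, sub_zero, ValuationSubring.mem_nonunits_iff, map_zero]
    exact zero_lt_one
  one_mem' := by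
    show (1 : 𝔏) - algebraMap K 𝔏 1 ∈ V.nonunits
    rw [map_one, sub_self, ValuationSubring.mem_nonunits_iff, map_zero]
    exact zero_lt_one
  add_mem' := by
    rintro ⟨a, c⟩ ⟨a', c'⟩ h h'
    show (a + a') - algebraMap K 𝔏 (c + c') ∈ V.nonunits
    have h1 : a - algebraMap K 𝔏 c ∈ V.nonunits := h
    have h2 : a' - algebraMap K 𝔏 c' ∈ V.nonunits := h'
    rw [ValuationSubring.mem_nonunits_iff] at h1 h2 ⊢
    have h3 : (a + a') - algebraMap K 𝔏 (c + c') =
        (a - algebraMap K 𝔏 c) + (a' - algebraMap K 𝔏 c') := by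
      rw [map_add]; ring
    rw [h3]
    exact lt_of_le_of_lt (Valuation.map_add _ _ _) (max_lt h1 h2)
  neg_mem' := by
    rintro ⟨a, c⟩ h
    show (-a) - algebraMap K 𝔏 (-c) ∈ V.nonunits
    have h1 : a - algebraMap K 𝔏 c ∈ V.nonunits := h
    rw [ValuationSubring.mem_nonunits_iff] at h1 ⊢
    have h3 : (-a) - algebraMap K 𝔏 (-c) = -(a - algebraMap K 𝔏 c) := by
      rw [map_neg]; ring
    rw [h3, Valuation.map_neg]
    exact h1
  mul_mem' := by
    rintro ⟨a, c⟩ ⟨a', c'⟩ h h'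
    show (a * a') - algebraMap K 𝔏 (c * c') ∈ V.nonunits
    have h1 : a - algebraMap K 𝔏 c ∈ V.nonunits := h
    have h2 : a' - algebraMap K 𝔏 c' ∈ V.nonunits := h'
    have ha' : a' ∈ V := by
      have : a' = (a' - algebraMap K 𝔏 c') + algebraMap K 𝔏 c' := by ring
      rw [this]
      exact V.add_mem _ _ (V.nonunits_le h2) (hKV c')
    rw [ValuationSubring.mem_nonunits_iff] at h1 h2 ⊢
    have h3 : (a * a') - algebraMap K 𝔏 (c * c') =
        (a - algebraMap K 𝔏 c) * a' + algebraMap K 𝔏 c * (a' - algebraMap K 𝔏 c') := by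
      rw [map_mul]; ring
    rw [h3]
    refine lt_of_le_of_lt (Valuation.map_add _ _ _) (max_lt ?_ ?_)
    · rw [map_mul]
      calc V.valuation (a - algebraMap K 𝔏 c) * V.valuation a'
          ≤ V.valuation (a - algebraMap K 𝔏 c) * 1 :=
            mul_le_mul' le_rfl ((V.valuation_le_one_iff _).2 ha')
        _ = V.valuation (a - algebraMap K 𝔏 c) := mul_one _
        _ < 1 := h1
    · rw [map_mul]
      calc V.valuation (algebraMap K 𝔏 c) * V.valuation (a' - algebraMap K 𝔏 c')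
          ≤ 1 * V.valuation (a' - algebraMap K 𝔏 c') :=
            mul_le_mul' ((V.valuation_le_one_iff _).2 (hKV c)) le_rfl
        _ = V.valuation (a' - algebraMap K 𝔏 c') := one_mul _
        _ < 1 := h2

/-- **K-PLACE REFINEMENT**: every valuation subring `V ⊇ K` of `𝔏` (`K` algebraically closed)
contains a `K`-place `V₀ ≤ V`: `K ⊆ V₀` and the residue field of `V₀` is `K`. -/
theorem s17ig_exists_place (V : ValuationSubring 𝔏) (hKV : ∀ c : K, algebraMap K 𝔏 c ∈ V) :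
    ∃ V₀ : ValuationSubring 𝔏, V₀ ≤ V ∧ (∀ c : K, algebraMap K 𝔏 c ∈ V₀) ∧
      (∀ w ∈ V₀, ∃ c : K, w - algebraMap K 𝔏 c ∈ V₀.nonunits) := by
  have h₀ : S17pkFunc (s17igGraph V hKV) := by
    intro c hc
    have h1 : (0 : 𝔏) - algebraMap K 𝔏 c ∈ V.nonunits := hc
    by_contra hc0
    have h2 : algebraMap K 𝔏 c ≠ 0 := fun h => hc0 ((map_eq_zero _).1 h)
    rw [zero_sub, ValuationSubring.mem_nonunits_iff, Valuation.map_neg] at h1
    have h3 : V.valuation (algebraMap K 𝔏 c⁻¹) ≤ 1 := (V.valuation_le_one_iff _).2 (hKV _)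
    have h4 : V.valuation (algebraMap K 𝔏 c) * V.valuation (algebraMap K 𝔏 c⁻¹) = 1 := by
      rw [← map_mul, ← map_mul, mul_inv_cancel₀ hc0, map_one, map_one]
    have h5 : V.valuation (algebraMap K 𝔏 c) * V.valuation (algebraMap K 𝔏 c⁻¹) < 1 :=
      calc V.valuation (algebraMap K 𝔏 c) * V.valuation (algebraMap K 𝔏 c⁻¹)
          ≤ V.valuation (algebraMap K 𝔏 c) * 1 := mul_le_mul' le_rfl h3
        _ = V.valuation (algebraMap K 𝔏 c) := mul_one _
        _ < 1 := h1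
    rw [h4] at h5
    exact lt_irrefl _ h5
  obtain ⟨W, ψ, h1, h2⟩ := s17pk_exists_graph (s17igGraph V hKV) h₀
  have hKW : ∀ c : K, ∃ h : algebraMap K 𝔏 c ∈ W, ψ ⟨_, h⟩ = c := by
    intro c
    refine h1 (algebraMap K 𝔏 c) c ?_
    show algebraMap K 𝔏 c - algebraMap K 𝔏 c ∈ V.nonunits
    rw [sub_self, ValuationSubring.mem_nonunits_iff, map_zero]
    exact zero_lt_one
  have hm : ∀ a ∈ V.nonunits, a ∈ W.nonunits := by
    intro a ha
    have h3 : ((a, (0 : K)) : 𝔏 × K) ∈ s17igGraph V hKV := by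
      show a - algebraMap K 𝔏 0 ∈ V.nonunits
      rw [map_zero, sub_zero]
      exact ha
    obtain ⟨haW, hψ⟩ := h1 a 0 h3
    exact (h2 ⟨a, haW⟩).1 hψ
  refine ⟨W, ?_, fun c => (hKW c).1, fun w hw => ?_⟩
  · intro x hx
    by_contra hxV
    have h3 : x⁻¹ ∈ V.nonunits := V.inv_mem_nonunits_iff.2 (Or.inr hxV)
    rcases W.inv_mem_nonunits_iff.1 (hm _ h3) with h4 | h4
    · exact hxV (h4 ▸ V.zero_mem)
    · exact h4 hx
  · refine ⟨ψ ⟨w, hw⟩, ?_⟩
    obtain ⟨hc, hψc⟩ := hKW (ψ ⟨w, hw⟩)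
    have h3 : ψ (⟨w, hw⟩ - ⟨_, hc⟩) = 0 := by
      rw [map_sub, hψc, sub_self]
    exact (h2 _).1 h3

end Refine

end Fermat.Agent.S17

end
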