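/-
S17 sprint, layer H, leaf (N1-c)(ii) — **UNIT ⇒ NON-SPECIAL** (helper95, S27-B hub).

`K` algebraically closed, `F / K` a curve, `W ⊇ K` a valuation subring of `𝔏`, `R : Fin N → F →ₐ[K] 𝔏`
an injective tuple of points whose centres along `W` are the places `Q i`
(`D_W = Σ_i Q i` the centre divisor), `A'` a constant divisor, `x` a local equation
(`S27ptIsIdx W R A' x`, S27/PtDef.lean) of the theta divisor of `A'` at `Σ R i` along `W`.

  **`s17uns_main`** : if `L_K(A' − D_W) ≠ 0` then `x` is NOT a unit of `W` (`x ∈ 𝔪_W`);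
  **`s17uns_unit`** : if `x` is a unit of `W` then `L_K(A' − D_W) = 0`.

(The converse, "non-special centre ⇒ unit", is helper8's MOVE-VAL.)

Proof.  `(t, a)` an adapted pair (`s27adex_exists_isCurveOver`), `φ j = a · t ^ j` the lattice basis
(`s27eil_latBasis`), `c i = t(Q i) ∈ K`, `ρ i = R i t ≡ c i mod 𝔪_W`.  For `0 ≠ f ∈ L_K(A' − D_W)` the
function `ψ = f / ∏_k (t − c k)` lies in `𝓕` (orders at the centres; `t` separates the centres), and
by induction over `S ⊆ Fin N`: `Val (ψ ∏_{k ∈ S} (t − c k)) ∈ ∏_{k ∈ S} (X − ρ k) · Val ψ + 𝔪_W M`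
(`X` the diagonal operator `R i t`).  For `S = univ` the product kills every coordinate, so
`Val f ∈ 𝔪_W M`; with `f = Σ α_l f_l` (`α ∈ K^N ∖ 0`) and `ValB f_• = Val φ · C` this is `C α ∈ 𝔪_W^N`,
hence `det C ∈ 𝔪_W` (Cramer).
-/
import Fermat.Agent.S27.EffInstLat
import Fermat.Agent.S27.PtDef

set_option autoImplicit false
set_option linter.style.haveILetI false
set_option linter.unusedSectionVars false
set_option linter.unusedVariables false

noncomputable section

namespace Fermat.Agent.S17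

open AlgebraicCurve Fermat.Agent.S27 Fermat.Agent.S24.PlaceAux

/-! ### Step A: linear algebra over a valuation ring -/

section LinAlg

variable {𝔏 : Type*} [Field 𝔏]

theorem s17uns_nonunits_add {W : ValuationSubring 𝔏} {a b : 𝔏} (ha : a ∈ W.nonunits)
    (hb : b ∈ W.nonunits) : a + b ∈ W.nonunits := by
  rw [ValuationSubring.mem_nonunits_iff] at ha hb ⊢
  exact lt_of_le_of_lt (W.valuation.map_add a b) (max_lt ha hb)

theorem s17uns_nonunits_zero (W : ValuationSubring 𝔏) : (0 : 𝔏) ∈ W.nonunits := by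
  rw [ValuationSubring.mem_nonunits_iff, map_zero]
  exact zero_lt_one

theorem s17uns_nonunits_mul {W : ValuationSubring 𝔏} {a b : 𝔏} (ha : a ∈ W)
    (hb : b ∈ W.nonunits) : a * b ∈ W.nonunits := by
  rw [ValuationSubring.mem_nonunits_iff] at hb ⊢
  rw [map_mul]
  have h1 : W.valuation a ≤ 1 := (W.valuation_le_one_iff a).2 ha
  calc W.valuation a * W.valuation b ≤ 1 * W.valuation b := mul_le_mul_left h1 _
    _ = W.valuation b := one_mul _
    _ < 1 := hb

theorem s17uns_nonunits_sum {W : ValuationSubring 𝔏} {ι : Type*} (s : Finset ι) (g : ι → 𝔏)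
    (hg : ∀ i ∈ s, g i ∈ W.nonunits) : (∑ i ∈ s, g i) ∈ W.nonunits := by
  classical
  induction s using Finset.induction_on with
  | empty =>
    rw [Finset.sum_empty]
    exact s17uns_nonunits_zero W
  | insert a s ha ih =>
    rw [Finset.sum_insert ha]
    exact s17uns_nonunits_add (hg a (Finset.mem_insert_self a s))
      (ih fun i hi => hg i (Finset.mem_insert_of_mem hi))

theorem s17uns_nonunits_mem {W : ValuationSubring 𝔏} {a : 𝔏} (ha : a ∈ W.nonunits) : a ∈ W := by
  rw [ValuationSubring.mem_nonunits_iff] at ha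
  exact (W.valuation_le_one_iff a).1 ha.le

/-- **Cramer**: `C` over `W`, `C α ∈ 𝔪_W^N` with some `α l` a unit of `W` ⇒ `det C ∈ 𝔪_W`. -/
theorem s17uns_det_nonunit {N : ℕ} (W : ValuationSubring 𝔏) (C : Matrix (Fin N) (Fin N) 𝔏)
    (hC : ∀ i j, C i j ∈ W) (α : Fin N → 𝔏) (l : Fin N) (hl : W.valuation (α l) = 1)
    (hm : ∀ i, (C.mulVec α) i ∈ W.nonunits) : C.det ∈ W.nonunits := by
  classical
  have hadj : ∀ i j, C.adjugate i j ∈ W := by
    intro i j
    rw [Matrix.adjugate_apply]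
    refine s27pt_det_mem _ fun p q => ?_
    rw [Matrix.updateRow_apply]
    split_ifs
    · rw [Pi.single_apply]
      split_ifs
      · exact W.one_mem
      · exact W.zero_mem
    · exact hC p q
  have h1 : C.adjugate.mulVec (C.mulVec α) = C.det • α := by
    rw [Matrix.mulVec_mulVec, Matrix.adjugate_mul, Matrix.smul_mulVec, Matrix.one_mulVec]
  have h2 : C.det * α l ∈ W.nonunits := by
    have h3 := congrFun h1 l
    rw [Pi.smul_apply, smul_eq_mul] at h3
    rw [← h3]
    show (∑ j, C.adjugate l j * (C.mulVec α) j) ∈ W.nonunits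
    exact s17uns_nonunits_sum _ _ fun j _ => s17uns_nonunits_mul (hadj l j) (hm j)
  rw [ValuationSubring.mem_nonunits_iff] at h2 ⊢
  rwa [map_mul, hl, mul_one] at h2

end LinAlg

/-! ### Step B: the small part `𝔪_W · M` of the lattice of values -/

section Small

variable {K F : Type*} [Field K] [Field F] [Algebra K F]
variable {𝔏 : Type*} [Field 𝔏] [Algebra K 𝔏]
variable {N : ℕ} {W : ValuationSubring 𝔏} {R : Fin N → F →ₐ[K] 𝔏} {A' : Divisor K F}

theorem s17uns_nonunits_neg {a : 𝔏} (ha : a ∈ W.nonunits) : -a ∈ W.nonunits := by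
  rw [ValuationSubring.mem_nonunits_iff] at ha ⊢
  rwa [Valuation.map_neg]

/-- `v ∈ 𝔪_W · M`: `v = Val φ · c` with `c ∈ 𝔪_W^N`. -/
def S17unsSmall (W : ValuationSubring 𝔏) (R : Fin N → F →ₐ[K] 𝔏) (φ : Fin N → F)
    (v : Fin N → 𝔏) : Prop :=
  ∃ c : Fin N → 𝔏, (∀ j, c j ∈ W.nonunits) ∧ ∀ i, v i = ∑ j, R i (φ j) * c j

theorem s17uns_small_zero (φ : Fin N → F) : S17unsSmall W R φ (fun _ => 0) :=
  ⟨fun _ => 0, fun _ => s17uns_nonunits_zero W, fun i => by simp⟩

theorem s17uns_small_add {φ : Fin N → F} {v v' : Fin N → 𝔏} (hv : S17unsSmall W R φ v)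
    (hv' : S17unsSmall W R φ v') : S17unsSmall W R φ (fun i => v i + v' i) := by
  obtain ⟨c, hc, hvc⟩ := hv
  obtain ⟨c', hc', hvc'⟩ := hv'
  refine ⟨fun j => c j + c' j, fun j => s17uns_nonunits_add (hc j) (hc' j), fun i => ?_⟩
  show v i + v' i = ∑ j, R i (φ j) * (c j + c' j)
  rw [hvc i, hvc' i, ← Finset.sum_add_distrib]
  exact Finset.sum_congr rfl fun j _ => by ring

/-- `ε · Val ψ` is small for `ψ ∈ 𝓕`, `ε ∈ 𝔪_W`. -/
theorem s17uns_small_of_mem {φ : Fin N → F} (hφ : S27ptIsLatBasis W R A' φ) {ψ : F}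
    (hψ : ψ ∈ s27ptF W R A') {ε : 𝔏} (hε : ε ∈ W.nonunits) :
    S17unsSmall W R φ (fun i => ε * R i ψ) := by
  obtain ⟨c, hc, hψc⟩ := hφ.span ψ hψ
  refine ⟨fun j => c j * ε, fun j => s17uns_nonunits_mul (hc j) hε, fun i => ?_⟩
  show ε * R i ψ = ∑ j, R i (φ j) * (c j * ε)
  rw [hψc i, Finset.mul_sum]
  exact Finset.sum_congr rfl fun j _ => by ring

/-- the small part is stable under the diagonal operators `R i u − w` (`u · 𝓕 ⊆ 𝓕`, `w ∈ W`). -/
theorem s17uns_small_mul {φ : Fin N → F} (hφ : S27ptIsLatBasis W R A' φ) {u : F}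
    (hu : ∀ ψ ∈ s27ptF W R A', u * ψ ∈ s27ptF W R A') {w : 𝔏} (hw : w ∈ W)
    {v : Fin N → 𝔏} (hv : S17unsSmall W R φ v) :
    S17unsSmall W R φ (fun i => (R i u - w) * v i) := by
  obtain ⟨c, hc, hvc⟩ := hv
  choose d hd hdφ using fun j => hφ.span (u * φ j) (hu _ (hφ.mem j))
  refine ⟨fun l => (∑ j, d j l * c j) - w * c l, fun l => ?_, fun i => ?_⟩
  · show (∑ j, d j l * c j) - w * c l ∈ W.nonunits
    rw [sub_eq_add_neg]
    exact s17uns_nonunits_add
      (s17uns_nonunits_sum _ _ fun j _ => s17uns_nonunits_mul (hd j l) (hc j))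
      (s17uns_nonunits_neg (s17uns_nonunits_mul hw (hc l)))
  · have h1 : ∀ j, R i u * R i (φ j) = ∑ l, R i (φ l) * d j l := fun j => by
      rw [← map_mul, hdφ j i]
    show (R i u - w) * v i = ∑ l, R i (φ l) * ((∑ j, d j l * c j) - w * c l)
    calc (R i u - w) * v i
        = ∑ j, (R i u * R i (φ j)) * c j - w * ∑ j, R i (φ j) * c j := by
          rw [hvc i, sub_mul, Finset.mul_sum]
          congr 1
          exact Finset.sum_congr rfl fun j _ => by ring
      _ = ∑ j, ∑ l, R i (φ l) * (d j l * c j) - ∑ l, R i (φ l) * (w * c l) := by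
          congr 1
          · refine Finset.sum_congr rfl fun j _ => ?_
            rw [h1 j, Finset.sum_mul]
            exact Finset.sum_congr rfl fun l _ => by ring
          · rw [Finset.mul_sum]
            exact Finset.sum_congr rfl fun l _ => by ring
      _ = ∑ l, R i (φ l) * ((∑ j, d j l * c j) - w * c l) := by
          rw [Finset.sum_comm, ← Finset.sum_sub_distrib]
          refine Finset.sum_congr rfl fun l _ => ?_
          rw [mul_sub, Finset.mul_sum]

/-- **the induction**: `Val (ψ · ∏_{k ∈ S} (t − c k)) ∈ ∏_{k ∈ S} (X − ρ k) · Val ψ + 𝔪_W M`. -/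
theorem s17uns_ind {φ : Fin N → F} (hφ : S27ptIsLatBasis W R A' φ) (t : F) (c : Fin N → K)
    (hW : ∀ a : K, algebraMap K 𝔏 a ∈ W)
    (htF : ∀ (b : K), ∀ ψ ∈ s27ptF W R A', (t - algebraMap K F b) * ψ ∈ s27ptF W R A')
    (htW : ∀ i, R i t ∈ W)
    (hc : ∀ k, R k t - algebraMap K 𝔏 (c k) ∈ W.nonunits)
    {ψ : F} (hψ : ψ ∈ s27ptF W R A') (S : Finset (Fin N)) :
    ψ * ∏ k ∈ S, (t - algebraMap K F (c k)) ∈ s27ptF W R A' ∧
    ∃ e : Fin N → 𝔏, S17unsSmall W R φ e ∧ ∀ i,
      R i (ψ * ∏ k ∈ S, (t - algebraMap K F (c k))) =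
        (∏ k ∈ S, (R i t - R k t)) * R i ψ + e i := by
  classical
  induction S using Finset.induction_on with
  | empty =>
    refine ⟨by simpa using hψ, fun _ => 0, s17uns_small_zero φ, fun i => ?_⟩
    simp
  | insert k₀ S hk ih =>
    obtain ⟨hmem, e, he, hval⟩ := ih
    have hprod : ψ * ∏ k ∈ insert k₀ S, (t - algebraMap K F (c k)) =
        (t - algebraMap K F (c k₀)) * (ψ * ∏ k ∈ S, (t - algebraMap K F (c k))) := by
      rw [Finset.prod_insert hk]
      ring
    refine ⟨by rw [hprod]; exact htF _ _ hmem, ?_⟩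
    have htu : ∀ ψ' ∈ s27ptF W R A', t * ψ' ∈ s27ptF W R A' := by
      intro ψ' hψ'
      have := htF 0 ψ' hψ'
      rwa [map_zero, sub_zero] at this
    refine ⟨fun i => (R i t - R k₀ t) * e i +
        (R k₀ t - algebraMap K 𝔏 (c k₀)) * R i (ψ * ∏ k ∈ S, (t - algebraMap K F (c k))),
      s17uns_small_add (s17uns_small_mul hφ htu (htW k₀) he)
        (s17uns_small_of_mem hφ hmem (hc k₀)), fun i => ?_⟩
    rw [hprod, map_mul, map_sub, AlgHom.commutes, Finset.prod_insert hk]
    have h2 := hval i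
    show (R i t - algebraMap K 𝔏 (c k₀)) * R i (ψ * ∏ k ∈ S, (t - algebraMap K F (c k))) =
      ((R i t - R k₀ t) * ∏ k ∈ S, (R i t - R k t)) * R i ψ +
        ((R i t - R k₀ t) * e i +
          (R k₀ t - algebraMap K 𝔏 (c k₀)) * R i (ψ * ∏ k ∈ S, (t - algebraMap K F (c k))))
    linear_combination (R i t - R k₀ t) * h2

/-- **`Val (ψ · ∏_k (t − c k))` is small.** -/
theorem s17uns_small_prod {φ : Fin N → F} (hφ : S27ptIsLatBasis W R A' φ) (t : F) (c : Fin N → K)
    (hW : ∀ a : K, algebraMap K 𝔏 a ∈ W)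
    (htF : ∀ (b : K), ∀ ψ ∈ s27ptF W R A', (t - algebraMap K F b) * ψ ∈ s27ptF W R A')
    (htW : ∀ i, R i t ∈ W)
    (hc : ∀ k, R k t - algebraMap K 𝔏 (c k) ∈ W.nonunits)
    {ψ : F} (hψ : ψ ∈ s27ptF W R A') :
    S17unsSmall W R φ (fun i => R i (ψ * ∏ k, (t - algebraMap K F (c k)))) := by
  obtain ⟨-, e, he, hval⟩ := s17uns_ind hφ t c hW htF htW hc hψ Finset.univ
  have : (fun i => R i (ψ * ∏ k, (t - algebraMap K F (c k)))) = e := by
    funext i
    rw [hval i, Finset.prod_eq_zero (Finset.mem_univ i) (sub_self _), zero_mul, zero_add]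
  rw [this]
  exact he

end Small

/-! ### Steps C, D: the centre divisor and the main theorem -/

section Main

variable {K F : Type*} [Field K] [Field F] [Algebra K F]
variable {𝔏 : Type*} [Field 𝔏] [Algebra K 𝔏]
variable {N : ℕ} {W : ValuationSubring 𝔏} {R : Fin N → F →ₐ[K] 𝔏} {A' : Divisor K F}

/-- the centre divisor `D_W = Σ_i Q i`. -/
def s17unsDiv (Q : Fin N → Place K F) : Divisor K F := ∑ i, Finsupp.single (Q i) (1 : ℤ)

open scoped Classical in
theorem s17unsDiv_apply (Q : Fin N → Place K F) (P : Place K F) :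
    s17unsDiv Q P = ∑ i, if Q i = P then (1 : ℤ) else 0 := by
  unfold s17unsDiv
  rw [Finsupp.finsetSum_apply]
  exact Finset.sum_congr rfl fun i _ => Finsupp.single_apply

theorem s17unsDiv_nonneg (Q : Fin N → Place K F) (P : Place K F) : 0 ≤ s17unsDiv Q P := by
  rw [s17unsDiv_apply]
  exact Finset.sum_nonneg fun i _ => by split_ifs <;> simp

theorem s17uns_ord_prod (P : Place K F) (S : Finset (Fin N)) (u : Fin N → F)
    (hu : ∀ k, u k ≠ 0) : P.ord (∏ k ∈ S, u k) = ∑ k ∈ S, P.ord (u k) := by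
  classical
  induction S using Finset.induction_on with
  | empty => simp [Place.ord_one]
  | insert a S ha ih =>
    rw [Finset.prod_insert ha, Finset.sum_insert ha,
      Place.ord_mul _ (hu a) (Finset.prod_ne_zero_iff.2 fun k _ => hu k), ih]

variable [IsAlgClosed K] [CharZero K] [IsCurveOver K F] [Algebra.EssFiniteType K F]

/-- **UNIT ⇒ NON-SPECIAL, contrapositive**: a nonzero `f ∈ L_K(A' − D_W)` forces every local
equation along `W` to be a NON-unit of `W`. -/
theorem s17uns_main (hW : ∀ a : K, algebraMap K 𝔏 a ∈ W) (hR : Function.Injective R)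
    (Q : Fin N → Place K F) (hQ : ∀ i, S27ptIsCentre W (R i) (Q i))
    {x : 𝔏} (hx : S27ptIsIdx W R A' x) {f : F}
    (hf : f ∈ riemannRochSpace (A' - s17unsDiv Q)) (hf0 : f ≠ 0) : x ∈ W.nonunits := by
  classical
  obtain ⟨t, a, had⟩ := s27adex_exists_isCurveOver W hW R (fun P => -A' P)
  have hφ := s27eil_latBasis W hW R hR A' t a had
  choose c hc using fun i => had.exists_unif (hQ i)
  have hne : ∀ b : K, t - algebraMap K F b ≠ 0 := fun b h => had.t_not_const b (sub_eq_zero.1 h)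
  have hcW : ∀ k, R k t - algebraMap K 𝔏 (c k) ∈ W.nonunits := by
    intro k
    have h1 : t - algebraMap K F (c k) ∈ (Q k).toValuationSubring.nonunits :=
      (ord_pos_iff_mem_nonunits (Q k) (hne _)).1 (by rw [hc k]; exact one_pos)
    have hQk : W.comap (R k : F →+* 𝔏) = (Q k).toValuationSubring := hQ k
    rw [← hQk] at h1
    have h2 := (s27adex_comap_nonunits W (R k) _).1 h1
    rwa [map_sub, AlgHom.commutes] at h2
  have htF : ∀ (b : K), ∀ ψ ∈ s27ptF W R A', (t - algebraMap K F b) * ψ ∈ s27ptF W R A' := by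
    intro b ψ hψ P i hP
    rw [map_mul]
    have h1 : t - algebraMap K F b ∈ P.toValuationSubring := by
      have hP' : W.comap (R i : F →+* 𝔏) = P.toValuationSubring := hP
      rw [← hP']
      show R i (t - algebraMap K F b) ∈ W
      rw [map_sub, AlgHom.commutes]
      exact sub_mem (had.t_mem i) (hW b)
    calc P.adicValuation (t - algebraMap K F b) * P.adicValuation ψ
        ≤ 1 * WithZero.exp (A' P) :=
          mul_le_mul' (P.adicValuation_le_one_of_mem h1) (hψ P i hP)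
      _ = WithZero.exp (A' P) := one_mul _
  have hsep : ∀ i k, Q i ≠ Q k → c i ≠ c k := by
    intro i k hik hcc
    apply had.centres (hQ i) (hQ k) hik
    have h1 : R i t - R k t = (R i t - algebraMap K 𝔏 (c i)) +
        -(R k t - algebraMap K 𝔏 (c k)) := by
      rw [hcc]
      ring
    rw [h1]
    exact s17uns_nonunits_add (hcW i) (s17uns_nonunits_neg (hcW k))
  have hord : ∀ i k, (Q i).ord (t - algebraMap K F (c k)) = if Q k = Q i then (1 : ℤ) else 0 := by
    intro i k
    split_ifs with h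
    · rw [← h]
      exact hc k
    · have hck : c i ≠ c k := hsep i k (fun h' => h h'.symm)
      have h0 : algebraMap K F (c i - c k) ≠ 0 := by
        rw [Ne, map_eq_zero, sub_eq_zero]
        exact hck
      have h1 : t - algebraMap K F (c k) =
          algebraMap K F (c i - c k) + (t - algebraMap K F (c i)) := by
        rw [map_sub]
        ring
      rw [h1, ord_add_eq_of_lt (Q i) h0 (hne _) (by rw [ord_algebraMap, hc i]; exact one_pos),
        ord_algebraMap]
  have hP0 : (∏ k, (t - algebraMap K F (c k))) ≠ 0 := Finset.prod_ne_zero_iff.2 fun k _ => hne _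
  have hψ : f * (∏ k, (t - algebraMap K F (c k)))⁻¹ ∈ s27ptF W R A' := by
    intro P i hP
    have hPQ : P = Q i := by
      apply Place.ext
      have hP' : W.comap (R i : F →+* 𝔏) = P.toValuationSubring := hP
      have hQ' : W.comap (R i : F →+* 𝔏) = (Q i).toValuationSubring := hQ i
      rw [← hP', hQ']
    subst hPQ
    rw [Place.adicValuation_le_exp_iff]
    right
    have hfm := (mem_riemannRochSpace_iff.1 hf (Q i)).resolve_left hf0
    rw [Finsupp.sub_apply] at hfm
    have hsum : ∑ k, (Q i).ord (t - algebraMap K F (c k)) = s17unsDiv Q (Q i) := by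
      rw [s17unsDiv_apply]
      exact Finset.sum_congr rfl fun k _ => hord i k
    rw [Place.ord_mul _ hf0 (inv_ne_zero hP0), Place.ord_inv,
      s17uns_ord_prod (Q i) Finset.univ _ (fun k => hne (c k)), hsum]
    omega
  have hfψ : f = f * (∏ k, (t - algebraMap K F (c k)))⁻¹ * ∏ k, (t - algebraMap K F (c k)) := by
    rw [mul_assoc, inv_mul_cancel₀ hP0, mul_one]
  have hsmall := s17uns_small_prod hφ t c hW htF (fun i => had.t_mem i) hcW hψ
  rw [← hfψ] at hsmall
  obtain ⟨m, hm, hfm0⟩ := hsmall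
  have hfm : ∀ i, R i f = ∑ j : Fin N, R i (a * t ^ (j : ℕ)) * m j := fun i => hfm0 i
  -- the local equation with the adapted lattice basis
  obtain ⟨fb, φ₀, hφ₀, rfl⟩ := hx
  have hx' : S27ptIsIdx W R A'
      ((s27ptValB R fb).det / (s27ptVal R fun j : Fin N => a * t ^ (j : ℕ)).det) :=
    ⟨fb, _, hφ, rfl⟩
  obtain ⟨u, -, huW, -, hxu⟩ := s27pt_idx_unique hW (⟨fb, φ₀, hφ₀, rfl⟩ : S27ptIsIdx W R A' _) hx'
  rw [hxu]
  refine s17uns_nonunits_mul huW ?_
  have hfF : ∀ l, ((fb l : ↥(riemannRochSpace A')) : F) ∈ s27ptF W R A' := fun l =>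
    s27pt_rr_le W R A' (fb l).2
  obtain ⟨C, hC, hval⟩ := s27pt_exists_coeff hφ _ hfF
  have hdet : (s27ptValB R fb).det / (s27ptVal R fun j : Fin N => a * t ^ (j : ℕ)).det =
      C.det := by
    unfold s27ptValB
    rw [hval, Matrix.det_mul, mul_comm, mul_div_assoc, div_self hφ.det_ne, mul_one]
  rw [hdet]
  -- the coordinates of `f`
  have hfA : f ∈ riemannRochSpace A' := by
    rw [mem_riemannRochSpace_iff] at hf ⊢
    intro v
    rcases hf v with h | h
    · exact Or.inl h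
    · right
      rw [Finsupp.sub_apply] at h
      have := s17unsDiv_nonneg Q v
      omega
  have hα : ∃ l, fb.repr ⟨f, hfA⟩ l ≠ 0 := by
    by_contra h
    simp only [not_exists, not_not] at h
    have h1 : fb.repr ⟨f, hfA⟩ = 0 := Finsupp.ext h
    have h2 := fb.repr.map_eq_zero_iff.1 h1
    exact hf0 (congrArg Subtype.val h2)
  obtain ⟨l, hl⟩ := hα
  have hsum : ∀ i, R i f = ∑ l', R i ((fb l' : ↥(riemannRochSpace A')) : F) *
      algebraMap K 𝔏 (fb.repr ⟨f, hfA⟩ l') := by
    intro i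
    have h1 := congrArg Subtype.val (fb.sum_repr ⟨f, hfA⟩)
    rw [Submodule.coe_sum] at h1
    have h2 : f = ∑ l', fb.repr ⟨f, hfA⟩ l' • ((fb l' : ↥(riemannRochSpace A')) : F) :=
      h1.symm
    conv_lhs => rw [h2]
    rw [map_sum]
    refine Finset.sum_congr rfl fun l' _ => ?_
    rw [Algebra.smul_def, map_mul, AlgHom.commutes, mul_comm]
  have hkey : (s27ptVal R fun j : Fin N => a * t ^ (j : ℕ)).mulVec
      (C.mulVec fun l' => algebraMap K 𝔏 (fb.repr ⟨f, hfA⟩ l')) =
      (s27ptVal R fun j : Fin N => a * t ^ (j : ℕ)).mulVec m := by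
    rw [Matrix.mulVec_mulVec, ← hval]
    funext i
    show ∑ l', s27ptVal R (fun l' => ((fb l' : ↥(riemannRochSpace A')) : F)) i l' *
        algebraMap K 𝔏 (fb.repr ⟨f, hfA⟩ l') =
      ∑ j, s27ptVal R (fun j : Fin N => a * t ^ (j : ℕ)) i j * m j
    simp only [s27ptVal_apply]
    rw [← hsum i, hfm i]
  have hinj := Matrix.mulVec_injective_iff_isUnit.2
    ((Matrix.isUnit_iff_isUnit_det _).2 (IsUnit.mk0 _ hφ.det_ne))
  have hCm := hinj hkey
  refine s17uns_det_nonunit W C hC (fun l' => algebraMap K 𝔏 (fb.repr ⟨f, hfA⟩ l')) l ?_ ?_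
  · have h1 : algebraMap K 𝔏 (fb.repr ⟨f, hfA⟩ l) ∈ W := hW _
    have h2 : (algebraMap K 𝔏 (fb.repr ⟨f, hfA⟩ l))⁻¹ ∈ W := by
      rw [← map_inv₀]
      exact hW _
    have h3 : algebraMap K 𝔏 (fb.repr ⟨f, hfA⟩ l) ≠ 0 := by
      rw [Ne, map_eq_zero]
      exact hl
    apply le_antisymm ((W.valuation_le_one_iff _).2 h1)
    have h4 := (W.valuation_le_one_iff _).2 h2
    rw [map_inv₀] at h4
    by_contra h5
    rw [not_le] at h5
    have h6 : W.valuation (algebraMap K 𝔏 (fb.repr ⟨f, hfA⟩ l)) ≠ 0 :=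
      (Valuation.ne_zero_iff _).2 h3
    have h7 := (one_lt_inv₀ (zero_lt_iff.2 h6)).2 h5
    exact absurd h4 (not_le.2 h7)
  · intro i
    rw [hCm]
    exact hm i

/-- **UNIT ⇒ NON-SPECIAL**: if a local equation along `W` is a unit of `W`, then
`L_K(A' − D_W) = 0` for the centre divisor `D_W = Σ_i Q i`. -/
theorem s17uns_unit (hW : ∀ a : K, algebraMap K 𝔏 a ∈ W) (hR : Function.Injective R)
    (Q : Fin N → Place K F) (hQ : ∀ i, S27ptIsCentre W (R i) (Q i))
    {x : 𝔏} (hx : S27ptIsIdx W R A' x) (hx0 : x ≠ 0) (hxi : x⁻¹ ∈ W) :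
    riemannRochSpace (A' - s17unsDiv Q) = ⊥ := by
  rw [Submodule.eq_bot_iff]
  intro f hf
  by_contra hf0
  have h1 := s17uns_main hW hR Q hQ hx hf hf0
  rw [ValuationSubring.mem_nonunits_iff] at h1
  have h2 : W.valuation x⁻¹ ≤ 1 := (W.valuation_le_one_iff _).2 hxi
  rw [map_inv₀] at h2
  have h3 : W.valuation x ≠ 0 := (Valuation.ne_zero_iff _).2 hx0
  have h4 := (one_lt_inv₀ (zero_lt_iff.2 h3)).2 h1
  exact absurd h2 (not_le.2 h4)

end Main

end Fermat.Agent.S17

end
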