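/-
S17 sprint, layer H — leaf **MOVE-VAL** (helper8): the VALUATIVE half of the moving lemma,
"NON-SPECIAL CENTRE ⇒ the local equation of the theta divisor is a UNIT".

Setting (S27/PtDef.lean, S27/EffInstLat.lean): `K` algebraically closed of characteristic `0`,
`F / K` a curve, `W ⊇ K` a valuation subring of a field `𝔏 ⊇ K`, `R i : F →ₐ[K] 𝔏` (`i < N`) pairwise
distinct points with CLOSED centres `Q i` along `W` (`W ∩ R i (F) = 𝒪_{Q i}`), `A'` a divisor of
`F / K`, `f` a `K`-basis of `L_K(A')` (`N` elements), `x = det [R i (f l)] / det [R i (φ j)]` a local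
equation (`S27ptIsIdx W R A' x`).

* `s17mvv_poly_key`   : the polynomial key (pure algebra over a valuation ring);
* `s17mvv_tau_inj`    : `i ↦ R i t` is injective for an adapted pair `(t, a)` (Vandermonde);
* **`s17mvv_vanish`** : `ψ ∈ 𝓕` whose vector of values lies in `𝔪_W · M_W(R, A')` vanishes along the
                        centre divisor: `ord_Q ψ ≥ −A'(Q) + #{i | Q i = Q}` at every centre `Q`;
* `s17mvv_mem_rr`     : hence `ψ ∈ L_K(A')` with values in `𝔪_W · M_W` lies in `L_K(A' − Σ_i Q i)`;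
* **`s17mvv_unit`**   : **NON-SPECIAL ⇒ UNIT**: if the residue field of `W` is `K`
                        (`∀ w ∈ W, ∃ c ∈ K, w − c ∈ 𝔪_W`: a `K`-place) and `L_K(A' − Σ_i Q i) = 0`,
                        then every local equation `x` at `(R, A')` is a unit of `W`;
                        (conclusion `x ≠ 0 ∧ x ∈ W ∧ x⁻¹ ∈ W`, which is `S27IsUnitIn W x` unfolded);
* `s17mvv_unit_iff`   : with helper95's converse `s17uns_unit` (S17/UnitNS.lean): at a `K`-place,
                        `x` is a unit of `W` IFF `L_K(A' − Σ_i Q i) = 0`.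
With `A' = B + Ao` and `X = Σ_i Q i − B` (a divisor of the centre class of `[Σ R i − Con B]`),
`A' − Σ_i Q i = Ao − X`: the hypothesis is `S17mvcOff Ao (centre class)` of helper26's
S17/MoveCls.lean, whose `s17mvc_exists` provides the constants `D` of the moving lemma `hmove`.
-/
import Fermat.Agent.S27.EffInstLat
import Fermat.Agent.S17.UnitNS

set_option autoImplicit false
set_option linter.unusedSectionVars false
set_option linter.unusedVariables false
set_option linter.style.haveILetI false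

noncomputable section

namespace Fermat.Agent.S17

open Polynomial AlgebraicCurve WithZero Fermat.Agent.S27 Fermat.Agent.S24.PlaceAux

/-- **the polynomial key**: `P_e, P_d` polynomials of degree `< N` with coefficients in `W`, resp.
in `𝔪_W`, with `(τ_i − c)^k · P_e(τ_i) = P_d(τ_i)` at `N` distinct points `τ_i ∈ W`, more than `k`
of which are `≡ c mod 𝔪_W`: then `P_e(τ_i) ∈ 𝔪_W` at these points. -/
theorem s17mvv_poly_key {𝔏 : Type*} [Field 𝔏] (W : ValuationSubring 𝔏) {N : ℕ}
    (τ : Fin N → 𝔏) (hτ : ∀ i, τ i ∈ W) (hτinj : Function.Injective τ)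
    (c : 𝔏) (hc : c ∈ W) (S : Finset (Fin N)) (hS : ∀ i ∈ S, τ i - c ∈ W.nonunits)
    (k : ℕ) (hk : k < S.card)
    (e d : Fin N → 𝔏) (he : ∀ j, e j ∈ W) (hd : ∀ j, d j ∈ W.nonunits)
    (hrel : ∀ i, (τ i - c) ^ k * (∑ j, e j * τ i ^ (j : ℕ)) = ∑ j, d j * τ i ^ (j : ℕ)) :
    ∀ i ∈ S, (∑ j, e j * τ i ^ (j : ℕ)) ∈ W.nonunits := by
  classical
  -- the residue field
  let π : ↥W →+* IsLocalRing.ResidueField ↥W := IsLocalRing.residue ↥W
  have hπ0 : ∀ (z : 𝔏) (hz : z ∈ W), π ⟨z, hz⟩ = 0 ↔ z ∈ W.nonunits := by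
    intro z hz
    rw [IsLocalRing.residue_eq_zero_iff, ValuationSubring.mem_nonunits_iff_exists_mem_maximalIdeal]
    constructor
    · intro h
      exact ⟨hz, h⟩
    · rintro ⟨_, h⟩
      exact h
  -- the polynomials over `W`
  let τW : Fin N → ↥W := fun i => ⟨τ i, hτ i⟩
  let cW : ↥W := ⟨c, hc⟩
  let Pe : (↥W)[X] := ∑ j : Fin N, C (⟨e j, he j⟩ : ↥W) * X ^ (j : ℕ)
  let Pd : (↥W)[X] := ∑ j : Fin N, C (⟨d j, ValuationSubring.nonunits_subset (hd j)⟩ : ↥W) *
    X ^ (j : ℕ)
  let D : (↥W)[X] := (X - C cW) ^ k * Pe - Pd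
  let Pi0 : (↥W)[X] := ∏ i : Fin N, (X - C (τW i))
  have hPe : ∀ i, ((Pe.eval (τW i) : ↥W) : 𝔏) = ∑ j, e j * τ i ^ (j : ℕ) := by
    intro i
    simp only [Pe, eval_finsetSum, eval_mul, eval_C, eval_pow, eval_X]
    push_cast
    rfl
  have hPd : ∀ i, ((Pd.eval (τW i) : ↥W) : 𝔏) = ∑ j, d j * τ i ^ (j : ℕ) := by
    intro i
    simp only [Pd, eval_finsetSum, eval_mul, eval_C, eval_pow, eval_X]
    push_cast
    rfl
  have hDroot : ∀ i, D.eval (τW i) = 0 := by
    intro i
    apply Subtype.ext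
    simp only [D, eval_sub, eval_mul, eval_pow, eval_X, eval_C]
    push_cast
    rw [hPe, hPd]
    show (τ i - c) ^ k * _ - _ = 0
    rw [hrel i, sub_self]
  -- divisibility over the field
  have hPi0monic : Pi0.Monic := monic_prod_of_monic _ _ (fun i _ => monic_X_sub_C _)
  have hinj : Function.Injective (W.subtype : ↥W →+* 𝔏) := Subtype.val_injective
  have hdvd : Pi0 ∣ D := by
    rw [← Polynomial.map_dvd_map W.subtype hinj hPi0monic]
    have h1 : Pi0.map W.subtype = ∏ i : Fin N, (X - C (τ i)) := by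
      simp only [Pi0, Polynomial.map_prod, Polynomial.map_sub, Polynomial.map_X, Polynomial.map_C]
      rfl
    rw [h1]
    refine Finset.prod_dvd_of_coprime ?_ ?_
    · intro i _ j _ hij
      exact Polynomial.pairwise_coprime_X_sub_C hτinj hij
    · intro i _
      rw [Polynomial.dvd_iff_isRoot, IsRoot.def, eval_map]
      have hτi : τ i = W.subtype (τW i) := rfl
      rw [hτi, Polynomial.eval₂_at_apply, hDroot i, map_zero]
  -- reduction
  have hPd0 : Pd.map π = 0 := by
    simp only [Pd, Polynomial.map_sum, Polynomial.map_mul, Polynomial.map_C, Polynomial.map_pow,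
      Polynomial.map_X]
    refine Finset.sum_eq_zero fun j _ => ?_
    rw [(hπ0 _ _).2 (hd j), map_zero, zero_mul]
  have hτc : ∀ i ∈ S, π (τW i) = π cW := by
    intro i hi
    have : π (τW i - cW) = 0 := (hπ0 _ _).2 (hS i hi)
    rw [map_sub, sub_eq_zero] at this
    exact this
  have hdvd' : (X - C (π cW)) ^ S.card ∣ (X - C (π cW)) ^ k * Pe.map π := by
    have h2 : Pi0.map π ∣ D.map π := Polynomial.map_dvd π hdvd
    have h3 : D.map π = (X - C (π cW)) ^ k * Pe.map π := by
      simp only [D, Polynomial.map_sub, Polynomial.map_mul, Polynomial.map_pow, Polynomial.map_X,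
        Polynomial.map_C, hPd0, sub_zero]
    have h4 : Pi0.map π = ∏ i : Fin N, (X - C (π (τW i))) := by
      simp only [Pi0, Polynomial.map_prod, Polynomial.map_sub, Polynomial.map_X, Polynomial.map_C]
    have h5 : (X - C (π cW)) ^ S.card = ∏ i ∈ S, (X - C (π (τW i))) := by
      rw [Finset.prod_congr rfl (fun i hi => by rw [hτc i hi]), Finset.prod_const]
    rw [h5, ← h3]
    refine dvd_trans ?_ h2
    rw [h4]
    exact Finset.prod_dvd_prod_of_subset _ _ _ (Finset.subset_univ S)
  have hX : (X - C (π cW)) ∣ Pe.map π := by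
    obtain ⟨m, hm⟩ : ∃ m, S.card = k + (m + 1) := ⟨S.card - k - 1, by omega⟩
    rw [hm, pow_add] at hdvd'
    have h6 : (X - C (π cW)) ^ (m + 1) ∣ Pe.map π :=
      (mul_dvd_mul_iff_left (pow_ne_zero k (X_sub_C_ne_zero _))).1 hdvd'
    exact dvd_trans (dvd_pow_self _ (Nat.succ_ne_zero m)) h6
  intro i hi
  rw [← hPe i, ← hπ0 _ (Pe.eval (τW i)).2]
  have h7 : (Pe.map π).eval (π cW) = 0 := by
    rw [Polynomial.dvd_iff_isRoot] at hX
    exact hX
  have h8 : π (Pe.eval (τW i)) = (Pe.map π).eval (π (τW i)) := by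
    rw [eval_map, Polynomial.eval₂_at_apply]
  have h9 : (⟨((Pe.eval (τW i) : ↥W) : 𝔏), (Pe.eval (τW i)).2⟩ : ↥W) = Pe.eval (τW i) := rfl
  rw [h9, h8, hτc i hi, h7]


section Pt

variable {K : Type*} {F : Type*} [Field K] [Field F] [Algebra K F]
  {𝔏 : Type*} [Field 𝔏] [Algebra K 𝔏]

/-- `i ↦ R i t` is injective as soon as the determinant of the values of `a · t^j` is nonzero. -/
theorem s17mvv_tau_inj {N : ℕ} (R : Fin N → F →ₐ[K] 𝔏) (t a : F)
    (hdet : (s27ptVal R (fun j : Fin N => a * t ^ (j : ℕ))).det ≠ 0) :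
    Function.Injective (fun i => R i t) := by
  have h1 : s27ptVal R (fun j : Fin N => a * t ^ (j : ℕ)) =
      Matrix.diagonal (fun i => R i a) * Matrix.vandermonde (fun i => R i t) := by
    ext i j
    rw [s27ptVal_apply, Matrix.diagonal_mul, Matrix.vandermonde_apply, map_mul, map_pow]
  rw [h1, Matrix.det_mul] at hdet
  exact Matrix.det_vandermonde_ne_zero_iff.1 (right_ne_zero_of_mul hdet)

/-- a unit plus a nonunit of `W` is not a nonunit. -/
theorem s17mvv_unit_add {W : ValuationSubring 𝔏} {u m : 𝔏} (hu : u ∉ W.nonunits)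
    (huW : u ∈ W) (hm : m ∈ W.nonunits) : u + m ∉ W.nonunits := by
  intro h
  apply hu
  have : u = (u + m) - m := by ring
  rw [this, ValuationSubring.mem_nonunits_iff]
  rw [ValuationSubring.mem_nonunits_iff] at h hm
  exact Valuation.map_sub_lt _ h hm

/-- an element of `W` which is not a nonunit has its inverse in `W`. -/
theorem s17mvv_inv_mem {W : ValuationSubring 𝔏} {u : 𝔏} (hu : u ∉ W.nonunits) (huW : u ∈ W) :
    u⁻¹ ∈ W := by
  rw [ValuationSubring.mem_nonunits_iff, not_lt] at hu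
  have h1 : W.valuation u = 1 :=
    le_antisymm ((ValuationSubring.valuation_le_one_iff W u).2 huW) hu
  rw [← ValuationSubring.valuation_le_one_iff, map_inv₀, h1, inv_one]

variable [IsAlgClosed K] [CharZero K] [IsCurveOver K F] [Algebra.EssFiniteType K F]

open Classical in
/-- **(K1′)**: a function of `𝓕` whose vector of values lies in `𝔪_W · M_W(R, A')` vanishes along
the centre divisor. -/
theorem s17mvv_vanish (W : ValuationSubring 𝔏) (hW : ∀ c : K, algebraMap K 𝔏 c ∈ W)
    {N : ℕ} (R : Fin N → F →ₐ[K] 𝔏) (hR : Function.Injective R) (A' : Divisor K F)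
    (t a : F) (h : S27IsAdapted W R (fun Q => -A' Q) t a)
    (Q : Fin N → Place K F)
    (hQ : ∀ i, W.comap (R i : F →+* 𝔏) = (Q i).toValuationSubring)
    (ψ : F) (hψ : ψ ∈ s27ptF W R A') (d : Fin N → 𝔏) (hd : ∀ j, d j ∈ W.nonunits)
    (hval : ∀ i, R i ψ = ∑ j : Fin N, R i (a * t ^ (j : ℕ)) * d j) (i₀ : Fin N) :
    (Q i₀).adicValuation ψ ≤
      exp (A' (Q i₀) - ((Finset.univ.filter (fun i => Q i = Q i₀)).card : ℤ)) := by
  rcases eq_or_ne ψ 0 with rfl | hψ0
  · rw [map_zero]
    exact zero_le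
  have hφ := s27eil_latBasis W hW R hR A' t a h
  have hτinj := s17mvv_tau_inj R t a hφ.det_ne
  obtain ⟨c, hc⟩ := h.exists_unif (hQ i₀)
  set S : Finset (Fin N) := Finset.univ.filter (fun i => Q i = Q i₀) with hSdef
  have hi₀S : i₀ ∈ S := by simp [hSdef]
  have htc0 : t - algebraMap K F c ≠ 0 := by
    intro h0
    rw [h0, Place.ord_zero] at hc
    exact zero_ne_one hc
  have ha0 : a ≠ 0 := h.a_ne
  have hg0 : ψ / a ≠ 0 := div_ne_zero hψ0 ha0
  -- the values of `t − c` on the cluster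
  have hS : ∀ i ∈ S, R i t - algebraMap K 𝔏 c ∈ W.nonunits := by
    intro i hi
    have hQi : Q i = Q i₀ := (Finset.mem_filter.1 hi).2
    have h1 := s27adex_centre_nonunit W (R i) (Q i₀) (by rw [← hQi]; exact hQ i)
      (x := t - algebraMap K F c) (by rw [hc]; exact one_pos)
    rwa [map_sub, AlgHom.commutes] at h1
  -- the values of `t − c` off the cluster are units
  have hSc : ∀ i, i ∉ S → R i t - algebraMap K 𝔏 c ∉ W.nonunits ∧
      R i t - algebraMap K 𝔏 c ∈ W := by
    intro i hi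
    have hne : Q i ≠ Q i₀ := fun h0 => hi (Finset.mem_filter.2 ⟨Finset.mem_univ _, h0⟩)
    have h1 := h.centres (hQ i) (hQ i₀) hne
    have h2 := hS i₀ hi₀S
    have h3 : R i t - algebraMap K 𝔏 c = (R i t - R i₀ t) + (R i₀ t - algebraMap K 𝔏 c) := by
      ring
    refine ⟨?_, W.sub_mem (h.t_mem i) (hW c)⟩
    rw [h3]
    exact s17mvv_unit_add h1 (W.sub_mem (h.t_mem i) (h.t_mem i₀)) h2
  -- the induction
  have key : ∀ k : ℕ, k ≤ S.card → (k : ℤ) ≤ (Q i₀).ord (ψ / a) := by
    intro k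
    induction k with
    | zero =>
      intro _
      rw [Nat.cast_zero]
      exact (ord_nonneg_iff (Q i₀) hg0).2 (s27eia_quot_mem h hψ (hQ i₀))
    | succ k ih =>
      intro hk
      have hk' : k < S.card := hk
      have ihk := ih hk'.le
      set gk : F := ψ / a / (t - algebraMap K F c) ^ k with hgk
      have hgk0 : gk ≠ 0 := div_ne_zero hg0 (pow_ne_zero k htc0)
      have hordgk : (Q i₀).ord gk = (Q i₀).ord (ψ / a) - k := by
        rw [hgk, div_eq_mul_inv (ψ / a), Place.ord_mul _ hg0 (inv_ne_zero (pow_ne_zero k htc0)),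
          Place.ord_inv, ← zpow_natCast, Place.ord_zpow, hc]
        ring
      -- the values of `gk`
      have hgkW : ∀ i, R i gk ∈ W := by
        intro i
        by_cases hi : i ∈ S
        · have hQi : Q i = Q i₀ := (Finset.mem_filter.1 hi).2
          have h1 : gk ∈ (Q i₀).toValuationSubring :=
            (ord_nonneg_iff (Q i₀) hgk0).1 (by rw [hordgk]; omega)
          have h2 : gk ∈ W.comap (R i : F →+* 𝔏) := by rw [hQ i, hQi]; exact h1
          exact h2
        · obtain ⟨h1, h2⟩ := hSc i hi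
          have h3 : R i (ψ / a) ∈ W := by
            have : ψ / a ∈ W.comap (R i : F →+* 𝔏) := by
              rw [hQ i]
              exact s27eia_quot_mem h hψ (hQ i)
            exact this
          have h4 : R i gk = R i (ψ / a) * ((R i t - algebraMap K 𝔏 c)⁻¹) ^ k := by
            rw [hgk, map_div₀, map_pow, map_sub, AlgHom.commutes, div_eq_mul_inv, inv_pow]
          rw [h4]
          exact W.mul_mem _ _ h3 (pow_mem (s17mvv_inv_mem h1 h2) k)
      -- `a · gk ∈ 𝓕`
      have hmem : a * gk ∈ s27ptF W R A' := by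
        intro Q' i hQ'
        have hQ'' : W.comap (R i : F →+* 𝔏) = Q'.toValuationSubring := hQ'
        have h1 : gk ∈ Q'.toValuationSubring := by
          rw [← hQ'']
          exact hgkW i
        rw [map_mul, s27eia_val_a h hQ'']
        calc exp (A' Q') * Q'.adicValuation gk ≤ exp (A' Q') * 1 :=
              mul_le_mul' le_rfl ((mem_iff_adicValuation_le_one Q' gk).1 h1)
          _ = exp (A' Q') := mul_one _
      obtain ⟨e, he, hev⟩ := hφ.span (a * gk) hmem
      -- the relation between the two polynomials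
      have hRa : ∀ i, R i a ≠ 0 := fun i => h.map_a_ne i
      have h5 : ∀ i, R i gk = ∑ j : Fin N, e j * R i t ^ (j : ℕ) := by
        intro i
        have h6 := hev i
        rw [map_mul] at h6
        have h7 : ∑ j : Fin N, R i (a * t ^ (j : ℕ)) * e j =
            R i a * ∑ j : Fin N, e j * R i t ^ (j : ℕ) := by
          rw [Finset.mul_sum]
          refine Finset.sum_congr rfl fun j _ => ?_
          rw [map_mul, map_pow]
          ring
        rw [h7] at h6
        exact mul_left_cancel₀ (hRa i) h6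
      have h8 : ∀ i, R i (ψ / a) = ∑ j : Fin N, d j * R i t ^ (j : ℕ) := by
        intro i
        have h6 := hval i
        have h7 : ∑ j : Fin N, R i (a * t ^ (j : ℕ)) * d j =
            R i a * ∑ j : Fin N, d j * R i t ^ (j : ℕ) := by
          rw [Finset.mul_sum]
          refine Finset.sum_congr rfl fun j _ => ?_
          rw [map_mul, map_pow]
          ring
        rw [h7] at h6
        rw [map_div₀, h6, mul_div_assoc, mul_comm, div_mul_cancel₀ _ (hRa i)]
      have hrel : ∀ i, (R i t - algebraMap K 𝔏 c) ^ k * (∑ j : Fin N, e j * R i t ^ (j : ℕ)) =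
          ∑ j : Fin N, d j * R i t ^ (j : ℕ) := by
        intro i
        rw [← h5 i, ← h8 i]
        have h9 : ψ / a = (t - algebraMap K F c) ^ k * gk := by
          rw [hgk, mul_div_cancel₀ _ (pow_ne_zero k htc0)]
        rw [h9, map_mul, map_pow, map_sub, AlgHom.commutes]
      have hkey := s17mvv_poly_key W (fun i => R i t) (fun i => h.t_mem i) hτinj
        (algebraMap K 𝔏 c) (hW c) S hS k hk' e d he hd hrel i₀ hi₀S
      rw [← h5 i₀] at hkey
      have h10 : gk ∈ (Q i₀).toValuationSubring.nonunits := by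
        rw [← hQ i₀, s27adex_comap_nonunits]
        exact hkey
      have h11 : 0 < (Q i₀).ord gk := (ord_pos_iff_mem_nonunits (Q i₀) hgk0).2 h10
      rw [hordgk] at h11
      push_cast
      omega
  have hfin := key S.card le_rfl
  rw [Place.adicValuation_le_exp_iff]
  right
  have h12 : (Q i₀).ord (ψ / a) = (Q i₀).ord ψ + A' (Q i₀) := by
    rw [div_eq_mul_inv, Place.ord_mul _ hψ0 (inv_ne_zero ha0), Place.ord_inv, h.ord_a (hQ i₀)]
    ring
  rw [h12] at hfin
  omega

end Pt

section Unit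

variable {K : Type*} {F : Type*} [Field K] [Field F] [Algebra K F]
  {𝔏 : Type*} [Field 𝔏] [Algebra K 𝔏]

/-- the residue of an element of `W` vanishes iff it is a nonunit. -/
theorem s17mvv_res_zero_iff (W : ValuationSubring 𝔏) (z : 𝔏) (hz : z ∈ W) :
    IsLocalRing.residue ↥W ⟨z, hz⟩ = 0 ↔ z ∈ W.nonunits := by
  rw [IsLocalRing.residue_eq_zero_iff, ValuationSubring.mem_nonunits_iff_exists_mem_maximalIdeal]
  constructor
  · intro h
    exact ⟨hz, h⟩
  · rintro ⟨_, h⟩
    exact h

/-- the constants, as a ring homomorphism `K →+* W`. -/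
def s17mvvConst (W : ValuationSubring 𝔏) (hW : ∀ c : K, algebraMap K 𝔏 c ∈ W) : K →+* ↥W where
  toFun c := ⟨algebraMap K 𝔏 c, hW c⟩
  map_one' := Subtype.ext (map_one _)
  map_mul' a b := Subtype.ext (map_mul _ a b)
  map_zero' := Subtype.ext (map_zero _)
  map_add' a b := Subtype.ext (map_add _ a b)

/-- a matrix over `W` which is congruent modulo `𝔪_W` to an invertible matrix of constants has a
unit determinant. -/
theorem s17mvv_det_unit (W : ValuationSubring 𝔏) (hW : ∀ c : K, algebraMap K 𝔏 c ∈ W) {N : ℕ}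
    (C : Matrix (Fin N) (Fin N) 𝔏) (hC : ∀ j l, C j l ∈ W) (C₀ : Matrix (Fin N) (Fin N) K)
    (hC₀ : ∀ j l, C j l - algebraMap K 𝔏 (C₀ j l) ∈ W.nonunits) (hdet : C₀.det ≠ 0) :
    C.det ≠ 0 ∧ C.det ∈ W ∧ C.det⁻¹ ∈ W := by
  let π : ↥W →+* IsLocalRing.ResidueField ↥W := IsLocalRing.residue ↥W
  let ρ : K →+* IsLocalRing.ResidueField ↥W := π.comp (s17mvvConst W hW)
  let CW : Matrix (Fin N) (Fin N) ↥W := Matrix.of fun j l => ⟨C j l, hC j l⟩
  have h1 : π.mapMatrix CW = ρ.mapMatrix C₀ := by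
    ext j l
    show π ⟨C j l, hC j l⟩ = π ⟨algebraMap K 𝔏 (C₀ j l), hW _⟩
    rw [← sub_eq_zero, ← map_sub]
    exact (s17mvv_res_zero_iff W _ _).2 (hC₀ j l)
  have h2 : π CW.det = ρ C₀.det := by
    rw [RingHom.map_det, RingHom.map_det, h1]
  have h3 : π CW.det ≠ 0 := by
    rw [h2]
    exact (map_ne_zero ρ).2 hdet
  have h4 : ((CW.det : ↥W) : 𝔏) = C.det := by
    have : W.subtype CW.det = (W.subtype.mapMatrix CW).det := RingHom.map_det _ _
    have h5 : W.subtype.mapMatrix CW = C := by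
      ext j l
      rfl
    rw [h5] at this
    exact this
  have h7 : C.det ∈ W := h4 ▸ CW.det.2
  have h6 : C.det ∉ W.nonunits := by
    intro h
    apply h3
    have h8 : (⟨C.det, h7⟩ : ↥W) = CW.det := Subtype.ext h4.symm
    rw [← h8]
    exact (s17mvv_res_zero_iff W C.det h7).2 h
  refine ⟨?_, h7, s17mvv_inv_mem h6 h7⟩
  intro h0
  apply h6
  rw [h0, ValuationSubring.mem_nonunits_iff, map_zero]
  exact zero_lt_one

open Classical in
/-- the multiplicity of a place in the centre divisor `s17unsDiv Q = Σ_i Q i` (helper95). -/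
theorem s17mvv_cen_apply {N : ℕ} (Q : Fin N → Place K F) (P : Place K F) :
    s17unsDiv Q P = ((Finset.univ.filter (fun i => Q i = P)).card : ℤ) := by
  rw [s17unsDiv_apply, Finset.sum_boole]

variable [IsAlgClosed K] [CharZero K] [IsCurveOver K F] [Algebra.EssFiniteType K F]

/-- a function of `L_K(A')` whose vector of values lies in `𝔪_W · M_W(R, A')` lies in
`L_K(A' − Σ_i Q i)`. -/
theorem s17mvv_mem_rr (W : ValuationSubring 𝔏) (hW : ∀ c : K, algebraMap K 𝔏 c ∈ W)
    {N : ℕ} (R : Fin N → F →ₐ[K] 𝔏) (hR : Function.Injective R) (A' : Divisor K F)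
    (t a : F) (h : S27IsAdapted W R (fun Q => -A' Q) t a)
    (Q : Fin N → Place K F)
    (hQ : ∀ i, W.comap (R i : F →+* 𝔏) = (Q i).toValuationSubring)
    (ψ : F) (hψ : ψ ∈ riemannRochSpace A') (d : Fin N → 𝔏) (hd : ∀ j, d j ∈ W.nonunits)
    (hval : ∀ i, R i ψ = ∑ j : Fin N, R i (a * t ^ (j : ℕ)) * d j) :
    ψ ∈ riemannRochSpace (A' - s17unsDiv Q) := by
  classical
  intro P
  rw [Finsupp.coe_sub, Pi.sub_apply, s17mvv_cen_apply]
  by_cases hP : ∃ i₀, Q i₀ = P
  · obtain ⟨i₀, rfl⟩ := hP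
    have := s17mvv_vanish W hW R hR A' t a h Q hQ ψ (s27pt_rr_le W R A' hψ) d hd hval i₀
    convert this using 4
  · have h0 : (Finset.univ.filter (fun i => Q i = P)) = ∅ := by
      rw [Finset.filter_eq_empty_iff]
      intro i _ hi
      exact hP ⟨i, hi⟩
    rw [h0, Finset.card_empty, Nat.cast_zero, sub_zero]
    exact hψ P

/-- **MOVE-VAL, NON-SPECIAL ⇒ UNIT** (tuple form): `W ⊇ K` with residue field `K`, `R` injective
with closed centres `Q i`, `L_K(A' − Σ_i Q i) = 0` ⇒ every local equation at `(R, A')` along `W` is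
a unit of `W`. -/
theorem s17mvv_unit (W : ValuationSubring 𝔏) (hW : ∀ c : K, algebraMap K 𝔏 c ∈ W)
    (hres : ∀ w ∈ W, ∃ c : K, w - algebraMap K 𝔏 c ∈ W.nonunits)
    {N : ℕ} (R : Fin N → F →ₐ[K] 𝔏) (hR : Function.Injective R) (A' : Divisor K F)
    (Q : Fin N → Place K F)
    (hQ : ∀ i, W.comap (R i : F →+* 𝔏) = (Q i).toValuationSubring)
    (hNS : riemannRochSpace (A' - s17unsDiv Q) = ⊥)
    (x : 𝔏) (hx : S27ptIsIdx W R A' x) : x ≠ 0 ∧ x ∈ W ∧ x⁻¹ ∈ W := by
  classical
  obtain ⟨t, a, h⟩ : ∃ t a : F, S27IsAdapted W R (fun Q => -A' Q) t a :=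
    s27adex_exists_isCurveOver W hW R (fun Q => -A' Q)
  have hφ := s27eil_latBasis W hW R hR A' t a h
  obtain ⟨f, φ₀, hφ₀, hxeq⟩ := hx
  have hfF : ∀ l, ((f l : ↥(riemannRochSpace A')) : F) ∈ s27ptF W R A' := fun l =>
    s27pt_rr_le W R A' (f l).2
  obtain ⟨C, hC, hCval⟩ := s27pt_exists_coeff hφ _ hfF
  choose C₀ hC₀ using fun j l => hres (C j l) (hC j l)
  -- the matrix of constants is invertible
  have hdet0 : (Matrix.of C₀).det ≠ 0 := by
    intro h0
    obtain ⟨b, hb, hCb⟩ := Matrix.exists_mulVec_eq_zero_iff.2 h0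
    set fb : ↥(riemannRochSpace A') := ∑ l, b l • f l with hfb
    have hfb0 : fb ≠ 0 := by
      intro hz
      apply hb
      funext l
      exact Fintype.linearIndependent_iff.1 f.linearIndependent b hz l
    have hcoe : ((fb : ↥(riemannRochSpace A')) : F) =
        ∑ l, algebraMap K F (b l) * ((f l : ↥(riemannRochSpace A')) : F) := by
      rw [hfb, Submodule.coe_sum]
      refine Finset.sum_congr rfl fun l _ => ?_
      rw [Submodule.coe_smul, Algebra.smul_def]
    have hvalb : ∀ i, R i (fb : F) = ∑ j : Fin N, R i (a * t ^ (j : ℕ)) *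
        (∑ l, C j l * algebraMap K 𝔏 (b l)) := by
      intro i
      rw [hcoe, map_sum]
      have h1 : ∀ l, R i (algebraMap K F (b l) * ((f l : ↥(riemannRochSpace A')) : F)) =
          ∑ j : Fin N, R i (a * t ^ (j : ℕ)) * (C j l * algebraMap K 𝔏 (b l)) := by
        intro l
        rw [map_mul, AlgHom.commutes]
        have h2 : R i ((f l : ↥(riemannRochSpace A')) : F) =
            ∑ j : Fin N, R i (a * t ^ (j : ℕ)) * C j l := by
          have h3 := congrFun (congrFun hCval i) l
          rw [s27ptVal_apply, Matrix.mul_apply] at h3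
          rw [h3]
          rfl
        rw [h2, Finset.mul_sum]
        refine Finset.sum_congr rfl fun j _ => ?_
        ring
      rw [Finset.sum_congr rfl (fun l _ => h1 l), Finset.sum_comm]
      refine Finset.sum_congr rfl fun j _ => ?_
      rw [Finset.mul_sum]
    have hdb : ∀ j, (∑ l, C j l * algebraMap K 𝔏 (b l)) ∈ W.nonunits := by
      intro j
      have h1 : (∑ l, C j l * algebraMap K 𝔏 (b l)) =
          ∑ l, (C j l - algebraMap K 𝔏 (C₀ j l)) * algebraMap K 𝔏 (b l) := by
        have h2 : ∑ l, algebraMap K 𝔏 (C₀ j l) * algebraMap K 𝔏 (b l) = 0 := by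
          have h3 := congrFun hCb j
          rw [Matrix.mulVec, dotProduct] at h3
          have h4 : algebraMap K 𝔏 (∑ l, Matrix.of C₀ j l * b l) = 0 := by
            rw [h3]
            exact map_zero _
          rw [map_sum] at h4
          rw [← h4]
          refine Finset.sum_congr rfl fun l _ => ?_
          rw [map_mul]
          rfl
        simp only [sub_mul, Finset.sum_sub_distrib, h2, sub_zero]
      rw [h1, ValuationSubring.mem_nonunits_iff]
      refine Valuation.map_sum_lt _ one_ne_zero fun l _ => ?_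
      have h5 := (ValuationSubring.mem_nonunits_iff _).1 (hC₀ j l)
      have h6 : W.valuation (algebraMap K 𝔏 (b l)) ≤ 1 :=
        (ValuationSubring.valuation_le_one_iff W _).2 (hW _)
      rw [map_mul]
      calc W.valuation (C j l - algebraMap K 𝔏 (C₀ j l)) * W.valuation (algebraMap K 𝔏 (b l))
          ≤ W.valuation (C j l - algebraMap K 𝔏 (C₀ j l)) * 1 := mul_le_mul' le_rfl h6
        _ = W.valuation (C j l - algebraMap K 𝔏 (C₀ j l)) := mul_one _
        _ < 1 := h5
    have hmem := s17mvv_mem_rr W hW R hR A' t a h Q hQ (fb : F) fb.2 _ hdb hvalb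
    rw [hNS, Submodule.mem_bot] at hmem
    exact hfb0 (Subtype.ext hmem)
  have hunit : C.det ≠ 0 ∧ C.det ∈ W ∧ C.det⁻¹ ∈ W :=
    s17mvv_det_unit W hW C hC (Matrix.of C₀) hC₀ hdet0
  -- `x` is a unit times `det C`
  have hx' : S27ptIsIdx W R A'
      ((s27ptValB R f).det / (s27ptVal R (fun j : Fin N => a * t ^ (j : ℕ))).det) :=
    ⟨f, _, hφ, rfl⟩
  have hxC : (s27ptValB R f).det / (s27ptVal R (fun j : Fin N => a * t ^ (j : ℕ))).det =
      C.det := by
    unfold s27ptValB
    rw [hCval, Matrix.det_mul, mul_comm, mul_div_assoc, div_self hφ.det_ne, mul_one]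
  obtain ⟨u, hu0, huW, huW', hxu⟩ := s27pt_idx_unique hW ⟨f, φ₀, hφ₀, hxeq⟩ hx'
  rw [hxu, hxC]
  refine ⟨mul_ne_zero hu0 hunit.1, W.mul_mem _ _ huW hunit.2.1, ?_⟩
  rw [mul_inv]
  exact W.mul_mem _ _ huW' hunit.2.2

/-- **UNIT ⇔ NON-SPECIAL at a `K`-place** (with helper95's `s17uns_unit`). -/
theorem s17mvv_unit_iff (W : ValuationSubring 𝔏) (hW : ∀ c : K, algebraMap K 𝔏 c ∈ W)
    (hres : ∀ w ∈ W, ∃ c : K, w - algebraMap K 𝔏 c ∈ W.nonunits)
    {N : ℕ} (R : Fin N → F →ₐ[K] 𝔏) (hR : Function.Injective R) (A' : Divisor K F)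
    (Q : Fin N → Place K F)
    (hQ : ∀ i, W.comap (R i : F →+* 𝔏) = (Q i).toValuationSubring)
    (x : 𝔏) (hx : S27ptIsIdx W R A' x) :
    (x ≠ 0 ∧ x ∈ W ∧ x⁻¹ ∈ W) ↔ riemannRochSpace (A' - s17unsDiv Q) = ⊥ :=
  ⟨fun h => s17uns_unit hW hR Q hQ hx h.1 h.2.2,
    fun h => s17mvv_unit W hW hres R hR A' Q hQ h x hx⟩

end Unit

end Fermat.Agent.S17

end
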