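/-
S17 sprint, leaf H5 — **the square, UNCONDITIONAL: units at the constant classes and the shift of
the theta divisor** (helper95, S27-B hub).  On top of helper18's `S17/Square.lean` (cube at arbitrary
good classes) and helper27's `S17/Transl.lean` (formal half of (T)).

Stage of S27-B: `Θ_{Ao} = {c : ℓ(Ao − c) > 0}`, `β [D] = s27bcBeta … (Pic0.mk D)` the class of the
constant divisor `Con D` (`D : Divisor.degZero` over `K`), `η` the generic class.

* `s17su_cl_shift`   : `[Σ R − Con (B + D)] = [Σ R − Con B] − β [D]`;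
* `s17su_good_shift` : `c` good for `Θ_{Ao − D}` ⇒ `c + β [D]` good for `Θ_{Ao}`
                       (`Θ_{Ao} = Θ_{Ao − D} + β [D]`), `s17su_good_shift_neg`;
* `s17su_good_eta`   : `j • η` is good for `Θ_{Ao}` (no family, no basis in the hypotheses);
  `s17su_good_eta_add`, `s17su_good_eta_sub` : `j • η ± β [D]` are good if `ℓ(Ao ∓ D) = 0`
                       — so the generic tuples `e₊, e₋` of `s17sq_square` are NOT needed;
* **`s17su_unit_const`** : a local equation of `Θ_{Ao}` at the CONSTANT class `β [D]` with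
                       `ℓ(Ao − D) = 0` is a UNIT of every `W ⊇ K` (shift + LE-TOP `s27le5_ckLE`);
  `s17su_unit_const_neg` : the same at `−β [D]` with `ℓ(Ao + D) = 0`;
* `s17su_idx_mem`    : (EFF) every local equation lies in `W`  (= (int) of `S17/Transl.lean`);
* `s17su_sq_of_cp`   : ABSTRACT: (LE) + (CP at `c, γ`) + "local equations at `±γ` are units" ⇒
                       `S17trSq K y y₁ y₂ Φ₀⁻¹` for ANY local equations at `c`, `c + γ`, `c − γ`
                       (the hypothesis `Idx W γ 1` of `s17tr_sq_of_cp` is replaced by units);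
* **`s17su_square`** : **the valuative THEOREM OF THE SQUARE at `j • η`, NO hypothesis left**:
                       `ℓ(Ao) = ℓ(Ao − D) = ℓ(Ao + D) = 0`, `deg Ao = g − 1`, `0 ≤ G₀` ⇒ `∃ Φ ≠ 0`,
                       for all `W ⊇ K` and ALL local equations `x₊, x₋, x₀` of `Θ_{Ao}` at
                       `jη + β[D]`, `jη − β[D]`, `jη`: `x₊ · x₋ = u · Φ⁻¹ · x₀²`, `u ∈ Wˣ`;
* **`s17su_trSq`**   : the same as the input (sq) `S17trSq K y y₁ y₂ Φ⁻¹` of `s17tr_le`/`s17tr_cert`,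
  `s17su_trInt`      : and the input (int) `S17trInt K y₂`.
-/
import Fermat.Agent.S17.Square
import Fermat.Agent.S17.Transl
import Fermat.Agent.S27.LE5Top
import Fermat.Agent.S27.ModelPsi

set_option autoImplicit false
set_option linter.style.haveILetI false
set_option linter.unusedSectionVars false
set_option linter.unusedVariables false

noncomputable section

namespace Fermat.Agent.S17

open AlgebraicCurve Module TensorProduct IntermediateField Fermat.Agent.S26 Fermat.Agent.S27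

universe u v y

/-- products of units of `W` are units of `W`. -/
theorem s17su_unit_mul {𝔏 : Type*} [Field 𝔏] {W : ValuationSubring 𝔏} {a b : 𝔏}
    (ha : S27IsUnitIn W a) (hb : S27IsUnitIn W b) : S27IsUnitIn W (a * b) :=
  ⟨mul_ne_zero ha.1 hb.1, W.mul_mem _ _ ha.2.1 hb.2.1, by
    rw [mul_inv]
    exact W.mul_mem _ _ ha.2.2 hb.2.2⟩

/-- **ABSTRACT (sq)**: (LE) + (CP at `c, γ`) + units at `±γ` ⇒ `S17trSq` for ANY local equations
at `c`, `c + γ`, `c − γ`. -/
theorem s17su_sq_of_cp {K : Type*} [Field K] {𝔏 : Type*} [Field 𝔏] [Algebra K 𝔏]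
    {C : Type*} [AddCommGroup C] {Idx : ValuationSubring 𝔏 → C → 𝔏 → Prop}
    (hLE : S27ckLE K Idx) (c γ : C) (Φ₀ : 𝔏) (hΦ₀ : Φ₀ ≠ 0)
    (hcp : S27ckCP K Idx c γ Φ₀)
    (hγ : ∀ W : ValuationSubring 𝔏, S27IsKValU K W → ∀ z, Idx W γ z → S27IsUnitIn W z)
    (hγ' : ∀ W : ValuationSubring 𝔏, S27IsKValU K W → ∀ z, Idx W (-γ) z → S27IsUnitIn W z)
    (y y₁ y₂ : ValuationSubring 𝔏 → 𝔏)
    (hy : ∀ W : ValuationSubring 𝔏, S27IsKValU K W → Idx W c (y W))
    (hy₁ : ∀ W : ValuationSubring 𝔏, S27IsKValU K W → Idx W (c + γ) (y₁ W))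
    (hy₂ : ∀ W : ValuationSubring 𝔏, S27IsKValU K W → Idx W (c - γ) (y₂ W)) :
    S17trSq K y y₁ y₂ Φ₀⁻¹ := by
  intro W hW
  obtain ⟨z₁, z₂, z₃, z₁₂, z₁₃, z₂₃, z₁₂₃, i1, i2, i3, i12, i13, i23, i123, hcube⟩ := hcp W hW
  obtain ⟨u, hu, hue⟩ := s27ck_abs W (Idx W) (hLE W hW).2 (hLE W hW).1 c γ Φ₀ hΦ₀
    ⟨z₁, z₂, z₃, z₁₂, z₁₃, z₂₃, z₁₂₃, i1, i2, i3, i12, i13, i23, i123, hcube⟩
    (hy₁ W hW) (hy₂ W hW) (hy W hW) i2 i3
  refine ⟨u * (z₂ * z₃), s17su_unit_mul hu (s17su_unit_mul (hγ W hW z₂ i2) (hγ' W hW z₃ i3)), ?_⟩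
  rw [hue]
  ring

section Stage

variable {K : Type u} {F : Type v} [Field K] [IsAlgClosed K] [CharZero K] [Field F] [Algebra K F]
  [IsCurveOver K F] [Algebra.EssFiniteType K F]
  {L : Type (max u v)} [Field L] [Algebra K L]
  [Algebra (s27gfOm K F (genusFF K F)) L] [IsScalarTower K (s27gfOm K F (genusFF K F)) L]
  [IsAlgClosed L] [Algebra.IsAlgebraic (s27gfOm K F (genusFF K F)) L]
  {FL : Type y} [Field FL] [Algebra K FL] [Algebra F FL] [Algebra L FL]
  [IsScalarTower K F FL] [IsScalarTower K L FL]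
  (hld : Function.Injective (s26gspMu K F L FL)) (hgen : S26gspGen K F L FL)
  {x : F} (hx : Transcendental K x)
  [FiniteDimensional ↥(IntermediateField.adjoin K {x}) F]
  [Algebra.IsSeparable ↥(IntermediateField.adjoin K {x}) F]
  [IsGalois (s27gfSym K F (genusFF K F)) L]

/-! ### The shift of the origin by a constant divisor of degree `0` -/

/-- `[Σ R − Con (B + D)] = [Σ R − Con B] − β [D]`. -/
theorem s17su_cl_shift {N : ℕ} (R : Fin N → F →ₐ[K] L) (B : Divisor K F)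
    (D : Divisor.degZero (K := K) (F := F))
    (hB : Divisor.degree B = (N : ℤ))
    (hBD : Divisor.degree (B + (D : Divisor K F)) = (N : ℤ)) :
    s27icCl hld hgen hx R (B + (D : Divisor K F)) hBD =
      s27icCl hld hgen hx R B hB -
        (s27bcBeta hld hgen (s26gspf_hall hx) (Pic0.mk D) : Pic0 L FL) := by
  rw [eq_sub_iff_add_eq, s27bcBeta_mk]
  unfold s27icCl s27pkgClO
  rw [← Pic0.mk_add]
  congr 1
  apply Subtype.ext
  show (s27pkgSum (fun i => s27gpPlace hld hgen (R i) hx) -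
      Finsupp.mapDomain (s26gspCon hld hgen (s26gspf_hall hx)) (B + (D : Divisor K F))) +
      Finsupp.mapDomain (s26gspCon hld hgen (s26gspf_hall hx)) (D : Divisor K F) =
    s27pkgSum (fun i => s27gpPlace hld hgen (R i) hx) -
      Finsupp.mapDomain (s26gspCon hld hgen (s26gspf_hall hx)) B
  rw [Finsupp.mapDomain_add]
  abel

theorem s17su_deg_add {N : ℕ} {B : Divisor K F} (D : Divisor.degZero (K := K) (F := F))
    (hB : Divisor.degree B = (N : ℤ)) :
    Divisor.degree (B + (D : Divisor K F)) = (N : ℤ) := by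
  rw [map_add, hB, Divisor.mem_degZero.1 D.2, add_zero]

/-- `Good` for a divisor `A = B + Ao` given up to equality. -/
theorem s17su_good_cast {Ao : Divisor K F} {c : Pic0 L FL} (h : S17sqGood hld hgen hx Ao c)
    (N : ℕ) (B : Divisor K F) (hB : Divisor.degree B = (N : ℤ)) (R : Fin N → F →ₐ[K] L)
    (hR : Function.Injective R) (hcl : s27icCl hld hgen hx R B hB = c)
    (A : Divisor K F) (hA : A = B + Ao)
    (f : Module.Basis (Fin N) K ↥(riemannRochSpace A)) : (s27ptValB R f).det ≠ 0 := by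
  subst hA
  exact h N B hB R hR hcl f

/-- **shift**: `c` good for `Θ_{Ao − D}` ⇒ `c + β [D]` good for `Θ_{Ao}`. -/
theorem s17su_good_shift (Ao : Divisor K F) (D : Divisor.degZero (K := K) (F := F))
    (c : Pic0 L FL) (h : S17sqGood hld hgen hx (Ao - (D : Divisor K F)) c) :
    S17sqGood hld hgen hx Ao (c + s27bcBeta hld hgen (s26gspf_hall hx) (Pic0.mk D)) := by
  intro N B hB R hR hcl f
  have hBD := s17su_deg_add D hB
  have h0 : s27icCl hld hgen hx R (B + (D : Divisor K F)) hBD = c := by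
    rw [s17su_cl_shift hld hgen hx R B D hB hBD, hcl, add_sub_cancel_right]
  exact s17su_good_cast hld hgen hx h N (B + (D : Divisor K F)) hBD R hR h0 (B + Ao)
    (by abel) f

/-- `β [−D] = −β [D]`. -/
theorem s17su_beta_neg (D : Divisor.degZero (K := K) (F := F)) :
    (s27bcBeta hld hgen (s26gspf_hall hx) (Pic0.mk (-D)) : Pic0 L FL) =
      -s27bcBeta hld hgen (s26gspf_hall hx) (Pic0.mk D) :=
  map_neg (s27bcBeta (𝔎 := L) (Ω := FL) hld hgen (s26gspf_hall hx)) (Pic0.mk D)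

/-- **shift**, the other sign: `c` good for `Θ_{Ao + D}` ⇒ `c − β [D]` good for `Θ_{Ao}`. -/
theorem s17su_good_shift_neg (Ao : Divisor K F) (D : Divisor.degZero (K := K) (F := F))
    (c : Pic0 L FL) (h : S17sqGood hld hgen hx (Ao + (D : Divisor K F)) c) :
    S17sqGood hld hgen hx Ao (c - s27bcBeta hld hgen (s26gspf_hall hx) (Pic0.mk D)) := by
  have h' : S17sqGood hld hgen hx (Ao - ((-D : Divisor.degZero (K := K) (F := F)) :
      Divisor K F)) c := by
    have e : Ao - ((-D : Divisor.degZero (K := K) (F := F)) : Divisor K F) =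
        Ao + (D : Divisor K F) := by
      rw [NegMemClass.coe_neg, sub_neg_eq_add]
    rw [e]
    exact h
  have := s17su_good_shift hld hgen hx Ao (-D) c h'
  rwa [s17su_beta_neg hld hgen hx D, ← sub_eq_add_neg] at this

/-! ### Good classes: the multiples of the generic class and their constant translates -/

variable (G₀ : Divisor K F) (hG₀ : Divisor.degree G₀ = (genusFF K F : ℤ))

/-- `j • η` is good for `Θ_{Ao}` (`ℓ(Ao) = 0`, `deg Ao = g − 1`, `0 ≤ G₀`). -/
theorem s17su_good_eta (hG0 : 0 ≤ G₀) (Ao : Divisor K F)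
    (hAo : riemannRochSpace Ao = ⊥) (hAod : Divisor.degree Ao = (genusFF K F : ℤ) - 1) (j : ℤ) :
    S17sqGood hld hgen hx Ao
      (j • s27pfCl (s27dclPkg hld hgen hx G₀ hG₀)
        (s27pfTaut (K := K) (F := F) (g := genusFF K F) (L := L))) := by
  obtain ⟨q, hq⟩ := s27mp_exists_fam (FL := FL) hld hgen hx G₀ hG₀
  have hAo0 : finrank K ↥(riemannRochSpace Ao) = 0 := by
    rw [hAo]
    exact finrank_bot K F
  obtain ⟨f₀⟩ := s27rd_exists_basis x hx Ao hAod hAo0 G₀ hG0 hG₀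
  exact s17sq_good_eta hld hgen hx G₀ hG₀ hq Ao hAo f₀ j

theorem s17su_deg_sub (Ao : Divisor K F) (D : Divisor.degZero (K := K) (F := F))
    (hAod : Divisor.degree Ao = (genusFF K F : ℤ) - 1) :
    Divisor.degree (Ao - (D : Divisor K F)) = (genusFF K F : ℤ) - 1 := by
  rw [map_sub, hAod, Divisor.mem_degZero.1 D.2, sub_zero]

theorem s17su_deg_add' (Ao : Divisor K F) (D : Divisor.degZero (K := K) (F := F))
    (hAod : Divisor.degree Ao = (genusFF K F : ℤ) - 1) :
    Divisor.degree (Ao + (D : Divisor K F)) = (genusFF K F : ℤ) - 1 := by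
  rw [map_add, hAod, Divisor.mem_degZero.1 D.2, add_zero]

/-- `j • η + β [D]` is good for `Θ_{Ao}` if `ℓ(Ao − D) = 0`. -/
theorem s17su_good_eta_add (hG0 : 0 ≤ G₀) (Ao : Divisor K F)
    (hAod : Divisor.degree Ao = (genusFF K F : ℤ) - 1)
    (D : Divisor.degZero (K := K) (F := F))
    (hDm : riemannRochSpace (Ao - (D : Divisor K F)) = ⊥) (j : ℤ) :
    S17sqGood hld hgen hx Ao
      (j • s27pfCl (s27dclPkg hld hgen hx G₀ hG₀)
        (s27pfTaut (K := K) (F := F) (g := genusFF K F) (L := L)) +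
        s27bcBeta hld hgen (s26gspf_hall hx) (Pic0.mk D)) :=
  s17su_good_shift hld hgen hx Ao D _
    (s17su_good_eta hld hgen hx G₀ hG₀ hG0 (Ao - (D : Divisor K F)) hDm
      (s17su_deg_sub Ao D hAod) j)

/-- `j • η − β [D]` is good for `Θ_{Ao}` if `ℓ(Ao + D) = 0`. -/
theorem s17su_good_eta_sub (hG0 : 0 ≤ G₀) (Ao : Divisor K F)
    (hAod : Divisor.degree Ao = (genusFF K F : ℤ) - 1)
    (D : Divisor.degZero (K := K) (F := F))
    (hDp : riemannRochSpace (Ao + (D : Divisor K F)) = ⊥) (j : ℤ) :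
    S17sqGood hld hgen hx Ao
      (j • s27pfCl (s27dclPkg hld hgen hx G₀ hG₀)
        (s27pfTaut (K := K) (F := F) (g := genusFF K F) (L := L)) -
        s27bcBeta hld hgen (s26gspf_hall hx) (Pic0.mk D)) :=
  s17su_good_shift_neg hld hgen hx Ao D _
    (s17su_good_eta hld hgen hx G₀ hG₀ hG0 (Ao + (D : Divisor K F)) hDp
      (s17su_deg_add' Ao D hAod) j)

/-! ### Local equations at constant classes are units; all local equations are integral -/

/-- **UNIT at constant classes**: a local equation of `Θ_{Ao}` at `β [D]`, `ℓ(Ao − D) = 0`, is a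
unit of every `W ⊇ K`. -/
theorem s17su_unit_const (Ao : Divisor K F) (D : Divisor.degZero (K := K) (F := F))
    (hAod : Divisor.degree Ao = (genusFF K F : ℤ) - 1)
    (hDm : riemannRochSpace (Ao - (D : Divisor K F)) = ⊥)
    (W : ValuationSubring L) (hW : S27IsKValU K W) (z : L)
    (hz : S27icIdx hld hgen hx Ao W (s27bcBeta hld hgen (s26gspf_hall hx) (Pic0.mk D)) z) :
    S27IsUnitIn W z := by
  have hLE := s27le5_ckLE (FL := FL) hld hgen hx (Ao - (D : Divisor K F))
    (s17su_deg_sub Ao D hAod) hDm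
  rcases hz with ⟨-, hu⟩ | ⟨N, R, B, hB, hR, hcl, hidx⟩
  · exact hu
  · have hBD := s17su_deg_add D hB
    have h0 : s27icCl hld hgen hx R (B + (D : Divisor K F)) hBD = (0 : Pic0 L FL) := by
      rw [s17su_cl_shift hld hgen hx R B D hB hBD, hcl, sub_self]
    have e : B + Ao = (B + (D : Divisor K F)) + (Ao - (D : Divisor K F)) := by abel
    rw [e] at hidx
    have hidx' : S27icIdx hld hgen hx (Ao - (D : Divisor K F)) W (0 : Pic0 L FL) z :=
      Or.inr ⟨N, R, B + (D : Divisor K F), hBD, hR, h0, hidx⟩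
    obtain ⟨u, hu, hzu⟩ := (hLE W hW).2 0 z 1 hidx' (hLE W hW).1
    rw [mul_one] at hzu
    rw [hzu]
    exact hu

/-- **UNIT at constant classes**, the other sign: a local equation of `Θ_{Ao}` at `−β [D]`,
`ℓ(Ao + D) = 0`, is a unit of every `W ⊇ K`. -/
theorem s17su_unit_const_neg (Ao : Divisor K F) (D : Divisor.degZero (K := K) (F := F))
    (hAod : Divisor.degree Ao = (genusFF K F : ℤ) - 1)
    (hDp : riemannRochSpace (Ao + (D : Divisor K F)) = ⊥)
    (W : ValuationSubring L) (hW : S27IsKValU K W) (z : L)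
    (hz : S27icIdx hld hgen hx Ao W (-s27bcBeta hld hgen (s26gspf_hall hx) (Pic0.mk D)) z) :
    S27IsUnitIn W z := by
  rw [← s17su_beta_neg hld hgen hx D] at hz
  refine s17su_unit_const hld hgen hx Ao (-D) hAod ?_ W hW z hz
  have e : Ao - ((-D : Divisor.degZero (K := K) (F := F)) : Divisor K F) =
      Ao + (D : Divisor K F) := by
    rw [NegMemClass.coe_neg, sub_neg_eq_add]
  rw [e]
  exact hDp

/-- (EFF) every local equation lies in `W`. -/
theorem s17su_idx_mem (Ao : Divisor K F) (W : ValuationSubring L) (c : Pic0 L FL) (z : L)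
    (hz : S27icIdx hld hgen hx Ao W c z) : z ∈ W := by
  rcases hz with ⟨-, hu⟩ | ⟨N, R, B, hB, hR, hcl, hidx⟩
  · exact hu.2.1
  · exact s27pt_idx_mem hidx

/-- (int) of `S17/Transl.lean` for ANY choice of local equations at ANY class. -/
theorem s17su_trInt (Ao : Divisor K F) (c : Pic0 L FL) (y₂ : ValuationSubring L → L)
    (hy₂ : ∀ W : ValuationSubring L, S27IsKValU K W → S27icIdx hld hgen hx Ao W c (y₂ W)) :
    S17trInt K y₂ :=
  fun W hW => s17su_idx_mem hld hgen hx Ao W c _ (hy₂ W hW)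

/-! ### The theorem of the square at `j • η`, unconditional -/

/-- **the cube at `(j • η, β [D])`** with all goodness hypotheses discharged. -/
theorem s17su_cp (hg : 0 < genusFF K F) (hG0 : 0 ≤ G₀) (Ao : Divisor K F)
    (hAo : riemannRochSpace Ao = ⊥) (hAod : Divisor.degree Ao = (genusFF K F : ℤ) - 1)
    (O : Place K F) (D : Divisor.degZero (K := K) (F := F))
    (hDm : riemannRochSpace (Ao - (D : Divisor K F)) = ⊥)
    (hDp : riemannRochSpace (Ao + (D : Divisor K F)) = ⊥) (j : ℤ) :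
    ∃ Φ : L, Φ ≠ 0 ∧ S27ckCP K (S27icIdx hld hgen hx Ao)
      (j • s27pfCl (s27dclPkg hld hgen hx G₀ hG₀)
        (s27pfTaut (K := K) (F := F) (g := genusFF K F) (L := L)))
      (s27bcBeta hld hgen (s26gspf_hall hx) (Pic0.mk D)) Φ :=
  s17sq_cp hld hgen hx hg Ao hAo hAod O _ _
    (s17su_good_eta hld hgen hx G₀ hG₀ hG0 Ao hAo hAod j)
    (s17sq_good_beta hld hgen hx Ao D hDm) (s17sq_good_beta_neg hld hgen hx Ao D hDp)
    (s17su_good_eta_add hld hgen hx G₀ hG₀ hG0 Ao hAod D hDm j)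
    (s17su_good_eta_sub hld hgen hx G₀ hG₀ hG0 Ao hAod D hDp j)

/-- **the valuative THEOREM OF THE SQUARE at the multiples of the generic class, as the input (sq)
of (T)**: for ANY local equations `y`, `y₁`, `y₂` of `Θ_{Ao}` at `jη`, `jη + β[D]`, `jη − β[D]`
there is `Φ ≠ 0`, independent of `W`, with `S17trSq K y y₁ y₂ Φ`, i.e.
`y₁ W · y₂ W = u · Φ · (y W)²`, `u ∈ Wˣ`, for every valuation subring `W ⊇ K` of `L`. -/
theorem s17su_trSq (hg : 0 < genusFF K F) (hG0 : 0 ≤ G₀) (Ao : Divisor K F)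
    (hAo : riemannRochSpace Ao = ⊥) (hAod : Divisor.degree Ao = (genusFF K F : ℤ) - 1)
    (O : Place K F) (D : Divisor.degZero (K := K) (F := F))
    (hDm : riemannRochSpace (Ao - (D : Divisor K F)) = ⊥)
    (hDp : riemannRochSpace (Ao + (D : Divisor K F)) = ⊥) (j : ℤ) :
    ∃ Φ : L, Φ ≠ 0 ∧ ∀ y y₁ y₂ : ValuationSubring L → L,
      (∀ W : ValuationSubring L, S27IsKValU K W → S27icIdx hld hgen hx Ao W
        (j • s27pfCl (s27dclPkg hld hgen hx G₀ hG₀)
          (s27pfTaut (K := K) (F := F) (g := genusFF K F) (L := L))) (y W)) →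
      (∀ W : ValuationSubring L, S27IsKValU K W → S27icIdx hld hgen hx Ao W
        (j • s27pfCl (s27dclPkg hld hgen hx G₀ hG₀)
          (s27pfTaut (K := K) (F := F) (g := genusFF K F) (L := L)) +
          s27bcBeta hld hgen (s26gspf_hall hx) (Pic0.mk D)) (y₁ W)) →
      (∀ W : ValuationSubring L, S27IsKValU K W → S27icIdx hld hgen hx Ao W
        (j • s27pfCl (s27dclPkg hld hgen hx G₀ hG₀)
          (s27pfTaut (K := K) (F := F) (g := genusFF K F) (L := L)) -
          s27bcBeta hld hgen (s26gspf_hall hx) (Pic0.mk D)) (y₂ W)) →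
      S17trSq K y y₁ y₂ Φ ∧ S17trInt K y₂ := by
  obtain ⟨Φ₀, hΦ₀, hcp⟩ := s17su_cp hld hgen hx G₀ hG₀ hg hG0 Ao hAo hAod O D hDm hDp j
  have hLE := s27le5_ckLE (FL := FL) hld hgen hx Ao hAod hAo
  refine ⟨Φ₀⁻¹, inv_ne_zero hΦ₀, fun y y₁ y₂ hy hy₁ hy₂ => ⟨?_, ?_⟩⟩
  · exact s17su_sq_of_cp hLE _ _ Φ₀ hΦ₀ hcp
      (fun W hW z hz => s17su_unit_const hld hgen hx Ao D hAod hDm W hW z hz)
      (fun W hW z hz => s17su_unit_const_neg hld hgen hx Ao D hAod hDp W hW z hz)
      y y₁ y₂ hy hy₁ hy₂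
  · exact s17su_trInt hld hgen hx Ao _ y₂ hy₂

/-- **the valuative THEOREM OF THE SQUARE at `j • η`, pointwise form**: `∃ Φ ≠ 0` such that for
every `W ⊇ K` and ALL local equations `x₊, x₋, x₀` of `Θ_{Ao}` along `W` at `jη + β[D]`,
`jη − β[D]`, `jη`:  `x₊ · x₋ = u · Φ · x₀²` with `u` a unit of `W`. -/
theorem s17su_square (hg : 0 < genusFF K F) (hG0 : 0 ≤ G₀) (Ao : Divisor K F)
    (hAo : riemannRochSpace Ao = ⊥) (hAod : Divisor.degree Ao = (genusFF K F : ℤ) - 1)
    (O : Place K F) (D : Divisor.degZero (K := K) (F := F))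
    (hDm : riemannRochSpace (Ao - (D : Divisor K F)) = ⊥)
    (hDp : riemannRochSpace (Ao + (D : Divisor K F)) = ⊥) (j : ℤ) :
    ∃ Φ : L, Φ ≠ 0 ∧ ∀ W : ValuationSubring L, S27IsKValU K W → ∀ xp xm x0 : L,
      S27icIdx hld hgen hx Ao W
        (j • s27pfCl (s27dclPkg hld hgen hx G₀ hG₀)
          (s27pfTaut (K := K) (F := F) (g := genusFF K F) (L := L)) +
          s27bcBeta hld hgen (s26gspf_hall hx) (Pic0.mk D)) xp →
      S27icIdx hld hgen hx Ao W
        (j • s27pfCl (s27dclPkg hld hgen hx G₀ hG₀)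
          (s27pfTaut (K := K) (F := F) (g := genusFF K F) (L := L)) -
          s27bcBeta hld hgen (s26gspf_hall hx) (Pic0.mk D)) xm →
      S27icIdx hld hgen hx Ao W
        (j • s27pfCl (s27dclPkg hld hgen hx G₀ hG₀)
          (s27pfTaut (K := K) (F := F) (g := genusFF K F) (L := L))) x0 →
      ∃ u : L, S27IsUnitIn W u ∧ xp * xm = u * Φ * x0 ^ 2 := by
  obtain ⟨Φ₀, hΦ₀, hcp⟩ := s17su_cp hld hgen hx G₀ hG₀ hg hG0 Ao hAo hAod O D hDm hDp j
  have hLE := s27le5_ckLE (FL := FL) hld hgen hx Ao hAod hAo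
  refine ⟨Φ₀⁻¹, inv_ne_zero hΦ₀, fun W hW xp xm x0 hp hm h0 => ?_⟩
  obtain ⟨z₁, z₂, z₃, z₁₂, z₁₃, z₂₃, z₁₂₃, i1, i2, i3, i12, i13, i23, i123, hcube⟩ := hcp W hW
  obtain ⟨u, hu, hue⟩ := s27ck_abs W (S27icIdx hld hgen hx Ao W) (hLE W hW).2 (hLE W hW).1 _ _
    Φ₀ hΦ₀ ⟨z₁, z₂, z₃, z₁₂, z₁₃, z₂₃, z₁₂₃, i1, i2, i3, i12, i13, i23, i123, hcube⟩
    hp hm h0 i2 i3
  refine ⟨u * (z₂ * z₃), s17su_unit_mul hu (s17su_unit_mul
    (s17su_unit_const hld hgen hx Ao D hAod hDm W hW z₂ i2)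
    (s17su_unit_const_neg hld hgen hx Ao D hAod hDp W hW z₃ i3)), ?_⟩
  rw [hue]
  ring

end Stage

end Fermat.Agent.S17

end
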