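/-
S17 sprint, layer H — leaf **HMOVE-UP** (helper8): the MOVING lemma `hmove` UPSTAIRS, in class form,
at the `K`-places of the stage of S27-B.

Stage (= S27/RepInstIc.lean, S17/SqUnit.lean): `K` algebraically closed of characteristic `0`,
`F / K` a curve of genus `g`, `L ⊇ Ω_g` algebraically closed, `η = s27pfCl pkg s27pfTaut` the generic
class, `β = s27bcBeta` the constant classes, `S27icIdx hld hgen hx Ao W c y` = "`y` is a local
equation along `W` of `Θ_{Ao}` at the class `c`".

* `s17mup_closed`      : at a `K`-place `W` (residue field `K`) every point `R : F →ₐ[K] L` has a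
                         CLOSED centre;
* `s17mup_unit_of_off` : `K`-place `W`, `R` an injective tuple of class `c` (origin `B`) with centres
                         `Q i`, `L_K(B + Ao − Σ Q i) = 0` ⇒ EVERY local equation at the class `c`
                         along `W` is a unit (MOVE-VAL `s17mvv_unit` + LE-TOP `s27le5_ckLE`);
* `s17mup_centre_deg`  : the centre divisor of a `g`-tuple has degree `g`;
* **`s17mup_hmove`**   : for every `K`-place `W` of `L` and every finite set `T` of places there is a
                         constant divisor `D` of degree `0` (off `T`) with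
                         `L_K(Ao − D) = L_K(Ao + D) = 0` (the hypotheses of the square
                         `s17su_square` / `s17su_trSq`) such that EVERY local equation of `Θ_{Ao}`
                         at `η + β[D]` and at `η − β[D]` along `W` is a unit of `W`.
  Proof: tautological tuple, centres `Q i`, centre class `x_W = [Σ Q i − G₀]`, helper26's
  `s17mvc_exists` at `x_W`, origins `G₀ ∓ D`.
-/
import Fermat.Agent.S17.SqUnit
import Fermat.Agent.S17.MoveVal
import Fermat.Agent.S17.MoveCls
import Fermat.Agent.S27.RR0Dim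

set_option autoImplicit false
set_option linter.style.haveILetI false
set_option linter.unusedSectionVars false
set_option linter.unusedVariables false

noncomputable section

namespace Fermat.Agent.S17

open AlgebraicCurve Module TensorProduct IntermediateField Fermat.Agent.S26 Fermat.Agent.S27

universe u v y

section Stage

variable {K : Type u} {F : Type v} [Field K] [IsAlgClosed K] [CharZero K] [Field F] [Algebra K F]
  [IsCurveOver K F] [Algebra.EssFiniteType K F]
  {L : Type (max u v)} [Field L] [Algebra K L]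
  [Algebra (s27gfOm K F (genusFF K F)) L] [IsScalarTower K (s27gfOm K F (genusFF K F)) L]
  [IsAlgClosed L] [Algebra.IsAlgebraic (s27gfOm K F (genusFF K F)) L]
  {FL : Type y} [Field FL] [Algebra K FL] [Algebra F FL] [Algebra L FL]
  [IsScalarTower K F FL] [IsScalarTower K L FL]
  (hld : Function.Injective (s26gspMu K F L FL)) (hgen : S26gspGen K F L FL)
  {x : F} (hx : Transcendental K x)
  [FiniteDimensional ↥(IntermediateField.adjoin K {x}) F]
  [Algebra.IsSeparable ↥(IntermediateField.adjoin K {x}) F]
  [IsGalois (s27gfSym K F (genusFF K F)) L]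

include hx in
/-- at a `K`-place every point has a closed centre. -/
theorem s17mup_closed (W : ValuationSubring L) (hW : ∀ c : K, algebraMap K L c ∈ W)
    (hres : ∀ w ∈ W, ∃ c : K, w - algebraMap K L c ∈ W.nonunits) (R : F →ₐ[K] L) :
    ∃ Q : Place K F, W.comap (R : F →+* L) = Q.toValuationSubring := by
  rcases s27adex_hred_curve x hx W hW R with hg' | h
  · exfalso
    obtain ⟨c, hc⟩ := hres (R x) (hg' x)
    have hxc : x - algebraMap K F c ≠ 0 := by
      intro h0
      exact hx (by rw [sub_eq_zero.1 h0]; exact isAlgebraic_algebraMap c)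
    have h1 : R (x - algebraMap K F c)⁻¹ ∈ W := hg' _
    rw [ValuationSubring.mem_nonunits_iff] at hc
    have h2 : R x - algebraMap K L c = R (x - algebraMap K F c) := by
      rw [map_sub, AlgHom.commutes]
    rw [h2] at hc
    have h3 : W.valuation (R (x - algebraMap K F c)⁻¹) ≤ 1 :=
      (ValuationSubring.valuation_le_one_iff W _).2 h1
    rw [map_inv₀, map_inv₀] at h3
    have h4 : W.valuation (R (x - algebraMap K F c)) ≠ 0 :=
      (Valuation.ne_zero_iff _).2 ((map_ne_zero R).2 hxc)
    have h5 := (one_lt_inv₀ (zero_lt_iff.2 h4)).2 hc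
    exact absurd h3 (not_le.2 h5)
  · exact h

/-- **units at a class with non-special centre**: MOVE-VAL + LE-TOP. -/
theorem s17mup_unit_of_off (Ao : Divisor K F) (hAo : riemannRochSpace Ao = ⊥)
    (hAod : Divisor.degree Ao = (genusFF K F : ℤ) - 1)
    (W : ValuationSubring L) (hW : S27IsKValU K W)
    (hres : ∀ w ∈ W, ∃ c : K, w - algebraMap K L c ∈ W.nonunits)
    {N : ℕ} (R : Fin N → F →ₐ[K] L) (hR : Function.Injective R)
    (B : Divisor K F) (hB : Divisor.degree B = (N : ℤ))
    (f : Module.Basis (Fin N) K ↥(riemannRochSpace (B + Ao)))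
    (Q : Fin N → Place K F)
    (hQ : ∀ i, W.comap (R i : F →+* L) = (Q i).toValuationSubring)
    (hoff : riemannRochSpace (B + Ao - s17unsDiv Q) = ⊥)
    (c : Pic0 L FL) (hc : s27icCl hld hgen hx R B hB = c)
    (z : L) (hz : S27icIdx hld hgen hx Ao W c z) : S27IsUnitIn W z := by
  have hLE := s27le5_ckLE (FL := FL) hld hgen hx Ao hAod hAo
  obtain ⟨φ, hφ⟩ := s27eil_exists W hW R hR (B + Ao)
  have hy₀ : S27ptIsIdx W R (B + Ao) ((s27ptValB R f).det / (s27ptVal R φ).det) :=
    ⟨f, φ, hφ, rfl⟩
  have hu₀ : S27IsUnitIn W ((s27ptValB R f).det / (s27ptVal R φ).det) :=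
    s17mvv_unit W hW hres R hR (B + Ao) Q hQ hoff _ hy₀
  have hidx₀ : S27icIdx hld hgen hx Ao W c ((s27ptValB R f).det / (s27ptVal R φ).det) :=
    s27ica_idx hld hgen hx Ao W hR hB hc hy₀
  obtain ⟨u, hu, hzu⟩ := (hLE W hW).2 c z _ hz hidx₀
  rw [hzu]
  exact s17su_unit_mul hu hu₀

include hx in
/-- the centre divisor of an `N`-tuple has degree `N`. -/
theorem s17mup_centre_deg {N : ℕ} (Q : Fin N → Place K F) :
    Divisor.degree (s17unsDiv Q) = (N : ℤ) := by
  unfold s17unsDiv
  rw [map_sum]
  have h1 : ∀ i ∈ (Finset.univ : Finset (Fin N)),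
      Divisor.degree (Finsupp.single (Q i) (1 : ℤ) : Divisor K F) = 1 := by
    intro i _
    rw [Divisor.degree_single, s27rd_deg_eq_one x hx (Q i)]
    simp
  rw [Finset.sum_congr rfl h1]
  simp

variable (G₀ : Divisor K F) (hG₀ : Divisor.degree G₀ = (genusFF K F : ℤ))

/-- **HMOVE-UP**: the moving lemma upstairs at a `K`-place, in class form. -/
theorem s17mup_hmove (hG0 : 0 ≤ G₀) (Ao : Divisor K F) (hAo : riemannRochSpace Ao = ⊥)
    (hAod : Divisor.degree Ao = (genusFF K F : ℤ) - 1)
    (W : ValuationSubring L) (hW : S27IsKValU K W)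
    (hres : ∀ w ∈ W, ∃ c : K, w - algebraMap K L c ∈ W.nonunits)
    (T : Finset (Place K F)) :
    ∃ D : Divisor.degZero (K := K) (F := F), (∀ v ∈ T, (D : Divisor K F) v = 0) ∧
      riemannRochSpace (Ao - (D : Divisor K F)) = ⊥ ∧
      riemannRochSpace (Ao + (D : Divisor K F)) = ⊥ ∧
      (∀ z : L, S27icIdx hld hgen hx Ao W
        (s27pfCl (s27dclPkg hld hgen hx G₀ hG₀)
          (s27pfTaut (K := K) (F := F) (g := genusFF K F) (L := L)) +
          s27bcBeta hld hgen (s26gspf_hall hx) (Pic0.mk D)) z → S27IsUnitIn W z) ∧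
      (∀ z : L, S27icIdx hld hgen hx Ao W
        (s27pfCl (s27dclPkg hld hgen hx G₀ hG₀)
          (s27pfTaut (K := K) (F := F) (g := genusFF K F) (L := L)) -
          s27bcBeta hld hgen (s26gspf_hall hx) (Pic0.mk D)) z → S27IsUnitIn W z) := by
  classical
  set R : Fin (genusFF K F) → F →ₐ[K] L :=
    s27pfTaut (K := K) (F := F) (g := genusFF K F) (L := L) with hRdef
  have hR : Function.Injective R :=
    s27ic_generic_injective (x := x) (s27mp_taut_generic (K := K) (F := F) (L := L) hx)
  choose Q hQ using fun i => s17mup_closed hx W hW hres (R i)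
  -- the centre class
  have hX₀ : s17unsDiv Q - G₀ ∈ Divisor.degZero (K := K) (F := F) := by
    rw [Divisor.mem_degZero, map_sub, s17mup_centre_deg hx Q, hG₀, sub_self]
  set X₀ : Divisor.degZero (K := K) (F := F) := ⟨s17unsDiv Q - G₀, hX₀⟩ with hX₀def
  obtain ⟨D, hT, h1, h2, hp, hm⟩ := s17mvc_exists x hx Ao hAod (Pic0.mk X₀) T
  have hcl0 : s27icCl hld hgen hx R G₀ hG₀ =
      s27pfCl (s27dclPkg hld hgen hx G₀ hG₀) R := rfl
  refine ⟨D, hT, h1, h2, ?_, ?_⟩
  · intro z hz
    have hB := s17su_deg_add (-D) hG₀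
    have hcl : s27icCl hld hgen hx R
        (G₀ + ((-D : Divisor.degZero (K := K) (F := F)) : Divisor K F)) hB =
        s27pfCl (s27dclPkg hld hgen hx G₀ hG₀) R +
          s27bcBeta hld hgen (s26gspf_hall hx) (Pic0.mk D) := by
      rw [s17su_cl_shift hld hgen hx R G₀ (-D) hG₀ hB, s17su_beta_neg hld hgen hx D, sub_neg_eq_add,
        hcl0]
    have h10 : finrank K ↥(riemannRochSpace (Ao - (D : Divisor K F))) = 0 := by
      rw [h1]
      exact finrank_bot K F
    obtain ⟨f'⟩ := s27rd_exists_basis x hx (Ao - (D : Divisor K F))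
      (s17su_deg_sub Ao D hAod) h10 G₀ hG0 hG₀
    have e : G₀ + (Ao - (D : Divisor K F)) =
        G₀ + ((-D : Divisor.degZero (K := K) (F := F)) : Divisor K F) + Ao := by
      rw [NegMemClass.coe_neg]
      abel
    rw [e] at f'
    have hoff : riemannRochSpace
        (G₀ + ((-D : Divisor.degZero (K := K) (F := F)) : Divisor K F) + Ao - s17unsDiv Q) =
        ⊥ := by
      have h3 := hp (X₀ + D) (Pic0.mk_add X₀ D)
      have e' : G₀ + ((-D : Divisor.degZero (K := K) (F := F)) : Divisor K F) + Ao -
          s17unsDiv Q = Ao - ((X₀ + D : Divisor.degZero (K := K) (F := F)) : Divisor K F) := by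
        rw [NegMemClass.coe_neg, AddSubgroup.coe_add]
        show G₀ + -(D : Divisor K F) + Ao - s17unsDiv Q =
          Ao - ((s17unsDiv Q - G₀) + (D : Divisor K F))
        abel
      rw [e']
      exact h3
    exact s17mup_unit_of_off hld hgen hx Ao hAo hAod W hW hres R hR _ hB f' Q hQ hoff _ hcl
      z hz
  · intro z hz
    have hB := s17su_deg_add D hG₀
    have hcl : s27icCl hld hgen hx R (G₀ + (D : Divisor K F)) hB =
        s27pfCl (s27dclPkg hld hgen hx G₀ hG₀) R -
          s27bcBeta hld hgen (s26gspf_hall hx) (Pic0.mk D) := by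
      rw [s17su_cl_shift hld hgen hx R G₀ D hG₀ hB, hcl0]
    have h20 : finrank K ↥(riemannRochSpace (Ao + (D : Divisor K F))) = 0 := by
      rw [h2]
      exact finrank_bot K F
    obtain ⟨f'⟩ := s27rd_exists_basis x hx (Ao + (D : Divisor K F))
      (s17su_deg_add' Ao D hAod) h20 G₀ hG0 hG₀
    have e : G₀ + (Ao + (D : Divisor K F)) = G₀ + (D : Divisor K F) + Ao := by abel
    rw [e] at f'
    have hoff : riemannRochSpace (G₀ + (D : Divisor K F) + Ao - s17unsDiv Q) = ⊥ := by
      have h3 := hm (X₀ - D) rfl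
      have e' : G₀ + (D : Divisor K F) + Ao - s17unsDiv Q =
          Ao - ((X₀ - D : Divisor.degZero (K := K) (F := F)) : Divisor K F) := by
        rw [AddSubgroup.coe_sub]
        show G₀ + (D : Divisor K F) + Ao - s17unsDiv Q =
          Ao - ((s17unsDiv Q - G₀) - (D : Divisor K F))
        abel
      rw [e']
      exact h3
    exact s17mup_unit_of_off hld hgen hx Ao hAo hAod W hW hres R hR _ hB f' Q hQ hoff _ hcl
      z hz

end Stage

end Fermat.Agent.S17

end
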