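/-
S17 sprint, layer H — leaf **BPF-POOL** (helper95) = step (B) of the route "finite pool, no NORM"
(helper33, helper95 07:24Z): a FINITE base-point-free family at the `L`-level, with `N = 2`.

Stage (= S17/MoveUp.lean, S17/SqUnit.lean): `K` algebraically closed of characteristic `0`,
`F / K` a curve of genus `g`, `L ⊇ Ω_g` algebraically closed, `η = s27pfCl pkg s27pfTaut` the generic
class, `β = s27bcBeta` the constant classes, `S27icIdx hld hgen hx Ao W c y` = "`y` is a local
equation along `W` of `Θ_{Ao}` at the class `c`".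

* `s17bpl_unit_of_off`  : `W₀ ≤ W`, `W₀` a `K`-place, `R` an injective tuple of class `c` with
                          centres `Q i` along `W₀`, `L_K(B + Ao − Σ Q i) = 0` ⇒ EVERY local equation
                          at the class `c` along `W` is a unit of `W`
                          (MOVE-VAL `s17mvv_unit` at `W₀` + IDX-GEN `s17ig_idx` + LE-TOP);
* `s17bpl_exists_add/_sub` : local equations at `η ± β[D]` exist along every `W ⊇ K`
                          (`ℓ(Ao ∓ D) = 0`);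
* `s17bpl_unit_add/_sub`: they are units of `W` as soon as the centre class `x₀` of the
                          tautological tuple along a `K`-place `W₀ ≤ W` has `x₀ ± [D]` off `Θ_{Ao}`;
* **`s17bpl_bpf`**      : a finite TWO-SIDED POOL `T` of constant divisors of degree `0`
                          (`ℓ(Ao ∓ D) = 0` for `D ∈ T`; every class `c` has `D ∈ T` with
                          `c + [D]`, `c − [D]` off `Θ_{Ao}`) gives a FINITE family
                          `s : T → L`, `s D ≠ 0`, with `S17muBpf K y 2 s` for EVERY choice `y` of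
                          local equations of `Θ_{Ao}` at `η`: for every valuation subring `W ⊇ K`
                          of `L`, `s D · (y W)² ∈ W` for all `D` and `s D · (y W)² ∈ Wˣ` for
                          some `D`.  (`s D` = the function `Φ_D` of the theorem of the square
                          `s17su_square`; no NORM, no exponent.)
-/
import Fermat.Agent.S17.MoveUp
import Fermat.Agent.S17.IdxGen
import Fermat.Agent.S17.Mult

set_option autoImplicit false
set_option linter.style.haveILetI false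
set_option linter.unusedSectionVars false
set_option linter.unusedVariables false

noncomputable section

namespace Fermat.Agent.S17

open AlgebraicCurve Module TensorProduct IntermediateField Fermat.Agent.S26 Fermat.Agent.S27

universe u v y

section Stage

variable {K : Type u} {F : Type v} [Field K] [IsAlgClosed K] [CharZero K] [Field F] [Algebra K F]
  [IsCurveOver K F] [Algebra.EssFiniteType K F]
  {L : Type (max u v)} [Field L] [Algebra K L]
  [Algebra (s27gfOm K F (genusFF K F)) L] [IsScalarTower K (s27gfOm K F (genusFF K F)) L]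
  [IsAlgClosed L] [Algebra.IsAlgebraic (s27gfOm K F (genusFF K F)) L]
  {FL : Type y} [Field FL] [Algebra K FL] [Algebra F FL] [Algebra L FL]
  [IsScalarTower K F FL] [IsScalarTower K L FL]
  (hld : Function.Injective (s26gspMu K F L FL)) (hgen : S26gspGen K F L FL)
  {x : F} (hx : Transcendental K x)
  [FiniteDimensional ↥(IntermediateField.adjoin K {x}) F]
  [Algebra.IsSeparable ↥(IntermediateField.adjoin K {x}) F]
  [IsGalois (s27gfSym K F (genusFF K F)) L]

/-- a local equation at the class of an injective tuple exists along every `W ⊇ K`. -/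
theorem s17bpl_exists_idx (Ao : Divisor K F)
    (W : ValuationSubring L) (hW : S27IsKValU K W)
    {N : ℕ} (R : Fin N → F →ₐ[K] L) (hR : Function.Injective R)
    (B : Divisor K F) (hB : Divisor.degree B = (N : ℤ))
    (f : Module.Basis (Fin N) K ↥(riemannRochSpace (B + Ao)))
    (c : Pic0 L FL) (hc : s27icCl hld hgen hx R B hB = c) :
    ∃ z : L, S27icIdx hld hgen hx Ao W c z := by
  obtain ⟨φ, hφ⟩ := s27eil_exists W hW R hR (B + Ao)
  have hy : S27ptIsIdx W R (B + Ao) ((s27ptValB R f).det / (s27ptVal R φ).det) :=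
    ⟨f, φ, hφ, rfl⟩
  exact ⟨_, s27ica_idx hld hgen hx Ao W hR hB hc hy⟩

/-- **units at a class with non-special centre, along EVERY `W ≥ W₀`**: MOVE-VAL at the `K`-place
`W₀` + IDX-GEN + LE-TOP. -/
theorem s17bpl_unit_of_off (Ao : Divisor K F) (hAo : riemannRochSpace Ao = ⊥)
    (hAod : Divisor.degree Ao = (genusFF K F : ℤ) - 1)
    (W₀ W : ValuationSubring L) (hle : W₀ ≤ W) (hW₀ : S27IsKValU K W₀)
    (hres : ∀ w ∈ W₀, ∃ c : K, w - algebraMap K L c ∈ W₀.nonunits)
    {N : ℕ} (R : Fin N → F →ₐ[K] L) (hR : Function.Injective R)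
    (B : Divisor K F) (hB : Divisor.degree B = (N : ℤ))
    (f : Module.Basis (Fin N) K ↥(riemannRochSpace (B + Ao)))
    (Q : Fin N → Place K F)
    (hQ : ∀ i, W₀.comap (R i : F →+* L) = (Q i).toValuationSubring)
    (hoff : riemannRochSpace (B + Ao - s17unsDiv Q) = ⊥)
    (c : Pic0 L FL) (hc : s27icCl hld hgen hx R B hB = c)
    (z : L) (hz : S27icIdx hld hgen hx Ao W c z) : S27IsUnitIn W z := by
  have hW : S27IsKValU K W := fun a => hle (hW₀ a)
  have hLE := s27le5_ckLE (FL := FL) hld hgen hx Ao hAod hAo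
  obtain ⟨φ, hφ⟩ := s27eil_exists W₀ hW₀ R hR (B + Ao)
  have hy₀ : S27ptIsIdx W₀ R (B + Ao) ((s27ptValB R f).det / (s27ptVal R φ).det) :=
    ⟨f, φ, hφ, rfl⟩
  have hu₀ : S27IsUnitIn W₀ ((s27ptValB R f).det / (s27ptVal R φ).det) :=
    s17mvv_unit W₀ hW₀ hres R hR (B + Ao) Q hQ hoff _ hy₀
  have hy : S27ptIsIdx W R (B + Ao) ((s27ptValB R f).det / (s27ptVal R φ).det) :=
    s17ig_idx hle hW₀ R (B + Ao) hy₀
  have hu : S27IsUnitIn W ((s27ptValB R f).det / (s27ptVal R φ).det) :=
    ⟨hu₀.1, hle hu₀.2.1, hle hu₀.2.2⟩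
  have hidx : S27icIdx hld hgen hx Ao W c ((s27ptValB R f).det / (s27ptVal R φ).det) :=
    s27ica_idx hld hgen hx Ao W hR hB hc hy
  obtain ⟨u, huu, hzu⟩ := (hLE W hW).2 c z _ hz hidx
  rw [hzu]
  exact s17su_unit_mul huu hu

variable (G₀ : Divisor K F) (hG₀ : Divisor.degree G₀ = (genusFF K F : ℤ))

/-- the tautological tuple with origin `G₀ − D`: class `η + β[D]`, a basis of `L(G₀ − D + Ao)`. -/
theorem s17bpl_data_add (hG0 : 0 ≤ G₀) (Ao : Divisor K F)
    (hAod : Divisor.degree Ao = (genusFF K F : ℤ) - 1)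
    (D : Divisor.degZero (K := K) (F := F))
    (h1 : riemannRochSpace (Ao - (D : Divisor K F)) = ⊥) :
    ∃ (B : Divisor K F) (hB : Divisor.degree B = ((genusFF K F : ℕ) : ℤ)),
      Nonempty (Module.Basis (Fin (genusFF K F)) K ↥(riemannRochSpace (B + Ao))) ∧
      s27icCl hld hgen hx (s27pfTaut (K := K) (F := F) (g := genusFF K F) (L := L)) B hB =
        s27pfCl (s27dclPkg hld hgen hx G₀ hG₀)
          (s27pfTaut (K := K) (F := F) (g := genusFF K F) (L := L)) +
          s27bcBeta hld hgen (s26gspf_hall hx) (Pic0.mk D) ∧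
      ∀ E : Divisor K F, B + Ao - E = Ao - ((E - G₀) + (D : Divisor K F)) := by
  have hcl0 : s27icCl hld hgen hx
      (s27pfTaut (K := K) (F := F) (g := genusFF K F) (L := L)) G₀ hG₀ =
      s27pfCl (s27dclPkg hld hgen hx G₀ hG₀)
        (s27pfTaut (K := K) (F := F) (g := genusFF K F) (L := L)) := rfl
  have hB := s17su_deg_add (-D) hG₀
  have h10 : finrank K ↥(riemannRochSpace (Ao - (D : Divisor K F))) = 0 := by
    rw [h1]
    exact finrank_bot K F
  obtain ⟨f'⟩ := s27rd_exists_basis x hx (Ao - (D : Divisor K F))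
    (s17su_deg_sub Ao D hAod) h10 G₀ hG0 hG₀
  have e : G₀ + (Ao - (D : Divisor K F)) =
      G₀ + ((-D : Divisor.degZero (K := K) (F := F)) : Divisor K F) + Ao := by
    rw [NegMemClass.coe_neg]
    abel
  rw [e] at f'
  refine ⟨G₀ + ((-D : Divisor.degZero (K := K) (F := F)) : Divisor K F), hB, ⟨f'⟩, ?_, ?_⟩
  · rw [s17su_cl_shift hld hgen hx _ G₀ (-D) hG₀ hB, s17su_beta_neg hld hgen hx D,
      sub_neg_eq_add, hcl0]
  · intro E
    rw [NegMemClass.coe_neg]
    abel

/-- the tautological tuple with origin `G₀ + D`: class `η − β[D]`, a basis of `L(G₀ + D + Ao)`. -/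
theorem s17bpl_data_sub (hG0 : 0 ≤ G₀) (Ao : Divisor K F)
    (hAod : Divisor.degree Ao = (genusFF K F : ℤ) - 1)
    (D : Divisor.degZero (K := K) (F := F))
    (h2 : riemannRochSpace (Ao + (D : Divisor K F)) = ⊥) :
    ∃ (B : Divisor K F) (hB : Divisor.degree B = ((genusFF K F : ℕ) : ℤ)),
      Nonempty (Module.Basis (Fin (genusFF K F)) K ↥(riemannRochSpace (B + Ao))) ∧
      s27icCl hld hgen hx (s27pfTaut (K := K) (F := F) (g := genusFF K F) (L := L)) B hB =
        s27pfCl (s27dclPkg hld hgen hx G₀ hG₀)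
          (s27pfTaut (K := K) (F := F) (g := genusFF K F) (L := L)) -
          s27bcBeta hld hgen (s26gspf_hall hx) (Pic0.mk D) ∧
      ∀ E : Divisor K F, B + Ao - E = Ao - ((E - G₀) - (D : Divisor K F)) := by
  have hcl0 : s27icCl hld hgen hx
      (s27pfTaut (K := K) (F := F) (g := genusFF K F) (L := L)) G₀ hG₀ =
      s27pfCl (s27dclPkg hld hgen hx G₀ hG₀)
        (s27pfTaut (K := K) (F := F) (g := genusFF K F) (L := L)) := rfl
  have hB := s17su_deg_add D hG₀
  have h20 : finrank K ↥(riemannRochSpace (Ao + (D : Divisor K F))) = 0 := by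
    rw [h2]
    exact finrank_bot K F
  obtain ⟨f'⟩ := s27rd_exists_basis x hx (Ao + (D : Divisor K F))
    (s17su_deg_add' Ao D hAod) h20 G₀ hG0 hG₀
  have e : G₀ + (Ao + (D : Divisor K F)) = G₀ + (D : Divisor K F) + Ao := by abel
  rw [e] at f'
  refine ⟨G₀ + (D : Divisor K F), hB, ⟨f'⟩, ?_, ?_⟩
  · rw [s17su_cl_shift hld hgen hx _ G₀ D hG₀ hB, hcl0]
  · intro E
    abel

/-- **the finite base-point-free family of the pool** (`L`-level, `N = 2`, all `W ⊇ K`). -/
theorem s17bpl_bpf (hg : 0 < genusFF K F) (hG0 : 0 ≤ G₀) (Ao : Divisor K F)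
    (hAo : riemannRochSpace Ao = ⊥) (hAod : Divisor.degree Ao = (genusFF K F : ℤ) - 1)
    (O : Place K F) (T : Finset (Divisor.degZero (K := K) (F := F)))
    (hT : ∀ D ∈ T, riemannRochSpace (Ao - (D : Divisor K F)) = ⊥ ∧
      riemannRochSpace (Ao + (D : Divisor K F)) = ⊥)
    (hcov : ∀ c : Pic0 K F, ∃ D ∈ T, S17mvcOff Ao (c + Pic0.mk D) ∧
      S17mvcOff Ao (c - Pic0.mk D)) :
    ∃ s : T → L, (∀ D, s D ≠ 0) ∧ ∀ y : ValuationSubring L → L,
      (∀ W : ValuationSubring L, S27IsKValU K W → S27icIdx hld hgen hx Ao W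
        (s27pfCl (s27dclPkg hld hgen hx G₀ hG₀)
          (s27pfTaut (K := K) (F := F) (g := genusFF K F) (L := L))) (y W)) →
      S17muBpf K y 2 s := by
  classical
  set R : Fin (genusFF K F) → F →ₐ[K] L :=
    s27pfTaut (K := K) (F := F) (g := genusFF K F) (L := L) with hRdef
  have hR : Function.Injective R :=
    s27ic_generic_injective (x := x) (s27mp_taut_generic (K := K) (F := F) (L := L) hx)
  -- the functions of the square
  have hsq : ∀ D : T, ∃ Φ : L, Φ ≠ 0 ∧ ∀ W : ValuationSubring L, S27IsKValU K W →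
      ∀ xp xm x0 : L,
      S27icIdx hld hgen hx Ao W (s27pfCl (s27dclPkg hld hgen hx G₀ hG₀) R +
        s27bcBeta hld hgen (s26gspf_hall hx) (Pic0.mk (D : Divisor.degZero (K := K) (F := F)))) xp →
      S27icIdx hld hgen hx Ao W (s27pfCl (s27dclPkg hld hgen hx G₀ hG₀) R -
        s27bcBeta hld hgen (s26gspf_hall hx) (Pic0.mk (D : Divisor.degZero (K := K) (F := F)))) xm →
      S27icIdx hld hgen hx Ao W (s27pfCl (s27dclPkg hld hgen hx G₀ hG₀) R) x0 →
      ∃ u : L, S27IsUnitIn W u ∧ xp * xm = u * Φ * x0 ^ 2 := by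
    intro D
    obtain ⟨Φ, hΦ0, hΦ⟩ := s17su_square hld hgen hx G₀ hG₀ hg hG0 Ao hAo hAod O
      (D : Divisor.degZero (K := K) (F := F)) (hT D D.2).1 (hT D D.2).2 1
    refine ⟨Φ, hΦ0, fun W hW xp xm x0 hp hm h0 => ?_⟩
    refine hΦ W hW xp xm x0 ?_ ?_ ?_
    · rw [one_zsmul]; exact hp
    · rw [one_zsmul]; exact hm
    · rw [one_zsmul]; exact h0
  choose Φ hΦ0 hΦ using hsq
  refine ⟨Φ, hΦ0, fun y hy W hW => ?_⟩
  -- the key identity
  have key : ∀ (D : T) (xp xm : L),
      S27icIdx hld hgen hx Ao W (s27pfCl (s27dclPkg hld hgen hx G₀ hG₀) R +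
        s27bcBeta hld hgen (s26gspf_hall hx) (Pic0.mk (D : Divisor.degZero (K := K) (F := F)))) xp →
      S27icIdx hld hgen hx Ao W (s27pfCl (s27dclPkg hld hgen hx G₀ hG₀) R -
        s27bcBeta hld hgen (s26gspf_hall hx) (Pic0.mk (D : Divisor.degZero (K := K) (F := F)))) xm →
      ∃ u : L, S27IsUnitIn W u ∧ Φ D * y W ^ 2 = u * (xp * xm) := by
    intro D xp xm hp hm
    obtain ⟨u, hu, h⟩ := hΦ D W hW xp xm (y W) hp hm (hy W hW)
    refine ⟨u⁻¹, s17mu_unit_inv hu, ?_⟩
    rw [h, mul_assoc u, ← mul_assoc u⁻¹, inv_mul_cancel₀ hu.1, one_mul]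
  refine ⟨fun D => ?_, ?_⟩
  · -- integrality
    obtain ⟨Bp, hBp, ⟨fp⟩, hclp, -⟩ := s17bpl_data_add hld hgen hx G₀ hG₀ hG0 Ao hAod
      (D : Divisor.degZero (K := K) (F := F)) (hT D D.2).1
    obtain ⟨Bm, hBm, ⟨fm⟩, hclm, -⟩ := s17bpl_data_sub hld hgen hx G₀ hG₀ hG0 Ao hAod
      (D : Divisor.degZero (K := K) (F := F)) (hT D D.2).2
    obtain ⟨xp, hxp⟩ := s17bpl_exists_idx hld hgen hx Ao W hW R hR Bp hBp fp _ hclp
    obtain ⟨xm, hxm⟩ := s17bpl_exists_idx hld hgen hx Ao W hW R hR Bm hBm fm _ hclm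
    obtain ⟨u, hu, h⟩ := key D xp xm hxp hxm
    rw [h]
    exact W.mul_mem _ _ hu.2.1 (W.mul_mem _ _ (s17su_idx_mem hld hgen hx Ao W _ _ hxp)
      (s17su_idx_mem hld hgen hx Ao W _ _ hxm))
  · -- a unit: the member of the pool attached to the centre class of a `K`-place `W₀ ≤ W`
    obtain ⟨W₀, hle, hW₀, hres⟩ := s17ig_exists_place W hW
    choose Q hQ using fun i => s17mup_closed hx W₀ hW₀ hres (R i)
    have hX₀ : s17unsDiv Q - G₀ ∈ Divisor.degZero (K := K) (F := F) := by
      rw [Divisor.mem_degZero, map_sub, s17mup_centre_deg hx Q, hG₀, sub_self]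
    set X₀ : Divisor.degZero (K := K) (F := F) := ⟨s17unsDiv Q - G₀, hX₀⟩ with hX₀def
    obtain ⟨D, hDT, hp, hm⟩ := hcov (Pic0.mk X₀)
    refine ⟨⟨D, hDT⟩, ?_⟩
    obtain ⟨Bp, hBp, ⟨fp⟩, hclp, hep⟩ := s17bpl_data_add hld hgen hx G₀ hG₀ hG0 Ao hAod
      D (hT D hDT).1
    obtain ⟨Bm, hBm, ⟨fm⟩, hclm, hem⟩ := s17bpl_data_sub hld hgen hx G₀ hG₀ hG0 Ao hAod
      D (hT D hDT).2
    obtain ⟨xp, hxp⟩ := s17bpl_exists_idx hld hgen hx Ao W hW R hR Bp hBp fp _ hclp
    obtain ⟨xm, hxm⟩ := s17bpl_exists_idx hld hgen hx Ao W hW R hR Bm hBm fm _ hclm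
    have hoffp : riemannRochSpace (Bp + Ao - s17unsDiv Q) = ⊥ := by
      rw [hep]
      exact hp (X₀ + D) (Pic0.mk_add X₀ D)
    have hoffm : riemannRochSpace (Bm + Ao - s17unsDiv Q) = ⊥ := by
      rw [hem]
      exact hm (X₀ - D) rfl
    have hup : S27IsUnitIn W xp :=
      s17bpl_unit_of_off hld hgen hx Ao hAo hAod W₀ W hle hW₀ hres R hR Bp hBp fp Q hQ hoffp
        _ hclp xp hxp
    have hum : S27IsUnitIn W xm :=
      s17bpl_unit_of_off hld hgen hx Ao hAo hAod W₀ W hle hW₀ hres R hR Bm hBm fm Q hQ hoffm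
        _ hclm xm hxm
    obtain ⟨u, hu, h⟩ := key ⟨D, hDT⟩ xp xm hxp hxm
    rw [h]
    exact s17su_unit_mul hu (s17su_unit_mul hup hum)

end Stage

end Fermat.Agent.S17

end
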