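/-
S17 sprint, layer H, leaf A-N / COVER (helper90): **cover by translates, curve level**.

`K` algebraically closed, `F / K` a function field of one variable, `g = genusFF K F`.
There is `m` (depending only on `F / K`) such that for every place `Q₀`, every finite family
`Y i` of divisors of degree `g − 1` and every finite set `S` of more than `n · (g + m)` places
there are `R 1, …, R m ∈ S` with

    `L(Y i + m · Q₀ − R 1 − … − R m) = 0`   for ALL `i` simultaneously.

So the FINITE set of classes `γ_R = [m · Q₀ − Σ_j R j]` (`R ∈ S^m`) moves every class off any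
finite list of "theta-type" conditions `ℓ(class of degree g − 1) = 0` — without dimension theory.

Proof: `ℓ(Y i + m Q₀) = m` exactly (Riemann's equality in large degree, `s27rr_large`); a nonzero
`L(D)` has at most `deg D` base points (`s17cov_basepoints_card`), so some `R ∈ S` is a base point
of none of the nonzero spaces: all dimensions drop by one (`s17cov_step`); iterate (`s17cov_iter`).
-/
import Fermat.Agent.S27.RR0Final

set_option autoImplicit false
set_option linter.unusedVariables false
set_option linter.unusedSectionVars false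
set_option linter.style.haveILetI false

noncomputable section

namespace Fermat.Agent.S17

open AlgebraicCurve Module IntermediateField Fermat.Agent.S24 Fermat.Agent.ES.R
  Fermat.Agent.S26 Fermat.Agent.S27

variable {K F : Type*} [Field K] [Field F] [Algebra K F]

theorem s17cov_sum_apply_of_mem (T : Finset (Place K F)) {P : Place K F} (hP : P ∈ T) :
    s26errfSum T P = 1 := by
  classical
  unfold s26errfSum
  rw [Finsupp.finsetSum_apply, Finset.sum_eq_single P]
  · simp
  · intro Q _ hQ
    exact Finsupp.single_eq_of_ne (Ne.symm hQ)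
  · intro h
    exact absurd hP h

/-- a function of `L(D)` which lies in `L(D − R)` for every `R ∈ B` lies in `L(D − Σ_B R)`. -/
theorem s17cov_mem_sub_sum (D : Divisor K F) (B : Finset (Place K F)) {f : F}
    (hfD : f ∈ riemannRochSpace D)
    (hf : ∀ R ∈ B, f ∈ riemannRochSpace (D - Finsupp.single R 1)) :
    f ∈ riemannRochSpace (D - s26errfSum B) := by
  classical
  rw [mem_riemannRochSpace_iff]
  intro v
  by_cases hv : v ∈ B
  · have h := (mem_riemannRochSpace_iff.1 (hf v hv)) v
    rcases h with h | h
    · exact Or.inl h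
    · right
      rw [Finsupp.sub_apply, Finsupp.single_eq_same] at h
      rw [Finsupp.sub_apply, s17cov_sum_apply_of_mem B hv]
      exact h
  · have h := (mem_riemannRochSpace_iff.1 hfD) v
    rcases h with h | h
    · exact Or.inl h
    · right
      rw [Finsupp.sub_apply, s26errfSum_apply_of_notMem B hv, sub_zero]
      exact h

theorem s17cov_sub_single_le (D : Divisor K F) (R : Place K F) :
    riemannRochSpace (D - Finsupp.single R 1) ≤ riemannRochSpace D := by
  classical
  refine rr_mono ?_
  rw [Finsupp.le_def]
  intro v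
  rw [Finsupp.sub_apply]
  by_cases hv : v = R
  · subst hv
    rw [Finsupp.single_eq_same]
    omega
  · rw [Finsupp.single_eq_of_ne (Ne.symm (Ne.symm hv)), sub_zero]

/-- **a nonzero `L(D)` has at most `deg D` base points.** -/
theorem s17cov_basepoints_card [HasPrincipalDivisors K F] (hdeg : ∀ v : Place K F, v.deg = 1)
    (D : Divisor K F) (hD : riemannRochSpace D ≠ ⊥) (B : Finset (Place K F))
    (hB : ∀ R ∈ B, riemannRochSpace (D - Finsupp.single R 1) = riemannRochSpace D) :
    (B.card : ℤ) ≤ Divisor.degree D := by
  by_contra hlt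
  rw [not_le] at hlt
  apply hD
  have hneg : Divisor.degree (D - s26errfSum B) < 0 := by
    rw [map_sub, s26errf_degree_sum hdeg B]
    linarith
  have hbot := rr_eq_bot_of_degree_neg (K := K) (F := F) hneg
  rw [eq_bot_iff]
  intro f hf
  rw [← hbot]
  exact s17cov_mem_sub_sum D B hf (fun R hR => by rw [hB R hR]; exact hf)

/-- **one step**: some `R ∈ S` lowers all the dimensions `≤ k + 1` to `≤ k`. -/
theorem s17cov_step [HasPrincipalDivisors K F] (hdeg : ∀ v : Place K F, v.deg = 1)
    (hfin : ∀ D : Divisor K F, Module.Finite K ↥(riemannRochSpace D))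
    {n : ℕ} (D : Fin n → Divisor K F) (d : ℕ) (hd : ∀ i, Divisor.degree (D i) ≤ d)
    (k : ℕ) (hk : ∀ i, finrank K ↥(riemannRochSpace (D i)) ≤ k + 1)
    (S : Finset (Place K F)) (hS : n * d < S.card) :
    ∃ R ∈ S, ∀ i, finrank K ↥(riemannRochSpace (D i - Finsupp.single R 1)) ≤ k := by
  classical
  -- the base points in `S`
  set B : Fin n → Finset (Place K F) := fun i =>
    if riemannRochSpace (D i) = ⊥ then ∅
    else S.filter (fun R => riemannRochSpace (D i - Finsupp.single R 1) = riemannRochSpace (D i))
    with hBdef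
  have hBcard : ∀ i, (B i).card ≤ d := by
    intro i
    by_cases h0 : riemannRochSpace (D i) = ⊥
    · simp [hBdef, h0]
    · have h1 : B i = S.filter (fun R =>
          riemannRochSpace (D i - Finsupp.single R 1) = riemannRochSpace (D i)) := by
        simp [hBdef, h0]
      have h2 := s17cov_basepoints_card hdeg (D i) h0 (B i) (fun R hR => by
        rw [h1, Finset.mem_filter] at hR
        exact hR.2)
      have h3 := hd i
      have : ((B i).card : ℤ) ≤ (d : ℤ) := h2.trans h3
      exact_mod_cast this
  have hU : (Finset.univ.biUnion B).card ≤ n * d := by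
    refine (Finset.card_biUnion_le).trans ?_
    calc ∑ i : Fin n, (B i).card ≤ ∑ _i : Fin n, d := Finset.sum_le_sum fun i _ => hBcard i
      _ = n * d := by simp
  obtain ⟨R, hRS, hRU⟩ : ∃ R ∈ S, R ∉ Finset.univ.biUnion B := by
    by_contra hcon
    push Not at hcon
    have : S ⊆ Finset.univ.biUnion B := fun R hR => hcon R hR
    have := Finset.card_le_card this
    omega
  refine ⟨R, hRS, fun i => ?_⟩
  haveI := hfin (D i)
  haveI := hfin (D i - Finsupp.single R 1)
  by_cases h0 : riemannRochSpace (D i) = ⊥
  · have hle := s17cov_sub_single_le (D i) R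
    rw [h0, le_bot_iff] at hle
    rw [hle, finrank_bot]
    exact Nat.zero_le k
  · have hne : riemannRochSpace (D i - Finsupp.single R 1) ≠ riemannRochSpace (D i) := by
      intro heq
      apply hRU
      rw [Finset.mem_biUnion]
      refine ⟨i, Finset.mem_univ i, ?_⟩
      have h1 : B i = S.filter (fun R =>
          riemannRochSpace (D i - Finsupp.single R 1) = riemannRochSpace (D i)) := by
        simp [hBdef, h0]
      rw [h1, Finset.mem_filter]
      exact ⟨hRS, heq⟩
    have hlt : riemannRochSpace (D i - Finsupp.single R 1) < riemannRochSpace (D i) :=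
      lt_of_le_of_ne (s17cov_sub_single_le (D i) R) hne
    have := Submodule.finrank_lt_finrank_of_lt hlt
    have := hk i
    omega

/-- **iteration**: `k` places of `S` kill all the spaces of dimension `≤ k`. -/
theorem s17cov_iter [HasPrincipalDivisors K F] (hdeg : ∀ v : Place K F, v.deg = 1)
    (hfin : ∀ D : Divisor K F, Module.Finite K ↥(riemannRochSpace D))
    {n : ℕ} (d : ℕ) (S : Finset (Place K F)) (hS : n * d < S.card) :
    ∀ (k : ℕ) (D : Fin n → Divisor K F), (∀ i, Divisor.degree (D i) ≤ d) →
      (∀ i, finrank K ↥(riemannRochSpace (D i)) ≤ k) →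
      ∃ R : Fin k → Place K F, (∀ j, R j ∈ S) ∧
        ∀ i, riemannRochSpace (D i - ∑ j, Finsupp.single (R j) (1 : ℤ)) = ⊥ := by
  intro k
  induction k with
  | zero =>
    intro D hd hk
    refine ⟨Fin.elim0, fun j => j.elim0, fun i => ?_⟩
    haveI := hfin (D i)
    have h0 : finrank K ↥(riemannRochSpace (D i)) = 0 := Nat.le_zero.1 (hk i)
    rw [Finset.univ_eq_empty, Finset.sum_empty, sub_zero]
    exact Submodule.finrank_eq_zero.1 h0
  | succ k ih =>
    intro D hd hk
    obtain ⟨R₀, hR₀, hstep⟩ := s17cov_step hdeg hfin D d hd k hk S hS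
    have hd' : ∀ i, Divisor.degree (D i - Finsupp.single R₀ 1) ≤ d := by
      intro i
      rw [map_sub, Divisor.degree_single, hdeg R₀]
      have := hd i
      push_cast
      linarith
    obtain ⟨R, hR, hbot⟩ := ih (fun i => D i - Finsupp.single R₀ 1) hd' hstep
    refine ⟨Fin.cons R₀ R, fun j => ?_, fun i => ?_⟩
    · refine Fin.cases ?_ (fun j => ?_) j
      · simpa using hR₀
      · simpa using hR j
    · have h1 : D i - ∑ j, Finsupp.single ((Fin.cons R₀ R : Fin (k + 1) → Place K F) j) (1 : ℤ)
          = D i - Finsupp.single R₀ 1 - ∑ j, Finsupp.single (R j) (1 : ℤ) := by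
        rw [Fin.sum_univ_succ]
        simp only [Fin.cons_zero, Fin.cons_succ]
        abel
      rw [h1]
      exact hbot i

section Main

variable [IsAlgClosed K] (x : F) (hx : Transcendental K x) [FiniteDimensional K⟮x⟯ F]

include hx in
/-- **COVER, divisor form.** -/
theorem s17cov_exists :
    ∃ m : ℕ, ∀ (Q₀ : Place K F) (n : ℕ) (Y : Fin n → Divisor K F),
      (∀ i, Divisor.degree (Y i) = (genusFF K F : ℤ) - 1) →
      ∀ S : Finset (Place K F), n * (genusFF K F + m) < S.card →
      ∃ R : Fin m → Place K F, (∀ j, R j ∈ S) ∧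
        ∀ i, riemannRochSpace (Y i + Finsupp.single Q₀ (m : ℤ)
          - ∑ j, Finsupp.single (R j) (1 : ℤ)) = ⊥ := by
  haveI := s26err_hasPrincipalDivisors (K := K) x hx
  have hdeg : ∀ v : Place K F, v.deg = 1 := fun v => s26errg_deg_eq_one x hx v
  have hfin : ∀ D : Divisor K F, Module.Finite K ↥(riemannRochSpace D) :=
    fun D => s26err_rr_finite' x hx D
  obtain ⟨c, hc⟩ := s27rr_large x hx
  refine ⟨(c - ((genusFF K F : ℤ) - 1)).toNat, fun Q₀ n Y hY S hS => ?_⟩
  set m : ℕ := (c - ((genusFF K F : ℤ) - 1)).toNat with hm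
  have hmc : c ≤ (genusFF K F : ℤ) - 1 + m := by
    have := Int.self_le_toNat (c - ((genusFF K F : ℤ) - 1))
    rw [hm]
    linarith
  have hZdeg : ∀ i, Divisor.degree (Y i + Finsupp.single Q₀ (m : ℤ))
      = (genusFF K F : ℤ) - 1 + m := by
    intro i
    rw [map_add, hY i, Divisor.degree_single, hdeg Q₀]
    push_cast
    ring
  refine s17cov_iter hdeg hfin (genusFF K F + m) S hS m
    (fun i => Y i + Finsupp.single Q₀ (m : ℤ)) (fun i => ?_) (fun i => ?_)
  · rw [hZdeg i]
    push_cast
    linarith
  · have h1 := hc (Y i + Finsupp.single Q₀ (m : ℤ)) (by rw [hZdeg i]; exact hmc)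
    rw [hZdeg i] at h1
    have : (finrank K ↥(riemannRochSpace (Y i + Finsupp.single Q₀ (m : ℤ))) : ℤ) = m := by
      rw [h1]; ring
    have h2 : finrank K ↥(riemannRochSpace (Y i + Finsupp.single Q₀ (m : ℤ))) = m := by
      exact_mod_cast this
    exact h2.le

end Main

end Fermat.Agent.S17

end
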