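/-
S17 sprint, layer H — **TWO-SIDED FINITE POOL** (helper94; double of helper33's (P), route without
NORM descent): ONE finite set of translations moves EVERY class off `Θ_{Ao}` on BOTH sides.

`K` algebraically closed, `F / K` a function field of one variable, `g = genusFF K F`.

* `s17cv2_bad_plus_card` : if `ℓ(D) > deg D + 1 − γ` then fewer than `c − deg D` places of a finite
                           set enlarge `L(D)` (Riemann's equality from degree `c` on + growth);
* `s17cv2_step`          : ONE place `R ∈ S` lowers the dimensions of a "minus" family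
                           (`D⁻ i − R`, `s17cov_step`) and keeps `L(D⁺ j + R) = 0` for a "plus" family;
* `s17cv2_iter`          : iteration: `k` places;
* `s17cv2_exists`        : **divisor form**: `∃ m b, ∀ Q₀, Y, Y' (degree g − 1), S` large:
                           `∃ R : Fin m → S`, `L(Y i + m Q₀ − Σ R) = 0` and `L(Y' j − m Q₀ + Σ R) = 0`;
* `s17cv2_pool`          : **class form**: `∃ T : Finset degZero, ∀ c : Pic0 K F, ∃ D ∈ T,
                           L(Ao − D) = L(Ao + D) = 0 ∧ S17mvcOff Ao (c + [D]) ∧ S17mvcOff Ao (c − [D])`;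
* `s17cv2_pool_fin`      : the same for finitely many classes at once.
-/
import Fermat.Agent.S17.Cover
import Fermat.Agent.S17.MoveCls
import Fermat.Agent.S26.ERRGInst

set_option autoImplicit false
set_option linter.unusedVariables false
set_option linter.unusedSectionVars false
set_option linter.style.haveILetI false

noncomputable section

namespace Fermat.Agent.S17

open AlgebraicCurve Module IntermediateField Fermat.Agent.S24 Fermat.Agent.ES.R
  Fermat.Agent.S26 Fermat.Agent.S27

variable {K F : Type*} [Field K] [Field F] [Algebra K F]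

/-- **plus-type bad points**: fewer than `c − deg D` places of `B` can all enlarge `L(D)` when
`ℓ(D) > deg D + 1 − γ`. -/
theorem s17cv2_bad_plus_card [HasPrincipalDivisors K F]
    (hfinv : ∀ v : Place K F, Module.Finite K v.ResidueField)
    (hdeg : ∀ v : Place K F, v.deg = 1) {γ c : ℤ}
    (hc : ∀ A : Divisor K F, c ≤ Divisor.degree A →
      (finrank K ↥(riemannRochSpace A) : ℤ) = Divisor.degree A + 1 - γ)
    (D : Divisor K F)
    (hD : Divisor.degree D + 1 - γ < (finrank K ↥(riemannRochSpace D) : ℤ))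
    (B : Finset (Place K F))
    (hB : ∀ P ∈ B, finrank K ↥(riemannRochSpace (D + Finsupp.single P 1)) ≠
      finrank K ↥(riemannRochSpace D)) :
    (B.card : ℤ) < c - Divisor.degree D := by
  by_contra hcon
  rw [not_lt] at hcon
  have h1 := s26errf_growth hfinv D B hB
  have hdegT : Divisor.degree (D + s26errfSum B) = Divisor.degree D + B.card := by
    rw [map_add, s26errf_degree_sum hdeg B]
  have h2 := hc (D + s26errfSum B) (by rw [hdegT]; linarith)
  rw [hdegT] at h2
  have h3 : ((finrank K ↥(riemannRochSpace D) + B.card : ℕ) : ℤ) ≤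
      (finrank K ↥(riemannRochSpace (D + s26errfSum B)) : ℤ) := by exact_mod_cast h1
  push_cast at h3
  linarith

/-- **two-sided step.** -/
theorem s17cv2_step [HasPrincipalDivisors K F]
    (hfinv : ∀ v : Place K F, Module.Finite K v.ResidueField)
    (hdeg : ∀ v : Place K F, v.deg = 1)
    (hfin : ∀ D : Divisor K F, Module.Finite K ↥(riemannRochSpace D)) {γ c : ℤ}
    (hc : ∀ A : Divisor K F, c ≤ Divisor.degree A →
      (finrank K ↥(riemannRochSpace A) : ℤ) = Divisor.degree A + 1 - γ)
    {n n' : ℕ} (Dm : Fin n → Divisor K F) (Dp : Fin n' → Divisor K F)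
    (d : ℕ) (hd : ∀ i, Divisor.degree (Dm i) ≤ d)
    (k : ℕ) (hk : ∀ i, finrank K ↥(riemannRochSpace (Dm i)) ≤ k + 1)
    (b : ℕ) (hpd : ∀ j, Divisor.degree (Dp j) < γ - 1)
    (hpb : ∀ j, c - Divisor.degree (Dp j) ≤ b)
    (hp0 : ∀ j, finrank K ↥(riemannRochSpace (Dp j)) = 0)
    (S : Finset (Place K F)) (hS : n * d + n' * b < S.card) :
    ∃ R ∈ S, (∀ i, finrank K ↥(riemannRochSpace (Dm i - Finsupp.single R 1)) ≤ k) ∧
      ∀ j, finrank K ↥(riemannRochSpace (Dp j + Finsupp.single R 1)) = 0 := by
  classical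
  -- the plus-bad points
  set B : Fin n' → Finset (Place K F) := fun j =>
    S.filter (fun P => finrank K ↥(riemannRochSpace (Dp j + Finsupp.single P 1)) ≠
      finrank K ↥(riemannRochSpace (Dp j))) with hBdef
  have hBcard : ∀ j, (B j).card ≤ b := by
    intro j
    have hD : Divisor.degree (Dp j) + 1 - γ < (finrank K ↥(riemannRochSpace (Dp j)) : ℤ) := by
      rw [hp0 j]
      have := hpd j
      push_cast
      linarith
    have h1 := s17cv2_bad_plus_card hfinv hdeg hc (Dp j) hD (B j) (fun P hP => by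
      rw [hBdef, Finset.mem_filter] at hP
      exact hP.2)
    have h2 := hpb j
    have : ((B j).card : ℤ) ≤ (b : ℤ) := by linarith
    exact_mod_cast this
  have hU : (Finset.univ.biUnion B).card ≤ n' * b := by
    refine (Finset.card_biUnion_le).trans ?_
    calc ∑ j : Fin n', (B j).card ≤ ∑ _j : Fin n', b := Finset.sum_le_sum fun j _ => hBcard j
      _ = n' * b := by simp
  -- the remaining pool
  set S' : Finset (Place K F) := S \ Finset.univ.biUnion B with hS'
  have hS'card : n * d < S'.card := by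
    have h1 : S.card ≤ S'.card + (Finset.univ.biUnion B).card := by
      rw [hS']
      have := Finset.card_le_card_sdiff_add_card (s := S) (t := Finset.univ.biUnion B)
      linarith
    omega
  obtain ⟨R, hRS', hR⟩ := s17cov_step hdeg hfin Dm d hd k hk S' hS'card
  rw [hS', Finset.mem_sdiff] at hRS'
  refine ⟨R, hRS'.1, hR, fun j => ?_⟩
  by_contra hne
  apply hRS'.2
  rw [Finset.mem_biUnion]
  refine ⟨j, Finset.mem_univ j, ?_⟩
  rw [hBdef, Finset.mem_filter]
  refine ⟨hRS'.1, ?_⟩
  rw [hp0 j]
  exact hne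

/-- **two-sided iteration.** -/
theorem s17cv2_iter [HasPrincipalDivisors K F]
    (hfinv : ∀ v : Place K F, Module.Finite K v.ResidueField)
    (hdeg : ∀ v : Place K F, v.deg = 1)
    (hfin : ∀ D : Divisor K F, Module.Finite K ↥(riemannRochSpace D)) {γ c : ℤ}
    (hc : ∀ A : Divisor K F, c ≤ Divisor.degree A →
      (finrank K ↥(riemannRochSpace A) : ℤ) = Divisor.degree A + 1 - γ)
    {n n' : ℕ} (d b : ℕ) (S : Finset (Place K F)) (hS : n * d + n' * b < S.card) :
    ∀ (k : ℕ) (Dm : Fin n → Divisor K F) (Dp : Fin n' → Divisor K F),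
      (∀ i, Divisor.degree (Dm i) ≤ d) →
      (∀ i, finrank K ↥(riemannRochSpace (Dm i)) ≤ k) →
      (∀ j, Divisor.degree (Dp j) = γ - 1 - k) →
      c - (γ - 1 - k) ≤ b →
      (∀ j, finrank K ↥(riemannRochSpace (Dp j)) = 0) →
      ∃ R : Fin k → Place K F, (∀ l, R l ∈ S) ∧
        (∀ i, riemannRochSpace (Dm i - ∑ l, Finsupp.single (R l) (1 : ℤ)) = ⊥) ∧
        ∀ j, riemannRochSpace (Dp j + ∑ l, Finsupp.single (R l) (1 : ℤ)) = ⊥ := by
  intro k
  induction k with
  | zero =>
    intro Dm Dp hd hk hpd hb hp0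
    refine ⟨Fin.elim0, fun l => l.elim0, fun i => ?_, fun j => ?_⟩
    · haveI := hfin (Dm i)
      have h0 : finrank K ↥(riemannRochSpace (Dm i)) = 0 := Nat.le_zero.1 (hk i)
      rw [Finset.univ_eq_empty, Finset.sum_empty, sub_zero]
      exact Submodule.finrank_eq_zero.1 h0
    · haveI := hfin (Dp j)
      rw [Finset.univ_eq_empty, Finset.sum_empty, add_zero]
      exact Submodule.finrank_eq_zero.1 (hp0 j)
  | succ k ih =>
    intro Dm Dp hd hk hpd hb hp0
    have hpd' : ∀ j, Divisor.degree (Dp j) < γ - 1 := by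
      intro j
      rw [hpd j]
      push_cast
      linarith
    have hpb : ∀ j, c - Divisor.degree (Dp j) ≤ b := by
      intro j
      rw [hpd j]
      exact hb
    obtain ⟨R₀, hR₀, hstepm, hstepp⟩ :=
      s17cv2_step hfinv hdeg hfin hc Dm Dp d hd k hk b hpd' hpb hp0 S hS
    have hd' : ∀ i, Divisor.degree (Dm i - Finsupp.single R₀ 1) ≤ d := by
      intro i
      rw [map_sub, Divisor.degree_single, hdeg R₀]
      have := hd i
      push_cast
      linarith
    have hpdn : ∀ j, Divisor.degree (Dp j + Finsupp.single R₀ 1) = γ - 1 - k := by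
      intro j
      rw [map_add, Divisor.degree_single, hdeg R₀, hpd j]
      push_cast
      ring
    have hb' : c - (γ - 1 - k) ≤ b := by
      push_cast at hb
      linarith
    obtain ⟨R, hR, hbotm, hbotp⟩ := ih (fun i => Dm i - Finsupp.single R₀ 1)
      (fun j => Dp j + Finsupp.single R₀ 1) hd' hstepm hpdn hb' hstepp
    refine ⟨Fin.cons R₀ R, fun l => ?_, fun i => ?_, fun j => ?_⟩
    · refine Fin.cases ?_ (fun l => ?_) l
      · simpa using hR₀
      · simpa using hR l
    · have h1 : Dm i - ∑ l, Finsupp.single ((Fin.cons R₀ R : Fin (k + 1) → Place K F) l) (1 : ℤ)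
          = Dm i - Finsupp.single R₀ 1 - ∑ l, Finsupp.single (R l) (1 : ℤ) := by
        rw [Fin.sum_univ_succ]
        simp only [Fin.cons_zero, Fin.cons_succ]
        abel
      rw [h1]
      exact hbotm i
    · have h1 : Dp j + ∑ l, Finsupp.single ((Fin.cons R₀ R : Fin (k + 1) → Place K F) l) (1 : ℤ)
          = Dp j + Finsupp.single R₀ 1 + ∑ l, Finsupp.single (R l) (1 : ℤ) := by
        rw [Fin.sum_univ_succ]
        simp only [Fin.cons_zero, Fin.cons_succ]
        abel
      rw [h1]
      exact hbotp j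

section Main

variable [IsAlgClosed K] (x : F) (hx : Transcendental K x) [FiniteDimensional K⟮x⟯ F]

include hx in
/-- **TWO-SIDED COVER, divisor form.** -/
theorem s17cv2_exists :
    ∃ m b : ℕ, ∀ (Q₀ : Place K F) (n n' : ℕ) (Y : Fin n → Divisor K F)
      (Y' : Fin n' → Divisor K F),
      (∀ i, Divisor.degree (Y i) = (genusFF K F : ℤ) - 1) →
      (∀ j, Divisor.degree (Y' j) = (genusFF K F : ℤ) - 1) →
      ∀ S : Finset (Place K F), n * (genusFF K F + m) + n' * b < S.card →
      ∃ R : Fin m → Place K F, (∀ l, R l ∈ S) ∧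
        (∀ i, riemannRochSpace (Y i + Finsupp.single Q₀ (m : ℤ)
          - ∑ l, Finsupp.single (R l) (1 : ℤ)) = ⊥) ∧
        ∀ j, riemannRochSpace (Y' j - Finsupp.single Q₀ (m : ℤ)
          + ∑ l, Finsupp.single (R l) (1 : ℤ)) = ⊥ := by
  haveI := s26err_hasPrincipalDivisors (K := K) x hx
  have hdeg : ∀ v : Place K F, v.deg = 1 := fun v => s26errg_deg_eq_one x hx v
  have hfinv : ∀ v : Place K F, Module.Finite K v.ResidueField :=
    fun v => s26err_residue_finite x hx v
  have hfin : ∀ D : Divisor K F, Module.Finite K ↥(riemannRochSpace D) :=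
    fun D => s26err_rr_finite' x hx D
  obtain ⟨c, hc⟩ := s27rr_large x hx
  set m : ℕ := (c - ((genusFF K F : ℤ) - 1)).toNat + genusFF K F with hm
  set b : ℕ := (c - ((genusFF K F : ℤ) - 1 - m)).toNat with hb
  refine ⟨m, b, fun Q₀ n n' Y Y' hY hY' S hS => ?_⟩
  have hmc : c ≤ (genusFF K F : ℤ) - 1 + m := by
    have := Int.self_le_toNat (c - ((genusFF K F : ℤ) - 1))
    rw [hm]
    push_cast
    linarith
  have hZdeg : ∀ i, Divisor.degree (Y i + Finsupp.single Q₀ (m : ℤ))
      = (genusFF K F : ℤ) - 1 + m := by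
    intro i
    rw [map_add, hY i, Divisor.degree_single, hdeg Q₀]
    push_cast
    ring
  have hZ'deg : ∀ j, Divisor.degree (Y' j - Finsupp.single Q₀ (m : ℤ))
      = (genusFF K F : ℤ) - 1 - m := by
    intro j
    rw [map_sub, hY' j, Divisor.degree_single, hdeg Q₀]
    push_cast
    ring
  have hbb : c - ((genusFF K F : ℤ) - 1 - m) ≤ b := by
    rw [hb]
    exact Int.self_le_toNat _
  refine s17cv2_iter hfinv hdeg hfin hc (genusFF K F + m) b S hS m
    (fun i => Y i + Finsupp.single Q₀ (m : ℤ)) (fun j => Y' j - Finsupp.single Q₀ (m : ℤ))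
    (fun i => ?_) (fun i => ?_) hZ'deg hbb (fun j => ?_)
  · rw [hZdeg i]
    push_cast
    linarith
  · have h1 := hc (Y i + Finsupp.single Q₀ (m : ℤ)) (by rw [hZdeg i]; exact hmc)
    rw [hZdeg i] at h1
    have : (finrank K ↥(riemannRochSpace (Y i + Finsupp.single Q₀ (m : ℤ))) : ℤ) = m := by
      rw [h1]; ring
    have h2 : finrank K ↥(riemannRochSpace (Y i + Finsupp.single Q₀ (m : ℤ))) = m := by
      exact_mod_cast this
    exact h2.le
  · have hneg : Divisor.degree (Y' j - Finsupp.single Q₀ (m : ℤ)) < 0 := by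
      rw [hZ'deg j, hm]
      push_cast
      have h0 : (0 : ℤ) ≤ (((c - ((genusFF K F : ℤ) - 1)).toNat : ℕ) : ℤ) := Int.natCast_nonneg _
      linarith
    rw [rr_eq_bot_of_degree_neg (K := K) (F := F) hneg]
    exact finrank_bot K F

/-- the translation `m · Q₀ − Σ R l` as a divisor of degree `0`. -/
def s17cv2Gam (hdeg : ∀ v : Place K F, v.deg = 1) (Q₀ : Place K F) {m : ℕ}
    (R : Fin m → Place K F) : Divisor.degZero (K := K) (F := F) :=
  ⟨Finsupp.single Q₀ (m : ℤ) - ∑ l, Finsupp.single (R l) (1 : ℤ), by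
    rw [Divisor.mem_degZero, map_sub, Divisor.degree_single, hdeg Q₀, map_sum]
    simp [Divisor.degree_single, hdeg]⟩

include hx in
/-- **TWO-SIDED FINITE POOL, class form, `ν` classes at once**: ONE finite set `T` of divisors
of degree `0`, all non-special for the square (`L(Ao ∓ D) = 0`), such that for any `ν` classes
`c i` some `D ∈ T` has all `c i ± [D]` off `Θ_{Ao}`. -/
theorem s17cv2_pool_fin (Ao : Divisor K F)
    (hAo : Divisor.degree Ao = (genusFF K F : ℤ) - 1) (ν : ℕ) :
    ∃ T : Finset (Divisor.degZero (K := K) (F := F)),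
      (∀ D ∈ T, riemannRochSpace (Ao - (D : Divisor K F)) = ⊥ ∧
        riemannRochSpace (Ao + (D : Divisor K F)) = ⊥) ∧
      ∀ c : Fin ν → Pic0 K F, ∃ D ∈ T,
        ∀ i, S17mvcOff Ao (c i + Pic0.mk D) ∧ S17mvcOff Ao (c i - Pic0.mk D) := by
  classical
  haveI : Infinite (Place K F) := s26errg_infinite_place x hx
  have hdeg : ∀ v : Place K F, v.deg = 1 := fun v => s26errg_deg_eq_one x hx v
  obtain ⟨m, b, hmb⟩ := s17cv2_exists x hx
  obtain ⟨S, -, hScard⟩ := (Set.infinite_univ (α := Place K F)).exists_subset_card_eq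
    ((ν + 1) * (genusFF K F + m) + (ν + 1) * b + 1)
  have Q₀ : Place K F := Classical.arbitrary _
  set T₀ : Finset (Divisor.degZero (K := K) (F := F)) :=
    Finset.univ.image (fun R : Fin m → ↥S => s17cv2Gam hdeg Q₀ (fun l => (R l : Place K F)))
    with hT₀
  refine ⟨T₀.filter (fun D => riemannRochSpace (Ao - (D : Divisor K F)) = ⊥ ∧
      riemannRochSpace (Ao + (D : Divisor K F)) = ⊥), fun D hD => ?_, fun c => ?_⟩
  · exact (Finset.mem_filter.1 hD).2
  · choose X hX using fun i => Pic0.mk_surjective (K := K) (F := F) (c i)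
    have hXdeg : ∀ i, Divisor.degree ((X i : Divisor K F)) = 0 := fun i => (X i).2
    set Y : Fin (ν + 1) → Divisor K F :=
      fun a => Fin.cases Ao (fun i => Ao - (X i : Divisor K F)) a with hYdef
    have hY : ∀ a, Divisor.degree (Y a) = (genusFF K F : ℤ) - 1 := by
      intro a
      refine Fin.cases ?_ (fun i => ?_) a
      · simpa [hYdef] using hAo
      · simp [hYdef, map_sub, hXdeg i, hAo]
    obtain ⟨R, hRS, hm1, hp1⟩ := hmb Q₀ (ν + 1) (ν + 1) Y Y hY hY S (by rw [hScard]; omega)
    set D : Divisor.degZero (K := K) (F := F) := s17cv2Gam hdeg Q₀ R with hDdef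
    have hDval : (D : Divisor K F) =
        Finsupp.single Q₀ (m : ℤ) - ∑ l, Finsupp.single (R l) (1 : ℤ) := rfl
    have hplus : ∀ a, riemannRochSpace (Y a + (D : Divisor K F)) = ⊥ := by
      intro a
      have e : Y a + (D : Divisor K F) =
          Y a + Finsupp.single Q₀ (m : ℤ) - ∑ l, Finsupp.single (R l) (1 : ℤ) := by
        rw [hDval]; abel
      rw [e]
      exact hm1 a
    have hminus : ∀ a, riemannRochSpace (Y a - (D : Divisor K F)) = ⊥ := by
      intro a
      have e : Y a - (D : Divisor K F) =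
          Y a - Finsupp.single Q₀ (m : ℤ) + ∑ l, Finsupp.single (R l) (1 : ℤ) := by
        rw [hDval]; abel
      rw [e]
      exact hp1 a
    have hY0 : Y 0 = Ao := rfl
    have hYs : ∀ i : Fin ν, Y i.succ = Ao - (X i : Divisor K F) := fun i => rfl
    refine ⟨D, ?_, fun i => ⟨?_, ?_⟩⟩
    · rw [Finset.mem_filter]
      refine ⟨?_, ?_, ?_⟩
      · rw [hT₀, Finset.mem_image]
        exact ⟨fun l => ⟨R l, hRS l⟩, Finset.mem_univ _, rfl⟩
      · have := hminus 0
        rwa [hY0] at this
      · have := hplus 0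
        rwa [hY0] at this
    · rw [← hX i, ← Pic0.mk_add]
      refine s17mvc_off_of_rep Ao _ ?_
      have e : Ao - ((X i + D : Divisor.degZero (K := K) (F := F)) : Divisor K F) =
          Ao - (X i : Divisor K F) - (D : Divisor K F) := by
        rw [AddSubgroup.coe_add]
        abel
      rw [e, ← hYs i]
      exact hminus i.succ
    · have hsub : c i - Pic0.mk D = Pic0.mk (X i - D) := by
        rw [← hX i]
        rfl
      rw [hsub]
      refine s17mvc_off_of_rep Ao _ ?_
      have e : Ao - ((X i - D : Divisor.degZero (K := K) (F := F)) : Divisor K F) =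
          Ao - (X i : Divisor K F) + (D : Divisor K F) := by
        rw [AddSubgroup.coe_sub]
        abel
      rw [e, ← hYs i]
      exact hplus i.succ

include hx in
/-- **TWO-SIDED FINITE POOL, class form.** -/
theorem s17cv2_pool (Ao : Divisor K F)
    (hAo : Divisor.degree Ao = (genusFF K F : ℤ) - 1) :
    ∃ T : Finset (Divisor.degZero (K := K) (F := F)),
      (∀ D ∈ T, riemannRochSpace (Ao - (D : Divisor K F)) = ⊥ ∧
        riemannRochSpace (Ao + (D : Divisor K F)) = ⊥) ∧
      ∀ c : Pic0 K F, ∃ D ∈ T,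
        S17mvcOff Ao (c + Pic0.mk D) ∧ S17mvcOff Ao (c - Pic0.mk D) := by
  obtain ⟨T, hT, h⟩ := s17cv2_pool_fin x hx Ao hAo 1
  refine ⟨T, hT, fun c => ?_⟩
  obtain ⟨D, hD, hc⟩ := h (fun _ => c)
  exact ⟨D, hD, hc 0⟩

end Main

end Fermat.Agent.S17

end
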