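/-
S17 sprint, design A v2 (ONE theta divisor), sub-integrator file **PlM-TOP** (helper11):
the place form (M′) `S17hyPlM cl H m p` of S17/HTopAB.lean in ONE closed theorem, from

  * the telescoped cube at the `𝔉`-level `S17mvTele K ψ σ₀ b Ψ c p q` (S17/MultTele.lean),
  * ONE base-point-free family `s₀ : ι → 𝔉` of `L(N Θ)` (`S17muBpf K b N s₀`),
  * extensions `ρ`, `τ : L →ₐ[K] L` of `ψ`, `σ₀` to the stage field `L ⊇ 𝔉` (`ρ ∘ ι = ι ∘ ψ`),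
    `L` finite over `ρ (L)`,
  * the class map `cl` of the places of `L` with `cl (P ∘ ρ) = m • cl P` (A-PTb),

for `K = ℚ̄`, `P := S17plPlace K L`, `H := s17plmH s17haAbsQ (ι ∘ s₀)`.

* `s17pmtB ι b`        : the lifted local equations `b_L W = ι (b (W ∩ 𝔉))`;
* `s17pmt_comap`       : `(W ∘ ρ) ∩ 𝔉 = (W ∩ 𝔉) ∘ ψ`;
* `s17pmt_tele`        : LIFT of the telescoped cube;
* `s17pmt_bpf`         : LIFT of base-point-freeness;
* **`s17pmt_plM`**     : the literal body of `S17hyPlM cl H m p`.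
-/
import Fermat.Agent.S17.PlM
import Fermat.Agent.S17.PlMGlue
import Fermat.Agent.S17.HtAbsQb

set_option autoImplicit false
set_option linter.unusedVariables false
set_option linter.unusedSectionVars false

noncomputable section

namespace Fermat.Agent.S17

open Fermat.Agent.S27 Height

universe u w w' x y

section Lift

variable {K : Type u} [Field K] {𝔉 : Type w} [Field 𝔉] [Algebra K 𝔉]
  {L : Type w'} [Field L] [Algebra K L] [Algebra 𝔉 L] [IsScalarTower K 𝔉 L]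

/-- the lifted local equations `b_L W = ι (b (W ∩ 𝔉))`. -/
def s17pmtB (b : ValuationSubring 𝔉 → 𝔉) (W : ValuationSubring L) : L :=
  algebraMap 𝔉 L (b (W.comap (algebraMap 𝔉 L)))

theorem s17pmt_isKVal {W : ValuationSubring L} (hW : S27IsKValU K W) :
    S27IsKValU K (W.comap (algebraMap 𝔉 L)) := by
  intro a
  rw [ValuationSubring.mem_comap, ← IsScalarTower.algebraMap_apply]
  exact hW a

theorem s17pmt_unit {W : ValuationSubring L} {u : 𝔉}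
    (hu : S27IsUnitIn (W.comap (algebraMap 𝔉 L)) u) : S27IsUnitIn W (algebraMap 𝔉 L u) := by
  refine ⟨(map_ne_zero _).2 hu.1, hu.2.1, ?_⟩
  rw [← map_inv₀]
  exact hu.2.2

/-- `(W ∘ ρ) ∩ 𝔉 = (W ∩ 𝔉) ∘ ψ`. -/
theorem s17pmt_comap (ψ : 𝔉 →ₐ[K] 𝔉) (ρ : L →ₐ[K] L)
    (hρ : ∀ x, ρ (algebraMap 𝔉 L x) = algebraMap 𝔉 L (ψ x)) (W : ValuationSubring L) :
    (W.comap (ρ : L →+* L)).comap (algebraMap 𝔉 L) =
      (W.comap (algebraMap 𝔉 L)).comap (ψ : 𝔉 →+* 𝔉) := by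
  ext x
  simp only [ValuationSubring.mem_comap]
  have h : (ρ : L →+* L) (algebraMap 𝔉 L x) = algebraMap 𝔉 L ((ψ : 𝔉 →+* 𝔉) x) := hρ x
  rw [h]

/-- `ρ (b_L (W ∘ ρ)) = ι (ψ (b ((W ∩ 𝔉) ∘ ψ)))`. -/
theorem s17pmt_B_map (ψ : 𝔉 →ₐ[K] 𝔉) (ρ : L →ₐ[K] L)
    (hρ : ∀ x, ρ (algebraMap 𝔉 L x) = algebraMap 𝔉 L (ψ x)) (b : ValuationSubring 𝔉 → 𝔉)
    (W : ValuationSubring L) :
    ρ (s17pmtB b (W.comap (ρ : L →+* L))) =
      algebraMap 𝔉 L (ψ (b ((W.comap (algebraMap 𝔉 L)).comap (ψ : 𝔉 →+* 𝔉)))) := by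
  unfold s17pmtB
  rw [hρ, s17pmt_comap ψ ρ hρ W]

/-- **LIFT of the telescoped cube** from `𝔉` to `L`. -/
theorem s17pmt_tele {ψ σ₀ : 𝔉 →ₐ[K] 𝔉} {ρ τ : L →ₐ[K] L}
    (hρ : ∀ x, ρ (algebraMap 𝔉 L x) = algebraMap 𝔉 L (ψ x))
    (hτ : ∀ x, τ (algebraMap 𝔉 L x) = algebraMap 𝔉 L (σ₀ x))
    {b : ValuationSubring 𝔉 → 𝔉} {Ψ : 𝔉} {c p q : ℕ} (hT : S17mvTele K ψ σ₀ b Ψ c p q) :
    S17mvTele K ρ τ (s17pmtB (L := L) b) (algebraMap 𝔉 L Ψ) c p q := by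
  intro W hW
  obtain ⟨u, hu, h⟩ := hT (W.comap (algebraMap 𝔉 L)) (s17pmt_isKVal hW)
  refine ⟨algebraMap 𝔉 L u, s17pmt_unit hu, ?_⟩
  rw [s17pmt_B_map ψ ρ hρ b W, s17pmt_B_map σ₀ τ hτ b W, ← map_pow, h]
  unfold s17pmtB
  simp only [map_mul, map_pow]

/-- **LIFT of base-point-freeness** from `𝔉` to `L`. -/
theorem s17pmt_bpf {ι : Type x} {b : ValuationSubring 𝔉 → 𝔉} {N : ℕ} {s₀ : ι → 𝔉}
    (hs : S17muBpf K b N s₀) :
    S17muBpf K (s17pmtB (L := L) b) N (fun i => algebraMap 𝔉 L (s₀ i)) := by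
  intro W hW
  obtain ⟨hmem, i₀, hi₀⟩ := hs (W.comap (algebraMap 𝔉 L)) (s17pmt_isKVal hW)
  have key : ∀ i, algebraMap 𝔉 L (s₀ i) * s17pmtB b W ^ N =
      algebraMap 𝔉 L (s₀ i * b (W.comap (algebraMap 𝔉 L)) ^ N) := by
    intro i
    unfold s17pmtB
    rw [map_mul, map_pow]
  refine ⟨fun i => ?_, i₀, ?_⟩
  · rw [key i]
    exact hmem i
  · rw [key i₀]
    exact s17pmt_unit hi₀

end Lift

section Top

variable {𝔉 : Type w} [Field 𝔉] [Algebra (AlgebraicClosure ℚ) 𝔉]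
  {L : Type w'} [Field L] [Algebra (AlgebraicClosure ℚ) L] [Algebra 𝔉 L]
  [IsScalarTower (AlgebraicClosure ℚ) 𝔉 L] {ι : Type x} [Fintype ι] {J : Type y} [AddCommGroup J]

/-- **PlM-TOP**: the literal body of `S17hyPlM cl H m p` for `H = s17plmH s17haAbsQ (ι ∘ s₀)`. -/
theorem s17pmt_plM {ψ σ₀ : 𝔉 →ₐ[AlgebraicClosure ℚ] 𝔉} {ρ τ : L →ₐ[AlgebraicClosure ℚ] L}
    (hρ : ∀ x, ρ (algebraMap 𝔉 L x) = algebraMap 𝔉 L (ψ x))
    (hτ : ∀ x, τ (algebraMap 𝔉 L x) = algebraMap 𝔉 L (σ₀ x))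
    (hfin : Module.Finite ρ.fieldRange L)
    {b : ValuationSubring 𝔉 → 𝔉} {Ψ : 𝔉} {c p q N : ℕ}
    (hT : S17mvTele (AlgebraicClosure ℚ) ψ σ₀ b Ψ c p q) (hc : 0 < c)
    {s₀ : ι → 𝔉} (hs : S17muBpf (AlgebraicClosure ℚ) b N s₀) (hs0 : s₀ ≠ 0)
    (cl : S17plPlace (AlgebraicClosure ℚ) L → J) (m : ℕ)
    (hcl : ∀ P : S17plPlace (AlgebraicClosure ℚ) L, cl (s17pxComap ρ P) = m • cl P) :
    ∃ C : ℝ, ∀ p'' : S17plPlace (AlgebraicClosure ℚ) L,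
      ∃ p' : S17plPlace (AlgebraicClosure ℚ) L, m • cl p' = cl p'' ∧
        (p : ℝ) * s17plmH s17haAbsQ (fun i => algebraMap 𝔉 L (s₀ i)) p' - C ≤
          s17plmH s17haAbsQ (fun i => algebraMap 𝔉 L (s₀ i)) p'' := by
  have hsL : (fun i => algebraMap 𝔉 L (s₀ i)) ≠ 0 := by
    intro h0
    apply hs0
    funext i
    have := congrFun h0 i
    exact (map_eq_zero (algebraMap 𝔉 L)).1 this
  exact s17plm_plM ρ hfin cl m hcl s17haAbsQ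
    (fun c v hc => s17haAbsQ_smul v hc)
    (fun i => algebraMap 𝔉 L (s₀ i)) hsL (p : ℝ)
    (s17pm_hM (s17pmt_tele hρ hτ hT) hc (s17pmt_bpf hs))

end Top

end Fermat.Agent.S17

end
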