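/-
S17 sprint, layer H — **PlM-BPF, the GLUE** (helper33): ONE FINITE base-point-free family on the
closed S27-B stage, w.r.t. the LIFTED local equations `b_L W = ι (B 1 (W ∩ 𝔉))`
(`s17pmtB (s27indB ψ β 1)`, `β = s27beta (G₀ + Ao)`) — the input `hF` of PlM
(`s17pmx_plM`, S17/PlMStageL.lean; `s17pmf_plM`, S17/PlMFinal.lean).

Route "finite pool at the class level, stay at the `L`-level, no NORM" (helper33, helper95):
* (P) the TWO-SIDED FINITE POOL `s17cv2_pool` (S17/CoverTwo.lean, helper94);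
* (B) `s17bpl_bpf` (S17/BpfPool.lean, helper95): the pool gives `s : T → L`, `s D ≠ 0`, base-point-free
      w.r.t. EVERY choice `y` of local equations of `Θ_{Ao}` at `η`;
* (Y) (PSI-NAT) `s27mc_nat` at `j = 1`: `b_L W = u · y W`, `u ∈ Wˣ`, `y W` a local equation at `η`.

* `s17bg_nat`    : (Y) on the stage;
* `s17bg_bpf_of` : `∃ T s, T.Nonempty ∧ (∀ D, s D ≠ 0) ∧ S17muBpf K b_L 2 s` (ALL `W ⊇ K`);
* `s17bg_bpf`    : the same for the constants `S27cstIsConst x G₀ O`, `Ao = G₀ − O`;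
* **`s17bg_pmk`** : `∃ T (Fam : T → L), Fam ≠ 0 ∧ S17pmkBpf K b_L 2 Fam` — the literal `hF`, `hF0`.
-/
import Fermat.Agent.S17.PlMCubeB
import Fermat.Agent.S17.BpfPool
import Fermat.Agent.S17.CoverTwo
import Fermat.Agent.S17.PlMK
import Fermat.Agent.S17.PlMTop

set_option autoImplicit false
set_option linter.unusedVariables false
set_option linter.unusedSectionVars false
set_option linter.style.haveILetI false
set_option linter.style.longLine false

noncomputable section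

namespace Fermat.Agent.S17

open AlgebraicCurve Module TensorProduct IntermediateField Fermat.Agent.S26 Fermat.Agent.S27

universe u v

section Stage

variable {K : Type u} {F : Type v} [Field K] [Field F] [Algebra K F] [IsAlgClosed K] [CharZero K]
  [IsCurveOver K F] [Algebra.EssFiniteType K F]
variable {x : F} (hx : Transcendental K x)
  [FiniteDimensional ↥(IntermediateField.adjoin K {x}) F]
  [Algebra.IsSeparable ↥(IntermediateField.adjoin K {x}) F]
  (G₀ : Divisor K F) (hG₀ : Divisor.degree G₀ = (genusFF K F : ℤ))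

/-- **(Y)**: the lifted local equation `b_L W` is, up to a unit of `W`, a local equation of
`Θ_{Ao}` at `η` along `W`. -/
theorem s17bg_nat (hg : 0 < genusFF K F) (Ao : Divisor K F)
    (hl : Module.finrank K ↥(riemannRochSpace (G₀ + Ao)) = genusFF K F)
    (q : ℤ → Fin (genusFF K F) → F →ₐ[K] s27mtL K F)
    (hq : S27pfFam (s27ftPkg hx G₀ hG₀) q) :
    S27ckNat K (s27pfPsi (s27ftPkg hx G₀ hG₀) (s27dcl_halg (x := x)) hq)
      (s27beta (g := genusFF K F) (G₀ + Ao)) (s27ftIdx hx Ao) (s27ftEta hx G₀ hG₀) 1 := by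
  have hpos : 0 < Module.finrank K ↥(riemannRochSpace (G₀ + Ao)) := by rw [hl]; exact hg
  haveI : Module.Finite K ↥(riemannRochSpace (G₀ + Ao)) := Module.finite_of_finrank_pos hpos
  let f₀ : Module.Basis (Fin (genusFF K F)) K ↥(riemannRochSpace (G₀ + Ao)) :=
    Module.finBasisOfFinrankEq K _ hl
  have hlat := s27flx_latEx K F hx (G₀ + Ao)
  have hβ : S27pnBeta (L := s27mtL K F)
      (s27pnTaut (K := K) (F := F) (g := genusFF K F) (L := s27mtL K F)) (G₀ + Ao)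
      (s27beta (g := genusFF K F) (G₀ + Ao)) := s27pn_beta_main s27betac_conj (G₀ + Ao) f₀ hlat
  have hIdx : ∀ k : ℤ, k ≠ 0 → ∀ W : ValuationSubring (s27mtL K F), S27IsKValU K W →
      ∀ y : s27mtL K F, S27ptIsIdx W (q k) (G₀ + Ao) y →
        s27ftIdx hx Ao W (k • s27ftEta hx G₀ hG₀) y :=
    fun k hk W hW y hy => s27ic_hIdx (FL := s27mtFL K F) (s27stg_hld K F (s27mtL K F))
      (s27stg_hgen K F (s27mtL K F)) hx G₀ hG₀ hq Ao k hk W hW y hy
  exact s27mc_nat (s27ftPkg hx G₀ hG₀) (s27dcl_halg (x := x)) hq (G₀ + Ao)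
    (s27beta (g := genusFF K F) (G₀ + Ao)) hβ (s27ftIdx hx Ao) (s27ftEta hx G₀ hG₀) hIdx 1
    one_ne_zero

/-- **PlM-BPF on the stage**: a finite family of `L`, base-point-free w.r.t. the lifted local
equations, at ALL valuation subrings `W ⊇ K` of `L`, `N = 2`. -/
theorem s17bg_bpf_of (hg : 0 < genusFF K F) (hG0 : 0 ≤ G₀) (Ao : Divisor K F)
    (hAo : riemannRochSpace Ao = ⊥) (hAod : Divisor.degree Ao = (genusFF K F : ℤ) - 1)
    (hl : Module.finrank K ↥(riemannRochSpace (G₀ + Ao)) = genusFF K F)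
    (O : Place K F)
    (q : ℤ → Fin (genusFF K F) → F →ₐ[K] s27mtL K F)
    (hq : S27pfFam (s27ftPkg hx G₀ hG₀) q) :
    ∃ (T : Finset (Divisor.degZero (K := K) (F := F))) (s : ↥T → s27mtL K F),
      T.Nonempty ∧ (∀ D, s D ≠ 0) ∧
      S17muBpf K (s17pmtB (L := s27mtL K F)
        (s27indB (s27pfPsi (s27ftPkg hx G₀ hG₀) (s27dcl_halg (x := x)) hq)
          (s27beta (g := genusFF K F) (G₀ + Ao)) 1)) 2 s := by
  classical
  have hnat := s17bg_nat hx G₀ hG₀ hg Ao hl q hq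
  obtain ⟨T, hT, hcov⟩ := s17cv2_pool x hx Ao hAod
  obtain ⟨s, hs0, hbpf⟩ := s17bpl_bpf (FL := s27mtFL K F) (s27stg_hld K F (s27mtL K F))
    (s27stg_hgen K F (s27mtL K F)) hx G₀ hG₀ hg hG0 Ao hAo hAod O T hT hcov
  have hex : ∀ W : ValuationSubring (s27mtL K F), ∃ y : s27mtL K F, S27IsKValU K W →
      (s27ftIdx hx Ao W (s27ftEta hx G₀ hG₀) y ∧
        s27cptEq W (s17pmtB (L := s27mtL K F)
          (s27indB (s27pfPsi (s27ftPkg hx G₀ hG₀) (s27dcl_halg (x := x)) hq)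
            (s27beta (g := genusFF K F) (G₀ + Ao)) 1) W) y) := by
    intro W
    by_cases hW : S27IsKValU K W
    · obtain ⟨y, hy, hyeq⟩ := hnat W hW
      refine ⟨y, fun _ => ⟨?_, hyeq⟩⟩
      rwa [one_smul] at hy
    · exact ⟨0, fun h => absurd h hW⟩
  choose y hy using hex
  have hY := hbpf y (fun W hW => (hy W hW).1)
  obtain ⟨D₀, hD₀, -⟩ := hcov 0
  refine ⟨T, s, ⟨D₀, hD₀⟩, hs0, ?_⟩
  intro W hW
  obtain ⟨hmem, D, hD⟩ := hY W hW
  obtain ⟨u, hu, hbu⟩ := (hy W hW).2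
  have hu2 : S27IsUnitIn W (u ^ 2) := by
    rw [pow_two]
    exact s17mu_unit_mul hu hu
  have key : ∀ D : ↥T, s D * s17pmtB (L := s27mtL K F)
      (s27indB (s27pfPsi (s27ftPkg hx G₀ hG₀) (s27dcl_halg (x := x)) hq)
        (s27beta (g := genusFF K F) (G₀ + Ao)) 1) W ^ 2 = u ^ 2 * (s D * y W ^ 2) := by
    intro D
    rw [hbu]
    ring
  refine ⟨fun D => ?_, D, ?_⟩
  · rw [key]
    exact W.mul_mem _ _ hu2.2.1 (hmem D)
  · rw [key]
    exact s17mu_unit_mul hu2 hD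

/-- the same for the constants of the stage: `Ao = G₀ − O`. -/
theorem s17bg_bpf (hg : 0 < genusFF K F) (O : Place K F) (hc : S27cstIsConst x G₀ O)
    (q : ℤ → Fin (genusFF K F) → F →ₐ[K] s27mtL K F)
    (hq : S27pfFam (s27ftPkg hx G₀ hG₀) q) :
    ∃ (T : Finset (Divisor.degZero (K := K) (F := F))) (s : ↥T → s27mtL K F),
      T.Nonempty ∧ (∀ D, s D ≠ 0) ∧
      S17muBpf K (s17pmtB (L := s27mtL K F)
        (s27indB (s27pfPsi (s27ftPkg hx G₀ hG₀) (s27dcl_halg (x := x)) hq)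
          (s27beta (g := genusFF K F) (G₀ + s27cstAo G₀ O)) 1)) 2 s :=
  s17bg_bpf_of hx G₀ hG₀ hg hc.nonneg (s27cstAo G₀ O) hc.bot hc.deg_Ao hc.l_A O q hq

/-- **PlM-BPF**: the literal inputs `hF`, `hF0` of PlM (`s17pmx_plM`, `s17pmf_plM`), `N₀ = 2`. -/
theorem s17bg_pmk (hg : 0 < genusFF K F) (O : Place K F) (hc : S27cstIsConst x G₀ O)
    (q : ℤ → Fin (genusFF K F) → F →ₐ[K] s27mtL K F)
    (hq : S27pfFam (s27ftPkg hx G₀ hG₀) q) :
    ∃ (T : Finset (Divisor.degZero (K := K) (F := F))) (Fam : ↥T → s27mtL K F),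
      Fam ≠ 0 ∧
      S17pmkBpf K (s17pmtB (L := s27mtL K F)
        (s27indB (s27pfPsi (s27ftPkg hx G₀ hG₀) (s27dcl_halg (x := x)) hq)
          (s27beta (g := genusFF K F) (G₀ + s27cstAo G₀ O)) 1)) 2 Fam := by
  obtain ⟨T, s, ⟨D₀, hD₀⟩, hs0, hbpf⟩ := s17bg_bpf hx G₀ hG₀ hg O hc q hq
  refine ⟨T, s, fun h => ?_, s17pmk_bpf_of hbpf⟩
  exact hs0 ⟨D₀, hD₀⟩ (congrFun h ⟨D₀, hD₀⟩)

end Stage

end Fermat.Agent.S17

end
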