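/-
S17 sprint, leaf **PlN N3b — CHOW-GOOD** (helper48): at a GOOD place the Chow block is visible.
On `S17/ChowHt.lean` (N3) and `S17/PlMGlue.lean` (`s17plmH`, helper58).

`s : ι → L` a tuple, `c` linear forms with `s17pvLin c s n = s17cvChow x n` (the Chow tuple of `x`
lies in the span of `s`; `Φ = 1`).  A place `P` is GOOD for `s` if the minimal coordinate `s α`
of `s` at `P` lies in `P.W` (e.g. if all `s i ∈ P.W`; e.g. if `s i · b^m ∈ P.W` for all `i` and
the local equation `b` is a unit of `P.W`).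

* `s17n3_chow_last`   : the last coordinate of the Chow tuple is `1`;
* `s17n3_vis_of_mem`  : GOOD ⇒ the Chow block is VISIBLE at the index `Fin.last g`;
* `s17n3_mem_of_unit` : `s α · b^m ∈ W`, `b` a unit of `W` ⇒ `s α ∈ W`;
* `s17n3_good`        : **hU, height part**: GOOD + `t` regular at the centres `Q i` of the points
                        `e i` ⇒ `habs (coeffs of s17chForm t (∑ i, single (Q i) 1))
                                   ≤ s17plmH habs s P + (log #ι + habs c)`.
-/
import Fermat.Agent.S17.ChowHt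
import Fermat.Agent.S17.PlMGlue

set_option autoImplicit false
set_option linter.unusedSectionVars false
set_option linter.unusedVariables false

noncomputable section

namespace Fermat.Agent.S17

open AlgebraicCurve Polynomial Fermat.Agent.S27

section Vis

variable {K L : Type*} [Field K] [Field L] [Algebra K L] {ι : Type*} [Fintype ι]

/-- the last coordinate of the Chow tuple is `1`. -/
theorem s17n3_chow_last {g : ℕ} (x : Fin g → L) : s17cvChow x (Fin.last g) = 1 := by
  unfold s17cvChow
  have hm : ((∏ i, (X - C (x i))) : L[X]).Monic :=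
    monic_prod_of_monic _ _ fun i _ => monic_X_sub_C (x i)
  have hd : ((∏ i, (X - C (x i))) : L[X]).natDegree = g := by
    rw [natDegree_prod_of_monic _ _ fun i _ => monic_X_sub_C (x i)]
    simp
  have := hm.coeff_natDegree
  rw [hd] at this
  exact this

/-- **GOOD ⇒ VISIBLE**: if the minimal coordinate of `s` lies in `W`, the Chow block is visible
at the index `Fin.last g`. -/
theorem s17n3_vis_of_mem (P : S17plPlace K L) (s : ι → L) (α : ι) (h : S17plIsMin P.W s α)
    {g : ℕ} (c : Fin (g + 1) → ι → K) (x : Fin g → L)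
    (hG : ∀ n, s17pvLin c s n = s17cvChow x n) (hα : s α ∈ P.W) :
    s17pvLinK c (s17plVal P s α h) (Fin.last g) ≠ 0 := by
  rw [s17pv_vis_iff P s α h c (Fin.last g)]
  have e1 : s17pvLin c s (Fin.last g) / s α = (s α)⁻¹ := by
    rw [hG, s17n3_chow_last, one_div]
  refine IsUnit.of_mul_eq_one (⟨s α, hα⟩ : ↥P.W) ?_
  apply Subtype.ext
  show s17pvLin c s (Fin.last g) / s α * s α = 1
  rw [e1, inv_mul_cancel₀ h.1]

/-- `s α · b ^ m ∈ W` and `b` a unit of `W` ⇒ `s α ∈ W`. -/
theorem s17n3_mem_of_unit (W : ValuationSubring L) {a b : L} (m : ℕ) (hab : a * b ^ m ∈ W)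
    (hb0 : b ≠ 0) (hbinv : b⁻¹ ∈ W) : a ∈ W := by
  have h1 : a = a * b ^ m * (b⁻¹) ^ m := by
    rw [mul_assoc, ← mul_pow, mul_inv_cancel₀ hb0, one_pow, mul_one]
  rw [h1]
  exact W.mul_mem _ _ hab (pow_mem hbinv m)

end Vis

section Height

variable {L : Type*} [Field L] [Algebra (AlgebraicClosure ℚ) L] {ι : Type*} [Fintype ι]
variable {F : Type*} [Field F] [Algebra (AlgebraicClosure ℚ) F]

theorem s17n3_hsc (c : AlgebraicClosure ℚ) (v : ι → AlgebraicClosure ℚ) (hc : c ≠ 0) :
    s17haAbsQ (fun i => c * v i) = s17haAbsQ v :=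
  s17haAbsQ_smul v hc

/-- **hU, height part**: at a GOOD place with `t` regular at the centres, the Chow form of the
centre divisor has absolute height `≤ H P + C`, `H = s17plmH s17haAbsQ s`. -/
theorem s17n3_good (P : S17plPlace (AlgebraicClosure ℚ) L) (s : ι → L) (α : ι)
    (h : S17plIsMin P.W s α) {g : ℕ} (c : Fin (g + 1) → ι → AlgebraicClosure ℚ)
    (e : Fin g → F →ₐ[AlgebraicClosure ℚ] L)
    (Q : Fin g → Place (AlgebraicClosure ℚ) F) (hQ : ∀ i, S27ptIsCentre P.W (e i) (Q i)) (t : F)
    (hG : ∀ n, s17pvLin c s n = s17cvChow (fun i => e i t) n) (hα : s α ∈ P.W)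
    (hreg : ∀ i, t ∈ (Q i).toValuationSubring) :
    s17haAbsQ (fun n : Fin (g + 1) =>
        (s17chForm t (∑ i, (Finsupp.single (Q i) (1 : ℤ) :
          Divisor (AlgebraicClosure ℚ) F))).coeff n)
      ≤ s17plmH s17haAbsQ s P
        + (Real.log (Nat.card ι)
            + s17haAbsQ (fun p : Fin (g + 1) × ι => c p.1 p.2)) := by
  rw [s17plmH_eq s17haAbsQ s17n3_hsc s P α h]
  exact s17n3_main P s α h c 1 one_ne_zero e Q hQ t (fun n => by rw [hG n, one_mul])
    (Fin.last g) (s17n3_vis_of_mem P s α h c _ hG hα) hreg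

end Height

end Fermat.Agent.S17
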