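/-
S17 sprint, leaf **H-CHOW** (helper99): the CHOW FORM of a divisor and its Galois equivariance.

Generic setting: `F / K` a function field in the prelude's language (`AlgebraicCurve.Place`),
`g : SemilinearAut K F` a semilinear automorphism.

* `S17chIsVal P t c`     : `t(P) = c`, i.e. `t − c` lies in the maximal ideal of the place `P`;
* `s17ch_isVal_unique`   : the value is unique;
* `s17ch_isVal_iff_ord_pos` : for `t ≠ c` this is `0 < P.ord (t − c)` (the form used in
                           `S17/NorthChow.lean`);
* `s17ch_isVal_smul`     : `t(P) = c ⇒ (g • t)(g • P) = (baseAut g) c`;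
* `s17chVal P t`         : THE value of `t` at `P` (junk `0` if `t` has no value at `P`);
* `s17chForm t D`        : the CHOW FORM `∏_P (X − t(P))^{(D P).toNat}` of the divisor `D`;
* `s17chForm_monic`, `s17chForm_natDegree`, `s17chForm_ne_zero`, `s17chForm_roots_iff`;
* `s17chForm_map`        : `(s17chForm t D).map (baseAut g) = s17chForm (g • t) (g • D)` if `t` has
                           a value at every place of the support of `D`;
* `s17ch_lifts_of_fixed` : a polynomial over `K` which is fixed coefficientwise by `Gal(K/k)`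
                           (`K / k` Galois, possibly infinite) has coefficients in `k`;
* `s17ch_rational`       : **RATIONALITY**: if a group of semilinear automorphisms inducing all of
                           `Gal(K/k)` on `K` fixes `t` and `D`, the Chow form of `D` lies in `k[X]`.
-/
import Mathlib
import Fermat.Prelude.Def_AlgebraicCurve_BaseChangeGalois
import Fermat.Agent.S24.PlaceBasic

set_option autoImplicit false
set_option linter.unusedSectionVars false

noncomputable section

namespace Fermat.Agent.S17

open AlgebraicCurve Polynomial Fermat.Agent.S24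
open scoped Pointwise

universe u v

variable {K : Type u} {F : Type v} [Field K] [Field F] [Algebra K F]

/-! ### values at a place -/

/-- `t(P) = c`: the function `t` is regular at the place `P` with value `c`. -/
def S17chIsVal (P : Place K F) (t : F) (c : K) : Prop :=
  t - algebraMap K F c ∈ P.toValuationSubring.nonunits

theorem s17ch_zero_mem_nonunits (B : ValuationSubring F) : (0 : F) ∈ B.nonunits := by
  rw [ValuationSubring.mem_nonunits_iff_exists_mem_maximalIdeal]
  exact ⟨zero_mem _, (IsLocalRing.maximalIdeal B).zero_mem⟩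

theorem s17ch_nonunits_sub {B : ValuationSubring F} {x y : F} (hx : x ∈ B.nonunits)
    (hy : y ∈ B.nonunits) : x - y ∈ B.nonunits := by
  rw [ValuationSubring.mem_nonunits_iff_exists_mem_maximalIdeal] at hx hy ⊢
  obtain ⟨hx1, hx2⟩ := hx
  obtain ⟨hy1, hy2⟩ := hy
  exact ⟨sub_mem hx1 hy1, (IsLocalRing.maximalIdeal B).sub_mem hx2 hy2⟩

/-- a constant lies in the maximal ideal of a place only if it is zero. -/
theorem s17ch_const_nonunit_iff (P : Place K F) (a : K) :
    algebraMap K F a ∈ P.toValuationSubring.nonunits ↔ a = 0 := by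
  constructor
  · intro h
    by_contra ha
    have hne : algebraMap K F a ≠ 0 := fun h0 => ha ((map_eq_zero _).mp h0)
    have h1 := (PlaceAux.ord_pos_iff_mem_nonunits P hne).mpr h
    rw [PlaceAux.ord_algebraMap] at h1
    exact lt_irrefl _ h1
  · rintro rfl
    rw [map_zero]
    exact s17ch_zero_mem_nonunits _

theorem s17ch_isVal_unique {P : Place K F} {t : F} {a b : K} (ha : S17chIsVal P t a)
    (hb : S17chIsVal P t b) : a = b := by
  have h := s17ch_nonunits_sub hb ha
  have h2 : t - algebraMap K F b - (t - algebraMap K F a) = algebraMap K F (a - b) := by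
    rw [map_sub]; ring
  rw [h2, s17ch_const_nonunit_iff] at h
  exact sub_eq_zero.mp h

theorem s17ch_isVal_iff_ord_pos (P : Place K F) {t : F} {c : K}
    (h : t - algebraMap K F c ≠ 0) :
    S17chIsVal P t c ↔ 0 < P.ord (t - algebraMap K F c) :=
  (PlaceAux.ord_pos_iff_mem_nonunits P h).symm

theorem s17ch_isVal_of_ord_pos (P : Place K F) {t : F} {c : K}
    (h : 0 < P.ord (t - algebraMap K F c)) : S17chIsVal P t c := by
  have hne : t - algebraMap K F c ≠ 0 := by
    intro h0
    rw [h0, Place.ord_zero] at h
    exact lt_irrefl _ h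
  exact (s17ch_isVal_iff_ord_pos P hne).mpr h

theorem s17ch_isVal_const (P : Place K F) (c : K) : S17chIsVal P (algebraMap K F c) c := by
  unfold S17chIsVal
  rw [sub_self]
  exact s17ch_zero_mem_nonunits _

/-- a function with a value at `P` is regular at `P`. -/
theorem s17ch_isVal_mem {P : Place K F} {t : F} {c : K} (h : S17chIsVal P t c) :
    t ∈ P.toValuationSubring := by
  have h1 : t - algebraMap K F c ∈ P.toValuationSubring := by
    unfold S17chIsVal at h
    rw [ValuationSubring.mem_nonunits_iff_exists_mem_maximalIdeal] at h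
    exact h.1
  have h2 := add_mem h1 (P.algebraMap_mem' c)
  simpa using h2

/-- a function regular at a place with residue field `K` has a value there. -/
theorem s17ch_exists_isVal (P : Place K F)
    (hres : Function.Surjective (algebraMap K P.ResidueField)) {t : F}
    (ht : t ∈ P.toValuationSubring) : ∃ c : K, S17chIsVal P t c := by
  obtain ⟨a, ha⟩ := hres (IsLocalRing.residue P.toValuationSubring ⟨t, ht⟩)
  refine ⟨a, ?_⟩
  unfold S17chIsVal
  rw [ValuationSubring.mem_nonunits_iff_exists_mem_maximalIdeal]
  refine ⟨sub_mem ht (P.algebraMap_mem' a), ?_⟩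
  rw [← IsLocalRing.residue_eq_zero_iff]
  have h1 : (⟨t - algebraMap K F a, sub_mem ht (P.algebraMap_mem' a)⟩ :
      P.toValuationSubring) = ⟨t, ht⟩ - algebraMap K P.toValuationSubring a := rfl
  rw [h1, map_sub, sub_eq_zero, ← ha]
  rfl

/-- **semilinear transport of values.** -/
theorem s17ch_isVal_smul (g : SemilinearAut K F) {P : Place K F} {t : F} {c : K}
    (h : S17chIsVal P t c) :
    S17chIsVal (g • P) (g • t) (SemilinearAut.baseAut g c) := by
  have h1 : g • t - algebraMap K F (SemilinearAut.baseAut g c) =
      g • (t - algebraMap K F c) := by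
    rw [smul_sub, SemilinearAut.smul_algebraMap]
  unfold S17chIsVal
  rw [h1]
  rcases eq_or_ne (t - algebraMap K F c) 0 with h0 | h0
  · rw [h0, smul_zero]
    exact s17ch_zero_mem_nonunits _
  · have hne : g • (t - algebraMap K F c) ≠ 0 := by
      intro hz
      apply h0
      have := congrArg (fun x => g⁻¹ • x) hz
      simpa using this
    rw [← PlaceAux.ord_pos_iff_mem_nonunits (g • P) hne, SemilinearAut.ord_smul]
    exact (PlaceAux.ord_pos_iff_mem_nonunits P h0).mpr h

open Classical in
/-- THE value of `t` at `P` (junk value `0` if `t` has no value at `P`). -/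
def s17chVal (P : Place K F) (t : F) : K :=
  if h : ∃ c : K, S17chIsVal P t c then h.choose else 0

theorem s17chVal_spec {P : Place K F} {t : F} (h : ∃ c : K, S17chIsVal P t c) :
    S17chIsVal P t (s17chVal P t) := by
  unfold s17chVal
  rw [dif_pos h]
  exact h.choose_spec

theorem s17chVal_eq {P : Place K F} {t : F} {c : K} (h : S17chIsVal P t c) :
    s17chVal P t = c :=
  s17ch_isVal_unique (s17chVal_spec ⟨c, h⟩) h

theorem s17chVal_const (P : Place K F) (c : K) : s17chVal P (algebraMap K F c) = c :=
  s17chVal_eq (s17ch_isVal_const P c)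

theorem s17chVal_smul (g : SemilinearAut K F) {P : Place K F} {t : F}
    (h : ∃ c : K, S17chIsVal P t c) :
    s17chVal (g • P) (g • t) = SemilinearAut.baseAut g (s17chVal P t) :=
  s17chVal_eq (s17ch_isVal_smul g (s17chVal_spec h))

/-! ### the Chow form -/

/-- the CHOW FORM `∏_P (X − t(P))^{(D P).toNat}` of a divisor `D` with respect to `t`. -/
def s17chForm (t : F) (D : Divisor K F) : K[X] :=
  ∏ P ∈ D.support, (X - C (s17chVal P t)) ^ (D P).toNat

theorem s17chForm_zero (t : F) : s17chForm t (0 : Divisor K F) = 1 := by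
  unfold s17chForm
  simp

theorem s17chForm_monic (t : F) (D : Divisor K F) : (s17chForm t D).Monic :=
  monic_prod_of_monic _ _ fun _ _ => (monic_X_sub_C _).pow _

theorem s17chForm_ne_zero (t : F) (D : Divisor K F) : s17chForm t D ≠ 0 :=
  (s17chForm_monic t D).ne_zero

theorem s17chForm_natDegree (t : F) (D : Divisor K F) :
    (s17chForm t D).natDegree = ∑ P ∈ D.support, (D P).toNat := by
  unfold s17chForm
  rw [natDegree_prod_of_monic _ _ fun _ _ => (monic_X_sub_C _).pow _]
  refine Finset.sum_congr rfl fun P _ => ?_
  rw [(monic_X_sub_C _).natDegree_pow, natDegree_X_sub_C, mul_one]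

/-- the roots of the Chow form are the values of `t` on the positive part of `D`. -/
theorem s17chForm_isRoot_iff (t : F) (D : Divisor K F) (c : K) :
    (s17chForm t D).IsRoot c ↔ ∃ P : Place K F, 0 < D P ∧ s17chVal P t = c := by
  unfold s17chForm
  rw [IsRoot.def, eval_prod, Finset.prod_eq_zero_iff]
  constructor
  · rintro ⟨P, -, hP⟩
    rw [eval_pow] at hP
    have hn : (D P).toNat ≠ 0 := by
      intro h0
      rw [h0, pow_zero] at hP
      exact one_ne_zero hP
    have h1 := pow_eq_zero_iff hn |>.mp hP
    rw [eval_sub, eval_X, eval_C, sub_eq_zero] at h1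
    refine ⟨P, ?_, h1.symm⟩
    by_contra hle
    exact hn (Int.toNat_eq_zero.mpr (not_lt.mp hle))
  · rintro ⟨P, hP, rfl⟩
    refine ⟨P, Finsupp.mem_support_iff.mpr (ne_of_gt hP), ?_⟩
    rw [eval_pow, eval_sub, eval_X, eval_C, sub_self]
    refine zero_pow ?_
    intro h0
    have := Int.toNat_eq_zero.mp h0
    omega

/-- **equivariance of the Chow form.** -/
theorem s17chForm_map (g : SemilinearAut K F) (t : F) (D : Divisor K F)
    (hreg : ∀ P : Place K F, D P ≠ 0 → ∃ c : K, S17chIsVal P t c) :
    (s17chForm t D).map ((SemilinearAut.baseAut g : K ≃+* K) : K →+* K) =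
      s17chForm (g • t) (g • D) := by
  classical
  have hinj : Function.Injective (fun P : Place K F => g • P) := MulAction.injective g
  have hsupp : (g • D).support = D.support.map ⟨fun P => g • P, hinj⟩ := by
    rw [SemilinearAut.divisor_smul_def, Finsupp.mapDomain_support_of_injective hinj,
      Finset.map_eq_image]
    rfl
  unfold s17chForm
  rw [hsupp, Finset.prod_map, Polynomial.map_prod]
  refine Finset.prod_congr rfl fun P hP => ?_
  have hP0 : D P ≠ 0 := Finsupp.mem_support_iff.mp hP
  show _ = (X - C (s17chVal (g • P) (g • t))) ^ ((g • D) (g • P)).toNat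
  rw [SemilinearAut.divisor_smul_apply_smul, s17chVal_smul g (hreg P hP0), Polynomial.map_pow,
    Polynomial.map_sub, map_X, map_C]
  rfl

/-! ### rationality -/

/-- a polynomial fixed coefficientwise by `Gal(K/k)` has coefficients in `k`. -/
theorem s17ch_lifts_of_fixed {k : Type*} [Field k] [Algebra k K] [IsGalois k K] (p : K[X])
    (hp : ∀ σ : K ≃ₐ[k] K, p.map ((σ : K ≃+* K) : K →+* K) = p) :
    ∃ q : k[X], q.map (algebraMap k K) = p := by
  rw [← mem_lifts, lifts_iff_coeff_lifts]
  intro n
  rw [InfiniteGalois.mem_range_algebraMap_iff_fixed]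
  intro σ
  have h := congrArg (fun r => r.coeff n) (hp σ)
  simp only [coeff_map] at h
  exact h

/-- **RATIONALITY of the Chow form**: `Γ` acts on `F` by semilinear automorphisms `ρ σ` inducing
`σ` on `K`; if `t` and `D` are fixed by every `ρ σ` and `t` has values on the support of `D`,
the Chow form of `D` has coefficients in `k`. -/
theorem s17ch_rational {k : Type*} [Field k] [Algebra k K] [IsGalois k K]
    (ρ : (K ≃ₐ[k] K) → SemilinearAut K F)
    (hρ : ∀ σ : K ≃ₐ[k] K, SemilinearAut.baseAut (ρ σ) = σ.toRingEquiv)
    (t : F) (ht : ∀ σ, ρ σ • t = t) (D : Divisor K F) (hD : ∀ σ, ρ σ • D = D)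
    (hreg : ∀ P : Place K F, D P ≠ 0 → ∃ c : K, S17chIsVal P t c) :
    ∃ q : k[X], q.map (algebraMap k K) = s17chForm t D ∧ q.Monic ∧
      q.natDegree = ∑ P ∈ D.support, (D P).toNat := by
  obtain ⟨q, hq⟩ := s17ch_lifts_of_fixed (k := k) (s17chForm t D) (fun σ => by
    have h := s17chForm_map (ρ σ) t D hreg
    rw [ht σ, hD σ, hρ σ] at h
    exact h)
  refine ⟨q, hq, ?_, ?_⟩
  · have h1 := s17chForm_monic t D
    rw [← hq] at h1
    exact (Polynomial.monic_map_iff (f := algebraMap k K)).mp h1
  · rw [← s17chForm_natDegree t D, ← hq, natDegree_map]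

end Fermat.Agent.S17

end
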