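/-
S17 sprint, leaf **PlN (4) — HT-ABS-LIN** (helper48): the ABSOLUTE logarithmic height under a
LINEAR MAP (on `S17/HtAbsQb.lean`, helper37).

* `s17hl_abs_linear A x`  : `s17haAbs (fun j => ∑ i, A (j, i) * x i)
                               ≤ log #ι + s17haAbs A + s17haAbs x`
                            for tuples of algebraic numbers (`Ω` algebraic over `ℚ`): Mathlib's
                            `logHeight_linearMap_apply_le` over the number field `ℚ(x, A)` and
                            `totalWeight = [E : ℚ]`;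
* `s17hl_absQ_linear`     : the same on `ℚ̄ = AlgebraicClosure ℚ` (`s17haAbsQ`);
* `s17hl_absQ_lin c v`    : in the curried shape of `S17/ProjVal.lean`
                            (`s17pvLinK c v = fun j => ∑ i, c j i * v i`): a VISIBLE BLOCK of a
                            place-value has absolute height `≤ habs [s]_P + C(c)`;
* `s17hl_absQ_proj`       : the height of a sub-tuple `x ∘ e` is `≤` the height of `x` (`x ∘ e ≠ 0`
                            is NOT needed: junk value `0`).
-/
import Fermat.Agent.S17.HtAbsQb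
import Mathlib.NumberTheory.Height.MvPolynomial

set_option autoImplicit false
set_option linter.unusedSectionVars false
set_option linter.style.haveILetI false

noncomputable section

namespace Fermat.Agent.S17

open NumberField Height IntermediateField

section num

variable {E : Type*} [Field E] [NumberField E] {ι κ : Type*} [Fintype ι] [Finite κ]

theorem s17hl_real_aux {a b c n d : ℝ} (hd : 0 < d) (h : a ≤ d * n + b + c) :
    a / d ≤ n + b / d + c / d := by
  rw [div_le_iff₀ hd]
  have : (n + b / d + c / d) * d = d * n + b + c := by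
    field_simp
  rw [this]
  exact h

/-- the normalised height over a number field under a linear map. -/
theorem s17hl_N_linear (B : κ × ι → E) (y : ι → E) :
    s17haN E (fun j => ∑ i, B (j, i) * y i)
      ≤ Real.log (Nat.card ι) + s17haN E B + s17haN E y := by
  rw [s17haN_def, s17haN_def, s17haN_def]
  have h := logHeight_linearMap_apply_le B y
  rw [totalWeight_eq_finrank] at h
  have hpos : (0 : ℝ) < (Module.finrank ℚ E : ℝ) := by
    exact_mod_cast Module.finrank_pos
  exact s17hl_real_aux hpos h

/-- the normalised height of a sub-tuple. -/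
theorem s17hl_N_proj {ι' : Type*} [Finite ι'] (e : ι' → ι) (y : ι → E) :
    s17haN E (y ∘ e) ≤ s17haN E y := by
  rw [s17haN_def, s17haN_def]
  have hpos : (0 : ℝ) < (Module.finrank ℚ E : ℝ) := by
    exact_mod_cast Module.finrank_pos
  exact div_le_div_of_nonneg_right (logHeight_comp_le _ _) hpos.le

end num

section abs

variable {Ω : Type*} [Field Ω] [Algebra ℚ Ω] [Algebra.IsAlgebraic ℚ Ω]
variable {ι κ : Type*} [Fintype ι] [Finite κ]

/-- **the absolute height under a linear map.** -/
theorem s17hl_abs_linear (A : κ × ι → Ω) (x : ι → Ω) :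
    s17haAbs (fun j => ∑ i, A (j, i) * x i)
      ≤ Real.log (Nat.card ι) + s17haAbs A + s17haAbs x := by
  -- the number field of all the coordinates
  haveI := s17ha_fld_numberField (Sum.elim x A)
  have hx : s17haAbs x = s17haN (s17haFld (Sum.elim x A))
      (fun i => (⟨x i, s17ha_mem_fld (Sum.elim x A) (Sum.inl i)⟩ : s17haFld (Sum.elim x A))) :=
    s17ha_abs_eq _ (algebraMap (s17haFld (Sum.elim x A)) Ω) _ x (fun i => rfl)
  have hA : s17haAbs A = s17haN (s17haFld (Sum.elim x A))
      (fun p => (⟨A p, s17ha_mem_fld (Sum.elim x A) (Sum.inr p)⟩ : s17haFld (Sum.elim x A))) :=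
    s17ha_abs_eq _ (algebraMap (s17haFld (Sum.elim x A)) Ω) _ A (fun p => rfl)
  have hAx : s17haAbs (fun j => ∑ i, A (j, i) * x i) = s17haN (s17haFld (Sum.elim x A))
      (fun j => ∑ i,
        (⟨A (j, i), s17ha_mem_fld (Sum.elim x A) (Sum.inr (j, i))⟩ : s17haFld (Sum.elim x A))
          * ⟨x i, s17ha_mem_fld (Sum.elim x A) (Sum.inl i)⟩) :=
    s17ha_abs_eq _ (algebraMap (s17haFld (Sum.elim x A)) Ω) _ _ (fun j => by
      rw [map_sum]
      refine Finset.sum_congr rfl fun i _ => ?_
      rw [map_mul]
      rfl)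
  rw [hx, hA, hAx]
  exact s17hl_N_linear
    (fun p : κ × ι =>
      (⟨A p, s17ha_mem_fld (Sum.elim x A) (Sum.inr p)⟩ : s17haFld (Sum.elim x A)))
    (fun i => (⟨x i, s17ha_mem_fld (Sum.elim x A) (Sum.inl i)⟩ : s17haFld (Sum.elim x A)))

/-- the height of a sub-tuple (coordinate projection) is at most the height of the tuple. -/
theorem s17hl_abs_proj {ι' : Type*} [Finite ι'] (e : ι' → ι) (x : ι → Ω) :
    s17haAbs (x ∘ e) ≤ s17haAbs x := by
  haveI := s17ha_fld_numberField x
  have hx : s17haAbs x = s17haN (s17haFld x) (s17haTup x) :=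
    s17ha_abs_eq _ (algebraMap (s17haFld x) Ω) _ _ (fun i => rfl)
  have hxe : s17haAbs (x ∘ e) = s17haN (s17haFld x) (s17haTup x ∘ e) :=
    s17ha_abs_eq _ (algebraMap (s17haFld x) Ω) _ _ (fun i => rfl)
  rw [hx, hxe]
  exact s17hl_N_proj e (s17haTup x)

end abs

section Qb

variable {ι κ : Type*} [Fintype ι] [Finite κ]

/-- the absolute height on `ℚ̄` under a linear map. -/
theorem s17hl_absQ_linear (A : κ × ι → AlgebraicClosure ℚ) (x : ι → AlgebraicClosure ℚ) :
    s17haAbsQ (fun j => ∑ i, A (j, i) * x i)
      ≤ Real.log (Nat.card ι) + s17haAbsQ A + s17haAbsQ x := by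
  haveI := s17ha_Qb_isAlgebraic
  exact s17hl_abs_linear A x

/-- **a visible block**: in the curried shape of `S17/ProjVal.lean`. -/
theorem s17hl_absQ_lin (c : κ → ι → AlgebraicClosure ℚ) (v : ι → AlgebraicClosure ℚ) :
    s17haAbsQ (fun j => ∑ i, c j i * v i)
      ≤ (Real.log (Nat.card ι) + s17haAbsQ (fun p : κ × ι => c p.1 p.2)) + s17haAbsQ v :=
  s17hl_absQ_linear (fun p : κ × ι => c p.1 p.2) v

/-- coordinate projections do not increase the absolute height (`ℚ̄`). -/
theorem s17hl_absQ_proj {ι' : Type*} [Finite ι'] (e : ι' → ι) (x : ι → AlgebraicClosure ℚ) :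
    s17haAbsQ (x ∘ e) ≤ s17haAbsQ x := by
  haveI := s17ha_Qb_isAlgebraic
  exact s17hl_abs_proj e x

end Qb

end Fermat.Agent.S17
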