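/-
S17 sprint, leaf **H3a — CHOW-RES** (helper48), Mathlib only.

`W` a valuation subring of a field `𝔏`, `ρ : W →+* K` a ring hom into a field that kills the
non-units of `W` (a PLACE of `𝔏` with values in `K`), `x : Fin g → 𝔏` a tuple, `I = {i | x i ∉ W}`
its POLE SET at `W`, `c = ∏_{i ∈ I} x i` the NORMALISER (`s17crNorm`).  Then the Chow polynomial
`∏_i (X − x i)` of the tuple, divided by `c`, has coefficients in `W` (`s17crPoly`), and its
reduction along `ρ` is the Chow polynomial of the CENTRE, up to the sign `(−1)^#I`: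

* `s17cr_map_algebraMap` : `(s17crPoly W x).map (algebraMap W 𝔏) = C c⁻¹ * ∏ i, (X − C (x i))`;
* `s17cr_map_res`        : `(s17crPoly W x).map ρ = C ((−1)^#I) * ∏_{i ∉ I} (X − C (xb i))`
                           (`xb i = ρ (x i)` for `x i ∈ W`);
* `s17cr_norm_ne_zero`   : `c ≠ 0`;
* `s17cr_coeff_mem`, `s17cr_coeff_res` : the same coefficient by coefficient: the tuple
                           `F n = (∏ i, (X − C (x i))).coeff n` has `F n / c ∈ W` with `ρ`-value the
                           `n`-th coefficient of `(−1)^#I ∏_{i ∉ I} (X − C (xb i))`;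
* `s17cr_res_coeff_top`  : the coefficient of degree `g − #I` of the reduction is `(−1)^#I ≠ 0`:
                           the PLACE-VALUE of the Chow tuple at `W` is the point
                           `[coefficients of ∏_{i ∉ I} (X − xb i)]` of the projective space;
* `s17cr_place`          : the summary in the shape `∃ c ≠ 0, (∀ n, F n / c ∈ W) ∧ values ∧ value ≠ 0`.
-/
import Mathlib

set_option autoImplicit false
set_option linter.unusedSectionVars false
set_option linter.unusedVariables false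

noncomputable section

namespace Fermat.Agent.S17

open Polynomial

universe u v

variable {𝔏 : Type u} [Field 𝔏] {K : Type v} [Field K]

/-- the inverse of a non-member of a valuation subring is a member. -/
theorem s17cr_inv_mem (W : ValuationSubring 𝔏) {y : 𝔏} (h : y ∉ W) : y⁻¹ ∈ W :=
  (W.mem_or_inv_mem y).resolve_left h

/-- a non-member of a valuation subring is not `0`. -/
theorem s17cr_ne_zero (W : ValuationSubring 𝔏) {y : 𝔏} (h : y ∉ W) : y ≠ 0 := by
  rintro rfl
  exact h W.zero_mem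

/-- the inverse of a non-member is a NON-UNIT of the valuation subring. -/
theorem s17cr_inv_not_isUnit (W : ValuationSubring 𝔏) {y : 𝔏} (h : y ∉ W) :
    ¬ IsUnit (⟨y⁻¹, s17cr_inv_mem W h⟩ : W) := by
  intro hu
  obtain ⟨v, hv⟩ := hu.exists_right_inv
  have h1 : y⁻¹ * (v : 𝔏) = 1 := by
    have := congrArg (fun w : W => (w : 𝔏)) hv
    simpa using this
  have h2 : (v : 𝔏) = y := by
    have hy := s17cr_ne_zero W h
    field_simp at h1
    exact h1
  exact h (h2 ▸ v.2)

open Classical in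
/-- the factor of the normalised Chow polynomial: `X − y` if `y ∈ W`, `y⁻¹ X − 1` if not. -/
def s17crFac (W : ValuationSubring 𝔏) (y : 𝔏) : W[X] :=
  if h : y ∈ W then X - C ⟨y, h⟩ else C ⟨y⁻¹, s17cr_inv_mem W h⟩ * X - 1

open Classical in
/-- the normalising factor of one entry: `1` if `y ∈ W`, `y` if not. -/
def s17crNorm1 (W : ValuationSubring 𝔏) (y : 𝔏) : 𝔏 := if y ∈ W then 1 else y

theorem s17crNorm1_ne_zero (W : ValuationSubring 𝔏) (y : 𝔏) : s17crNorm1 W y ≠ 0 := by
  unfold s17crNorm1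
  split_ifs with h
  · exact one_ne_zero
  · exact s17cr_ne_zero W h

/-- the NORMALISER `c = ∏_{i, x i ∉ W} x i`. -/
def s17crNorm (W : ValuationSubring 𝔏) {g : ℕ} (x : Fin g → 𝔏) : 𝔏 := ∏ i, s17crNorm1 W (x i)

theorem s17cr_norm_ne_zero (W : ValuationSubring 𝔏) {g : ℕ} (x : Fin g → 𝔏) :
    s17crNorm W x ≠ 0 :=
  Finset.prod_ne_zero_iff.2 fun i _ => s17crNorm1_ne_zero W (x i)

/-- the NORMALISED Chow polynomial over `W`. -/
def s17crPoly (W : ValuationSubring 𝔏) {g : ℕ} (x : Fin g → 𝔏) : W[X] := ∏ i, s17crFac W (x i)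

theorem s17crFac_map_algebraMap (W : ValuationSubring 𝔏) (y : 𝔏) :
    (s17crFac W y).map (algebraMap W 𝔏) = C (s17crNorm1 W y)⁻¹ * (X - C y) := by
  unfold s17crFac s17crNorm1
  split_ifs with h
  · simp
  · have hy := s17cr_ne_zero W h
    simp only [Polynomial.map_sub, Polynomial.map_mul, Polynomial.map_C, Polynomial.map_X,
      Polynomial.map_one]
    have : (algebraMap W 𝔏) ⟨y⁻¹, s17cr_inv_mem W h⟩ = y⁻¹ := rfl
    rw [this, mul_sub, ← C_mul, inv_mul_cancel₀ hy, C_1]

/-- **the normalised Chow polynomial, over `𝔏`**: `c⁻¹ ∏ (X − x i)`. -/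
theorem s17cr_map_algebraMap (W : ValuationSubring 𝔏) {g : ℕ} (x : Fin g → 𝔏) :
    (s17crPoly W x).map (algebraMap W 𝔏) = C (s17crNorm W x)⁻¹ * ∏ i, (X - C (x i)) := by
  unfold s17crPoly s17crNorm
  rw [Polynomial.map_prod]
  simp only [s17crFac_map_algebraMap]
  rw [Finset.prod_mul_distrib, ← map_prod, Finset.prod_inv_distrib]

open Classical in
/-- the POLE SET of the tuple at `W`. -/
def s17crPole (W : ValuationSubring 𝔏) {g : ℕ} (x : Fin g → 𝔏) : Finset (Fin g) :=
  Finset.univ.filter fun i => x i ∉ W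

open Classical in
/-- the set of REGULAR indices of the tuple at `W`. -/
def s17crReg (W : ValuationSubring 𝔏) {g : ℕ} (x : Fin g → 𝔏) : Finset (Fin g) :=
  Finset.univ.filter fun i => x i ∈ W

theorem s17crFac_map_res (W : ValuationSubring 𝔏) (ρ : W →+* K)
    (hρ : ∀ w : W, ¬ IsUnit w → ρ w = 0) (y : 𝔏) (yb : K)
    (hyb : ∀ h : y ∈ W, ρ ⟨y, h⟩ = yb) :
    (s17crFac W y).map ρ = (open Classical in if y ∈ W then X - C yb else -1) := by
  unfold s17crFac
  split_ifs with h
  · simp [hyb h]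
  · simp [hρ _ (s17cr_inv_not_isUnit W h)]

/-- **the reduction of the normalised Chow polynomial** is the Chow polynomial of the centre,
up to the sign `(−1)^#I`. -/
theorem s17cr_map_res (W : ValuationSubring 𝔏) (ρ : W →+* K)
    (hρ : ∀ w : W, ¬ IsUnit w → ρ w = 0) {g : ℕ} (x : Fin g → 𝔏) (xb : Fin g → K)
    (hxb : ∀ i, ∀ h : x i ∈ W, ρ ⟨x i, h⟩ = xb i) :
    (s17crPoly W x).map ρ
      = C ((-1 : K) ^ (s17crPole W x).card) * ∏ i ∈ s17crReg W x, (X - C (xb i)) := by
  classical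
  unfold s17crPoly
  rw [Polynomial.map_prod]
  simp only [fun i => s17crFac_map_res W ρ hρ (x i) (xb i) (hxb i)]
  rw [Finset.prod_ite, mul_comm]
  congr 1
  · unfold s17crPole
    rw [Finset.prod_const, map_pow, map_neg, map_one]

/-! ### coefficient form: the place-value of the Chow tuple -/

/-- the `n`-th coefficient of the Chow polynomial, divided by the normaliser, lies in `W`:
it IS the `n`-th coefficient of the normalised Chow polynomial. -/
theorem s17cr_coeff_eq (W : ValuationSubring 𝔏) {g : ℕ} (x : Fin g → 𝔏) (n : ℕ) :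
    (((s17crPoly W x).coeff n : W) : 𝔏)
      = (s17crNorm W x)⁻¹ * ((∏ i, (X - C (x i))) : 𝔏[X]).coeff n := by
  have h := congrArg (fun P : 𝔏[X] => P.coeff n) (s17cr_map_algebraMap W x)
  simp only [Polynomial.coeff_map, Polynomial.coeff_C_mul] at h
  exact h

theorem s17cr_coeff_mem (W : ValuationSubring 𝔏) {g : ℕ} (x : Fin g → 𝔏) (n : ℕ) :
    (s17crNorm W x)⁻¹ * ((∏ i, (X - C (x i))) : 𝔏[X]).coeff n ∈ W := by
  rw [← s17cr_coeff_eq]
  exact ((s17crPoly W x).coeff n).2

/-- the `ρ`-value of the `n`-th normalised coefficient is the `n`-th coefficient of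
`(−1)^#I ∏_{i ∉ I} (X − xb i)`. -/
theorem s17cr_coeff_res (W : ValuationSubring 𝔏) (ρ : W →+* K)
    (hρ : ∀ w : W, ¬ IsUnit w → ρ w = 0) {g : ℕ} (x : Fin g → 𝔏) (xb : Fin g → K)
    (hxb : ∀ i, ∀ h : x i ∈ W, ρ ⟨x i, h⟩ = xb i) (n : ℕ) :
    ρ ((s17crPoly W x).coeff n)
      = (-1 : K) ^ (s17crPole W x).card
          * ((∏ i ∈ s17crReg W x, (X - C (xb i))) : K[X]).coeff n := by
  have h := congrArg (fun P : K[X] => P.coeff n) (s17cr_map_res W ρ hρ x xb hxb)
  simp only [Polynomial.coeff_map, Polynomial.coeff_C_mul] at h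
  exact h

theorem s17cr_card_add (W : ValuationSubring 𝔏) {g : ℕ} (x : Fin g → 𝔏) :
    (s17crReg W x).card + (s17crPole W x).card = g := by
  classical
  unfold s17crReg s17crPole
  rw [Finset.card_filter_add_card_filter_not]
  simp

/-- the Chow polynomial of the centre is monic of degree `#(regular indices)`. -/
theorem s17cr_centre_monic (W : ValuationSubring 𝔏) {g : ℕ} (x : Fin g → 𝔏) (xb : Fin g → K) :
    ((∏ i ∈ s17crReg W x, (X - C (xb i))) : K[X]).Monic :=
  Polynomial.monic_prod_of_monic _ _ fun i _ => Polynomial.monic_X_sub_C (xb i)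

theorem s17cr_centre_natDegree (W : ValuationSubring 𝔏) {g : ℕ} (x : Fin g → 𝔏)
    (xb : Fin g → K) :
    ((∏ i ∈ s17crReg W x, (X - C (xb i))) : K[X]).natDegree = (s17crReg W x).card := by
  rw [Polynomial.natDegree_prod_of_monic _ _ fun i _ => Polynomial.monic_X_sub_C (xb i)]
  simp

/-- **the place-value is a POINT**: the coefficient of degree `#(regular indices)` of the
reduction is `(−1)^#I ≠ 0`. -/
theorem s17cr_res_coeff_top (W : ValuationSubring 𝔏) (ρ : W →+* K)
    (hρ : ∀ w : W, ¬ IsUnit w → ρ w = 0) {g : ℕ} (x : Fin g → 𝔏) (xb : Fin g → K)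
    (hxb : ∀ i, ∀ h : x i ∈ W, ρ ⟨x i, h⟩ = xb i) :
    ρ ((s17crPoly W x).coeff (s17crReg W x).card) = (-1 : K) ^ (s17crPole W x).card := by
  rw [s17cr_coeff_res W ρ hρ x xb hxb]
  have h1 := (s17cr_centre_monic W x xb).coeff_natDegree
  rw [s17cr_centre_natDegree] at h1
  rw [h1, mul_one]

theorem s17cr_res_coeff_top_ne_zero (W : ValuationSubring 𝔏) (ρ : W →+* K)
    (hρ : ∀ w : W, ¬ IsUnit w → ρ w = 0) {g : ℕ} (x : Fin g → 𝔏) (xb : Fin g → K)
    (hxb : ∀ i, ∀ h : x i ∈ W, ρ ⟨x i, h⟩ = xb i) :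
    ρ ((s17crPoly W x).coeff (s17crReg W x).card) ≠ 0 := by
  rw [s17cr_res_coeff_top W ρ hρ x xb hxb]
  exact pow_ne_zero _ (neg_ne_zero.2 one_ne_zero)

/-- **CHOW-RES, summary**: the Chow tuple `F n = coeff_n ∏ (X − x i)`, `n ≤ g`, of a tuple `x`
has, at every place `(W, ρ)`, a normaliser `c ≠ 0` with `c⁻¹ F n ∈ W` for all `n`, `ρ`-values the
coefficients of `(−1)^#I ∏_{i ∉ I} (X − xb i)` (the Chow form of the centre), not all `0`. -/
theorem s17cr_place (W : ValuationSubring 𝔏) (ρ : W →+* K)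
    (hρ : ∀ w : W, ¬ IsUnit w → ρ w = 0) {g : ℕ} (x : Fin g → 𝔏) (xb : Fin g → K)
    (hxb : ∀ i, ∀ h : x i ∈ W, ρ ⟨x i, h⟩ = xb i) :
    ∃ c : 𝔏, c ≠ 0 ∧ ∃ hmem : ∀ n : ℕ, c⁻¹ * ((∏ i, (X - C (x i))) : 𝔏[X]).coeff n ∈ W,
      (∀ n : ℕ, ρ ⟨_, hmem n⟩ = (-1 : K) ^ (s17crPole W x).card
          * ((∏ i ∈ s17crReg W x, (X - C (xb i))) : K[X]).coeff n) ∧
      ρ ⟨_, hmem (s17crReg W x).card⟩ ≠ 0 ∧ (s17crReg W x).card ≤ g := by
  refine ⟨s17crNorm W x, s17cr_norm_ne_zero W x, s17cr_coeff_mem W x, fun n => ?_, ?_, ?_⟩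
  · have h := s17cr_coeff_res W ρ hρ x xb hxb n
    have e : (⟨_, s17cr_coeff_mem W x n⟩ : W) = (s17crPoly W x).coeff n :=
      Subtype.ext (s17cr_coeff_eq W x n).symm
    rw [e]
    exact h
  · have e : (⟨_, s17cr_coeff_mem W x (s17crReg W x).card⟩ : W)
        = (s17crPoly W x).coeff (s17crReg W x).card :=
      Subtype.ext (s17cr_coeff_eq W x _).symm
    rw [e]
    exact s17cr_res_coeff_top_ne_zero W ρ hρ x xb hxb
  · have := s17cr_card_add W x
    omega

end Fermat.Agent.S17
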