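/-
S17 sprint, leaf **H3b — CHOW-VAL** (helper48): CHOW-RES (`S17/ChowRes.lean`) in the frame of the
place-values of H2 (`S17/Place.lean`, helper21).

`P : S17plPlace K L` a `K`-rational place of `L`, `x : Fin g → L` a tuple,
`F = s17cvChow x : Fin (g+1) → L`, `F n = coeff_n ∏ (X − x i)`, the CHOW TUPLE of `x`
(`F g = 1`, `F (g − j) = (−1)^j e_j(x)`).  Let `r = #{i | x i ∈ P.W}`.

* `s17cv_res_eq_zero` : the residue map of a `K`-rational place kills the non-units of `P.W`;
* `s17cv_isMin`       : the coordinate `r` of `F` is of minimal valuation (`S17plIsMin`);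
* `s17cv_val`         : the PLACE-VALUE of the Chow tuple in the chart `r` is the CHOW FORM OF THE
                        CENTRE: `s17plVal P F r h n = coeff_n ∏_{i, x i ∈ W} (X − C (xb i))`,
                        `xb i = P.res (x i)`;
* `s17cv_val_any`     : in ANY chart `α` the place-value is a nonzero multiple of that tuple;
* `s17cv_val_eq_chow` : if all `x i ∈ W` (no pole): the place-value is the Chow tuple of `xb`.
-/
import Fermat.Agent.S17.Place
import Fermat.Agent.S17.ChowRes

set_option autoImplicit false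
set_option linter.unusedSectionVars false
set_option linter.unusedVariables false

noncomputable section

namespace Fermat.Agent.S17

open Polynomial

variable {K L : Type*} [Field K] [Field L] [Algebra K L]

/-- the residue map of a `K`-rational place kills the non-units. -/
theorem s17cv_res_eq_zero (P : S17plPlace K L) (w : ↥P.W) (hw : ¬ IsUnit w) : P.res w = 0 := by
  by_contra hr
  -- `w − const (res w)` has residue `0`, so it is a non-unit; then `const (res w)` is a non-unit
  set r : K := P.res w with hrdef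
  have h1 : P.res (w - s17plConst P r) = 0 := by
    rw [map_sub, s17pl_res_const, sub_self]
  have h2 : ¬ IsUnit (w - s17plConst P r) := by
    intro hu
    have := hu.map P.res
    rw [h1] at this
    exact not_isUnit_zero this
  have h3 : ¬ IsUnit (s17plConst P r) := by
    intro hu
    have hmem : w ∈ IsLocalRing.maximalIdeal ↥P.W := (IsLocalRing.mem_maximalIdeal _).2 hw
    have hmem2 : w - s17plConst P r ∈ IsLocalRing.maximalIdeal ↥P.W :=
      (IsLocalRing.mem_maximalIdeal _).2 h2
    have hmem3 : s17plConst P r ∈ IsLocalRing.maximalIdeal ↥P.W := by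
      have := (IsLocalRing.maximalIdeal ↥P.W).sub_mem hmem hmem2
      simpa using this
    exact (IsLocalRing.mem_maximalIdeal _).1 hmem3 hu
  exact h3 ((isUnit_iff_ne_zero.2 hr).map (s17plConst P))

/-- the CHOW TUPLE of a tuple: the coefficients of `∏ (X − x i)`. -/
def s17cvChow {g : ℕ} (x : Fin g → L) : Fin (g + 1) → L :=
  fun n => (∏ i, (X - C (x i)) : L[X]).coeff n

/-- the chart of the Chow tuple at `W`: the number of regular entries. -/
def s17cvIdx (W : ValuationSubring L) {g : ℕ} (x : Fin g → L) : Fin (g + 1) :=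
  ⟨(s17crReg W x).card, by have := s17cr_card_add W x; omega⟩

theorem s17cv_norm_coeff_isUnit (P : S17plPlace K L) {g : ℕ} (x : Fin g → L) :
    IsUnit ((s17crPoly P.W x).coeff (s17crReg P.W x).card) := by
  classical
  by_contra hu
  have h0 := s17cv_res_eq_zero P _ hu
  exact s17cr_res_coeff_top_ne_zero P.W P.res (s17cv_res_eq_zero P) x
    (fun i => if h : x i ∈ P.W then P.res ⟨x i, h⟩ else 0)
    (fun i h => by simp [h]) h0

theorem s17cv_chow_eq (W : ValuationSubring L) {g : ℕ} (x : Fin g → L) (n : Fin (g + 1)) :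
    s17cvChow x n = s17crNorm W x * (((s17crPoly W x).coeff n : ↥W) : L) := by
  rw [s17cr_coeff_eq, ← mul_assoc, mul_inv_cancel₀ (s17cr_norm_ne_zero W x), one_mul]
  rfl

theorem s17cv_div_eq (P : S17plPlace K L) {g : ℕ} (x : Fin g → L) (n : Fin (g + 1)) :
    s17cvChow x n / s17cvChow x (s17cvIdx P.W x)
      = (((s17crPoly P.W x).coeff n
          * ((s17cv_norm_coeff_isUnit P x).unit⁻¹ : (↥P.W)ˣ) : ↥P.W) : L) := by
  have hu := s17cv_norm_coeff_isUnit P x
  have hc := s17cr_norm_ne_zero P.W x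
  rw [s17cv_chow_eq P.W x n, s17cv_chow_eq P.W x (s17cvIdx P.W x)]
  have hval : ((s17cvIdx P.W x : Fin (g + 1)) : ℕ) = (s17crReg P.W x).card := rfl
  rw [hval]
  have hmul : (((s17crPoly P.W x).coeff (s17crReg P.W x).card : ↥P.W) : L)
      * (((hu.unit⁻¹ : (↥P.W)ˣ) : ↥P.W) : L) = 1 := by
    calc (((s17crPoly P.W x).coeff (s17crReg P.W x).card : ↥P.W) : L)
          * (((hu.unit⁻¹ : (↥P.W)ˣ) : ↥P.W) : L)
        = (((s17crPoly P.W x).coeff (s17crReg P.W x).card
            * ((hu.unit⁻¹ : (↥P.W)ˣ) : ↥P.W) : ↥P.W) : L) := rfl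
      _ = ((1 : ↥P.W) : L) := by rw [hu.mul_val_inv]
      _ = 1 := rfl
  have hne : (((s17crPoly P.W x).coeff (s17crReg P.W x).card : ↥P.W) : L) ≠ 0 :=
    left_ne_zero_of_mul_eq_one hmul
  rw [mul_div_mul_left _ _ hc, div_eq_iff hne]
  push_cast
  rw [mul_assoc, mul_comm ((((hu.unit⁻¹ : (↥P.W)ˣ) : ↥P.W) : L)), hmul, mul_one]

/-- **the chart**: the coordinate `#regular` of the Chow tuple is of minimal valuation. -/
theorem s17cv_isMin (P : S17plPlace K L) {g : ℕ} (x : Fin g → L) :
    S17plIsMin P.W (s17cvChow x) (s17cvIdx P.W x) := by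
  have hu := s17cv_norm_coeff_isUnit P x
  refine ⟨?_, fun n => ?_⟩
  · rw [s17cv_chow_eq P.W x]
    refine mul_ne_zero (s17cr_norm_ne_zero P.W x) ?_
    intro h0
    have : (s17crPoly P.W x).coeff (s17crReg P.W x).card = 0 := Subtype.ext h0
    rw [this] at hu
    exact not_isUnit_zero hu
  · rw [s17cv_div_eq P x n]
    exact Subtype.mem _

/-- **CHOW-VAL**: the place-value of the Chow tuple, in the chart `#regular`, is the Chow form
of the centre. -/
theorem s17cv_val (P : S17plPlace K L) {g : ℕ} (x : Fin g → L) (xb : Fin g → K)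
    (hxb : ∀ i, ∀ h : x i ∈ P.W, P.res ⟨x i, h⟩ = xb i)
    (h : S17plIsMin P.W (s17cvChow x) (s17cvIdx P.W x)) (n : Fin (g + 1)) :
    s17plVal P (s17cvChow x) (s17cvIdx P.W x) h n
      = ((∏ i ∈ s17crReg P.W x, (X - C (xb i))) : K[X]).coeff n := by
  have hu := s17cv_norm_coeff_isUnit P x
  rw [s17pl_val_apply]
  have e : (⟨s17cvChow x n / s17cvChow x (s17cvIdx P.W x), h.2 n⟩ : ↥P.W)
      = (s17crPoly P.W x).coeff n * ((hu.unit⁻¹ : (↥P.W)ˣ) : ↥P.W) :=
    Subtype.ext (s17cv_div_eq P x n)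
  rw [e, map_mul, s17cr_coeff_res P.W P.res (s17cv_res_eq_zero P) x xb hxb]
  have htop := s17cr_res_coeff_top P.W P.res (s17cv_res_eq_zero P) x xb hxb
  have hinv : P.res ((hu.unit⁻¹ : (↥P.W)ˣ) : ↥P.W) = ((-1 : K) ^ (s17crPole P.W x).card)⁻¹ := by
    have h1 : P.res ((s17crPoly P.W x).coeff (s17crReg P.W x).card)
        * P.res ((hu.unit⁻¹ : (↥P.W)ˣ) : ↥P.W) = 1 := by
      rw [← map_mul, hu.mul_val_inv, map_one]
    rw [htop] at h1
    exact eq_inv_of_mul_eq_one_right h1
  rw [hinv]
  have hs : ((-1 : K) ^ (s17crPole P.W x).card) ≠ 0 := pow_ne_zero _ (neg_ne_zero.2 one_ne_zero)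
  field_simp

/-- in ANY chart the place-value of the Chow tuple is a nonzero multiple of the Chow form of the
centre. -/
theorem s17cv_val_any (P : S17plPlace K L) {g : ℕ} (x : Fin g → L) (xb : Fin g → K)
    (hxb : ∀ i, ∀ h : x i ∈ P.W, P.res ⟨x i, h⟩ = xb i)
    (α : Fin (g + 1)) (h : S17plIsMin P.W (s17cvChow x) α) :
    ∃ c : K, c ≠ 0 ∧ ∀ n : Fin (g + 1), s17plVal P (s17cvChow x) α h n
      = c * ((∏ i ∈ s17crReg P.W x, (X - C (xb i))) : K[X]).coeff n := by
  obtain ⟨c, hc, hcn⟩ := s17pl_val_change P (s17cvChow x) (s17cvIdx P.W x) α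
    (s17cv_isMin P x) h
  refine ⟨c, hc, fun n => ?_⟩
  rw [← s17cv_val P x xb hxb (s17cv_isMin P x) n]
  exact hcn n

end Fermat.Agent.S17
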