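/-
S17 sprint, leaf **H7a — NORTHCOTT core** (helper46).  Three self-contained statements:

* `s17nc_fibre_finite`  : `F / K` with principal divisors, `t ∈ F` not a constant, `c ∈ K`:
                          the set of places `P` with `t(P) = c` (`0 < P.ord (t − c)`) is finite;
* `s17nc_chow_finite`   : for every polynomial `N` over `K` there are only finitely many tuples
                          `P : Fin g → Place K F` of places whose CHOW FORM `∏ (X − t(P i))` is `N`;
* `s17nc_northcott_affine` : Northcott for affine points: over a field with admissible absolute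
                          values and the Northcott property for `mulHeight₁` (e.g. a number field),
                          the tuples `y : ι → K` with `y j₀ = 1` and `mulHeight y ≤ B` are finite;
* `s17nc_northcott_poly`: the monic polynomials of degree `g` over such a field whose coefficient
                          vector has `mulHeight ≤ B` are finite.
-/
import Mathlib
import Fermat.Prelude.Def_AlgebraicCurve_DivisorClassGroup

set_option autoImplicit false
set_option linter.unusedSectionVars false

noncomputable section

namespace Fermat.Agent.S17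

open AlgebraicCurve Polynomial

universe u v

section Fibre

variable {K : Type u} {F : Type v} [Field K] [Field F] [Algebra K F]

/-- the places where a nonzero function has nonzero order are finitely many. -/
theorem s17nc_ord_ne_zero_finite [HasPrincipalDivisors K F] (f : F) (hf : f ≠ 0) :
    {P : Place K F | P.ord f ≠ 0}.Finite := by
  obtain ⟨D, hD, -⟩ := HasPrincipalDivisors.exists_divisor (K := K) f hf
  refine D.support.finite_toSet.subset ?_
  intro P hP
  rw [Finset.mem_coe, Finsupp.mem_support_iff, hD P]
  exact hP

/-- **finite fibres**: a non-constant function takes the value `c` at finitely many places. -/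
theorem s17nc_fibre_finite [HasPrincipalDivisors K F] (t : F)
    (ht : ∀ c : K, t ≠ algebraMap K F c) (c : K) :
    {P : Place K F | 0 < P.ord (t - algebraMap K F c)}.Finite := by
  refine (s17nc_ord_ne_zero_finite (K := K) (t - algebraMap K F c)
    (sub_ne_zero.2 (ht c))).subset ?_
  intro P hP
  exact ne_of_gt hP

/-- **finitely many tuples with a given Chow form.** -/
theorem s17nc_chow_finite [HasPrincipalDivisors K F] (t : F)
    (ht : ∀ c : K, t ≠ algebraMap K F c) (g : ℕ) (N : K[X]) :
    {P : Fin g → Place K F | ∃ c : Fin g → K,
      (∀ i, 0 < (P i).ord (t - algebraMap K F (c i))) ∧ ∏ i, (X - C (c i)) = N}.Finite := by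
  classical
  by_cases hN : N = 0
  · -- a product of monic factors is not `0`
    refine Set.Finite.subset Set.finite_empty ?_
    rintro P ⟨c, -, hc⟩
    exfalso
    have h1 : (∏ i, (X - C (c i)) : K[X]) ≠ 0 :=
      Finset.prod_ne_zero_iff.2 fun i _ => X_sub_C_ne_zero (c i)
    exact h1 (hc.trans hN)
  -- the finite set of admissible places
  have hS : (⋃ c ∈ N.roots.toFinset, {P : Place K F | 0 < P.ord (t - algebraMap K F c)}).Finite :=
    Set.Finite.biUnion N.roots.toFinset.finite_toSet fun c _ => s17nc_fibre_finite t ht c
  refine (Set.Finite.pi fun _ : Fin g => hS).subset ?_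
  rintro P ⟨c, hP, hc⟩
  rw [Set.mem_univ_pi]
  intro i
  rw [Set.mem_iUnion₂]
  refine ⟨c i, ?_, hP i⟩
  rw [Multiset.mem_toFinset, mem_roots hN, ← hc, IsRoot.def, eval_prod]
  exact Finset.prod_eq_zero (Finset.mem_univ i) (by simp)

end Fibre

section Northcott

open Height

variable {K : Type*} [Field K] [AdmissibleAbsValues K] [Northcott (mulHeight₁ (K := K))]

/-- one coordinate of an affine point has `mulHeight₁` at most the height of the point. -/
theorem s17nc_coord_le {ι : Type*} [Finite ι] (y : ι → K) (j₀ j : ι) (h1 : y j₀ = 1) :
    mulHeight₁ (y j) ≤ mulHeight y := by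
  have h2 : ![y j, 1] = y ∘ ![j, j₀] := by
    funext k
    fin_cases k
    · rfl
    · exact h1.symm
  rw [mulHeight₁_eq_mulHeight, h2]
  exact mulHeight_comp_le _ _

/-- **Northcott for affine points.** -/
theorem s17nc_northcott_affine {ι : Type*} [Finite ι] (j₀ : ι) (B : ℝ) :
    {y : ι → K | y j₀ = 1 ∧ mulHeight y ≤ B}.Finite := by
  have hfin : ∀ _ : ι, {x : K | mulHeight₁ x ≤ B}.Finite := fun _ => Northcott.finite_le B
  refine (Set.Finite.pi hfin).subset ?_
  rintro y ⟨h1, h2⟩
  rw [Set.mem_univ_pi]
  intro j
  exact (s17nc_coord_le y j₀ j h1).trans h2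

/-- **Northcott for monic polynomials**: finitely many monic polynomials of degree `g` whose
coefficient vector `(coeff 0, …, coeff g)` has `mulHeight ≤ B`. -/
theorem s17nc_northcott_poly (g : ℕ) (B : ℝ) :
    {N : K[X] | N.Monic ∧ N.natDegree = g ∧
      mulHeight (fun j : Fin (g + 1) => N.coeff (j : ℕ)) ≤ B}.Finite := by
  have h1 := s17nc_northcott_affine (K := K) (ι := Fin (g + 1)) (Fin.last g) B
  refine Set.Finite.of_finite_image (f := fun N : K[X] => fun j : Fin (g + 1) => N.coeff (j : ℕ))
    (h1.subset ?_) ?_
  · rintro y ⟨N, ⟨hm, hd, hB⟩, rfl⟩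
    refine ⟨?_, hB⟩
    show N.coeff ((Fin.last g : Fin (g + 1)) : ℕ) = 1
    rw [Fin.val_last, ← hd]
    exact hm.coeff_natDegree
  · rintro N ⟨-, hd, -⟩ N' ⟨-, hd', -⟩ h
    ext n
    by_cases hn : n ≤ g
    · exact congrFun h ⟨n, by omega⟩
    · rw [coeff_eq_zero_of_natDegree_lt (by omega), coeff_eq_zero_of_natDegree_lt (by omega)]

end Northcott

end Fermat.Agent.S17

end
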