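/-
S17 sprint, leaf **H3c / H7b — CHOW-CENTRE** (helper48): the place-value of the Chow tuple of
`x i = R i t` at a `K`-rational place `P` of `𝔏` SEES THE CENTRES `Q i` of the points `R i`
(`S27ptIsCentre P.W (R i) (Q i)`), and finitely many tuples of centres have a given place-value.

* `s17cc_mem_iff`      : `R t ∈ W ↔ t ∈ Q.toValuationSubring`;
* `s17cc_value`        : `t − res (R t) ∈ Q.nonunits` (the value of `t` at the centre IS the
                         residue of `R t`);
* `S17ccOn t N Q`      : `Q` is a pole of `t`, or `t(Q)` is a root of `N`;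
* `s17cc_on_finite`    : for `t` not constant and `N ≠ 0` these places are FINITELY many;
* `s17ccPoly v`        : the polynomial `∑ v n X^n` of a coefficient tuple `v : Fin (g+1) → K`;
* `s17cc_poly_val`     : the polynomial of the place-value of the Chow tuple (any chart) is
                         `c · ∏_{i regular} (X − t(Q i))`, `c ≠ 0`;
* `s17cc_centre_on`    : hence every centre `Q i` is `S17ccOn t (s17ccPoly v)`;
* `s17cc_finite`       : **NORTHCOTT STEP**: for a FINITE set `S` of value tuples, the tuples of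
                         centres `Q` of all `K`-rational places of `𝔏` (any `𝔏`-points `R i` with
                         these centres, any chart) whose Chow place-value lies in `S` are FINITELY
                         many.
-/
import Fermat.Agent.S17.ChowVal
import Fermat.Agent.S17.NorthChow
import Fermat.Agent.S27.PtDef
import Fermat.Agent.S24.PlaceBasic

set_option autoImplicit false
set_option linter.unusedSectionVars false
set_option linter.unusedVariables false

noncomputable section

namespace Fermat.Agent.S17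

open AlgebraicCurve Polynomial Fermat.Agent.S27

universe u v w

variable {K : Type u} {F : Type v} [Field K] [Field F] [Algebra K F]
variable {𝔏 : Type w} [Field 𝔏] [Algebra K 𝔏]

/-- `R t ∈ W ↔ t` is regular at the centre. -/
theorem s17cc_mem_iff {W : ValuationSubring 𝔏} {R : F →ₐ[K] 𝔏} {Q : Place K F}
    (hQ : S27ptIsCentre W R Q) (t : F) : R t ∈ W ↔ t ∈ Q.toValuationSubring := by
  unfold S27ptIsCentre at hQ
  rw [← hQ, ValuationSubring.mem_comap]
  rfl

/-- the value of `t` at the centre is the residue of `R t`. -/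
theorem s17cc_value (P : S17plPlace K 𝔏) {R : F →ₐ[K] 𝔏} {Q : Place K F}
    (hQ : S27ptIsCentre P.W R Q) (t : F) (h : R t ∈ P.W) :
    t - algebraMap K F (P.res ⟨R t, h⟩) ∈ Q.toValuationSubring.nonunits := by
  set c : K := P.res ⟨R t, h⟩ with hc
  set u : F := t - algebraMap K F c with hu
  have hRu : R u = R t - algebraMap K 𝔏 c := by
    rw [hu, map_sub, AlgHom.commutes]
  have hmemW : R u ∈ P.W := by
    rw [hRu]
    exact P.W.sub_mem h (P.hKW c)
  have hres : P.res ⟨R u, hmemW⟩ = 0 := by
    have e : (⟨R u, hmemW⟩ : ↥P.W) = ⟨R t, h⟩ - s17plConst P c := Subtype.ext hRu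
    rw [e, map_sub, s17pl_res_const, sub_self]
  have humem : u ∈ Q.toValuationSubring := (s17cc_mem_iff hQ u).1 hmemW
  rw [ValuationSubring.mem_nonunits_iff_exists_mem_maximalIdeal]
  refine ⟨humem, ?_⟩
  rw [IsLocalRing.mem_maximalIdeal, mem_nonunits_iff]
  intro hunit
  obtain ⟨v, hv⟩ := hunit.exists_right_inv
  have hv' : u * (v : F) = 1 := by
    have := congrArg (fun w : ↥Q.toValuationSubring => (w : F)) hv
    exact this
  have hvW : R (v : F) ∈ P.W := (s17cc_mem_iff hQ (v : F)).2 v.2
  have h1 : P.res ⟨R u, hmemW⟩ * P.res ⟨R (v : F), hvW⟩ = 1 := by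
    rw [← map_mul]
    have e : (⟨R u, hmemW⟩ : ↥P.W) * ⟨R (v : F), hvW⟩ = 1 := by
      apply Subtype.ext
      show R u * R (v : F) = 1
      rw [← map_mul, hv', map_one]
    rw [e, map_one]
  rw [hres, zero_mul] at h1
  exact zero_ne_one h1

/-- `Q` is a pole of `t`, or the value `t(Q)` is a root of `N`. -/
def S17ccOn (t : F) (N : K[X]) (Q : Place K F) : Prop :=
  t ∉ Q.toValuationSubring ∨
    ∃ c : K, N.IsRoot c ∧ t - algebraMap K F c ∈ Q.toValuationSubring.nonunits

/-- **finitely many places** are poles of `t` or zeros of `N(t)`. -/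
theorem s17cc_on_finite [HasPrincipalDivisors K F] (t : F)
    (ht : ∀ c : K, t ≠ algebraMap K F c) {N : K[X]} (hN : N ≠ 0) :
    {Q : Place K F | S17ccOn t N Q}.Finite := by
  classical
  have ht0 : t ≠ 0 := fun h => ht 0 (by rw [h, map_zero])
  have hpole : {Q : Place K F | Q.ord t ≠ 0}.Finite := s17nc_ord_ne_zero_finite (K := K) t ht0
  have hzero : (⋃ c ∈ N.roots.toFinset,
      {Q : Place K F | 0 < Q.ord (t - algebraMap K F c)}).Finite :=
    Set.Finite.biUnion N.roots.toFinset.finite_toSet fun c _ => s17nc_fibre_finite t ht c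
  refine (hpole.union hzero).subset ?_
  rintro Q (hQ | ⟨c, hc, hQ⟩)
  · left
    show Q.ord t ≠ 0
    intro h0
    exact hQ ((Fermat.Agent.S24.PlaceAux.ord_nonneg_iff Q ht0).1 h0.ge)
  · right
    rw [Set.mem_iUnion₂]
    refine ⟨c, ?_, ?_⟩
    · rw [Multiset.mem_toFinset, mem_roots hN]
      exact hc
    · show 0 < Q.ord (t - algebraMap K F c)
      exact (Fermat.Agent.S24.PlaceAux.ord_pos_iff_mem_nonunits Q
        (sub_ne_zero.2 (ht c))).2 hQ

/-- finitely many TUPLES of such places. -/
theorem s17cc_on_tuple_finite [HasPrincipalDivisors K F] (t : F)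
    (ht : ∀ c : K, t ≠ algebraMap K F c) {N : K[X]} (hN : N ≠ 0) (g : ℕ) :
    {Q : Fin g → Place K F | ∀ i, S17ccOn t N (Q i)}.Finite := by
  refine (Set.Finite.pi fun _ : Fin g => s17cc_on_finite t ht hN).subset ?_
  intro Q hQ
  rw [Set.mem_univ_pi]
  exact hQ

/-- the polynomial `∑ v n X^n` of a coefficient tuple. -/
def s17ccPoly {g : ℕ} (v : Fin (g + 1) → K) : K[X] := ∑ n : Fin (g + 1), C (v n) * X ^ (n : ℕ)

theorem s17ccPoly_of_coeff {g : ℕ} (c : K) (A : K[X]) (hA : A.natDegree ≤ g) :
    s17ccPoly (fun n : Fin (g + 1) => c * A.coeff (n : ℕ)) = C c * A := by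
  unfold s17ccPoly
  have h1 : A = ∑ n ∈ Finset.range (g + 1), C (A.coeff n) * X ^ n := by
    conv_lhs => rw [A.as_sum_range' (g + 1) (by omega)]
    refine Finset.sum_congr rfl fun n _ => ?_
    rw [← C_mul_X_pow_eq_monomial]
  conv_rhs => rw [h1]
  rw [Finset.mul_sum, ← Fin.sum_univ_eq_sum_range (fun n => C c * (C (A.coeff n) * X ^ n))]
  refine Finset.sum_congr rfl fun n _ => ?_
  rw [C_mul, mul_assoc]

theorem s17ccPoly_ne_zero {g : ℕ} {v : Fin (g + 1) → K} (hv : v ≠ 0) : s17ccPoly v ≠ 0 := by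
  intro h0
  apply hv
  funext n
  have h1 : (s17ccPoly v).coeff (n : ℕ) = v n := by
    unfold s17ccPoly
    rw [finsetSum_coeff]
    rw [Finset.sum_eq_single n]
    · rw [coeff_C_mul, coeff_X_pow, if_pos rfl, mul_one]
    · intro m _ hm
      rw [coeff_C_mul, coeff_X_pow, if_neg, mul_zero]
      intro h
      exact hm (Fin.ext h.symm)
    · intro h
      exact absurd (Finset.mem_univ n) h
  rw [h0, coeff_zero] at h1
  exact h1.symm

variable {g : ℕ}

/-- the residues of the regular entries, `0` at the poles. -/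
def s17ccXb (P : S17plPlace K 𝔏) (x : Fin g → 𝔏) : Fin g → K :=
  fun i => open Classical in if h : x i ∈ P.W then P.res ⟨x i, h⟩ else 0

theorem s17ccXb_spec (P : S17plPlace K 𝔏) (x : Fin g → 𝔏) (i : Fin g) (h : x i ∈ P.W) :
    P.res ⟨x i, h⟩ = s17ccXb P x i := by
  unfold s17ccXb
  rw [dif_pos h]

/-- **the polynomial of the place-value of the Chow tuple** is `c · ∏_{regular} (X − xb i)`. -/
theorem s17cc_poly_val (P : S17plPlace K 𝔏) (x : Fin g → 𝔏) (α : Fin (g + 1))
    (h : S17plIsMin P.W (s17cvChow x) α) :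
    ∃ c : K, c ≠ 0 ∧ s17ccPoly (s17plVal P (s17cvChow x) α h)
      = C c * ∏ i ∈ s17crReg P.W x, (X - C (s17ccXb P x i)) := by
  obtain ⟨c, hc, hcn⟩ := s17cv_val_any P x (s17ccXb P x) (s17ccXb_spec P x) α h
  refine ⟨c, hc, ?_⟩
  have hdeg : ((∏ i ∈ s17crReg P.W x, (X - C (s17ccXb P x i))) : K[X]).natDegree ≤ g := by
    rw [s17cr_centre_natDegree]
    have := s17cr_card_add P.W x
    omega
  rw [← s17ccPoly_of_coeff c _ hdeg]
  congr 1
  funext n
  exact hcn n

/-- **every centre is a pole of `t` or a zero of the place-value polynomial.** -/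
theorem s17cc_centre_on (P : S17plPlace K 𝔏) (R : Fin g → F →ₐ[K] 𝔏) (Q : Fin g → Place K F)
    (hQ : ∀ i, S27ptIsCentre P.W (R i) (Q i)) (t : F) (α : Fin (g + 1))
    (h : S17plIsMin P.W (s17cvChow fun i => R i t) α) (i : Fin g) :
    S17ccOn t (s17ccPoly (s17plVal P (s17cvChow fun i => R i t) α h)) (Q i) := by
  classical
  by_cases hi : R i t ∈ P.W
  · right
    refine ⟨P.res ⟨R i t, hi⟩, ?_, s17cc_value P (hQ i) t hi⟩
    obtain ⟨c, hc, hpoly⟩ := s17cc_poly_val P (fun i => R i t) α h
    rw [hpoly, IsRoot.def, eval_mul, eval_prod]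
    refine mul_eq_zero_of_right _ (Finset.prod_eq_zero (i := i) ?_ ?_)
    · unfold s17crReg
      rw [Finset.mem_filter]
      exact ⟨Finset.mem_univ i, hi⟩
    · rw [eval_sub, eval_X, eval_C, ← s17ccXb_spec P (fun i => R i t) i hi, sub_self]
  · left
    exact fun hmem => hi ((s17cc_mem_iff (hQ i) t).2 hmem)

/-- **NORTHCOTT STEP**: finitely many tuples of centres have their Chow place-value in a given
finite set of tuples. -/
theorem s17cc_finite [HasPrincipalDivisors K F] (t : F) (ht : ∀ c : K, t ≠ algebraMap K F c)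
    (S : Set (Fin (g + 1) → K)) (hS : S.Finite) :
    {Q : Fin g → Place K F | ∃ (P : S17plPlace K 𝔏) (R : Fin g → F →ₐ[K] 𝔏) (α : Fin (g + 1))
      (h : S17plIsMin P.W (s17cvChow fun i => R i t) α),
      (∀ i, S27ptIsCentre P.W (R i) (Q i)) ∧
        s17plVal P (s17cvChow fun i => R i t) α h ∈ S}.Finite := by
  have hfin : (⋃ v ∈ S, {Q : Fin g → Place K F |
      v ≠ 0 ∧ ∀ i, S17ccOn t (s17ccPoly v) (Q i)}).Finite := by
    refine Set.Finite.biUnion hS fun v _ => ?_
    by_cases hv : v = 0
    · refine Set.Finite.subset Set.finite_empty ?_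
      rintro Q ⟨h0, -⟩
      exact (h0 hv).elim
    · refine (s17cc_on_tuple_finite t ht (s17ccPoly_ne_zero hv) g).subset ?_
      rintro Q ⟨-, hQ⟩
      exact hQ
  refine hfin.subset ?_
  rintro Q ⟨P, R, α, h, hQ, hv⟩
  rw [Set.mem_iUnion₂]
  exact ⟨_, hv, s17pl_val_ne_zero P _ α h, fun i => s17cc_centre_on P R Q hQ t α h i⟩

end Fermat.Agent.S17
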