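/-
S17 sprint, leaf **N-PROJ** (helper48): LINEAR PROJECTIONS OF PLACE-VALUES, and the CHOW BLOCK
(steps (2) and (4) of helper74's note "(WD) is not needed for Northcott").

Frame of `S17/Place.lean`: `P : S17plPlace K L`, `s : ι → L` a tuple with a minimal index `α`
(`h : S17plIsMin P.W s α`), place-value `v = s17plVal P s α h : ι → K`.
A family of `K`-linear forms `c : κ → ι → K` gives the tuple `G = s17pvLin c s`,
`G j = ∑ i, c j i • s i`, and the projected value `y = s17pvLinK c v`, `y j = ∑ i, c j i * v i`.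

* `s17pv_div_mem`, `s17pv_res` : `G j / s α ∈ W` with residue `y j`;
* `s17pv_vis_iff`   : VISIBLE (`y j₀ ≠ 0`) `↔ G j₀ / s α` is a unit of `W`;
* `s17pv_isMin`     : if `y j₀ ≠ 0` then `j₀` is a minimal index of `G`;
* `s17pv_val`       : and the place-value of `G` in the chart `j₀` is `(y j₀)⁻¹ • y`:
                      THE PLACE-VALUE OF A VISIBLE BLOCK IS THE LINEAR PROJECTION OF `[s]_P`;
* `s17pv_val_any`   : in any chart `β` of `G`: `[G]_P = λ • y`, `λ ≠ 0`;
* `s17pv_chow_block`: **CHOW BLOCK**: if `G = Φ · (Chow tuple of x)` (`Φ ≠ 0` a common factor,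
                      e.g. the square function `Φ_γ`) is visible at `P`, then the projection
                      `y` of `[s]_P` is `λ •` (the coefficients of the Chow form
                      `∏_{x i ∈ W} (X − res (x i))` of the centre), `λ ≠ 0`;
* `s17pv_chow_poly` : the same as an identity of polynomials: `s17ccPoly y = C λ * ∏ …`.
-/
import Fermat.Agent.S17.ChowCentre

set_option autoImplicit false
set_option linter.unusedSectionVars false
set_option linter.unusedVariables false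

noncomputable section

namespace Fermat.Agent.S17

open Polynomial

variable {K L : Type*} [Field K] [Field L] [Algebra K L] {ι κ : Type*} [Fintype ι]

/-- the linear image of a tuple of functions: `G j = ∑ i, c j i • s i`. -/
def s17pvLin (c : κ → ι → K) (s : ι → L) : κ → L :=
  fun j => ∑ i, algebraMap K L (c j i) * s i

/-- the linear image of a tuple of values: `y j = ∑ i, c j i * v i`. -/
def s17pvLinK (c : κ → ι → K) (v : ι → K) : κ → K := fun j => ∑ i, c j i * v i

theorem s17pv_div_eq (s : ι → L) (α : ι) (c : κ → ι → K) (j : κ) :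
    s17pvLin c s j / s α = ∑ i, algebraMap K L (c j i) * (s i / s α) := by
  unfold s17pvLin
  rw [Finset.sum_div]
  refine Finset.sum_congr rfl fun i _ => ?_
  rw [mul_div_assoc]

/-- `G j / s α ∈ W`. -/
theorem s17pv_div_mem (P : S17plPlace K L) (s : ι → L) (α : ι) (h : S17plIsMin P.W s α)
    (c : κ → ι → K) (j : κ) : s17pvLin c s j / s α ∈ P.W := by
  rw [s17pv_div_eq]
  exact sum_mem fun i _ => mul_mem (P.hKW _) (h.2 i)

/-- the residue of `G j / s α` is the projected value. -/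
theorem s17pv_res (P : S17plPlace K L) (s : ι → L) (α : ι) (h : S17plIsMin P.W s α)
    (c : κ → ι → K) (j : κ) :
    P.res ⟨s17pvLin c s j / s α, s17pv_div_mem P s α h c j⟩
      = s17pvLinK c (s17plVal P s α h) j := by
  have e : (⟨s17pvLin c s j / s α, s17pv_div_mem P s α h c j⟩ : ↥P.W)
      = ∑ i, s17plConst P (c j i) * s17plNorm P.W s α h i := by
    apply Subtype.ext
    show s17pvLin c s j / s α
      = ((∑ i, s17plConst P (c j i) * s17plNorm P.W s α h i : ↥P.W) : L)
    rw [s17pv_div_eq]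
    simp only [AddSubmonoidClass.coe_finsetSum, MulMemClass.coe_mul, s17plConst_coe,
      s17plNorm_coe]
  rw [e, map_sum]
  unfold s17pvLinK
  refine Finset.sum_congr rfl fun i _ => ?_
  rw [map_mul, s17pl_res_const]
  rfl

/-- VISIBLE `↔` unit. -/
theorem s17pv_vis_iff (P : S17plPlace K L) (s : ι → L) (α : ι) (h : S17plIsMin P.W s α)
    (c : κ → ι → K) (j : κ) :
    s17pvLinK c (s17plVal P s α h) j ≠ 0
      ↔ IsUnit (⟨s17pvLin c s j / s α, s17pv_div_mem P s α h c j⟩ : ↥P.W) := by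
  rw [← s17pv_res P s α h c j]
  constructor
  · intro hne
    by_contra hu
    exact hne (s17cv_res_eq_zero P _ hu)
  · intro hu
    exact (hu.map P.res).ne_zero

theorem s17pv_inv_mem (P : S17plPlace K L) (s : ι → L) (α : ι) (h : S17plIsMin P.W s α)
    (c : κ → ι → K) (j₀ : κ) (hj₀ : s17pvLinK c (s17plVal P s α h) j₀ ≠ 0) :
    s17pvLin c s j₀ ≠ 0 ∧ (s17pvLin c s j₀ / s α)⁻¹ ∈ P.W := by
  have hu := (s17pv_vis_iff P s α h c j₀).1 hj₀
  obtain ⟨v, hv⟩ := hu.exists_right_inv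
  have hv' : s17pvLin c s j₀ / s α * (v : L) = 1 := by
    have := congrArg (fun w : ↥P.W => (w : L)) hv
    exact this
  have hne : s17pvLin c s j₀ / s α ≠ 0 := left_ne_zero_of_mul_eq_one hv'
  refine ⟨fun h0 => hne (by rw [h0, zero_div]), ?_⟩
  have : (s17pvLin c s j₀ / s α)⁻¹ = (v : L) := inv_eq_of_mul_eq_one_right hv'
  rw [this]
  exact v.2

theorem s17pv_div_div (s : ι → L) (α : ι) (hα : s α ≠ 0) (c : κ → ι → K) (j j₀ : κ) :
    s17pvLin c s j / s17pvLin c s j₀
      = s17pvLin c s j / s α * (s17pvLin c s j₀ / s α)⁻¹ := by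
  rw [inv_div, div_mul_div_comm, mul_comm (s17pvLin c s j) (s α), mul_div_mul_left _ _ hα]

/-- a visible index is a minimal index of the projected tuple. -/
theorem s17pv_isMin (P : S17plPlace K L) (s : ι → L) (α : ι) (h : S17plIsMin P.W s α)
    (c : κ → ι → K) (j₀ : κ) (hj₀ : s17pvLinK c (s17plVal P s α h) j₀ ≠ 0) :
    S17plIsMin P.W (s17pvLin c s) j₀ := by
  obtain ⟨hne, hinv⟩ := s17pv_inv_mem P s α h c j₀ hj₀
  refine ⟨hne, fun j => ?_⟩
  rw [s17pv_div_div s α h.1 c j j₀]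
  exact mul_mem (s17pv_div_mem P s α h c j) hinv

/-- **the place-value of a visible block is the linear projection of `[s]_P`.** -/
theorem s17pv_val (P : S17plPlace K L) (s : ι → L) (α : ι) (h : S17plIsMin P.W s α)
    (c : κ → ι → K) (j₀ : κ) (hj₀ : s17pvLinK c (s17plVal P s α h) j₀ ≠ 0)
    (hmin : S17plIsMin P.W (s17pvLin c s) j₀) (j : κ) :
    s17plVal P (s17pvLin c s) j₀ hmin j
      = (s17pvLinK c (s17plVal P s α h) j₀)⁻¹ * s17pvLinK c (s17plVal P s α h) j := by
  obtain ⟨hne, hinv⟩ := s17pv_inv_mem P s α h c j₀ hj₀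
  rw [s17pl_val_apply]
  have e : (⟨s17pvLin c s j / s17pvLin c s j₀, hmin.2 j⟩ : ↥P.W)
      = ⟨s17pvLin c s j / s α, s17pv_div_mem P s α h c j⟩
          * ⟨(s17pvLin c s j₀ / s α)⁻¹, hinv⟩ :=
    Subtype.ext (s17pv_div_div s α h.1 c j j₀)
  rw [e, map_mul, s17pv_res P s α h c j]
  have hinvres : P.res ⟨(s17pvLin c s j₀ / s α)⁻¹, hinv⟩
      = (s17pvLinK c (s17plVal P s α h) j₀)⁻¹ := by
    have hne' : s17pvLin c s j₀ / s α ≠ 0 := div_ne_zero hne h.1
    have h1 := s17pl_res_mul_res_inv P hne' (s17pv_div_mem P s α h c j₀) hinv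
    rw [s17pv_res P s α h c j₀] at h1
    exact eq_inv_of_mul_eq_one_right h1
  rw [hinvres, mul_comm]

/-- in ANY chart of the projected tuple its place-value is a nonzero multiple of the projection
of `[s]_P`. -/
theorem s17pv_val_any (P : S17plPlace K L) (s : ι → L) (α : ι) (h : S17plIsMin P.W s α)
    (c : κ → ι → K) (j₀ : κ) (hj₀ : s17pvLinK c (s17plVal P s α h) j₀ ≠ 0)
    (β : κ) (hβ : S17plIsMin P.W (s17pvLin c s) β) :
    ∃ lam : K, lam ≠ 0 ∧ ∀ j, s17plVal P (s17pvLin c s) β hβ j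
      = lam * s17pvLinK c (s17plVal P s α h) j := by
  have hmin := s17pv_isMin P s α h c j₀ hj₀
  obtain ⟨d, hd, hdj⟩ := s17pl_val_change P (s17pvLin c s) j₀ β hmin hβ
  refine ⟨d * (s17pvLinK c (s17plVal P s α h) j₀)⁻¹, mul_ne_zero hd (inv_ne_zero hj₀),
    fun j => ?_⟩
  rw [hdj j, s17pv_val P s α h c j₀ hj₀ hmin j, mul_assoc]

/-! ### the Chow block -/

/-- **CHOW BLOCK**: a visible block `G = Φ · (Chow tuple of x)` of `span s` projects `[s]_P` to
the Chow form of the centre of `x` at `P`. -/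
theorem s17pv_chow_block (P : S17plPlace K L) (s : ι → L) (α : ι) (h : S17plIsMin P.W s α)
    {g : ℕ} (c : Fin (g + 1) → ι → K) (Φ : L) (hΦ : Φ ≠ 0) (x : Fin g → L)
    (hG : ∀ n, s17pvLin c s n = Φ * s17cvChow x n)
    (j₀ : Fin (g + 1)) (hj₀ : s17pvLinK c (s17plVal P s α h) j₀ ≠ 0)
    (xb : Fin g → K) (hxb : ∀ i, ∀ hi : x i ∈ P.W, P.res ⟨x i, hi⟩ = xb i) :
    ∃ lam : K, lam ≠ 0 ∧ ∀ n : Fin (g + 1), s17pvLinK c (s17plVal P s α h) n
      = lam * ((∏ i ∈ s17crReg P.W x, (X - C (xb i))) : K[X]).coeff n := by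
  have hmin := s17pv_isMin P s α h c j₀ hj₀
  have hGeq : s17pvLin c s = fun n => Φ * s17cvChow x n := funext hG
  -- the place-value of `G` is the place-value of the Chow tuple
  have hminChow : S17plIsMin P.W (s17cvChow x) j₀ := by
    have h1 := hmin
    rw [hGeq] at h1
    refine ⟨right_ne_zero_of_mul h1.1, fun n => ?_⟩
    have h2 := h1.2 n
    rwa [mul_div_mul_left _ _ hΦ] at h2
  obtain ⟨d, hd, hdn⟩ := s17cv_val_any P x xb hxb j₀ hminChow
  refine ⟨s17pvLinK c (s17plVal P s α h) j₀ * d, mul_ne_zero hj₀ hd, fun n => ?_⟩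
  have h3 := s17pv_val P s α h c j₀ hj₀ hmin n
  have h4 : s17plVal P (s17pvLin c s) j₀ hmin n = s17plVal P (s17cvChow x) j₀ hminChow n := by
    rw [s17pl_val_apply, s17pl_val_apply]
    congr 1
    apply Subtype.ext
    show s17pvLin c s n / s17pvLin c s j₀ = s17cvChow x n / s17cvChow x j₀
    rw [hG n, hG j₀, mul_div_mul_left _ _ hΦ]
  rw [h4, hdn n] at h3
  rw [mul_assoc, h3, ← mul_assoc, mul_inv_cancel₀ hj₀, one_mul]

/-- the Chow block as an identity of polynomials. -/
theorem s17pv_chow_poly (P : S17plPlace K L) (s : ι → L) (α : ι) (h : S17plIsMin P.W s α)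
    {g : ℕ} (c : Fin (g + 1) → ι → K) (Φ : L) (hΦ : Φ ≠ 0) (x : Fin g → L)
    (hG : ∀ n, s17pvLin c s n = Φ * s17cvChow x n)
    (j₀ : Fin (g + 1)) (hj₀ : s17pvLinK c (s17plVal P s α h) j₀ ≠ 0) :
    ∃ lam : K, lam ≠ 0 ∧ s17ccPoly (s17pvLinK c (s17plVal P s α h))
      = C lam * ∏ i ∈ s17crReg P.W x, (X - C (s17ccXb P x i)) := by
  obtain ⟨lam, hlam, hn⟩ := s17pv_chow_block P s α h c Φ hΦ x hG j₀ hj₀ (s17ccXb P x)
    (s17ccXb_spec P x)
  refine ⟨lam, hlam, ?_⟩
  have hdeg : ((∏ i ∈ s17crReg P.W x, (X - C (s17ccXb P x i))) : K[X]).natDegree ≤ g := by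
    rw [s17cr_centre_natDegree]
    have := s17cr_card_add P.W x
    omega
  rw [← s17ccPoly_of_coeff lam _ hdeg]
  congr 1
  funext n
  exact hn n

end Fermat.Agent.S17
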