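/-
S17 sprint, leaf **PlN N3 — CHOW-HT** (helper48): THE HEIGHT OF THE VISIBLE CHOW BLOCK.
On `S17/ProjVal.lean`, `S17/HtAbsLin.lean` (helper48), `S17/Chow.lean` (helper99).

* `s17n3_sum_apply`  : `(∑ i ∈ S, single (Q i) 1) P = #{i ∈ S | Q i = P}`;
* `s17n3_form`       : `∏ i ∈ S, (X − C (t(Q i))) = s17chForm t (∑ i ∈ S, single (Q i) 1)`:
                       the Chow polynomial of a tuple of places IS helper99's Chow form of its
                       divisor;
* `s17n3_val_eq`     : for a centre `Q` of the point `e` along `P.W` with `e t ∈ P.W`: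
                       `P.res (e t) = s17chVal Q t`;
* `s17n3_centre_form`: the Chow form of the centre, as it comes out of CHOW-VAL
                       (`∏_{i regular} (X − C (res (e i t)))`), is
                       `s17chForm t (∑_{i regular} single (Q i) 1)`;
* `s17n3_height`     : a VISIBLE Chow block `G = Φ · (Chow tuple of x)`, `G j = ∑ i, c j i • s i`:
                       `habs (coefficients of ∏_{i regular} (X − res (x i)))
                          ≤ habs [s]_P + (log #ι + habs c)`   (`habs = s17haAbsQ`);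
* `s17n3_main`       : **N3**: the same for the centres `Q i` of the points `e i` (all regular for
                       `t`): `habs (coefficients of s17chForm t (∑ i, single (Q i) 1))
                          ≤ habs [s]_P + (log #ι + habs c)`.
The constant `log #ι + habs c` depends on the linear forms `c` only (not on the place).
-/
import Fermat.Agent.S17.ProjVal
import Fermat.Agent.S17.HtAbsLin
import Fermat.Agent.S17.Chow

set_option autoImplicit false
set_option linter.unusedSectionVars false
set_option linter.unusedVariables false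

noncomputable section

namespace Fermat.Agent.S17

open AlgebraicCurve Polynomial Fermat.Agent.S27

section Form

variable {K : Type*} {F : Type*} [Field K] [Field F] [Algebra K F]

open Classical in
/-- the multiplicity of a place in the divisor of a tuple. -/
theorem s17n3_sum_apply {g : ℕ} (S : Finset (Fin g)) (Q : Fin g → Place K F) (P : Place K F) :
    (∑ i ∈ S, (Finsupp.single (Q i) (1 : ℤ) : Divisor K F)) P
      = ((S.filter fun i => Q i = P).card : ℤ) := by
  rw [Finsupp.finsetSum_apply]
  simp only [Finsupp.single_apply]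
  rw [Finset.sum_boole]

/-- **the Chow polynomial of a tuple of places is the Chow form of its divisor.** -/
theorem s17n3_form (t : F) {g : ℕ} (S : Finset (Fin g)) (Q : Fin g → Place K F) :
    ∏ i ∈ S, (X - C (s17chVal (Q i) t))
      = s17chForm t (∑ i ∈ S, (Finsupp.single (Q i) (1 : ℤ) : Divisor K F)) := by
  classical
  have hmaps : ∀ i ∈ S, Q i ∈ (∑ i ∈ S, (Finsupp.single (Q i) (1 : ℤ) : Divisor K F)).support := by
    intro i hi
    rw [Finsupp.mem_support_iff, s17n3_sum_apply]
    have : 0 < (S.filter fun j => Q j = Q i).card :=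
      Finset.card_pos.2 ⟨i, Finset.mem_filter.2 ⟨hi, rfl⟩⟩
    exact_mod_cast this.ne'
  unfold s17chForm
  rw [← Finset.prod_fiberwise_of_maps_to hmaps]
  refine Finset.prod_congr rfl fun P _ => ?_
  rw [s17n3_sum_apply, Int.toNat_natCast, ← Finset.prod_const]
  refine Finset.prod_congr rfl fun i hi => ?_
  rw [(Finset.mem_filter.1 hi).2]

end Form

section Centre

variable {K : Type*} {F : Type*} [Field K] [Field F] [Algebra K F]
variable {L : Type*} [Field L] [Algebra K L]

/-- the residue of `e t` is the value of `t` at the centre. -/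
theorem s17n3_val_eq (P : S17plPlace K L) {e : F →ₐ[K] L} {Q : Place K F}
    (hQ : S27ptIsCentre P.W e Q) (t : F) (h : e t ∈ P.W) :
    P.res ⟨e t, h⟩ = s17chVal Q t :=
  (s17chVal_eq (s17cc_value P hQ t h)).symm

/-- **the Chow form of the centre** (regular part of the tuple). -/
theorem s17n3_centre_form (P : S17plPlace K L) {g : ℕ} (e : Fin g → F →ₐ[K] L)
    (Q : Fin g → Place K F) (hQ : ∀ i, S27ptIsCentre P.W (e i) (Q i)) (t : F) :
    ∏ i ∈ s17crReg P.W (fun i => e i t), (X - C (s17ccXb P (fun i => e i t) i))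
      = s17chForm t (∑ i ∈ s17crReg P.W (fun i => e i t),
          (Finsupp.single (Q i) (1 : ℤ) : Divisor K F)) := by
  classical
  rw [← s17n3_form]
  refine Finset.prod_congr rfl fun i hi => ?_
  have hi' : e i t ∈ P.W := by
    unfold s17crReg at hi
    exact (Finset.mem_filter.1 hi).2
  rw [← s17ccXb_spec P (fun i => e i t) i hi', s17n3_val_eq P (hQ i) t hi']

/-- if `t` is regular at all the centres, all the indices are regular. -/
theorem s17n3_reg_univ (P : S17plPlace K L) {g : ℕ} (e : Fin g → F →ₐ[K] L)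
    (Q : Fin g → Place K F) (hQ : ∀ i, S27ptIsCentre P.W (e i) (Q i)) (t : F)
    (hreg : ∀ i, t ∈ (Q i).toValuationSubring) :
    s17crReg P.W (fun i => e i t) = Finset.univ := by
  classical
  unfold s17crReg
  rw [Finset.filter_true_of_mem]
  intro i _
  exact (s17cc_mem_iff (hQ i) t).2 (hreg i)

end Centre

section Height

variable {L : Type*} [Field L] [Algebra (AlgebraicClosure ℚ) L] {ι : Type*} [Fintype ι]

/-- **the height of a visible Chow block.** -/
theorem s17n3_height (P : S17plPlace (AlgebraicClosure ℚ) L) (s : ι → L) (α : ι)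
    (h : S17plIsMin P.W s α) {g : ℕ} (c : Fin (g + 1) → ι → AlgebraicClosure ℚ)
    (Φ : L) (hΦ : Φ ≠ 0) (x : Fin g → L)
    (hG : ∀ n, s17pvLin c s n = Φ * s17cvChow x n)
    (j₀ : Fin (g + 1)) (hj₀ : s17pvLinK c (s17plVal P s α h) j₀ ≠ 0) :
    s17haAbsQ (fun n : Fin (g + 1) =>
        ((∏ i ∈ s17crReg P.W x, (X - C (s17ccXb P x i))) : (AlgebraicClosure ℚ)[X]).coeff n)
      ≤ s17haAbsQ (s17plVal P s α h)
        + (Real.log (Nat.card ι)
            + s17haAbsQ (fun p : Fin (g + 1) × ι => c p.1 p.2)) := by
  obtain ⟨lam, hlam, hn⟩ := s17pv_chow_block P s α h c Φ hΦ x hG j₀ hj₀ (s17ccXb P x)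
    (s17ccXb_spec P x)
  have e1 : s17pvLinK c (s17plVal P s α h)
      = lam • (fun n : Fin (g + 1) =>
        ((∏ i ∈ s17crReg P.W x, (X - C (s17ccXb P x i))) : (AlgebraicClosure ℚ)[X]).coeff n) := by
    funext n
    rw [Pi.smul_apply, smul_eq_mul]
    exact hn n
  have e2 := s17haAbsQ_smul (fun n : Fin (g + 1) =>
        ((∏ i ∈ s17crReg P.W x, (X - C (s17ccXb P x i))) : (AlgebraicClosure ℚ)[X]).coeff n) hlam
  rw [← e1] at e2
  rw [← e2]
  have h3 := s17hl_absQ_lin c (s17plVal P s α h)
  have e3 : (fun j => ∑ i, c j i * s17plVal P s α h i) = s17pvLinK c (s17plVal P s α h) := rfl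
  rw [e3] at h3
  linarith

variable {F : Type*} [Field F] [Algebra (AlgebraicClosure ℚ) F]

/-- **N3**: at a place where the Chow block of the points `e i` is visible and `t` is regular at
all the centres, the Chow form of the centre divisor has absolute height
`≤ habs [s]_P + C(c)`. -/
theorem s17n3_main (P : S17plPlace (AlgebraicClosure ℚ) L) (s : ι → L) (α : ι)
    (h : S17plIsMin P.W s α) {g : ℕ} (c : Fin (g + 1) → ι → AlgebraicClosure ℚ)
    (Φ : L) (hΦ : Φ ≠ 0) (e : Fin g → F →ₐ[AlgebraicClosure ℚ] L)
    (Q : Fin g → Place (AlgebraicClosure ℚ) F) (hQ : ∀ i, S27ptIsCentre P.W (e i) (Q i)) (t : F)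
    (hG : ∀ n, s17pvLin c s n = Φ * s17cvChow (fun i => e i t) n)
    (j₀ : Fin (g + 1)) (hj₀ : s17pvLinK c (s17plVal P s α h) j₀ ≠ 0)
    (hreg : ∀ i, t ∈ (Q i).toValuationSubring) :
    s17haAbsQ (fun n : Fin (g + 1) =>
        (s17chForm t (∑ i, (Finsupp.single (Q i) (1 : ℤ) :
          Divisor (AlgebraicClosure ℚ) F))).coeff n)
      ≤ s17haAbsQ (s17plVal P s α h)
        + (Real.log (Nat.card ι)
            + s17haAbsQ (fun p : Fin (g + 1) × ι => c p.1 p.2)) := by
  have h1 := s17n3_height P s α h c Φ hΦ (fun i => e i t) hG j₀ hj₀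
  rw [s17n3_centre_form P e Q hQ t, s17n3_reg_univ P e Q hQ t hreg] at h1
  exact h1

end Height

end Fermat.Agent.S17
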