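/-
S17 sprint, leaf H90 (helper18): **Galois-invariant classes of `J₀(N)` are classes of
Galois-invariant divisors** ("Hilbert 90" for `Pic⁰`, with the rational cusp `∞`), WITHOUT
cohomology: every class has a UNIQUE reduced divisor with respect to `∞`, and the Galois action
preserves reducedness.

`F_N = FF N = ℚ̄(j(q), j(q^N)) ⊂ ℚ̄((q))`, `∞ = cuspInf N` (S15/Cusp.lean), `σ ∈ G_ℚ` acts by
`galAct N σ` (coefficientwise).  A divisor `E` is REDUCED (`S27Reduced ∞ E`, S27/RigRed.lean) if
`E ≥ 0` and `L(E − ∞) = 0`.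

* `s17h90Div N E`        : the divisor `E − (deg E)·∞` of degree `0`;
* `s17h90_exists`        : every class `x : JZero N` is `[E − (deg E)∞]` with `E` reduced;
* `s17h90_unique`        : the reduced divisor of a class is unique;
* `s17h90_smul_reduced`  : `σ • E` is reduced if `E` is;
* `s17h90_smul_mk`       : `σ • [E − (deg E)∞] = [σE − (deg σE)∞]`;
* `s17h90Red N x`        : THE reduced divisor of `x`, with `s17h90Red_reduced`, `s17h90Red_mk`,
                           `s17h90Red_eq` (characterisation), `s17h90Red_smul` (equivariance);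
* `s17h90_main`          : `x` fixed by `G_ℚ` ⇒ `galAct N σ • s17h90Red N x = s17h90Red N x` ∀ σ;
* `s17h90_deg_le`        : a reduced divisor has degree `≤ genusFF`;
* `s17h90Red_zero`       : the reduced divisor of `0` is `0`.
-/
import Fermat.Agent.S15.Cusp
import Fermat.Agent.S27.RigRed
import Fermat.Agent.S27.RR0Final
import Fermat.Agent.ES.HModular

set_option autoImplicit false
set_option linter.unusedSectionVars false
set_option linter.style.haveILetI false

noncomputable section

namespace Fermat.Agent.S17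

open ModularCurve AlgebraicCurve IntermediateField
open Fermat.Agent.S24 Fermat.Agent.ES.M Fermat.Agent.ES.H Fermat.Agent.S15 Fermat.Agent.S26
  Fermat.Agent.S27

variable (N : ℕ) [NeZero N]

/-- the residue field of every place of `F_N` is `ℚ̄`. -/
theorem s17h90_res_surj (Q : Place Kb (FF N)) :
    Function.Surjective (algebraMap Kb Q.ResidueField) := by
  haveI := finiteDimensional_adjoin_jF N
  haveI : Module.Finite Kb Q.ResidueField :=
    s26err_residue_finite (jF N) (transcendental_jF N) Q
  haveI : Algebra.IsIntegral Kb Q.ResidueField := Algebra.IsIntegral.of_finite Kb Q.ResidueField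
  exact (IsAlgClosed.algebraMap_bijective_of_isIntegral (k := Kb) (K := Q.ResidueField)).2

/-- weak Riemann bound for `F_N`: a divisor of degree `≥ genusFF` has a nonzero section. -/
theorem s17h90_riemann (D : Divisor Kb (FF N))
    (hD : 0 ≤ Divisor.degree D - (genusFF Kb (FF N) : ℤ)) :
    ∃ f : FF N, f ≠ 0 ∧ f ∈ riemannRochSpace D := by
  haveI := finiteDimensional_adjoin_jF N
  have h := s27rr_riemann_final (K := Kb) (F := FF N) (jF N) (transcendental_jF N) D
  have hpos : 0 < Module.finrank Kb ↥(riemannRochSpace D) := by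
    have : (0 : ℤ) < (Module.finrank Kb ↥(riemannRochSpace D) : ℤ) := by linarith
    exact_mod_cast this
  haveI : Nontrivial ↥(riemannRochSpace D) := Module.nontrivial_of_finrank_pos hpos
  obtain ⟨f, hf⟩ := exists_ne (0 : ↥(riemannRochSpace D))
  exact ⟨f.1, fun h0 => hf (Subtype.ext h0), f.2⟩

/-- `E − (deg E)·∞` has degree `0`. -/
theorem s17h90_degree_sub (E : Divisor Kb (FF N)) :
    Divisor.degree (E - Finsupp.single (cuspInf N) (Divisor.degree E)) = 0 := by
  rw [map_sub, Divisor.degree_single, cuspInf_deg]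
  simp

/-- the divisor `E − (deg E)·∞` of degree `0`. -/
def s17h90Div (E : Divisor Kb (FF N)) : Divisor.degZero (K := Kb) (F := FF N) :=
  ⟨E - Finsupp.single (cuspInf N) (Divisor.degree E), s17h90_degree_sub N E⟩

theorem s17h90Div_coe (E : Divisor Kb (FF N)) :
    ((s17h90Div N E : Divisor.degZero (K := Kb) (F := FF N)) : Divisor Kb (FF N)) =
      E - Finsupp.single (cuspInf N) (Divisor.degree E) := rfl

/-- equality of classes, unfolded. -/
theorem s17h90_mk_eq_iff (D D' : Divisor.degZero (K := Kb) (F := FF N)) :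
    Pic0.mk D = Pic0.mk D' ↔
      ∃ f : FF N, f ≠ 0 ∧ ∀ v : Place Kb (FF N),
        (D : Divisor Kb (FF N)) v + v.ord f = (D' : Divisor Kb (FF N)) v := by
  unfold Pic0.mk
  rw [QuotientAddGroup.eq, AddSubgroup.mem_addSubgroupOf, Divisor.mem_principal]
  constructor
  · rintro ⟨f, hf, h⟩
    refine ⟨f, hf, fun v => ?_⟩
    have := h v
    simp only [AddSubgroup.coe_add, NegMemClass.coe_neg, Finsupp.coe_add, Finsupp.coe_neg,
      Pi.add_apply, Pi.neg_apply] at this
    omega
  · rintro ⟨f, hf, h⟩
    refine ⟨f, hf, fun v => ?_⟩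
    have := h v
    simp only [AddSubgroup.coe_add, NegMemClass.coe_neg, Finsupp.coe_add, Finsupp.coe_neg,
      Pi.add_apply, Pi.neg_apply]
    omega

/-- **existence**: every class is the class of `E − (deg E)∞` with `E` reduced. -/
theorem s17h90_exists (x : JZero N) :
    ∃ E : Divisor Kb (FF N), S27Reduced (cuspInf N) E ∧ x = Pic0.mk (s17h90Div N E) := by
  classical
  haveI := hasPrincipalDivisors_FF N
  obtain ⟨D, rfl⟩ := Pic0.mk_surjective x
  obtain ⟨E, k, f, hf, hE, h⟩ := s27rd_exists (cuspInf N) (s17h90_res_surj N _)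
    (genusFF Kb (FF N) : ℤ) (s17h90_riemann N) (D : Divisor Kb (FF N))
  obtain ⟨Df, hDf, hDf0⟩ := HasPrincipalDivisors.exists_divisor (K := Kb) f hf
  -- `D + div f = E + k ∞` and degrees give `k = - deg E`
  have hEq : (D : Divisor Kb (FF N)) + Df = E + Finsupp.single (cuspInf N) k := by
    ext v
    have := h v
    simp only [Finsupp.coe_add, Pi.add_apply, hDf v]
    rw [this, s27rd_single_apply (cuspInf N) v k]
  have hdeg := congrArg Divisor.degree hEq
  rw [map_add, map_add, hDf0, Divisor.degree_single, cuspInf_deg,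
    (Divisor.mem_degZero.mp D.2)] at hdeg
  have hk : k = - Divisor.degree E := by
    simp only [Nat.cast_one, mul_one, add_zero] at hdeg
    omega
  refine ⟨E, hE, ?_⟩
  rw [s17h90_mk_eq_iff]
  refine ⟨f, hf, fun v => ?_⟩
  have := h v
  rw [s17h90Div_coe]
  simp only [Finsupp.coe_sub, Pi.sub_apply]
  rw [s27rd_single_apply (cuspInf N) v (Divisor.degree E), this, hk]
  ring

/-- **uniqueness** of the reduced divisor of a class. -/
theorem s17h90_unique {E E' : Divisor Kb (FF N)} (hE : S27Reduced (cuspInf N) E)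
    (hE' : S27Reduced (cuspInf N) E')
    (h : Pic0.mk (s17h90Div N E) = Pic0.mk (s17h90Div N E')) : E = E' := by
  classical
  rw [s17h90_mk_eq_iff] at h
  obtain ⟨f, hf, h⟩ := h
  refine s27rd_unique (s17h90_res_surj N _) hE hE' hf
    (k := Divisor.degree E - Divisor.degree E') (fun v => ?_)
  have := h v
  rw [s17h90Div_coe, s17h90Div_coe] at this
  simp only [Finsupp.coe_sub, Pi.sub_apply] at this
  rw [s27rd_single_apply (cuspInf N) v (Divisor.degree E),
    s27rd_single_apply (cuspInf N) v (Divisor.degree E')] at this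
  linarith

variable {N}

/-- the Galois action transports Riemann–Roch spaces. -/
theorem s17h90_smul_mem (σ : Kb ≃ₐ[ℚ] Kb) {D : Divisor Kb (FF N)} {f : FF N}
    (hf : f ∈ riemannRochSpace D) :
    galAct N σ • f ∈ riemannRochSpace (galAct N σ • D) := by
  rw [mem_riemannRochSpace_iff] at hf ⊢
  intro v
  rcases eq_or_ne f 0 with rfl | hf0
  · left; simp
  right
  have h1 := (hf ((galAct N σ)⁻¹ • v)).resolve_left hf0
  rw [SemilinearAut.divisor_smul_apply]
  have h2 := SemilinearAut.ord_smul (galAct N σ) ((galAct N σ)⁻¹ • v) f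
  rw [smul_inv_smul] at h2
  rw [h2]
  exact h1

/-- the Galois action preserves effectivity. -/
theorem s17h90_smul_nonneg (σ : Kb ≃ₐ[ℚ] Kb) {E : Divisor Kb (FF N)} (hE : 0 ≤ E) :
    0 ≤ galAct N σ • E := by
  rw [Finsupp.le_def] at hE ⊢
  intro v
  rw [SemilinearAut.divisor_smul_apply]
  exact hE _

/-- **the Galois action preserves reduced divisors.** -/
theorem s17h90_smul_reduced (σ : Kb ≃ₐ[ℚ] Kb) {E : Divisor Kb (FF N)}
    (hE : S27Reduced (cuspInf N) E) : S27Reduced (cuspInf N) (galAct N σ • E) := by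
  refine ⟨s17h90_smul_nonneg σ hE.1, fun f hf => ?_⟩
  -- transport back by `σ⁻¹`
  have h1 := s17h90_smul_mem (N := N) σ⁻¹ hf
  rw [smul_sub, SemilinearAut.smul_single, galAct_smul_cuspInf, ← galAct_inv,
    inv_smul_smul] at h1
  have h2 := hE.2 _ h1
  have h3 := congrArg (fun y => galAct N σ • y) h2
  simp only [smul_zero] at h3
  rwa [smul_inv_smul] at h3

/-- the Galois action on the classes `[E − (deg E)∞]`. -/
theorem s17h90_smul_mk (σ : Kb ≃ₐ[ℚ] Kb) (E : Divisor Kb (FF N)) :
    σ • (Pic0.mk (s17h90Div N E) : JZero N) = Pic0.mk (s17h90Div N (galAct N σ • E)) := by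
  rw [galois_smul_pic0_def, SemilinearAut.pic0_smul_mk]
  congr 1
  apply Subtype.ext
  rw [SemilinearAut.coe_degZeroSMulHom, s17h90Div_coe, s17h90Div_coe, smul_sub,
    SemilinearAut.smul_single, SemilinearAut.degree_smul]
  change _ - Finsupp.single (galAct N σ • cuspInf N) _ = _
  rw [galAct_smul_cuspInf]

variable (N)

/-- **THE reduced divisor of a class.** -/
def s17h90Red (x : JZero N) : Divisor Kb (FF N) := (s17h90_exists N x).choose

theorem s17h90Red_reduced (x : JZero N) : S27Reduced (cuspInf N) (s17h90Red N x) :=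
  (s17h90_exists N x).choose_spec.1

theorem s17h90Red_mk (x : JZero N) : Pic0.mk (s17h90Div N (s17h90Red N x)) = x :=
  (s17h90_exists N x).choose_spec.2.symm

/-- characterisation of the reduced divisor. -/
theorem s17h90Red_eq {x : JZero N} {E : Divisor Kb (FF N)} (hE : S27Reduced (cuspInf N) E)
    (hx : Pic0.mk (s17h90Div N E) = x) : s17h90Red N x = E :=
  s17h90_unique N (s17h90Red_reduced N x) hE ((s17h90Red_mk N x).trans hx.symm)

/-- `x ↦ E_x` is injective. -/
theorem s17h90Red_injective : Function.Injective (s17h90Red N) := by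
  intro x y h
  rw [← s17h90Red_mk N x, ← s17h90Red_mk N y, h]

/-- **equivariance** of the reduced divisor. -/
theorem s17h90Red_smul (σ : Kb ≃ₐ[ℚ] Kb) (x : JZero N) :
    s17h90Red N (σ • x) = galAct N σ • s17h90Red N x := by
  apply s17h90Red_eq N (s17h90_smul_reduced σ (s17h90Red_reduced N x))
  rw [← s17h90_smul_mk, s17h90Red_mk]

/-- **H90**: the reduced divisor of a `G_ℚ`-invariant class is `G_ℚ`-invariant. -/
theorem s17h90_main (x : JZero N) (hx : ∀ σ : Kb ≃ₐ[ℚ] Kb, σ • x = x) (σ : Kb ≃ₐ[ℚ] Kb) :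
    galAct N σ • s17h90Red N x = s17h90Red N x := by
  rw [← s17h90Red_smul, hx σ]

/-- H90 on the Mordell–Weil group (the fixed points). -/
theorem s17h90_main_fixed
    (x : ↥(FixedPoints.addSubgroup (Kb ≃ₐ[ℚ] Kb) (JZero N))) (σ : Kb ≃ₐ[ℚ] Kb) :
    galAct N σ • s17h90Red N (x : JZero N) = s17h90Red N (x : JZero N) :=
  s17h90_main N x (fun τ => x.2 τ) σ

/-- the reduced divisor of `0` is `0`. -/
theorem s17h90Red_zero : s17h90Red N (0 : JZero N) = 0 := by
  apply s17h90Red_eq N
  · refine ⟨le_refl _, fun f hf => ?_⟩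
    by_contra hf0
    haveI := hasPrincipalDivisors_FF N
    have := s27rd_degree_nonneg_of_mem hf0 hf
    rw [map_sub, map_zero, Divisor.degree_single, cuspInf_deg] at this
    simp at this
  · have : s17h90Div N 0 = 0 := by
      apply Subtype.ext
      rw [s17h90Div_coe]
      simp
    rw [this]
    rfl

/-- a reduced divisor has degree `≤ genusFF` (Riemann). -/
theorem s17h90_deg_le {E : Divisor Kb (FF N)} (hE : S27Reduced (cuspInf N) E) :
    Divisor.degree E ≤ (genusFF Kb (FF N) : ℤ) := by
  by_contra hlt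
  rw [not_le] at hlt
  obtain ⟨f, hf, hfm⟩ := s17h90_riemann N (E - Finsupp.single (cuspInf N) 1) (by
    rw [map_sub, Divisor.degree_single, cuspInf_deg]
    simp only [Nat.cast_one, mul_one]
    omega)
  exact hf (hE.2 f hfm)

/-- a reduced divisor has nonnegative degree. -/
theorem s17h90_deg_nonneg {E : Divisor Kb (FF N)} (hE : S27Reduced (cuspInf N) E) :
    0 ≤ Divisor.degree E :=
  Fermat.Agent.ES.R.degree_nonneg hE.1

end Fermat.Agent.S17

end
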