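/-
S17 sprint, leaf **H-CHOW** for `J₀(N)` (helper99): the RATIONAL CHOW FORM of a point of the
Mordell–Weil group.

`F_N = FF N`, `∞ = cuspInf N`, `t : FF N` a function with ONLY pole `∞` (`S17/RatFn.lean` gives a
`G_ℚ`-fixed one), `E_x = s17h90Red N x` the reduced divisor of the class `x` (`S17/H90.lean`).

* `s17chf_reg`           : `t` has a value at every place of the support of a reduced divisor;
* `s17chf_degree_eq`     : `deg E = ∑_P E(P)` on `F_N` (all places have degree `1`);
* `s17chf_sum_toNat`     : `∑_P (E P).toNat = deg E` for `E ≥ 0`;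
* `s17chf_form_natDegree_le` : the Chow form of a reduced divisor has degree `≤ genusFF`;
* `s17chf_rational`      : **H-CHOW**: for `x` fixed by `G_ℚ` and `t` fixed by `G_ℚ` the Chow form
                           `∏_P (X − t(P))^{E_x(P)}` is `q.map (algebraMap ℚ ℚ̄)` with `q : ℚ[X]`
                           monic of degree `deg E_x ≤ genusFF`;
* `s17chf_fibre_finite`  : the classes `x` with a given Chow form are finitely many
                           (`t` not constant);
* `s17chfPoly N t x`     : THE rational Chow polynomial of `x`, with `s17chfPoly_map`,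
                           `s17chfPoly_monic`, `s17chfPoly_natDegree_le`, `s17chfPoly_fibre_finite`.
-/
import Fermat.Agent.S17.Chow
import Fermat.Agent.S17.H90
import Fermat.Agent.S17.NorthChow

set_option autoImplicit false
set_option linter.unusedSectionVars false
set_option linter.style.haveILetI false

noncomputable section

namespace Fermat.Agent.S17

open ModularCurve AlgebraicCurve Polynomial
open Fermat.Agent.S24 Fermat.Agent.ES.M Fermat.Agent.ES.H Fermat.Agent.S15 Fermat.Agent.S26
  Fermat.Agent.S27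

variable (N : ℕ) [NeZero N]

/-- a function with only pole `∞` has a value at every place of the support of a reduced
divisor. -/
theorem s17chf_reg {t : FF N} (ht : ∀ v : Place Kb (FF N), v ≠ cuspInf N → 0 ≤ v.ord t)
    {E : Divisor Kb (FF N)} (hE : S27Reduced (cuspInf N) E) (P : Place Kb (FF N))
    (hP : E P ≠ 0) : ∃ c : Kb, S17chIsVal P t c := by
  have hne : P ≠ cuspInf N := by
    rintro rfl
    exact hP (s27rd_apply_P₀ hE)
  exact s17ch_exists_isVal P (s17h90_res_surj N P) (PlaceAux.mem_of_ord_nonneg P (ht P hne))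

/-- on `F_N` every place has degree `1`, so `deg E = ∑_P E(P)`. -/
theorem s17chf_degree_eq (E : Divisor Kb (FF N)) :
    Divisor.degree E = ∑ P ∈ E.support, E P := by
  induction E using Finsupp.induction with
  | zero => simp
  | single_add v n D hv hn ih =>
      classical
      rw [map_add, ih, Divisor.degree_single, s27rd_deg_one v (s17h90_res_surj N v)]
      have hsupp : (Finsupp.single v n + D).support = insert v D.support := by
        rw [Finsupp.support_add_eq, Finsupp.support_single_ne_zero _ hn]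
        · rfl
        · rw [Finsupp.support_single_ne_zero _ hn, Finset.disjoint_singleton_left]
          exact hv
      rw [hsupp, Finset.sum_insert hv]
      have h1 : (Finsupp.single v n + D) v = n := by
        rw [Finsupp.add_apply, Finsupp.single_eq_same, Finsupp.notMem_support_iff.mp hv, add_zero]
      have h2 : ∀ P ∈ D.support, (Finsupp.single v n + D) P = D P := by
        intro P hP
        have hPv : P ≠ v := fun h => hv (h ▸ hP)
        rw [Finsupp.add_apply, Finsupp.single_eq_of_ne hPv, zero_add]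
      rw [h1, Finset.sum_congr rfl h2]
      simp

theorem s17chf_sum_toNat {E : Divisor Kb (FF N)} (hE : 0 ≤ E) :
    ((∑ P ∈ E.support, (E P).toNat : ℕ) : ℤ) = Divisor.degree E := by
  rw [s17chf_degree_eq, Nat.cast_sum]
  refine Finset.sum_congr rfl fun P _ => ?_
  have h0 : 0 ≤ E P := by simpa using Finsupp.le_def.mp hE P
  exact Int.toNat_of_nonneg h0

/-- the Chow form of a reduced divisor has degree `≤ genusFF`. -/
theorem s17chf_form_natDegree_le (t : FF N) {E : Divisor Kb (FF N)}
    (hE : S27Reduced (cuspInf N) E) :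
    (s17chForm t E).natDegree ≤ genusFF Kb (FF N) := by
  have h1 := s17chf_sum_toNat N hE.1
  have h2 := s17h90_deg_le N hE
  rw [s17chForm_natDegree]
  have : ((∑ P ∈ E.support, (E P).toNat : ℕ) : ℤ) ≤ (genusFF Kb (FF N) : ℤ) := h1 ▸ h2
  exact_mod_cast this

/-- **H-CHOW**: the Chow form of the reduced divisor of a `G_ℚ`-invariant class, with respect to
a `G_ℚ`-fixed function `t` with only pole `∞`, is RATIONAL. -/
theorem s17chf_rational (t : FF N) (htΓ : ∀ σ : Kb ≃ₐ[ℚ] Kb, galAct N σ • t = t)
    (ht : ∀ v : Place Kb (FF N), v ≠ cuspInf N → 0 ≤ v.ord t)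
    (x : JZero N) (hx : ∀ σ : Kb ≃ₐ[ℚ] Kb, σ • x = x) :
    ∃ q : ℚ[X], q.map (algebraMap ℚ Kb) = s17chForm t (s17h90Red N x) ∧ q.Monic ∧
      q.natDegree ≤ genusFF Kb (FF N) := by
  haveI : IsAlgClosure ℚ Kb := ⟨inferInstance, AlgebraicClosure.isAlgebraic ℚ⟩
  haveI : IsGalois ℚ Kb := inferInstance
  obtain ⟨q, hq, hm, -⟩ := s17ch_rational (k := ℚ) (K := Kb) (F := FF N) (galAct N)
    (fun σ => rfl) t htΓ (s17h90Red N x) (s17h90_main N x hx)
    (s17chf_reg N ht (s17h90Red_reduced N x))
  refine ⟨q, hq, hm, ?_⟩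
  have h := s17chf_form_natDegree_le N t (s17h90Red_reduced N x)
  rw [← hq, natDegree_map] at h
  exact h

/-- **finite fibres**: only finitely many classes have a given Chow form. -/
theorem s17chf_fibre_finite (t : FF N) (hnc : ∀ c : Kb, t ≠ algebraMap Kb (FF N) c)
    (ht : ∀ v : Place Kb (FF N), v ≠ cuspInf N → 0 ≤ v.ord t) (p : Kb[X]) :
    {x : JZero N | s17chForm t (s17h90Red N x) = p}.Finite := by
  classical
  haveI := hasPrincipalDivisors_FF N
  -- the finite set of admissible places
  have hS : (⋃ c ∈ p.roots.toFinset,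
      {P : Place Kb (FF N) | 0 < P.ord (t - algebraMap Kb (FF N) c)}).Finite :=
    Set.Finite.biUnion p.roots.toFinset.finite_toSet fun c _ => s17nc_fibre_finite t hnc c
  set d : ℕ := p.natDegree with hd
  set M : Divisor Kb (FF N) := ∑ P ∈ hS.toFinset, Finsupp.single P (d : ℤ) with hM
  have hMapp : ∀ P : Place Kb (FF N), M P = if P ∈ hS.toFinset then (d : ℤ) else 0 := by
    intro P
    rw [hM, Finsupp.finsetSum_apply]
    simp only [Finsupp.single_apply]
    rw [Finset.sum_ite_eq' hS.toFinset P]
  have hfin : (Set.Icc (0 : Divisor Kb (FF N)) M).Finite := Set.finite_Icc 0 M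
  refine Set.Finite.of_finite_image (f := s17h90Red N) (hfin.subset ?_)
    (fun x _ y _ h => s17h90Red_injective N h)
  rintro E ⟨x, hx, rfl⟩
  rw [Set.mem_ofPred_eq] at hx
  have hred := s17h90Red_reduced N x
  refine ⟨hred.1, ?_⟩
  rw [Finsupp.le_def]
  intro P
  have h0 : 0 ≤ s17h90Red N x P := by simpa using Finsupp.le_def.mp hred.1 P
  rw [hMapp P]
  rcases eq_or_lt_of_le h0 with h00 | hpos
  · rw [← h00]
    split_ifs
    · exact Int.natCast_nonneg d
    · exact le_refl _
  · -- `P` is an admissible place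
    have hP0 : s17h90Red N x P ≠ 0 := ne_of_gt hpos
    have hval := s17chVal_spec (s17chf_reg N ht hred P hP0)
    have hroot : (s17chForm t (s17h90Red N x)).IsRoot (s17chVal P t) :=
      (s17chForm_isRoot_iff t _ _).mpr ⟨P, hpos, rfl⟩
    have hne : t - algebraMap Kb (FF N) (s17chVal P t) ≠ 0 := sub_ne_zero.mpr (hnc _)
    have hord := (s17ch_isVal_iff_ord_pos P hne).mp hval
    have hp0 : p ≠ 0 := hx ▸ s17chForm_ne_zero t _
    have hPS : P ∈ hS.toFinset := by
      rw [Set.Finite.mem_toFinset, Set.mem_iUnion₂]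
      refine ⟨s17chVal P t, ?_, hord⟩
      rw [Multiset.mem_toFinset, mem_roots hp0, ← hx]
      exact hroot
    rw [if_pos hPS]
    -- multiplicity bound
    have h1 : (s17h90Red N x P).toNat ≤ ∑ Q ∈ (s17h90Red N x).support, (s17h90Red N x Q).toNat :=
      Finset.single_le_sum (f := fun Q => (s17h90Red N x Q).toNat) (fun _ _ => Nat.zero_le _)
        (Finsupp.mem_support_iff.mpr hP0)
    rw [← s17chForm_natDegree t, hx] at h1
    have h2 : ((s17h90Red N x P).toNat : ℤ) = s17h90Red N x P := Int.toNat_of_nonneg h0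
    rw [← h2]
    exact_mod_cast h1

open Classical in
/-- THE rational Chow polynomial of a class (junk value `1` if the Chow form is not rational). -/
def s17chfPoly (t : FF N) (x : JZero N) : ℚ[X] :=
  if h : ∃ q : ℚ[X], q.map (algebraMap ℚ Kb) = s17chForm t (s17h90Red N x) then h.choose else 1

theorem s17chfPoly_map (t : FF N) (htΓ : ∀ σ : Kb ≃ₐ[ℚ] Kb, galAct N σ • t = t)
    (ht : ∀ v : Place Kb (FF N), v ≠ cuspInf N → 0 ≤ v.ord t)
    (x : JZero N) (hx : ∀ σ : Kb ≃ₐ[ℚ] Kb, σ • x = x) :
    (s17chfPoly N t x).map (algebraMap ℚ Kb) = s17chForm t (s17h90Red N x) := by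
  obtain ⟨q, hq, -⟩ := s17chf_rational N t htΓ ht x hx
  have h : ∃ q : ℚ[X], q.map (algebraMap ℚ Kb) = s17chForm t (s17h90Red N x) := ⟨q, hq⟩
  unfold s17chfPoly
  rw [dif_pos h]
  exact h.choose_spec

theorem s17chfPoly_monic (t : FF N) (x : JZero N) : (s17chfPoly N t x).Monic := by
  unfold s17chfPoly
  split_ifs with h
  · have h1 := s17chForm_monic t (s17h90Red N x)
    rw [← h.choose_spec] at h1
    exact (Polynomial.monic_map_iff (f := algebraMap ℚ Kb)).mp h1
  · exact monic_one

theorem s17chfPoly_natDegree_le (t : FF N) (x : JZero N) :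
    (s17chfPoly N t x).natDegree ≤ genusFF Kb (FF N) := by
  unfold s17chfPoly
  split_ifs with h
  · have h1 := s17chf_form_natDegree_le N t (s17h90Red_reduced N x)
    rw [← h.choose_spec, natDegree_map] at h1
    exact h1
  · simp

/-- finitely many `G_ℚ`-invariant classes have a given rational Chow polynomial. -/
theorem s17chfPoly_fibre_finite (t : FF N) (hnc : ∀ c : Kb, t ≠ algebraMap Kb (FF N) c)
    (htΓ : ∀ σ : Kb ≃ₐ[ℚ] Kb, galAct N σ • t = t)
    (ht : ∀ v : Place Kb (FF N), v ≠ cuspInf N → 0 ≤ v.ord t) (q : ℚ[X]) :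
    {x : JZero N | (∀ σ : Kb ≃ₐ[ℚ] Kb, σ • x = x) ∧ s17chfPoly N t x = q}.Finite := by
  refine (s17chf_fibre_finite N t hnc ht (q.map (algebraMap ℚ Kb))).subset ?_
  rintro x ⟨hx, hq⟩
  rw [Set.mem_ofPred_eq, ← hq]
  exact (s17chfPoly_map N t htΓ ht x hx).symm

end Fermat.Agent.S17

end
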