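/-
S17 sprint, leaf **N5-CORE** (helper99): rationality of Chow forms over a number field and the
SEGRE–NORTHCOTT finiteness, for helper31's route to (N) ("Northcott without (WD)").

Part A (abstract, Mathlib only): `K₀` a field with admissible absolute values and the Northcott
property for `mulHeight₁` (e.g. a number field).
* `s17cnCoeff g p`        : the coefficient vector `(p.coeff 0, …, p.coeff g)`;
* `s17cn_coeff_ne_zero`   : it is not `0` for `p` monic of degree `≤ g`;
* `s17cn_northcott_poly_le` : finitely many monic `p` of degree `≤ g` with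
                            `mulHeight (s17cnCoeff g p) ≤ B`;
* `s17cn_segre`           : finitely many PAIRS `(p, q)` of monic polynomials of degree `≤ g` with
                            `mulHeight (fun (j, k) => p.coeff j * q.coeff k) ≤ B` (Segre tuple);
* `s17cn_finite_of_single`, `s17cn_finite_of_segre` : a family `x ↦ c x` (resp. `x ↦ (c₁ x, c₂ x)`)
                            of such polynomials with FINITE FIBRES of `c` (resp. `c₁`) has only
                            finitely many members of bounded (Segre) height.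

Part B (`J₀(N)`): `E` an intermediate field of `ℚ̄ / ℚ`.
* `s17cn_rational_over`   : if `x : JZero N` is fixed by `Gal(ℚ̄/E)` and `t` is `G_ℚ`-fixed with only
                            pole `∞`, the Chow form of the reduced divisor `E_x` lies in `E[X]`;
* `s17cnPoly N E t x`     : THE `E`-rational Chow polynomial, `s17cnPoly_map`, `_monic`,
                            `_natDegree_le`, `s17cnPoly_fibre_finite`;
* `s17cn_northcott_pair`  : **(N5)** for a number field `E`, `b : JZero N` and every `B`, the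
                            classes `x` fixed by `Gal(ℚ̄/E)` with `x ± b` fixed by `Gal(ℚ̄/E)` and
                            `mulHeight (Chow(E_{x+b}) ⊗ Chow(E_{x−b})) ≤ B` are finitely many;
* `s17cn_northcott_single`: the same for `mulHeight (Chow(E_x)) ≤ B`.
-/
import Fermat.Agent.S17.ChowFF
import Mathlib.NumberTheory.Height.NumberField
import Mathlib.NumberTheory.Height.Northcott

set_option autoImplicit false
set_option linter.unusedSectionVars false
set_option linter.style.haveILetI false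

noncomputable section

namespace Fermat.Agent.S17

open ModularCurve AlgebraicCurve Polynomial Height
open Fermat.Agent.S24 Fermat.Agent.ES.M Fermat.Agent.ES.H Fermat.Agent.S15 Fermat.Agent.S26
  Fermat.Agent.S27

/-! ### Part A: Northcott for monic polynomials of bounded degree, Segre form -/

section Abstract

variable {K₀ : Type*} [Field K₀]

/-- the coefficient vector `(p.coeff 0, …, p.coeff g)`. -/
def s17cnCoeff (g : ℕ) (p : K₀[X]) : Fin (g + 1) → K₀ := fun j => p.coeff (j : ℕ)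

theorem s17cn_coeff_natDegree {g : ℕ} {p : K₀[X]} (hp : p.Monic) (hd : p.natDegree ≤ g) :
    s17cnCoeff g p ⟨p.natDegree, Nat.lt_succ_of_le hd⟩ = 1 :=
  hp.coeff_natDegree

theorem s17cn_coeff_ne_zero {g : ℕ} {p : K₀[X]} (hp : p.Monic) (hd : p.natDegree ≤ g) :
    s17cnCoeff g p ≠ 0 := by
  intro h
  have h1 := s17cn_coeff_natDegree hp hd
  rw [h] at h1
  exact zero_ne_one h1

/-- a polynomial of degree `≤ g` is determined by its coefficient vector. -/
theorem s17cn_coeff_injOn (g : ℕ) :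
    Set.InjOn (s17cnCoeff (K₀ := K₀) g) {p : K₀[X] | p.natDegree ≤ g} := by
  intro p hp q hq h
  ext n
  by_cases hn : n ≤ g
  · exact congrFun h ⟨n, Nat.lt_succ_of_le hn⟩
  · have hp' : p.natDegree < n := lt_of_le_of_lt hp (not_le.mp hn)
    have hq' : q.natDegree < n := lt_of_le_of_lt hq (not_le.mp hn)
    rw [coeff_eq_zero_of_natDegree_lt hp', coeff_eq_zero_of_natDegree_lt hq']

variable [AdmissibleAbsValues K₀] [Northcott (mulHeight₁ (K := K₀))]

/-- **Northcott for monic polynomials of degree `≤ g`.** -/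
theorem s17cn_northcott_poly_le (g : ℕ) (B : ℝ) :
    {p : K₀[X] | p.Monic ∧ p.natDegree ≤ g ∧ mulHeight (s17cnCoeff g p) ≤ B}.Finite := by
  have hU : (⋃ j₀ : Fin (g + 1), {y : Fin (g + 1) → K₀ | y j₀ = 1 ∧ mulHeight y ≤ B}).Finite :=
    Set.finite_iUnion fun j₀ => s17nc_northcott_affine (K := K₀) j₀ B
  refine Set.Finite.of_finite_image (f := s17cnCoeff g) (hU.subset ?_) ?_
  · rintro y ⟨p, ⟨hm, hd, hB⟩, rfl⟩
    rw [Set.mem_iUnion]
    exact ⟨⟨p.natDegree, Nat.lt_succ_of_le hd⟩, s17cn_coeff_natDegree hm hd, hB⟩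
  · intro p hp q hq h
    exact s17cn_coeff_injOn g hp.2.1 hq.2.1 h

/-- the Segre tuple of two polynomials. -/
def s17cnSegre (g : ℕ) (p q : K₀[X]) : Fin (g + 1) × Fin (g + 1) → K₀ :=
  fun a => p.coeff (a.1 : ℕ) * q.coeff (a.2 : ℕ)

theorem s17cn_segre_height {g : ℕ} {p q : K₀[X]} (hp : p.Monic) (hdp : p.natDegree ≤ g)
    (hq : q.Monic) (hdq : q.natDegree ≤ g) :
    mulHeight (s17cnSegre g p q) = mulHeight (s17cnCoeff g p) * mulHeight (s17cnCoeff g q) :=
  mulHeight_fun_mul_eq (s17cn_coeff_ne_zero hp hdp) (s17cn_coeff_ne_zero hq hdq)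

theorem s17cn_segre_left_le {g : ℕ} {p q : K₀[X]} (hp : p.Monic) (hdp : p.natDegree ≤ g)
    (hq : q.Monic) (hdq : q.natDegree ≤ g) :
    mulHeight (s17cnCoeff g p) ≤ mulHeight (s17cnSegre g p q) := by
  rw [s17cn_segre_height hp hdp hq hdq]
  exact le_mul_of_one_le_right (mulHeight_pos _).le (one_le_mulHeight _)

theorem s17cn_segre_right_le {g : ℕ} {p q : K₀[X]} (hp : p.Monic) (hdp : p.natDegree ≤ g)
    (hq : q.Monic) (hdq : q.natDegree ≤ g) :
    mulHeight (s17cnCoeff g q) ≤ mulHeight (s17cnSegre g p q) := by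
  rw [s17cn_segre_height hp hdp hq hdq]
  exact le_mul_of_one_le_left (mulHeight_pos _).le (one_le_mulHeight _)

/-- **Segre–Northcott**: finitely many pairs of monic polynomials of degree `≤ g` whose Segre
tuple has bounded height. -/
theorem s17cn_segre (g : ℕ) (B : ℝ) :
    {pq : K₀[X] × K₀[X] | pq.1.Monic ∧ pq.1.natDegree ≤ g ∧ pq.2.Monic ∧ pq.2.natDegree ≤ g ∧
      mulHeight (s17cnSegre g pq.1 pq.2) ≤ B}.Finite := by
  have h1 := s17cn_northcott_poly_le (K₀ := K₀) g B
  refine (h1.prod h1).subset ?_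
  rintro ⟨p, q⟩ ⟨hp, hdp, hq, hdq, hB⟩
  exact ⟨⟨hp, hdp, (s17cn_segre_left_le hp hdp hq hdq).trans hB⟩,
    ⟨hq, hdq, (s17cn_segre_right_le hp hdp hq hdq).trans hB⟩⟩

/-- a family of monic polynomials of degree `≤ g` with finite fibres has finitely many members
of bounded height. -/
theorem s17cn_finite_of_single {X : Type*} (g : ℕ) (c : X → K₀[X]) (S : Set X)
    (h1 : ∀ x ∈ S, (c x).Monic ∧ (c x).natDegree ≤ g)
    (hfib : ∀ p : K₀[X], {x : X | x ∈ S ∧ c x = p}.Finite) (B : ℝ) :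
    {x : X | x ∈ S ∧ mulHeight (s17cnCoeff g (c x)) ≤ B}.Finite := by
  have hP := s17cn_northcott_poly_le (K₀ := K₀) g B
  have hU : (⋃ p ∈ hP.toFinset, {x : X | x ∈ S ∧ c x = p}).Finite :=
    Set.Finite.biUnion hP.toFinset.finite_toSet fun p _ => hfib p
  refine hU.subset ?_
  rintro x ⟨hxS, hxB⟩
  rw [Set.mem_iUnion₂]
  refine ⟨c x, ?_, hxS, rfl⟩
  rw [Set.Finite.mem_toFinset]
  exact ⟨(h1 x hxS).1, (h1 x hxS).2, hxB⟩

/-- a family of PAIRS of monic polynomials of degree `≤ g`, with finite fibres of the first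
component, has finitely many members of bounded Segre height. -/
theorem s17cn_finite_of_segre {X : Type*} (g : ℕ) (c₁ c₂ : X → K₀[X]) (S : Set X)
    (h1 : ∀ x ∈ S, (c₁ x).Monic ∧ (c₁ x).natDegree ≤ g)
    (h2 : ∀ x ∈ S, (c₂ x).Monic ∧ (c₂ x).natDegree ≤ g)
    (hfib : ∀ p : K₀[X], {x : X | x ∈ S ∧ c₁ x = p}.Finite) (B : ℝ) :
    {x : X | x ∈ S ∧ mulHeight (s17cnSegre g (c₁ x) (c₂ x)) ≤ B}.Finite := by
  refine (s17cn_finite_of_single g c₁ S h1 hfib B).subset ?_
  rintro x ⟨hxS, hxB⟩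
  exact ⟨hxS, (s17cn_segre_left_le (h1 x hxS).1 (h1 x hxS).2 (h2 x hxS).1 (h2 x hxS).2).trans hxB⟩

end Abstract

/-! ### Part B: Chow forms over an intermediate field of `ℚ̄ / ℚ` -/

section JZero

variable (N : ℕ) [NeZero N]

/-- `ℚ̄` is Galois over every intermediate field. -/
theorem s17cn_isGalois (E : IntermediateField ℚ Kb) : IsGalois ↥E Kb := by
  haveI : IsAlgClosure ℚ Kb := ⟨inferInstance, AlgebraicClosure.isAlgebraic ℚ⟩
  haveI : IsGalois ℚ Kb := inferInstance
  infer_instance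

/-- an `E`-automorphism of `ℚ̄`, as an element of `G_ℚ`, lies in the fixing subgroup of `E`. -/
theorem s17cn_restrict_mem (E : IntermediateField ℚ Kb) (σ : Kb ≃ₐ[↥E] Kb) :
    σ.restrictScalars ℚ ∈ E.fixingSubgroup := by
  rw [IntermediateField.mem_fixingSubgroup_iff]
  intro e he
  exact σ.commutes ⟨e, he⟩

/-- **rationality over `E`**: the Chow form of the reduced divisor of a class fixed by
`Gal(ℚ̄/E)` lies in `E[X]`. -/
theorem s17cn_rational_over (E : IntermediateField ℚ Kb) (t : FF N)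
    (htΓ : ∀ σ : Kb ≃ₐ[ℚ] Kb, galAct N σ • t = t)
    (ht : ∀ v : Place Kb (FF N), v ≠ cuspInf N → 0 ≤ v.ord t)
    (x : JZero N) (hx : ∀ σ ∈ E.fixingSubgroup, σ • x = x) :
    ∃ q : (↥E)[X], q.map (algebraMap ↥E Kb) = s17chForm t (s17h90Red N x) ∧ q.Monic ∧
      q.natDegree ≤ genusFF Kb (FF N) := by
  haveI := s17cn_isGalois E
  obtain ⟨q, hq, hm, -⟩ := s17ch_rational (k := ↥E) (K := Kb) (F := FF N)
    (fun σ => galAct N (σ.restrictScalars ℚ)) (fun σ => rfl) t
    (fun σ => htΓ _) (s17h90Red N x)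
    (fun σ => by
      rw [← s17h90Red_smul, hx _ (s17cn_restrict_mem E σ)])
    (s17chf_reg N ht (s17h90Red_reduced N x))
  refine ⟨q, hq, hm, ?_⟩
  have h := s17chf_form_natDegree_le N t (s17h90Red_reduced N x)
  rw [← hq, natDegree_map] at h
  exact h

open Classical in
/-- THE `E`-rational Chow polynomial of a class (junk value `1`). -/
def s17cnPoly (E : IntermediateField ℚ Kb) (t : FF N) (x : JZero N) : (↥E)[X] :=
  if h : ∃ q : (↥E)[X], q.map (algebraMap ↥E Kb) = s17chForm t (s17h90Red N x) then h.choose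
  else 1

theorem s17cnPoly_map (E : IntermediateField ℚ Kb) (t : FF N)
    (htΓ : ∀ σ : Kb ≃ₐ[ℚ] Kb, galAct N σ • t = t)
    (ht : ∀ v : Place Kb (FF N), v ≠ cuspInf N → 0 ≤ v.ord t)
    (x : JZero N) (hx : ∀ σ ∈ E.fixingSubgroup, σ • x = x) :
    (s17cnPoly N E t x).map (algebraMap ↥E Kb) = s17chForm t (s17h90Red N x) := by
  obtain ⟨q, hq, -⟩ := s17cn_rational_over N E t htΓ ht x hx
  have h : ∃ q : (↥E)[X], q.map (algebraMap ↥E Kb) = s17chForm t (s17h90Red N x) := ⟨q, hq⟩
  unfold s17cnPoly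
  rw [dif_pos h]
  exact h.choose_spec

theorem s17cnPoly_monic (E : IntermediateField ℚ Kb) (t : FF N) (x : JZero N) :
    (s17cnPoly N E t x).Monic := by
  unfold s17cnPoly
  split_ifs with h
  · have h1 := s17chForm_monic t (s17h90Red N x)
    rw [← h.choose_spec] at h1
    exact (Polynomial.monic_map_iff (f := algebraMap ↥E Kb)).mp h1
  · exact monic_one

theorem s17cnPoly_natDegree_le (E : IntermediateField ℚ Kb) (t : FF N) (x : JZero N) :
    (s17cnPoly N E t x).natDegree ≤ genusFF Kb (FF N) := by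
  unfold s17cnPoly
  split_ifs with h
  · have h1 := s17chf_form_natDegree_le N t (s17h90Red_reduced N x)
    rw [← h.choose_spec, natDegree_map] at h1
    exact h1
  · simp

/-- finitely many classes fixed by `Gal(ℚ̄/E)` have a given `E`-rational Chow polynomial. -/
theorem s17cnPoly_fibre_finite (E : IntermediateField ℚ Kb) (t : FF N)
    (hnc : ∀ c : Kb, t ≠ algebraMap Kb (FF N) c)
    (htΓ : ∀ σ : Kb ≃ₐ[ℚ] Kb, galAct N σ • t = t)
    (ht : ∀ v : Place Kb (FF N), v ≠ cuspInf N → 0 ≤ v.ord t) (q : (↥E)[X]) :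
    {x : JZero N | (∀ σ ∈ E.fixingSubgroup, σ • x = x) ∧ s17cnPoly N E t x = q}.Finite := by
  refine (s17chf_fibre_finite N t hnc ht (q.map (algebraMap ↥E Kb))).subset ?_
  rintro x ⟨hx, hq⟩
  rw [Set.mem_ofPred_eq, ← hq]
  exact (s17cnPoly_map N E t htΓ ht x hx).symm

/-- **(N5), single form**: Northcott for the Chow height over a number field `E`. -/
theorem s17cn_northcott_single (E : IntermediateField ℚ Kb) [NumberField ↥E] (t : FF N)
    (hnc : ∀ c : Kb, t ≠ algebraMap Kb (FF N) c)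
    (htΓ : ∀ σ : Kb ≃ₐ[ℚ] Kb, galAct N σ • t = t)
    (ht : ∀ v : Place Kb (FF N), v ≠ cuspInf N → 0 ≤ v.ord t) (B : ℝ) :
    {x : JZero N | (∀ σ ∈ E.fixingSubgroup, σ • x = x) ∧
      mulHeight (s17cnCoeff (genusFF Kb (FF N)) (s17cnPoly N E t x)) ≤ B}.Finite :=
  s17cn_finite_of_single (K₀ := ↥E) (genusFF Kb (FF N)) (s17cnPoly N E t)
    {x : JZero N | ∀ σ ∈ E.fixingSubgroup, σ • x = x}
    (fun x _ => ⟨s17cnPoly_monic N E t x, s17cnPoly_natDegree_le N E t x⟩)
    (fun q => s17cnPoly_fibre_finite N E t hnc htΓ ht q) B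

/-- **(N5), Segre form** (helper31's route): for `b` fixed by `Gal(ℚ̄/E)` only finitely many
classes `x` fixed by `Gal(ℚ̄/E)` have `mulHeight (Chow(E_{x+b}) ⊗ Chow(E_{x−b})) ≤ B`. -/
theorem s17cn_northcott_pair (E : IntermediateField ℚ Kb) [NumberField ↥E] (t : FF N)
    (hnc : ∀ c : Kb, t ≠ algebraMap Kb (FF N) c)
    (htΓ : ∀ σ : Kb ≃ₐ[ℚ] Kb, galAct N σ • t = t)
    (ht : ∀ v : Place Kb (FF N), v ≠ cuspInf N → 0 ≤ v.ord t)
    (b : JZero N) (hb : ∀ σ ∈ E.fixingSubgroup, σ • b = b) (B : ℝ) :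
    {x : JZero N | (∀ σ ∈ E.fixingSubgroup, σ • x = x) ∧
      mulHeight (s17cnSegre (genusFF Kb (FF N)) (s17cnPoly N E t (x + b))
        (s17cnPoly N E t (x - b))) ≤ B}.Finite := by
  refine s17cn_finite_of_segre (K₀ := ↥E) (genusFF Kb (FF N))
    (fun x => s17cnPoly N E t (x + b)) (fun x => s17cnPoly N E t (x - b))
    {x : JZero N | ∀ σ ∈ E.fixingSubgroup, σ • x = x}
    (fun x _ => ⟨s17cnPoly_monic N E t _, s17cnPoly_natDegree_le N E t _⟩)
    (fun x _ => ⟨s17cnPoly_monic N E t _, s17cnPoly_natDegree_le N E t _⟩)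
    (fun q => ?_) B
  -- the fibre over `q` is the translate by `−b` of a fibre of `s17cnPoly`
  have hf := s17cnPoly_fibre_finite N E t hnc htΓ ht q
  refine Set.Finite.of_finite_image (f := fun x : JZero N => x + b) (hf.subset ?_)
    (fun x _ y _ h => add_right_cancel h)
  rintro y ⟨x, ⟨hx, hq⟩, rfl⟩
  refine ⟨fun σ hσ => ?_, hq⟩
  rw [smul_add, hx σ hσ, hb σ hσ]

end JZero

end Fermat.Agent.S17

end
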