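/-
S17 sprint, layer H — **PlN-FORMAL** (helper99): the place form `S17hxPlN` of NORTHCOTT
(`S17/HTop.lean`) from a FINITE POOL of translates, in ABSOLUTE-height form.

`E` a number field inside `ℚ̄`, `t` a `G_ℚ`-fixed non-constant function with only pole `∞`,
`b_1, …, b_n : J₀(N)(ℚ̄)` classes fixed by `Gal(ℚ̄/E)`, `E_c = s17h90Red N c` the reduced divisor
of the class `c`, `Chow(c) := ` the coefficient vector of `∏_P (X − t(P))^{E_c(P)}` (`s17ppChow`).

* `s17pp_northcott_translate` : finitely many `Gal(ℚ̄/E)`-fixed `x` with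
                                `mulHeight_E (Chow(x + b)) ≤ B`;
* `s17pp_abs_eq`              : for `c` fixed by `Gal(ℚ̄/E)` the ABSOLUTE height (`s17haAbsQ`,
                                `S17/HtAbsQb.lean`) of `Chow(c)` is `logHeight_E / [E : ℚ]`;
* `s17pp_northcott_abs`       : finitely many RATIONAL classes `x` with
                                `s17haAbsQ (Chow(x + b_k)) ≤ B` for some `k`;
* `s17pp_plN`                 : **PlN**: if every place `p` with rational class has, for some `k`,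
                                `s17haAbsQ (Chow(cl p + b_k)) ≤ a * H p + C`, then `S17hxPlN cl H`.
-/
import Fermat.Agent.S17.ChowNorth
import Fermat.Agent.S17.HtAbsQb
import Fermat.Agent.S17.HTop

set_option autoImplicit false
set_option linter.unusedSectionVars false
set_option linter.style.haveILetI false

noncomputable section

namespace Fermat.Agent.S17

open ModularCurve AlgebraicCurve Polynomial Height
open Fermat.Agent.S24 Fermat.Agent.ES.M Fermat.Agent.ES.H Fermat.Agent.S15 Fermat.Agent.S26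
  Fermat.Agent.S27

variable (N : ℕ) [NeZero N]

/-- Northcott for the Chow height of the translate `x + b`. -/
theorem s17pp_northcott_translate (E : IntermediateField ℚ Kb) [NumberField ↥E] (t : FF N)
    (hnc : ∀ c : Kb, t ≠ algebraMap Kb (FF N) c)
    (htΓ : ∀ σ : Kb ≃ₐ[ℚ] Kb, galAct N σ • t = t)
    (ht : ∀ v : Place Kb (FF N), v ≠ cuspInf N → 0 ≤ v.ord t)
    (b : JZero N) (hb : ∀ σ ∈ E.fixingSubgroup, σ • b = b) (B : ℝ) :
    {x : JZero N | (∀ σ ∈ E.fixingSubgroup, σ • x = x) ∧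
      mulHeight (s17cnCoeff (genusFF Kb (FF N)) (s17cnPoly N E t (x + b))) ≤ B}.Finite := by
  have h := s17cn_northcott_single N E t hnc htΓ ht B
  refine Set.Finite.of_finite_image (f := fun x : JZero N => x + b) (h.subset ?_)
    (fun x _ y _ h => add_right_cancel h)
  rintro y ⟨x, ⟨hx, hB⟩, rfl⟩
  exact ⟨fun σ hσ => by rw [smul_add, hx σ hσ, hb σ hσ], hB⟩

/-- the coefficient vector, over `ℚ̄`, of the Chow form of the reduced divisor of `x`. -/
def s17ppChow (t : FF N) (x : JZero N) : Fin (genusFF Kb (FF N) + 1) → Kb :=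
  fun j => (s17chForm t (s17h90Red N x)).coeff (j : ℕ)

/-- the Chow vector is never `0` (the Chow form is monic of degree `≤ g`). -/
theorem s17ppChow_ne_zero (t : FF N) (x : JZero N) : s17ppChow N t x ≠ 0 :=
  s17cn_coeff_ne_zero (s17chForm_monic t (s17h90Red N x))
    (s17chf_form_natDegree_le N t (s17h90Red_reduced N x))

/-- for a class fixed by `Gal(ℚ̄/E)` the absolute height of the Chow vector is the normalised
height over `E` of the `E`-rational Chow polynomial. -/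
theorem s17pp_abs_eq (E : IntermediateField ℚ Kb) [NumberField ↥E] (t : FF N)
    (htΓ : ∀ σ : Kb ≃ₐ[ℚ] Kb, galAct N σ • t = t)
    (ht : ∀ v : Place Kb (FF N), v ≠ cuspInf N → 0 ≤ v.ord t)
    (x : JZero N) (hx : ∀ σ ∈ E.fixingSubgroup, σ • x = x) :
    s17haAbsQ (s17ppChow N t x) =
      logHeight (s17cnCoeff (genusFF Kb (FF N)) (s17cnPoly N E t x)) /
        (Module.finrank ℚ ↥E : ℝ) := by
  refine s17haAbsQ_eq ↥E (algebraMap ↥E Kb) _ _ (fun j => ?_)
  show algebraMap ↥E Kb ((s17cnPoly N E t x).coeff (j : ℕ)) =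
    (s17chForm t (s17h90Red N x)).coeff (j : ℕ)
  rw [← s17cnPoly_map N E t htΓ ht x hx, coeff_map]

/-- **Northcott in absolute-height form**: finitely many rational classes `x` have, for some `k`,
`s17haAbsQ (Chow(x + b_k)) ≤ B`. -/
theorem s17pp_northcott_abs (E : IntermediateField ℚ Kb) [NumberField ↥E] (t : FF N)
    (hnc : ∀ c : Kb, t ≠ algebraMap Kb (FF N) c)
    (htΓ : ∀ σ : Kb ≃ₐ[ℚ] Kb, galAct N σ • t = t)
    (ht : ∀ v : Place Kb (FF N), v ≠ cuspInf N → 0 ≤ v.ord t)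
    {n : ℕ} (b : Fin n → JZero N) (hb : ∀ k, ∀ σ ∈ E.fixingSubgroup, σ • b k = b k) (B : ℝ) :
    {x : JZero N | (∀ σ : Kb ≃ₐ[ℚ] Kb, σ • x = x) ∧
      ∃ k, s17haAbsQ (s17ppChow N t (x + b k)) ≤ B}.Finite := by
  set B' : ℝ := Real.exp ((Module.finrank ℚ ↥E : ℝ) * B) with hB'
  have hfin : (⋃ k : Fin n, {x : JZero N | (∀ σ ∈ E.fixingSubgroup, σ • x = x) ∧
      mulHeight (s17cnCoeff (genusFF Kb (FF N)) (s17cnPoly N E t (x + b k))) ≤ B'}).Finite :=
    Set.finite_iUnion fun k => s17pp_northcott_translate N E t hnc htΓ ht (b k) (hb k) B'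
  refine hfin.subset ?_
  rintro x ⟨hxΓ, k, hk⟩
  rw [Set.mem_iUnion]
  refine ⟨k, fun σ _ => hxΓ σ, ?_⟩
  have hfix : ∀ σ ∈ E.fixingSubgroup, σ • (x + b k) = x + b k := fun σ hσ => by
    rw [smul_add, hxΓ σ, hb k σ hσ]
  rw [s17pp_abs_eq N E t htΓ ht _ hfix] at hk
  have hd : (0 : ℝ) < (Module.finrank ℚ ↥E : ℝ) := by
    exact_mod_cast (Module.finrank_pos (R := ℚ) (M := ↥E))
  rw [div_le_iff₀ hd] at hk
  have h1 : logHeight (s17cnCoeff (genusFF Kb (FF N)) (s17cnPoly N E t (x + b k))) ≤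
      (Module.finrank ℚ ↥E : ℝ) * B := by linarith [mul_comm B (Module.finrank ℚ ↥E : ℝ)]
  rw [logHeight_eq_log_mulHeight] at h1
  exact (Real.log_le_iff_le_exp (mulHeight_pos _)).mp h1

/-- **PlN from a finite pool**: the place form of Northcott of `S17/HTop.lean`. -/
theorem s17pp_plN {P : Type*} (cl : P → JZero N) (H : P → ℝ)
    (E : IntermediateField ℚ Kb) [NumberField ↥E] (t : FF N)
    (hnc : ∀ c : Kb, t ≠ algebraMap Kb (FF N) c)
    (htΓ : ∀ σ : Kb ≃ₐ[ℚ] Kb, galAct N σ • t = t)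
    (ht : ∀ v : Place Kb (FF N), v ≠ cuspInf N → 0 ≤ v.ord t)
    {n : ℕ} (b : Fin n → JZero N) (hb : ∀ k, ∀ σ ∈ E.fixingSubgroup, σ • b k = b k)
    (a C : ℝ) (ha : 0 ≤ a)
    (hpool : ∀ p : P, (∀ σ : Kb ≃ₐ[ℚ] Kb, σ • cl p = cl p) →
      ∃ k, s17haAbsQ (s17ppChow N t (cl p + b k)) ≤ a * H p + C) :
    S17hxPlN cl H := by
  intro B
  have hfin := s17pp_northcott_abs N E t hnc htΓ ht b hb (a * B + C)
  refine Set.Finite.of_finite_image (f := fun x : s17MW N => (x : JZero N)) (hfin.subset ?_)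
    (Subtype.val_injective.injOn)
  rintro y ⟨x, ⟨p, hp, hB⟩, rfl⟩
  have hxΓ : ∀ σ : Kb ≃ₐ[ℚ] Kb, σ • (x : JZero N) = x := fun σ => x.2 σ
  obtain ⟨k, hk⟩ := hpool p (by rw [hp]; exact hxΓ)
  refine ⟨hxΓ, k, ?_⟩
  rw [hp] at hk
  have := mul_le_mul_of_nonneg_left hB ha
  linarith

end Fermat.Agent.S17

end
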