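/-
S17 sprint, layer H, leaf **A-N / POOL** (helper10): the FINITE TRANSLATION POOL.

For Northcott without well-definedness of place-values: every class of `J₀(N)` can be moved,
by a translation taken from ONE FINITE set `𝒞`, to a class all of whose effective divisors of
degree `g` avoid the cusp `∞` (a class off `Θ⁻`).  Pure Riemann–Roch-space counting
(Riemann's equality for large degree + strict growth along "bad" places); no model of `J`.

General part (`F / K` with principal divisors, places of degree `1`, genus `γ`):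
* `s17po_step`  : `l(D) > deg D + 1 − γ`, `T` a finite set of places with `c ≤ deg D + #T`
                  ⇒ some `P ∈ T` has `l(D + P) = l(D)`;
* `s17po_iter`  : `L(D) = 0`, `deg D = γ − 1 − k`, `c ≤ deg D + #T` ⇒ there are `k` places
                  `q i ∈ T` with `L(D + Σ q i) = 0`.
For `J₀(N)` (`g = genusFF`, `∞ = cuspInf N`):
* `S17poGood N y`      : every effective divisor `E` of degree `g` with `[E − g∞] = y` has
                         `E ∞ = 0`;
* `s17po_good_of_rr`   : `L(D₀ + Σ q − ∞) = 0` ⇒ `[D₀ + Σ q − g∞]` is good;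
* `s17po_good_reduced` : for a good class every such `E` is reduced, hence
* `s17po_good_unique`  : `E = s17h90Red N y` (UNIQUE);
* **`s17po_exists_pool`** : `∃ 𝒞 : Finset (JZero N), ∀ x, ∃ c ∈ 𝒞, S17poGood N (x + c)`.
-/
import Fermat.Agent.S17.H90
import Fermat.Agent.S26.ERRGInst

set_option autoImplicit false
set_option linter.unusedSectionVars false
set_option linter.unusedVariables false
set_option linter.style.haveILetI false

noncomputable section

namespace Fermat.Agent.S17

open ModularCurve AlgebraicCurve IntermediateField Module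
open Fermat.Agent.S24 Fermat.Agent.ES.M Fermat.Agent.ES.H Fermat.Agent.S15 Fermat.Agent.S26
  Fermat.Agent.S27 Fermat.Agent.ES.R

section General

variable {K F : Type*} [Field K] [Field F] [Algebra K F]

/-- **pool step**: among `#T ≥ c − deg D` places one does not enlarge `L(D)`. -/
theorem s17po_step [HasPrincipalDivisors K F]
    (hfin : ∀ v : Place K F, Module.Finite K v.ResidueField)
    (hdeg : ∀ v : Place K F, v.deg = 1) {γ c : ℤ}
    (hc : ∀ A : Divisor K F, c ≤ Divisor.degree A →
      (finrank K ↥(riemannRochSpace A) : ℤ) = Divisor.degree A + 1 - γ)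
    (T : Finset (Place K F)) (D : Divisor K F) (hT : c ≤ Divisor.degree D + T.card)
    (hD : Divisor.degree D + 1 - γ < (finrank K ↥(riemannRochSpace D) : ℤ)) :
    ∃ P ∈ T, finrank K ↥(riemannRochSpace (D + Finsupp.single P 1)) =
      finrank K ↥(riemannRochSpace D) := by
  classical
  by_contra hcon
  push Not at hcon
  have h1 := s26errf_growth hfin D T hcon
  have hdegT : Divisor.degree (D + s26errfSum T) = Divisor.degree D + T.card := by
    rw [map_add, s26errf_degree_sum hdeg T]
  have h2 := hc (D + s26errfSum T) (by rw [hdegT]; exact hT)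
  rw [hdegT] at h2
  have h3 : ((finrank K ↥(riemannRochSpace D) + T.card : ℕ) : ℤ) ≤
      (finrank K ↥(riemannRochSpace (D + s26errfSum T)) : ℤ) := by exact_mod_cast h1
  push_cast at h3
  linarith

/-- **pool iteration**: from `L(D) = 0` in degree `γ − 1 − k`, add `k` places of the pool and
keep `L = 0`. -/
theorem s17po_iter [HasPrincipalDivisors K F]
    (hfin : ∀ v : Place K F, Module.Finite K v.ResidueField)
    (hdeg : ∀ v : Place K F, v.deg = 1) {γ c : ℤ}
    (hc : ∀ A : Divisor K F, c ≤ Divisor.degree A →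
      (finrank K ↥(riemannRochSpace A) : ℤ) = Divisor.degree A + 1 - γ)
    (T : Finset (Place K F)) :
    ∀ (k : ℕ) (D : Divisor K F), Divisor.degree D = γ - 1 - k →
      c ≤ Divisor.degree D + T.card → finrank K ↥(riemannRochSpace D) = 0 →
      ∃ q : Fin k → Place K F, (∀ i, q i ∈ T) ∧
        finrank K ↥(riemannRochSpace (D + ∑ i, Finsupp.single (q i) (1 : ℤ))) = 0 := by
  intro k
  induction k with
  | zero =>
    intro D _ _ h0
    refine ⟨fun i => i.elim0, fun i => i.elim0, ?_⟩
    rw [Finset.univ_eq_empty, Finset.sum_empty, add_zero]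
    exact h0
  | succ k ih =>
    intro D hdD hT h0
    have hD : Divisor.degree D + 1 - γ < (finrank K ↥(riemannRochSpace D) : ℤ) := by
      rw [hdD, h0]
      push_cast
      linarith
    obtain ⟨P, hPT, hP⟩ := s17po_step hfin hdeg hc T D hT hD
    have hdP : Divisor.degree (D + Finsupp.single P 1) = γ - 1 - k := by
      rw [map_add, Divisor.degree_single, hdeg P, hdD]
      push_cast
      ring
    have hTP : c ≤ Divisor.degree (D + Finsupp.single P 1) + T.card := by
      rw [hdP]
      rw [hdD] at hT
      push_cast at hT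
      linarith
    obtain ⟨q, hqT, hq⟩ := ih (D + Finsupp.single P 1) hdP hTP (by rw [hP, h0])
    refine ⟨Fin.cons P q, ?_, ?_⟩
    · intro i
      refine Fin.cases ?_ (fun j => ?_) i
      · rw [Fin.cons_zero]
        exact hPT
      · rw [Fin.cons_succ]
        exact hqT j
    · rw [Fin.sum_univ_succ, Fin.cons_zero]
      have hs : (∑ i : Fin k, Finsupp.single (Fin.cons (α := fun _ => Place K F) P q i.succ)
          (1 : ℤ) : Divisor K F) = ∑ i : Fin k, Finsupp.single (q i) (1 : ℤ) :=
        Finset.sum_congr rfl fun i _ => by rw [Fin.cons_succ]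
      rw [hs, ← add_assoc]
      exact hq

/-- `L(D) = 0` in negative degree, as a `finrank`. -/
theorem s17po_finrank_neg [HasPrincipalDivisors K F] {D : Divisor K F}
    (hD : Divisor.degree D < 0) : finrank K ↥(riemannRochSpace D) = 0 := by
  rw [rr_eq_bot_of_degree_neg (K := K) (F := F) (D := D) hD]
  exact finrank_bot K F

/-- a finite-dimensional Riemann–Roch space of `finrank` `0` is trivial. -/
theorem s17po_eq_zero_of_finrank {D : Divisor K F} [Module.Finite K ↥(riemannRochSpace D)]
    (h : finrank K ↥(riemannRochSpace D) = 0) {f : F} (hf : f ∈ riemannRochSpace D) : f = 0 := by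
  have hbot : riemannRochSpace D = ⊥ := Submodule.finrank_eq_zero.mp h
  rw [hbot, Submodule.mem_bot] at hf
  exact hf

end General

variable (N : ℕ) [NeZero N]

/-- a class is GOOD (off `Θ⁻`): every effective divisor of degree `g` in the class `y + g∞`
avoids the cusp `∞`. -/
def S17poGood (y : JZero N) : Prop :=
  ∀ E : Divisor Kb (FF N), 0 ≤ E → Divisor.degree E = (genusFF Kb (FF N) : ℤ) →
    Pic0.mk (s17h90Div N E) = y → E (cuspInf N) = 0

/-- the divisor `Σ q i − k·∞` of degree `0`. -/
theorem s17po_degree_pool {k : ℕ} (q : Fin k → Place Kb (FF N)) :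
    Divisor.degree ((∑ i, Finsupp.single (q i) (1 : ℤ) : Divisor Kb (FF N)) -
      Finsupp.single (cuspInf N) (k : ℤ)) = 0 := by
  haveI := finiteDimensional_adjoin_jF N
  have hdeg : ∀ v : Place Kb (FF N), v.deg = 1 :=
    fun v => s26errg_deg_eq_one (jF N) (transcendental_jF N) v
  rw [map_sub, map_sum, Divisor.degree_single, cuspInf_deg]
  simp [Divisor.degree_single, hdeg]

/-- the class of the pool divisor `Σ q i − k·∞`. -/
def s17poClass {k : ℕ} (q : Fin k → Place Kb (FF N)) : JZero N :=
  Pic0.mk ⟨(∑ i, Finsupp.single (q i) (1 : ℤ) : Divisor Kb (FF N)) -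
    Finsupp.single (cuspInf N) (k : ℤ), Divisor.mem_degZero.mpr (s17po_degree_pool N q)⟩

/-- **good from a vanishing Riemann–Roch space**: if `L(D₀ + Σ q − ∞) = 0` (`deg D₀ = 0`,
`g` places `q`), then the class `[D₀] + [Σ q − g∞]` is good. -/
theorem s17po_good_of_rr (D₀ : Divisor.degZero (K := Kb) (F := FF N))
    (q : Fin (genusFF Kb (FF N)) → Place Kb (FF N))
    (h0 : ∀ f ∈ riemannRochSpace ((D₀ : Divisor Kb (FF N)) +
      ∑ i, Finsupp.single (q i) (1 : ℤ) - Finsupp.single (cuspInf N) 1), f = 0) :
    S17poGood N (Pic0.mk D₀ + s17poClass N q) := by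
  classical
  intro E hE hEdeg hmk
  have hEv : ∀ v, 0 ≤ E v := fun v => by simpa using Finsupp.le_def.mp hE v
  by_contra hne
  have h1 : 1 ≤ E (cuspInf N) := by
    have := hEv (cuspInf N)
    omega
  -- unfold the equality of classes
  have hmk' : Pic0.mk (s17h90Div N E) =
      Pic0.mk (D₀ + ⟨_, Divisor.mem_degZero.mpr (s17po_degree_pool N q)⟩) := by
    rw [hmk, Pic0.mk_add]
    rfl
  rw [s17h90_mk_eq_iff] at hmk'
  obtain ⟨f, hf, h⟩ := hmk'
  -- `f⁻¹ ∈ L(D₀ + Σ q − ∞)`
  apply inv_ne_zero hf
  apply h0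
  rw [mem_riemannRochSpace_iff]
  intro v
  right
  rw [v.ord_inv]
  have hv := h v
  rw [s17h90Div_coe, hEdeg] at hv
  simp only [AddSubgroup.coe_add, Finsupp.coe_add, Finsupp.coe_sub, Pi.add_apply,
    Pi.sub_apply] at hv ⊢
  by_cases hvP : cuspInf N = v
  · subst hvP
    simp only [Finsupp.single_eq_same] at hv ⊢
    omega
  · simp only [Finsupp.single_eq_of_ne (Ne.symm hvP)] at hv ⊢
    have := hEv v
    omega

/-- in a good class every effective divisor of degree `g` is reduced. -/
theorem s17po_good_reduced {y : JZero N} (hy : S17poGood N y) {E : Divisor Kb (FF N)}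
    (hE : 0 ≤ E) (hEdeg : Divisor.degree E = (genusFF Kb (FF N) : ℤ))
    (hmk : Pic0.mk (s17h90Div N E) = y) : S27Reduced (cuspInf N) E := by
  classical
  haveI := hasPrincipalDivisors_FF N
  refine ⟨hE, fun f hfm => ?_⟩
  by_contra hf
  have hEv : ∀ v, 0 ≤ E v := fun v => by simpa using Finsupp.le_def.mp hE v
  obtain ⟨Df, hDf, hDf0⟩ := HasPrincipalDivisors.exists_divisor (K := Kb) f hf
  have hfm' := hfm
  rw [mem_riemannRochSpace_iff] at hfm'
  -- `E' := E + div f ≥ ∞` is effective of degree `g`, in the same class, and contains `∞`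
  set E' : Divisor Kb (FF N) := E + Df with hE'
  have hE'v : ∀ v, E' v = E v + v.ord f := fun v => by
    simp only [hE', Finsupp.coe_add, Pi.add_apply, hDf v]
  have hE'0 : 0 ≤ E' := by
    rw [Finsupp.le_def]
    intro v
    have := (hfm' v).resolve_left hf
    rw [hE'v]
    simp only [Finsupp.coe_sub, Pi.sub_apply, Finsupp.coe_zero, Pi.zero_apply] at this ⊢
    by_cases hvP : cuspInf N = v
    · subst hvP
      simp only [Finsupp.single_eq_same] at this
      omega
    · simp only [Finsupp.single_eq_of_ne (Ne.symm hvP)] at this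
      omega
  have hE'deg : Divisor.degree E' = (genusFF Kb (FF N) : ℤ) := by
    rw [hE', map_add, hDf0, add_zero, hEdeg]
  have hE'mk : Pic0.mk (s17h90Div N E') = y := by
    rw [← hmk, s17h90_mk_eq_iff]
    refine ⟨f⁻¹, inv_ne_zero hf, fun v => ?_⟩
    rw [s17h90Div_coe, s17h90Div_coe, hE'deg, hEdeg, v.ord_inv]
    simp only [Finsupp.coe_sub, Pi.sub_apply]
    rw [hE'v]
    ring
  have hinf := hy E' hE'0 hE'deg hE'mk
  have := (hfm' (cuspInf N)).resolve_left hf
  rw [hE'v] at hinf
  simp only [Finsupp.coe_sub, Pi.sub_apply, Finsupp.single_eq_same] at this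
  have := hEv (cuspInf N)
  omega

/-- in a good class the effective divisor of degree `g` is UNIQUE: it is the reduced divisor. -/
theorem s17po_good_unique {y : JZero N} (hy : S17poGood N y) {E : Divisor Kb (FF N)}
    (hE : 0 ≤ E) (hEdeg : Divisor.degree E = (genusFF Kb (FF N) : ℤ))
    (hmk : Pic0.mk (s17h90Div N E) = y) : E = s17h90Red N y :=
  (s17h90Red_eq N (s17po_good_reduced N hy hE hEdeg hmk) hmk).symm

/-- **THE POOL**: a FINITE set `𝒞` of classes such that every class has a GOOD translate
`x + c`, `c ∈ 𝒞`. -/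
theorem s17po_exists_pool :
    ∃ 𝒞 : Finset (JZero N), ∀ x : JZero N, ∃ c ∈ 𝒞, S17poGood N (x + c) := by
  classical
  haveI := finiteDimensional_adjoin_jF N
  haveI := hasPrincipalDivisors_FF N
  haveI : Infinite (Place Kb (FF N)) := s26errg_infinite_place (jF N) (transcendental_jF N)
  have hfin : ∀ v : Place Kb (FF N), Module.Finite Kb v.ResidueField :=
    fun v => s26err_residue_finite (jF N) (transcendental_jF N) v
  have hdeg : ∀ v : Place Kb (FF N), v.deg = 1 :=
    fun v => s26errg_deg_eq_one (jF N) (transcendental_jF N) v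
  obtain ⟨c, hc⟩ := s27rr_large (K := Kb) (F := FF N) (jF N) (transcendental_jF N)
  -- a pool of `(c + 1).toNat` places
  obtain ⟨T, -, hTcard⟩ :=
    (Set.infinite_univ (α := Place Kb (FF N))).exists_subset_card_eq (c + 1).toNat
  set g : ℕ := genusFF Kb (FF N) with hg
  refine ⟨Finset.univ.image (fun q : Fin g → ↥T => s17poClass N (fun i => (q i : Place Kb (FF N)))),
    fun x => ?_⟩
  obtain ⟨D₀, rfl⟩ := Pic0.mk_surjective x
  -- the start divisor `D₀ − ∞` of degree `−1`
  set D : Divisor Kb (FF N) := (D₀ : Divisor Kb (FF N)) - Finsupp.single (cuspInf N) 1 with hD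
  have hdD : Divisor.degree D = -1 := by
    rw [hD, map_sub, Divisor.degree_single, cuspInf_deg, Divisor.mem_degZero.mp D₀.2]
    simp
  have hdD' : Divisor.degree D = (g : ℤ) - 1 - (g : ℕ) := by rw [hdD]; ring
  have hT : c ≤ Divisor.degree D + T.card := by
    rw [hdD, hTcard]
    have := Int.self_le_toNat (c + 1)
    omega
  have h0 : finrank Kb ↥(riemannRochSpace D) = 0 :=
    s17po_finrank_neg (by rw [hdD]; norm_num)
  obtain ⟨q, hqT, hq⟩ := s17po_iter hfin hdeg hc T g D hdD' hT h0
  refine ⟨s17poClass N q, ?_, ?_⟩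
  · rw [Finset.mem_image]
    exact ⟨fun i => ⟨q i, hqT i⟩, Finset.mem_univ _, rfl⟩
  · apply s17po_good_of_rr N D₀ q
    intro f hf
    haveI : Module.Finite Kb ↥(riemannRochSpace (D + ∑ i, Finsupp.single (q i) (1 : ℤ))) :=
      s26err_rr_finite' (jF N) (transcendental_jF N) _
    have hEq : (D₀ : Divisor Kb (FF N)) + ∑ i, Finsupp.single (q i) (1 : ℤ) -
        Finsupp.single (cuspInf N) 1 = D + ∑ i, Finsupp.single (q i) (1 : ℤ) := by
      rw [hD]
      abel
    rw [hEq] at hf
    exact s17po_eq_zero_of_finrank hq hf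

end Fermat.Agent.S17
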