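/-
S17 sprint, leaf H6b "T-EXISTS" (helper45): **a `G_ℚ`-fixed nonconstant function of `F_N` whose
only pole is the cusp `∞`** — the coordinate `t` that the Chow height of layer H (H-CHOW, H7) takes
as input.  NO Galois descent: a nonzero `f ∈ L((g+1)·∞ − (0))` (Riemann) has a FINITE Galois orbit
(it is defined over a number field), the polynomial `∏_{h ∈ orbit} (X − h)` has `G_ℚ`-fixed
coefficients which are regular outside `∞`, and one of them is not constant (else `f` would be
algebraic over `ℚ̄`, hence constant, but `f` vanishes at the cusp `0`).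

* `s17rf_exists_field`  : every `f ∈ F_N` is fixed by `Gal(ℚ̄/K₀)` for a number field `K₀`;
* `s17rf_orbit_finite`  : the `G_ℚ`-orbit of every `f ∈ F_N` is finite;
* `s17rf_const_of_root` : a function which is algebraic over `ℚ̄` is constant;
* `s17rf_const_of_regular` : a function without poles is constant;
* `s17rf_exists`        : `∃ t`, `G_ℚ`-fixed, regular outside `∞`, not constant;
* `s17rf_exists_ord`    : `∃ t`, `G_ℚ`-fixed, `0 ≤ ord_v t` for `v ≠ ∞`, `ord_∞ t < 0`;
* `s17rf_transcendental`: such a `t` is transcendental over `ℚ̄`.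
-/
import Fermat.Agent.S17.H90
import Fermat.Agent.UNIP.Rational

set_option autoImplicit false
set_option linter.unusedSectionVars false
set_option linter.style.haveILetI false

noncomputable section

namespace Fermat.Agent.S17

open ModularCurve AlgebraicCurve IntermediateField Polynomial
open Fermat.Agent.S24 Fermat.Agent.ES.M Fermat.Agent.ES.H Fermat.Agent.S15 Fermat.Agent.S26
  Fermat.Agent.S27 Fermat.Agent.UNIP Fermat.Agent.INJ

variable (N : ℕ) [NeZero N]

/-- **finite level of functions**: every `f ∈ F_N` is fixed by `Gal(ℚ̄/K₀)`, `K₀` a number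
field. -/
theorem s17rf_exists_field (f : FF N) :
    ∃ K₀ : IntermediateField ℚ Kb, FiniteDimensional ℚ K₀ ∧
      ∀ σ : Kb ≃ₐ[ℚ] Kb, (∀ a ∈ K₀, σ a = a) → galAct N σ • f = f := by
  classical
  obtain ⟨K₀, hK₀, -, hdesc⟩ := nf_exists_descent_finset (N := N) ∅
    ({(f : LaurentSeries Kb)} : Finset (LaurentSeries Kb))
    (by
      intro y hy
      rw [Finset.mem_singleton] at hy
      rw [hy]
      exact f.2)
  refine ⟨K₀, hK₀, fun σ hσ => ?_⟩
  obtain ⟨y₁, hy₁, hy₁'⟩ := hdesc K₀ le_rfl (f : LaurentSeries Kb) (Finset.mem_singleton_self _)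
  have hf : f = nfEmb K₀ N ⟨y₁, hy₁⟩ := Subtype.ext hy₁'.symm
  rw [hf]
  exact rat_smul_nfEmb N K₀ σ hσ _

/-- **the Galois orbit of a function is finite.** -/
theorem s17rf_orbit_finite (f : FF N) :
    (Set.range fun σ : Kb ≃ₐ[ℚ] Kb => galAct N σ • f).Finite := by
  classical
  obtain ⟨K₀, hK₀, hfix⟩ := s17rf_exists_field N f
  haveI := hK₀
  let g : (Kb ≃ₐ[ℚ] Kb) → (K₀ →ₐ[ℚ] Kb) := fun σ => (σ : Kb →ₐ[ℚ] Kb).comp K₀.val
  have hfac : ∀ σ τ : Kb ≃ₐ[ℚ] Kb, g σ = g τ → galAct N σ • f = galAct N τ • f := by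
    intro σ τ h
    have h1 : ∀ a ∈ K₀, (τ⁻¹ * σ) a = a := by
      intro a ha
      have h2 : σ a = τ a := DFunLike.congr_fun h ⟨a, ha⟩
      show τ⁻¹ (σ a) = a
      rw [h2]
      exact τ.symm_apply_apply a
    have h3 := hfix (τ⁻¹ * σ) h1
    have h4 : galAct N (τ⁻¹ * σ) = (galAct N τ)⁻¹ * galAct N σ := by
      show arithmeticGalois _ (τ⁻¹ * σ) = (arithmeticGalois _ τ)⁻¹ * arithmeticGalois _ σ
      rw [map_mul, map_inv]
    rw [h4, mul_smul] at h3
    have h5 := congrArg (fun y => galAct N τ • y) h3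
    simp only [smul_inv_smul] at h5
    exact h5
  haveI : Finite (K₀ →ₐ[ℚ] Kb) := inferInstance
  let h : (K₀ →ₐ[ℚ] Kb) → FF N := fun φ =>
    if hφ : ∃ σ, g σ = φ then galAct N hφ.choose • f else f
  refine (Set.finite_range h).subset ?_
  rintro _ ⟨σ, rfl⟩
  refine ⟨g σ, ?_⟩
  have hφ : ∃ τ, g τ = g σ := ⟨σ, rfl⟩
  show (if hφ : ∃ τ, g τ = g σ then galAct N hφ.choose • f else f) = galAct N σ • f
  rw [dif_pos hφ]
  exact hfac _ _ hφ.choose_spec

variable {N}

/-- a function which is algebraic over `ℚ̄` is constant. -/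
theorem s17rf_const_of_root (f : FF N) (Q : Polynomial Kb) (hQ : Q ≠ 0)
    (h : Polynomial.aeval f Q = 0) : ∃ c : Kb, f = algebraMap Kb (FF N) c := by
  have halg : IsAlgebraic Kb f := ⟨Q, hQ, h⟩
  have hint : IsIntegral Kb f := halg.isIntegral
  have hirr := minpoly.irreducible hint
  have hdeg := IsAlgClosed.degree_eq_one_of_irreducible Kb hirr
  obtain ⟨c, hc⟩ := minpoly.mem_range_of_degree_eq_one Kb f hdeg
  exact ⟨c, hc.symm⟩

/-- a nonconstant function is transcendental over `ℚ̄`. -/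
theorem s17rf_transcendental (t : FF N) (ht : ∀ c : Kb, t ≠ algebraMap Kb (FF N) c) :
    Transcendental Kb t := by
  intro halg
  obtain ⟨Q, hQ, h⟩ := halg
  obtain ⟨c, hc⟩ := s17rf_const_of_root t Q hQ h
  exact ht c hc

/-- **a function without poles is constant.** -/
theorem s17rf_const_of_regular (t : FF N)
    (ht : ∀ v : Place Kb (FF N), t ∈ v.toValuationSubring) :
    ∃ c : Kb, t = algebraMap Kb (FF N) c := by
  classical
  haveI := hasPrincipalDivisors_FF N
  haveI := finiteDimensional_adjoin_jF N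
  have halg : Algebra.IsAlgebraic (IntermediateField.adjoin Kb {jF N}) (FF N) :=
    Algebra.IsAlgebraic.of_finite _ _
  obtain ⟨c, hc⟩ := exists_sub_mem_nonunits (jF N) (transcendental_jF N) halg (cuspInf N) t
    (ht (cuspInf N))
  refine ⟨c, ?_⟩
  by_contra hne
  have hne0 : t - algebraMap Kb (FF N) c ≠ 0 := fun h0 => hne (sub_eq_zero.1 h0)
  have hmem : t - algebraMap Kb (FF N) c ∈
      riemannRochSpace (-(Finsupp.single (cuspInf N) (1 : ℤ)) : Divisor Kb (FF N)) := by
    rw [mem_riemannRochSpace_iff]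
    intro v
    right
    simp only [Finsupp.coe_neg, Pi.neg_apply, neg_neg]
    by_cases hv : v = cuspInf N
    · subst hv
      rw [Finsupp.single_eq_same]
      have := (PlaceAux.ord_pos_iff_mem_nonunits (cuspInf N) hne0).2 hc
      omega
    · rw [Finsupp.single_eq_of_ne hv]
      exact (PlaceAux.ord_nonneg_iff v hne0).2
        (v.toValuationSubring.sub_mem (ht v) (v.algebraMap_mem' c))
  have hdeg := s27rd_degree_nonneg_of_mem hne0 hmem
  rw [map_neg, Divisor.degree_single, cuspInf_deg] at hdeg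
  simp at hdeg

variable (N)

/-- the divisor `(g+1)·∞ − (0)`. -/
def s17rfDiv : Divisor Kb (FF N) :=
  Finsupp.single (cuspInf N) ((genusFF Kb (FF N) : ℤ) + 1) - Finsupp.single (cuspZero N) 1

theorem s17rfDiv_smul (σ : Kb ≃ₐ[ℚ] Kb) : galAct N σ • s17rfDiv N = s17rfDiv N := by
  unfold s17rfDiv
  rw [smul_sub, SemilinearAut.smul_single, SemilinearAut.smul_single, galAct_smul_cuspInf,
    galAct_smul_cuspZero]

theorem s17rfDiv_degree : Divisor.degree (s17rfDiv N) = (genusFF Kb (FF N) : ℤ) := by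
  unfold s17rfDiv
  rw [map_sub, Divisor.degree_single, Divisor.degree_single, cuspInf_deg, cuspZero_deg]
  simp

variable {N}

/-- sections of `(g+1)·∞ − (0)` are regular outside `∞`. -/
theorem s17rfDiv_mem_valuationSubring {h : FF N}
    (hh : h ∈ riemannRochSpace (s17rfDiv N)) (v : Place Kb (FF N)) (hv : v ≠ cuspInf N) :
    h ∈ v.toValuationSubring := by
  classical
  rw [mem_riemannRochSpace_iff] at hh
  rcases hh v with h0 | h1
  · rw [h0]; exact zero_mem _
  · apply PlaceAux.mem_of_ord_nonneg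
    have h2 : (s17rfDiv N) v ≤ 0 := by
      unfold s17rfDiv
      simp only [Finsupp.coe_sub, Pi.sub_apply]
      rw [Finsupp.single_eq_of_ne hv]
      by_cases hv0 : v = cuspZero N
      · subst hv0
        rw [Finsupp.single_eq_same]
        omega
      · rw [Finsupp.single_eq_of_ne hv0]
        omega
    omega

/-- nonzero sections of `(g+1)·∞ − (0)` vanish at the cusp `0`. -/
theorem s17rfDiv_ord_cuspZero (hN : 2 ≤ N) {h : FF N} (h0 : h ≠ 0)
    (hh : h ∈ riemannRochSpace (s17rfDiv N)) : 0 < (cuspZero N).ord h := by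
  classical
  rw [mem_riemannRochSpace_iff] at hh
  have h1 := (hh (cuspZero N)).resolve_left h0
  have h2 : (s17rfDiv N) (cuspZero N) = -1 := by
    unfold s17rfDiv
    simp only [Finsupp.coe_sub, Pi.sub_apply]
    rw [Finsupp.single_eq_same, Finsupp.single_eq_of_ne (cuspZero_ne_cuspInf N hN)]
    omega
  omega

/-- coefficients of `∏ (X − h)` lie in every subring containing the `h`. -/
theorem s17rf_coeff_mem {R : Type*} [CommRing R] (T : Subring R) (S : Finset R)
    (hS : ∀ h ∈ S, h ∈ T) (n : ℕ) : (∏ h ∈ S, (X - C h)).coeff n ∈ T := by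
  classical
  have key : (∏ h ∈ S, (X - C h)) ∈ Polynomial.lifts T.subtype := by
    refine Subsemiring.prod_mem _ fun h hh => ?_
    rw [Polynomial.lifts_iff_coeff_lifts]
    intro k
    rw [coeff_sub, coeff_X, coeff_C]
    have hh' := hS h hh
    have hmem : (if 1 = k then (1 : R) else 0) - (if k = 0 then h else 0) ∈ T := by
      refine T.sub_mem ?_ ?_
      · split_ifs
        · exact T.one_mem
        · exact T.zero_mem
      · split_ifs
        · exact hh'
        · exact T.zero_mem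
    exact ⟨⟨_, hmem⟩, rfl⟩
  rw [Polynomial.lifts_iff_coeff_lifts] at key
  obtain ⟨y, hy⟩ := key n
  rw [← hy]
  exact y.2

/-- `∏ (X − h)` over a finite set stable under an injective endomorphism is fixed by it. -/
theorem s17rf_coeff_fixed {R : Type*} [CommRing R] (ρ : R →+* R) (hinj : Function.Injective ρ)
    (S : Finset R) [DecidableEq R] (himg : S.image ρ = S) (n : ℕ) :
    ρ ((∏ h ∈ S, (X - C h)).coeff n) = (∏ h ∈ S, (X - C h)).coeff n := by
  have hmap : (∏ h ∈ S, (X - C h)).map ρ = ∏ h ∈ S, (X - C h) := by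
    rw [Polynomial.map_prod]
    conv_rhs => rw [← himg]
    rw [Finset.prod_image (fun x _ y _ hxy => hinj hxy)]
    refine Finset.prod_congr rfl fun h _ => ?_
    rw [Polynomial.map_sub, Polynomial.map_X, Polynomial.map_C]
  have := congrArg (fun Q : Polynomial R => Q.coeff n) hmap
  simpa only [coeff_map] using this

/-- a root of `∏ (X − h)`. -/
theorem s17rf_eval_prod {R : Type*} [CommRing R] (S : Finset R) {f : R} (hf : f ∈ S) :
    (∏ h ∈ S, (X - C h)).eval f = 0 := by
  rw [eval_prod]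
  exact Finset.prod_eq_zero hf (by simp)

theorem s17rf_monic_prod {R : Type*} [CommRing R] (S : Finset R) :
    (∏ h ∈ S, (X - C h)).Monic :=
  monic_prod_of_monic _ _ fun h _ => monic_X_sub_C h

/-- a monic polynomial with a root `f` whose coefficients all lie in the range of `algebraMap`
makes `f` algebraic. -/
theorem s17rf_exists_aeval {K R : Type*} [Field K] [CommRing R] [Algebra K R] [Nontrivial R]
    (P : Polynomial R) (hP : P.Monic) (f : R) (hroot : P.eval f = 0)
    (hc : ∀ n : ℕ, ∃ c : K, P.coeff n = algebraMap K R c) :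
    ∃ Q : Polynomial K, Q ≠ 0 ∧ Polynomial.aeval f Q = 0 := by
  have hlift : P ∈ Polynomial.lifts (algebraMap K R) := by
    rw [Polynomial.lifts_iff_coeff_lifts]
    intro n
    obtain ⟨c, hc⟩ := hc n
    exact ⟨c, hc.symm⟩
  obtain ⟨Q, hQ⟩ := (Polynomial.mem_lifts P).1 hlift
  refine ⟨Q, ?_, ?_⟩
  · rintro rfl
    rw [Polynomial.map_zero] at hQ
    exact hP.ne_zero hQ.symm
  · rw [Polynomial.aeval_def, Polynomial.eval₂_eq_eval_map, hQ]
    exact hroot

variable (N)

/-- the orbit of `f` as a finite set. -/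
def s17rfOrbit (f : FF N) : Finset (FF N) := (s17rf_orbit_finite N f).toFinset

theorem s17rfOrbit_mem (f h : FF N) :
    h ∈ s17rfOrbit N f ↔ ∃ σ : Kb ≃ₐ[ℚ] Kb, galAct N σ • f = h := by
  unfold s17rfOrbit
  rw [Set.Finite.mem_toFinset, Set.mem_range]

theorem s17rfOrbit_self (f : FF N) : f ∈ s17rfOrbit N f :=
  (s17rfOrbit_mem N f f).2 ⟨1, by
    show arithmeticGalois _ (1 : Kb ≃ₐ[ℚ] Kb) • f = f
    rw [map_one, one_smul]⟩

/-- the ring endomorphism of `F_N` given by `σ`. -/
def s17rfHom (σ : Kb ≃ₐ[ℚ] Kb) : FF N →+* FF N :=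
  MulSemiringAction.toRingHom (SemilinearAut Kb (FF N)) (FF N) (galAct N σ)

theorem s17rfHom_apply (σ : Kb ≃ₐ[ℚ] Kb) (x : FF N) : s17rfHom N σ x = galAct N σ • x := rfl

theorem s17rfOrbit_image [DecidableEq (FF N)] (f : FF N) (σ : Kb ≃ₐ[ℚ] Kb) :
    (s17rfOrbit N f).image (s17rfHom N σ) = s17rfOrbit N f := by
  ext h
  rw [Finset.mem_image]
  constructor
  · rintro ⟨h', hh', rfl⟩
    obtain ⟨τ, rfl⟩ := (s17rfOrbit_mem N f h').1 hh'
    refine (s17rfOrbit_mem N f _).2 ⟨σ * τ, ?_⟩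
    rw [s17rfHom_apply]
    show arithmeticGalois _ (σ * τ) • f = arithmeticGalois _ σ • arithmeticGalois _ τ • f
    rw [map_mul, mul_smul]
  · intro hh
    obtain ⟨τ, rfl⟩ := (s17rfOrbit_mem N f h).1 hh
    refine ⟨galAct N (σ⁻¹ * τ) • f, (s17rfOrbit_mem N f _).2 ⟨σ⁻¹ * τ, rfl⟩, ?_⟩
    rw [s17rfHom_apply]
    show arithmeticGalois _ σ • arithmeticGalois _ (σ⁻¹ * τ) • f = arithmeticGalois _ τ • f
    rw [← mul_smul, ← map_mul, mul_inv_cancel_left]

/-- the orbit polynomial `∏_{h ∈ orbit} (X − h)`. -/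
def s17rfPoly (f : FF N) : Polynomial (FF N) := ∏ h ∈ s17rfOrbit N f, (X - C h)

theorem s17rfPoly_fixed (f : FF N) (σ : Kb ≃ₐ[ℚ] Kb) (n : ℕ) :
    galAct N σ • (s17rfPoly N f).coeff n = (s17rfPoly N f).coeff n := by
  classical
  have h := s17rf_coeff_fixed (s17rfHom N σ) (s17rfHom N σ).injective (s17rfOrbit N f)
    (s17rfOrbit_image N f σ) n
  exact h

/-- **T-EXISTS**: a `G_ℚ`-fixed function, regular outside the cusp `∞`, which is not constant. -/
theorem s17rf_exists (hN : 2 ≤ N) :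
    ∃ t : FF N, (∀ σ : Kb ≃ₐ[ℚ] Kb, galAct N σ • t = t) ∧
      (∀ v : Place Kb (FF N), v ≠ cuspInf N → t ∈ v.toValuationSubring) ∧
      (∀ c : Kb, t ≠ algebraMap Kb (FF N) c) := by
  classical
  -- a nonzero section `f` of `(g+1)∞ − (0)`
  obtain ⟨f, hf0, hfD⟩ := s17h90_riemann N (s17rfDiv N) (by rw [s17rfDiv_degree]; simp)
  have hSD : ∀ h ∈ s17rfOrbit N f, h ∈ riemannRochSpace (s17rfDiv N) := by
    intro h hh
    obtain ⟨σ, rfl⟩ := (s17rfOrbit_mem N f h).1 hh
    have := s17h90_smul_mem (N := N) σ hfD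
    rwa [s17rfDiv_smul] at this
  -- the coefficients are regular outside `∞`
  have hreg : ∀ (n : ℕ) (v : Place Kb (FF N)), v ≠ cuspInf N →
      (s17rfPoly N f).coeff n ∈ v.toValuationSubring := by
    intro n v hv
    exact s17rf_coeff_mem v.toValuationSubring.toSubring (s17rfOrbit N f)
      (fun h hh => s17rfDiv_mem_valuationSubring (hSD h hh) v hv) n
  -- one of them is not constant
  have hnc : ∃ n : ℕ, ∀ c : Kb, (s17rfPoly N f).coeff n ≠ algebraMap Kb (FF N) c := by
    by_contra hcon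
    push Not at hcon
    obtain ⟨Q, hQ0, haev⟩ := s17rf_exists_aeval (K := Kb) (s17rfPoly N f)
      (s17rf_monic_prod _) f (s17rf_eval_prod _ (s17rfOrbit_self N f)) hcon
    obtain ⟨c, hc⟩ := s17rf_const_of_root f Q hQ0 haev
    have h1 := s17rfDiv_ord_cuspZero hN hf0 hfD
    rw [hc, PlaceAux.ord_algebraMap] at h1
    exact lt_irrefl _ h1
  obtain ⟨n, hn⟩ := hnc
  exact ⟨(s17rfPoly N f).coeff n, fun σ => s17rfPoly_fixed N f σ n, fun v hv => hreg n v hv, hn⟩

/-- **T-EXISTS, `ord` form**: a `G_ℚ`-fixed function whose only pole is the cusp `∞`. -/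
theorem s17rf_exists_ord (hN : 2 ≤ N) :
    ∃ t : FF N, (∀ σ : Kb ≃ₐ[ℚ] Kb, galAct N σ • t = t) ∧
      (∀ v : Place Kb (FF N), v ≠ cuspInf N → 0 ≤ v.ord t) ∧
      (cuspInf N).ord t < 0 ∧ Transcendental Kb t := by
  obtain ⟨t, h1, h2, h3⟩ := s17rf_exists N hN
  have ht0 : t ≠ 0 := fun h0 => h3 0 (by rw [h0, map_zero])
  refine ⟨t, h1, fun v hv => (PlaceAux.ord_nonneg_iff v ht0).2 (h2 v hv), ?_,
    s17rf_transcendental t h3⟩
  by_contra hcon
  rw [not_lt] at hcon
  have h4 : ∀ v : Place Kb (FF N), t ∈ v.toValuationSubring := by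
    intro v
    by_cases hv : v = cuspInf N
    · rw [hv]
      exact (PlaceAux.ord_nonneg_iff _ ht0).1 hcon
    · exact h2 v hv
  obtain ⟨c, hc⟩ := s17rf_const_of_regular t h4
  exact h3 c hc

end Fermat.Agent.S17
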