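/-
S17 sprint, layer H — **PlN-GOOD** (helper99): the place form `S17hxPlN` of NORTHCOTT from the
place form (T) and ONE geometric statement (U) at the GOOD places.

`S17poGood N y` (`S17/Pool.lean`, helper10): every effective divisor of degree `g` of the class
`y` avoids `∞` (then it is unique, `= s17h90Red N y`).

(U)  `∃ C, ∀ p, S17poGood N (cl p) → s17haAbsQ (s17ppChow N t (cl p)) ≤ H p + C`:
     at a place with GOOD class the Chow vector of the centre divisor is a linear projection of
     the place-value of `s`, so its absolute height is bounded by the height of the place.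

* `s17png_exists_field` : ONE number field `E` for a finite pool of classes;
* `s17png_plN`          : **PlT + (U) ⇒ PlN** (pool: `s17po_exists_pool`; rationality and Northcott
                         of the Chow forms: `S17/ChowNorth.lean`, `S17/PlNPool.lean`);
* `s17png_plN'`         : the same with `t` chosen (`s17rf_exists_ord`, `2 ≤ N`).
-/
import Fermat.Agent.S17.PlNPool
import Fermat.Agent.S17.Pool
import Fermat.Agent.S17.RatFn
import Fermat.Agent.S15.SelFL

set_option autoImplicit false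
set_option linter.unusedSectionVars false
set_option linter.style.haveILetI false

noncomputable section

namespace Fermat.Agent.S17

open ModularCurve AlgebraicCurve Polynomial Height
open Fermat.Agent.S24 Fermat.Agent.ES.M Fermat.Agent.ES.H Fermat.Agent.S15 Fermat.Agent.S26
  Fermat.Agent.S27

variable (N : ℕ) [NeZero N]

/-- ONE number field over which finitely many classes are defined. -/
theorem s17png_exists_field (S : Finset (JZero N)) :
    ∃ E : IntermediateField ℚ Kb, FiniteDimensional ℚ E ∧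
      ∀ x ∈ S, ∀ σ ∈ E.fixingSubgroup, σ • x = x := by
  obtain ⟨K₀, -, h2, -, h4⟩ := selfl_exists_field_finset N S ⊥ inferInstance
  refine ⟨K₀, h2, fun x hx σ hσ => h4 x hx σ fun a ha => ?_⟩
  exact (IntermediateField.mem_fixingSubgroup_iff K₀ σ).mp hσ a ha

/-- **PlT + (U) ⇒ PlN.** -/
theorem s17png_plN {P : Type*} (cl : P → JZero N) (H : P → ℝ) (t : FF N)
    (hnc : ∀ c : Kb, t ≠ algebraMap Kb (FF N) c)
    (htΓ : ∀ σ : Kb ≃ₐ[ℚ] Kb, galAct N σ • t = t)
    (ht : ∀ v : Place Kb (FF N), v ≠ cuspInf N → 0 ≤ v.ord t)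
    (hT : S17hxPlT cl H)
    (hU : ∃ C : ℝ, ∀ p : P, S17poGood N (cl p) →
      s17haAbsQ (s17ppChow N t (cl p)) ≤ H p + C) :
    S17hxPlN cl H := by
  classical
  obtain ⟨𝒞, h𝒞⟩ := s17po_exists_pool N
  obtain ⟨E, hEfin, hE⟩ := s17png_exists_field N 𝒞
  haveI : NumberField ↥E := { to_charZero := inferInstance, to_finiteDimensional := hEfin }
  obtain ⟨C, hC⟩ := hU
  -- the pool as a tuple
  set b : Fin 𝒞.card → JZero N := fun k => ((𝒞.equivFin.symm k : 𝒞) : JZero N) with hb
  have hbmem : ∀ k, b k ∈ 𝒞 := fun k => (𝒞.equivFin.symm k).2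
  -- the constants of (T) at the translations `−b k`
  choose c' hc' using fun k : Fin 𝒞.card => hT (-(b k))
  set C' : ℝ := ∑ k, |c' k| with hC'
  have hcle : ∀ k, c' k ≤ C' := fun k =>
    (le_abs_self _).trans (Finset.single_le_sum (f := fun k => |c' k|)
      (fun _ _ => abs_nonneg _) (Finset.mem_univ k))
  refine s17pp_plN N cl H E t hnc htΓ ht b (fun k σ hσ => hE _ (hbmem k) σ hσ) 2 (C' + C)
    (by norm_num) ?_
  intro p _
  obtain ⟨c, hc𝒞, hgood⟩ := h𝒞 (cl p)
  set k : Fin 𝒞.card := 𝒞.equivFin ⟨c, hc𝒞⟩ with hk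
  have hbk : b k = c := by
    rw [hb]
    simp [hk]
  obtain ⟨p₁, hp₁, hH⟩ := hc' k p
  have hcl : cl p₁ = cl p + b k := by
    have : cl p₁ = cl p - -(b k) := eq_sub_of_add_eq' hp₁
    rw [this, sub_neg_eq_add]
  refine ⟨k, ?_⟩
  rw [← hcl]
  have hg : S17poGood N (cl p₁) := by rw [hcl, hbk]; exact hgood
  have h1 := hC p₁ hg
  have h2 := hcle k
  linarith

/-- **PlT + (U) ⇒ PlN**, with the function `t` of `S17/RatFn.lean`. -/
theorem s17png_plN' (hN : 2 ≤ N) {P : Type*} (cl : P → JZero N) (H : P → ℝ)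
    (hT : S17hxPlT cl H)
    (hU : ∀ t : FF N, (∀ σ : Kb ≃ₐ[ℚ] Kb, galAct N σ • t = t) →
      (∀ v : Place Kb (FF N), v ≠ cuspInf N → 0 ≤ v.ord t) →
      (∀ c : Kb, t ≠ algebraMap Kb (FF N) c) →
      ∃ C : ℝ, ∀ p : P, S17poGood N (cl p) →
        s17haAbsQ (s17ppChow N t (cl p)) ≤ H p + C) :
    S17hxPlN cl H := by
  obtain ⟨t, htΓ, ht, hinf, -⟩ := s17rf_exists_ord N hN
  have hnc : ∀ c : Kb, t ≠ algebraMap Kb (FF N) c := by
    intro c hc
    rw [hc, PlaceAux.ord_algebraMap] at hinf
    exact lt_irrefl _ hinf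
  exact s17png_plN N cl H t hnc htΓ ht hT (hU t htΓ ht hnc)

end Fermat.Agent.S17

end
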