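/-
S17 sprint, layer H — **PlN-U** (helper99): the statement (U) of `S17/PlNGood.lean` in the
`S17plPlace` frame, from helper48's N3 (`S17/ChowHt.lean`, `s17n3_main`) and helper10's uniqueness
of the effective divisor of a GOOD class (`S17/Pool.lean`, `s17po_good_unique`).

Frame: `L` a field over `ℚ̄` (the stage field), `s : ι → L` (the basis of `L(2NΘ⁻)`),
`e i : FF N →ₐ[ℚ̄] L` (`i < g = genusFF`) the points of the generic tuple, `t : FF N` a function
with only pole `∞`; a type `P` of places with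
  `pl p : S17plPlace ℚ̄ L`, a chart `α p` (`S17plIsMin (pl p).W s (α p)`),
  the centres `Q p i` of `e i` along `(pl p).W`,
  `cl p = [Σ_i Q p i − g·∞]`   (`s17pnuCl`),   `H p = s17haAbsQ [s]_{pl p}`   (`s17pnuH`).
CHOW BLOCK: linear forms `c` and `Φ ≠ 0` with `Σ_i c n i • s i = Φ · (n-th Chow coordinate of
(e i t)_i)`; VISIBILITY at the good places: some form does not vanish at the place-value.

* `s17pnu_degree`   : `deg (Σ_i Q i) = g`;
* `s17pnu_red`      : at a good class, `Σ_i Q p i = s17h90Red N (cl p)` and no `Q p i` is `∞`;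
* `s17pnu_U`        : **(U)**: `∃ C, ∀ p, S17poGood N (cl p) → habs (s17ppChow N t (cl p)) ≤ H p + C`;
* `s17pnu_plN`      : hence `S17hxPlT cl H → S17hxPlN cl H` (`s17png_plN`).
-/
import Fermat.Agent.S17.PlNGood
import Fermat.Agent.S17.ChowHt

set_option autoImplicit false
set_option linter.unusedSectionVars false
set_option linter.style.haveILetI false

noncomputable section

namespace Fermat.Agent.S17

open ModularCurve AlgebraicCurve Polynomial Height
open Fermat.Agent.S24 Fermat.Agent.ES.M Fermat.Agent.ES.H Fermat.Agent.S15 Fermat.Agent.S26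
  Fermat.Agent.S27

variable (N : ℕ) [NeZero N]

/-- the divisor of a tuple of places. -/
def s17pnuDiv {g : ℕ} (Q : Fin g → Place Kb (FF N)) : Divisor Kb (FF N) :=
  ∑ i, (Finsupp.single (Q i) (1 : ℤ) : Divisor Kb (FF N))

theorem s17pnu_nonneg {g : ℕ} (Q : Fin g → Place Kb (FF N)) : 0 ≤ s17pnuDiv N Q := by
  unfold s17pnuDiv
  refine Finset.sum_nonneg fun i _ => ?_
  rw [Finsupp.le_def]
  intro v
  classical
  rw [Finsupp.single_apply]
  split_ifs
  · exact zero_le_one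
  · exact le_refl _

theorem s17pnu_degree {g : ℕ} (Q : Fin g → Place Kb (FF N)) :
    Divisor.degree (s17pnuDiv N Q) = (g : ℤ) := by
  unfold s17pnuDiv
  rw [map_sum]
  have h : ∀ i ∈ (Finset.univ : Finset (Fin g)),
      Divisor.degree (Finsupp.single (Q i) (1 : ℤ) : Divisor Kb (FF N)) = 1 := by
    intro i _
    rw [Divisor.degree_single, s27rd_deg_one (Q i) (s17h90_res_surj N (Q i))]
    simp
  rw [Finset.sum_congr rfl h]
  simp

/-- a place of the tuple occurs in its divisor. -/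
theorem s17pnu_apply_pos {g : ℕ} (Q : Fin g → Place Kb (FF N)) (i : Fin g) :
    0 < s17pnuDiv N Q (Q i) := by
  classical
  unfold s17pnuDiv
  rw [Finsupp.finsetSum_apply]
  have h0 : ∀ j ∈ (Finset.univ : Finset (Fin g)),
      0 ≤ (Finsupp.single (Q j) (1 : ℤ) : Divisor Kb (FF N)) (Q i) := by
    intro j _
    rw [Finsupp.single_apply]
    split_ifs
    · exact zero_le_one
    · exact le_refl _
  have h1 : (Finsupp.single (Q i) (1 : ℤ) : Divisor Kb (FF N)) (Q i) ≤
      ∑ j, (Finsupp.single (Q j) (1 : ℤ) : Divisor Kb (FF N)) (Q i) :=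
    Finset.single_le_sum (f := fun j => (Finsupp.single (Q j) (1 : ℤ) :
      Divisor Kb (FF N)) (Q i)) h0 (Finset.mem_univ i)
  rw [Finsupp.single_eq_same] at h1
  exact lt_of_lt_of_le zero_lt_one h1

/-- the class of the centre divisor of a tuple of `g` places. -/
def s17pnuCl {g : ℕ} (Q : Fin g → Place Kb (FF N)) : JZero N :=
  Pic0.mk (s17h90Div N (s17pnuDiv N Q))

/-- at a GOOD class the centre divisor is THE reduced divisor of the class and avoids `∞`. -/
theorem s17pnu_red (Q : Fin (genusFF Kb (FF N)) → Place Kb (FF N))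
    (hgood : S17poGood N (s17pnuCl N Q)) :
    s17pnuDiv N Q = s17h90Red N (s17pnuCl N Q) ∧ ∀ i, Q i ≠ cuspInf N := by
  refine ⟨s17po_good_unique N hgood (s17pnu_nonneg N Q) (s17pnu_degree N Q) rfl, fun i hi => ?_⟩
  have h1 := hgood (s17pnuDiv N Q) (s17pnu_nonneg N Q) (s17pnu_degree N Q) rfl
  have h2 := s17pnu_apply_pos N Q i
  rw [hi, h1] at h2
  exact lt_irrefl _ h2

section U

variable {L : Type*} [Field L] [Algebra Kb L] {ι : Type*} [Fintype ι]

/-- **(U)** in the `S17plPlace` frame. -/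
theorem s17pnu_U (s : ι → L) (e : Fin (genusFF Kb (FF N)) → FF N →ₐ[Kb] L) (t : FF N)
    (ht : ∀ v : Place Kb (FF N), v ≠ cuspInf N → 0 ≤ v.ord t)
    (c : Fin (genusFF Kb (FF N) + 1) → ι → Kb) (Φ : L) (hΦ : Φ ≠ 0)
    (hG : ∀ n, s17pvLin c s n = Φ * s17cvChow (fun i => e i t) n)
    {P : Type*} (pl : P → S17plPlace Kb L) (α : P → ι)
    (hα : ∀ p, S17plIsMin (pl p).W s (α p))
    (Q : P → Fin (genusFF Kb (FF N)) → Place Kb (FF N))
    (hQ : ∀ p i, S27ptIsCentre (pl p).W (e i) (Q p i))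
    (hvis : ∀ p, S17poGood N (s17pnuCl N (Q p)) →
      ∃ j₀, s17pvLinK c (s17plVal (pl p) s (α p) (hα p)) j₀ ≠ 0) :
    ∃ C : ℝ, ∀ p : P, S17poGood N (s17pnuCl N (Q p)) →
      s17haAbsQ (s17ppChow N t (s17pnuCl N (Q p))) ≤
        s17haAbsQ (s17plVal (pl p) s (α p) (hα p)) + C := by
  refine ⟨Real.log (Nat.card ι) + s17haAbsQ (fun q : Fin (genusFF Kb (FF N) + 1) × ι =>
    c q.1 q.2), fun p hgood => ?_⟩
  obtain ⟨hred, hinf⟩ := s17pnu_red N (Q p) hgood
  obtain ⟨j₀, hj₀⟩ := hvis p hgood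
  have hreg : ∀ i, t ∈ (Q p i).toValuationSubring := fun i =>
    PlaceAux.mem_of_ord_nonneg (Q p i) (ht (Q p i) (hinf i))
  have h := s17n3_main (pl p) s (α p) (hα p) c Φ hΦ e (Q p) (hQ p) t hG j₀ hj₀ hreg
  have e1 : s17ppChow N t (s17pnuCl N (Q p)) = fun n : Fin (genusFF Kb (FF N) + 1) =>
      (s17chForm t (∑ i, (Finsupp.single (Q p i) (1 : ℤ) : Divisor Kb (FF N)))).coeff n := by
    unfold s17ppChow
    rw [← hred]
    rfl
  rw [e1]
  exact h

/-- **PlN in the `S17plPlace` frame**: (T) + Chow block + visibility at good places ⇒ (N). -/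
theorem s17pnu_plN (s : ι → L) (e : Fin (genusFF Kb (FF N)) → FF N →ₐ[Kb] L) (t : FF N)
    (hnc : ∀ c : Kb, t ≠ algebraMap Kb (FF N) c)
    (htΓ : ∀ σ : Kb ≃ₐ[ℚ] Kb, galAct N σ • t = t)
    (ht : ∀ v : Place Kb (FF N), v ≠ cuspInf N → 0 ≤ v.ord t)
    (c : Fin (genusFF Kb (FF N) + 1) → ι → Kb) (Φ : L) (hΦ : Φ ≠ 0)
    (hG : ∀ n, s17pvLin c s n = Φ * s17cvChow (fun i => e i t) n)
    {P : Type*} (pl : P → S17plPlace Kb L) (α : P → ι)
    (hα : ∀ p, S17plIsMin (pl p).W s (α p))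
    (Q : P → Fin (genusFF Kb (FF N)) → Place Kb (FF N))
    (hQ : ∀ p i, S27ptIsCentre (pl p).W (e i) (Q p i))
    (hvis : ∀ p, S17poGood N (s17pnuCl N (Q p)) →
      ∃ j₀, s17pvLinK c (s17plVal (pl p) s (α p) (hα p)) j₀ ≠ 0)
    (hT : S17hxPlT (fun p => s17pnuCl N (Q p))
      (fun p => s17haAbsQ (s17plVal (pl p) s (α p) (hα p)))) :
    S17hxPlN (fun p => s17pnuCl N (Q p))
      (fun p => s17haAbsQ (s17plVal (pl p) s (α p) (hα p))) :=
  s17png_plN N _ _ t hnc htΓ ht hT (s17pnu_U N s e t ht c Φ hΦ hG pl α hα Q hQ hvis)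

end U

end Fermat.Agent.S17

end
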