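/-
S17 sprint, leaf FIN-ONE (helper28): finiteness and upper growth of `L(m Θ⁻)` and `L(m Θ)` for ONE
theta divisor, from the symmetric GROW clause of S27-B.

Abstract data: `K ⊆ 𝔉` fields, `b c : ValuationSubring 𝔉 → 𝔉` local equations.

* `s17f1_le_mul_right` / `s17f1_le_mul_left` : `L_b(m) ≤ L_{b c}(m)` when `c V ∈ V` (resp. `L_c(m)`);
* `s17f1_finite_of_le`, `s17f1_finrank_le_of_le` : finiteness / dimension pass to smaller spaces;
* **`s17f1_indB`** : from `S27IsGrow K (B 1 · B (−1)) g` (the GROW clause of `s27fs_Stmt`) and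
  `β V ∈ V`: for `k = 1` and `k = −1`,
  `∀ m, Module.Finite K (s27LU K (s27indB ψ β k) m)` and `finrank ≤ c₂ · m ^ g` (`m ≥ 1`).
  This is the hypothesis `hfin` of `s17sb_exists_fin` (SpanBpf), `s17ns_cover_of_finite` (NorthSeg)
  for `b = s27indB ψ β (−1)` (design A: ONE theta divisor).
-/
import Fermat.Agent.S27.Ind

set_option autoImplicit false

noncomputable section

namespace Fermat.Agent.S17

open Fermat.Agent.S27

universe u w

variable {K : Type u} [Field K] {𝔉 : Type w} [Field 𝔉] [Algebra K 𝔉]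

/-- `L_b(m) ≤ L_{b c}(m)` when `c` is integral along every `V ⊇ K`. -/
theorem s17f1_le_mul_right {b c : ValuationSubring 𝔉 → 𝔉}
    (hc : ∀ V : ValuationSubring 𝔉, S27IsKValU K V → c V ∈ V) (m : ℕ) :
    s27LU K b m ≤ s27LU K (fun V => b V * c V) m := by
  intro x hx V hV
  have h1 : x * b V ^ m ∈ V := hx V hV
  have h2 : c V ^ m ∈ V := pow_mem (hc V hV) m
  have h3 : x * (b V * c V) ^ m = x * b V ^ m * c V ^ m := by rw [mul_pow, mul_assoc]
  show x * (b V * c V) ^ m ∈ V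
  rw [h3]
  exact V.mul_mem _ _ h1 h2

/-- `L_c(m) ≤ L_{b c}(m)` when `b` is integral along every `V ⊇ K`. -/
theorem s17f1_le_mul_left {b c : ValuationSubring 𝔉 → 𝔉}
    (hb : ∀ V : ValuationSubring 𝔉, S27IsKValU K V → b V ∈ V) (m : ℕ) :
    s27LU K c m ≤ s27LU K (fun V => b V * c V) m := by
  intro x hx V hV
  have h1 : x * c V ^ m ∈ V := hx V hV
  have h2 : b V ^ m ∈ V := pow_mem (hb V hV) m
  have h3 : x * (b V * c V) ^ m = x * c V ^ m * b V ^ m := by
    rw [mul_pow, mul_comm (b V ^ m) (c V ^ m), mul_assoc]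
  show x * (b V * c V) ^ m ∈ V
  rw [h3]
  exact V.mul_mem _ _ h1 h2

/-- finiteness passes to a smaller `L`-space. -/
theorem s17f1_finite_of_le {S T : Submodule K 𝔉} (h : S ≤ T) (hT : Module.Finite K T) :
    Module.Finite K S :=
  haveI := hT
  Submodule.finiteDimensional_of_le h

/-- the dimension passes to a smaller `L`-space. -/
theorem s17f1_finrank_le_of_le {S T : Submodule K 𝔉} (h : S ≤ T) (hT : Module.Finite K T) :
    Module.finrank K S ≤ Module.finrank K T :=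
  haveI := hT
  Submodule.finrank_mono h

/-- **FIN-ONE**: finiteness and upper growth for ONE theta divisor (`Θ` and `Θ⁻`) from the
symmetric GROW clause. -/
theorem s17f1_indB (ψ : ℤ → (𝔉 →ₐ[K] 𝔉)) (β : ValuationSubring 𝔉 → 𝔉)
    (β_mem : ∀ V : ValuationSubring 𝔉, S27IsKValU K V → β V ∈ V) {g : ℕ}
    (hG : S27IsGrow K (fun V => s27indB ψ β 1 V * s27indB ψ β (-1) V) g) :
    ((∀ m, Module.Finite K (s27LU K (s27indB ψ β (-1)) m)) ∧
      ∃ c₂ : ℕ, ∀ m, 1 ≤ m →
        Module.finrank K (s27LU K (s27indB ψ β (-1)) m) ≤ c₂ * m ^ g) ∧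
    ((∀ m, Module.Finite K (s27LU K (s27indB ψ β 1) m)) ∧
      ∃ c₂ : ℕ, ∀ m, 1 ≤ m →
        Module.finrank K (s27LU K (s27indB ψ β 1) m) ≤ c₂ * m ^ g) := by
  have hm1 : ∀ V : ValuationSubring 𝔉, S27IsKValU K V → s27indB ψ β (-1) V ∈ V :=
    fun V hV => s27indB_mem ψ β β_mem (-1) hV
  have hp1 : ∀ V : ValuationSubring 𝔉, S27IsKValU K V → s27indB ψ β 1 V ∈ V :=
    fun V hV => s27indB_mem ψ β β_mem 1 hV
  have hle_neg : ∀ m, s27LU K (s27indB ψ β (-1)) m ≤
      s27LU K (fun V => s27indB ψ β 1 V * s27indB ψ β (-1) V) m :=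
    fun m => s17f1_le_mul_left (b := s27indB ψ β 1) (c := s27indB ψ β (-1)) hp1 m
  have hle_pos : ∀ m, s27LU K (s27indB ψ β 1) m ≤
      s27LU K (fun V => s27indB ψ β 1 V * s27indB ψ β (-1) V) m :=
    fun m => s17f1_le_mul_right (b := s27indB ψ β 1) (c := s27indB ψ β (-1)) hm1 m
  obtain ⟨c₁, c₂, hgr⟩ := hG.growth
  refine ⟨⟨fun m => s17f1_finite_of_le (hle_neg m) (hG.fin m), c₂, fun m hm => ?_⟩,
    ⟨fun m => s17f1_finite_of_le (hle_pos m) (hG.fin m), c₂, fun m hm => ?_⟩⟩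
  · exact le_trans (s17f1_finrank_le_of_le (hle_neg m) (hG.fin m)) (hgr m hm).2
  · exact le_trans (s17f1_finrank_le_of_le (hle_pos m) (hG.fin m)) (hgr m hm).2

end Fermat.Agent.S17

end
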