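/-
S17 sprint, leaf STAGE-GROW (helper28): the CLOSED S27-B stage, as ONE citable theorem.

For a curve `F / K` of genus `> 0` (`K` algebraically closed, characteristic `0`), EVERY admissible
choice of constants `hc : S27cstIsConst x G₀ O` (S27/Consts.lean) and EVERY family `q`
(`hq : S27pfFam (s27ftPkg hc.trans G₀ hc.deg) q`), with

  `ψ := s27pfPsi (s27ftPkg hc.trans G₀ hc.deg) s27dcl_halg hq`   (`ψ k = [k]^*` on `𝔉 = K(Sym^g C)`),
  `β := s27beta (G₀ + s27cstAo G₀ O)`                            (local equations of ONE theta divisor),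
  `B k V := s27indB ψ β k V = ψ k (β (V ∘ ψ k))`:

* `s17sgw_beta`  : `β V ≠ 0`, `β V ∈ V` for every `V ⊇ K`;
* `s17sgw_cube`  : `∃ e Φ, ∀ k ≠ 0, 0 < e k ∧ Φ k ≠ 0 ∧ ∀ V ⊇ K, ∃ u ∈ Vˣ,
                     (B (k+1) V · B (k−1) V) ^ e k = u · Φ k · (B k V ² · B 1 V · B (−1) V) ^ e k`;
* `s17sgw_grow`  : `S27IsGrow K (fun V => B 1 V * B (−1) V) g`   (fin, growth `≍ m^g`, gen);
* `s17sgw_fin`   : FIN for ONE theta: for `k = −1` and `k = 1`,
                     `∀ m, Module.Finite K (s27LU K (B k) m)` and `finrank ≤ c₂ · m ^ g`.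

Everything is wired from S27/Final.lean (`s27final_lea`), FinalProof / FinalTop2 (the same wiring as
`s27fp_main`, `s27ft2_main`, but for GIVEN constants and with the data exposed).
-/
import Fermat.Agent.S27.Final
import Fermat.Agent.S17.FinOne

set_option autoImplicit false
set_option linter.unusedVariables false
set_option linter.unusedSectionVars false
set_option linter.style.haveILetI false

noncomputable section

namespace Fermat.Agent.S17

open AlgebraicCurve Module TensorProduct IntermediateField Fermat.Agent.S26 Fermat.Agent.S27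

universe u v

variable {K : Type u} {F : Type v} [Field K] [Field F] [Algebra K F] [IsAlgClosed K] [CharZero K]
  [IsCurveOver K F] [Algebra.EssFiniteType K F]

/-- every `k ≠ 0` lies in some range `s27indbRange n`. -/
theorem s17sgw_mem_range {k : ℤ} (hk : k ≠ 0) : k ∈ s27indbRange (k.natAbs + 1) := by
  rw [s27indb_mem_range]
  refine ⟨hk, ?_, ?_⟩ <;> omega

/-- **the closed stage, core form**: `β_ne`, `β_mem`, the cube at every `k ≠ 0`, and GROW. -/
theorem s17sgw_main {x : F} {G₀ : Divisor K F} {O : Place K F} (hc : S27cstIsConst x G₀ O)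
    (hg : 0 < genusFF K F) :
    haveI := hc.fin
    haveI := hc.sep
    ∀ (q : ℤ → Fin (genusFF K F) → F →ₐ[K] s27mtL K F)
      (hq : S27pfFam (s27ftPkg hc.trans G₀ hc.deg) q),
      (∀ V, S27IsKValU K V → s27beta (g := genusFF K F) (G₀ + s27cstAo G₀ O) V ≠ 0) ∧
      (∀ V, S27IsKValU K V → s27beta (g := genusFF K F) (G₀ + s27cstAo G₀ O) V ∈ V) ∧
      (∃ (e : ℤ → ℕ) (Φ : ℤ → s27gfSym K F (genusFF K F)), ∀ k : ℤ, k ≠ 0 →
        0 < e k ∧ Φ k ≠ 0 ∧
        ∀ V : ValuationSubring (s27gfSym K F (genusFF K F)), S27IsKValU K V →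
          ∃ u, S27IsUnitIn V u ∧
            (s27indB (s27pfPsi (s27ftPkg hc.trans G₀ hc.deg) (s27dcl_halg (x := x)) hq)
                (s27beta (g := genusFF K F) (G₀ + s27cstAo G₀ O)) (k + 1) V *
              s27indB (s27pfPsi (s27ftPkg hc.trans G₀ hc.deg) (s27dcl_halg (x := x)) hq)
                (s27beta (g := genusFF K F) (G₀ + s27cstAo G₀ O)) (k - 1) V) ^ e k =
            u * Φ k *
              (s27indB (s27pfPsi (s27ftPkg hc.trans G₀ hc.deg) (s27dcl_halg (x := x)) hq)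
                  (s27beta (g := genusFF K F) (G₀ + s27cstAo G₀ O)) k V ^ 2 *
                s27indB (s27pfPsi (s27ftPkg hc.trans G₀ hc.deg) (s27dcl_halg (x := x)) hq)
                  (s27beta (g := genusFF K F) (G₀ + s27cstAo G₀ O)) 1 V *
                s27indB (s27pfPsi (s27ftPkg hc.trans G₀ hc.deg) (s27dcl_halg (x := x)) hq)
                  (s27beta (g := genusFF K F) (G₀ + s27cstAo G₀ O)) (-1) V) ^ e k) ∧
      S27IsGrow K (fun V =>
        s27indB (s27pfPsi (s27ftPkg hc.trans G₀ hc.deg) (s27dcl_halg (x := x)) hq)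
            (s27beta (g := genusFF K F) (G₀ + s27cstAo G₀ O)) 1 V *
          s27indB (s27pfPsi (s27ftPkg hc.trans G₀ hc.deg) (s27dcl_halg (x := x)) hq)
            (s27beta (g := genusFF K F) (G₀ + s27cstAo G₀ O)) (-1) V) (genusFF K F) := by
  haveI := hc.fin
  haveI := hc.sep
  intro q hq
  have hx := hc.trans
  have hl := hc.l_A
  have hpos : 0 < Module.finrank K ↥(riemannRochSpace (G₀ + s27cstAo G₀ O)) := by
    rw [hl]; exact hg
  haveI : Module.Finite K ↥(riemannRochSpace (G₀ + s27cstAo G₀ O)) :=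
    Module.finite_of_finrank_pos hpos
  let f₀ : Module.Basis (Fin (genusFF K F)) K ↥(riemannRochSpace (G₀ + s27cstAo G₀ O)) :=
    Module.finBasisOfFinrankEq K _ hl
  -- the four inputs, for the GIVEN constants
  have hLE : S27ftLE hx (s27cstAo G₀ O) :=
    s27lec_le (FL := s27mtFL K F) (s27stg_hld K F (s27mtL K F))
      (s27stg_hgen K F (s27mtL K F)) hx (s27cstAo G₀ O) hc.bot
      (s27final_lea K F hg x hx G₀ O hc)
  have hCP : S27ftCP hx G₀ hc.deg (s27cstAo G₀ O) :=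
    s27cpf_cp hx G₀ hc.deg hg (s27cstAo G₀ O) hc.bot hc.deg_Ao O f₀
  have hGR : S27ftGrow hx G₀ hc.deg (G₀ + s27cstAo G₀ O) q hq :=
    s27grc_grow hx G₀ hc.deg hg O hc.nonneg hc.off (G₀ + s27cstAo G₀ O)
      (s27cstf_A_eq_two G₀ O) f₀ q hq
  -- the wiring of `s27ft2_main`
  choose Φ hΦ hcp using hCP
  have hrange : ∀ (m : ℕ) (k : ℤ), k ∈ s27indbRange m → k ≠ 0 := fun m k hk =>
    (s27indb_mem_range.1 hk).1
  have hlat := s27flx_latEx K F hx (G₀ + s27cstAo G₀ O)
  obtain ⟨bne, bmem, bidx⟩ :=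
    s27betat_main (g := genusFF K F) (G₀ + s27cstAo G₀ O) f₀ hlat
  have hβ : S27pnBeta (L := s27mtL K F)
      (s27pnTaut (K := K) (F := F) (g := genusFF K F) (L := s27mtL K F)) (G₀ + s27cstAo G₀ O)
      (s27beta (g := genusFF K F) (G₀ + s27cstAo G₀ O)) :=
    s27pn_beta_main s27betac_conj (G₀ + s27cstAo G₀ O) f₀ hlat
  have hIdx : ∀ k : ℤ, k ≠ 0 → ∀ W : ValuationSubring (s27mtL K F), S27IsKValU K W →
      ∀ y : s27mtL K F, S27ptIsIdx W (q k) (G₀ + s27cstAo G₀ O) y →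
        s27ftIdx hx (s27cstAo G₀ O) W (k • s27ftEta hx G₀ hc.deg) y :=
    fun k hk W hW y hy => s27ic_hIdx (FL := s27mtFL K F) (s27stg_hld K F (s27mtL K F))
      (s27stg_hgen K F (s27mtL K F)) hx G₀ hc.deg hq (s27cstAo G₀ O) k hk W hW y hy
  set Φ' : ℤ → s27mtL K F := fun k => if hk : k = 0 then 1 else Φ k hk with hΦ'def
  have hΦ' : ∀ k : ℤ, k ≠ 0 → Φ' k ≠ 0 := fun k hk => by
    rw [hΦ'def]; simp only [dif_neg hk]; exact hΦ k hk
  have hcp' : ∀ k : ℤ, k ≠ 0 →
      S27ckCP K (s27ftIdx hx (s27cstAo G₀ O)) (k • s27ftEta hx G₀ hc.deg)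
        (s27ftEta hx G₀ hc.deg) (Φ' k) :=
    fun k hk => by rw [hΦ'def]; simp only [dif_neg hk]; exact hcp k hk
  have hcubeN := fun n : ℕ =>
    s27mc_cube (s27ftPkg hx G₀ hc.deg) (s27dcl_halg (x := x)) hq (G₀ + s27cstAo G₀ O)
      (s27beta (g := genusFF K F) (G₀ + s27cstAo G₀ O)) hβ (s27ftIdx hx (s27cstAo G₀ O))
      (s27ftEta hx G₀ hc.deg) hLE hIdx n Φ'
      (fun k hk => hΦ' k (hrange n k hk)) (fun k hk => hcp' k (hrange n k hk))
  refine ⟨bne, bmem,
    ⟨fun k => s27nmE (s27gfSym K F (genusFF K F)) (Φ' k)⁻¹,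
      fun k => s27nmPhi (s27gfSym K F (genusFF K F)) (Φ' k)⁻¹, fun k hk => ?_⟩, ?_⟩
  · obtain ⟨he, hΦn, hcube⟩ := hcubeN (k.natAbs + 1)
    exact ⟨he k (s17sgw_mem_range hk), hΦn k (s17sgw_mem_range hk),
      hcube k (s17sgw_mem_range hk)⟩
  · obtain ⟨he2, hΦ2, hcube2⟩ := hcubeN 2
    exact hGR _ (he2 1 s27fc_one_mem_range) _ (hΦ2 1 s27fc_one_mem_range)
      (hcube2 1 s27fc_one_mem_range)

/-- **FIN for ONE theta divisor on the closed stage** (`k = −1`: `Θ⁻`; `k = 1`: `Θ`). -/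
theorem s17sgw_fin {x : F} {G₀ : Divisor K F} {O : Place K F} (hc : S27cstIsConst x G₀ O)
    (hg : 0 < genusFF K F) :
    haveI := hc.fin
    haveI := hc.sep
    ∀ (q : ℤ → Fin (genusFF K F) → F →ₐ[K] s27mtL K F)
      (hq : S27pfFam (s27ftPkg hc.trans G₀ hc.deg) q),
      ((∀ m, Module.Finite K
          (s27LU K (s27indB (s27pfPsi (s27ftPkg hc.trans G₀ hc.deg) (s27dcl_halg (x := x)) hq)
            (s27beta (g := genusFF K F) (G₀ + s27cstAo G₀ O)) (-1)) m)) ∧
        ∃ c₂ : ℕ, ∀ m, 1 ≤ m → Module.finrank K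
          (s27LU K (s27indB (s27pfPsi (s27ftPkg hc.trans G₀ hc.deg) (s27dcl_halg (x := x)) hq)
            (s27beta (g := genusFF K F) (G₀ + s27cstAo G₀ O)) (-1)) m) ≤
              c₂ * m ^ genusFF K F) ∧
      ((∀ m, Module.Finite K
          (s27LU K (s27indB (s27pfPsi (s27ftPkg hc.trans G₀ hc.deg) (s27dcl_halg (x := x)) hq)
            (s27beta (g := genusFF K F) (G₀ + s27cstAo G₀ O)) 1) m)) ∧
        ∃ c₂ : ℕ, ∀ m, 1 ≤ m → Module.finrank K
          (s27LU K (s27indB (s27pfPsi (s27ftPkg hc.trans G₀ hc.deg) (s27dcl_halg (x := x)) hq)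
            (s27beta (g := genusFF K F) (G₀ + s27cstAo G₀ O)) 1) m) ≤
              c₂ * m ^ genusFF K F) := by
  haveI := hc.fin
  haveI := hc.sep
  intro q hq
  obtain ⟨-, bmem, -, hG⟩ := s17sgw_main hc hg q hq
  exact s17f1_indB _ _ bmem hG

end Fermat.Agent.S17

end
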