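/-
S17 sprint, layer H, PlN leaf **U1, K-side glue** (helper65): GOOD classes are off `Θ⁻`.

Stage constants of S27-B with `O″ := ∞ = cuspInf N`: `Ao = G₀ − ∞` (`s27cstAo G₀ (cuspInf N)`),
origin shift `δ = [G₀ − g·∞]` (`s17u1Delta N G₀ = Pic0.mk (s17h90Div N G₀)`).

* `s17u1_off`        : `S17poGood N (x + δ)` ⇒ `S17mvcOff Ao (−x)`, i.e. `L_K(Ao − X) = ⊥` for every
                       divisor `X` of degree `0` with `[X] = −x` (`x` is off `Θ⁻ = −Θ_{Ao}`);
* `s17u1_off_tuple`  : the same in the shape of the unit criteria (UNIT-CRIT `s17uc_unit`,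
                       NonSpecU, MOVE-VAL): for a tuple of places `Q'` with `[Σ Q' − G₀] = −x`
                       (the centres of the OPPOSITE tuple `q(−1)`):
                       `L_K(G₀ + Ao − Σ Q') = ⊥`;
* `s17u1_reduced`    : for the centre divisor `D = Σ Q` of a place with `[Σ Q − G₀] = x`:
                       `D` is reduced and `D = s17h90Red N (x + δ)` (input of U3).
-/
import Fermat.Agent.S17.Pool
import Fermat.Agent.S17.MoveCls
import Fermat.Agent.S27.Consts
import Fermat.Agent.S27.DegPkgO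

set_option autoImplicit false
set_option linter.unusedSectionVars false
set_option linter.unusedVariables false
set_option linter.style.haveILetI false

noncomputable section

namespace Fermat.Agent.S17

open ModularCurve AlgebraicCurve IntermediateField Module
open Fermat.Agent.S24 Fermat.Agent.ES.M Fermat.Agent.ES.H Fermat.Agent.S15 Fermat.Agent.S26
  Fermat.Agent.S27 Fermat.Agent.ES.R

variable (N : ℕ) [NeZero N]

/-- the origin shift `δ = [G₀ − (deg G₀)·∞]`. -/
def s17u1Delta (G₀ : Divisor Kb (FF N)) : JZero N := Pic0.mk (s17h90Div N G₀)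

/-- **U1, K-side**: a GOOD class `x + δ` is off `Θ⁻`: `L_K(Ao − X) = ⊥` for `[X] = −x`,
`Ao = G₀ − ∞`. -/
theorem s17u1_off (G₀ : Divisor Kb (FF N))
    (hG₀ : Divisor.degree G₀ = (genusFF Kb (FF N) : ℤ)) (x : JZero N)
    (hgood : S17poGood N (x + s17u1Delta N G₀)) :
    S17mvcOff (s27cstAo G₀ (cuspInf N)) (-x) := by
  classical
  haveI := hasPrincipalDivisors_FF N
  intro X hX
  rw [Submodule.eq_bot_iff]
  intro f hfm
  by_contra hf
  obtain ⟨Df, hDf, hDf0⟩ := HasPrincipalDivisors.exists_divisor (K := Kb) f hf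
  have hfm' := hfm
  rw [mem_riemannRochSpace_iff] at hfm'
  have hX0 : Divisor.degree (X : Divisor Kb (FF N)) = 0 := Divisor.mem_degZero.1 X.2
  set E : Divisor Kb (FF N) := Df + G₀ - (X : Divisor Kb (FF N)) with hE
  have hEv : ∀ v, E v = v.ord f + G₀ v - (X : Divisor Kb (FF N)) v := fun v => by
    simp only [hE, Finsupp.coe_sub, Finsupp.coe_add, Pi.sub_apply, Pi.add_apply, hDf v]
  have hAo : ∀ v, 0 ≤ v.ord f + (G₀ v - (Finsupp.single (cuspInf N) (1 : ℤ)) v)
      - (X : Divisor Kb (FF N)) v := fun v => by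
    have := (hfm' v).resolve_left hf
    unfold s27cstAo at this
    simp only [Finsupp.coe_sub, Pi.sub_apply] at this
    omega
  have hE0 : 0 ≤ E := by
    rw [Finsupp.le_def]
    intro v
    have h1 := hAo v
    rw [hEv]
    simp only [Finsupp.coe_zero, Pi.zero_apply]
    by_cases hvP : cuspInf N = v
    · subst hvP
      simp only [Finsupp.single_eq_same] at h1
      omega
    · simp only [Finsupp.single_eq_of_ne (Ne.symm hvP)] at h1
      omega
  have hEdeg : Divisor.degree E = (genusFF Kb (FF N) : ℤ) := by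
    rw [hE, map_sub, map_add, hDf0, hG₀, hX0]
    ring
  have hEmk : Pic0.mk (s17h90Div N E) = x + s17u1Delta N G₀ := by
    have hx : x = Pic0.mk (-X) := by
      have : Pic0.mk (-X) = -Pic0.mk X := rfl
      rw [this, hX, neg_neg]
    rw [hx]
    unfold s17u1Delta
    rw [← Pic0.mk_add, s17h90_mk_eq_iff]
    refine ⟨f⁻¹, inv_ne_zero hf, fun v => ?_⟩
    rw [s17h90Div_coe, hEdeg, v.ord_inv]
    simp only [AddSubgroup.coe_add, NegMemClass.coe_neg, Finsupp.coe_add, Finsupp.coe_neg,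
      Finsupp.coe_sub, Pi.add_apply, Pi.neg_apply, Pi.sub_apply, s17h90Div_coe, hG₀]
    rw [hEv]
    ring
  have hinf := hgood E hE0 hEdeg hEmk
  have h1 := hAo (cuspInf N)
  rw [hEv] at hinf
  simp only [Finsupp.single_eq_same] at h1
  omega

/-- all places of `FF N / Kb` have degree one. -/
theorem s17u1_hdeg (v : Place Kb (FF N)) : v.deg = 1 := by
  haveI := finiteDimensional_adjoin_jF N
  exact s26errg_deg_eq_one (jF N) (transcendental_jF N) v

/-- **U1, K-side, tuple form** (the hypothesis of the unit criteria at the OPPOSITE tuple):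
if the centres `Q'` of the opposite tuple have class `[Σ Q' − G₀] = −x` and `x + δ` is GOOD, then
`L_K(G₀ + Ao − Σ Q') = ⊥` (`Ao = G₀ − ∞`, `A' = G₀ + Ao`). -/
theorem s17u1_off_tuple (G₀ : Divisor Kb (FF N))
    (hG₀ : Divisor.degree G₀ = (genusFF Kb (FF N) : ℤ)) (x : JZero N)
    (hgood : S17poGood N (x + s17u1Delta N G₀))
    (Q' : Fin (genusFF Kb (FF N)) → Place Kb (FF N))
    (hQ' : s27pkgClO (s17u1_hdeg N) G₀ hG₀ Q' = -x) :
    riemannRochSpace (G₀ + s27cstAo G₀ (cuspInf N) - s27pkgSum Q') = ⊥ := by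
  have h := s17u1_off N G₀ hG₀ x hgood (s27pkgDivZeroO (s17u1_hdeg N) G₀ hG₀ Q') hQ'
  rw [s27pkgDivZeroO_coe] at h
  have e : s27cstAo G₀ (cuspInf N) - (s27pkgSum Q' - G₀)
      = G₀ + s27cstAo G₀ (cuspInf N) - s27pkgSum Q' := by abel
  rw [← e]
  exact h

/-- the class of `Σ Q − g·∞` is the class of `Σ Q − G₀` shifted by `δ`. -/
theorem s17u1_mk_sum (G₀ : Divisor Kb (FF N))
    (hG₀ : Divisor.degree G₀ = (genusFF Kb (FF N) : ℤ))
    (Q : Fin (genusFF Kb (FF N)) → Place Kb (FF N)) :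
    Pic0.mk (s17h90Div N (s27pkgSum Q)) =
      s27pkgClO (s17u1_hdeg N) G₀ hG₀ Q + s17u1Delta N G₀ := by
  unfold s27pkgClO s17u1Delta
  rw [← Pic0.mk_add]
  congr 1
  apply Subtype.ext
  show s27pkgSum Q - Finsupp.single (cuspInf N) (Divisor.degree (s27pkgSum Q)) =
    (s27pkgSum Q - G₀) + (G₀ - Finsupp.single (cuspInf N) (Divisor.degree G₀))
  rw [s27pkgSum_degree (s17u1_hdeg N), hG₀]
  abel

/-- **input of U3**: at a place whose centre class `x = [Σ Q − G₀]` has a GOOD shift `x + δ`, the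
centre divisor `Σ Q` is THE reduced divisor of `x + δ`. -/
theorem s17u1_reduced (G₀ : Divisor Kb (FF N))
    (hG₀ : Divisor.degree G₀ = (genusFF Kb (FF N) : ℤ)) (x : JZero N)
    (hgood : S17poGood N (x + s17u1Delta N G₀))
    (Q : Fin (genusFF Kb (FF N)) → Place Kb (FF N))
    (hQ : s27pkgClO (s17u1_hdeg N) G₀ hG₀ Q = x) :
    s27pkgSum Q = s17h90Red N (x + s17u1Delta N G₀) := by
  refine s17po_good_unique N hgood ?_ (s27pkgSum_degree (s17u1_hdeg N) Q) ?_
  · rw [Finsupp.le_def]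
    intro v
    exact s27pkgSum_nonneg Q v
  · rw [s17u1_mk_sum N G₀ hG₀ Q, hQ]

/-- the centre divisor of a GOOD place avoids `∞`. -/
theorem s17u1_avoid (G₀ : Divisor Kb (FF N))
    (hG₀ : Divisor.degree G₀ = (genusFF Kb (FF N) : ℤ)) (x : JZero N)
    (hgood : S17poGood N (x + s17u1Delta N G₀))
    (Q : Fin (genusFF Kb (FF N)) → Place Kb (FF N))
    (hQ : s27pkgClO (s17u1_hdeg N) G₀ hG₀ Q = x) (i : Fin (genusFF Kb (FF N))) :
    Q i ≠ cuspInf N := by
  intro hi
  have h0 : s27pkgSum Q (cuspInf N) = 0 :=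
    hgood (s27pkgSum Q) (by rw [Finsupp.le_def]; intro v; exact s27pkgSum_nonneg Q v)
      (s27pkgSum_degree (s17u1_hdeg N) Q) (by rw [s17u1_mk_sum N G₀ hG₀ Q, hQ])
  have h1 : (1 : ℤ) ≤ s27pkgSum Q (cuspInf N) := by
    unfold s27pkgSum
    rw [Finsupp.finsetSum_apply]
    have hle : (Finsupp.single (Q i) (1 : ℤ)) (cuspInf N) ≤
        ∑ j, (Finsupp.single (Q j) (1 : ℤ)) (cuspInf N) :=
      Finset.single_le_sum (f := fun j => (Finsupp.single (Q j) (1 : ℤ)) (cuspInf N))
        (fun j _ => by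
          by_cases h : Q j = cuspInf N
          · rw [h, Finsupp.single_eq_same]; norm_num
          · rw [Finsupp.single_eq_of_ne (Ne.symm h)])
        (Finset.mem_univ i)
    rw [hi, Finsupp.single_eq_same] at hle
    exact hle
  omega

end Fermat.Agent.S17

end
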