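/-
S17 sprint, layer H — **HVIS** (helper41): the VISIBILITY hypothesis `hvis` of PlN
(`S17/PlNU.lean`, `S17/PlNModel.lean`) on the S27-B stage = the place side of (U1).

Stage: `K` algebraically closed of characteristic `0`, `F / K` a curve of genus `g`, `L ⊇ Ω_g`,
a family `q` (`S27pfFam pkg q`), `ψ = s27pfPsi pkg halg hq`, `β` a local equation of the theta
divisor of `A'` at the tautological tuple (`S27pnBeta`), `B k = s27indB ψ β k` (`B 1`: `Θ`,
`B (−1)`: `Θ⁻`); `P` a `K`-rational place of `L` (`S17plPlace K L`).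

* `s17hv_res`        : a `K`-rational place has residue field `K` (the `hres` of MOVE-VAL);
* `s17hv_unit_eq`    : centres `Q` of an injective tuple `R` along `P.W`, `L_K(A' − Σ Q) = ⊥` ⇒
                       every local equation up to a unit (`S27pnIsEq P.W R A' y`) is a unit of `P.W`;
* `s17hv_unit_B`     : **UNIT**: `L_K(A' − Σ Q') = ⊥` for the centres `Q'` of the tuple `q k`
                       ⇒ `B k (P.W ∩ 𝔉)` is a unit of `P.W`;
* `s17hv_mem`        : then every `σ ∈ s27LU K (B k) m` lies in `P.W`;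
* `s17hv_centre_smul`: the centres of a tuple of class `k • η` have class `k • x_P`;
* `s17hv_off`        : on `J₀(N)` with `O = cuspInf N`: `[Σ Q − g∞]` GOOD and `Q'` of the opposite
                       class ⇒ `L_K(G₀ + Ao − Σ Q') = ⊥`   (helper65's `s17u1_off_tuple`);
* `s17hv_unit_good`  : `e` of class `(−k) • η` with GOOD centre class ⇒ `B k (P.W ∩ 𝔉)` is a unit;
* **`s17hv_vis`**    : **hvis**: for a tuple `s = emb ∘ σ`, `σ i ∈ s27LU K (B k) m`, and a Chow block
                       `hG : s17pvLin c s n = s17cvChow z n`: at every place where the centres of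
                       `e` (class `(−k) • η`) have a GOOD class `[Σ Q − g∞]` the block is visible at
                       the index `Fin.last g`.  `k = 1`, `e = q (−1)`: the captain's ruling (A),
                       `b = B 1`;  `k = −1`, `e` the tautological tuple: `b = B (−1)`;
* `s17hv_beta`       : `β = s27beta (G₀ + Ao)` satisfies `S27pnBeta` on the closed stage;
* **`s17hv_vis_stage`** : `s17hv_vis` on the closed stage `L = s27mtL`, for ANY constants
                       `hc : S27cstIsConst x G₀ (cuspInf N)` and ANY family `q`.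
-/
import Fermat.Agent.S17.UOne
import Fermat.Agent.S17.MoveVal
import Fermat.Agent.S17.CentreOnto
import Fermat.Agent.S17.CentreHom
import Fermat.Agent.S17.PlNU
import Fermat.Agent.S17.ChowGood
import Fermat.Agent.S27.ModelCube
import Fermat.Agent.S27.PoleDivOppT
import Fermat.Agent.S17.StageGrow

set_option autoImplicit false
set_option linter.unusedVariables false
set_option linter.unusedSectionVars false
set_option linter.style.haveILetI false
set_option linter.style.longLine false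

noncomputable section

namespace Fermat.Agent.S17

open ModularCurve AlgebraicCurve Module TensorProduct IntermediateField
open Fermat.Agent.S24 Fermat.Agent.ES.M Fermat.Agent.ES.H Fermat.Agent.S15 Fermat.Agent.S26
  Fermat.Agent.S27 Fermat.Agent.DEU

universe u v x y

section Gen

variable {K : Type u} {F : Type v} [Field K] [IsAlgClosed K] [CharZero K] [Field F] [Algebra K F]
  [IsCurveOver K F] [Algebra.EssFiniteType K F]
  {L : Type (max u v)} [Field L] [Algebra K L]

/-- a `K`-rational place has residue field `K`. -/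
theorem s17hv_res (P : S17plPlace K L) :
    ∀ w ∈ P.W, ∃ c : K, w - algebraMap K L c ∈ P.W.nonunits := by
  intro w hw
  refine ⟨P.res ⟨w, hw⟩, ?_⟩
  have hmem : w - algebraMap K L (P.res ⟨w, hw⟩) ∈ P.W := P.W.sub_mem hw (P.hKW _)
  have h0 : P.res ⟨w - algebraMap K L (P.res ⟨w, hw⟩), hmem⟩ = 0 := by
    have e : (⟨w - algebraMap K L (P.res ⟨w, hw⟩), hmem⟩ : ↥P.W) =
        ⟨w, hw⟩ - ⟨algebraMap K L (P.res ⟨w, hw⟩), P.hKW _⟩ := rfl
    rw [e, map_sub, P.hres, sub_self]
  rw [ValuationSubring.mem_nonunits_iff_exists_mem_maximalIdeal]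
  refine ⟨hmem, ?_⟩
  rw [IsLocalRing.mem_maximalIdeal, mem_nonunits_iff]
  intro hu
  have := hu.map P.res
  rw [h0] at this
  exact not_isUnit_zero this

/-- **non-special centre ⇒ unit**, for local equations up to a unit. -/
theorem s17hv_unit_eq (P : S17plPlace K L) {N : ℕ} (R : Fin N → F →ₐ[K] L)
    (hR : Function.Injective R) (A' : Divisor K F) (Q : Fin N → Place K F)
    (hQ : ∀ i, S27ptIsCentre P.W (R i) (Q i))
    (hoff : riemannRochSpace (A' - s27pkgSum Q) = ⊥)
    (y : L) (hy : S27pnIsEq P.W R A' y) : S27IsUnitIn P.W y := by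
  obtain ⟨z, hz, u, hu, rfl⟩ := hy
  have hz' : S27IsUnitIn P.W z :=
    s17mvv_unit P.W P.hKW (s17hv_res P) R hR A' Q hQ hoff z hz
  exact s27pn_unit_mul hu hz'

end Gen

section StageB

variable {K : Type u} {F : Type v} [Field K] [IsAlgClosed K] [CharZero K] [Field F] [Algebra K F]
  [IsCurveOver K F] [Algebra.EssFiniteType K F] {g : ℕ}
  {L : Type (max u v)} [Field L] [Algebra K L] [Algebra (s27gfOm K F g) L]
  [IsScalarTower K (s27gfOm K F g) L] [IsAlgClosed L] [Algebra.IsAlgebraic (s27gfOm K F g) L]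
  {t : F} {Pl : Type x} {Pc : Type y} [AddCommGroup Pc] (pkg : S27DegPkg K F L t g Pl Pc)
  [IsGalois (s27gfSym K F g) L]

/-- **UNIT**: if the centres `Q'` of the tuple `q k` along the `K`-rational place `P` satisfy
`L_K(A' − Σ Q') = ⊥`, then `B k (P.W ∩ 𝔉)` is a unit of `P.W`. -/
theorem s17hv_unit_B (halg : ∀ f : F, IsAlgebraic (IntermediateField.adjoin K {t}) f)
    {q : ℤ → Fin g → F →ₐ[K] L} (hq : S27pfFam pkg q) (A' : Divisor K F)
    (β : ValuationSubring (s27gfSym K F g) → s27gfSym K F g)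
    (hβ : S27pnBeta (L := L) (s27pnTaut (K := K) (F := F) (g := g) (L := L)) A' β)
    (k : ℤ) (hk : k ≠ 0) (P : S17plPlace K L) (Q' : Fin g → Place K F)
    (hQ' : ∀ i, S27ptIsCentre P.W (q k i) (Q' i))
    (hoff : riemannRochSpace (A' - s27pkgSum Q') = ⊥) :
    S27IsUnitIn P.W (algebraMap (s27gfSym K F g) L
      (s27indB (s27pfPsi pkg halg hq) β k (P.W.comap (algebraMap (s27gfSym K F g) L)))) := by
  have h1 := s27pn_indB_of_lift A' β hβ (s27pfPsi pkg halg hq) q k hk
    ⟨(s27pf_fam_pt pkg halg hq k hk).inj, fun s => s27pfPsi_spec pkg halg hq k hk s⟩ P.W P.hKW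
  exact s17hv_unit_eq P (q k) (s27oppt_fam_inj pkg q hq k hk) A' Q' hQ' hoff _ h1

/-- every element of `L(m D)`, `D` the divisor with local equations `B k`, lies in `P.W` as soon
as `B k (P.W ∩ 𝔉)` is a unit of `P.W`. -/
theorem s17hv_mem (b : ValuationSubring (s27gfSym K F g) → s27gfSym K F g) (m : ℕ)
    (P : S17plPlace K L)
    (hu : S27IsUnitIn P.W (algebraMap (s27gfSym K F g) L
      (b (P.W.comap (algebraMap (s27gfSym K F g) L)))))
    (σ : s27gfSym K F g) (hσ : σ ∈ s27LU K b m) :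
    algebraMap (s27gfSym K F g) L σ ∈ P.W := by
  have hV : S27IsKValU K (P.W.comap (algebraMap (s27gfSym K F g) L)) := by
    intro a
    rw [ValuationSubring.mem_comap, ← IsScalarTower.algebraMap_apply K (s27gfSym K F g) L]
    exact P.hKW a
  have h1 := hσ _ hV
  rw [ValuationSubring.mem_comap, map_mul, map_pow] at h1
  exact s17n3_mem_of_unit P.W m h1 hu.1 hu.2.2

end StageB

section Cls

variable {K : Type u} {F : Type v} [Field K] [IsAlgClosed K] [CharZero K] [Field F] [Algebra K F]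
  [IsCurveOver K F] [Algebra.EssFiniteType K F]
  {L : Type (max u v)} [Field L] [Algebra K L]
  [Algebra (s27gfOm K F (genusFF K F)) L] [IsScalarTower K (s27gfOm K F (genusFF K F)) L]
  [IsAlgClosed L] [Algebra.IsAlgebraic (s27gfOm K F (genusFF K F)) L]
  {FL : Type y} [Field FL] [Algebra K FL] [Algebra F FL] [Algebra L FL]
  [IsScalarTower K F FL] [IsScalarTower K L FL]
  (hld : Function.Injective (s26gspMu K F L FL)) (hgen : S26gspGen K F L FL)
  {x : F} (hx : Transcendental K x)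
  [FiniteDimensional ↥(IntermediateField.adjoin K {x}) F]
  [Algebra.IsSeparable ↥(IntermediateField.adjoin K {x}) F]
  (G₀ : Divisor K F) (hG₀ : Divisor.degree G₀ = (genusFF K F : ℤ))

/-- the centres of a tuple of class `k • η` along `P` have class `k • x_P`. -/
theorem s17hv_centre_smul (P : S17plPlace K L) (k : ℤ)
    (e : Fin (genusFF K F) → F →ₐ[K] L) (Q : Fin (genusFF K F) → Place K F)
    (hQ : ∀ i, S27ptIsCentre P.W (e i) (Q i))
    (he : s27pfCl (s27dclPkg hld hgen hx G₀ hG₀) e =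
      k • s27pfCl (s27dclPkg hld hgen hx G₀ hG₀)
        (s27pfTaut (K := K) (F := F) (g := genusFF K F) (L := L))) :
    s27pkgClO (s17ds_hdegK (s26gspf_hall hx)) G₀ hG₀ Q = k • s17coCl hld hgen hx G₀ hG₀ P := by
  have h := s17coCl_affine hld hgen hx G₀ hG₀ P k 0 e Q hQ (by
    rw [map_zero, add_zero]
    exact he)
  rw [add_zero] at h
  exact h

end Cls

section JZ

variable (N : ℕ) [NeZero N]

/-- **GOOD ⇒ OFF**: if `Q` has a GOOD class `[Σ Q − g∞]` and `Q'` has the opposite class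
(w.r.t. the origin `G₀`), then `L_K(G₀ + Ao − Σ Q') = ⊥`, `Ao = G₀ − ∞`. -/
theorem s17hv_off (G₀ : Divisor Kb (FF N))
    (hG₀ : Divisor.degree G₀ = (genusFF Kb (FF N) : ℤ))
    (hdeg : ∀ w : Place Kb (FF N), w.deg = 1)
    (Q Q' : Fin (genusFF Kb (FF N)) → Place Kb (FF N))
    (hgood : S17poGood N (s17pnuCl N Q))
    (hopp : s27pkgClO hdeg G₀ hG₀ Q' = - s27pkgClO hdeg G₀ hG₀ Q) :
    riemannRochSpace (G₀ + s27cstAo G₀ (cuspInf N) - s27pkgSum Q') = ⊥ := by
  refine s17u1_off_tuple N G₀ hG₀ (s27pkgClO hdeg G₀ hG₀ Q) ?_ Q' hopp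
  have h := s17u1_mk_sum N G₀ hG₀ Q
  have e : s17pnuCl N Q = Pic0.mk (s17h90Div N (s27pkgSum Q)) := rfl
  rw [e, h] at hgood
  exact hgood

variable [IsCurveOver Kb (FF N)] [Algebra.EssFiniteType Kb (FF N)]
  {L : Type} [Field L] [Algebra Kb L]
  [Algebra (s27gfOm Kb (FF N) (genusFF Kb (FF N))) L]
  [IsScalarTower Kb (s27gfOm Kb (FF N) (genusFF Kb (FF N))) L]
  [IsAlgClosed L] [Algebra.IsAlgebraic (s27gfOm Kb (FF N) (genusFF Kb (FF N))) L]
  [IsGalois (s27gfSym Kb (FF N) (genusFF Kb (FF N))) L]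
  {FL : Type y} [Field FL] [Algebra Kb FL] [Algebra (FF N) FL] [Algebra L FL]
  [IsScalarTower Kb (FF N) FL] [IsScalarTower Kb L FL]
  (hld : Function.Injective (s26gspMu Kb (FF N) L FL)) (hgen : S26gspGen Kb (FF N) L FL)
  {x : FF N} (hx : Transcendental Kb x)
  [FiniteDimensional ↥(IntermediateField.adjoin Kb {x}) (FF N)]
  [Algebra.IsSeparable ↥(IntermediateField.adjoin Kb {x}) (FF N)]
  (G₀ : Divisor Kb (FF N)) (hG₀ : Divisor.degree G₀ = (genusFF Kb (FF N) : ℤ))

/-- **UNIT at the good places**: `e` a tuple of class `(−k) • η` with centres `Q` along `P`;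
if `[Σ Q − g∞]` is GOOD then `B k (P.W ∩ 𝔉)` is a unit of `P.W`
(`β` a local equation of the theta divisor of `G₀ + Ao`, `Ao = G₀ − ∞`). -/
theorem s17hv_unit_good
    {q : ℤ → Fin (genusFF Kb (FF N)) → FF N →ₐ[Kb] L}
    (hq : S27pfFam (s27dclPkg hld hgen hx G₀ hG₀) q)
    (β : ValuationSubring (s27gfSym Kb (FF N) (genusFF Kb (FF N))) →
      s27gfSym Kb (FF N) (genusFF Kb (FF N)))
    (hβ : S27pnBeta (L := L)
      (s27pnTaut (K := Kb) (F := FF N) (g := genusFF Kb (FF N)) (L := L))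
      (G₀ + s27cstAo G₀ (cuspInf N)) β)
    (k : ℤ) (hk : k ≠ 0) (e : Fin (genusFF Kb (FF N)) → FF N →ₐ[Kb] L)
    (he : s27pfCl (s27dclPkg hld hgen hx G₀ hG₀) e =
      (-k) • s27pfCl (s27dclPkg hld hgen hx G₀ hG₀)
        (s27pfTaut (K := Kb) (F := FF N) (g := genusFF Kb (FF N)) (L := L)))
    (P : S17plPlace Kb L) (Q : Fin (genusFF Kb (FF N)) → Place Kb (FF N))
    (hQ : ∀ i, S27ptIsCentre P.W (e i) (Q i))
    (hgood : S17poGood N (s17pnuCl N Q)) :
    S27IsUnitIn P.W (algebraMap (s27gfSym Kb (FF N) (genusFF Kb (FF N))) L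
      (s27indB (s27pfPsi (s27dclPkg hld hgen hx G₀ hG₀) (s27dcl_halg (x := x)) hq) β k
        (P.W.comap (algebraMap (s27gfSym Kb (FF N) (genusFF Kb (FF N))) L)))) := by
  have hc : ∀ i, ∃ Q' : Place Kb (FF N), S27ptIsCentre P.W (q k i) Q' :=
    fun i => s17ch2_exists_centre P hx (q k i)
  choose Q' hQ' using hc
  have h1 := s17hv_centre_smul hld hgen hx G₀ hG₀ P k (q k) Q' hQ' (hq k hk).2
  have h2 := s17hv_centre_smul hld hgen hx G₀ hG₀ P (-k) e Q hQ he
  have hopp : s27pkgClO (s17ds_hdegK (s26gspf_hall hx)) G₀ hG₀ Q' =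
      - s27pkgClO (s17ds_hdegK (s26gspf_hall hx)) G₀ hG₀ Q := by
    rw [h1, h2, neg_smul, neg_neg]
  have hoff := s17hv_off N G₀ hG₀ (s17ds_hdegK (s26gspf_hall hx)) Q Q' hgood hopp
  exact s17hv_unit_B (s27dclPkg hld hgen hx G₀ hG₀) (s27dcl_halg (x := x)) hq
    (G₀ + s27cstAo G₀ (cuspInf N)) β hβ k hk P Q' hQ' hoff

variable {ι : Type*} [Fintype ι]

/-- **hvis**: the tuple `s = emb ∘ σ` with `σ i ∈ L(m D)` (`D` the divisor with local equations
`B k`), a Chow block `hG` for ANY tuple `z` of `L`: at every place `P` such that the centres `Q`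
of a tuple `e` of class `(−k) • η` have a GOOD class `[Σ Q − g∞]`, the block is VISIBLE at the index
`Fin.last g`.  (`k = 1`, `e = q (−1)`: ruling (A), `b = B 1`; `k = −1`, `e` the tautological
tuple: `b = B (−1)`.) -/
theorem s17hv_vis
    {q : ℤ → Fin (genusFF Kb (FF N)) → FF N →ₐ[Kb] L}
    (hq : S27pfFam (s27dclPkg hld hgen hx G₀ hG₀) q)
    (β : ValuationSubring (s27gfSym Kb (FF N) (genusFF Kb (FF N))) →
      s27gfSym Kb (FF N) (genusFF Kb (FF N)))
    (hβ : S27pnBeta (L := L)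
      (s27pnTaut (K := Kb) (F := FF N) (g := genusFF Kb (FF N)) (L := L))
      (G₀ + s27cstAo G₀ (cuspInf N)) β)
    (k : ℤ) (hk : k ≠ 0) (e : Fin (genusFF Kb (FF N)) → FF N →ₐ[Kb] L)
    (he : s27pfCl (s27dclPkg hld hgen hx G₀ hG₀) e =
      (-k) • s27pfCl (s27dclPkg hld hgen hx G₀ hG₀)
        (s27pfTaut (K := Kb) (F := FF N) (g := genusFF Kb (FF N)) (L := L)))
    (m : ℕ) (σ : ι → s27gfSym Kb (FF N) (genusFF Kb (FF N)))
    (hσ : ∀ i, σ i ∈ s27LU Kb
      (s27indB (s27pfPsi (s27dclPkg hld hgen hx G₀ hG₀) (s27dcl_halg (x := x)) hq) β k) m)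
    (c : Fin (genusFF Kb (FF N) + 1) → ι → Kb) (z : Fin (genusFF Kb (FF N)) → L)
    (hG : ∀ n, s17pvLin c
      (fun i => algebraMap (s27gfSym Kb (FF N) (genusFF Kb (FF N))) L (σ i)) n = s17cvChow z n)
    (P : S17plPlace Kb L) (α : ι)
    (hα : S17plIsMin P.W
      (fun i => algebraMap (s27gfSym Kb (FF N) (genusFF Kb (FF N))) L (σ i)) α)
    (Q : Fin (genusFF Kb (FF N)) → Place Kb (FF N))
    (hQ : ∀ i, S27ptIsCentre P.W (e i) (Q i))
    (hgood : S17poGood N (s17pnuCl N Q)) :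
    s17pvLinK c (s17plVal P
      (fun i => algebraMap (s27gfSym Kb (FF N) (genusFF Kb (FF N))) L (σ i)) α hα)
      (Fin.last (genusFF Kb (FF N))) ≠ 0 := by
  have hu := s17hv_unit_good N hld hgen hx G₀ hG₀ hq β hβ k hk e he P Q hQ hgood
  have hmem := s17hv_mem (K := Kb) (F := FF N) (L := L) _ m P hu (σ α) (hσ α)
  exact s17n3_vis_of_mem P _ α hα c z hG hmem

end JZ

section ClosedGen

variable {K : Type u} {F : Type v} [Field K] [Field F] [Algebra K F] [IsAlgClosed K] [CharZero K]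
  [IsCurveOver K F] [Algebra.EssFiniteType K F]

/-- the local equation `β = s27beta (G₀ + Ao)` of the closed stage is a local equation at the
tautological tuple. -/
theorem s17hv_beta {x : F} {G₀ : Divisor K F} {O : Place K F}
    (hc : S27cstIsConst x G₀ O) (hg : 0 < genusFF K F) :
    S27pnBeta (L := s27mtL K F)
      (s27pnTaut (K := K) (F := F) (g := genusFF K F) (L := s27mtL K F))
      (G₀ + s27cstAo G₀ O) (s27beta (g := genusFF K F) (G₀ + s27cstAo G₀ O)) := by
  haveI := hc.fin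
  haveI := hc.sep
  have hl := hc.l_A
  have hpos : 0 < Module.finrank K ↥(riemannRochSpace (G₀ + s27cstAo G₀ O)) := by
    rw [hl]; exact hg
  haveI : Module.Finite K ↥(riemannRochSpace (G₀ + s27cstAo G₀ O)) :=
    Module.finite_of_finrank_pos hpos
  exact s27pn_beta_main s27betac_conj (G₀ + s27cstAo G₀ O)
    (Module.finBasisOfFinrankEq K _ hl) (s27flx_latEx K F hc.trans (G₀ + s27cstAo G₀ O))

end ClosedGen

section Closed

variable (N : ℕ) [NeZero N] [IsCurveOver Kb (FF N)] [Algebra.EssFiniteType Kb (FF N)]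

variable {ι : Type*} [Fintype ι]

/-- **hvis on the closed stage**, constants `hc : S27cstIsConst x G₀ (cuspInf N)`. -/
theorem s17hv_vis_stage {x : FF N} {G₀ : Divisor Kb (FF N)}
    (hc : S27cstIsConst x G₀ (cuspInf N)) (hg : 0 < genusFF Kb (FF N)) :
    haveI := hc.fin
    haveI := hc.sep
    ∀ (q : ℤ → Fin (genusFF Kb (FF N)) → FF N →ₐ[Kb] s27mtL Kb (FF N))
      (hq : S27pfFam (s27ftPkg hc.trans G₀ hc.deg) q) (k : ℤ) (hk : k ≠ 0)
      (e : Fin (genusFF Kb (FF N)) → FF N →ₐ[Kb] s27mtL Kb (FF N))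
      (he : s27pfCl (s27ftPkg hc.trans G₀ hc.deg) e =
        (-k) • s27pfCl (s27ftPkg hc.trans G₀ hc.deg)
          (s27pfTaut (K := Kb) (F := FF N) (g := genusFF Kb (FF N)) (L := s27mtL Kb (FF N))))
      (m : ℕ) (σ : ι → s27gfSym Kb (FF N) (genusFF Kb (FF N)))
      (hσ : ∀ i, σ i ∈ s27LU Kb
        (s27indB (s27pfPsi (s27ftPkg hc.trans G₀ hc.deg) (s27dcl_halg (x := x)) hq)
          (s27beta (g := genusFF Kb (FF N)) (G₀ + s27cstAo G₀ (cuspInf N))) k) m)
      (c : Fin (genusFF Kb (FF N) + 1) → ι → Kb)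
      (z : Fin (genusFF Kb (FF N)) → s27mtL Kb (FF N))
      (hG : ∀ n, s17pvLin c (fun i => algebraMap (s27gfSym Kb (FF N) (genusFF Kb (FF N)))
        (s27mtL Kb (FF N)) (σ i)) n = s17cvChow z n)
      (P : S17plPlace Kb (s27mtL Kb (FF N))) (α : ι)
      (hα : S17plIsMin P.W (fun i => algebraMap (s27gfSym Kb (FF N) (genusFF Kb (FF N)))
        (s27mtL Kb (FF N)) (σ i)) α)
      (Q : Fin (genusFF Kb (FF N)) → Place Kb (FF N))
      (hQ : ∀ i, S27ptIsCentre P.W (e i) (Q i))
      (hgood : S17poGood N (s17pnuCl N Q)),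
      s17pvLinK c (s17plVal P (fun i => algebraMap (s27gfSym Kb (FF N) (genusFF Kb (FF N)))
        (s27mtL Kb (FF N)) (σ i)) α hα) (Fin.last (genusFF Kb (FF N))) ≠ 0 := by
  haveI := hc.fin
  haveI := hc.sep
  intro q hq k hk e he m σ hσ c z hG P α hα Q hQ hgood
  exact s17hv_vis N (FL := s27mtFL Kb (FF N)) (s27stg_hld Kb (FF N) (s27mtL Kb (FF N)))
    (s27stg_hgen Kb (FF N) (s27mtL Kb (FF N))) hc.trans G₀ hc.deg hq _
    (s17hv_beta hc hg) k hk e he m σ hσ c z hG P α hα Q hQ hgood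

end Closed

end Fermat.Agent.S17

end
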