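/-
S17 sprint, leaf W2-LEVFIN, part (lev) (helper4): **(open) + (unr) ⇒ (lev)**.

Weak Mordell–Weil WITHOUT Hermite–Minkowski: the library has the finiteness of
`H¹(G_{ℚ,T}, A)` (`Fermat.Agent.TW.G.stmtLevFin`, from the class field theory of S55/S56) for the
tower `towerS T = {Gal(ℚ̄/F) | F/ℚ finite, unramified outside T}` (`PT/B/Towers.lean`).  The Kummer
cocycles `σ ↦ σ y − y` (`p • y` rational) are LEVEL cocycles for this tower as soon as the
stabiliser of `y` is a member of the tower.  This file proves that membership: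

* `s17lu_level`     : a subgroup `H ≤ G_ℚ` which contains `Gal(ℚ̄/E)`, `E/ℚ` finite, and all inertia
                      groups at the primes `q ∉ T`, is a member of `towerS T`
                      (`H = Gal(ℚ̄/F)`, `F = ℚ̄^H` finite and unramified outside `T`);
* `s17lu_stab`      : abstract `G_ℚ`-module `J`: (open) + (unr) ⇒ `Stab(y) ∈ (towerS T).lev` for every
                      `y` with `p • y` fixed by `G_ℚ`;
* `s17lu_lev_abs`   : the same as `∃ F, F.IsUnramifiedOutside T ∧ ∀ σ ∈ Gal(ℚ̄/F), σ • y = y`;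
* `s17lu_ker`       : the kernel of the action on the (finite) `p`-torsion is a member of `towerS T`;
* `S17luOpen`, `S17luUnr`, `S17luLev` and `s17lu_lev` : the statements for `J₀(N)`;
* `s17luT m N`, `s17lu_unr_of_nat` : the set `T` of the primes dividing `m * N`, and (unr) from the
                      captain's form W3 (`ℓ` prime, `¬ ℓ ∣ m * N`).
-/
import Fermat.Agent.S17.Top
import Fermat.Agent.PT.B.Towers

set_option autoImplicit false
set_option linter.unusedVariables false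
set_option linter.unusedSectionVars false
set_option linter.style.haveILetI false

noncomputable section

namespace Fermat.Agent.S17

open ModularCurve AlgebraicCurve Fermat.Agent.PT Fermat.Agent.PT.B

/-- **a subgroup containing an open subgroup and the inertia groups outside `T` is a level.** -/
theorem s17lu_level (T : Finset Nat.Primes) (H : Subgroup GQ) (E : QbarField)
    (hE : FiniteDimensional ℚ E) (hEH : E.fixingSubgroup ≤ H)
    (hin : ∀ q : Nat.Primes, q ∉ T → ∀ A : ValuationSubring (AlgebraicClosure ℚ),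
      A.LiesOverPrime (q : ℕ) → A.inertiaSubgroupIn ℚ ≤ H) :
    H ∈ (towerS T).lev := by
  haveI : IsAlgClosure ℚ (AlgebraicClosure ℚ) :=
    ⟨inferInstance, AlgebraicClosure.isAlgebraic ℚ⟩
  haveI : IsGalois ℚ (AlgebraicClosure ℚ) := inferInstance
  haveI := hE
  have hopen : IsOpen (H : Set GQ) :=
    Subgroup.isOpen_mono hEH (IntermediateField.fixingSubgroup_isOpen E)
  have hclosed : IsClosed (H : Set GQ) := Subgroup.isClosed_of_isOpen H hopen
  have hfix : (IntermediateField.fixedField H).fixingSubgroup = H :=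
    InfiniteGalois.fixingSubgroup_fixedField ⟨H, hclosed⟩
  have hfin : FiniteDimensional ℚ (IntermediateField.fixedField H) := by
    refine (InfiniteGalois.isOpen_iff_finite (IntermediateField.fixedField H)).1 ?_
    rw [hfix]
    exact hopen
  refine ⟨IntermediateField.fixedField H, ⟨hfin, fun q hq A hA => ?_⟩, hfix.symm⟩
  rw [hfix]
  exact hin q hq A hA

section Abstract

variable {J : Type*} [AddCommGroup J] [DistribMulAction GQ J]

/-- (open) + (unr) ⇒ the stabiliser of a `p`-division point of a rational point is a level. -/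
theorem s17lu_stab (p : ℕ) (T : Finset Nat.Primes)
    (hopen : ∀ y : J, ∃ E : QbarField, FiniteDimensional ℚ E ∧
      ∀ σ ∈ E.fixingSubgroup, σ • y = y)
    (hunr : ∀ q : Nat.Primes, q ∉ T → ∀ A : ValuationSubring (AlgebraicClosure ℚ),
      A.LiesOverPrime (q : ℕ) → ∀ σ ∈ A.inertiaSubgroupIn ℚ, ∀ y : J,
        p • (σ • y - y) = 0 → σ • y = y)
    (y : J) (hy : p • y ∈ FixedPoints.addSubgroup GQ J) :
    MulAction.stabilizer GQ y ∈ (towerS T).lev := by
  obtain ⟨E, hE, hEy⟩ := hopen y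
  refine s17lu_level T _ E hE (fun σ hσ => MulAction.mem_stabilizer_iff.2 (hEy σ hσ)) ?_
  intro q hq A hA σ hσ
  refine MulAction.mem_stabilizer_iff.2 (hunr q hq A hA σ hσ y ?_)
  have h1 : σ • (p • y) = p • y := hy σ
  rw [smul_sub, ← smul_comm σ p y, h1, sub_self]

/-- **(open) + (unr) ⇒ (lev)**, abstract form. -/
theorem s17lu_lev_abs (p : ℕ) (T : Finset Nat.Primes)
    (hopen : ∀ y : J, ∃ E : QbarField, FiniteDimensional ℚ E ∧
      ∀ σ ∈ E.fixingSubgroup, σ • y = y)
    (hunr : ∀ q : Nat.Primes, q ∉ T → ∀ A : ValuationSubring (AlgebraicClosure ℚ),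
      A.LiesOverPrime (q : ℕ) → ∀ σ ∈ A.inertiaSubgroupIn ℚ, ∀ y : J,
        p • (σ • y - y) = 0 → σ • y = y)
    (y : J) (hy : p • y ∈ FixedPoints.addSubgroup GQ J) :
    ∃ F : QbarField, F.IsUnramifiedOutside T ∧ ∀ σ ∈ F.fixingSubgroup, σ • y = y := by
  obtain ⟨F, hF, hFs⟩ := s17lu_stab p T hopen hunr y hy
  refine ⟨F, hF, fun σ hσ => ?_⟩
  rw [← hFs] at hσ
  exact MulAction.mem_stabilizer_iff.1 hσ

/-- the subgroup of `G_ℚ` acting trivially on the `p`-torsion. -/
def s17luKer (J : Type*) [AddCommGroup J] [DistribMulAction GQ J] (p : ℕ) : Subgroup GQ where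
  carrier := {σ | ∀ t : J, p • t = 0 → σ • t = t}
  one_mem' := fun t _ => one_smul _ t
  mul_mem' := by
    intro a b ha hb t ht
    rw [mul_smul, hb t ht, ha t ht]
  inv_mem' := by
    intro a ha t ht
    have h := ha t ht
    calc a⁻¹ • t = a⁻¹ • (a • t) := by rw [h]
      _ = t := inv_smul_smul a t

theorem s17lu_mem_ker (p : ℕ) (σ : GQ) :
    σ ∈ s17luKer J p ↔ ∀ t : J, p • t = 0 → σ • t = t := Iff.rfl

/-- **the kernel of the action on the finite `p`-torsion is a level.** -/
theorem s17lu_ker (p : ℕ) (T : Finset Nat.Primes)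
    (hopen : ∀ y : J, ∃ E : QbarField, FiniteDimensional ℚ E ∧
      ∀ σ ∈ E.fixingSubgroup, σ • y = y)
    (hunr : ∀ q : Nat.Primes, q ∉ T → ∀ A : ValuationSubring (AlgebraicClosure ℚ),
      A.LiesOverPrime (q : ℕ) → ∀ σ ∈ A.inertiaSubgroupIn ℚ, ∀ y : J,
        p • (σ • y - y) = 0 → σ • y = y)
    (htors : {t : J | p • t = 0}.Finite) :
    s17luKer J p ∈ (towerS T).lev := by
  classical
  haveI : Finite ↥{t : J | p • t = 0} := htors.to_subtype
  choose E hE hEy using hopen
  haveI : ∀ t : ↥{t : J | p • t = 0}, FiniteDimensional ℚ (E t.1) := fun t => hE t.1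
  refine s17lu_level T _ (⨆ t : ↥{t : J | p • t = 0}, E t.1) inferInstance ?_ ?_
  · intro σ hσ t ht
    refine hEy t σ ?_
    exact IntermediateField.fixingSubgroup_antitone
      (le_iSup (fun t : ↥{t : J | p • t = 0} => E t.1) ⟨t, ht⟩) hσ
  · intro q hq A hA σ hσ t ht
    refine hunr q hq A hA σ hσ t ?_
    rw [smul_sub, ← smul_comm σ p t, ht, smul_zero, sub_self]

end Abstract

/-! ### The statements for `J₀(N)` -/

/-- (open) for `J₀(N)`: every class is fixed by an open subgroup of `G_ℚ` (W4). -/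
def S17luOpen (N : ℕ) [NeZero N] : Prop :=
  ∀ y : JZero N, ∃ E : IntermediateField ℚ (AlgebraicClosure ℚ), FiniteDimensional ℚ E ∧
    ∀ σ ∈ E.fixingSubgroup, σ • y = y

/-- (unr) for `J₀(N)`, the multiplier `m` and the set `T` of primes (W3). -/
def S17luUnr (N : ℕ) [NeZero N] (m : ℕ) (T : Finset Nat.Primes) : Prop :=
  ∀ q : Nat.Primes, q ∉ T → ∀ A : ValuationSubring (AlgebraicClosure ℚ),
    A.LiesOverPrime (q : ℕ) → ∀ σ ∈ A.inertiaSubgroupIn ℚ, ∀ y : JZero N,
      m • (σ • y - y) = 0 → σ • y = y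

/-- (lev) for `J₀(N)`: every `m`-division point of a rational class is fixed by `Gal(ℚ̄/F)`,
`F/ℚ` finite and unramified outside `T`. -/
def S17luLev (N : ℕ) [NeZero N] (m : ℕ) (T : Finset Nat.Primes) : Prop :=
  ∀ y : JZero N,
    m • y ∈ FixedPoints.addSubgroup ((AlgebraicClosure ℚ) ≃ₐ[ℚ] (AlgebraicClosure ℚ)) (JZero N) →
    ∃ F : IntermediateField ℚ (AlgebraicClosure ℚ), F.IsUnramifiedOutside T ∧
      ∀ σ ∈ F.fixingSubgroup, σ • y = y

/-- **(open) + (unr) ⇒ (lev)** for `J₀(N)`. -/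
theorem s17lu_lev (N : ℕ) [NeZero N] (m : ℕ) (T : Finset Nat.Primes) (hopen : S17luOpen N)
    (hunr : S17luUnr N m T) : S17luLev N m T :=
  fun y hy => s17lu_lev_abs (J := JZero N) m T (fun z => hopen z)
    (fun q hq A hA σ hσ z hz => hunr q hq A hA σ hσ z hz) y hy

/-- the stabiliser form of (lev). -/
theorem s17lu_stab_mem (N : ℕ) [NeZero N] (m : ℕ) (T : Finset Nat.Primes) (hopen : S17luOpen N)
    (hunr : S17luUnr N m T) (y : JZero N)
    (hy : m • y ∈
      FixedPoints.addSubgroup ((AlgebraicClosure ℚ) ≃ₐ[ℚ] (AlgebraicClosure ℚ)) (JZero N)) :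
    MulAction.stabilizer GQ y ∈ (towerS T).lev :=
  s17lu_stab (J := JZero N) m T (fun z => hopen z)
    (fun q hq A hA σ hσ z hz => hunr q hq A hA σ hσ z hz) y hy

/-- the kernel of the action on `J₀(N)[m]` is a level. -/
theorem s17lu_ker_mem (N : ℕ) [NeZero N] (m : ℕ) (T : Finset Nat.Primes) (hopen : S17luOpen N)
    (hunr : S17luUnr N m T) (htors : {t : JZero N | m • t = 0}.Finite) :
    s17luKer (JZero N) m ∈ (towerS T).lev :=
  s17lu_ker (J := JZero N) m T (fun z => hopen z)
    (fun q hq A hA σ hσ z hz => hunr q hq A hA σ hσ z hz) htors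

/-- the set of the primes dividing `n`. -/
def s17luT (n : ℕ) : Finset Nat.Primes := n.primeFactors.subtype Nat.Prime

theorem s17lu_mem_T (n : ℕ) (hn : n ≠ 0) (q : Nat.Primes) : q ∈ s17luT n ↔ (q : ℕ) ∣ n :=
  Iff.trans (Finset.mem_subtype (p := Nat.Prime) (s := n.primeFactors) (a := q))
    (Iff.trans Nat.mem_primeFactors ⟨fun h => h.2.1, fun h => ⟨q.2, h, hn⟩⟩)

/-- (unr) from the captain's form W3: `ℓ` prime, `¬ ℓ ∣ m * N`. -/
theorem s17lu_unr_of_nat (N : ℕ) [NeZero N] (m : ℕ) (hm : m ≠ 0)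
    (h : ∀ ℓ : ℕ, ℓ.Prime → ¬ ℓ ∣ m * N → ∀ A : ValuationSubring (AlgebraicClosure ℚ),
      A.LiesOverPrime ℓ → ∀ σ ∈ A.inertiaSubgroupIn ℚ, ∀ y : JZero N,
        m • (σ • y - y) = 0 → σ • y = y) :
    S17luUnr N m (s17luT (m * N)) := by
  intro q hq A hA σ hσ y hy
  refine h q q.2 ?_ A hA σ hσ y hy
  intro hdvd
  exact hq ((s17lu_mem_T (m * N) (mul_ne_zero hm (NeZero.ne N)) q).2 hdvd)

end Fermat.Agent.S17

end
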