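/-
S17 sprint, layer H — **PlN ASSEMBLY** (sub-integrator helper74): the place form (N) of
`S17/HTop.lean` from ONE geometric statement (U) and the place form (T).

Bricks on main: helper10's FINITE POOL (`S17/Pool.lean`: `s17po_exists_pool`, `S17poGood`),
helper99's PlN-FORMAL (`S17/PlNPool.lean`: `s17pp_plN`, Northcott over a number field for the
Chow vector `s17ppChow N t x` of the reduced divisor), (open) `S17luOpen N` (`S17/LevOfUnr.lean`;
proved in `S17/Weak.lean` `s17wk_open`).

* `s17pn_exists_field` : finitely many classes are fixed by `Gal(ℚ̄/E)` for ONE number field `E`;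
* `S17pnU cl H t δ`    : **(U)** `∃ C, ∀ p, S17poGood N (cl p + δ) →
                           s17haAbsQ (s17ppChow N t (cl p + δ)) ≤ H p + C`
                         (at a place whose centre class, shifted by the origin `δ`, is GOOD, the
                         Chow vector of the centre divisor is a visible linear projection of the
                         place-value of `s`);
* **`s17pn_plN`**      : (open) + (T) `S17hxPlT cl H` + (U) ⇒ `S17hxPlN cl H`;
* `s17pn_plN_a`        : the same with the constant `a` of `S17/HTopAB.lean` (`S17hyPlT cl H a`).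
-/
import Fermat.Agent.S17.PlNPool
import Fermat.Agent.S17.Pool
import Fermat.Agent.S17.LevOfUnr
import Fermat.Agent.S17.HTopAB

set_option autoImplicit false
set_option linter.unusedSectionVars false
set_option linter.unusedVariables false
set_option linter.style.haveILetI false

noncomputable section

namespace Fermat.Agent.S17

open ModularCurve AlgebraicCurve Polynomial Height
open Fermat.Agent.S24 Fermat.Agent.ES.M Fermat.Agent.ES.H Fermat.Agent.S15 Fermat.Agent.S26
  Fermat.Agent.S27

variable (N : ℕ) [NeZero N]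

/-- finitely many classes are fixed by `Gal(ℚ̄/E)` for ONE finite extension `E / ℚ`. -/
theorem s17pn_exists_field (hopen : S17luOpen N) (S : Finset (JZero N)) :
    ∃ E : IntermediateField ℚ (AlgebraicClosure ℚ), FiniteDimensional ℚ E ∧
      ∀ c ∈ S, ∀ σ ∈ E.fixingSubgroup, σ • c = c := by
  classical
  induction S using Finset.induction_on with
  | empty =>
    exact ⟨⊥, inferInstance, fun c hc => absurd hc (Finset.notMem_empty c)⟩
  | insert a S ha ih =>
    obtain ⟨E, hE, hfix⟩ := ih
    obtain ⟨E', hE', hfix'⟩ := hopen a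
    haveI := hE
    haveI := hE'
    refine ⟨E ⊔ E', IntermediateField.finiteDimensional_sup E E', fun c hc σ hσ => ?_⟩
    rw [IntermediateField.fixingSubgroup_sup] at hσ
    rcases Finset.mem_insert.1 hc with rfl | hc'
    · exact hfix' σ hσ.2
    · exact hfix c hc' σ hσ.1

/-- **(U)**: at a place whose (shifted) centre class is GOOD the Chow vector of the reduced
divisor has height at most `H p + C`. -/
def S17pnU {P : Type*} (cl : P → JZero N) (H : P → ℝ) (t : FF N) (δ : JZero N) : Prop :=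
  ∃ C : ℝ, ∀ p : P, S17poGood N (cl p + δ) →
    s17haAbsQ (s17ppChow N t (cl p + δ)) ≤ H p + C

/-- **PlN ASSEMBLY** with the constant `a` of (T). -/
theorem s17pn_plN_a {P : Type*} (cl : P → JZero N) (H : P → ℝ) (t : FF N)
    (hnc : ∀ c : Kb, t ≠ algebraMap Kb (FF N) c)
    (htΓ : ∀ σ : Kb ≃ₐ[ℚ] Kb, galAct N σ • t = t)
    (ht : ∀ v : Place Kb (FF N), v ≠ cuspInf N → 0 ≤ v.ord t)
    (hopen : S17luOpen N) (δ : JZero N) (a : ℝ) (ha : 0 ≤ a)
    (hT : S17hyPlT cl H a) (hU : S17pnU N cl H t δ) : S17hxPlN cl H := by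
  classical
  obtain ⟨𝒞, h𝒞⟩ := s17po_exists_pool N
  obtain ⟨E, hEfd, hEfix⟩ := s17pn_exists_field N hopen (𝒞.image fun c => c + δ)
  haveI : FiniteDimensional ℚ ↥E := hEfd
  haveI : NumberField ↥E := ⟨⟩
  obtain ⟨C, hC⟩ := hU
  choose cT hcT using hT
  obtain ⟨M, hM⟩ := (𝒞.finite_toSet.image fun c => cT (-c)).bddAbove
  refine s17pp_plN N cl H E t hnc htΓ ht
    (fun k : Fin 𝒞.card => ((𝒞.equivFin.symm k : 𝒞) : JZero N) + δ) ?_ a (M + C) ha ?_
  · intro k σ hσ
    exact hEfix _ (Finset.mem_image.2 ⟨_, (𝒞.equivFin.symm k).2, rfl⟩) σ hσ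
  · intro p _
    obtain ⟨c, hc, hgood⟩ := h𝒞 (cl p + δ)
    obtain ⟨p₁, h1, h2⟩ := hcT (-c) p
    have hcl : cl p₁ = cl p + c := by
      rw [← h1]
      abel
    have e1 : cl p + δ + c = cl p₁ + δ := by
      rw [hcl]
      abel
    rw [e1] at hgood
    refine ⟨𝒞.equivFin ⟨c, hc⟩, ?_⟩
    have e2 : cl p + (((𝒞.equivFin.symm (𝒞.equivFin ⟨c, hc⟩) : 𝒞) : JZero N) + δ) = cl p₁ + δ := by
      rw [Equiv.symm_apply_apply, hcl]
      abel
    rw [e2]
    have h3 := hC p₁ hgood
    have h4 : cT (-c) ≤ M := hM ⟨c, hc, rfl⟩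
    linarith

/-- **PlN ASSEMBLY**: (open) + (T) + (U) ⇒ (N), all in place form. -/
theorem s17pn_plN {P : Type*} (cl : P → JZero N) (H : P → ℝ) (t : FF N)
    (hnc : ∀ c : Kb, t ≠ algebraMap Kb (FF N) c)
    (htΓ : ∀ σ : Kb ≃ₐ[ℚ] Kb, galAct N σ • t = t)
    (ht : ∀ v : Place Kb (FF N), v ≠ cuspInf N → 0 ≤ v.ord t)
    (hopen : S17luOpen N) (δ : JZero N)
    (hT : S17hxPlT cl H) (hU : S17pnU N cl H t δ) : S17hxPlN cl H :=
  s17pn_plN_a N cl H t hnc htΓ ht hopen δ 2 (by norm_num) hT hU

end Fermat.Agent.S17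

end
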