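/-
S17 sprint, layer H — **NEGATION GLUE** (helper77): the place statements are stable under
`cl ↦ −cl`.  Needed because PlM / PlT are proved for the local equation `b = B(+1)` of `Θ_Ao` at
`η`, whose unit locus and Chow coordinates see the OPPOSITE class `−cl p`: prove (U) / (N) for
`fun p => −cl p` and come back.

* `s17nn_plT_neg`    : `S17hyPlT cl H a → S17hyPlT (fun p => -cl p) H a`;
* `s17nn_plM_neg`    : `S17hyPlM cl H m b → S17hyPlM (fun p => -cl p) H m b`;
* `s17nn_plN_of_neg` : `S17hxPlN (fun p => -cl p) H → S17hxPlN cl H`;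
* `s17nn_plN_neg`    : `S17hxPlN cl H → S17hxPlN (fun p => -cl p) H`;
* `s17nn_surj_neg`   : `cl` onto ⇒ `−cl` onto.
-/
import Fermat.Agent.S17.HTopAB

set_option autoImplicit false
set_option linter.unusedSectionVars false

namespace Fermat.Agent.S17

open ModularCurve AlgebraicCurve

variable {N : ℕ} [NeZero N] {P : Type*} {cl : P → JZero N} {H : P → ℝ}

/-- (T) for `−cl` from (T) for `cl` (translate by `−g`). -/
theorem s17nn_plT_neg {a : ℝ} (hT : S17hyPlT cl H a) : S17hyPlT (fun p => -cl p) H a := by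
  intro g
  obtain ⟨c, hc⟩ := hT (-g)
  refine ⟨c, fun p => ?_⟩
  obtain ⟨p₁, h1, h2⟩ := hc p
  refine ⟨p₁, ?_, h2⟩
  show g + -cl p₁ = -cl p
  rw [← h1]
  abel

/-- (M′) for `−cl` from (M′) for `cl`. -/
theorem s17nn_plM_neg {m : ℕ} {b : ℝ} (hM : S17hyPlM cl H m b) :
    S17hyPlM (fun p => -cl p) H m b := by
  obtain ⟨C, hC⟩ := hM
  refine ⟨C, fun p'' => ?_⟩
  obtain ⟨p', h1, h2⟩ := hC p''
  refine ⟨p', ?_, h2⟩
  show m • -cl p' = -cl p''
  rw [← h1, neg_nsmul]

/-- the negation of the Mordell–Weil group. -/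
theorem s17nn_neg_mem (x : s17MW N) :
    -(x : JZero N) ∈ FixedPoints.addSubgroup
      ((AlgebraicClosure ℚ) ≃ₐ[ℚ] (AlgebraicClosure ℚ)) (JZero N) :=
  (-x).2

/-- (N) for `cl` from (N) for `−cl`. -/
theorem s17nn_plN_of_neg (hN : S17hxPlN (fun p => -cl p) H) : S17hxPlN cl H := by
  intro B
  have h := (hN B).image (fun x : s17MW N => -x)
  refine h.subset ?_
  rintro x ⟨p, hp, hB⟩
  refine ⟨-x, ⟨p, ?_, hB⟩, neg_neg x⟩
  show -cl p = ((-x : s17MW N) : JZero N)
  rw [hp]
  rfl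

/-- (N) for `−cl` from (N) for `cl`. -/
theorem s17nn_plN_neg (hN : S17hxPlN cl H) : S17hxPlN (fun p => -cl p) H := by
  refine s17nn_plN_of_neg (cl := fun p => -cl p) ?_
  have e : (fun p => - -cl p) = cl := funext fun p => neg_neg (cl p)
  rw [e]
  exact hN

/-- `cl` onto ⇒ `−cl` onto. -/
theorem s17nn_surj_neg (hs : Function.Surjective cl) :
    Function.Surjective (fun p => -cl p) := by
  intro x
  obtain ⟨p, hp⟩ := hs (-x)
  exact ⟨p, by show -cl p = x; rw [hp, neg_neg]⟩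

end Fermat.Agent.S17
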