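/-
S17 sprint, layer H — **PlN / N4: POOL-CENTRE** (helper10): at a place `p` of the model whose
centre tuple `Q` has a GOOD class (`S17poGood`, S17/Pool.lean), the class-level Chow vector
`s17ppChow N t y` (S17/PlNPool.lean: the Chow form of the REDUCED divisor `s17h90Red N y`) IS the
place-value of the Chow tuple of `x i = R i t` at `p` (S17/ChowVal.lean).

`g = genusFF Kb (FF N)`, `Q : Fin g → Place Kb (FF N)`, `y = [Σ Q i − g·∞]` (`s17pcCl N Q`).

* `s17pcCl_eq_clO`     : `s17pcCl N Q = s27pkgClO hdeg (g·∞) _ Q` (the class of the S27-B package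
                         with origin `G₀ = g·∞`);
* `s17pcCl_add_shift`  : with an arbitrary origin `G₀`: `s27pkgClO hdeg G₀ _ Q + [G₀ − g·∞]
                         = s17pcCl N Q`;
* `s17pc_ne_cusp`      : GOOD ⇒ no `Q i` is the cusp `∞`;
* `s17pc_red_eq`       : GOOD ⇒ `s17h90Red N y = Σ Q i` (the centre divisor is THE reduced
                         divisor of its class);
* `s17pc_form_sum`     : `s17chForm t (Σ Q i) = ∏ i, (X − t(Q i))`;
* `s17pc_chow_eq_prod` : GOOD ⇒ `s17ppChow N t y n = (∏ i, (X − t(Q i))).coeff n`;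
* `s17pc_mem`          : GOOD, `t` regular off `∞`, `Q i` the centre of `R i` along `p.W`
                         ⇒ `R i t ∈ p.W`;
* `s17pc_val_centre`   : … and `t(Q i) = p.res (R i t)`;
* **`s17pc_chow_eq_val`** : GOOD ⇒ `s17ppChow N t y = s17plVal p (s17cvChow (R · t)) ⊤-chart`;
* `s17pc_absQ_eq`      : hence the ABSOLUTE heights agree: this is the left side of (U).
-/
import Fermat.Agent.S17.Pool
import Fermat.Agent.S17.PlNPool
import Fermat.Agent.S17.ChowCentre
import Fermat.Agent.S27.DegPkgO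

set_option autoImplicit false
set_option linter.unusedSectionVars false
set_option linter.unusedVariables false
set_option linter.style.haveILetI false
set_option linter.style.longLine false

noncomputable section

namespace Fermat.Agent.S17

open ModularCurve AlgebraicCurve Polynomial
open Fermat.Agent.S24 Fermat.Agent.ES.M Fermat.Agent.ES.H Fermat.Agent.S15 Fermat.Agent.S26
  Fermat.Agent.S27

variable (N : ℕ) [NeZero N]

/-- the class `[Σ Q i − (deg)·∞]` of a tuple of places. -/
def s17pcCl {g : ℕ} (Q : Fin g → Place Kb (FF N)) : JZero N :=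
  Pic0.mk (s17h90Div N (s27pkgSum Q))

/-- the tuple sum is effective. -/
theorem s17pc_sum_nonneg {g : ℕ} (Q : Fin g → Place Kb (FF N)) : 0 ≤ s27pkgSum Q := by
  intro v
  exact s27pkgSum_nonneg Q v

/-- every place of `F_N` has degree one. -/
theorem s17pc_hdeg (w : Place Kb (FF N)) : w.deg = 1 := by
  haveI := finiteDimensional_adjoin_jF N
  exact s26errg_deg_eq_one (jF N) (transcendental_jF N) w

/-- the degree of the tuple sum. -/
theorem s17pc_sum_degree {g : ℕ} (Q : Fin g → Place Kb (FF N)) :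
    Divisor.degree (s27pkgSum Q) = (g : ℤ) :=
  s27pkgSum_degree (s17pc_hdeg N) Q

/-- with an arbitrary origin `G₀` of degree `g`: the class of the S27-B package differs from
`s17pcCl` by the constant class `[G₀ − g·∞]`. -/
theorem s17pcCl_add_shift {g : ℕ} (G₀ : Divisor Kb (FF N)) (hG₀ : Divisor.degree G₀ = (g : ℤ))
    (Q : Fin g → Place Kb (FF N)) :
    s27pkgClO (s17pc_hdeg N) G₀ hG₀ Q + Pic0.mk (s17h90Div N G₀) = s17pcCl N Q := by
  unfold s27pkgClO s17pcCl
  rw [← Pic0.mk_add]
  congr 1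
  apply Subtype.ext
  show (s27pkgSum Q - G₀) + (G₀ - Finsupp.single (cuspInf N) (Divisor.degree G₀))
    = s27pkgSum Q - Finsupp.single (cuspInf N) (Divisor.degree (s27pkgSum Q))
  rw [hG₀, s17pc_sum_degree]
  abel

/-- with the origin `g·∞` the class of the S27-B package IS `s17pcCl`. -/
theorem s17pcCl_eq_clO {g : ℕ}
    (hO : Divisor.degree (Finsupp.single (cuspInf N) (g : ℤ) : Divisor Kb (FF N)) = (g : ℤ))
    (Q : Fin g → Place Kb (FF N)) :
    s27pkgClO (s17pc_hdeg N) (Finsupp.single (cuspInf N) (g : ℤ)) hO Q = s17pcCl N Q := by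
  unfold s27pkgClO s17pcCl
  congr 1
  apply Subtype.ext
  show s27pkgSum Q - Finsupp.single (cuspInf N) (g : ℤ)
    = s27pkgSum Q - Finsupp.single (cuspInf N) (Divisor.degree (s27pkgSum Q))
  rw [s17pc_sum_degree]

variable {N}

/-- GOOD ⇒ no centre is the cusp. -/
theorem s17pc_ne_cusp (Q : Fin (genusFF Kb (FF N)) → Place Kb (FF N))
    (hgood : S17poGood N (s17pcCl N Q)) (i : Fin (genusFF Kb (FF N))) : Q i ≠ cuspInf N := by
  classical
  intro h
  have h0 := hgood (s27pkgSum Q) (s17pc_sum_nonneg N Q) (s17pc_sum_degree N Q) rfl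
  rw [s27pkgSum_apply] at h0
  have hcard : (Finset.univ.filter fun j => Q j = cuspInf N).card = 0 := by exact_mod_cast h0
  rw [Finset.card_eq_zero] at hcard
  have hi : i ∈ Finset.univ.filter fun j => Q j = cuspInf N :=
    Finset.mem_filter.mpr ⟨Finset.mem_univ i, h⟩
  rw [hcard] at hi
  exact absurd hi (Finset.notMem_empty i)

/-- GOOD ⇒ the centre divisor is THE reduced divisor of its class. -/
theorem s17pc_red_eq (Q : Fin (genusFF Kb (FF N)) → Place Kb (FF N))
    (hgood : S17poGood N (s17pcCl N Q)) : s17h90Red N (s17pcCl N Q) = s27pkgSum Q :=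
  (s17po_good_unique N hgood (s17pc_sum_nonneg N Q) (s17pc_sum_degree N Q) rfl).symm


/-! ### the Chow form of a tuple sum -/

section Generic

universe u v

variable {K : Type u} {F : Type v} [Field K] [Field F] [Algebra K F]

open Classical in
/-- the support of a tuple sum is the image of the tuple. -/
theorem s17pc_support_sum {g : ℕ} (Q : Fin g → Place K F) :
    (s27pkgSum Q).support = Finset.univ.image Q := by
  ext P
  rw [Finsupp.mem_support_iff, s27pkgSum_apply, Finset.mem_image, Ne, Nat.cast_eq_zero,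
    Finset.card_eq_zero, Finset.filter_eq_empty_iff]
  constructor
  · intro h
    by_contra hcon
    apply h
    intro i _ hi
    exact hcon ⟨i, Finset.mem_univ i, hi⟩
  · rintro ⟨i, -, hi⟩ h0
    exact h0 (Finset.mem_univ i) hi

/-- **the Chow form of a tuple sum** is `∏ i, (X − t(Q i))`. -/
theorem s17pc_form_sum {g : ℕ} (t : F) (Q : Fin g → Place K F) :
    s17chForm t (s27pkgSum Q) = ∏ i, (X - C (s17chVal (Q i) t)) := by
  classical
  unfold s17chForm
  rw [s17pc_support_sum Q, Finset.prod_comp (fun P : Place K F => X - C (s17chVal P t)) Q]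
  refine Finset.prod_congr rfl fun P _ => ?_
  congr 1
  rw [s27pkgSum_apply, Int.toNat_natCast]

/-- `R t ∈ W` when `t` is regular at the centre. -/
theorem s17pc_mem_of_centre {𝔏 : Type*} [Field 𝔏] [Algebra K 𝔏] {W : ValuationSubring 𝔏}
    {R : F →ₐ[K] 𝔏} {Q : Place K F} (hQ : S27ptIsCentre W R Q) {t : F}
    (ht : t ∈ Q.toValuationSubring) : R t ∈ W :=
  (s17cc_mem_iff hQ t).2 ht

/-- the value of `t` at the centre is the residue of `R t`. -/
theorem s17pc_val_of_centre {𝔏 : Type*} [Field 𝔏] [Algebra K 𝔏] (P : S17plPlace K 𝔏)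
    {R : F →ₐ[K] 𝔏} {Q : Place K F} (hQ : S27ptIsCentre P.W R Q) (t : F) (h : R t ∈ P.W) :
    s17chVal Q t = P.res ⟨R t, h⟩ :=
  s17chVal_eq (s17cc_value P hQ t h)

/-- all entries regular ⇒ the regular set is everything. -/
theorem s17pc_reg_univ {𝔏 : Type*} [Field 𝔏] (W : ValuationSubring 𝔏) {g : ℕ} (x : Fin g → 𝔏)
    (hx : ∀ i, x i ∈ W) : s17crReg W x = Finset.univ := by
  classical
  unfold s17crReg
  ext i
  simp only [Finset.mem_filter, Finset.mem_univ, true_and, iff_true]
  exact hx i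

/-- **generic form**: the place-value of the Chow tuple of `x i = R i t`, all `Q i` regular
points of `t`, is the coefficient vector of the Chow form of `Σ Q i`. -/
theorem s17pc_val_form {𝔏 : Type*} [Field 𝔏] [Algebra K 𝔏] (P : S17plPlace K 𝔏) {g : ℕ}
    (R : Fin g → F →ₐ[K] 𝔏) (Q : Fin g → Place K F) (hQ : ∀ i, S27ptIsCentre P.W (R i) (Q i))
    (t : F) (ht : ∀ i, t ∈ (Q i).toValuationSubring) (n : Fin (g + 1)) :
    s17plVal P (s17cvChow fun i => R i t) (s17cvIdx P.W fun i => R i t)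
        (s17cv_isMin P fun i => R i t) n
      = (s17chForm t (s27pkgSum Q)).coeff (n : ℕ) := by
  classical
  have hx : ∀ i, (fun i => R i t) i ∈ P.W := fun i => s17pc_mem_of_centre (hQ i) (ht i)
  rw [s17cv_val P (fun i => R i t) (fun i => s17chVal (Q i) t)
    (fun i h => (s17pc_val_of_centre P (hQ i) t h).symm) (s17cv_isMin P fun i => R i t) n,
    s17pc_reg_univ P.W _ hx, s17pc_form_sum]

end Generic

/-! ### on `F_N`: the class-level Chow vector at a GOOD class is a place-value -/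

/-- GOOD ⇒ the class-level Chow vector is the coefficient vector of `∏ i, (X − t(Q i))`. -/
theorem s17pc_chow_eq_prod (t : FF N) (Q : Fin (genusFF Kb (FF N)) → Place Kb (FF N))
    (hgood : S17poGood N (s17pcCl N Q)) (n : Fin (genusFF Kb (FF N) + 1)) :
    s17ppChow N t (s17pcCl N Q) n
      = (∏ i, (X - C (s17chVal (Q i) t)) : Kb[X]).coeff (n : ℕ) := by
  unfold s17ppChow
  rw [s17pc_red_eq Q hgood, s17pc_form_sum]

/-- GOOD, `t` regular off `∞` ⇒ `t` is regular at every centre. -/
theorem s17pc_reg (t : FF N) (ht : ∀ v : Place Kb (FF N), v ≠ cuspInf N → 0 ≤ v.ord t)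
    (Q : Fin (genusFF Kb (FF N)) → Place Kb (FF N))
    (hgood : S17poGood N (s17pcCl N Q)) (i : Fin (genusFF Kb (FF N))) :
    t ∈ (Q i).toValuationSubring :=
  PlaceAux.mem_of_ord_nonneg (Q i) (ht (Q i) (s17pc_ne_cusp Q hgood i))

/-- GOOD, `t` regular off `∞`, `Q i` the centre of `R i` along `p.W` ⇒ `R i t ∈ p.W`. -/
theorem s17pc_mem {𝔏 : Type*} [Field 𝔏] [Algebra Kb 𝔏] (P : S17plPlace Kb 𝔏)
    (t : FF N) (ht : ∀ v : Place Kb (FF N), v ≠ cuspInf N → 0 ≤ v.ord t)
    (R : Fin (genusFF Kb (FF N)) → FF N →ₐ[Kb] 𝔏)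
    (Q : Fin (genusFF Kb (FF N)) → Place Kb (FF N))
    (hQ : ∀ i, S27ptIsCentre P.W (R i) (Q i))
    (hgood : S17poGood N (s17pcCl N Q)) (i : Fin (genusFF Kb (FF N))) : R i t ∈ P.W :=
  s17pc_mem_of_centre (hQ i) (s17pc_reg t ht Q hgood i)

/-- **POOL-CENTRE**: at a place whose centre tuple has a GOOD class, the class-level Chow vector
is the place-value of the Chow tuple of `x i = R i t`. -/
theorem s17pc_chow_eq_val {𝔏 : Type*} [Field 𝔏] [Algebra Kb 𝔏] (P : S17plPlace Kb 𝔏)
    (t : FF N) (ht : ∀ v : Place Kb (FF N), v ≠ cuspInf N → 0 ≤ v.ord t)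
    (R : Fin (genusFF Kb (FF N)) → FF N →ₐ[Kb] 𝔏)
    (Q : Fin (genusFF Kb (FF N)) → Place Kb (FF N))
    (hQ : ∀ i, S27ptIsCentre P.W (R i) (Q i))
    (hgood : S17poGood N (s17pcCl N Q)) :
    s17ppChow N t (s17pcCl N Q)
      = s17plVal P (s17cvChow fun i => R i t) (s17cvIdx P.W fun i => R i t)
          (s17cv_isMin P fun i => R i t) := by
  funext n
  rw [s17pc_val_form P R Q hQ t (s17pc_reg t ht Q hgood) n]
  unfold s17ppChow
  rw [s17pc_red_eq Q hgood]

/-- the same for the absolute height: the LEFT side of (U). -/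
theorem s17pc_absQ_eq {𝔏 : Type*} [Field 𝔏] [Algebra Kb 𝔏] (P : S17plPlace Kb 𝔏)
    (t : FF N) (ht : ∀ v : Place Kb (FF N), v ≠ cuspInf N → 0 ≤ v.ord t)
    (R : Fin (genusFF Kb (FF N)) → FF N →ₐ[Kb] 𝔏)
    (Q : Fin (genusFF Kb (FF N)) → Place Kb (FF N))
    (hQ : ∀ i, S27ptIsCentre P.W (R i) (Q i))
    (hgood : S17poGood N (s17pcCl N Q)) :
    s17haAbsQ (s17ppChow N t (s17pcCl N Q))
      = s17haAbsQ (s17plVal P (s17cvChow fun i => R i t) (s17cvIdx P.W fun i => R i t)
          (s17cv_isMin P fun i => R i t)) := by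
  rw [s17pc_chow_eq_val P t ht R Q hQ hgood]

/-- in the top chart: all entries regular ⇒ the chart index is `g` (the leading coefficient). -/
theorem s17pc_idx_top {𝔏 : Type*} [Field 𝔏] (W : ValuationSubring 𝔏) {g : ℕ} (x : Fin g → 𝔏)
    (hx : ∀ i, x i ∈ W) : ((s17cvIdx W x : Fin (g + 1)) : ℕ) = g := by
  show (s17crReg W x).card = g
  rw [s17pc_reg_univ W x hx, Finset.card_univ, Fintype.card_fin]

end Fermat.Agent.S17

end
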