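/-
S17 sprint, layer H — **PlN FOR THE OPPOSITE TUPLE** (sub-integrator helper74), the form of PlN
under the captain's ruling (A): ONE local equation `b = B(+1) = β` (the theta divisor `Θ_Ao` at
the generic class `η`) for PlM, PlT and PlN.

The functions of `L(M · Θ_Ao)` are the Chow coordinates of the OPPOSITE tuple `q` (class `−η`),
and the unit locus of `b` sees the class `−x_P`.  So (U) is proved for `P ↦ −x_P`:

  stage (`S17/CentreOnto.lean`), `cl = s17coCl hld hgen hx G₀ hG₀`, `H` ANY height computed by the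
  minimal charts of the finite tuple `s` (`s17sxHt s`, `s17mdHS s`, `s17plmH s17haAbsQ s`),
  `q : Fin g → F →ₐ[K] L` ANY tuple of points of class `k • η + β c₀`  (opposite tuple: `k = −1`),
  CHOW BLOCK  `Σ_i c n i • s i = Φ · Chow_n (q i t)`,
  VISIBILITY  at the places with `k • x_P + c₀ + δ` GOOD, `δ = [G₀ − g·∞]`.

* `s17pno_cl`        : `k • x_P + c₀ + δ = [Σ Q i − g·∞]` for the centres `Q` of `q` along `P`;
* `s17pno_U`         : **(U)** `S17pnU N (fun P => k • x_P + c₀) H t δ`;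
* **`s17pno_plN_opp`** : `k = −1`, `c₀ = 0`: (open) + (T) + CHOW BLOCK + VISIBILITY ⇒
                       `S17hxPlN cl H`   (`s17pn_plN_a` at `−cl`, `s17nn_plT_neg`,
                       `s17nn_plN_of_neg`);
* `s17pno_plN_reg`   : the same with `Φ = 1` and VISIBILITY in the form: all `s i` are regular at
                       the places with `−x_P + δ` GOOD;
* `s17pno_plN_unit`  : the same with VISIBILITY from the UNIT criterion: `s i · y P ^ M ∈ P.W`
                       and `y P` a unit of `P.W` at the places with `−x_P + δ` GOOD.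
-/
import Fermat.Agent.S17.CentreOnto
import Fermat.Agent.S17.PlNU
import Fermat.Agent.S17.PlNAsm
import Fermat.Agent.S17.PlNNeg
import Fermat.Agent.S17.PoolCentre
import Fermat.Agent.S17.CentreHom
import Fermat.Agent.S17.ChowGood

set_option autoImplicit false
set_option linter.unusedVariables false
set_option linter.unusedSectionVars false
set_option linter.style.haveILetI false
set_option linter.style.longLine false

noncomputable section

namespace Fermat.Agent.S17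

open ModularCurve AlgebraicCurve Polynomial Height Module TensorProduct IntermediateField
open Fermat.Agent.S24 Fermat.Agent.ES.M Fermat.Agent.ES.H Fermat.Agent.S15 Fermat.Agent.S26
  Fermat.Agent.S27 Fermat.Agent.DEU

universe y

/-- the origin shift `δ = [G₀ − (deg G₀)·∞]`. -/
def s17pnoShift (N : ℕ) [NeZero N] (G₀ : Divisor Kb (FF N)) : JZero N :=
  Pic0.mk (s17h90Div N G₀)

/-- the tuple `s` of a CHOW BLOCK with `Φ = 1` is not `0`. -/
theorem s17pno_ne_zero {𝔏 : Type*} [Field 𝔏] [Algebra Kb 𝔏] {ι : Type*} [Fintype ι] {g : ℕ}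
    (s : ι → 𝔏) (c : Fin (g + 1) → ι → Kb)
    (x : Fin g → 𝔏) (hG : ∀ n, s17pvLin c s n = s17cvChow x n) : s ≠ 0 := by
  intro h0
  have h1 := hG (Fin.last g)
  rw [s17n3_chow_last] at h1
  have h2 : s17pvLin c s (Fin.last g) = 0 := by
    unfold s17pvLin
    refine Finset.sum_eq_zero fun i _ => ?_
    rw [h0]
    simp
  rw [h2] at h1
  exact zero_ne_one h1

/-- `a · y ^ M ∈ W` and `y` a unit of `W` ⇒ `a ∈ W`. -/
theorem s17pno_mem_of_unit {𝔏 : Type*} [Field 𝔏] (W : ValuationSubring 𝔏) {a y : 𝔏} (M : ℕ)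
    (ha : a * y ^ M ∈ W) (hy : S27IsUnitIn W y) : a ∈ W := by
  have h1 : (y⁻¹) ^ M ∈ W := pow_mem hy.2.2 M
  have h2 : a * y ^ M * (y⁻¹) ^ M = a := by
    rw [mul_assoc, ← mul_pow, mul_inv_cancel₀ hy.1, one_pow, mul_one]
  rw [← h2]
  exact W.mul_mem _ _ ha h1

section Stage

variable (N : ℕ) [NeZero N] [IsCurveOver Kb (FF N)] [Algebra.EssFiniteType Kb (FF N)]
  {L : Type} [Field L] [Algebra Kb L]
  [Algebra (s27gfOm Kb (FF N) (genusFF Kb (FF N))) L]
  [IsScalarTower Kb (s27gfOm Kb (FF N) (genusFF Kb (FF N))) L]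
  [IsAlgClosed L] [Algebra.IsAlgebraic (s27gfOm Kb (FF N) (genusFF Kb (FF N))) L]
  {FL : Type y} [Field FL] [Algebra Kb FL] [Algebra (FF N) FL] [Algebra L FL]
  [IsScalarTower Kb (FF N) FL] [IsScalarTower Kb L FL]
  (hld : Function.Injective (s26gspMu Kb (FF N) L FL)) (hgen : S26gspGen Kb (FF N) L FL)
  {x : FF N} (hx : Transcendental Kb x)
  [FiniteDimensional ↥(IntermediateField.adjoin Kb {x}) (FF N)]
  [Algebra.IsSeparable ↥(IntermediateField.adjoin Kb {x}) (FF N)]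
  (G₀ : Divisor Kb (FF N)) (hG₀ : Divisor.degree G₀ = (genusFF Kb (FF N) : ℤ))

/-- `k • x_P + c₀ + δ = [Σ Q i − g·∞]` for the centres `Q i` along `P` of a tuple `q` of class
`k • η + β c₀`. -/
theorem s17pno_cl (q : Fin (genusFF Kb (FF N)) → FF N →ₐ[Kb] L) (k : ℤ) (c₀ : JZero N)
    (hq : (s27dclPkg hld hgen hx G₀ hG₀).cl
        (fun i => (s27dclPkg hld hgen hx G₀ hG₀).pt (q i)) =
      k • ((s27dclPkg hld hgen hx G₀ hG₀).cl
        (fun i => (s27dclPkg hld hgen hx G₀ hG₀).pt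
          (s27pfTaut (K := Kb) (F := FF N) (g := genusFF Kb (FF N)) (L := L) i)))
        + s27bcBeta hld hgen (s26gspf_hall hx) c₀)
    (P : S17plPlace Kb L) (Q : Fin (genusFF Kb (FF N)) → Place Kb (FF N))
    (hQ : ∀ i, S27ptIsCentre P.W (q i) (Q i)) :
    k • s17coCl (L := L) hld hgen hx G₀ hG₀ P + c₀ + s17pnoShift N G₀ = s17pnuCl N Q := by
  unfold s17pnoShift
  rw [← s17coCl_affine hld hgen hx G₀ hG₀ P k c₀ q Q hQ hq]
  exact s17pcCl_add_shift N G₀ hG₀ Q

/-- **(U) for a tuple of class `k • η + β c₀`.** -/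
theorem s17pno_U (q : Fin (genusFF Kb (FF N)) → FF N →ₐ[Kb] L) (k : ℤ) (c₀ : JZero N)
    (hq : (s27dclPkg hld hgen hx G₀ hG₀).cl
        (fun i => (s27dclPkg hld hgen hx G₀ hG₀).pt (q i)) =
      k • ((s27dclPkg hld hgen hx G₀ hG₀).cl
        (fun i => (s27dclPkg hld hgen hx G₀ hG₀).pt
          (s27pfTaut (K := Kb) (F := FF N) (g := genusFF Kb (FF N)) (L := L) i)))
        + s27bcBeta hld hgen (s26gspf_hall hx) c₀)
    {ι : Type*} [Fintype ι] (s : ι → L) (hs : s ≠ 0)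
    (H : S17plPlace Kb L → ℝ)
    (hH : ∀ (P : S17plPlace Kb L) (α : ι) (hα : S17plIsMin P.W s α),
      H P = s17haAbsQ (s17plVal P s α hα))
    (t : FF N)
    (ht : ∀ v : Place Kb (FF N), v ≠ cuspInf N → 0 ≤ v.ord t)
    (c : Fin (genusFF Kb (FF N) + 1) → ι → Kb) (Φ : L) (hΦ : Φ ≠ 0)
    (hG : ∀ n, s17pvLin c s n = Φ * s17cvChow (fun i => q i t) n)
    (hvis : ∀ (P : S17plPlace Kb L),
      S17poGood N (k • s17coCl (L := L) hld hgen hx G₀ hG₀ P + c₀ + s17pnoShift N G₀) →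
      ∃ (α : ι) (hα : S17plIsMin P.W s α) (j₀ : Fin (genusFF Kb (FF N) + 1)),
        s17pvLinK c (s17plVal P s α hα) j₀ ≠ 0) :
    S17pnU N (fun P => k • s17coCl (L := L) hld hgen hx G₀ hG₀ P + c₀) H t
      (s17pnoShift N G₀) := by
  classical
  -- the centres of the points of the tuple
  have hcen : ∀ P : S17plPlace Kb L, ∃ Q : Fin (genusFF Kb (FF N)) → Place Kb (FF N),
      ∀ i, S27ptIsCentre P.W (q i) (Q i) := by
    intro P
    choose Q hQ using fun i => s17ch2_exists_centre P hx (q i)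
    exact ⟨Q, hQ⟩
  choose Q hQ using hcen
  have hcl : ∀ P, k • s17coCl (L := L) hld hgen hx G₀ hG₀ P + c₀ + s17pnoShift N G₀ =
      s17pnuCl N (Q P) := fun P => s17pno_cl N hld hgen hx G₀ hG₀ q k c₀ hq P (Q P) (hQ P)
  -- the charts: the visible one at the good places, any one elsewhere
  have hch : ∀ P : S17plPlace Kb L, ∃ (α : ι) (hα : S17plIsMin P.W s α),
      S17poGood N (s17pnuCl N (Q P)) →
        ∃ j₀, s17pvLinK c (s17plVal P s α hα) j₀ ≠ 0 := by
    intro P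
    by_cases hgood : S17poGood N (s17pnuCl N (Q P))
    · obtain ⟨α, hα, j₀, hj₀⟩ := hvis P (by rw [hcl P]; exact hgood)
      exact ⟨α, hα, fun _ => ⟨j₀, hj₀⟩⟩
    · obtain ⟨α, hα⟩ := s17pl_exists_min P.W hs
      exact ⟨α, hα, fun h => absurd h hgood⟩
  choose α hα hvis' using hch
  obtain ⟨C, hC⟩ := s17pnu_U N s q t ht c Φ hΦ hG
    (fun P : S17plPlace Kb L => P) α hα Q hQ hvis'
  refine ⟨C, fun P hgood => ?_⟩
  have e1 : (fun P => k • s17coCl (L := L) hld hgen hx G₀ hG₀ P + c₀) P + s17pnoShift N G₀ =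
      s17pnuCl N (Q P) := hcl P
  rw [e1] at hgood ⊢
  rw [hH P (α P) (hα P)]
  exact hC P hgood

/-- **PlN FOR THE OPPOSITE TUPLE** (`k = −1`, `c₀ = 0`):
(open) + (T) + CHOW BLOCK of the opposite tuple + VISIBILITY at the places with `−x_P + δ` GOOD
⇒ (N) for the centre map `cl = s17coCl` itself. -/
theorem s17pno_plN_opp (q : Fin (genusFF Kb (FF N)) → FF N →ₐ[Kb] L)
    (hq : s27pfCl (s27dclPkg hld hgen hx G₀ hG₀) q =
      (-1 : ℤ) • s27pfCl (s27dclPkg hld hgen hx G₀ hG₀)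
        (s27pfTaut (K := Kb) (F := FF N) (g := genusFF Kb (FF N)) (L := L)))
    {ι : Type*} [Fintype ι] (s : ι → L) (hs : s ≠ 0)
    (H : S17plPlace Kb L → ℝ)
    (hH : ∀ (P : S17plPlace Kb L) (α : ι) (hα : S17plIsMin P.W s α),
      H P = s17haAbsQ (s17plVal P s α hα))
    (t : FF N)
    (hnc : ∀ c : Kb, t ≠ algebraMap Kb (FF N) c)
    (htΓ : ∀ σ : Kb ≃ₐ[ℚ] Kb, galAct N σ • t = t)
    (ht : ∀ v : Place Kb (FF N), v ≠ cuspInf N → 0 ≤ v.ord t)
    (c : Fin (genusFF Kb (FF N) + 1) → ι → Kb) (Φ : L) (hΦ : Φ ≠ 0)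
    (hG : ∀ n, s17pvLin c s n = Φ * s17cvChow (fun i => q i t) n)
    (hvis : ∀ (P : S17plPlace Kb L),
      S17poGood N (-s17coCl (L := L) hld hgen hx G₀ hG₀ P + s17pnoShift N G₀) →
      ∃ (α : ι) (hα : S17plIsMin P.W s α) (j₀ : Fin (genusFF Kb (FF N) + 1)),
        s17pvLinK c (s17plVal P s α hα) j₀ ≠ 0)
    (hopen : S17luOpen N) (a : ℝ) (ha : 0 ≤ a)
    (hT : S17hyPlT (s17coCl (L := L) hld hgen hx G₀ hG₀) H a) :
    S17hxPlN (s17coCl (L := L) hld hgen hx G₀ hG₀) H := by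
  have hq' : (s27dclPkg hld hgen hx G₀ hG₀).cl
        (fun i => (s27dclPkg hld hgen hx G₀ hG₀).pt (q i)) =
      (-1 : ℤ) • ((s27dclPkg hld hgen hx G₀ hG₀).cl
        (fun i => (s27dclPkg hld hgen hx G₀ hG₀).pt
          (s27pfTaut (K := Kb) (F := FF N) (g := genusFF Kb (FF N)) (L := L) i)))
        + s27bcBeta hld hgen (s26gspf_hall hx) 0 := by
    rw [map_zero, add_zero]
    exact hq
  have e : ∀ P : S17plPlace Kb L,
      (-1 : ℤ) • s17coCl (L := L) hld hgen hx G₀ hG₀ P + 0 =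
        -s17coCl (L := L) hld hgen hx G₀ hG₀ P := fun P => by
    rw [add_zero, neg_one_zsmul]
  have hU := s17pno_U N hld hgen hx G₀ hG₀ q (-1) 0 hq' s hs H hH t ht c Φ hΦ hG
    (fun P hgood => hvis P (by rw [← e P]; exact hgood))
  have hU' : S17pnU N (fun P => -s17coCl (L := L) hld hgen hx G₀ hG₀ P) H t
      (s17pnoShift N G₀) := by
    have e' : (fun P => (-1 : ℤ) • s17coCl (L := L) hld hgen hx G₀ hG₀ P + 0) =
        (fun P => -s17coCl (L := L) hld hgen hx G₀ hG₀ P) := funext e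
    rw [← e']
    exact hU
  exact s17nn_plN_of_neg
    (s17pn_plN_a N _ _ t hnc htΓ ht hopen (s17pnoShift N G₀) a ha (s17nn_plT_neg hT) hU')

/-- **PlN FOR THE OPPOSITE TUPLE**, CHOW BLOCK with `Φ = 1`, VISIBILITY in the form: every
coordinate of `s` is regular at the places with `−x_P + δ` GOOD. -/
theorem s17pno_plN_reg (q : Fin (genusFF Kb (FF N)) → FF N →ₐ[Kb] L)
    (hq : s27pfCl (s27dclPkg hld hgen hx G₀ hG₀) q =
      (-1 : ℤ) • s27pfCl (s27dclPkg hld hgen hx G₀ hG₀)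
        (s27pfTaut (K := Kb) (F := FF N) (g := genusFF Kb (FF N)) (L := L)))
    {ι : Type*} [Fintype ι] (s : ι → L)
    (H : S17plPlace Kb L → ℝ)
    (hH : ∀ (P : S17plPlace Kb L) (α : ι) (hα : S17plIsMin P.W s α),
      H P = s17haAbsQ (s17plVal P s α hα))
    (t : FF N)
    (hnc : ∀ c : Kb, t ≠ algebraMap Kb (FF N) c)
    (htΓ : ∀ σ : Kb ≃ₐ[ℚ] Kb, galAct N σ • t = t)
    (ht : ∀ v : Place Kb (FF N), v ≠ cuspInf N → 0 ≤ v.ord t)
    (c : Fin (genusFF Kb (FF N) + 1) → ι → Kb)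
    (hG : ∀ n, s17pvLin c s n = s17cvChow (fun i => q i t) n)
    (hvis : ∀ (P : S17plPlace Kb L),
      S17poGood N (-s17coCl (L := L) hld hgen hx G₀ hG₀ P + s17pnoShift N G₀) →
      ∀ i, s i ∈ P.W)
    (hopen : S17luOpen N) (a : ℝ) (ha : 0 ≤ a)
    (hT : S17hyPlT (s17coCl (L := L) hld hgen hx G₀ hG₀) H a) :
    S17hxPlN (s17coCl (L := L) hld hgen hx G₀ hG₀) H := by
  have hs : s ≠ 0 := s17pno_ne_zero s c _ hG
  refine s17pno_plN_opp N hld hgen hx G₀ hG₀ q hq s hs H hH t hnc htΓ ht c 1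
    one_ne_zero (fun n => by rw [hG n, one_mul]) (fun P hgood => ?_) hopen a ha hT
  obtain ⟨α, hα⟩ := s17pl_exists_min P.W hs
  exact ⟨α, hα, Fin.last _, s17n3_vis_of_mem P s α hα c _ hG (hvis P hgood α)⟩

/-- **PlN FOR THE OPPOSITE TUPLE**, VISIBILITY from the UNIT criterion: `s ⊂ L(M · Θ)` for the
local equations `y` (`s i · y W ^ M ∈ W` at the `ℚ̄`-places) and `y` is a unit at the places with
`−x_P + δ` GOOD (U1). -/
theorem s17pno_plN_unit (q : Fin (genusFF Kb (FF N)) → FF N →ₐ[Kb] L)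
    (hq : s27pfCl (s27dclPkg hld hgen hx G₀ hG₀) q =
      (-1 : ℤ) • s27pfCl (s27dclPkg hld hgen hx G₀ hG₀)
        (s27pfTaut (K := Kb) (F := FF N) (g := genusFF Kb (FF N)) (L := L)))
    {ι : Type*} [Fintype ι] (s : ι → L)
    (H : S17plPlace Kb L → ℝ)
    (hH : ∀ (P : S17plPlace Kb L) (α : ι) (hα : S17plIsMin P.W s α),
      H P = s17haAbsQ (s17plVal P s α hα))
    (t : FF N)
    (hnc : ∀ c : Kb, t ≠ algebraMap Kb (FF N) c)
    (htΓ : ∀ σ : Kb ≃ₐ[ℚ] Kb, galAct N σ • t = t)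
    (ht : ∀ v : Place Kb (FF N), v ≠ cuspInf N → 0 ≤ v.ord t)
    (c : Fin (genusFF Kb (FF N) + 1) → ι → Kb)
    (hG : ∀ n, s17pvLin c s n = s17cvChow (fun i => q i t) n)
    (y : ValuationSubring L → L) (M : ℕ)
    (hsec : ∀ (P : S17plPlace Kb L) (i : ι), s i * y P.W ^ M ∈ P.W)
    (hunit : ∀ (P : S17plPlace Kb L),
      S17poGood N (-s17coCl (L := L) hld hgen hx G₀ hG₀ P + s17pnoShift N G₀) →
      S27IsUnitIn P.W (y P.W))
    (hopen : S17luOpen N) (a : ℝ) (ha : 0 ≤ a)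
    (hT : S17hyPlT (s17coCl (L := L) hld hgen hx G₀ hG₀) H a) :
    S17hxPlN (s17coCl (L := L) hld hgen hx G₀ hG₀) H :=
  s17pno_plN_reg N hld hgen hx G₀ hG₀ q hq s H hH t hnc htΓ ht c hG
    (fun P hgood i => s17pno_mem_of_unit P.W M (hsec P i) (hunit P hgood)) hopen a ha hT

end Stage

end Fermat.Agent.S17

end
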