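/-
S17 sprint, layer H — **HVIS-U** (helper41): the input (L2) `hunit` of helper74's PlN TOP
(`S17/PlNTop.lean`, `s17pnt_plN`), LITERAL, for the local equation of PlM / PlT
`y = s17pmtB (s27indB ψ β 1)` (ruling (A): `b = B (+1)`), from `S17/HVis.lean`.

* `s17hvu_good`        : `Q` the centres of a tuple of class `(−1) • η` along `P`:
                         `s17pnuCl N Q = −x_P + [G₀ − g∞]`;
* **`s17hvu_hunit`**   : stage of `S17/CentreOnto.lean`, family `q`, `β` with `S27pnBeta`: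
                         `S17poGood N (−s17coCl … P + s17pnoShift N G₀) →
                            S27IsUnitIn P.W (s17pmtB (s27indB ψ β 1) P.W)`;
* **`s17hvu_hunit_stage`** : the same on the closed stage `L = s27mtL`, `β = s27beta (G₀ + Ao)`,
                         for ANY constants `hc : S27cstIsConst x G₀ (cuspInf N)` and ANY family `q`.
-/
import Fermat.Agent.S17.HVis
import Fermat.Agent.S17.PlNOpp
import Fermat.Agent.S17.PlMTop

set_option autoImplicit false
set_option linter.unusedVariables false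
set_option linter.unusedSectionVars false
set_option linter.style.haveILetI false
set_option linter.style.longLine false

noncomputable section

namespace Fermat.Agent.S17

open ModularCurve AlgebraicCurve Module TensorProduct IntermediateField
open Fermat.Agent.S24 Fermat.Agent.ES.M Fermat.Agent.ES.H Fermat.Agent.S15 Fermat.Agent.S26
  Fermat.Agent.S27 Fermat.Agent.DEU

universe y

section JZ

variable (N : ℕ) [NeZero N] [IsCurveOver Kb (FF N)] [Algebra.EssFiniteType Kb (FF N)]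
  {L : Type} [Field L] [Algebra Kb L]
  [Algebra (s27gfOm Kb (FF N) (genusFF Kb (FF N))) L]
  [IsScalarTower Kb (s27gfOm Kb (FF N) (genusFF Kb (FF N))) L]
  [IsAlgClosed L] [Algebra.IsAlgebraic (s27gfOm Kb (FF N) (genusFF Kb (FF N))) L]
  [IsGalois (s27gfSym Kb (FF N) (genusFF Kb (FF N))) L]
  {FL : Type y} [Field FL] [Algebra Kb FL] [Algebra (FF N) FL] [Algebra L FL]
  [IsScalarTower Kb (FF N) FL] [IsScalarTower Kb L FL]
  (hld : Function.Injective (s26gspMu Kb (FF N) L FL)) (hgen : S26gspGen Kb (FF N) L FL)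
  {x : FF N} (hx : Transcendental Kb x)
  [FiniteDimensional ↥(IntermediateField.adjoin Kb {x}) (FF N)]
  [Algebra.IsSeparable ↥(IntermediateField.adjoin Kb {x}) (FF N)]
  (G₀ : Divisor Kb (FF N)) (hG₀ : Divisor.degree G₀ = (genusFF Kb (FF N) : ℤ))

/-- the class `[Σ Q − g∞]` of the centres of a tuple of class `(−1) • η` is `−x_P + δ`. -/
theorem s17hvu_good (e : Fin (genusFF Kb (FF N)) → FF N →ₐ[Kb] L)
    (he : s27pfCl (s27dclPkg hld hgen hx G₀ hG₀) e =
      (-1 : ℤ) • s27pfCl (s27dclPkg hld hgen hx G₀ hG₀)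
        (s27pfTaut (K := Kb) (F := FF N) (g := genusFF Kb (FF N)) (L := L)))
    (P : S17plPlace Kb L) (Q : Fin (genusFF Kb (FF N)) → Place Kb (FF N))
    (hQ : ∀ i, S27ptIsCentre P.W (e i) (Q i)) :
    s17pnuCl N Q = -s17coCl (L := L) hld hgen hx G₀ hG₀ P + s17pnoShift N G₀ := by
  have h1 := s17hv_centre_smul hld hgen hx G₀ hG₀ P (-1) e Q hQ he
  have h2 := s17u1_mk_sum N G₀ hG₀ Q
  have e1 : s17pnuCl N Q = Pic0.mk (s17h90Div N (s27pkgSum Q)) := rfl
  have e2 : s17pnoShift N G₀ = s17u1Delta N G₀ := rfl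
  rw [e1, h2, e2]
  congr 1
  rw [← neg_one_zsmul]
  exact h1

/-- **(L2) `hunit`, literal**: at a place `P` with `−x_P + δ` GOOD the local equation
`y P.W = ι (B 1 (P.W ∩ 𝔉))` is a unit of `P.W`. -/
theorem s17hvu_hunit
    {q : ℤ → Fin (genusFF Kb (FF N)) → FF N →ₐ[Kb] L}
    (hq : S27pfFam (s27dclPkg hld hgen hx G₀ hG₀) q)
    (β : ValuationSubring (s27gfSym Kb (FF N) (genusFF Kb (FF N))) →
      s27gfSym Kb (FF N) (genusFF Kb (FF N)))
    (hβ : S27pnBeta (L := L)
      (s27pnTaut (K := Kb) (F := FF N) (g := genusFF Kb (FF N)) (L := L))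
      (G₀ + s27cstAo G₀ (cuspInf N)) β)
    (P : S17plPlace Kb L)
    (hgood : S17poGood N (-s17coCl (L := L) hld hgen hx G₀ hG₀ P + s17pnoShift N G₀)) :
    S27IsUnitIn P.W (s17pmtB (L := L)
      (s27indB (s27pfPsi (s27dclPkg hld hgen hx G₀ hG₀) (s27dcl_halg (x := x)) hq) β 1) P.W) := by
  have hc : ∀ i, ∃ Q : Place Kb (FF N), S27ptIsCentre P.W (q (-1) i) Q :=
    fun i => s17ch2_exists_centre P hx (q (-1) i)
  choose Q hQ using hc
  have he := (hq (-1) (by norm_num)).2
  have hg : S17poGood N (s17pnuCl N Q) := by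
    rw [s17hvu_good N hld hgen hx G₀ hG₀ (q (-1)) he P Q hQ]
    exact hgood
  exact s17hv_unit_good N hld hgen hx G₀ hG₀ hq β hβ 1 one_ne_zero (q (-1)) he P Q hQ hg

end JZ

section Closed

variable (N : ℕ) [NeZero N] [IsCurveOver Kb (FF N)] [Algebra.EssFiniteType Kb (FF N)]

/-- **(L2) `hunit` on the closed stage**, constants `hc : S27cstIsConst x G₀ (cuspInf N)`. -/
theorem s17hvu_hunit_stage {x : FF N} {G₀ : Divisor Kb (FF N)}
    (hc : S27cstIsConst x G₀ (cuspInf N)) (hg : 0 < genusFF Kb (FF N)) :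
    haveI := hc.fin
    haveI := hc.sep
    ∀ (q : ℤ → Fin (genusFF Kb (FF N)) → FF N →ₐ[Kb] s27mtL Kb (FF N))
      (hq : S27pfFam (s27ftPkg hc.trans G₀ hc.deg) q)
      (P : S17plPlace Kb (s27mtL Kb (FF N))),
      S17poGood N (-s17coCl (L := s27mtL Kb (FF N)) (FL := s27mtFL Kb (FF N))
          (s27stg_hld Kb (FF N) (s27mtL Kb (FF N))) (s27stg_hgen Kb (FF N) (s27mtL Kb (FF N)))
          hc.trans G₀ hc.deg P + s17pnoShift N G₀) →
      S27IsUnitIn P.W (s17pmtB (L := s27mtL Kb (FF N))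
        (s27indB (s27pfPsi (s27ftPkg hc.trans G₀ hc.deg) (s27dcl_halg (x := x)) hq)
          (s27beta (g := genusFF Kb (FF N)) (G₀ + s27cstAo G₀ (cuspInf N))) 1) P.W) := by
  haveI := hc.fin
  haveI := hc.sep
  intro q hq P hgood
  exact s17hvu_hunit N (FL := s27mtFL Kb (FF N)) (s27stg_hld Kb (FF N) (s27mtL Kb (FF N)))
    (s27stg_hgen Kb (FF N) (s27mtL Kb (FF N))) hc.trans G₀ hc.deg hq _
    (s17hv_beta hc hg) P hgood

end Closed

end Fermat.Agent.S17

end
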