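/-
S17 sprint, layer H — **MODEL-CUSP** (helper10): the constants of the S27-B stage exist WITH
`O″ = ∞` (the cusp `cuspInf N`).

Why: on the stage `β` is the local equation of `Θ_A = {[D − G₀] : ℓ(2G₀ − O″ − D) > 0}` and
`b = B(−1) = β ∘ ψ₋₁` is the local equation of `Θ⁻ = [−1]^*Θ_A = {[D − G₀] : ℓ(D − O″) > 0}`.
The class-level Northcott layer (S17/Pool.lean `S17poGood`, S17/PlNGood.lean, S17/PlNU.lean,
S17/PoolCentre.lean) is written with respect to the cusp `∞` (`t` has its only pole at `∞`,
`s17h90Red` is reduced with respect to `∞`): GOOD ⇔ `ℓ(D − ∞) = 0`.  The two agree exactly when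
`O″ = ∞`.

* `s17mcu_exists_eff`   : every class `y` is `[E − g·∞]` for an effective `E` of degree `g`;
* `s17mcu_finrank_one`  : `E` reduced with respect to `∞` ⇒ `ℓ(E) = 1`;
* `s17mcu_exists_good`  : there is `G₀ ≥ 0`, `deg G₀ = g`, `ℓ(G₀) = 1`, `G₀(∞) = 0`, reduced, whose
                          class `[G₀ − g·∞]` is GOOD;
* **`s17mcu_exists`**   : `∃ G₀, S27cstIsConst (jF N) G₀ (cuspInf N)`;
* `s17mcuG0 N`, `s17mcu_const N`, `s17mcu_G0_*` : a chosen such `G₀` and its facts.
-/
import Fermat.Agent.S17.Pool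
import Fermat.Agent.S17.Tors
import Fermat.Agent.S27.Consts

set_option autoImplicit false
set_option linter.unusedSectionVars false
set_option linter.unusedVariables false
set_option linter.style.haveILetI false
set_option linter.style.longLine false

noncomputable section

namespace Fermat.Agent.S17

open ModularCurve AlgebraicCurve Module
open Fermat.Agent.S24 Fermat.Agent.ES.M Fermat.Agent.ES.H Fermat.Agent.S15 Fermat.Agent.S26
  Fermat.Agent.S27

section Generic

universe u v

variable {K : Type u} {F : Type v} [Field K] [Field F] [Algebra K F]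

/-- a reduced divisor (with respect to a point with residue field `K`) has `ℓ = 1`. -/
theorem s17mcu_finrank_one_gen {P₀ : Place K F}
    (hP₀ : Function.Surjective (algebraMap K P₀.ResidueField)) {E : Divisor K F}
    (hE : S27Reduced P₀ E) : finrank K ↥(riemannRochSpace E) = 1 := by
  have hspan : riemannRochSpace E = Submodule.span K {(1 : F)} := by
    ext f
    constructor
    · intro hf
      obtain ⟨c, rfl⟩ := s27rd_sections_const hP₀ hE hf
      rw [Submodule.mem_span_singleton]
      exact ⟨c, by rw [Algebra.smul_def, mul_one]⟩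
    · intro hf
      rw [Submodule.mem_span_singleton] at hf
      obtain ⟨c, rfl⟩ := hf
      rw [Algebra.smul_def, mul_one]
      exact s27rd_const_mem hE.1 c
  rw [hspan]
  exact finrank_span_singleton one_ne_zero

end Generic

variable (N : ℕ) [NeZero N]

/-- every class is `[E − g·∞]` for an effective divisor `E` of degree `g`. -/
theorem s17mcu_exists_eff (y : JZero N) :
    ∃ E : Divisor Kb (FF N), 0 ≤ E ∧ Divisor.degree E = (genusFF Kb (FF N) : ℤ) ∧
      Pic0.mk (s17h90Div N E) = y := by
  classical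
  have hred := s17h90Red_reduced N y
  have hle := s17h90_deg_le N hred
  set E₀ : Divisor Kb (FF N) := s17h90Red N y with hE₀
  set k : ℤ := (genusFF Kb (FF N) : ℤ) - Divisor.degree E₀ with hk
  have hk0 : 0 ≤ k := by omega
  have hsingle : (0 : Divisor Kb (FF N)) ≤ Finsupp.single (cuspInf N) k := by
    rw [Finsupp.le_def]
    intro v
    by_cases hv : cuspInf N = v
    · subst hv
      simpa using hk0
    · simp [Finsupp.single_eq_of_ne (Ne.symm hv)]
  have hdeg : Divisor.degree (E₀ + Finsupp.single (cuspInf N) k) = (genusFF Kb (FF N) : ℤ) := by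
    rw [map_add, Divisor.degree_single, cuspInf_deg]
    simp only [Nat.cast_one, mul_one]
    omega
  refine ⟨E₀ + Finsupp.single (cuspInf N) k, add_nonneg hred.1 hsingle, hdeg, ?_⟩
  rw [← s17h90Red_mk N y]
  congr 1
  apply Subtype.ext
  rw [s17h90Div_coe, s17h90Div_coe, hdeg, ← hE₀]
  have h1 : (Finsupp.single (cuspInf N) ((genusFF Kb (FF N) : ℤ)) : Divisor Kb (FF N))
      = Finsupp.single (cuspInf N) k + Finsupp.single (cuspInf N) (Divisor.degree E₀) := by
    rw [← Finsupp.single_add]
    congr 1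
    omega
  rw [h1]
  abel

/-- a divisor reduced with respect to the cusp has `ℓ = 1`. -/
theorem s17mcu_finrank_one {E : Divisor Kb (FF N)} (hE : S27Reduced (cuspInf N) E) :
    finrank Kb ↥(riemannRochSpace E) = 1 :=
  s17mcu_finrank_one_gen (s17h90_res_surj N (cuspInf N)) hE

/-- there is an effective divisor `G₀` of degree `g`, reduced with respect to the cusp, off the
cusp, with `ℓ(G₀) = 1`, whose class is GOOD. -/
theorem s17mcu_exists_good :
    ∃ G₀ : Divisor Kb (FF N), 0 ≤ G₀ ∧ Divisor.degree G₀ = (genusFF Kb (FF N) : ℤ) ∧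
      finrank Kb ↥(riemannRochSpace G₀) = 1 ∧ G₀ (cuspInf N) = 0 ∧
      S27Reduced (cuspInf N) G₀ ∧ S17poGood N (Pic0.mk (s17h90Div N G₀)) := by
  obtain ⟨𝒞, h𝒞⟩ := s17po_exists_pool N
  obtain ⟨c, -, hc⟩ := h𝒞 0
  rw [zero_add] at hc
  obtain ⟨E, hE, hdeg, hmk⟩ := s17mcu_exists_eff N c
  have hred := s17po_good_reduced N hc hE hdeg hmk
  exact ⟨E, hE, hdeg, s17mcu_finrank_one N hred, hc E hE hdeg hmk, hred, by rw [hmk]; exact hc⟩

/-- **MODEL-CUSP: the constants of the S27-B stage exist with `O″ = ∞`.** -/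
theorem s17mcu_exists : ∃ G₀ : Divisor Kb (FF N), S27cstIsConst (jF N) G₀ (cuspInf N) := by
  haveI := s17to_isCurveOver N
  haveI := s17to_essFiniteType N
  haveI := Fermat.Agent.ES.H.finiteDimensional_adjoin_jF N
  obtain ⟨G₀, hG0, hdeg, h1, hO, -, -⟩ := s17mcu_exists_good N
  exact ⟨G₀, s27cst_of (transcendental_jF N) hG0 hdeg h1 hO⟩

/-- with GOOD class and reducedness recorded. -/
theorem s17mcu_exists' : ∃ G₀ : Divisor Kb (FF N), S27cstIsConst (jF N) G₀ (cuspInf N) ∧
    S27Reduced (cuspInf N) G₀ ∧ S17poGood N (Pic0.mk (s17h90Div N G₀)) := by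
  haveI := s17to_isCurveOver N
  haveI := s17to_essFiniteType N
  haveI := Fermat.Agent.ES.H.finiteDimensional_adjoin_jF N
  obtain ⟨G₀, hG0, hdeg, h1, hO, hred, hgood⟩ := s17mcu_exists_good N
  exact ⟨G₀, s27cst_of (transcendental_jF N) hG0 hdeg h1 hO, hred, hgood⟩

/-- a chosen origin `G₀` for the model with `O″ = ∞`. -/
def s17mcuG0 : Divisor Kb (FF N) := Classical.choose (s17mcu_exists' N)

theorem s17mcu_const : S27cstIsConst (jF N) (s17mcuG0 N) (cuspInf N) :=
  (Classical.choose_spec (s17mcu_exists' N)).1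

theorem s17mcu_G0_reduced : S27Reduced (cuspInf N) (s17mcuG0 N) :=
  (Classical.choose_spec (s17mcu_exists' N)).2.1

theorem s17mcu_G0_good : S17poGood N (Pic0.mk (s17h90Div N (s17mcuG0 N))) :=
  (Classical.choose_spec (s17mcu_exists' N)).2.2

theorem s17mcu_G0_deg : Divisor.degree (s17mcuG0 N) = (genusFF Kb (FF N) : ℤ) :=
  (s17mcu_const N).deg

theorem s17mcu_G0_off : s17mcuG0 N (cuspInf N) = 0 := (s17mcu_const N).off

end Fermat.Agent.S17

end
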