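/-
S17 sprint, layer H — **THE MODEL** (helper24): the places, the centre map and the height of
design A v2 (NOTES/S17-designA.md), on the closed S27-B stage of the modular function field.

Stage: `K = Kb = ℚ̄`, `F = FF N`, `x = jF N`, `g = genusFF Kb (FF N)`, `L = s27mtL Kb (FF N)`
(algebraic closure of `Ω_g`), `FL = s27mtFL Kb (FF N)`, `𝔉 = s27gfSym Kb (FF N) g ⊆ Ω_g ⊆ L`,
constants `G₀ = s17mcuG0 N`, `O = ∞ = cuspInf N` (S17/ModelCusp.lean) with
`S27cstIsConst (jF N) G₀ O`, `Ao = G₀ − O`,
`pkg = s27ftPkg hx G₀ hG₀`, a family `q` (chosen), `ψ = s27pfPsi pkg halg hq`, `β = s27beta (G₀ + Ao)`,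
`B k = s27indB ψ β k`, **`b = B (−1)` = the local equation of `Θ⁻`**.

* `s17mdP N`      : the `K`-places of `L` (`S17plPlace Kb L`, S17/Place.lean);
* `s17mdCl N`     : the centre `x_P = sp_P η` (`s17coCl`, S17/CentreOnto.lean); `s17mdCl_surjective`;
* `s17mdHS S P`   : the ABSOLUTE log height of the place-value `[S]_P` of a finite tuple `S` of `L`
                    (`0` if `S = 0`); `s17mdHS_eq` (any minimal chart), `s17mdHS_nonneg`;
* `s17mdLU N m`   : `L(m · Θ⁻) = s27LU Kb b m ⊆ 𝔉`;  `s17mdS N m` : a `Kb`-basis of it (if finite);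
* **`s17mdHm N m`** : `P ↦ habs [s]_P`, `s = s17mdS N m` (the height of design A with `m₀ = m`);
* `S17mdOk N m`   : the three place statements `PlM (3, 6)`, `PlT (2)`, `PlN` for `s17mdHm N m`;
* **`s17mdH N`**  : `s17mdHm N m` for a chosen `m` with `S17mdOk N m` (if there is one);
* `s17md_fg_of`   : in S17/ModelTop.lean;
* `s17md_closed`  : `(∃ m, S17mdOk N m) ⇒` the three CLOSED statements for `s17mdH N`.

SUB-INTEGRATORS: prove `∀ m, M_i ≤ m → <your statement> (s17mdCl N) (s17mdHm N m)`; the glue takes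
`m = max M_i`.
-/
import Fermat.Agent.S17.CentreOnto
import Fermat.Agent.S17.ModelCusp
import Fermat.Agent.S17.Tors
import Fermat.Agent.S17.HtAbsQb
import Fermat.Agent.S17.Place
import Fermat.Agent.S17.HTopAB
import Fermat.Agent.S27.Consts
import Fermat.Agent.S27.FinalTop
import Fermat.Agent.S27.ModelPsi

set_option autoImplicit false
set_option linter.style.haveILetI false
set_option linter.unusedVariables false
set_option linter.unusedSectionVars false
set_option linter.style.longLine false

noncomputable section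

namespace Fermat.Agent.S17

open ModularCurve AlgebraicCurve IntermediateField Module
open Fermat.Agent.S24 Fermat.Agent.S26 Fermat.Agent.S27

/-! ### The height of a place-value -/

section HS

variable {L : Type*} [Field L] [Algebra Kb L] {ι : Type*} [Finite ι]

open Classical in
/-- the absolute logarithmic height of the place-value `[S]_P` (`0` if `S = 0`). -/
def s17mdHS (S : ι → L) (P : S17plPlace Kb L) : ℝ :=
  if h : S ≠ 0 then
    s17haAbsQ (s17plVal P S (Classical.choose (s17pl_exists_min P.W h))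
      (Classical.choose_spec (s17pl_exists_min P.W h)))
  else 0

/-- the height of the place-value may be computed in ANY minimal chart. -/
theorem s17mdHS_eq (S : ι → L) (P : S17plPlace Kb L) (α : ι) (hα : S17plIsMin P.W S α) :
    s17mdHS S P = s17haAbsQ (s17plVal P S α hα) := by
  have hS : S ≠ 0 := fun h0 => hα.1 (by rw [h0]; rfl)
  unfold s17mdHS
  rw [dif_pos hS]
  obtain ⟨c, hc, hval⟩ := s17pl_val_change P S α (Classical.choose (s17pl_exists_min P.W hS))
    hα (Classical.choose_spec (s17pl_exists_min P.W hS))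
  have h1 : s17plVal P S (Classical.choose (s17pl_exists_min P.W hS))
      (Classical.choose_spec (s17pl_exists_min P.W hS)) = c • s17plVal P S α hα := by
    funext β
    rw [hval β]
    rfl
  rw [h1, s17haAbsQ_smul _ hc]

theorem s17mdHS_nonneg (S : ι → L) (P : S17plPlace Kb L) : 0 ≤ s17mdHS S P := by
  unfold s17mdHS
  split_ifs with h
  · exact s17haAbsQ_nonneg _
  · exact le_refl 0

end HS

/-! ### The stage -/

section Stage

variable (N : ℕ) [NeZero N]

/-- `L`, the field of the points. -/
abbrev s17mdL : Type := s27mtL Kb (FF N)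

/-- `FL = Frac (F ⊗ L)`. -/
abbrev s17mdFL : Type := s27mtFL Kb (FF N)

/-- `𝔉`, the field of the symmetric functions (the function field of `J`). -/
abbrev s17mdSym : Type := s27gfSym Kb (FF N) (genusFF Kb (FF N))

/-- **the places**: the `K`-rational places of `L`. -/
abbrev s17mdP : Type := S17plPlace Kb (s17mdL N)

theorem s17md_exists_const :
    ∃ (G₀ : Divisor Kb (FF N)) (O : Place Kb (FF N)), S27cstIsConst (jF N) G₀ O := by
  haveI := s17to_isCurveOver N
  haveI := s17to_essFiniteType N
  haveI := Fermat.Agent.ES.H.finiteDimensional_adjoin_jF N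
  exact s27cst_exists_of Kb (FF N) (jF N) (transcendental_jF N)

/-- the origin `G₀` (degree `g`, `ℓ(G₀) = 1`, reduced with respect to the cusp `∞`, of GOOD
class): the chosen origin of S17/ModelCusp.lean. -/
def s17mdG0 : Divisor Kb (FF N) := s17mcuG0 N

/-- the point `O″ = ∞` (the cusp), `∉ supp G₀`. -/
def s17mdO : Place Kb (FF N) := Fermat.Agent.S15.cuspInf N

theorem s17mdG0_eq : s17mdG0 N = s17mcuG0 N := rfl

theorem s17mdO_eq : s17mdO N = Fermat.Agent.S15.cuspInf N := rfl

theorem s17md_const : S27cstIsConst (jF N) (s17mdG0 N) (s17mdO N) := s17mcu_const N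

theorem s17md_G0_reduced : S27Reduced (s17mdO N) (s17mdG0 N) := s17mcu_G0_reduced N

theorem s17md_G0_good : S17poGood N (Pic0.mk (s17h90Div N (s17mdG0 N))) := s17mcu_G0_good N

/-- `Ao = G₀ − O″`. -/
def s17mdAo : Divisor Kb (FF N) := s27cstAo (s17mdG0 N) (s17mdO N)

theorem s17md_hx : Transcendental Kb (jF N) := transcendental_jF N

theorem s17md_hG0 : Divisor.degree (s17mdG0 N) = (genusFF Kb (FF N) : ℤ) := (s17md_const N).deg

/-- **the centre map** `P ↦ x_P = sp_P η`. -/
def s17mdCl : s17mdP N → JZero N :=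
  haveI := s17to_isCurveOver N
  haveI := s17to_essFiniteType N
  haveI := (s17md_const N).fin
  haveI := (s17md_const N).sep
  s17coCl (L := s17mdL N) (FL := s17mdFL N) (s27stg_hld Kb (FF N) (s17mdL N))
    (s27stg_hgen Kb (FF N) (s17mdL N)) (s17md_hx N) (s17mdG0 N) (s17md_hG0 N)

/-- **A-PTa**: the centre map is onto. -/
theorem s17mdCl_surjective : Function.Surjective (s17mdCl N) := by
  haveI := s17to_isCurveOver N
  haveI := s17to_essFiniteType N
  haveI := (s17md_const N).fin
  haveI := (s17md_const N).sep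
  exact s17coCl_onto (L := s17mdL N) (FL := s17mdFL N) (s27stg_hld Kb (FF N) (s17mdL N))
    (s27stg_hgen Kb (FF N) (s17mdL N)) (s17md_hx N) (s17mdG0 N) (s17md_hG0 N)

/-- the centre map at known centres `Q` of the tautological points. -/
theorem s17mdCl_eq (hdeg : ∀ w : Place Kb (FF N), w.deg = 1) (P : s17mdP N)
    (Q : Fin (genusFF Kb (FF N)) → Place Kb (FF N))
    (hQ : ∀ i, S27ptIsCentre P.W
      (s27pfTaut (K := Kb) (F := FF N) (g := genusFF Kb (FF N)) (L := s17mdL N) i) (Q i)) :
    s17mdCl N P = s27pkgClO hdeg (s17mdG0 N) (s17md_hG0 N) Q := by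
  haveI := s17to_isCurveOver N
  haveI := s17to_essFiniteType N
  haveI := (s17md_const N).fin
  haveI := (s17md_const N).sep
  exact s17coCl_eq (L := s17mdL N) (FL := s17mdFL N) (s27stg_hld Kb (FF N) (s17mdL N))
    (s27stg_hgen Kb (FF N) (s17mdL N)) (s17md_hx N) (s17mdG0 N) (s17md_hG0 N) P Q hQ

end Stage

end Fermat.Agent.S17

end
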