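/-
S17 sprint, layer H — **THE MODEL, part 2** (helper24): the ONE theta divisor `Θ` (`b = B(+1) = β`,
captain's ruling (A) of 07:31Z) and the height of
design A v2 (NOTES/S17-designA.md) on the closed stage of S17/Model.lean, as CLOSED constants.

Constants of part 1: `x = jF N`, `G₀ = s17mdG0 N`, `O = s17mdO N`, `hc = s17md_const N`,
`cl = s17mdCl N` (`= s17sxCl N … = s17coCl …` by `rfl`, see `s17mdCl_eq_sx`).

* `s17mdQ N`, `s17md_hq N`  : a chosen family `q` (`S27pfFam (s27ftPkg hx G₀ hG₀) q`);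
* `s17mdPsi N k`            : `ψ k = [k]^*` on `𝔉`;   `s17mdBeta N` : `β = s27beta (G₀ + Ao)`;
* `s17mdB N k`              : `B k = s27indB ψ β k`;  **`s17mdb N = B (+1)`** (`= β`): the local
                              equation of the ONE theta divisor `Θ`; `s17mdbNeg N = B (−1)` (`Θ⁻`);
* `s17mdLU N m`             : `L(m Θ) = s27LU Kb b m ⊆ 𝔉`;
* `s17mdS N m`              : a `Kb`-basis of `L(m Θ)` (as a tuple of `𝔉`; `0` if not finite);
* `s17mdSL N m`             : the same tuple in `L`;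
* **`s17mdHm N m`**         : `P ↦ habs [s]_P`, `s = s17mdSL N m`  (`= s17sxHt (s17mdSL N m)`);
* `S17mdOk N m`             : `PlM (3, 6) ∧ PlT (2) ∧ PlN` for `(s17mdCl N, s17mdHm N m)`;
* `s17mdM N`, **`s17mdH N`**: a chosen `m` with `S17mdOk N m` (if there is one) and its height;
* `s17md_closed`            : `(∃ m, S17mdOk N m) → S17mdOk N (s17mdM N)`;
* `s17md_stmtAt`            : `(∃ m, S17mdOk N m) → S17sxStmtAt N 3 2 6` (the captain's statement).

SUB-INTEGRATORS: prove `∀ m, M_i ≤ m → <your statement> (s17mdCl N) (s17mdHm N m)`; the glue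
`s17md_ok_of` takes `m = max M_i`.
-/
import Fermat.Agent.S17.Model
import Fermat.Agent.S17.StageTop

set_option autoImplicit false
set_option linter.style.haveILetI false
set_option linter.unusedVariables false
set_option linter.unusedSectionVars false
set_option linter.style.longLine false

noncomputable section

namespace Fermat.Agent.S17

open ModularCurve AlgebraicCurve IntermediateField Module
open Fermat.Agent.S24 Fermat.Agent.S26 Fermat.Agent.S27

/-! ### The two heights agree -/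

section HS

variable {L : Type} [Field L] [Algebra Kb L] {ι : Type*} [Finite ι]

/-- `s17mdHS` (S17/Model.lean) is `s17sxHt` (S17/StageTop.lean). -/
theorem s17mdHS_eq_sx (S : ι → L) (P : S17plPlace Kb L) : s17mdHS S P = s17sxHt S P := by
  by_cases hS : S ≠ 0
  · obtain ⟨α, hα⟩ := s17pl_exists_min P.W hS
    rw [s17mdHS_eq S P α hα, s17sxHt_eq S P α hα]
  · have h1 : s17mdHS S P = 0 := by
      unfold s17mdHS
      rw [dif_neg hS]
    have h2 : ¬ ∃ α, S17plIsMin P.W S α := by
      rintro ⟨α, hα⟩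
      exact hS (fun h0 => hα.1 (by rw [h0]; rfl))
    have h3 : s17sxHt S P = 0 := by
      unfold s17sxHt s17plmH
      rw [dif_neg h2]
    rw [h1, h3]

end HS

/-! ### The theta divisor and the height -/

section Stage

variable (N : ℕ) [NeZero N]

/-- the centre map of the model is the centre map of S17/StageTop.lean. -/
theorem s17mdCl_eq_sx :
    haveI := s17to_isCurveOver N
    haveI := s17to_essFiniteType N
    haveI := (s17md_const N).fin
    haveI := (s17md_const N).sep
    s17mdCl N = s17sxCl N (L := s17mdL N) (FL := s17mdFL N) (s27stg_hld Kb (FF N) (s17mdL N))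
      (s27stg_hgen Kb (FF N) (s17mdL N)) (s17md_const N).trans (s17mdG0 N) (s17md_const N).deg :=
  rfl

theorem s17md_exists_fam :
    haveI := s17to_isCurveOver N
    haveI := s17to_essFiniteType N
    haveI := (s17md_const N).fin
    haveI := (s17md_const N).sep
    ∃ q : ℤ → Fin (genusFF Kb (FF N)) → FF N →ₐ[Kb] s17mdL N,
      S27pfFam (s27ftPkg (s17md_const N).trans (s17mdG0 N) (s17md_const N).deg) q := by
  haveI := s17to_isCurveOver N
  haveI := s17to_essFiniteType N
  haveI := (s17md_const N).fin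
  haveI := (s17md_const N).sep
  exact s27mp_exists_fam (FL := s17mdFL N) (s27stg_hld Kb (FF N) (s17mdL N))
    (s27stg_hgen Kb (FF N) (s17mdL N)) (s17md_const N).trans (s17mdG0 N) (s17md_const N).deg

/-- the chosen family `q` (`q k` of class `k • η`). -/
def s17mdQ : ℤ → Fin (genusFF Kb (FF N)) → FF N →ₐ[Kb] s17mdL N :=
  Classical.choose (s17md_exists_fam N)

theorem s17md_hq :
    haveI := s17to_isCurveOver N
    haveI := s17to_essFiniteType N
    haveI := (s17md_const N).fin
    haveI := (s17md_const N).sep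
    S27pfFam (s27ftPkg (s17md_const N).trans (s17mdG0 N) (s17md_const N).deg) (s17mdQ N) :=
  Classical.choose_spec (s17md_exists_fam N)

/-- `ψ k = [k]^*` on `𝔉`. -/
def s17mdPsi (k : ℤ) : s17mdSym N →ₐ[Kb] s17mdSym N :=
  haveI := s17to_isCurveOver N
  haveI := s17to_essFiniteType N
  haveI := (s17md_const N).fin
  haveI := (s17md_const N).sep
  s27pfPsi (s27ftPkg (s17md_const N).trans (s17mdG0 N) (s17md_const N).deg)
    (s27dcl_halg (x := jF N)) (s17md_hq N) k

/-- `β`, the local equations of the theta divisor of `G₀ + Ao`. -/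
def s17mdBeta : ValuationSubring (s17mdSym N) → s17mdSym N :=
  haveI := s17to_isCurveOver N
  haveI := s17to_essFiniteType N
  s27beta (g := genusFF Kb (FF N)) (s17mdG0 N + s27cstAo (s17mdG0 N) (s17mdO N))

/-- `B k = ψ k (β (· ∘ ψ k))`. -/
def s17mdB (k : ℤ) : ValuationSubring (s17mdSym N) → s17mdSym N :=
  s27indB (s17mdPsi N) (s17mdBeta N) k

/-- **the local equation of the ONE theta divisor `Θ`**: `b = B (+1)` (captain's ruling (A),
07:31Z; `= β`, see `s17mdb_eq_beta`). -/
def s17mdb : ValuationSubring (s17mdSym N) → s17mdSym N := s17mdB N 1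

theorem s17mdb_def : s17mdb N = s27indB (s17mdPsi N) (s17mdBeta N) 1 := rfl

/-- `ψ 1 = id`. -/
theorem s17mdPsi_one : s17mdPsi N 1 = AlgHom.id Kb (s17mdSym N) := by
  haveI := s17to_isCurveOver N
  haveI := s17to_essFiniteType N
  haveI := (s17md_const N).fin
  haveI := (s17md_const N).sep
  exact s27pfPsi_one (s27ftPkg (s17md_const N).trans (s17mdG0 N) (s17md_const N).deg)
    (s27dcl_halg (x := jF N)) (s17md_hq N)

/-- `b = B (+1) = β`. -/
theorem s17mdb_eq_beta (V : ValuationSubring (s17mdSym N)) : s17mdb N V = s17mdBeta N V := by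
  unfold s17mdb s17mdB s27indB
  rw [if_neg one_ne_zero, s17mdPsi_one]
  have h1 : V.comap ((AlgHom.id Kb (s17mdSym N) : s17mdSym N →ₐ[Kb] s17mdSym N) :
      s17mdSym N →+* s17mdSym N) = V := by
    ext y
    rfl
  rw [h1]
  rfl

/-- the local equation of `Θ⁻ = [−1]^* Θ`: `B (−1)`. -/
def s17mdbNeg : ValuationSubring (s17mdSym N) → s17mdSym N := s17mdB N (-1)

/-- `L(m Θ)`. -/
def s17mdLU (m : ℕ) : Submodule Kb (s17mdSym N) := s27LU Kb (s17mdb N) m

theorem s17mdLU_def (m : ℕ) :
    s17mdLU N m = s27LU Kb (s27indB (s17mdPsi N) (s17mdBeta N) 1) m := rfl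

open Classical in
/-- a `Kb`-basis of `L(m Θ)` as a tuple of `𝔉` (`0` if `L(m Θ)` is not finite). -/
def s17mdS (m : ℕ) : Fin (Module.finrank Kb (s17mdLU N m)) → s17mdSym N :=
  if h : Module.Finite Kb (s17mdLU N m) then
    fun i => ((Module.finBasis Kb (s17mdLU N m) i : s17mdLU N m) : s17mdSym N)
  else 0

theorem s17mdS_eq (m : ℕ) [h : Module.Finite Kb (s17mdLU N m)]
    (i : Fin (Module.finrank Kb (s17mdLU N m))) :
    s17mdS N m i = ((Module.finBasis Kb (s17mdLU N m) i : s17mdLU N m) : s17mdSym N) := by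
  unfold s17mdS
  rw [dif_pos h]

theorem s17mdS_mem (m : ℕ) (i : Fin (Module.finrank Kb (s17mdLU N m))) :
    s17mdS N m i ∈ s17mdLU N m := by
  unfold s17mdS
  split_ifs with h
  · exact (Module.finBasis Kb (s17mdLU N m) i).2
  · exact (s17mdLU N m).zero_mem

/-- the basis spans `L(m Θ)`. -/
theorem s17mdS_span (m : ℕ) [h : Module.Finite Kb (s17mdLU N m)] :
    Submodule.span Kb (Set.range (s17mdS N m)) = s17mdLU N m := by
  have h1 : s17mdS N m = fun i => (s17mdLU N m).subtype (Module.finBasis Kb (s17mdLU N m) i) := by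
    funext i
    rw [s17mdS_eq]
    rfl
  rw [h1]
  have h2 : Set.range (fun i => (s17mdLU N m).subtype (Module.finBasis Kb (s17mdLU N m) i)) =
      (s17mdLU N m).subtype '' Set.range (Module.finBasis Kb (s17mdLU N m)) := by
    rw [← Set.range_comp]
    rfl
  rw [h2, Submodule.span_image, (Module.finBasis Kb (s17mdLU N m)).span_eq, Submodule.map_top,
    Submodule.range_subtype]

/-- the embedding `𝔉 ⊆ Ω_g ⊆ L`. -/
def s17mdEmb : s17mdSym N →ₐ[Kb] s17mdL N :=
  (IsScalarTower.toAlgHom Kb (s27gfOm Kb (FF N) (genusFF Kb (FF N))) (s17mdL N)).comp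
    (s27gfSym Kb (FF N) (genusFF Kb (FF N))).val

theorem s17mdEmb_apply (s : s17mdSym N) :
    s17mdEmb N s = algebraMap (s27gfOm Kb (FF N) (genusFF Kb (FF N))) (s17mdL N)
      (s : s27gfOm Kb (FF N) (genusFF Kb (FF N))) := rfl

theorem s17mdEmb_injective : Function.Injective (s17mdEmb N) := (s17mdEmb N).toRingHom.injective

/-- the basis of `L(m Θ)` as a tuple of `L`. -/
def s17mdSL (m : ℕ) : Fin (Module.finrank Kb (s17mdLU N m)) → s17mdL N :=
  fun i => s17mdEmb N (s17mdS N m i)

/-- **the height of design A with `m₀ = m`**: `P ↦ habs [s]_P`, `s` a basis of `L(m Θ)`. -/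
def s17mdHm (m : ℕ) : s17mdP N → ℝ := s17sxHt (s17mdSL N m)

theorem s17mdHm_def (m : ℕ) (P : s17mdP N) : s17mdHm N m P = s17sxHt (s17mdSL N m) P := rfl

theorem s17mdHm_eq_HS (m : ℕ) (P : s17mdP N) : s17mdHm N m P = s17mdHS (s17mdSL N m) P :=
  (s17mdHS_eq_sx _ P).symm

theorem s17mdHm_nonneg (m : ℕ) (P : s17mdP N) : 0 ≤ s17mdHm N m P := s17sxHt_nonneg _ P

/-- any minimal chart computes the height. -/
theorem s17mdHm_eq (m : ℕ) (P : s17mdP N) (α : Fin (Module.finrank Kb (s17mdLU N m)))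
    (hα : S17plIsMin P.W (s17mdSL N m) α) :
    s17mdHm N m P = s17haAbsQ (s17plVal P (s17mdSL N m) α hα) :=
  s17sxHt_eq _ P α hα

/-! ### The closed statements -/

/-- the three place statements of layer H for the height with `m₀ = m`
(multiplier `3`, `a = 2`, `b = 6`). -/
def S17mdOk (m : ℕ) : Prop :=
  S17hyPlM (s17mdCl N) (s17mdHm N m) 3 6 ∧ S17hyPlT (s17mdCl N) (s17mdHm N m) 2 ∧
    S17hxPlN (s17mdCl N) (s17mdHm N m)

/-- the glue of the three sub-integrators: take `m = max M_i`. -/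
theorem s17md_ok_of (M₁ M₂ M₃ : ℕ)
    (hM : ∀ m, M₁ ≤ m → S17hyPlM (s17mdCl N) (s17mdHm N m) 3 6)
    (hT : ∀ m, M₂ ≤ m → S17hyPlT (s17mdCl N) (s17mdHm N m) 2)
    (hN : ∀ m, M₃ ≤ m → S17hxPlN (s17mdCl N) (s17mdHm N m)) :
    ∃ m, S17mdOk N m :=
  ⟨max M₁ (max M₂ M₃), hM _ (le_max_left _ _),
    hT _ (le_trans (le_max_left _ _) (le_max_right _ _)),
    hN _ (le_trans (le_max_right _ _) (le_max_right _ _))⟩

open Classical in
/-- the chosen `m₀`. -/
def s17mdM : ℕ := if h : ∃ m, S17mdOk N m then Classical.choose h else 0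

/-- **THE height of the model.** -/
def s17mdH : s17mdP N → ℝ := s17mdHm N (s17mdM N)

theorem s17mdH_nonneg (P : s17mdP N) : 0 ≤ s17mdH N P := s17mdHm_nonneg N _ P

/-- the three CLOSED statements for `(s17mdCl N, s17mdH N)`. -/
theorem s17md_closed (h : ∃ m, S17mdOk N m) :
    S17hyPlM (s17mdCl N) (s17mdH N) 3 6 ∧ S17hyPlT (s17mdCl N) (s17mdH N) 2 ∧
      S17hxPlN (s17mdCl N) (s17mdH N) := by
  have h1 : S17mdOk N (s17mdM N) := by
    unfold s17mdM
    rw [dif_pos h]
    exact Classical.choose_spec h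
  exact h1

/-- the model gives the captain's open statement `S17sxStmtAt N 3 2 6` (S17/StageTop.lean). -/
theorem s17md_stmtAt (h : ∃ m, S17mdOk N m) : S17sxStmtAt N 3 2 6 := by
  intro h1 h2
  obtain ⟨hM, hT, hN⟩ := s17md_closed N h
  exact ⟨jF N, s17mdG0 N, s17mdO N, s17md_const N, _, inferInstance, s17mdSL N (s17mdM N),
    hM, hT, hN⟩

/-- **Mordell–Weil for `J₀(N)` from the model** (TORS and WEAK at `3` as hypotheses; closed in
S17/HTopClosed.lean). -/
theorem s17md_fg (h : ∃ m, S17mdOk N m) (htors : S17kaTors N 3) (hw : S17IsWeak N 3) :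
    AddGroup.FG (s17MW N) :=
  s17sx_fg N 3 2 6 (by norm_num) (by norm_num) (s17md_stmtAt N h) htors hw

end Stage

end Fermat.Agent.S17

end
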