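/-
S17 sprint, layer H — **THE MODEL, part 3** (helper24): the closed S27-B stage (helper28's
S17/StageGrow.lean) at the constants of the model (S17/Model.lean, S17/ModelH.lean).

For `0 < genusFF Kb (FF N)`:
* `s17md_stage`        : `β ≠ 0`, `β V ∈ V`, the CUBE at every `k ≠ 0`, GROW for `B 1 · B (−1)`,
                         in the names of the model (`s17mdBeta N`, `s17mdB N k`);
* `s17md_fin`          : `Module.Finite Kb (s17mdLU N m)` (FIN for the ONE theta divisor `Θ`);
* `s17md_finrank_le`   : `finrank L(m Θ) ≤ c₂ · m ^ g`;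
* `s17md_b_ne`, `s17md_b_mem` : `b V ≠ 0`, `b V ∈ V` for every `V ⊇ K`;
* `s17md_one_mem`      : `1 ∈ L(m Θ)`;  `s17md_finrank_pos`;
* `s17mdS_basis`       : `s17mdS N m` is the tuple of a basis; `s17mdS_linIndep`;
* `s17mdSL_ne_zero`    : the tuple of the height is not `0`;
* `s17mdSL_exists_min` : every place has a minimal chart of the tuple of the height.
-/
import Fermat.Agent.S17.ModelH
import Fermat.Agent.S17.StageGrow

set_option autoImplicit false
set_option linter.style.haveILetI false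
set_option linter.unusedVariables false
set_option linter.unusedSectionVars false
set_option linter.style.longLine false

noncomputable section

namespace Fermat.Agent.S17

open ModularCurve AlgebraicCurve IntermediateField Module
open Fermat.Agent.S24 Fermat.Agent.S26 Fermat.Agent.S27

section Stage

variable (N : ℕ) [NeZero N]

/-- **the closed stage at the constants of the model.** -/
theorem s17md_stage (hg : 0 < genusFF Kb (FF N)) :
    (∀ V, S27IsKValU Kb V → s17mdBeta N V ≠ 0) ∧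
    (∀ V, S27IsKValU Kb V → s17mdBeta N V ∈ V) ∧
    (∃ (e : ℤ → ℕ) (Φ : ℤ → s17mdSym N), ∀ k : ℤ, k ≠ 0 →
      0 < e k ∧ Φ k ≠ 0 ∧
      ∀ V : ValuationSubring (s17mdSym N), S27IsKValU Kb V →
        ∃ u, S27IsUnitIn V u ∧
          (s17mdB N (k + 1) V * s17mdB N (k - 1) V) ^ e k =
            u * Φ k * (s17mdB N k V ^ 2 * s17mdB N 1 V * s17mdB N (-1) V) ^ e k) ∧
    S27IsGrow Kb (fun V => s17mdB N 1 V * s17mdB N (-1) V) (genusFF Kb (FF N)) := by
  haveI := s17to_isCurveOver N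
  haveI := s17to_essFiniteType N
  exact s17sgw_main (s17md_const N) hg (s17mdQ N) (s17md_hq N)

/-- **FIN for the ONE theta divisor of the model.** -/
theorem s17md_fin (hg : 0 < genusFF Kb (FF N)) (m : ℕ) : Module.Finite Kb (s17mdLU N m) := by
  haveI := s17to_isCurveOver N
  haveI := s17to_essFiniteType N
  exact (s17sgw_fin (s17md_const N) hg (s17mdQ N) (s17md_hq N)).2.1 m

theorem s17md_finrank_le (hg : 0 < genusFF Kb (FF N)) :
    ∃ c₂ : ℕ, ∀ m, 1 ≤ m → Module.finrank Kb (s17mdLU N m) ≤ c₂ * m ^ genusFF Kb (FF N) := by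
  haveI := s17to_isCurveOver N
  haveI := s17to_essFiniteType N
  exact (s17sgw_fin (s17md_const N) hg (s17mdQ N) (s17md_hq N)).2.2

/-- the valuation rings `⊇ K` are stable under the pull-back by a `K`-algebra map. -/
theorem s17md_comap_kval (φ : s17mdSym N →ₐ[Kb] s17mdSym N) (V : ValuationSubring (s17mdSym N))
    (hV : S27IsKValU Kb V) : S27IsKValU Kb (V.comap (φ : s17mdSym N →+* s17mdSym N)) := by
  intro a
  rw [ValuationSubring.mem_comap]
  have h1 : (φ : s17mdSym N →+* s17mdSym N) (algebraMap Kb (s17mdSym N) a) =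
      algebraMap Kb (s17mdSym N) a := φ.commutes a
  rw [h1]
  exact hV a

theorem s17mdB_eq (k : ℤ) (hk : k ≠ 0) (V : ValuationSubring (s17mdSym N)) :
    s17mdB N k V = s17mdPsi N k
      (s17mdBeta N (V.comap ((s17mdPsi N k : s17mdSym N →ₐ[Kb] s17mdSym N) :
        s17mdSym N →+* s17mdSym N))) := by
  unfold s17mdB s27indB
  rw [if_neg hk]

/-- `B k V ∈ V`. -/
theorem s17md_B_mem (hg : 0 < genusFF Kb (FF N)) (k : ℤ) (hk : k ≠ 0)
    (V : ValuationSubring (s17mdSym N)) (hV : S27IsKValU Kb V) : s17mdB N k V ∈ V := by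
  have h := (s17md_stage N hg).2.1 _ (s17md_comap_kval N (s17mdPsi N k) V hV)
  rw [ValuationSubring.mem_comap] at h
  rw [s17mdB_eq N k hk]
  exact h

/-- `B k V ≠ 0`. -/
theorem s17md_B_ne (hg : 0 < genusFF Kb (FF N)) (k : ℤ) (hk : k ≠ 0)
    (V : ValuationSubring (s17mdSym N)) (hV : S27IsKValU Kb V) : s17mdB N k V ≠ 0 := by
  have h := (s17md_stage N hg).1 _ (s17md_comap_kval N (s17mdPsi N k) V hV)
  rw [s17mdB_eq N k hk]
  intro h0
  exact h ((s17mdPsi N k).toRingHom.injective (by rw [map_zero]; exact h0))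

/-- `b V ∈ V`. -/
theorem s17md_b_mem (hg : 0 < genusFF Kb (FF N)) (V : ValuationSubring (s17mdSym N))
    (hV : S27IsKValU Kb V) : s17mdb N V ∈ V :=
  s17md_B_mem N hg 1 one_ne_zero V hV

/-- `b V ≠ 0`. -/
theorem s17md_b_ne (hg : 0 < genusFF Kb (FF N)) (V : ValuationSubring (s17mdSym N))
    (hV : S27IsKValU Kb V) : s17mdb N V ≠ 0 :=
  s17md_B_ne N hg 1 one_ne_zero V hV

/-- FIN for `Θ⁻ = [−1]^* Θ` as well. -/
theorem s17md_fin_neg (hg : 0 < genusFF Kb (FF N)) (m : ℕ) :
    Module.Finite Kb (s27LU Kb (s17mdbNeg N) m) := by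
  haveI := s17to_isCurveOver N
  haveI := s17to_essFiniteType N
  exact (s17sgw_fin (s17md_const N) hg (s17mdQ N) (s17md_hq N)).1.1 m

/-- `1 ∈ L(m Θ)`. -/
theorem s17md_one_mem (hg : 0 < genusFF Kb (FF N)) (m : ℕ) : (1 : s17mdSym N) ∈ s17mdLU N m := by
  intro V hV
  rw [one_mul]
  exact V.pow_mem (s17md_b_mem N hg V hV) m

theorem s17md_finrank_pos (hg : 0 < genusFF Kb (FF N)) (m : ℕ) :
    0 < Module.finrank Kb (s17mdLU N m) := by
  haveI := s17md_fin N hg m
  rw [Module.finrank_pos_iff_exists_ne_zero]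
  refine ⟨⟨1, s17md_one_mem N hg m⟩, fun h => ?_⟩
  have h1 : ((⟨1, s17md_one_mem N hg m⟩ : s17mdLU N m) : s17mdSym N) = 0 := by rw [h]; rfl
  exact one_ne_zero h1

/-- the tuple of the height is the tuple of a basis. -/
theorem s17mdS_basis (hg : 0 < genusFF Kb (FF N)) (m : ℕ) :
    ∃ bs : Module.Basis (Fin (Module.finrank Kb (s17mdLU N m))) Kb (s17mdLU N m),
      ∀ i, s17mdS N m i = (bs i : s17mdSym N) := by
  haveI := s17md_fin N hg m
  exact ⟨Module.finBasis Kb (s17mdLU N m), fun i => s17mdS_eq N m i⟩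

theorem s17mdS_linIndep (hg : 0 < genusFF Kb (FF N)) (m : ℕ) :
    LinearIndependent Kb (s17mdS N m) := by
  obtain ⟨bs, hbs⟩ := s17mdS_basis N hg m
  have h1 : s17mdS N m = fun i => (s17mdLU N m).subtype (bs i) := funext hbs
  rw [h1]
  exact bs.linearIndependent.map' _ (Submodule.ker_subtype _)

theorem s17mdS_ne_zero (hg : 0 < genusFF Kb (FF N)) (m : ℕ)
    (i : Fin (Module.finrank Kb (s17mdLU N m))) : s17mdS N m i ≠ 0 :=
  (s17mdS_linIndep N hg m).ne_zero i

/-- the tuple of the height is not `0`. -/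
theorem s17mdSL_ne_zero (hg : 0 < genusFF Kb (FF N)) (m : ℕ) : s17mdSL N m ≠ 0 := by
  intro h0
  have hi : 0 < Module.finrank Kb (s17mdLU N m) := s17md_finrank_pos N hg m
  have h1 := congrFun h0 ⟨0, hi⟩
  have h2 : s17mdEmb N (s17mdS N m ⟨0, hi⟩) = 0 := h1
  have h3 : s17mdS N m ⟨0, hi⟩ = 0 := s17mdEmb_injective N (by rw [h2, map_zero])
  exact s17mdS_ne_zero N hg m _ h3

/-- every place has a minimal chart of the tuple of the height. -/
theorem s17mdSL_exists_min (hg : 0 < genusFF Kb (FF N)) (m : ℕ) (P : s17mdP N) :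
    ∃ α, S17plIsMin P.W (s17mdSL N m) α :=
  s17pl_exists_min P.W (s17mdSL_ne_zero N hg m)

end Stage

end Fermat.Agent.S17

end
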