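/-
S17 sprint, layer H — **THE MODEL, top** (helper24): the captain's open statement
`S17sxStmtAt N n a b` (S17/StageTop.lean), for EVERY triple `(n, a, b)`, from the three place
statements at the CLOSED constants of the model (S17/Model.lean: `x = jF N`, `G₀ = s17mdG0 N`,
`O = cuspInf N`, `cl = s17mdCl N`).

* `s17mdt_stmtAt_tuple` : ANY finite tuple `s : ι → L` (`ι : Type`): PlM `(n, b)`, PlT `(a)`, PlN for
                          `(s17mdCl N, s17sxHt s)`  ⇒  `S17sxStmtAt N n a b`;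
* `S17mdOkP N n a b m`  : the three place statements for the height `s17mdHm N m` of the model
                          (`s` = a basis of `L(m Θ)`); `S17mdOk N m = S17mdOkP N 3 2 6 m`;
* `s17mdt_ok_of`        : the glue of the three sub-integrators (`m = max M_i`);
* `s17mdt_ok_of_dvd`    : the same when the statements hold at the multiples of `m₁`, `m₂`, `m₃`;
* `s17mdt_stmtAt`       : `(∃ m, S17mdOkP N n a b m) ⇒ S17sxStmtAt N n a b`;
* `s17mdt_stmt`         : `S17sxStmt n a b` from the model at every prime level of positive genus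
                          (feed `s17sz_result_326` / `s17sz_result_7428`, S17/StageTopClosed.lean).
-/
import Fermat.Agent.S17.ModelFin

set_option autoImplicit false
set_option linter.style.haveILetI false
set_option linter.unusedVariables false
set_option linter.unusedSectionVars false
set_option linter.style.longLine false

noncomputable section

namespace Fermat.Agent.S17

open ModularCurve AlgebraicCurve IntermediateField Module
open Fermat.Agent.S24 Fermat.Agent.S26 Fermat.Agent.S27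

section Stage

variable (N : ℕ) [NeZero N]

/-- **the captain's statement from ANY finite tuple at the constants of the model.** -/
theorem s17mdt_stmtAt_tuple (n : ℕ) (a b : ℝ) {ι : Type} [Finite ι] (s : ι → s17mdL N)
    (hM : S17hyPlM (s17mdCl N) (s17sxHt s) n b) (hT : S17hyPlT (s17mdCl N) (s17sxHt s) a)
    (hN : S17hxPlN (s17mdCl N) (s17sxHt s)) : S17sxStmtAt N n a b := by
  intro h1 h2
  exact ⟨jF N, s17mdG0 N, s17mdO N, s17md_const N, ι, inferInstance, s, hM, hT, hN⟩

/-- the three place statements of layer H for the height of the model with `m₀ = m`, for the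
multiplier `n` and the constants `a`, `b`. -/
def S17mdOkP (n : ℕ) (a b : ℝ) (m : ℕ) : Prop :=
  S17hyPlM (s17mdCl N) (s17mdHm N m) n b ∧ S17hyPlT (s17mdCl N) (s17mdHm N m) a ∧
    S17hxPlN (s17mdCl N) (s17mdHm N m)

theorem s17mdOk_iff (m : ℕ) : S17mdOk N m ↔ S17mdOkP N 3 2 6 m := Iff.rfl

/-- the glue of the three sub-integrators: take `m = max M_i`. -/
theorem s17mdt_ok_of (n : ℕ) (a b : ℝ) (M₁ M₂ M₃ : ℕ)
    (hM : ∀ m, M₁ ≤ m → S17hyPlM (s17mdCl N) (s17mdHm N m) n b)
    (hT : ∀ m, M₂ ≤ m → S17hyPlT (s17mdCl N) (s17mdHm N m) a)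
    (hN : ∀ m, M₃ ≤ m → S17hxPlN (s17mdCl N) (s17mdHm N m)) :
    ∃ m, S17mdOkP N n a b m :=
  ⟨max M₁ (max M₂ M₃), hM _ (le_max_left _ _),
    hT _ (le_trans (le_max_left _ _) (le_max_right _ _)),
    hN _ (le_trans (le_max_right _ _) (le_max_right _ _))⟩

/-- the glue when the three statements hold at the positive multiples of `m₁`, `m₂`, `m₃`:
take `m = m₁ m₂ m₃`. -/
theorem s17mdt_ok_of_dvd (n : ℕ) (a b : ℝ) (m₁ m₂ m₃ : ℕ) (h₁ : 0 < m₁) (h₂ : 0 < m₂)
    (h₃ : 0 < m₃)
    (hM : ∀ d, 0 < d → S17hyPlM (s17mdCl N) (s17mdHm N (m₁ * d)) n b)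
    (hT : ∀ d, 0 < d → S17hyPlT (s17mdCl N) (s17mdHm N (m₂ * d)) a)
    (hN : ∀ d, 0 < d → S17hxPlN (s17mdCl N) (s17mdHm N (m₃ * d))) :
    ∃ m, 0 < m ∧ S17mdOkP N n a b m := by
  refine ⟨m₁ * m₂ * m₃, Nat.mul_pos (Nat.mul_pos h₁ h₂) h₃, ?_, ?_, ?_⟩
  · have h := hM (m₂ * m₃) (Nat.mul_pos h₂ h₃)
    rwa [← mul_assoc] at h
  · have h := hT (m₁ * m₃) (Nat.mul_pos h₁ h₃)
    have e : m₂ * (m₁ * m₃) = m₁ * m₂ * m₃ := by ring
    rwa [e] at h
  · have h := hN (m₁ * m₂) (Nat.mul_pos h₁ h₂)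
    have e : m₃ * (m₁ * m₂) = m₁ * m₂ * m₃ := by ring
    rwa [e] at h

/-- **the captain's statement from the model.** -/
theorem s17mdt_stmtAt (n : ℕ) (a b : ℝ) (h : ∃ m, S17mdOkP N n a b m) : S17sxStmtAt N n a b := by
  obtain ⟨m, hM, hT, hN⟩ := h
  exact s17mdt_stmtAt_tuple N n a b (s17mdSL N m) hM hT hN

end Stage

/-- **the one open statement of layer H from the model** at every prime level of positive genus. -/
theorem s17mdt_stmt (n : ℕ) (a b : ℝ)
    (H : ∀ (N : ℕ) [NeZero N], N.Prime → 5 ≤ N → 0 < genusFF Kb (FF N) →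
      ∃ m, S17mdOkP N n a b m) : S17sxStmt n a b :=
  fun N _ hN hN5 hg => s17mdt_stmtAt N n a b (H N hN hN5 hg)

/-- the same from ANY finite tuple at each level. -/
theorem s17mdt_stmt_tuple (n : ℕ) (a b : ℝ)
    (H : ∀ (N : ℕ) [NeZero N], N.Prime → 5 ≤ N → 0 < genusFF Kb (FF N) →
      ∃ (ι : Type) (_ : Finite ι) (s : ι → s17mdL N),
        S17hyPlM (s17mdCl N) (s17sxHt s) n b ∧ S17hyPlT (s17mdCl N) (s17sxHt s) a ∧
          S17hxPlN (s17mdCl N) (s17sxHt s)) : S17sxStmt n a b := by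
  intro N _ hN hN5 hg
  obtain ⟨ι, hι, s, hM, hT, hNn⟩ := H N hN hN5 hg
  exact s17mdt_stmtAt_tuple N n a b s hM hT hNn

end Fermat.Agent.S17

end
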