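/-
S17 sprint, sub-integrator file **PlM-FINAL** (helper11): PlM in the LITERAL shape of the captain's
open statement `S17sxStmtAt N 3 2 6` (S17/StageTop.lean) — for the level `N`, EVERY admissible
constants `hc : S27cstIsConst x G₀ O`, EVERY family `q` and EVERY finite tuple `Fam : ι → L` of the
big field which is base-point-free at the `ℚ̄`-places w.r.t. the lifted local equations
`b_L = s17pmtB (s27indB ψ β 1)`:

  `S17hyPlM (s17sxCl N hld hgen hx G₀ hG₀) (s17sxHt Fam) 3 6`.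

(`s17pmf_plM` : every multiplier `n > 0`, `b = n (n + 1) / 2`.)
-/
import Fermat.Agent.S17.PlMStageL
import Fermat.Agent.S17.StageTop

set_option autoImplicit false
set_option linter.unusedVariables false
set_option linter.unusedSectionVars false
set_option linter.style.haveILetI false
set_option linter.style.longLine false

noncomputable section

namespace Fermat.Agent.S17

open ModularCurve AlgebraicCurve Module TensorProduct IntermediateField
open Fermat.Agent.S24 Fermat.Agent.S26 Fermat.Agent.S27 Fermat.Agent.DEU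

section Final

variable (N : ℕ) [NeZero N] [IsCurveOver Kb (FF N)] [Algebra.EssFiniteType Kb (FF N)]
variable {x : FF N} (hx : Transcendental Kb x)
  [FiniteDimensional ↥(IntermediateField.adjoin Kb {x}) (FF N)]
  [Algebra.IsSeparable ↥(IntermediateField.adjoin Kb {x}) (FF N)]
  (G₀ : Divisor Kb (FF N)) (hG₀ : Divisor.degree G₀ = (genusFF Kb (FF N) : ℤ))

/-- **PlM in the shape of `S17sxStmtAt`**, every multiplier `n > 0`. -/
theorem s17pmf_plM (hg : 0 < genusFF Kb (FF N)) (O : Place Kb (FF N))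
    (hc : S27cstIsConst x G₀ O)
    (q : ℤ → Fin (genusFF Kb (FF N)) → FF N →ₐ[Kb] s27mtL Kb (FF N))
    (hq : S27pfFam (s27ftPkg hx G₀ hG₀) q) (n : ℕ) (hn : 0 < n)
    {ι : Type} [Fintype ι] (N₀ : ℕ) (Fam : ι → s27mtL Kb (FF N))
    (hF : S17pmkBpf Kb
      (s17pmtB (L := s27mtL Kb (FF N))
        (s27indB (s27pfPsi (s27ftPkg hx G₀ hG₀) (s27dcl_halg (x := x)) hq)
          (s27beta (g := genusFF Kb (FF N)) (G₀ + s27cstAo G₀ O)) 1)) N₀ Fam)
    (hF0 : Fam ≠ 0) :
    S17hyPlM (s17sxCl N (L := s27mtL Kb (FF N)) (FL := s27mtFL Kb (FF N))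
        (s27stg_hld Kb (FF N) (s27mtL Kb (FF N))) (s27stg_hgen Kb (FF N) (s27mtL Kb (FF N)))
        hx G₀ hG₀) (s17sxHt Fam) n ((s27indTri n : ℕ) : ℝ) :=
  s17pmx_plM hx G₀ hG₀ hg O hc q hq n hn N₀ Fam hF hF0

/-- **PlM (3, 6) in the shape of `S17sxStmtAt N 3 2 6`.** -/
theorem s17pmf_plM_three (hg : 0 < genusFF Kb (FF N)) (O : Place Kb (FF N))
    (hc : S27cstIsConst x G₀ O)
    (q : ℤ → Fin (genusFF Kb (FF N)) → FF N →ₐ[Kb] s27mtL Kb (FF N))
    (hq : S27pfFam (s27ftPkg hx G₀ hG₀) q)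
    {ι : Type} [Fintype ι] (N₀ : ℕ) (Fam : ι → s27mtL Kb (FF N))
    (hF : S17pmkBpf Kb
      (s17pmtB (L := s27mtL Kb (FF N))
        (s27indB (s27pfPsi (s27ftPkg hx G₀ hG₀) (s27dcl_halg (x := x)) hq)
          (s27beta (g := genusFF Kb (FF N)) (G₀ + s27cstAo G₀ O)) 1)) N₀ Fam)
    (hF0 : Fam ≠ 0) :
    S17hyPlM (s17sxCl N (L := s27mtL Kb (FF N)) (FL := s27mtFL Kb (FF N))
        (s27stg_hld Kb (FF N) (s27mtL Kb (FF N))) (s27stg_hgen Kb (FF N) (s27mtL Kb (FF N)))
        hx G₀ hG₀) (s17sxHt Fam) 3 6 :=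
  s17pmx_plM_three hx G₀ hG₀ hg O hc q hq N₀ Fam hF hF0

end Final

end Fermat.Agent.S17

end
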