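/-
S17 sprint, layer H, leaf **CHOW-IN-L** (helper46): the Chow functions lie in `L(N·Θ⁻)`.

For a valuation subring `W ⊇ K` of `𝔏`, a tuple of points `p i : F →ₐ[K] 𝔏`, a place `O` with local
parameter `s` and a function `t` whose only pole is `O`, of order `≤ N`:

* `s17cil_factor_mem` : `R t * (if R ↦ O then R s else 1) ^ N ∈ W` (one point);
* `s17cil_prod_mem`   : `(∏ i ∈ S, p i t) * γ ^ N ∈ W`, `γ = s27pdsGamma W p O s`;
* `s17cil_chow_gamma` : every Chow coefficient (`s17cvChow`, the coefficients of `∏ (X − p i t)`)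
                        times `γ ^ N` lies in `W`;
* `s17cil_chow_mem`   : the same with `y ^ N` for every `y ∈ W·γ` — by POLE-DIV (`s27pda_main`,
                        S27/PoleDivAsm.lean) every local equation `y` of `Θ⁻` is of this form;
* `s17cil_chow_idx`   : the POLE-DIV form: `S27ptIsIdx W q A y`, `A O = −1`, `0 ≤ A` off `O`,
                        `q` opposite to `p` ⇒ `s17cvChow (p · t) n * y ^ N ∈ W`.

So `1, u_1, …, u_g ∈ L(N·Θ⁻)` (the INEQUALITY `π^*Θ⁻ ≥ {P_i = O}`; the equality is false on the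
special divisor).
-/
import Fermat.Agent.S27.PoleDivAsm
import Fermat.Agent.S27.QInj
import Fermat.Agent.S17.ChowVal

set_option autoImplicit false
set_option linter.unusedSectionVars false
set_option linter.unusedVariables false
set_option linter.style.haveILetI false

noncomputable section

namespace Fermat.Agent.S17

open AlgebraicCurve Polynomial IntermediateField Fermat.Agent.S27

universe u v w

variable {K : Type u} {F : Type v} {𝔏 : Type w} [Field K] [Field F] [Field 𝔏]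
  [Algebra K F] [Algebra K 𝔏]

open Classical in
/-- one point: the value of `t` times the `N`-th power of the `γ`-factor lies in `W`. -/
theorem s17cil_factor_mem (x₀ : F) (hx₀ : Transcendental K x₀) [FiniteDimensional K⟮x₀⟯ F]
    (W : ValuationSubring 𝔏) (hKW : ∀ a : K, algebraMap K 𝔏 a ∈ W)
    (O : Place K F) (s : F) (hs : O.ord s = 1)
    (R : F →ₐ[K] 𝔏) (t : F) (N : ℕ) (htO : -(N : ℤ) ≤ O.ord t)
    (ht : ∀ Q : Place K F, Q ≠ O → 0 ≤ Q.ord t) :
    R t * (if S27ptIsCentre W R O then R s else 1) ^ N ∈ W := by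
  classical
  have hs0 : s ≠ 0 := by
    rintro rfl
    rw [Place.ord_zero] at hs
    exact zero_ne_one hs
  split_ifs with hO
  · rw [← map_pow, ← map_mul, s27qi_mem_iff_of_centre hO]
    by_cases ht0 : t = 0
    · rw [ht0, zero_mul]
      exact O.toValuationSubring.zero_mem
    · apply Fermat.Agent.S24.PlaceAux.mem_of_ord_nonneg
      have h1 : O.ord (s ^ N) = (N : ℤ) * O.ord s := by
        have := O.ord_zpow s N
        simpa using this
      rw [O.ord_mul ht0 (pow_ne_zero N hs0), h1, hs]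
      omega
  · rw [one_pow, mul_one]
    rcases s27qi_centre_or_top x₀ hx₀ W hKW R with h | ⟨Q, hQ⟩
    · exact s27qi_mem_of_top h t
    · have hQO : Q ≠ O := by
        rintro rfl
        exact hO hQ
      rw [s27qi_mem_iff_of_centre hQ]
      exact Fermat.Agent.S24.PlaceAux.mem_of_ord_nonneg Q (ht Q hQO)

open Classical in
/-- the `γ`-factor alone lies in `W`. -/
theorem s17cil_gfactor_mem (W : ValuationSubring 𝔏) (O : Place K F) (s : F) (hs : O.ord s = 1)
    (R : F →ₐ[K] 𝔏) : (if S27ptIsCentre W R O then R s else 1) ∈ W := by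
  classical
  split_ifs with hO
  · rw [s27qi_mem_iff_of_centre hO]
    exact Fermat.Agent.S24.PlaceAux.mem_of_ord_nonneg O (by rw [hs]; norm_num)
  · exact W.one_mem

/-- a product of values of `t` times `γ ^ N` lies in `W`. -/
theorem s17cil_prod_mem (x₀ : F) (hx₀ : Transcendental K x₀) [FiniteDimensional K⟮x₀⟯ F]
    (W : ValuationSubring 𝔏) (hKW : ∀ a : K, algebraMap K 𝔏 a ∈ W)
    (O : Place K F) (s : F) (hs : O.ord s = 1)
    {g : ℕ} (p : Fin g → F →ₐ[K] 𝔏) (t : F) (N : ℕ) (htO : -(N : ℤ) ≤ O.ord t)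
    (ht : ∀ Q : Place K F, Q ≠ O → 0 ≤ Q.ord t) (S : Finset (Fin g)) :
    (∏ i ∈ S, p i t) * (s27pdsGamma W p O s) ^ N ∈ W := by
  classical
  unfold s27pdsGamma
  have h1 : (∏ i ∈ S, p i t) = ∏ i, if i ∈ S then p i t else 1 := by
    rw [Finset.prod_ite_mem, Finset.univ_inter]
  rw [h1, ← Finset.prod_pow, ← Finset.prod_mul_distrib]
  refine W.toSubring.prod_mem fun i _ => ?_
  by_cases hi : i ∈ S
  · rw [if_pos hi]
    exact s17cil_factor_mem x₀ hx₀ W hKW O s hs (p i) t N htO ht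
  · rw [if_neg hi, one_mul]
    exact W.toSubring.pow_mem (s17cil_gfactor_mem W O s hs (p i)) N

/-- **CHOW-IN-L, `γ`-form**: every Chow coefficient times `γ ^ N` lies in `W`. -/
theorem s17cil_chow_gamma (x₀ : F) (hx₀ : Transcendental K x₀) [FiniteDimensional K⟮x₀⟯ F]
    (W : ValuationSubring 𝔏) (hKW : ∀ a : K, algebraMap K 𝔏 a ∈ W)
    (O : Place K F) (s : F) (hs : O.ord s = 1)
    {g : ℕ} (p : Fin g → F →ₐ[K] 𝔏) (t : F) (N : ℕ) (htO : -(N : ℤ) ≤ O.ord t)
    (ht : ∀ Q : Place K F, Q ≠ O → 0 ≤ Q.ord t) (n : Fin (g + 1)) :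
    s17cvChow (fun i => p i t) n * (s27pdsGamma W p O s) ^ N ∈ W := by
  classical
  have hcard : Multiset.card ((Finset.univ : Finset (Fin g)).val.map fun i => p i t) = g := by
    simp
  have hn : (n : ℕ) ≤ Multiset.card ((Finset.univ : Finset (Fin g)).val.map fun i => p i t) := by
    rw [hcard]
    exact Nat.lt_succ_iff.mp n.2
  have hprod : (∏ i : Fin g, (X - C (p i t)) : 𝔏[X]) =
      (((Finset.univ : Finset (Fin g)).val.map fun i => p i t).map fun r => X - C r).prod := by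
    rw [Multiset.map_map]
    rfl
  have hcoeff : s17cvChow (fun i => p i t) n =
      (-1) ^ (g - (n : ℕ)) *
        ∑ T ∈ (Finset.univ : Finset (Fin g)).powersetCard (g - (n : ℕ)), ∏ i ∈ T, p i t := by
    unfold s17cvChow
    rw [hprod, Multiset.prod_X_sub_C_coeff _ hn, hcard, Finset.esymm_map_val]
  rw [hcoeff, mul_assoc, Finset.sum_mul]
  have hsum : (∑ T ∈ (Finset.univ : Finset (Fin g)).powersetCard (g - (n : ℕ)),
      (∏ i ∈ T, p i t) * (s27pdsGamma W p O s) ^ N) ∈ W :=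
    W.toSubring.sum_mem fun T _ => s17cil_prod_mem x₀ hx₀ W hKW O s hs p t N htO ht T
  have hsign : ((-1 : 𝔏) ^ (g - (n : ℕ))) ∈ W :=
    W.toSubring.pow_mem (W.neg_mem _ W.one_mem) _
  exact W.mul_mem _ _ hsign hsum

/-- **CHOW-IN-L**: every Chow coefficient times `y ^ N` lies in `W`, for `y ∈ W·γ`. -/
theorem s17cil_chow_mem (x₀ : F) (hx₀ : Transcendental K x₀) [FiniteDimensional K⟮x₀⟯ F]
    (W : ValuationSubring 𝔏) (hKW : ∀ a : K, algebraMap K 𝔏 a ∈ W)
    (O : Place K F) (s : F) (hs : O.ord s = 1)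
    {g : ℕ} (p : Fin g → F →ₐ[K] 𝔏) (t : F) (N : ℕ) (htO : -(N : ℤ) ≤ O.ord t)
    (ht : ∀ Q : Place K F, Q ≠ O → 0 ≤ Q.ord t)
    (y : 𝔏) (hy : ∃ w ∈ W, y = w * s27pdsGamma W p O s) (n : Fin (g + 1)) :
    s17cvChow (fun i => p i t) n * y ^ N ∈ W := by
  obtain ⟨w, hw, rfl⟩ := hy
  have h1 := s17cil_chow_gamma x₀ hx₀ W hKW O s hs p t N htO ht n
  have h2 : s17cvChow (fun i => p i t) n * (w * s27pdsGamma W p O s) ^ N =
      w ^ N * (s17cvChow (fun i => p i t) n * (s27pdsGamma W p O s) ^ N) := by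
    rw [mul_pow]
    ring
  rw [h2]
  exact W.mul_mem _ _ (W.toSubring.pow_mem hw N) h1

/-- **CHOW-IN-L, POLE-DIV form**: for a local equation `y` of `Θ⁻` (the index of the opposite
tuple `q` w.r.t. `A`, `A O = −1`, `0 ≤ A` off `O`): `u_n · y ^ N ∈ W`. -/
theorem s17cil_chow_idx [IsAlgClosed K] [CharZero K] [IsCurveOver K F] [Algebra.EssFiniteType K F]
    (x₀ : F) (hx₀ : Transcendental K x₀) [FiniteDimensional ↥(IntermediateField.adjoin K {x₀}) F]
    (W : ValuationSubring 𝔏) (hKW : ∀ a : K, algebraMap K 𝔏 a ∈ W)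
    (O : Place K F) (hres : Function.Surjective (algebraMap K O.ResidueField))
    (s : F) (hs : O.ord s = 1)
    (A : Divisor K F) (hAO : A O = -1) (hApos : ∀ Q : Place K F, Q ≠ O → 0 ≤ A Q)
    {g : ℕ} (p q : Fin g → F →ₐ[K] 𝔏) (hp : Function.Injective p) (hq : Function.Injective q)
    (hpq : ∀ i j, p i ≠ q j) (hopp : S27pdaOpp p q A)
    (t : F) (N : ℕ) (htO : -(N : ℤ) ≤ O.ord t) (ht : ∀ Q : Place K F, Q ≠ O → 0 ≤ Q.ord t)
    (y : 𝔏) (hy : S27ptIsIdx W q A y) (n : Fin (g + 1)) :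
    s17cvChow (fun i => p i t) n * y ^ N ∈ W :=
  s17cil_chow_mem x₀ hx₀ W hKW O s hs p t N htO ht y
    (s27pda_main x₀ hx₀ W hKW O hres s hs A hAO hApos p q hp hq hpq hopp y hy) n

end Fermat.Agent.S17

end
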