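/-
S17 sprint, layer H, PlN leaf **hG — CHOW-LU** (helper46): the Chow coefficients of the
tautological tuple are SYMMETRIC functions lying in `L(N·Θ⁻) = s27LU K (B (−1)) N`.

* `s17cluOm t n`        : the `n`-th coefficient of `∏ i, (X − ι_i t)` in `Ω_g`;
* `s17clu_om_mem_sym`   : it lies in `𝔉 = s27gfSym K F g`;   `s17cluSym t n : 𝔉`;
* `s17clu_map`          : its image in `L` is `s17cvChow (fun i => s27pnTaut i t) n` (`s27pnTaut = s27pfTaut` by `rfl`);
* **`s17clu_mem_LU`**   : (PSI-NAT at `−1`) + (POLE-DIV on `L`, `γ`-form) + `t` with its only pole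
                          at `O`, of order `≤ N` ⇒ `s17cluSym t n ∈ s27LU K (s27indB ψ β (−1)) N`.

The inputs `hNat`, `hΓ` are literally those of `s27gh2_main` / `s27gh3_pda` (S27/GrowH2, GrowH3),
closed on the stage in S27/GrowClosed.lean.
-/
import Fermat.Agent.S17.ChowInL
import Fermat.Agent.S27.GrowH3

set_option autoImplicit false
set_option linter.unusedSectionVars false
set_option linter.unusedVariables false
set_option linter.style.haveILetI false

noncomputable section

namespace Fermat.Agent.S17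

open AlgebraicCurve Polynomial IntermediateField Fermat.Agent.S27 Fermat.Agent.S26

universe u v w'

variable {K : Type u} {F : Type v} [Field K] [IsAlgClosed K] [Field F] [Algebra K F] {g : ℕ}
variable {L : Type w'} [Field L] [Algebra K L] [Algebra (s27gfOm K F g) L]
  [IsScalarTower K (s27gfOm K F g) L]

/-- the `n`-th Chow coefficient of the tautological tuple, in `Ω_g`. -/
def s17cluOm (t : F) (n : Fin (g + 1)) : s27gfOm K F g :=
  (∏ i : Fin g, (X - C (s27gfIota (K := K) (g := g) i t)) : (s27gfOm K F g)[X]).coeff n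

/-- the Chow coefficients are symmetric. -/
theorem s17clu_om_mem_sym (t : F) (n : Fin (g + 1)) :
    s17cluOm (K := K) (g := g) t n ∈ s27gfSym K F g := by
  rw [s27gf_mem_sym]
  intro σ
  unfold s17cluOm
  have h1 : s27gfPerm σ
      ((∏ i : Fin g, (X - C (s27gfIota (K := K) (g := g) i t)) : (s27gfOm K F g)[X]).coeff n) =
      ((∏ i : Fin g, (X - C (s27gfIota (K := K) (g := g) i t)) : (s27gfOm K F g)[X]).map
        ((s27gfPerm σ : s27gfOm K F g ≃ₐ[K] s27gfOm K F g) :
          s27gfOm K F g →+* s27gfOm K F g)).coeff n := by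
    rw [Polynomial.coeff_map]
    rfl
  rw [h1, Polynomial.map_prod]
  have h2 : ∀ i : Fin g, ((X - C (s27gfIota (K := K) (g := g) i t)) : (s27gfOm K F g)[X]).map
      ((s27gfPerm σ : s27gfOm K F g ≃ₐ[K] s27gfOm K F g) : s27gfOm K F g →+* s27gfOm K F g) =
      X - C (s27gfIota (K := K) (g := g) (σ i) t) := by
    intro i
    rw [Polynomial.map_sub, Polynomial.map_X, Polynomial.map_C]
    congr 2
    exact s27gfPerm_iota σ i t
  rw [Finset.prod_congr rfl fun i _ => h2 i]
  rw [Equiv.prod_comp σ (fun i => (X - C (s27gfIota (K := K) (g := g) i t) :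
    (s27gfOm K F g)[X]))]

/-- the `n`-th Chow coefficient of the tautological tuple, in `𝔉 = K(Sym^g C)`. -/
def s17cluSym (t : F) (n : Fin (g + 1)) : s27gfSym K F g :=
  ⟨s17cluOm (K := K) (g := g) t n, s17clu_om_mem_sym t n⟩

/-- the image in `L` of the Chow coefficient is the Chow coefficient of the tautological points. -/
theorem s17clu_map (t : F) (n : Fin (g + 1)) :
    algebraMap (s27gfOm K F g) L (s17cluOm (K := K) (g := g) t n) =
      s17cvChow (fun i => s27pnTaut (K := K) (F := F) (g := g) (L := L) i t) n := by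
  unfold s17cluOm s17cvChow
  rw [← Polynomial.coeff_map, Polynomial.map_prod]
  congr 1
  refine Finset.prod_congr rfl fun i _ => ?_
  rw [Polynomial.map_sub, Polynomial.map_X, Polynomial.map_C]
  rfl

theorem s17clu_map_sym (t : F) (n : Fin (g + 1)) :
    algebraMap (s27gfSym K F g) L (s17cluSym (K := K) (g := g) t n) =
      s17cvChow (fun i => s27pnTaut (K := K) (F := F) (g := g) (L := L) i t) n :=
  s17clu_map t n

/-- **CHOW-LU**: the Chow coefficients lie in `L(N·Θ⁻)`. -/
theorem s17clu_mem_LU [IsAlgClosed L] [Algebra.IsAlgebraic (s27gfOm K F g) L]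
    (ψ : ℤ → (s27gfSym K F g →ₐ[K] s27gfSym K F g))
    (β : ValuationSubring (s27gfSym K F g) → s27gfSym K F g)
    (q : Fin g → F →ₐ[K] L) (A' : Divisor K F) (O : Place K F)
    (hNat : ∀ W : ValuationSubring L, S27IsKValU K W →
      S27pnIsEq W q A' (algebraMap (s27gfSym K F g) L
        (s27indB ψ β (-1) (W.comap (algebraMap (s27gfSym K F g) L)))))
    (s : F) (hs : O.ord s = 1)
    (hΓ : ∀ W : ValuationSubring L, S27IsKValU K W → ∀ x : L,
      S27ptIsIdx W q A' x →
      ∃ w ∈ W, x = w * s27pdsGamma W (s27pnTaut (K := K) (F := F) (g := g) (L := L)) O s)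
    (x₀ : F) (hx₀ : Transcendental K x₀) [FiniteDimensional K⟮x₀⟯ F]
    (t : F) (N : ℕ) (htO : -(N : ℤ) ≤ O.ord t)
    (ht : ∀ Q : Place K F, Q ≠ O → 0 ≤ Q.ord t) (n : Fin (g + 1)) :
    s17cluSym (K := K) (g := g) t n ∈ s27LU K (s27indB ψ β (-1)) N := by
  intro V hV
  obtain ⟨WL, hWL⟩ := s26er_exists_comap_eq (Ω' := L) V
  have hKWL : S27IsKValU K WL := by
    intro a
    have h1 := hV a
    rw [← hWL, ValuationSubring.mem_comap] at h1
    have h2 : algebraMap (s27gfSym K F g) L (algebraMap K (s27gfSym K F g) a) =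
        algebraMap K L a := by
      show algebraMap (s27gfOm K F g) L (algebraMap K (s27gfOm K F g) a) = algebraMap K L a
      rw [← IsScalarTower.algebraMap_apply]
    rw [← h2]
    exact h1
  obtain ⟨x, hx, u, hu, hxu⟩ := hNat WL hKWL
  have hchow := s17cil_chow_mem x₀ hx₀ WL hKWL O s hs
    (s27pnTaut (K := K) (F := F) (g := g) (L := L)) t N htO ht x (hΓ WL hKWL x hx) n
  rw [← hWL, ValuationSubring.mem_comap, map_mul, map_pow, hxu, s17clu_map_sym, mul_pow]
  have h3 : s17cvChow (fun i => s27pnTaut (K := K) (F := F) (g := g) (L := L) i t) n *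
      (u ^ N * x ^ N) = u ^ N *
      (s17cvChow (fun i => s27pnTaut (K := K) (F := F) (g := g) (L := L) i t) n * x ^ N) := by
    ring
  rw [h3]
  exact WL.mul_mem _ _ (pow_mem hu.2.1 N) hchow

end Fermat.Agent.S17

end
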