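/-
S17 sprint, layer H, PlN leaf **hG — CHOW-LU on the STAGE** (helper46): on the closed S27-B stage
(`L = s27mtL K F`, `ψ = s27pfPsi (s27ftPkg hx G₀ hG₀) …`, `β = s27beta (2 G₀ − O)`,
`b = B (−1) = s27indB ψ β (−1)` = the local equation of `Θ⁻`), for a function `t` whose only pole
is `O`, of order `≤ N`:

* **`s17cls_mem_LU`** : `s17cluSym t n ∈ s27LU K (s27indB ψ β (−1)) N` for every `n`
                        (NO open input: PSI-NAT, POLE-DIV, OPP, DISJ are those of `s27grc_grow`);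
* `s17cls_map`        : its image in `L` is the Chow coefficient `s17cvChow (taut · t) n`.
-/
import Fermat.Agent.S17.ChowLU
import Fermat.Agent.S27.GrowClosed

set_option autoImplicit false
set_option linter.unusedVariables false
set_option linter.unusedSectionVars false
set_option linter.style.haveILetI false

noncomputable section

namespace Fermat.Agent.S17

open AlgebraicCurve Module TensorProduct IntermediateField Fermat.Agent.S26 Fermat.Agent.S27

universe u v

section Stage

variable {K : Type u} {F : Type v} [Field K] [Field F] [Algebra K F] [IsAlgClosed K] [CharZero K]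
  [IsCurveOver K F] [Algebra.EssFiniteType K F]
variable {x : F} (hx : Transcendental K x)
  [FiniteDimensional ↥(IntermediateField.adjoin K {x}) F]
  [Algebra.IsSeparable ↥(IntermediateField.adjoin K {x}) F]
  (G₀ : Divisor K F) (hG₀ : Divisor.degree G₀ = (genusFF K F : ℤ))

/-- **CHOW-LU on the stage**: the Chow coefficients lie in `L(N·Θ⁻)`. -/
theorem s17cls_mem_LU (O : Place K F) (hG0 : 0 ≤ G₀) (hOG : G₀ O = 0)
    (f₀ : Module.Basis (Fin (genusFF K F)) K
      ↥(riemannRochSpace (2 • G₀ - Finsupp.single O 1 : Divisor K F)))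
    (q : ℤ → Fin (genusFF K F) → F →ₐ[K] s27mtL K F) (hq : S27pfFam (s27ftPkg hx G₀ hG₀) q)
    (s : F) (hs : O.ord s = 1)
    (t : F) (N : ℕ) (htO : -(N : ℤ) ≤ O.ord t)
    (ht : ∀ Q : Place K F, Q ≠ O → 0 ≤ Q.ord t) (n : Fin (genusFF K F + 1)) :
    s17cluSym (K := K) (g := genusFF K F) t n ∈
      s27LU K (s27indB (s27pfPsi (s27ftPkg hx G₀ hG₀) (s27dcl_halg (x := x)) hq)
        (s27beta (g := genusFF K F) (2 • G₀ - Finsupp.single O 1 : Divisor K F)) (-1)) N := by
  obtain ⟨hAO, hApos, hA⟩ := s27grc_const G₀ O hG0 hOG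
  have hm1 : (-1 : ℤ) ≠ 0 := by norm_num
  have hm1' : (-1 : ℤ) ≠ 1 := by norm_num
  obtain ⟨β_ne, β_mem, hβ⟩ := s27betat_main (g := genusFF K F)
    (2 • G₀ - Finsupp.single O 1 : Divisor K F) f₀ (s27flx_latEx K F hx _)
  have hspec : ∃ he : Function.Injective (s27gfLiftR (q (-1))),
      ∀ z : s27gfSym K F (genusFF K F),
        algebraMap (s27gfOm K F (genusFF K F)) (s27mtL K F)
          ((s27pfPsi (s27ftPkg hx G₀ hG₀) (s27dcl_halg (x := x)) hq (-1) z :
            s27gfSym K F (genusFF K F)) : s27gfOm K F (genusFF K F)) =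
          s27psiT (q (-1)) he (z : s27gfOm K F (genusFF K F)) :=
    ⟨(s27pf_fam_pt (s27ftPkg hx G₀ hG₀) (s27dcl_halg (x := x)) hq (-1) hm1).inj,
      fun z => s27pfPsi_spec (s27ftPkg hx G₀ hG₀) (s27dcl_halg (x := x)) hq (-1) hm1 z⟩
  refine s17clu_mem_LU (L := s27mtL K F)
    (s27pfPsi (s27ftPkg hx G₀ hG₀) (s27dcl_halg (x := x)) hq)
    (s27beta (g := genusFF K F) (2 • G₀ - Finsupp.single O 1 : Divisor K F))
    (q (-1)) (2 • G₀ - Finsupp.single O 1) O ?_ s hs ?_ x hx t N htO ht n
  · intro W hW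
    exact s27pn_indB_of_lift (2 • G₀ - Finsupp.single O 1 : Divisor K F)
      (s27beta (g := genusFF K F) (2 • G₀ - Finsupp.single O 1 : Divisor K F))
      (s27pn_beta_of_om _ _ hβ)
      (s27pfPsi (s27ftPkg hx G₀ hG₀) (s27dcl_halg (x := x)) hq) q (-1) (by norm_num) hspec W hW
  · intro W hW y hy
    exact s27pda_main x hx W hW O (s26gspf_hall hx O) s hs _ hAO hApos
      (s27pfTaut (K := K) (F := F) (g := genusFF K F) (L := s27mtL K F)) (q (-1))
      (s27oppt_taut_inj x hx) (s27oppt_fam_inj (s27ftPkg hx G₀ hG₀) q hq (-1) hm1)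
      (s27dom_disj_fam (FL := s27mtFL K F) (s27stg_hld K F (s27mtL K F))
        (s27stg_hgen K F (s27mtL K F)) hx G₀ hG₀ q hq (-1) hm1 hm1')
      (s27oppf_opp (FL := s27mtFL K F) (s27stg_hld K F (s27mtL K F))
        (s27stg_hgen K F (s27mtL K F)) (s26gspf_hall hx) hx
        (s27pkg_hdeg (s27stg_hld K F (s27mtL K F)) (s27stg_hgen K F (s27mtL K F)) hx) G₀
        (s27pkgO_degree (s27stg_hld K F (s27mtL K F)) (s27stg_hgen K F (s27mtL K F)) hx G₀ hG₀)
        (s27ftPkg hx G₀ hG₀) (fun e => rfl) (fun R => rfl) q hq hG0 O hOG) y hy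

/-- the image in `L` of the symmetric Chow coefficient. -/
theorem s17cls_map (t : F) (n : Fin (genusFF K F + 1)) :
    algebraMap (s27gfSym K F (genusFF K F)) (s27mtL K F)
        (s17cluSym (K := K) (g := genusFF K F) t n) =
      s17cvChow (fun i => s27pfTaut (K := K) (F := F) (g := genusFF K F)
        (L := s27mtL K F) i t) n :=
  s17clu_map_sym (L := s27mtL K F) t n

end Stage

end Fermat.Agent.S17

end
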