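/-
S17 sprint, design A v2 (ONE theta divisor), leaf **PlM / TELE** (helper11): the NON-symmetric
telescoped cube in the literal shape `S17mvTele` of S17/Mult2.lean, from the pointwise cubes of
S27-B (the hypotheses of `s27indb_crux` / `s27nmc_crux`, which S27-B proves).

With `B k V = s27indB ψ β k V` (local equation of `Θ` at `k η` along `V`):

  cube_k :  `(B (k+1) · B (k−1)) ^ e_k ≐ Φ_k · (B k ² · B 1 · B (−1)) ^ e_k`   (`0 < |k| < n`)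
  ⇒  `B n ^ c ≐ Ψ_n · B 1 ^ (c · n(n+1)/2) · B (−1) ^ (c · n(n−1)/2)`,
  i.e.  `S17mvTele K (ψ n) (ψ (−1)) (s27indB ψ β 1) Ψ_n c (n(n+1)/2) (n(n−1)/2)`;
  `n = 3`:  `p = 6`, `q = 3`  (`[3]^* Θ ~ 6 Θ + 3 Θ⁻`).

* `s17mt_plus`     : the telescoped identity for `B n`;
* `s17mt_tele`     : the `S17mvTele` certificate (needs `ψ n ∘ ψ 1 = ψ n`, `ψ (−1) ∘ ψ 1 = ψ (−1)`);
* `s17mt_tele_up`  : the same from the cubes UPSTAIRS (`S27nmcCubeUp`, through NORM);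
* `s17mt_tri_three`, `s17mt_triM_three` : `s27indTri 3 = 6`, `s27indTriM 3 = 3`.
-/
import Fermat.Agent.S27.NormCrux
import Fermat.Agent.S17.Mult2

set_option autoImplicit false
set_option linter.unusedVariables false
set_option linter.unusedSectionVars false

noncomputable section

namespace Fermat.Agent.S17

open Fermat.Agent.S27

universe u w w'

variable {K : Type u} [Field K] {𝔉 : Type w} [Field 𝔉] [Algebra K 𝔉]

theorem s17mt_tri_three : s27indTri 3 = 6 := rfl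

theorem s17mt_triM_three : s27indTriM 3 = 3 := rfl

/-- **the telescoped cube for `B n`** (non-symmetric). -/
theorem s17mt_plus (ψ : ℤ → (𝔉 →ₐ[K] 𝔉)) (β : ValuationSubring 𝔉 → 𝔉) (e : ℤ → ℕ)
    (Φ : ℤ → 𝔉) (n : ℕ)
    (β_ne : ∀ V, S27IsKValU K V → β V ≠ 0)
    (hΦ : ∀ k : ℤ, k ∈ s27indbRange n → Φ k ≠ 0)
    (cube : ∀ k : ℤ, k ∈ s27indbRange n → ∀ V, S27IsKValU K V → ∃ u : 𝔉, S27IsUnitIn V u ∧
      (s27indB ψ β (k + 1) V * s27indB ψ β (k - 1) V) ^ e k =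
        u * Φ k * (s27indB ψ β k V ^ 2 * s27indB ψ β 1 V * s27indB ψ β (-1) V) ^ e k)
    (V : ValuationSubring 𝔉) (hV : S27IsKValU K V) :
    ∃ u, S27IsUnitIn V u ∧ s27indB ψ β (n : ℤ) V ^ s27indbC e n =
      u * s27indPsi (fun k : ℕ => s27indbPhi e Φ n (k : ℤ)) n *
        ((s27indB ψ β 1 V ^ s27indbC e n) ^ s27indTri n *
          (s27indB ψ β (-1) V ^ s27indbC e n) ^ s27indTriM n) := by
  set c := s27indbC e n with hc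
  set Φ' := s27indbPhi e Φ n with hΦ'
  have hBne := fun (k : ℤ) {V : ValuationSubring 𝔉} (hV : S27IsKValU K V) =>
    s27indB_ne ψ β β_ne k hV
  have hΦ'ne : ∀ k : ℤ, Φ' k ≠ 0 := by
    intro k
    rw [hΦ']
    unfold s27indbPhi
    split_ifs with hk
    · exact pow_ne_zero _ (hΦ k hk)
    · exact one_ne_zero
  have cube' : ∀ k : ℤ, k ∈ s27indbRange n → ∀ V, S27IsKValU K V → ∃ u : 𝔉, S27IsUnitIn V u ∧
      (s27indB ψ β (k + 1) V * s27indB ψ β (k - 1) V) ^ c =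
        u * Φ' k * (s27indB ψ β k V ^ 2 * s27indB ψ β 1 V * s27indB ψ β (-1) V) ^ c := by
    intro k hk V hV
    obtain ⟨u, hu, h⟩ := cube k hk V hV
    refine ⟨u ^ (∏ j ∈ (s27indbRange n).erase k, e j), s27ind_unit_pow hu _, ?_⟩
    have hΦk : Φ' k = Φ k ^ (∏ j ∈ (s27indbRange n).erase k, e j) := by
      rw [hΦ']
      unfold s27indbPhi
      rw [if_pos hk]
    rw [hΦk, hc, s27indbC_eq e n hk, pow_mul, h, pow_mul]
    ring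
  have hΦp : ∀ k : ℕ, (fun k : ℕ => Φ' (k : ℤ)) (k + 1) ≠ 0 := fun k => hΦ'ne _
  set P : 𝔉 := s27indB ψ β 1 V ^ c with hP
  set Q : 𝔉 := s27indB ψ β (-1) V ^ c with hQ
  have hB0 : s27indB ψ β 0 V = 1 := by simp [s27indB]
  exact s27indb_tele V (fun k : ℕ => s27indB ψ β (k : ℤ) V ^ c)
      (fun k : ℕ => Φ' (k : ℤ)) P Q n
      (by simp [hB0]) (by simp [hP])
      (fun k => pow_ne_zero _ (hBne _ hV)) hΦp
      (fun k hk => by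
        obtain ⟨m, hm⟩ : ∃ m : ℤ, m = (k : ℤ) + 1 := ⟨_, rfl⟩
        have e1 : ((k + 2 : ℕ) : ℤ) = m + 1 := by push_cast; omega
        have e3 : ((k + 1 : ℕ) : ℤ) = m := by push_cast; omega
        have e2 : ((k : ℕ) : ℤ) = m - 1 := by omega
        have hmr : m ∈ s27indbRange n := s27indb_mem_range.2 ⟨by omega, by omega, by omega⟩
        obtain ⟨u, hu, h⟩ := cube' m hmr V hV
        refine ⟨u, hu, ?_⟩
        show s27indB ψ β ((k + 2 : ℕ) : ℤ) V ^ c * s27indB ψ β ((k : ℕ) : ℤ) V ^ c =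
          u * Φ' ((k + 1 : ℕ) : ℤ) * ((s27indB ψ β ((k + 1 : ℕ) : ℤ) V ^ c) ^ 2 * P * Q)
        rw [e1, e3, e2, ← mul_pow, h, hP, hQ]
        ring) n le_rfl

/-- **the `S17mvTele` certificate of S17/Mult2.lean** for `φ = ψ n`, `σ = ψ (−1)`,
`b = B 1 = s27indB ψ β 1`, `p = n (n + 1) / 2`, `q = n (n − 1) / 2`. -/
theorem s17mt_tele (ψ : ℤ → (𝔉 →ₐ[K] 𝔉)) (β : ValuationSubring 𝔉 → 𝔉) (e : ℤ → ℕ)
    (Φ : ℤ → 𝔉) (n : ℕ) (hn : 0 < n)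
    (comp₁ : ∀ x, ψ n (ψ 1 x) = ψ n x) (compm₁ : ∀ x, ψ (-1) (ψ 1 x) = ψ (-1) x)
    (β_ne : ∀ V, S27IsKValU K V → β V ≠ 0)
    (hΦ : ∀ k : ℤ, k ∈ s27indbRange n → Φ k ≠ 0)
    (cube : ∀ k : ℤ, k ∈ s27indbRange n → ∀ V, S27IsKValU K V → ∃ u : 𝔉, S27IsUnitIn V u ∧
      (s27indB ψ β (k + 1) V * s27indB ψ β (k - 1) V) ^ e k =
        u * Φ k * (s27indB ψ β k V ^ 2 * s27indB ψ β 1 V * s27indB ψ β (-1) V) ^ e k) :
    S17mvTele K (ψ n) (ψ (-1)) (s27indB ψ β 1)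
      (s27indPsi (fun k : ℕ => s27indbPhi e Φ n (k : ℤ)) n) (s27indbC e n)
      (s27indTri n) (s27indTriM n) := by
  intro V hV
  obtain ⟨u, hu, h⟩ := s17mt_plus ψ β e Φ n β_ne hΦ cube V hV
  refine ⟨u, hu, ?_⟩
  have hn0 : (n : ℤ) ≠ 0 := by exact_mod_cast hn.ne'
  have h1 : ψ n (s27indB ψ β 1 (V.comap ((ψ n : 𝔉 →ₐ[K] 𝔉) : 𝔉 →+* 𝔉))) =
      s27indB ψ β (n : ℤ) V := s27indB_map ψ β n 1 n one_ne_zero hn0 comp₁ V
  have h2 : ψ (-1) (s27indB ψ β 1 (V.comap ((ψ (-1) : 𝔉 →ₐ[K] 𝔉) : 𝔉 →+* 𝔉))) =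
      s27indB ψ β (-1) V :=
    s27indB_map ψ β (-1) 1 (-1) one_ne_zero (by norm_num) compm₁ V
  rw [h1, h2, h, ← pow_mul, ← pow_mul]
  ring

/-- the same from the cubes UPSTAIRS (through NORM, `s27nmc_cube`). -/
theorem s17mt_tele_up {𝔏 : Type w'} [Field 𝔏] [Algebra 𝔉 𝔏] [Algebra K 𝔏] [IsScalarTower K 𝔉 𝔏]
    [Normal 𝔉 𝔏] (ψ : ℤ → (𝔉 →ₐ[K] 𝔉)) (β : ValuationSubring 𝔉 → 𝔉)
    (n : ℕ) (hn : 0 < n)
    (comp₁ : ∀ x, ψ n (ψ 1 x) = ψ n x) (compm₁ : ∀ x, ψ (-1) (ψ 1 x) = ψ (-1) x)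
    (β_ne : ∀ V, S27IsKValU K V → β V ≠ 0)
    (Φ' : ℤ → 𝔏) (hΦ' : ∀ k : ℤ, k ∈ s27indbRange n → Φ' k ≠ 0)
    (cube' : ∀ k : ℤ, k ∈ s27indbRange n → S27nmcCubeUp K 𝔏 ψ β k (Φ' k)) :
    S17mvTele K (ψ n) (ψ (-1)) (s27indB ψ β 1)
      (s27indPsi (fun k : ℕ => s27indbPhi (fun k => s27nmE 𝔉 (Φ' k))
        (fun k => s27nmPhi 𝔉 (Φ' k)) n (k : ℤ)) n)
      (s27indbC (fun k => s27nmE 𝔉 (Φ' k)) n) (s27indTri n) (s27indTriM n) :=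
  s17mt_tele ψ β (fun k => s27nmE 𝔉 (Φ' k)) (fun k => s27nmPhi 𝔉 (Φ' k)) n hn comp₁ compm₁
    β_ne (fun k hk => s27nmPhi_ne (hΦ' k hk))
    (fun k hk => s27nmc_cube ψ β k (Φ' k) (hΦ' k hk) (cube' k hk))

end Fermat.Agent.S17

end
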