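/-
S17 sprint, layer H, sub-leaf **PlM-CUBE** (helper28; table of helper11, 07:08Z).

On the CLOSED S27-B stage — a curve `F / K` of genus `> 0`, ANY admissible constants
`hc : S27cstIsConst x G₀ O`, ANY family `q` (`hq : S27pfFam (s27ftPkg hc.trans G₀ hc.deg) q`),
`ψ := s27pfPsi (s27ftPkg hc.trans G₀ hc.deg) s27dcl_halg hq`, `β := s27beta (G₀ + s27cstAo G₀ O)`,
`𝔏 := s27mtL K F` — the INPUTS of helper11's `s17mt_tele_up` (S17/MultTele.lean), as ONE theorem:

* `s17pmc_one`  : `ψ 1 x = x`  (hence `comp₁ : ψ n (ψ 1 x) = ψ n x`, `compm₁ : ψ (−1) (ψ 1 x) = ψ (−1) x`);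
* `s17pmc_main` : `β_ne`, `β_mem`, and `∃ Φ' : ℤ → 𝔏, ∀ k ≠ 0, Φ' k ≠ 0 ∧ S27nmcCubeUp K 𝔏 ψ β k (Φ' k)`
                  (the cube UPSTAIRS at EVERY `k ≠ 0`: the instance S27's final chain feeds into
                  `s27nmc_cube`);
* `s17pmc_tele` : for every `n > 0` the conclusion of `s17mt_tele_up`:
                  `S17mvTele K (ψ n) (ψ (−1)) (B 1) Ψ c (s27indTri n) (s27indTriM n)` with `0 < c`
                  (`n = 3`: `p = 6`, `q = 3`).
-/
import Fermat.Agent.S27.Final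
import Fermat.Agent.S17.MultTele

set_option autoImplicit false
set_option linter.unusedVariables false
set_option linter.unusedSectionVars false
set_option linter.style.haveILetI false

noncomputable section

namespace Fermat.Agent.S17

open AlgebraicCurve Module TensorProduct IntermediateField Fermat.Agent.S26 Fermat.Agent.S27

universe u v

variable {K : Type u} {F : Type v} [Field K] [Field F] [Algebra K F] [IsAlgClosed K] [CharZero K]
  [IsCurveOver K F] [Algebra.EssFiniteType K F]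

/-- `ψ 1 = id` on the stage. -/
theorem s17pmc_one {x : F} {G₀ : Divisor K F} {O : Place K F} (hc : S27cstIsConst x G₀ O) :
    haveI := hc.fin
    haveI := hc.sep
    ∀ (q : ℤ → Fin (genusFF K F) → F →ₐ[K] s27mtL K F)
      (hq : S27pfFam (s27ftPkg hc.trans G₀ hc.deg) q) (y : s27gfSym K F (genusFF K F)),
      s27pfPsi (s27ftPkg hc.trans G₀ hc.deg) (s27dcl_halg (x := x)) hq 1 y = y := by
  haveI := hc.fin
  haveI := hc.sep
  intro q hq y
  rw [s27pfPsi_one]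
  rfl

/-- **PlM-CUBE**: `β_ne`, `β_mem` and the cube UPSTAIRS at every `k ≠ 0`, on the closed stage. -/
theorem s17pmc_main {x : F} {G₀ : Divisor K F} {O : Place K F} (hc : S27cstIsConst x G₀ O)
    (hg : 0 < genusFF K F) :
    haveI := hc.fin
    haveI := hc.sep
    ∀ (q : ℤ → Fin (genusFF K F) → F →ₐ[K] s27mtL K F)
      (hq : S27pfFam (s27ftPkg hc.trans G₀ hc.deg) q),
      (∀ V, S27IsKValU K V → s27beta (g := genusFF K F) (G₀ + s27cstAo G₀ O) V ≠ 0) ∧
      (∀ V, S27IsKValU K V → s27beta (g := genusFF K F) (G₀ + s27cstAo G₀ O) V ∈ V) ∧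
      ∃ Φ' : ℤ → s27mtL K F, ∀ k : ℤ, k ≠ 0 → Φ' k ≠ 0 ∧
        S27nmcCubeUp K (s27mtL K F)
          (s27pfPsi (s27ftPkg hc.trans G₀ hc.deg) (s27dcl_halg (x := x)) hq)
          (s27beta (g := genusFF K F) (G₀ + s27cstAo G₀ O)) k (Φ' k) := by
  haveI := hc.fin
  haveI := hc.sep
  intro q hq
  have hx := hc.trans
  have hl := hc.l_A
  have hpos : 0 < Module.finrank K ↥(riemannRochSpace (G₀ + s27cstAo G₀ O)) := by
    rw [hl]; exact hg
  haveI : Module.Finite K ↥(riemannRochSpace (G₀ + s27cstAo G₀ O)) :=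
    Module.finite_of_finrank_pos hpos
  let f₀ : Module.Basis (Fin (genusFF K F)) K ↥(riemannRochSpace (G₀ + s27cstAo G₀ O)) :=
    Module.finBasisOfFinrankEq K _ hl
  have hLE : S27ftLE hx (s27cstAo G₀ O) :=
    s27lec_le (FL := s27mtFL K F) (s27stg_hld K F (s27mtL K F))
      (s27stg_hgen K F (s27mtL K F)) hx (s27cstAo G₀ O) hc.bot
      (s27final_lea K F hg x hx G₀ O hc)
  have hCP : S27ftCP hx G₀ hc.deg (s27cstAo G₀ O) :=
    s27cpf_cp hx G₀ hc.deg hg (s27cstAo G₀ O) hc.bot hc.deg_Ao O f₀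
  choose Φ hΦ hcp using hCP
  have hlat := s27flx_latEx K F hx (G₀ + s27cstAo G₀ O)
  obtain ⟨bne, bmem, bidx⟩ :=
    s27betat_main (g := genusFF K F) (G₀ + s27cstAo G₀ O) f₀ hlat
  have hβ : S27pnBeta (L := s27mtL K F)
      (s27pnTaut (K := K) (F := F) (g := genusFF K F) (L := s27mtL K F)) (G₀ + s27cstAo G₀ O)
      (s27beta (g := genusFF K F) (G₀ + s27cstAo G₀ O)) :=
    s27pn_beta_main s27betac_conj (G₀ + s27cstAo G₀ O) f₀ hlat
  have hIdx : ∀ k : ℤ, k ≠ 0 → ∀ W : ValuationSubring (s27mtL K F), S27IsKValU K W →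
      ∀ y : s27mtL K F, S27ptIsIdx W (q k) (G₀ + s27cstAo G₀ O) y →
        s27ftIdx hx (s27cstAo G₀ O) W (k • s27ftEta hx G₀ hc.deg) y :=
    fun k hk W hW y hy => s27ic_hIdx (FL := s27mtFL K F) (s27stg_hld K F (s27mtL K F))
      (s27stg_hgen K F (s27mtL K F)) hx G₀ hc.deg hq (s27cstAo G₀ O) k hk W hW y hy
  refine ⟨bne, bmem, fun k => if hk : k = 0 then 1 else (Φ k hk)⁻¹, fun k hk => ?_⟩
  beta_reduce
  rw [dif_neg hk]
  refine ⟨inv_ne_zero (hΦ k hk), ?_⟩
  exact s27ck_cubeUp (s27pfPsi (s27ftPkg hx G₀ hc.deg) (s27dcl_halg (x := x)) hq)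
    (s27beta (g := genusFF K F) (G₀ + s27cstAo G₀ O)) (s27ftIdx hx (s27cstAo G₀ O))
    (s27ftEta hx G₀ hc.deg) hLE
    (fun j hj => s27mc_nat (s27ftPkg hx G₀ hc.deg) (s27dcl_halg (x := x)) hq
      (G₀ + s27cstAo G₀ O) (s27beta (g := genusFF K F) (G₀ + s27cstAo G₀ O)) hβ
      (s27ftIdx hx (s27cstAo G₀ O)) (s27ftEta hx G₀ hc.deg) hIdx j hj)
    k (Φ k hk) (hΦ k hk) (hcp k hk)

/-- **the telescoped cube on the closed stage** (conclusion of `s17mt_tele_up`), every `n > 0`. -/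
theorem s17pmc_tele {x : F} {G₀ : Divisor K F} {O : Place K F} (hc : S27cstIsConst x G₀ O)
    (hg : 0 < genusFF K F) :
    haveI := hc.fin
    haveI := hc.sep
    ∀ (q : ℤ → Fin (genusFF K F) → F →ₐ[K] s27mtL K F)
      (hq : S27pfFam (s27ftPkg hc.trans G₀ hc.deg) q) (n : ℕ), 0 < n →
      ∃ (Ψ : s27gfSym K F (genusFF K F)) (c : ℕ), 0 < c ∧
        S17mvTele K (s27pfPsi (s27ftPkg hc.trans G₀ hc.deg) (s27dcl_halg (x := x)) hq n)
          (s27pfPsi (s27ftPkg hc.trans G₀ hc.deg) (s27dcl_halg (x := x)) hq (-1))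
          (s27indB (s27pfPsi (s27ftPkg hc.trans G₀ hc.deg) (s27dcl_halg (x := x)) hq)
            (s27beta (g := genusFF K F) (G₀ + s27cstAo G₀ O)) 1)
          Ψ c (s27indTri n) (s27indTriM n) := by
  haveI := hc.fin
  haveI := hc.sep
  intro q hq n hn
  obtain ⟨bne, -, Φ', hΦ'⟩ := s17pmc_main hc hg q hq
  have hone := s17pmc_one hc q hq
  have hrange : ∀ k : ℤ, k ∈ s27indbRange n → k ≠ 0 := fun k hk =>
    (s27indb_mem_range.1 hk).1
  refine ⟨_, s27indbC (fun k => s27nmE (s27gfSym K F (genusFF K F)) (Φ' k)) n, ?_,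
    s17mt_tele_up (𝔏 := s27mtL K F)
      (s27pfPsi (s27ftPkg hc.trans G₀ hc.deg) (s27dcl_halg (x := x)) hq)
      (s27beta (g := genusFF K F) (G₀ + s27cstAo G₀ O)) n hn
      (fun y => by rw [hone y]) (fun y => by rw [hone y]) bne Φ'
      (fun k hk => (hΦ' k (hrange k hk)).1) (fun k hk => (hΦ' k (hrange k hk)).2)⟩
  unfold s27indbC
  exact Finset.prod_pos fun k _ => s27nmE_pos _

end Fermat.Agent.S17

end
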