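/-
S17 sprint, layer H, PlN input **(L1) hsec — CHOW SECTIONS of the OPPOSITE tuple** (helper28),
in the EXACT shape of `s17pnt_plN` (S17/PlNTop.lean, helper74) under the captain's ruling (A):
ONE local equation `y = s17pmtB (s27indB ψ β 1)` (= the lifted `b_L` of PlM / PlT).

Closed S27-B stage: `L = s27mtL K F`, ANY constants `hc : S27cstIsConst x G₀ O`, ANY family `q`
(`S27pfFam (s27ftPkg …) q`), `ψ = s27pfPsi …`, `β = s27beta (G₀ + Ao)`, `Ao = G₀ − O`.
For a function `t` whose only pole is `O`, of order `≤ M`: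

  `Chow_n (q (−1) · t) · (b_L W) ^ M ∈ W`   for EVERY valuation subring `W ⊇ K` of `L`.

Proof: CHOW-IN-L `s17cil_chow_idx` (helper46) with `p := q (−1)`, `q := taut` — (OPP) is symmetric in
the two tuples (`s17psc_opp_symm`), DISJ and the injectivities are those of `s27grc_grow` — and
`β` is a local equation at the tautological tuple (`s17hv_beta`, helper41); `ψ 1 = id`.

* `s17psc_opp_symm` : `S27pdaOpp p q A → S27pdaOpp q p A`;
* `s17psc_A`        : `G₀ + Ao = 2 • G₀ − O`;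
* `s17psc_indB_one` : `ψ 1 = id` ⇒ `s27indB ψ β 1 V = β V`;
* **`s17psc_sec`**  : (L1) at every `W ⊇ K`, any `M` with `−M ≤ ord_O t`;
* **`s17psc_hsec`** : (L1) at the `K`-rational places, `∃ M` — the literal `hsec` of `s17pnt_plN`.
-/
import Fermat.Agent.S17.ChowLUStage
import Fermat.Agent.S17.HVis
import Fermat.Agent.S17.PlMTop
import Fermat.Agent.S17.PlMCube

set_option autoImplicit false
set_option linter.unusedVariables false
set_option linter.unusedSectionVars false
set_option linter.style.haveILetI false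
set_option linter.style.longLine false

noncomputable section

namespace Fermat.Agent.S17

open AlgebraicCurve Module TensorProduct IntermediateField Fermat.Agent.S26 Fermat.Agent.S27

universe u v w

/-- **(OPP) is symmetric** in the two tuples. -/
theorem s17psc_opp_symm {K : Type u} {F : Type v} [Field K] [Field F] [Algebra K F]
    {𝔏 : Type w} [Field 𝔏] [Algebra K 𝔏] {g : ℕ} {p q : Fin g → F →ₐ[K] 𝔏} {A : Divisor K F}
    (h : S27pdaOpp p q A) : S27pdaOpp q p A := by
  intro f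
  obtain ⟨c₀, c, hne, hp, hq⟩ := h f
  exact ⟨c₀, c, hne, hq, hp⟩

/-- `G₀ + Ao = 2 • G₀ − O`. -/
theorem s17psc_A {K : Type u} {F : Type v} [Field K] [Field F] [Algebra K F]
    (G₀ : Divisor K F) (O : Place K F) :
    G₀ + s27cstAo G₀ O = (2 • G₀ - Finsupp.single O 1 : Divisor K F) := by
  unfold s27cstAo
  rw [two_nsmul, add_sub_assoc]

/-- `ψ 1 = id` ⇒ `B 1 = β`. -/
theorem s17psc_indB_one {K : Type u} [Field K] {𝔉 : Type w} [Field 𝔉] [Algebra K 𝔉]
    (ψ : ℤ → (𝔉 →ₐ[K] 𝔉)) (h1 : ∀ y : 𝔉, ψ 1 y = y) (β : ValuationSubring 𝔉 → 𝔉)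
    (V : ValuationSubring 𝔉) : s27indB ψ β 1 V = β V := by
  have hV : V.comap ((ψ 1 : 𝔉 →ₐ[K] 𝔉) : 𝔉 →+* 𝔉) = V := by
    ext z
    rw [ValuationSubring.mem_comap]
    show ψ 1 z ∈ V ↔ z ∈ V
    rw [h1]
  unfold s27indB
  rw [if_neg one_ne_zero, hV, h1]

section Stage

variable {K : Type u} {F : Type v} [Field K] [Field F] [Algebra K F] [IsAlgClosed K] [CharZero K]
  [IsCurveOver K F] [Algebra.EssFiniteType K F]

/-- **(L1) CHOW SECTIONS of the opposite tuple**, at every valuation subring `W ⊇ K` of `L`. -/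
theorem s17psc_sec {x : F} {G₀ : Divisor K F} {O : Place K F} (hc : S27cstIsConst x G₀ O)
    (hg : 0 < genusFF K F) :
    haveI := hc.fin
    haveI := hc.sep
    ∀ (q : ℤ → Fin (genusFF K F) → F →ₐ[K] s27mtL K F)
      (hq : S27pfFam (s27ftPkg hc.trans G₀ hc.deg) q)
      (t : F) (M : ℕ) (htO : -(M : ℤ) ≤ O.ord t) (ht : ∀ Q : Place K F, Q ≠ O → 0 ≤ Q.ord t)
      (W : ValuationSubring (s27mtL K F)) (hW : S27IsKValU K W) (n : Fin (genusFF K F + 1)),
      s17cvChow (fun i => q (-1) i t) n *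
        s17pmtB (L := s27mtL K F)
          (s27indB (s27pfPsi (s27ftPkg hc.trans G₀ hc.deg) (s27dcl_halg (x := x)) hq)
            (s27beta (g := genusFF K F) (G₀ + s27cstAo G₀ O)) 1) W ^ M ∈ W := by
  haveI := hc.fin
  haveI := hc.sep
  intro q hq t M htO ht W hW n
  have hm1 : (-1 : ℤ) ≠ 0 := by norm_num
  have hm1' : (-1 : ℤ) ≠ 1 := by norm_num
  obtain ⟨hAO, hApos, -⟩ := s27grc_const G₀ O hc.nonneg hc.off
  have hA := s17psc_A G₀ O
  -- `β` is a local equation at the tautological tuple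
  obtain ⟨x₀, hidx, u, hu, hyu⟩ := s17hv_beta hc hg W hW
  rw [hA] at hidx
  obtain ⟨s, hs⟩ := Fermat.Agent.S24.place_exists_ord_eq_one O
  have hopp := s27oppf_opp (FL := s27mtFL K F) (s27stg_hld K F (s27mtL K F))
    (s27stg_hgen K F (s27mtL K F)) (s26gspf_hall hc.trans) hc.trans
    (s27pkg_hdeg (s27stg_hld K F (s27mtL K F)) (s27stg_hgen K F (s27mtL K F)) hc.trans) G₀
    (s27pkgO_degree (s27stg_hld K F (s27mtL K F)) (s27stg_hgen K F (s27mtL K F)) hc.trans G₀
      hc.deg)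
    (s27ftPkg hc.trans G₀ hc.deg) (fun e => rfl) (fun R => rfl) q hq hc.nonneg O hc.off
  have hdisj := s27dom_disj_fam (FL := s27mtFL K F) (s27stg_hld K F (s27mtL K F))
    (s27stg_hgen K F (s27mtL K F)) hc.trans G₀ hc.deg q hq (-1) hm1 hm1'
  have key := s17cil_chow_idx x hc.trans W hW O (s26gspf_hall hc.trans O) s hs
    (2 • G₀ - Finsupp.single O 1 : Divisor K F) hAO hApos (q (-1))
    (s27pfTaut (K := K) (F := F) (g := genusFF K F) (L := s27mtL K F))
    (s27oppt_fam_inj (s27ftPkg hc.trans G₀ hc.deg) q hq (-1) hm1)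
    (s27oppt_taut_inj x hc.trans)
    (fun i j h => hdisj j i h.symm) (s17psc_opp_symm hopp) t M htO ht x₀ hidx n
  -- `B 1 = β`
  have hB : s17pmtB (L := s27mtL K F)
      (s27indB (s27pfPsi (s27ftPkg hc.trans G₀ hc.deg) (s27dcl_halg (x := x)) hq)
        (s27beta (g := genusFF K F) (G₀ + s27cstAo G₀ O)) 1) W = u * x₀ := by
    unfold s17pmtB
    rw [s17psc_indB_one _ (s17pmc_one hc q hq)]
    exact hyu
  rw [hB, mul_pow, ← mul_assoc, mul_comm _ (u ^ M), mul_assoc]
  exact W.mul_mem _ _ (W.toSubring.pow_mem hu.2.1 M) key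

/-- **(L1) = the literal `hsec` of `s17pnt_plN`**: at the `K`-rational places, with `∃ M`. -/
theorem s17psc_hsec {x : F} {G₀ : Divisor K F} {O : Place K F} (hc : S27cstIsConst x G₀ O)
    (hg : 0 < genusFF K F) :
    haveI := hc.fin
    haveI := hc.sep
    ∀ (q : ℤ → Fin (genusFF K F) → F →ₐ[K] s27mtL K F)
      (hq : S27pfFam (s27ftPkg hc.trans G₀ hc.deg) q)
      (t : F) (ht : ∀ Q : Place K F, Q ≠ O → 0 ≤ Q.ord t),
      ∃ M : ℕ, ∀ (P : S17plPlace K (s27mtL K F)) (n : Fin (genusFF K F + 1)),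
        s17cvChow (fun i => q (-1) i t) n *
          s17pmtB (L := s27mtL K F)
            (s27indB (s27pfPsi (s27ftPkg hc.trans G₀ hc.deg) (s27dcl_halg (x := x)) hq)
              (s27beta (g := genusFF K F) (G₀ + s27cstAo G₀ O)) 1) P.W ^ M ∈ P.W := by
  haveI := hc.fin
  haveI := hc.sep
  intro q hq t ht
  refine ⟨(-(O.ord t)).toNat, fun P n => ?_⟩
  refine s17psc_sec hc hg q hq t _ ?_ ht P.W P.hKW n
  have := Int.self_le_toNat (-(O.ord t))
  omega

end Stage

end Fermat.Agent.S17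

end
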