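/-
S17 sprint, design A v2, PlM — **A-M in ABSOLUTE form, non-symmetric** (helper16).

Stage of `S17/Mult2.lean` (helper11) with `K = ℚ̄`: `φ σ : 𝔉 →ₐ[K] 𝔉` (`φ = ψ_m`, `σ = ψ_{-1}`),
local equations `b`, the telescoped cube `S17mvTele K φ σ b Ψ c p q`, a base-point-free family
`F` of `L(N · Θ⁻)` (`S17muBpf K b N F`).  Heights: the absolute logarithmic height `s17haAbsQ`
(`S17/HtAbsQb.lean`) of the place-values `s17plVal` at the `ℚ̄`-places `S17plPlace` of `𝔉`.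

* `s17mab_veronese` : `s17haAbsQ (fun I : Fin d → ι => ∏ a, x (I a)) = d * s17haAbsQ x`;
* `s17mab_hW`       : the tuples `X j = Ψ ^ N * φ (F j) ^ c` and
                      `Y (κ, μ) = ∏ F (κ a) * ∏ σ (F (μ a))` (bidegree `(c p, c q)`) are valuatively
                      equivalent (the literal hypothesis of `s17hbp_place`), from `s17mv_le/_ge`;
* **`s17mab_two`**  : `∃ C, ∀ P` and all charts,
                      `|c · h[φ F]_P − (c p · h[F]_P + c q · h[σ F]_P)| ≤ C`;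
* **`s17mab_hM`**   : `∃ C, ∀ P α β hα hβ, p · h[F]_P − C ≤ h[φ F]_P`
                      (= the hypothesis `hM` of `s17plm_plM`, S17/PlMGlue.lean, with `b = p`,
                      `ht = s17haAbsQ`; `p = (m² + m)/2 = 6` at `m = 3`).
-/
import Fermat.Agent.S17.Mult2
import Fermat.Agent.S17.HtAbsPl
import Fermat.Agent.S17.PlaceSeg
import Fermat.Agent.S17.Segre
import Fermat.Agent.S17.HtAbsBasic

set_option autoImplicit false
set_option linter.unusedVariables false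
set_option linter.unusedSectionVars false
set_option linter.style.haveILetI false

noncomputable section

namespace Fermat.Agent.S17

open Fermat.Agent.S27 Height

universe w x

section Veronese

variable {ι : Type*} [Finite ι]

/-- **VERONESE for the absolute height**. -/
theorem s17mab_veronese (x : ι → AlgebraicClosure ℚ) (hx : x ≠ 0) (d : ℕ) :
    s17haAbsQ (fun I : Fin d → ι => ∏ a, x (I a)) = d * s17haAbsQ x := by
  obtain ⟨E, _, _, j, x', hx'⟩ := s17hab_exists_field x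
  have hx0 : x' ≠ 0 := by
    intro h0
    apply hx
    funext i
    rw [← hx' i, h0]
    simp
  rw [s17haAbsQ_eq E j (fun I : Fin d → ι => ∏ a, x' (I a)) _
      (fun I => by simp only [map_prod, hx']),
    s17haAbsQ_eq E j x' x hx']
  have h := logHeight_fun_prod_eq (K := E) (α := Fin d) (ι := fun _ => ι)
    (x := fun _ => x') (fun _ => hx0)
  rw [h, Finset.sum_const, Finset.card_univ, Fintype.card_fin, nsmul_eq_mul, mul_div_assoc]

end Veronese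

section Main

variable {𝔉 : Type w} [Field 𝔉] [Algebra (AlgebraicClosure ℚ) 𝔉] {ι : Type x}
  {φ σ : 𝔉 →ₐ[AlgebraicClosure ℚ] 𝔉} {b : ValuationSubring 𝔉 → 𝔉} {Ψ : 𝔉} {c p q N : ℕ}
  {F : ι → 𝔉}

/-- the tuple `X j = Ψ ^ N * φ (F j) ^ c`. -/
def s17mabX (φ : 𝔉 →ₐ[AlgebraicClosure ℚ] 𝔉) (Ψ : 𝔉) (c N : ℕ) (F : ι → 𝔉) : ι → 𝔉 :=
  fun j => Ψ ^ N * φ (F j) ^ c

/-- the tuple of the monomials of bidegree `(d, e)` in `(F, σ ∘ F)`. -/
def s17mabY (σ : 𝔉 →ₐ[AlgebraicClosure ℚ] 𝔉) (d e : ℕ) (F : ι → 𝔉) :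
    (Fin d → ι) × (Fin e → ι) → 𝔉 :=
  fun I => (∏ a, F (I.1 a)) * ∏ a, σ (F (I.2 a))

/-- **valuative equivalence** of `X` and `Y`. -/
theorem s17mab_hW (hT : S17mvTele (AlgebraicClosure ℚ) φ σ b Ψ c p q)
    (hF : S17muBpf (AlgebraicClosure ℚ) b N F)
    (W : ValuationSubring 𝔉) (hW : ∀ a : AlgebraicClosure ℚ, algebraMap _ 𝔉 a ∈ W) :
    ∃ α β, s17mabX φ Ψ c N F α ≠ 0 ∧ s17mabY σ (c * p) (c * q) F β ≠ 0 ∧
      (∀ α', s17mabX φ Ψ c N F α' / s17mabX φ Ψ c N F α ∈ W) ∧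
      (∀ β', s17mabY σ (c * p) (c * q) F β' / s17mabY σ (c * p) (c * q) F β ∈ W) ∧
      s17mabY σ (c * p) (c * q) F β / s17mabX φ Ψ c N F α ∈ W ∧
      s17mabX φ Ψ c N F α / s17mabY σ (c * p) (c * q) F β ∈ W := by
  have hV : S27IsKValU (AlgebraicClosure ℚ) W := hW
  obtain ⟨-, j₁, -⟩ := hF W hV
  obtain ⟨κ₀, μ₀, hY0, hYall, -⟩ := s17mv_ge hT hF j₁ W hV
  obtain ⟨α, hX0, hXall, hYX⟩ := s17mv_le hT hF κ₀ μ₀ W hV
  obtain ⟨κ₁, μ₁, hY1, -, hXY1⟩ := s17mv_ge hT hF α W hV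
  refine ⟨α, (κ₀, μ₀), hX0, hY0, hXall, fun β' => hYall β'.1 β'.2, hYX, ?_⟩
  have h1 : s17mabX φ Ψ c N F α / s17mabY σ (c * p) (c * q) F (κ₀, μ₀) =
      (Ψ ^ N * φ (F α) ^ c) / s17mvMon σ F κ₁ μ₁ *
        (s17mvMon σ F κ₁ μ₁ / s17mvMon σ F κ₀ μ₀) := by
    show (Ψ ^ N * φ (F α) ^ c) / s17mvMon σ F κ₀ μ₀ = _
    field_simp
  rw [h1]
  exact W.mul_mem _ _ hXY1 (hYall κ₁ μ₁)

variable [Fintype ι]

/-- **A-M, absolute, two-sided**: `c · h[φ F]_P = c p · h[F]_P + c q · h[σ F]_P + O(1)`,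
uniformly in the `ℚ̄`-place `P` (any charts). -/
theorem s17mab_two (hT : S17mvTele (AlgebraicClosure ℚ) φ σ b Ψ c p q)
    (hF : S17muBpf (AlgebraicClosure ℚ) b N F) :
    ∃ C : ℝ, ∀ (P : S17plPlace (AlgebraicClosure ℚ) 𝔉)
      (α₁ : ι) (h₁ : S17plIsMin P.W F α₁)
      (α₂ : ι) (h₂ : S17plIsMin P.W (fun i => σ (F i)) α₂)
      (α₀ : ι) (h₀ : S17plIsMin P.W (fun i => φ (F i)) α₀),
      |(c : ℝ) * s17haAbsQ (s17plVal P (fun i => φ (F i)) α₀ h₀) -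
        (((c * p : ℕ) : ℝ) * s17haAbsQ (s17plVal P F α₁ h₁) +
          ((c * q : ℕ) : ℝ) * s17haAbsQ (s17plVal P (fun i => σ (F i)) α₂ h₂))| ≤ C := by
  classical
  obtain ⟨C, H⟩ := s17hbpQ_place (s17mabX φ Ψ c N F) (s17mabY σ (c * p) (c * q) F)
    (fun W hW => s17mab_hW hT hF W hW)
  refine ⟨C, fun P α₁ h₁ α₂ h₂ α₀ h₀ => ?_⟩
  -- `Ψ ^ N ≠ 0`
  obtain ⟨α', -, hX0', -⟩ := s17mab_hW hT hF P.W P.hKW
  have hΨ : Ψ ^ N ≠ 0 := left_ne_zero_of_mul hX0'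
  -- the tuple `G = (φ F) ^ c`
  have hG : S17plIsMin P.W (fun j => φ (F j) ^ c) α₀ := by
    refine ⟨pow_ne_zero _ h₀.1, fun β => ?_⟩
    show φ (F β) ^ c / φ (F α₀) ^ c ∈ P.W
    rw [← div_pow]
    exact pow_mem (h₀.2 β) c
  have hX : S17plIsMin P.W (s17mabX φ Ψ c N F) α₀ :=
    (s17pl_isMin_scale P.W (fun j => φ (F j) ^ c) α₀ hΨ).2 hG
  have hXval : s17plVal P (s17mabX φ Ψ c N F) α₀ hX =
      (s17plVal P (fun i => φ (F i)) α₀ h₀) ^ c := by
    have e1 : s17plVal P (s17mabX φ Ψ c N F) α₀ hX = s17plVal P (fun j => φ (F j) ^ c) α₀ hG :=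
      s17pl_val_scale P (fun j => φ (F j) ^ c) α₀ hΨ hG hX
    rw [e1]
    funext β
    rw [Pi.pow_apply, s17pl_val_apply, s17pl_val_apply, ← map_pow P.res]
    congr 1
    apply Subtype.ext
    show φ (F β) ^ c / φ (F α₀) ^ c = (φ (F β) / φ (F α₀)) ^ c
    rw [div_pow]
  -- the tuple `Y`
  have hV1 : S17plIsMin P.W (fun I : Fin (c * p) → ι => ∏ a, F (I a)) (fun _ => α₁) :=
    s17ps_isMin_pow h₁ (c * p)
  have hV2 : S17plIsMin P.W (fun I : Fin (c * q) → ι => ∏ a, (fun i => σ (F i)) (I a))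
      (fun _ => α₂) := s17ps_isMin_pow h₂ (c * q)
  have hY : S17plIsMin P.W (s17mabY σ (c * p) (c * q) F) ((fun _ => α₁), (fun _ => α₂)) :=
    s17ps_isMin_mul hV1 hV2
  have hYval : s17plVal P (s17mabY σ (c * p) (c * q) F) ((fun _ => α₁), (fun _ => α₂)) hY =
      fun I => (∏ a, s17plVal P F α₁ h₁ (I.1 a)) *
        ∏ a, s17plVal P (fun i => σ (F i)) α₂ h₂ (I.2 a) := by
    have e1 := s17ps_val_mul P (fun I : Fin (c * p) → ι => ∏ a, F (I a))
      (fun I : Fin (c * q) → ι => ∏ a, (fun i => σ (F i)) (I a)) (fun _ => α₁) (fun _ => α₂)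
      hV1 hV2
    have e2 := s17ps_val_pow P F α₁ h₁ (c * p)
    have e3 := s17ps_val_pow P (fun i => σ (F i)) α₂ h₂ (c * q)
    rw [e2, e3] at e1
    exact e1
  have hv1 : s17plVal P F α₁ h₁ ≠ 0 := s17pl_val_ne_zero P F α₁ h₁
  have hv2 : s17plVal P (fun i => σ (F i)) α₂ h₂ ≠ 0 := s17pl_val_ne_zero P _ α₂ h₂
  have hw1 : (fun I : Fin (c * p) → ι => ∏ a, s17plVal P F α₁ h₁ (I a)) ≠ 0 := by
    intro h0
    have := congrFun h0 (fun _ => α₁)
    simp only [s17pl_val_self, Finset.prod_const_one, Pi.zero_apply] at this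
    exact one_ne_zero this
  have hw2 : (fun I : Fin (c * q) → ι =>
      ∏ a, s17plVal P (fun i => σ (F i)) α₂ h₂ (I a)) ≠ 0 := by
    intro h0
    have := congrFun h0 (fun _ => α₂)
    simp only [s17pl_val_self, Finset.prod_const_one, Pi.zero_apply] at this
    exact one_ne_zero this
  have hYht : s17haAbsQ (s17plVal P (s17mabY σ (c * p) (c * q) F)
      ((fun _ => α₁), (fun _ => α₂)) hY) =
      ((c * p : ℕ) : ℝ) * s17haAbsQ (s17plVal P F α₁ h₁) +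
        ((c * q : ℕ) : ℝ) * s17haAbsQ (s17plVal P (fun i => σ (F i)) α₂ h₂) := by
    rw [hYval]
    have e := s17sg_absQ_mul' (fun I : Fin (c * p) → ι => ∏ a, s17plVal P F α₁ h₁ (I a))
      (fun I : Fin (c * q) → ι => ∏ a, s17plVal P (fun i => σ (F i)) α₂ h₂ (I a)) hw1 hw2
    rw [e, s17mab_veronese _ hv1, s17mab_veronese _ hv2]
  have key := H P α₀ hX ((fun _ => α₁), (fun _ => α₂)) hY
  rw [hXval, s17hab_pow, hYht] at key
  exact key

/-- **A-M, absolute** (the hypothesis `hM` of `s17plm_plM` with `b = p`, `ht = s17haAbsQ`). -/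
theorem s17mab_hM (hT : S17mvTele (AlgebraicClosure ℚ) φ σ b Ψ c p q)
    (hF : S17muBpf (AlgebraicClosure ℚ) b N F) (hc : 0 < c) :
    ∃ C : ℝ, ∀ (P : S17plPlace (AlgebraicClosure ℚ) 𝔉) (α β : ι) (hα : S17plIsMin P.W F α)
      (hβ : S17plIsMin P.W (fun i => φ (F i)) β),
      (p : ℝ) * s17haAbsQ (s17plVal P F α hα) - C ≤
        s17haAbsQ (s17plVal P (fun i => φ (F i)) β hβ) := by
  obtain ⟨C, H⟩ := s17mab_two hT hF
  refine ⟨C / c, fun P α β hα hβ => ?_⟩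
  have hσF : (fun i => σ (F i)) ≠ 0 := by
    intro h0
    have := congrFun h0 α
    exact hα.1 ((map_eq_zero σ).1 this)
  obtain ⟨α₂, h₂⟩ := s17pl_exists_min P.W hσF
  have h := H P α hα α₂ h₂ β hβ
  have hnn : 0 ≤ s17haAbsQ (s17plVal P (fun i => σ (F i)) α₂ h₂) := s17haAbsQ_nonneg _
  have hc' : (0 : ℝ) < c := by exact_mod_cast hc
  have hq : (0 : ℝ) ≤ ((c * q : ℕ) : ℝ) := Nat.cast_nonneg _
  have h1 := (abs_le.1 h).1
  have h2 : ((c * p : ℕ) : ℝ) = c * p := by push_cast; ring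
  rw [h2] at h1
  have h3 : (c : ℝ) * ((p : ℝ) * s17haAbsQ (s17plVal P F α hα) - C / c) ≤
      c * s17haAbsQ (s17plVal P (fun i => φ (F i)) β hβ) := by
    have e : (c : ℝ) * ((p : ℝ) * s17haAbsQ (s17plVal P F α hα) - C / c) =
        c * p * s17haAbsQ (s17plVal P F α hα) - C := by
      field_simp
    rw [e]
    linarith [mul_nonneg hq hnn]
  exact le_of_mul_le_mul_left h3 hc'

end Main

end Fermat.Agent.S17

end
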