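/-
S17 sprint, layer H — **BPF-INDEP** (helper16): THE HEIGHT OF A PLACE DOES NOT DEPEND ON THE
BASE-POINT-FREE TUPLE (up to a positive factor and `O(1)`), so the three place statements
`S17hyPlM`, `S17hyPlT`, `S17hxPlN` (S17/HTopAB.lean, S17/HTop.lean) may be proved with DIFFERENT
base-point-free tuples `s` and transferred to ONE of them.

`L ⊇ ℚ̄` a field, `b` local equations, `P : S17plPlace ℚ̄ L` the `ℚ̄`-places,
`S17pmkBpf ℚ̄ b N X` : `X ⊆ L(N·D)` without common zero AT THE `ℚ̄`-PLACES ONLY (S17/PlMK.lean),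
`H_X P := s17plmH s17haAbsQ X P` the absolute logarithmic height of the place-value `[X]_P`.

* `s17bh_pow`        : `X` bpf for `(b, N)` ⇒ the monomials of degree `d` in `X` are bpf for
                       `(b, N * d)`;
* `s17bh_hW`         : two bpf families for the SAME `(b, M)` are valuatively equivalent at every
                       valuation subring `W ⊇ ℚ̄` (pointwise at the places + `s17vk_upgrade_equiv`);
* **`s17bh_abs`**    : `X` bpf for `(b, N)`, `Y` bpf for `(b, N')` ⇒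
                       `∃ C, ∀ P` and all charts, `|N' · h[X]_P − N · h[Y]_P| ≤ C`;
* **`s17bh_ht`**     : the same for `s17plmH s17haAbsQ`: `|N' · H_X P − N · H_Y P| ≤ C`;
* `s17bh_plM`, `s17bh_plT`, `s17bh_plN` : transfer of the three place statements along
                       `|μ · H p − λ · H' p| ≤ D` (`0 < λ`, `0 < μ`);
* `s17bh_plM_bpf`, `s17bh_plT_bpf`, `s17bh_plN_bpf` : transfer from `H_X` to `H_Y`
                       (`0 < N`, `0 < N'`).
-/
import Fermat.Agent.S17.PlMK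
import Fermat.Agent.S17.ValCritK
import Fermat.Agent.S17.HtAbsPl
import Fermat.Agent.S17.MultAbs
import Fermat.Agent.S17.PlaceSeg
import Fermat.Agent.S17.PlMGlue
import Fermat.Agent.S17.HTopAB

set_option autoImplicit false
set_option linter.unusedVariables false
set_option linter.unusedSectionVars false
set_option linter.style.haveILetI false

noncomputable section

namespace Fermat.Agent.S17

open Fermat.Agent.S27 Height

universe w

section Val

variable {L : Type w} [Field L] [Algebra (AlgebraicClosure ℚ) L]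
  {b : ValuationSubring L → L} {ι κ : Type*}

/-- the monomials of degree `d` in a family which is bpf for `(b, N)` are bpf for `(b, N * d)`. -/
theorem s17bh_pow {N : ℕ} {X : ι → L} (hX : S17pmkBpf (AlgebraicClosure ℚ) b N X) (d : ℕ) :
    S17pmkBpf (AlgebraicClosure ℚ) b (N * d) (fun I : Fin d → ι => ∏ a, X (I a)) := by
  intro P
  obtain ⟨hmem, α, hα⟩ := hX P
  have key : ∀ I : Fin d → ι, (∏ a, X (I a)) * b P.W ^ (N * d) = ∏ a, (X (I a) * b P.W ^ N) := by
    intro I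
    rw [Finset.prod_mul_distrib, Finset.prod_const, Finset.card_univ, Fintype.card_fin,
      ← pow_mul]
  refine ⟨fun I => ?_, fun _ => α, ?_⟩
  · rw [key I]
    exact P.W.toSubring.prod_mem fun a _ => hmem (I a)
  · rw [key fun _ => α, Finset.prod_const, Finset.card_univ, Fintype.card_fin]
    exact s17mu_unit_pow hα d

variable [Finite ι] [Finite κ]

/-- two families which are bpf for the same `(b, M)` at the `ℚ̄`-places are valuatively
equivalent at EVERY valuation subring `W ⊇ ℚ̄`. -/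
theorem s17bh_hW {M : ℕ} {X : ι → L} {Y : κ → L}
    (hX : S17pmkBpf (AlgebraicClosure ℚ) b M X) (hY : S17pmkBpf (AlgebraicClosure ℚ) b M Y)
    (W : ValuationSubring L) (hW : ∀ c : AlgebraicClosure ℚ, algebraMap _ L c ∈ W) :
    ∃ α β, X α ≠ 0 ∧ Y β ≠ 0 ∧ (∀ α', X α' / X α ∈ W) ∧ (∀ β', Y β' / Y β ∈ W) ∧
      Y β / X α ∈ W ∧ X α / Y β ∈ W :=
  s17vk_upgrade_equiv X Y
    (fun P => s17pmk_equiv_of_bpf_at (V := P.W) (z := b P.W ^ M) (hX P) (hY P)) W hW

end Val

section Ht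

variable {L : Type w} [Field L] [Algebra (AlgebraicClosure ℚ) L]
  {b : ValuationSubring L → L} {ι κ : Type*} [Fintype ι] [Fintype κ]

/-- **BPF-INDEP, charts**: `|N' · h[X]_P − N · h[Y]_P| ≤ C`. -/
theorem s17bh_abs {N N' : ℕ} {X : ι → L} {Y : κ → L}
    (hX : S17pmkBpf (AlgebraicClosure ℚ) b N X) (hY : S17pmkBpf (AlgebraicClosure ℚ) b N' Y) :
    ∃ C : ℝ, ∀ (P : S17plPlace (AlgebraicClosure ℚ) L) (α : ι) (hα : S17plIsMin P.W X α)
      (β : κ) (hβ : S17plIsMin P.W Y β),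
      |(N' : ℝ) * s17haAbsQ (s17plVal P X α hα) - (N : ℝ) * s17haAbsQ (s17plVal P Y β hβ)|
        ≤ C := by
  classical
  have hX' := s17bh_pow hX N'
  have hY' := s17bh_pow hY N
  rw [mul_comm N' N] at hY'
  obtain ⟨C, H⟩ := s17hbpQ_place (fun I : Fin N' → ι => ∏ a, X (I a))
    (fun I : Fin N → κ => ∏ a, Y (I a)) (fun W hW => s17bh_hW hX' hY' W hW)
  refine ⟨C, fun P α hα β hβ => ?_⟩
  have h := H P (fun _ => α) (s17ps_isMin_pow hα N') (fun _ => β) (s17ps_isMin_pow hβ N)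
  rw [s17ps_val_pow P X α hα N', s17ps_val_pow P Y β hβ N,
    s17mab_veronese _ (s17pl_val_ne_zero P X α hα),
    s17mab_veronese _ (s17pl_val_ne_zero P Y β hβ)] at h
  exact h

/-- **BPF-INDEP**: `|N' · H_X P − N · H_Y P| ≤ C` for the heights of the places. -/
theorem s17bh_ht {N N' : ℕ} {X : ι → L} {Y : κ → L}
    (hX : S17pmkBpf (AlgebraicClosure ℚ) b N X) (hY : S17pmkBpf (AlgebraicClosure ℚ) b N' Y) :
    ∃ C : ℝ, ∀ P : S17plPlace (AlgebraicClosure ℚ) L,
      |(N' : ℝ) * s17plmH (s17haAbsQ (ι := ι)) X P -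
        (N : ℝ) * s17plmH (s17haAbsQ (ι := κ)) Y P| ≤ C := by
  obtain ⟨C, H⟩ := s17bh_abs hX hY
  refine ⟨C, fun P => ?_⟩
  obtain ⟨-, α, hα⟩ := hX P
  obtain ⟨-, β, hβ⟩ := hY P
  have hX0 : X ≠ 0 := fun h0 => (left_ne_zero_of_mul hα.1) (by rw [h0]; rfl)
  have hY0 : Y ≠ 0 := fun h0 => (left_ne_zero_of_mul hβ.1) (by rw [h0]; rfl)
  obtain ⟨α', hα'⟩ := s17pl_exists_min P.W hX0
  obtain ⟨β', hβ'⟩ := s17pl_exists_min P.W hY0
  rw [s17plmH_eq _ (fun c v hc => s17haAbsQ_smul v hc) X P α' hα',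
    s17plmH_eq _ (fun c v hc => s17haAbsQ_smul v hc) Y P β' hβ']
  exact H P α' hα' β' hβ'

end Ht

section Transfer

variable {N : ℕ} [NeZero N] {P : Type*} {cl : P → ModularCurve.JZero N} {H H' : P → ℝ}

/-- transfer of (M′) along `|μ · H − l · H'| ≤ D`. -/
theorem s17bh_plM {m : ℕ} {bb : ℝ} (hb : 0 ≤ bb) {l μ D : ℝ} (hl : 0 < l) (hμ : 0 < μ)
    (hD : ∀ p, |μ * H p - l * H' p| ≤ D) (h : S17hyPlM cl H m bb) : S17hyPlM cl H' m bb := by
  obtain ⟨C, hC⟩ := h
  refine ⟨(μ * C + bb * D + D) / l, fun p'' => ?_⟩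
  obtain ⟨p', h1, h2⟩ := hC p''
  refine ⟨p', h1, ?_⟩
  have e1 := abs_le.1 (hD p')
  have e2 := abs_le.1 (hD p'')
  have e3 : bb * (l * H' p') ≤ bb * (μ * H p' + D) := mul_le_mul_of_nonneg_left (by linarith) hb
  have e4 : μ * (bb * H p' - C) ≤ μ * H p'' := mul_le_mul_of_nonneg_left h2 hμ.le
  have key : l * (bb * H' p' - (μ * C + bb * D + D) / l) ≤ l * H' p'' := by
    have e5 : l * (bb * H' p' - (μ * C + bb * D + D) / l) =
        bb * (l * H' p') - (μ * C + bb * D + D) := by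
      field_simp
    rw [e5]
    nlinarith
  exact le_of_mul_le_mul_left key hl

/-- transfer of (T) along `|μ · H − l · H'| ≤ D`. -/
theorem s17bh_plT {a : ℝ} (ha : 0 ≤ a) {l μ D : ℝ} (hl : 0 < l) (hμ : 0 < μ)
    (hD : ∀ p, |μ * H p - l * H' p| ≤ D) (h : S17hyPlT cl H a) : S17hyPlT cl H' a := by
  intro g
  obtain ⟨c, hc⟩ := h g
  refine ⟨(μ * c + a * D + D) / l, fun p => ?_⟩
  obtain ⟨p₁, h1, h2⟩ := hc p
  refine ⟨p₁, h1, ?_⟩
  have e1 := abs_le.1 (hD p₁)
  have e2 := abs_le.1 (hD p)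
  have e3 : a * (μ * H p) ≤ a * (l * H' p + D) := mul_le_mul_of_nonneg_left (by linarith) ha
  have e4 : μ * H p₁ ≤ μ * (a * H p + c) := mul_le_mul_of_nonneg_left h2 hμ.le
  have key : l * H' p₁ ≤ l * (a * H' p + (μ * c + a * D + D) / l) := by
    have e5 : l * (a * H' p + (μ * c + a * D + D) / l) =
        a * (l * H' p) + (μ * c + a * D + D) := by
      field_simp
    rw [e5]
    nlinarith
  exact le_of_mul_le_mul_left key hl

/-- transfer of (N) along `|μ · H − l · H'| ≤ D`. -/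
theorem s17bh_plN {l μ D : ℝ} (hl : 0 < l) (hμ : 0 < μ)
    (hD : ∀ p, |μ * H p - l * H' p| ≤ D) (h : S17hxPlN cl H) : S17hxPlN cl H' := by
  intro B
  refine (h ((l * B + D) / μ)).subset ?_
  rintro x ⟨p, hp, hB⟩
  refine ⟨p, hp, ?_⟩
  have e1 := abs_le.1 (hD p)
  rw [le_div_iff₀ hμ]
  have e2 : l * H' p ≤ l * B := mul_le_mul_of_nonneg_left hB hl.le
  linarith

end Transfer

section TransferBpf

variable {L : Type w} [Field L] [Algebra (AlgebraicClosure ℚ) L]
  {b : ValuationSubring L → L} {ι κ : Type*} [Fintype ι] [Fintype κ]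
  {N : ℕ} [NeZero N] {cl : S17plPlace (AlgebraicClosure ℚ) L → ModularCurve.JZero N}
  {M M' : ℕ} {X : ι → L} {Y : κ → L}

/-- (M′) does not depend on the bpf tuple. -/
theorem s17bh_plM_bpf (hX : S17pmkBpf (AlgebraicClosure ℚ) b M X)
    (hY : S17pmkBpf (AlgebraicClosure ℚ) b M' Y) (hM : 0 < M) (hM' : 0 < M')
    {m : ℕ} {bb : ℝ} (hb : 0 ≤ bb)
    (h : S17hyPlM cl (s17plmH (s17haAbsQ (ι := ι)) X) m bb) :
    S17hyPlM cl (s17plmH (s17haAbsQ (ι := κ)) Y) m bb := by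
  obtain ⟨C, hC⟩ := s17bh_ht hX hY
  exact s17bh_plM hb (l := (M : ℝ)) (μ := (M' : ℝ)) (by exact_mod_cast hM)
    (by exact_mod_cast hM') hC h

/-- (T) does not depend on the bpf tuple. -/
theorem s17bh_plT_bpf (hX : S17pmkBpf (AlgebraicClosure ℚ) b M X)
    (hY : S17pmkBpf (AlgebraicClosure ℚ) b M' Y) (hM : 0 < M) (hM' : 0 < M')
    {a : ℝ} (ha : 0 ≤ a)
    (h : S17hyPlT cl (s17plmH (s17haAbsQ (ι := ι)) X) a) :
    S17hyPlT cl (s17plmH (s17haAbsQ (ι := κ)) Y) a := by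
  obtain ⟨C, hC⟩ := s17bh_ht hX hY
  exact s17bh_plT ha (l := (M : ℝ)) (μ := (M' : ℝ)) (by exact_mod_cast hM)
    (by exact_mod_cast hM') hC h

/-- (N) does not depend on the bpf tuple. -/
theorem s17bh_plN_bpf (hX : S17pmkBpf (AlgebraicClosure ℚ) b M X)
    (hY : S17pmkBpf (AlgebraicClosure ℚ) b M' Y) (hM : 0 < M) (hM' : 0 < M')
    (h : S17hxPlN cl (s17plmH (s17haAbsQ (ι := ι)) X)) :
    S17hxPlN cl (s17plmH (s17haAbsQ (ι := κ)) Y) := by
  obtain ⟨C, hC⟩ := s17bh_ht hX hY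
  exact s17bh_plN (l := (M : ℝ)) (μ := (M' : ℝ)) (by exact_mod_cast hM)
    (by exact_mod_cast hM') hC h

end TransferBpf

end Fermat.Agent.S17

end
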