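/-
S17 sprint, layer H — **PlN FAMILY GLUE** (sub-integrator helper74): the ONE finite tuple `s` of
the top (`S17/StageTop.lean`, `S17sxStmtAt`) must serve PlM, PlT and PlN.  PlM and PlT hold for
EVERY finite base-point-free family (`S17pmkBpf` at the `K`-places, `S17/PlMK.lean`; `S17trBpf`,
`S17/Transl.lean`); PlN needs the CHOW BLOCK in the `K`-span of `s` and `s ⊂ L(M · Θ)`.
So: enlarge the base-point-free family by the Chow block.

For local equations `y` (ANY function `ValuationSubring L → L`):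
* `s17pfm_unit_pow`     : powers of units are units;
* `s17pfm_sec_mono`     : `a · y ^ N ∈ W`, `y ∈ W`, `N ≤ M` ⇒ `a · y ^ M ∈ W`;
* `s17pfm_bpf_pow`      : `Fam` bpf in `L(N₀ Θ)` ⇒ `(Fam i ^ d)_i` bpf in `L(d N₀ Θ)` (`0 < d`);
* `s17pfm_bpf_sum`      : `Fam` bpf in `L(M Θ)`, `G ⊂ L(M Θ)` ⇒ `Sum.elim Fam G` bpf in `L(M Θ)`;
* `s17pfm_bpf_sec`      : a bpf family consists of sections;
* `s17pfm_bpf_ne_zero`  : a bpf family is not `0` (if there is a `K`-place);
* `s17pfmSel`, `s17pfm_lin_sum` : the CHOW BLOCK `hG` (`Φ = 1`) for `s = Sum.elim Fam G`: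
                          `s17pvLin (s17pfmSel) (Sum.elim Fam G) n = G n`;
* `s17pfm_trbpf_pow`, `s17pfm_trbpf_sum` : the same for `S17trBpf` (all `W ⊇ K`).
-/
import Fermat.Agent.S17.PlMK
import Fermat.Agent.S17.Transl
import Fermat.Agent.S17.ProjVal

set_option autoImplicit false
set_option linter.unusedVariables false
set_option linter.unusedSectionVars false
set_option linter.style.longLine false

noncomputable section

namespace Fermat.Agent.S17

open Fermat.Agent.S27

universe u w x x'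

section Val

variable {L : Type w} [Field L]

/-- powers of units are units. -/
theorem s17pfm_unit_pow {W : ValuationSubring L} {a : L} (ha : S27IsUnitIn W a) (d : ℕ) :
    S27IsUnitIn W (a ^ d) :=
  ⟨pow_ne_zero d ha.1, pow_mem ha.2.1 d, by rw [← inv_pow]; exact pow_mem ha.2.2 d⟩

/-- `a · y ^ N ∈ W`, `y ∈ W`, `N ≤ M` ⇒ `a · y ^ M ∈ W`. -/
theorem s17pfm_sec_mono {W : ValuationSubring L} {a y : L} {N M : ℕ} (hy : y ∈ W)
    (ha : a * y ^ N ∈ W) (hNM : N ≤ M) : a * y ^ M ∈ W := by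
  obtain ⟨k, rfl⟩ := Nat.exists_eq_add_of_le hNM
  rw [pow_add, ← mul_assoc]
  exact W.mul_mem _ _ ha (pow_mem hy k)

end Val

section Bpf

variable {K : Type u} [Field K] {L : Type w} [Field L] [Algebra K L] {ι : Type x} {κ : Type x'}

/-- a bpf family consists of sections. -/
theorem s17pfm_bpf_sec {y : ValuationSubring L → L} {M : ℕ} {Fam : ι → L}
    (h : S17pmkBpf K y M Fam) (P : S17plPlace K L) (i : ι) : Fam i * y P.W ^ M ∈ P.W :=
  (h P).1 i

/-- a bpf family is not `0`. -/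
theorem s17pfm_bpf_ne_zero {y : ValuationSubring L → L} {M : ℕ} {Fam : ι → L}
    (h : S17pmkBpf K y M Fam) (P : S17plPlace K L) : Fam ≠ 0 := by
  intro h0
  obtain ⟨i, hi⟩ := (h P).2
  rw [h0] at hi
  exact hi.1 (by simp)

/-- the `d`-th powers of a bpf family of `L(N₀ Θ)` are a bpf family of `L(d N₀ Θ)`. -/
theorem s17pfm_bpf_pow {y : ValuationSubring L → L} {N₀ : ℕ} {Fam : ι → L}
    (h : S17pmkBpf K y N₀ Fam) (d : ℕ) :
    S17pmkBpf K y (N₀ * d) (fun i => Fam i ^ d) := by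
  intro P
  have e : ∀ i, Fam i ^ d * y P.W ^ (N₀ * d) = (Fam i * y P.W ^ N₀) ^ d := fun i => by
    rw [mul_pow, ← pow_mul]
  refine ⟨fun i => ?_, ?_⟩
  · rw [e i]
    exact pow_mem ((h P).1 i) d
  · obtain ⟨i, hi⟩ := (h P).2
    exact ⟨i, by rw [e i]; exact s17pfm_unit_pow hi d⟩

/-- a bpf family enlarged by sections is a bpf family. -/
theorem s17pfm_bpf_sum {y : ValuationSubring L → L} {M : ℕ} {Fam : ι → L} {G : κ → L}
    (h : S17pmkBpf K y M Fam) (hG : ∀ (P : S17plPlace K L) (j : κ), G j * y P.W ^ M ∈ P.W) :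
    S17pmkBpf K y M (Sum.elim Fam G) := by
  intro P
  refine ⟨fun i => ?_, ?_⟩
  · rcases i with i | j
    · exact (h P).1 i
    · exact hG P j
  · obtain ⟨i, hi⟩ := (h P).2
    exact ⟨Sum.inl i, hi⟩

/-- the same for `S17trBpf` (all `W ⊇ K`). -/
theorem s17pfm_trbpf_pow {y : ValuationSubring L → L} {N₀ : ℕ} {Fam : ι → L}
    (h : S17trBpf K y N₀ Fam) (d : ℕ) :
    S17trBpf K y (N₀ * d) (fun i => Fam i ^ d) := by
  intro W hW
  have e : ∀ i, Fam i ^ d * y W ^ (N₀ * d) = (Fam i * y W ^ N₀) ^ d := fun i => by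
    rw [mul_pow, ← pow_mul]
  refine ⟨fun i => ?_, ?_⟩
  · rw [e i]
    exact pow_mem ((h W hW).1 i) d
  · obtain ⟨i, hi⟩ := (h W hW).2
    exact ⟨i, by rw [e i]; exact s17pfm_unit_pow hi d⟩

theorem s17pfm_trbpf_sum {y : ValuationSubring L → L} {M : ℕ} {Fam : ι → L} {G : κ → L}
    (h : S17trBpf K y M Fam)
    (hG : ∀ W : ValuationSubring L, S27IsKValU K W → ∀ j : κ, G j * y W ^ M ∈ W) :
    S17trBpf K y M (Sum.elim Fam G) := by
  intro W hW
  refine ⟨fun i => ?_, ?_⟩
  · rcases i with i | j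
    · exact (h W hW).1 i
    · exact hG W hW j
  · obtain ⟨i, hi⟩ := (h W hW).2
    exact ⟨Sum.inl i, hi⟩

end Bpf

section Lin

variable {K : Type u} [Field K] {L : Type w} [Field L] [Algebra K L] {ι : Type x} {κ : Type x'}
  [Fintype ι] [Fintype κ] [DecidableEq κ]

/-- the coefficients selecting the block `G` in `Sum.elim Fam G`. -/
def s17pfmSel (K : Type u) [Field K] (ι : Type x) (κ : Type x') [DecidableEq κ] :
    κ → ι ⊕ κ → K :=
  fun n => Sum.elim (fun _ => 0) (fun n' => if n' = n then 1 else 0)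

/-- **CHOW BLOCK for the enlarged family**: the selected linear forms of `Sum.elim Fam G` are
`G`. -/
theorem s17pfm_lin_sum (Fam : ι → L) (G : κ → L) (n : κ) :
    s17pvLin (s17pfmSel K ι κ) (Sum.elim Fam G) n = G n := by
  unfold s17pvLin s17pfmSel
  rw [Fintype.sum_sum_type]
  simp only [Sum.elim_inl, Sum.elim_inr, map_zero, zero_mul, Finset.sum_const_zero, zero_add]
  rw [Finset.sum_eq_single n]
  · simp
  · intro b _ hb
    simp [hb]
  · intro h
    exact absurd (Finset.mem_univ n) h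

end Lin

end Fermat.Agent.S17

end
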