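/-
S17 sprint, layer H — **PlN TOP** (sub-integrator helper74): PlN for the height of the SAME
base-point-free family `Fam` as PlM and PlT (ruling (A): ONE local equation `y`, the lifted
`b_L = s17pmtB (s27indB ψ β 1)` of `Θ_Ao` at `η`).

Inputs (stage of `S17/CentreOnto.lean`, `cl = s17coCl`, `H = s17plmH s17haAbsQ Fam = s17sxHt Fam`):
  `Fam`   a finite family, base-point-free in `L(N₀ · Θ)` at the `ℚ̄`-places (`S17pmkBpf`,
          the family of PlM-BPF-L), `0 < N₀`;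
  `hint`  the local equations are integral at the `ℚ̄`-places;
  `q`     the OPPOSITE tuple (class `−η`);  `t` Galois-fixed, non-constant, regular off `∞`;
  (L1)    CHOW SECTIONS: `Chow_n (q i t) · y ^ M ∈ P.W` at every `ℚ̄`-place  (CHOW-IN-L);
  (L2)    U1: `y P.W` is a unit of `P.W` at the places with `−x_P + δ` GOOD;
  (open), (T) for `H` at ANY constant `a ≥ 0`.
Output: `S17hxPlN cl H`.

Proof: `s := Sum.elim (Fam i ^ d) (Chow block)` is base-point-free in `L(N₀ d · Θ)`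
(`S17/PlNFam.lean`), its height is `d · H + O(1)` (`S17/BpfHt.lean`, helper16), so (T) transfers
to `s`; PlN for `s` is `s17pno_plN_unit` (`S17/PlNOpp.lean`); and (N) transfers back to `Fam`.

* `s17pnt_family`   : the enlarged family is base-point-free;
* **`s17pnt_plN`**  : PlN for `H = s17plmH s17haAbsQ Fam`.
-/
import Fermat.Agent.S17.PlNOpp
import Fermat.Agent.S17.PlNFam
import Fermat.Agent.S17.BpfHt

set_option autoImplicit false
set_option linter.unusedVariables false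
set_option linter.unusedSectionVars false
set_option linter.style.haveILetI false
set_option linter.style.longLine false

noncomputable section

namespace Fermat.Agent.S17

open ModularCurve AlgebraicCurve Polynomial Height Module TensorProduct IntermediateField
open Fermat.Agent.S24 Fermat.Agent.ES.M Fermat.Agent.ES.H Fermat.Agent.S15 Fermat.Agent.S26
  Fermat.Agent.S27 Fermat.Agent.DEU

universe y

/-- the enlarged family `Sum.elim (Fam i ^ d) G` is base-point-free in `L(N₀ d · Θ)`. -/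
theorem s17pnt_family {L : Type*} [Field L] [Algebra Kb L] {ι κ : Type*}
    (y : ValuationSubring L → L) (hint : ∀ P : S17plPlace Kb L, y P.W ∈ P.W)
    (N₀ : ℕ) (hN₀ : 0 < N₀) (Fam : ι → L) (hFam : S17pmkBpf Kb y N₀ Fam)
    (M : ℕ) (G : κ → L) (hG : ∀ (P : S17plPlace Kb L) (j : κ), G j * y P.W ^ M ∈ P.W) :
    S17pmkBpf Kb y (N₀ * (M + 1)) (Sum.elim (fun i => Fam i ^ (M + 1)) G) := by
  refine s17pfm_bpf_sum (s17pfm_bpf_pow hFam (M + 1)) fun P j => ?_
  refine s17pfm_sec_mono (hint P) (hG P j) ?_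
  calc M ≤ 1 * (M + 1) := by omega
    _ ≤ N₀ * (M + 1) := Nat.mul_le_mul_right _ hN₀

section Stage

variable (N : ℕ) [NeZero N] [IsCurveOver Kb (FF N)] [Algebra.EssFiniteType Kb (FF N)]
  {L : Type} [Field L] [Algebra Kb L]
  [Algebra (s27gfOm Kb (FF N) (genusFF Kb (FF N))) L]
  [IsScalarTower Kb (s27gfOm Kb (FF N) (genusFF Kb (FF N))) L]
  [IsAlgClosed L] [Algebra.IsAlgebraic (s27gfOm Kb (FF N) (genusFF Kb (FF N))) L]
  {FL : Type y} [Field FL] [Algebra Kb FL] [Algebra (FF N) FL] [Algebra L FL]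
  [IsScalarTower Kb (FF N) FL] [IsScalarTower Kb L FL]
  (hld : Function.Injective (s26gspMu Kb (FF N) L FL)) (hgen : S26gspGen Kb (FF N) L FL)
  {x : FF N} (hx : Transcendental Kb x)
  [FiniteDimensional ↥(IntermediateField.adjoin Kb {x}) (FF N)]
  [Algebra.IsSeparable ↥(IntermediateField.adjoin Kb {x}) (FF N)]
  (G₀ : Divisor Kb (FF N)) (hG₀ : Divisor.degree G₀ = (genusFF Kb (FF N) : ℤ))

/-- **PlN TOP**: PlN for the height of the base-point-free family of PlM / PlT. -/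
theorem s17pnt_plN (q : Fin (genusFF Kb (FF N)) → FF N →ₐ[Kb] L)
    (hq : s27pfCl (s27dclPkg hld hgen hx G₀ hG₀) q =
      (-1 : ℤ) • s27pfCl (s27dclPkg hld hgen hx G₀ hG₀)
        (s27pfTaut (K := Kb) (F := FF N) (g := genusFF Kb (FF N)) (L := L)))
    (y : ValuationSubring L → L) (hint : ∀ P : S17plPlace Kb L, y P.W ∈ P.W)
    {ι : Type*} [Fintype ι] (N₀ : ℕ) (hN₀ : 0 < N₀) (Fam : ι → L)
    (hFam : S17pmkBpf Kb y N₀ Fam)
    (t : FF N)
    (hnc : ∀ c : Kb, t ≠ algebraMap Kb (FF N) c)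
    (htΓ : ∀ σ : Kb ≃ₐ[ℚ] Kb, galAct N σ • t = t)
    (ht : ∀ v : Place Kb (FF N), v ≠ cuspInf N → 0 ≤ v.ord t)
    (M : ℕ)
    (hsec : ∀ (P : S17plPlace Kb L) (n : Fin (genusFF Kb (FF N) + 1)),
      s17cvChow (fun i => q i t) n * y P.W ^ M ∈ P.W)
    (hunit : ∀ (P : S17plPlace Kb L),
      S17poGood N (-s17coCl (L := L) hld hgen hx G₀ hG₀ P + s17pnoShift N G₀) →
      S27IsUnitIn P.W (y P.W))
    (hopen : S17luOpen N) (a : ℝ) (ha : 0 ≤ a)
    (hT : S17hyPlT (s17coCl (L := L) hld hgen hx G₀ hG₀)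
      (s17plmH (s17haAbsQ (ι := ι)) Fam) a) :
    S17hxPlN (s17coCl (L := L) hld hgen hx G₀ hG₀) (s17plmH (s17haAbsQ (ι := ι)) Fam) := by
  classical
  have hs := s17pnt_family y hint N₀ hN₀ Fam hFam M (s17cvChow (fun i => q i t)) hsec
  have hpos : 0 < N₀ * (M + 1) := Nat.mul_pos hN₀ (Nat.succ_pos M)
  have hT' := s17bh_plT_bpf hFam hs hN₀ hpos ha hT
  have hN' := s17pno_plN_unit N hld hgen hx G₀ hG₀ q hq
    (Sum.elim (fun i => Fam i ^ (M + 1)) (s17cvChow (fun i => q i t)))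
    (s17plmH (s17haAbsQ (ι := ι ⊕ Fin (genusFF Kb (FF N) + 1)))
      (Sum.elim (fun i => Fam i ^ (M + 1)) (s17cvChow (fun i => q i t))))
    (fun P α hα => s17plmH_eq _ (fun c v hc => s17haAbsQ_smul v hc) _ P α hα)
    t hnc htΓ ht (s17pfmSel Kb ι (Fin (genusFF Kb (FF N) + 1)))
    (fun n => s17pfm_lin_sum _ _ n) y (N₀ * (M + 1)) (fun P i => (hs P).1 i) hunit hopen a ha hT'
  exact s17bh_plN_bpf hs hFam hpos hN₀ hN'

end Stage

end Fermat.Agent.S17

end
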