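/-
S17 sprint, sub-integration **[PlT]**, **PlT-STAGE** (helper18): the place form of (T) on the
CLOSED S27-B stage of the modular function field, in the input shape of PlM-STAGE
(S17/PlMStage.lean, helper11): the ONLY input is the base-point-free family

  `hs : S17muBpf Kb (s27indB ψ β 1) N₀ s₀`,   `s₀ : ι → 𝔉 = s27gfSym Kb (FF N) g`,
  `ψ = s27pfPsi (s27ftPkg hx G₀ hG₀) s27dcl_halg hq`, `β = s27beta (G₀ + Ao)`, `Ao = s27cstAo G₀ O`

(the SAME `b = B 1` and the same `s₀` as PlM), and the conclusions are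

* **`s17ttp_plT_on`** : `S17t9PlTOn cl H 2 (S17t9NS Ao)`   ((T), `a = 2`, non-special `g`);
* **`s17ttp_plT`**    : `S17hyPlT cl H 4`                  ((T), `a = 4`, ALL `g`: `S17sxStmt 3 4 6`);

for `cl = s17sxCl N hld hgen hx G₀ hG₀` and `H = s17sxHt (ι ∘ s₀)` (S17/StageTop.lean).

* `s17ttp_eq_exists`  : local equations `y W` of `Θ_{Ao}` at `η` along every `W ⊇ K` of `L`, with
                        `ι (B 1 (W ∩ 𝔉)) = u · y W`, `u ∈ Wˣ` (PSI-NAT at `k = 1` + (IDX));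
* `s17ttp_bpf`        : `S17trBpf Kb y N₀ (ι ∘ s₀)` from `hs` (LIFT + change of local equation).
-/
import Fermat.Agent.S17.TranslWrap
import Fermat.Agent.S17.StageTop
import Fermat.Agent.S17.PlMTop
import Fermat.Agent.S27.FinalTop2

set_option autoImplicit false
set_option linter.unusedVariables false
set_option linter.unusedSectionVars false
set_option linter.style.haveILetI false
set_option linter.style.longLine false

noncomputable section

namespace Fermat.Agent.S17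

open ModularCurve AlgebraicCurve Module TensorProduct IntermediateField
open Fermat.Agent.S24 Fermat.Agent.S26 Fermat.Agent.S27 Fermat.Agent.DEU

universe x'

/-! ### formal: change of the local equation by units -/

section Formal

variable {K : Type*} [Field K] {𝔏 : Type*} [Field 𝔏] [Algebra K 𝔏]

/-- base-point-freeness does not depend on the choice of the local equations. -/
theorem s17ttp_bpf_congr {ι : Type*} {y y' : ValuationSubring 𝔏 → 𝔏} {M : ℕ} {X : ι → 𝔏}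
    (hX : S17trBpf K y' M X)
    (hyy : ∀ W : ValuationSubring 𝔏, S27IsKValU K W → ∃ u, S27IsUnitIn W u ∧ y' W = u * y W) :
    S17trBpf K y M X := by
  intro W hW
  obtain ⟨hmem, i₀, hi₀⟩ := hX W hW
  obtain ⟨u, hu, hyu⟩ := hyy W hW
  have hui : S27IsUnitIn W u⁻¹ := ⟨inv_ne_zero hu.1, hu.2.2, by rw [inv_inv]; exact hu.2.1⟩
  have key : ∀ i, X i * y W ^ M = (X i * y' W ^ M) * (u⁻¹) ^ M := by
    intro i
    rw [hyu, mul_pow, mul_assoc, mul_comm (u ^ M * y W ^ M), ← mul_assoc ((u⁻¹) ^ M),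
      ← mul_pow, inv_mul_cancel₀ hu.1, one_pow, one_mul]
  refine ⟨fun i => ?_, i₀, ?_⟩
  · rw [key i]
    exact W.mul_mem _ _ (hmem i) (pow_mem hui.2.1 M)
  · rw [key i₀]
    exact s17tr_unit_mul hi₀ (s17tr_unit_pow hui M)

end Formal

/-! ### generic: the basis of `L(G₀ + Ao)` -/

section Basis

variable {K : Type*} {F : Type*} [Field K] [Field F] [Algebra K F]

/-- a basis of `L(G₀ + Ao)` indexed by `Fin g`. -/
theorem s17ttp_exists_basis {x : F} {G₀ : Divisor K F} {O : Place K F}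
    (hg : 0 < genusFF K F) (hc : S27cstIsConst x G₀ O) :
    Nonempty (Module.Basis (Fin (genusFF K F)) K ↥(riemannRochSpace (G₀ + s27cstAo G₀ O))) := by
  have hl := hc.l_A
  have hpos : 0 < Module.finrank K ↥(riemannRochSpace (G₀ + s27cstAo G₀ O)) := by
    rw [hl]; exact hg
  haveI : Module.Finite K ↥(riemannRochSpace (G₀ + s27cstAo G₀ O)) :=
    Module.finite_of_finrank_pos hpos
  exact ⟨Module.finBasisOfFinrankEq K _ hl⟩

end Basis

/-! ### the closed stage -/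

section Stage

variable (N : ℕ) [NeZero N] [IsCurveOver Kb (FF N)] [Algebra.EssFiniteType Kb (FF N)]
variable {x : FF N} (hx : Transcendental Kb x)
  [FiniteDimensional ↥(IntermediateField.adjoin Kb {x}) (FF N)]
  [Algebra.IsSeparable ↥(IntermediateField.adjoin Kb {x}) (FF N)]
  (G₀ : Divisor Kb (FF N)) (hG₀ : Divisor.degree G₀ = (genusFF Kb (FF N) : ℤ))

/-- **local equations of `Θ_{Ao}` at `η`** on the closed stage, compatible with `B 1`. -/
theorem s17ttp_eq_exists (hg : 0 < genusFF Kb (FF N)) (O : Place Kb (FF N))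
    (hc : S27cstIsConst x G₀ O)
    (q : ℤ → Fin (genusFF Kb (FF N)) → FF N →ₐ[Kb] s27mtL Kb (FF N))
    (hq : S27pfFam (s27ftPkg hx G₀ hG₀) q) :
    ∃ y : ValuationSubring (s27mtL Kb (FF N)) → s27mtL Kb (FF N),
      (∀ W : ValuationSubring (s27mtL Kb (FF N)), S27IsKValU Kb W →
        S27icIdx (FL := s27mtFL Kb (FF N)) (s27stg_hld Kb (FF N) (s27mtL Kb (FF N)))
          (s27stg_hgen Kb (FF N) (s27mtL Kb (FF N))) hx (s27cstAo G₀ O) W
          (s27pfCl (s27ftPkg hx G₀ hG₀)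
            (s27pfTaut (K := Kb) (F := FF N) (g := genusFF Kb (FF N))
              (L := s27mtL Kb (FF N)))) (y W)) ∧
      ∀ W : ValuationSubring (s27mtL Kb (FF N)), S27IsKValU Kb W →
        ∃ u, S27IsUnitIn W u ∧
          s17pmtB (L := s27mtL Kb (FF N))
            (s27indB (s27pfPsi (s27ftPkg hx G₀ hG₀) (s27dcl_halg (x := x)) hq)
              (s27beta (g := genusFF Kb (FF N)) (G₀ + s27cstAo G₀ O)) 1) W = u * y W := by
  obtain ⟨f₀⟩ := s17ttp_exists_basis hg hc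
  have hlat := s27flx_latEx Kb (FF N) hx (G₀ + s27cstAo G₀ O)
  have hβ : S27pnBeta (L := s27mtL Kb (FF N))
      (s27pnTaut (K := Kb) (F := FF N) (g := genusFF Kb (FF N)) (L := s27mtL Kb (FF N)))
      (G₀ + s27cstAo G₀ O) (s27beta (g := genusFF Kb (FF N)) (G₀ + s27cstAo G₀ O)) :=
    s27pn_beta_main s27betac_conj (G₀ + s27cstAo G₀ O) f₀ hlat
  have key : ∀ W : ValuationSubring (s27mtL Kb (FF N)), S27IsKValU Kb W →
      ∃ z, S27icIdx (FL := s27mtFL Kb (FF N)) (s27stg_hld Kb (FF N) (s27mtL Kb (FF N)))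
          (s27stg_hgen Kb (FF N) (s27mtL Kb (FF N))) hx (s27cstAo G₀ O) W
          (s27pfCl (s27ftPkg hx G₀ hG₀)
            (s27pfTaut (K := Kb) (F := FF N) (g := genusFF Kb (FF N))
              (L := s27mtL Kb (FF N)))) z ∧
        ∃ u, S27IsUnitIn W u ∧
          s17pmtB (L := s27mtL Kb (FF N))
            (s27indB (s27pfPsi (s27ftPkg hx G₀ hG₀) (s27dcl_halg (x := x)) hq)
              (s27beta (g := genusFF Kb (FF N)) (G₀ + s27cstAo G₀ O)) 1) W = u * z := by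
    intro W hW
    obtain ⟨z, hz, u, hu, hzu⟩ := s27pn_indB_of_lift (G₀ + s27cstAo G₀ O)
      (s27beta (g := genusFF Kb (FF N)) (G₀ + s27cstAo G₀ O)) hβ
      (s27pfPsi (s27ftPkg hx G₀ hG₀) (s27dcl_halg (x := x)) hq) q 1 one_ne_zero
      ⟨(s27pf_fam_pt (s27ftPkg hx G₀ hG₀) (s27dcl_halg (x := x)) hq 1 one_ne_zero).inj,
        fun s => s27pfPsi_spec (s27ftPkg hx G₀ hG₀) (s27dcl_halg (x := x)) hq 1 one_ne_zero s⟩
      W hW
    have h1 := s27ic_hIdx (FL := s27mtFL Kb (FF N)) (s27stg_hld Kb (FF N) (s27mtL Kb (FF N)))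
      (s27stg_hgen Kb (FF N) (s27mtL Kb (FF N))) hx G₀ hG₀ hq (s27cstAo G₀ O) 1 one_ne_zero
      W hW z hz
    rw [one_zsmul] at h1
    exact ⟨z, h1, u, hu, hzu⟩
  classical
  refine ⟨fun W => if hW : S27IsKValU Kb W then (key W hW).choose else 1,
    fun W hW => ?_, fun W hW => ?_⟩
  · simp only [dif_pos hW]
    exact (key W hW).choose_spec.1
  · simp only [dif_pos hW]
    exact (key W hW).choose_spec.2

/-- **[PlT] on the closed stage, non-special translations, `a = 2`**, PlM-STAGE's input shape. -/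
theorem s17ttp_plT_on (hg : 0 < genusFF Kb (FF N)) (O : Place Kb (FF N))
    (hc : S27cstIsConst x G₀ O)
    (q : ℤ → Fin (genusFF Kb (FF N)) → FF N →ₐ[Kb] s27mtL Kb (FF N))
    (hq : S27pfFam (s27ftPkg hx G₀ hG₀) q)
    {ι : Type} [Fintype ι] (N₀ : ℕ)
    (s₀ : ι → s27gfSym Kb (FF N) (genusFF Kb (FF N)))
    (hs : S17muBpf Kb
      (s27indB (s27pfPsi (s27ftPkg hx G₀ hG₀) (s27dcl_halg (x := x)) hq)
        (s27beta (g := genusFF Kb (FF N)) (G₀ + s27cstAo G₀ O)) 1) N₀ s₀) :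
    S17t9PlTOn (s17sxCl N (L := s27mtL Kb (FF N)) (FL := s27mtFL Kb (FF N))
        (s27stg_hld Kb (FF N) (s27mtL Kb (FF N))) (s27stg_hgen Kb (FF N) (s27mtL Kb (FF N)))
        hx G₀ hG₀)
      (s17sxHt (fun i => algebraMap (s27gfSym Kb (FF N) (genusFF Kb (FF N)))
        (s27mtL Kb (FF N)) (s₀ i))) 2 (S17t9NS (s27cstAo G₀ O)) := by
  obtain ⟨f₀⟩ := s17ttp_exists_basis hg hc
  obtain ⟨y, hy, hyu⟩ := s17ttp_eq_exists N hx G₀ hG₀ hg O hc q hq
  have hX : S17trBpf Kb y N₀ (fun i => algebraMap (s27gfSym Kb (FF N) (genusFF Kb (FF N)))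
      (s27mtL Kb (FF N)) (s₀ i)) :=
    s17ttp_bpf_congr (s17pmt_bpf (L := s27mtL Kb (FF N)) hs) hyu
  exact s17twr_plT_on N (FL := s27mtFL Kb (FF N)) (s27stg_hld Kb (FF N) (s27mtL Kb (FF N)))
    (s27stg_hgen Kb (FF N) (s27mtL Kb (FF N))) hx G₀ hG₀ hg (s27cstAo G₀ O) hc.bot hc.deg_Ao O f₀
    y hy _ N₀ hX _ (fun _ => rfl) _ (fun P α hα => s17sxHt_eq _ P α hα)

/-- **[PlT] on the closed stage, ALL translations, `a = 4`** (`S17sxStmt 3 4 6`). -/
theorem s17ttp_plT (hg : 0 < genusFF Kb (FF N)) (O : Place Kb (FF N))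
    (hc : S27cstIsConst x G₀ O)
    (q : ℤ → Fin (genusFF Kb (FF N)) → FF N →ₐ[Kb] s27mtL Kb (FF N))
    (hq : S27pfFam (s27ftPkg hx G₀ hG₀) q)
    {ι : Type} [Fintype ι] (N₀ : ℕ)
    (s₀ : ι → s27gfSym Kb (FF N) (genusFF Kb (FF N)))
    (hs : S17muBpf Kb
      (s27indB (s27pfPsi (s27ftPkg hx G₀ hG₀) (s27dcl_halg (x := x)) hq)
        (s27beta (g := genusFF Kb (FF N)) (G₀ + s27cstAo G₀ O)) 1) N₀ s₀) :
    S17hyPlT (s17sxCl N (L := s27mtL Kb (FF N)) (FL := s27mtFL Kb (FF N))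
        (s27stg_hld Kb (FF N) (s27mtL Kb (FF N))) (s27stg_hgen Kb (FF N) (s27mtL Kb (FF N)))
        hx G₀ hG₀)
      (s17sxHt (fun i => algebraMap (s27gfSym Kb (FF N) (genusFF Kb (FF N)))
        (s27mtL Kb (FF N)) (s₀ i))) 4 := by
  have h := s17t9_plT_comp (a := 2) (by norm_num) (S17t9NS (s27cstAo G₀ O))
    (s17ttp_plT_on N hx G₀ hG₀ hg O hc q hq N₀ s₀ hs)
    (fun g => s17t9_dec x hx (s27cstAo G₀ O) hc.deg_Ao g)
  have e : ((2 : ℝ) ^ 2) = 4 := by norm_num
  rw [e] at h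
  exact h

end Stage

end Fermat.Agent.S17

end
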