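/-
S17 sprint, sub-integration **[PlT]**, **PlT-FINAL, L-level, `ℚ̄`-places only** (helper32): the
place form of (T) on the CLOSED stage in the LITERAL input shape of PlM-FINAL
(S17/PlMFinal.lean, helper11): the ONLY input is a finite tuple `Fam : ι → L` of the BIG field
which is base-point-free at the `ℚ̄`-places w.r.t. the lifted local equations

  `hF : S17pmkBpf Kb (s17pmtB (s27indB ψ β 1)) N₀ Fam`,
  `ψ = s27pfPsi (s27ftPkg hx G₀ hG₀) s27dcl_halg hq`, `β = s27beta (G₀ + Ao)`, `Ao = s27cstAo G₀ O`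

(the SAME `b_L`, the SAME `Fam`, the SAME hypothesis as `s17pmf_plM`), and the conclusions are

* **`s17ptk_plT_on`** : `S17t9PlTOn cl H 2 (S17t9NS Ao)`   ((T), `a = 2`, non-special `g`);
* **`s17ptk_plT`**    : `S17hyPlT cl H 4`                  ((T), `a = 4`, ALL `g`);
* **`s17ptk_plMT`**   : `S17hyPlM cl H 3 6 ∧ S17hyPlT cl H 4` from the ONE hypothesis `hF`
                        (+ `Fam ≠ 0`, which follows from `hF`: `s17ptk_ne_zero`);

for `cl = s17sxCl N hld hgen hx G₀ hG₀` and `H = s17sxHt Fam` (S17/StageTop.lean).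

Inputs: `s17ttp_eq_exists` (helper18, S17/TranslTop.lean: local equations `y W` of `Θ_{Ao}` at
`η` with `b_L W = u · y W`), `s17twk_plT_on`/`s17twk_plT4` (S17/TranslWrapK.lean, the `ℚ̄`-place
wrap), `s17pmf_plM_three` (S17/PlMFinal.lean).
-/
import Fermat.Agent.S17.TranslTop
import Fermat.Agent.S17.TranslWrapK
import Fermat.Agent.S17.PlMFinal

set_option autoImplicit false
set_option linter.unusedVariables false
set_option linter.unusedSectionVars false
set_option linter.style.haveILetI false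
set_option linter.style.longLine false

noncomputable section

namespace Fermat.Agent.S17

open ModularCurve AlgebraicCurve Module TensorProduct IntermediateField
open Fermat.Agent.S24 Fermat.Agent.S26 Fermat.Agent.S27 Fermat.Agent.DEU

/-! ### formal: change of the local equation by units, at the `ℚ̄`-places -/

section Formal

variable {𝔏 : Type*} [Field 𝔏] [Algebra Kb 𝔏]

/-- base-point-freeness at the `ℚ̄`-places does not depend on the choice of the local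
equations. -/
theorem s17ptk_bpf_congr {ι : Type*} {y y' : ValuationSubring 𝔏 → 𝔏} {M : ℕ} {X : ι → 𝔏}
    (hX : S17pmkBpf Kb y' M X)
    (hyy : ∀ W : ValuationSubring 𝔏, S27IsKValU Kb W → ∃ u, S27IsUnitIn W u ∧ y' W = u * y W) :
    S17thkBpf y M X := by
  intro P
  obtain ⟨hmem, i₀, hi₀⟩ := hX P
  obtain ⟨u, hu, hyu⟩ := hyy P.W P.hKW
  have hui : S27IsUnitIn P.W u⁻¹ := ⟨inv_ne_zero hu.1, hu.2.2, by rw [inv_inv]; exact hu.2.1⟩
  have key : ∀ i, X i * y P.W ^ M = (X i * y' P.W ^ M) * (u⁻¹) ^ M := by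
    intro i
    rw [hyu, mul_pow, mul_assoc, mul_comm (u ^ M * y P.W ^ M), ← mul_assoc ((u⁻¹) ^ M),
      ← mul_pow, inv_mul_cancel₀ hu.1, one_pow, one_mul]
  refine ⟨fun i => ?_, i₀, ?_⟩
  · rw [key i]
    exact P.W.mul_mem _ _ (hmem i) (pow_mem hui.2.1 M)
  · rw [key i₀]
    exact s17tr_unit_mul hi₀ (s17tr_unit_pow hui M)

end Formal

/-! ### the closed stage -/

section Stage

variable (N : ℕ) [NeZero N] [IsCurveOver Kb (FF N)] [Algebra.EssFiniteType Kb (FF N)]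
variable {x : FF N} (hx : Transcendental Kb x)
  [FiniteDimensional ↥(IntermediateField.adjoin Kb {x}) (FF N)]
  [Algebra.IsSeparable ↥(IntermediateField.adjoin Kb {x}) (FF N)]
  (G₀ : Divisor Kb (FF N)) (hG₀ : Divisor.degree G₀ = (genusFF Kb (FF N) : ℤ))

/-- **[PlT] on the closed stage, non-special translations, `a = 2`**, PlM-FINAL's input shape
(`L`-level tuple, `ℚ̄`-places only). -/
theorem s17ptk_plT_on (hg : 0 < genusFF Kb (FF N)) (O : Place Kb (FF N))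
    (hc : S27cstIsConst x G₀ O)
    (q : ℤ → Fin (genusFF Kb (FF N)) → FF N →ₐ[Kb] s27mtL Kb (FF N))
    (hq : S27pfFam (s27ftPkg hx G₀ hG₀) q)
    {ι : Type} [Fintype ι] (N₀ : ℕ) (Fam : ι → s27mtL Kb (FF N))
    (hF : S17pmkBpf Kb
      (s17pmtB (L := s27mtL Kb (FF N))
        (s27indB (s27pfPsi (s27ftPkg hx G₀ hG₀) (s27dcl_halg (x := x)) hq)
          (s27beta (g := genusFF Kb (FF N)) (G₀ + s27cstAo G₀ O)) 1)) N₀ Fam) :
    S17t9PlTOn (s17sxCl N (L := s27mtL Kb (FF N)) (FL := s27mtFL Kb (FF N))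
        (s27stg_hld Kb (FF N) (s27mtL Kb (FF N))) (s27stg_hgen Kb (FF N) (s27mtL Kb (FF N)))
        hx G₀ hG₀) (s17sxHt Fam) 2 (S17t9NS (s27cstAo G₀ O)) := by
  obtain ⟨f₀⟩ := s17ttp_exists_basis hg hc
  obtain ⟨y, hy, hyu⟩ := s17ttp_eq_exists N hx G₀ hG₀ hg O hc q hq
  have hX : S17thkBpf y N₀ Fam := s17ptk_bpf_congr hF hyu
  exact s17twk_plT_on N (FL := s27mtFL Kb (FF N)) (s27stg_hld Kb (FF N) (s27mtL Kb (FF N)))
    (s27stg_hgen Kb (FF N) (s27mtL Kb (FF N))) hx G₀ hG₀ hg (s27cstAo G₀ O) hc.bot hc.deg_Ao O f₀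
    y hy Fam N₀ hX _ (fun _ => rfl) _ (fun P α hα => s17sxHt_eq _ P α hα)

/-- **[PlT] on the closed stage, ALL translations, `a = 4`**, PlM-FINAL's input shape
(`L`-level tuple, `ℚ̄`-places only): the conjunct (T) of `S17sxStmtAt N 3 4 6`. -/
theorem s17ptk_plT (hg : 0 < genusFF Kb (FF N)) (O : Place Kb (FF N))
    (hc : S27cstIsConst x G₀ O)
    (q : ℤ → Fin (genusFF Kb (FF N)) → FF N →ₐ[Kb] s27mtL Kb (FF N))
    (hq : S27pfFam (s27ftPkg hx G₀ hG₀) q)
    {ι : Type} [Fintype ι] (N₀ : ℕ) (Fam : ι → s27mtL Kb (FF N))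
    (hF : S17pmkBpf Kb
      (s17pmtB (L := s27mtL Kb (FF N))
        (s27indB (s27pfPsi (s27ftPkg hx G₀ hG₀) (s27dcl_halg (x := x)) hq)
          (s27beta (g := genusFF Kb (FF N)) (G₀ + s27cstAo G₀ O)) 1)) N₀ Fam) :
    S17hyPlT (s17sxCl N (L := s27mtL Kb (FF N)) (FL := s27mtFL Kb (FF N))
        (s27stg_hld Kb (FF N) (s27mtL Kb (FF N))) (s27stg_hgen Kb (FF N) (s27mtL Kb (FF N)))
        hx G₀ hG₀) (s17sxHt Fam) 4 := by
  have h := s17t9_plT_comp (a := 2) (by norm_num) (S17t9NS (s27cstAo G₀ O))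
    (s17ptk_plT_on N hx G₀ hG₀ hg O hc q hq N₀ Fam hF)
    (fun g => s17t9_dec x hx (s27cstAo G₀ O) hc.deg_Ao g)
  have e : ((2 : ℝ) ^ 2) = 4 := by norm_num
  rw [e] at h
  exact h

/-- a tuple which is base-point-free at the `ℚ̄`-places of the closed stage is not `0`. -/
theorem s17ptk_ne_zero
    {ι : Type} (b : ValuationSubring (s27mtL Kb (FF N)) → s27mtL Kb (FF N)) (N₀ : ℕ)
    (Fam : ι → s27mtL Kb (FF N))
    (P₀ : S17plPlace Kb (s27mtL Kb (FF N)))
    (hF : S17pmkBpf Kb b N₀ Fam) : Fam ≠ 0 := by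
  intro h0
  obtain ⟨-, i, hi⟩ := hF P₀
  apply hi.1
  rw [h0]
  simp

/-- **PlM (3, 6) and PlT (4) together** from the ONE base-point-free tuple: the conjuncts (M)
and (T) of `S17sxStmtAt N 3 4 6`. -/
theorem s17ptk_plMT (hg : 0 < genusFF Kb (FF N)) (O : Place Kb (FF N))
    (hc : S27cstIsConst x G₀ O)
    (q : ℤ → Fin (genusFF Kb (FF N)) → FF N →ₐ[Kb] s27mtL Kb (FF N))
    (hq : S27pfFam (s27ftPkg hx G₀ hG₀) q)
    {ι : Type} [Fintype ι] (N₀ : ℕ) (Fam : ι → s27mtL Kb (FF N))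
    (hF : S17pmkBpf Kb
      (s17pmtB (L := s27mtL Kb (FF N))
        (s27indB (s27pfPsi (s27ftPkg hx G₀ hG₀) (s27dcl_halg (x := x)) hq)
          (s27beta (g := genusFF Kb (FF N)) (G₀ + s27cstAo G₀ O)) 1)) N₀ Fam)
    (hF0 : Fam ≠ 0) :
    S17hyPlM (s17sxCl N (L := s27mtL Kb (FF N)) (FL := s27mtFL Kb (FF N))
        (s27stg_hld Kb (FF N) (s27mtL Kb (FF N))) (s27stg_hgen Kb (FF N) (s27mtL Kb (FF N)))
        hx G₀ hG₀) (s17sxHt Fam) 3 6 ∧
    S17hyPlT (s17sxCl N (L := s27mtL Kb (FF N)) (FL := s27mtFL Kb (FF N))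
        (s27stg_hld Kb (FF N) (s27mtL Kb (FF N))) (s27stg_hgen Kb (FF N) (s27mtL Kb (FF N)))
        hx G₀ hG₀) (s17sxHt Fam) 4 :=
  ⟨s17pmf_plM_three N hx G₀ hG₀ hg O hc q hq N₀ Fam hF hF0,
    s17ptk_plT N hx G₀ hG₀ hg O hc q hq N₀ Fam hF⟩

end Stage

end Fermat.Agent.S17

end
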