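/-
S17 sprint, leaf W6-RIG (helper12; for helper90's route to (div) = W6): the ADAPTED finite-orbit
rigidity of `S27/RigMain.lean`.

Setting (that of `s27rig_main`): `K ⊆ 𝔠`, `K ⊆ 𝔎`, `Ω = Frac (𝔠 ⊗[K] 𝔎)` (`hld`, `hgen`,
`hall`), `K` and `𝔎` algebraically closed, `𝔠 ≠ K`, an action datum `A : S27raAct K 𝔠 𝔎 Ω`,
principal divisors and a weak Riemann bound `hR` on `Ω / 𝔎`, residue fields `𝔎` (`hresΩ`),
a place `Q₀` of `𝔠 / K`, and `Pic0(Ω)[n]` finite.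

* `s17dr_con_fix`      : the action fixes every conorm `Con D₀`;
* `s17dr_orbit_finite` : if `n D = Con D₀ + div G`, the orbit of the reduced divisor of `D`
                         is finite;
* `s17dr_support_con`  : its support consists of constant places;
* `s17dr_div_main`     : divisor form: `n D ~ Con D₀` ⇒ `mk D = mk (Con D₁)`;
* `s17dr_main`         : **RIGIDITY**: `n • y = mk (Con D₀)` ⇒ `∃ D₁, y = mk (Con D₁)`;
* `s17dr_main_beta`    : `n • y = β x` ⇒ `∃ x₁, y = β x₁ ∧ n • x₁ = x`;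
* `s17dr_div`          : **divisibility descends**: `β x ∈ n · Pic0(Ω)` ⇒ `x ∈ n · Pic0(𝔠)`.
-/
import Fermat.Agent.S27.RigMain

set_option autoImplicit false
set_option linter.style.haveILetI false
set_option linter.unusedSectionVars false
set_option linter.unusedVariables false

noncomputable section

namespace Fermat.Agent.S17

open AlgebraicCurve IsLocalRing Fermat.Agent.S26 Fermat.Agent.S27
open scoped Pointwise

variable {K 𝔠 𝔎 Ω : Type*} [Field K] [Field 𝔠] [Field 𝔎] [Field Ω]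
  [Algebra K 𝔠] [Algebra K 𝔎] [Algebra K Ω] [Algebra 𝔠 Ω] [Algebra 𝔎 Ω]
  [IsScalarTower K 𝔠 Ω] [IsScalarTower K 𝔎 Ω]

variable (A : S27raAct K 𝔠 𝔎 Ω)
  (hld : Function.Injective (s26gspMu K 𝔠 𝔎 Ω)) (hgen : S26gspGen K 𝔠 𝔎 Ω)
  (hall : ∀ P : Place K 𝔠, Function.Surjective (algebraMap K P.ResidueField))

/-- the action fixes every conorm. -/
theorem s17dr_con_fix (h : 𝔎 ≃ₐ[K] 𝔎) (D₀ : Divisor K 𝔠) :
    s27raDiv A h (Finsupp.mapDomain (s26gspCon hld hgen hall) D₀)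
      = Finsupp.mapDomain (s26gspCon hld hgen hall) D₀ := by
  induction D₀ using Finsupp.induction_linear with
  | zero => simp [s27raDiv_zero]
  | add x y hx hy => rw [Finsupp.mapDomain_add, s27raDiv_add, hx, hy]
  | single Q n => rw [Finsupp.mapDomain_single, s27rig_single_fix]

section main

variable [IsAlgClosed K] [IsAlgClosed 𝔎] [HasPrincipalDivisors 𝔎 Ω]
  (hresΩ : ∀ w : Place 𝔎 Ω, Function.Surjective (algebraMap 𝔎 w.ResidueField))

variable (Q₀ : Place K 𝔠)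

include hresΩ in
/-- **the orbit of the reduced divisor of an `n`-th root of a constant class is finite.** -/
theorem s17dr_orbit_finite (n : ℕ) [Finite (Pic0.torsion 𝔎 Ω n)]
    {D : Divisor 𝔎 Ω} (hD0 : Divisor.degree D = 0) (D₀ : Divisor K 𝔠)
    (hDn : ∃ G : Ω, G ≠ 0 ∧ ∀ w : Place 𝔎 Ω,
      (n : ℤ) * D w = Finsupp.mapDomain (s26gspCon hld hgen hall) D₀ w + w.ord G)
    {E : Divisor 𝔎 Ω} {k : ℤ} {f : Ω} (hf : f ≠ 0)
    (hE : S27Reduced (s26gspCon hld hgen hall Q₀) E)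
    (hrel : ∀ v : Place 𝔎 Ω, D v + v.ord f
      = E v + k * (Finsupp.single (s26gspCon hld hgen hall Q₀) (1 : ℤ) : Divisor 𝔎 Ω) v) :
    (Set.range fun h : 𝔎 ≃ₐ[K] 𝔎 => s27raDiv A h E).Finite := by
  classical
  have hdeg := s27rig_deg_one hresΩ
  -- the transported data
  have hfh : ∀ h : 𝔎 ≃ₐ[K] 𝔎, A.act h f ≠ 0 := fun h => by simpa using hf
  have hDh : ∀ h : 𝔎 ≃ₐ[K] 𝔎, Divisor.degree (s27raDiv A h D) = 0 := fun h => by
    rw [s27raDiv_degree A hdeg, hD0]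
  have hEh : ∀ h : 𝔎 ≃ₐ[K] 𝔎, Divisor.degree
      (s27raDiv A h E + Finsupp.single (s26gspCon hld hgen hall Q₀) k) = 0 := fun h => by
    rw [s27rig_degree_eq hresΩ (hfh h) (s27rig_rel A hld hgen hall h Q₀ hrel), hDh h]
  have hE1 : Divisor.degree (E + Finsupp.single (s26gspCon hld hgen hall Q₀) k) = 0 := by
    rw [s27rig_degree_eq hresΩ hf hrel, hD0]
  -- the differences of the classes are torsion
  have hmem : ∀ h : 𝔎 ≃ₐ[K] 𝔎,
      (Pic0.mk ⟨s27raDiv A h E + Finsupp.single (s26gspCon hld hgen hall Q₀) k, hEh h⟩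
        - Pic0.mk ⟨E + Finsupp.single (s26gspCon hld hgen hall Q₀) k, hE1⟩ : Pic0 𝔎 Ω)
        ∈ Pic0.torsion 𝔎 Ω n := fun h => by
    rw [← s27rig_class_eq hresΩ (hfh h) (s27rig_rel A hld hgen hall h Q₀ hrel) (hDh h) (hEh h),
      ← s27rig_class_eq hresΩ hf hrel hD0 hE1]
    have h1 : (Pic0.mk ⟨s27raDiv A h D, hDh h⟩ - Pic0.mk ⟨D, hD0⟩ : Pic0 𝔎 Ω)
        = Pic0.mk (⟨s27raDiv A h D, hDh h⟩ - ⟨D, hD0⟩) := rfl
    rw [h1, s27rig_mem_torsion_iff]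
    obtain ⟨G, hG, hGD⟩ := hDn
    have hGh : A.act h G ≠ 0 := by simpa using hG
    refine ⟨A.act h G * G⁻¹, mul_ne_zero hGh (inv_ne_zero hG), fun w => ?_⟩
    rw [Place.ord_mul w hGh (inv_ne_zero hG), Place.ord_inv]
    have e1 : (n : ℤ) * s27raDiv A h D w
        = Finsupp.mapDomain (s26gspCon hld hgen hall) D₀ w + w.ord (A.act h G) := by
      rw [s27raDiv_apply', hGD, ← s27raPl_ord A h (s27raPl A h⁻¹ w) G, s27raPl_apply_inv]
      congr 1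
      have := s27raDiv_apply' A h (Finsupp.mapDomain (s26gspCon hld hgen hall) D₀) w
      rw [s17dr_con_fix] at this
      exact this.symm
    have e2 := hGD w
    show (n : ℤ) * ((s27raDiv A h D - D : Divisor 𝔎 Ω) w) = _
    rw [Finsupp.sub_apply, mul_sub, e1, e2]
    ring
  set c : (𝔎 ≃ₐ[K] 𝔎) → Pic0.torsion 𝔎 Ω n := fun h => ⟨_, hmem h⟩ with hc
  set g : (𝔎 ≃ₐ[K] 𝔎) → Divisor 𝔎 Ω := fun h => s27raDiv A h E with hg
  have hfac : g.FactorsThrough c := by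
    intro h₁ h₂ h12
    have h0 : (Pic0.mk ⟨s27raDiv A h₁ E + Finsupp.single (s26gspCon hld hgen hall Q₀) k,
        hEh h₁⟩ - Pic0.mk ⟨E + Finsupp.single (s26gspCon hld hgen hall Q₀) k, hE1⟩ : Pic0 𝔎 Ω)
        = Pic0.mk ⟨s27raDiv A h₂ E + Finsupp.single (s26gspCon hld hgen hall Q₀) k, hEh h₂⟩
          - Pic0.mk ⟨E + Finsupp.single (s26gspCon hld hgen hall Q₀) k, hE1⟩ :=
      congrArg Subtype.val h12
    have h1 : (Pic0.mk ⟨s27raDiv A h₁ E + Finsupp.single (s26gspCon hld hgen hall Q₀) k,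
        hEh h₁⟩ : Pic0 𝔎 Ω)
        = Pic0.mk ⟨s27raDiv A h₂ E + Finsupp.single (s26gspCon hld hgen hall Q₀) k, hEh h₂⟩ :=
      sub_left_injective h0
    rw [s27rig_mk_eq_iff] at h1
    obtain ⟨u, hu, hrel'⟩ := h1
    refine s27rd_unique (hresΩ _) (s27rig_reduced A hld hgen hall h₁ Q₀ hE)
      (s27rig_reduced A hld hgen hall h₂ Q₀ hE) hu (k := 0) (fun v => ?_)
    have := hrel' v
    simp only [Finsupp.coe_add, Pi.add_apply] at this
    linarith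
  refine (Set.finite_range (Function.extend c g fun _ => 0)).subset ?_
  rintro _ ⟨h, rfl⟩
  exact ⟨c h, hfac.extend_apply _ h⟩

include hresΩ A in
/-- the support of the reduced divisor of an `n`-th root of a constant class consists of
constant places. -/
theorem s17dr_support_con (hne : ∃ u : 𝔠, u ∉ (algebraMap K 𝔠).range)
    (n : ℕ) [Finite (Pic0.torsion 𝔎 Ω n)]
    {D : Divisor 𝔎 Ω} (hD0 : Divisor.degree D = 0) (D₀ : Divisor K 𝔠)
    (hDn : ∃ G : Ω, G ≠ 0 ∧ ∀ w : Place 𝔎 Ω,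
      (n : ℤ) * D w = Finsupp.mapDomain (s26gspCon hld hgen hall) D₀ w + w.ord G)
    {E : Divisor 𝔎 Ω} {k : ℤ} {f : Ω} (hf : f ≠ 0)
    (hE : S27Reduced (s26gspCon hld hgen hall Q₀) E)
    (hrel : ∀ v : Place 𝔎 Ω, D v + v.ord f
      = E v + k * (Finsupp.single (s26gspCon hld hgen hall Q₀) (1 : ℤ) : Divisor 𝔎 Ω) v)
    (w : Place 𝔎 Ω) (hw : w ∈ E.support) : ∃ Q, w = s26gspCon hld hgen hall Q := by
  classical
  have horb := s17dr_orbit_finite A hld hgen hall hresΩ Q₀ n hD0 D₀ hDn hf hE hrel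
  refine s27orb_exists_con_of_finite_orbit A hld hgen hall hne w (hresΩ w) ?_
  refine (horb.biUnion (fun E' _ => E'.support.finite_toSet)).subset ?_
  rintro _ ⟨h, rfl⟩
  rw [Set.mem_iUnion₂]
  refine ⟨s27raDiv A h E, ⟨h, rfl⟩, ?_⟩
  rw [Finset.mem_coe, Finsupp.mem_support_iff, s27raDiv_apply]
  exact Finsupp.mem_support_iff.1 hw

include hresΩ A Q₀ in
/-- **RIGIDITY, divisor form.**  If `n D = Con D₀ + div G` with `deg D = 0`, then the class of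
`D` is the class of a conorm. -/
theorem s17dr_div_main (c₀ : ℤ)
    (hR : ∀ D : Divisor 𝔎 Ω, 0 ≤ Divisor.degree D - c₀ →
      ∃ f : Ω, f ≠ 0 ∧ f ∈ riemannRochSpace D)
    (hne : ∃ u : 𝔠, u ∉ (algebraMap K 𝔠).range)
    (n : ℕ) [Finite (Pic0.torsion 𝔎 Ω n)]
    (D : Divisor.degZero (K := 𝔎) (F := Ω)) (D₀ : Divisor K 𝔠)
    (hDn : ∃ G : Ω, G ≠ 0 ∧ ∀ w : Place 𝔎 Ω,
      (n : ℤ) * (D : Divisor 𝔎 Ω) w
        = Finsupp.mapDomain (s26gspCon hld hgen hall) D₀ w + w.ord G) :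
    ∃ D₁ : Divisor.degZero (K := K) (F := 𝔠),
      (Pic0.mk D : Pic0 𝔎 Ω) = Pic0.mk (s27bcConZero hld hgen hall D₁) := by
  classical
  obtain ⟨D, hD0⟩ := D
  have hD0' : Divisor.degree D = 0 := hD0
  obtain ⟨E, k, f, hf, hE, hrel⟩ :=
    s27rd_exists (s26gspCon hld hgen hall Q₀) (hresΩ _) c₀ hR D
  obtain ⟨E₀, hE₀, -⟩ := s27orb_exists_con_div_of_support hld hgen hall E
    (fun w hw => s17dr_support_con A hld hgen hall hresΩ Q₀ hne n hD0' D₀ hDn hf hE hrel w hw)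
  have hcon : Finsupp.mapDomain (s26gspCon hld hgen hall) (E₀ + Finsupp.single Q₀ k)
      = E + Finsupp.single (s26gspCon hld hgen hall Q₀) k := by
    rw [Finsupp.mapDomain_add, hE₀, Finsupp.mapDomain_single]
  have hdegE : Divisor.degree (E + Finsupp.single (s26gspCon hld hgen hall Q₀) k) = 0 := by
    rw [s27rig_degree_eq hresΩ hf hrel, hD0']
  have hdeg₀ : Divisor.degree (E₀ + Finsupp.single Q₀ k) = 0 := by
    rw [← s26gspc_degree hld hgen hall, hcon, hdegE]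
  refine ⟨⟨E₀ + Finsupp.single Q₀ k, hdeg₀⟩, ?_⟩
  rw [s27rig_mk_eq_iff]
  refine ⟨f, hf, fun w => ?_⟩
  show D w + w.ord f
    = Finsupp.mapDomain (s26gspCon hld hgen hall) (E₀ + Finsupp.single Q₀ k) w
  rw [hcon, Finsupp.add_apply, s27rd_single_apply _ w k]
  exact hrel w

include hresΩ A Q₀ in
/-- **RIGIDITY (W6-RIG).**  An `n`-th root, in `Pic0 (Ω / 𝔎)`, of the class of a conorm is the
class of a conorm. -/
theorem s17dr_main (c₀ : ℤ)
    (hR : ∀ D : Divisor 𝔎 Ω, 0 ≤ Divisor.degree D - c₀ →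
      ∃ f : Ω, f ≠ 0 ∧ f ∈ riemannRochSpace D)
    (hne : ∃ u : 𝔠, u ∉ (algebraMap K 𝔠).range)
    (n : ℕ) [Finite (Pic0.torsion 𝔎 Ω n)]
    (y : Pic0 𝔎 Ω) (D₀ : Divisor.degZero (K := K) (F := 𝔠))
    (hy : (n : ℤ) • y = Pic0.mk (s27bcConZero hld hgen hall D₀)) :
    ∃ D₁ : Divisor.degZero (K := K) (F := 𝔠),
      y = Pic0.mk (s27bcConZero hld hgen hall D₁) := by
  classical
  obtain ⟨D, rfl⟩ := Pic0.mk_surjective y
  have h1 : (n : ℤ) • (Pic0.mk D : Pic0 𝔎 Ω) = Pic0.mk ((n : ℤ) • D) := rfl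
  rw [h1, s27rig_mk_eq_iff] at hy
  obtain ⟨g, hg, hgw⟩ := hy
  refine s17dr_div_main A hld hgen hall hresΩ Q₀ c₀ hR hne n D (D₀ : Divisor K 𝔠)
    ⟨g⁻¹, inv_ne_zero hg, fun w => ?_⟩
  have := hgw w
  rw [s27bcConZero_coe] at this
  rw [Place.ord_inv, ← this]
  simp

include hresΩ A Q₀ in
/-- the same for `β`: `n • y = β x` ⇒ `y = β x₁` and `n • x₁ = x`. -/
theorem s17dr_main_beta [HasPrincipalDivisors K 𝔠]
    (hΓ : ∃ t : 𝔠, Transcendental K t ∧ Module.Finite (IntermediateField.adjoin K {t}) 𝔠 ∧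
      Algebra.IsSeparable (IntermediateField.adjoin K {t}) 𝔠)
    (c₀ : ℤ)
    (hR : ∀ D : Divisor 𝔎 Ω, 0 ≤ Divisor.degree D - c₀ →
      ∃ f : Ω, f ≠ 0 ∧ f ∈ riemannRochSpace D)
    (n : ℕ) [Finite (Pic0.torsion 𝔎 Ω n)]
    (y : Pic0 𝔎 Ω) (x : Pic0 K 𝔠)
    (hy : (n : ℤ) • y = s27bcBeta hld hgen hall x) :
    ∃ x₁ : Pic0 K 𝔠, y = s27bcBeta hld hgen hall x₁ ∧ (n : ℤ) • x₁ = x := by
  obtain ⟨t, ht, -, -⟩ := id hΓ
  obtain ⟨D₀, rfl⟩ := Pic0.mk_surjective x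
  rw [s27bcBeta_mk] at hy
  obtain ⟨D₁, hD₁⟩ := s17dr_main A hld hgen hall hresΩ Q₀ c₀ hR
    (s27orb_hne_of_transcendental ht) n y D₀ hy
  refine ⟨Pic0.mk D₁, by rw [s27bcBeta_mk, hD₁], ?_⟩
  apply s27bcBeta_injective hld hgen hall hΓ
  rw [map_zsmul, s27bcBeta_mk, ← hD₁, hy, s27bcBeta_mk]

include hresΩ A Q₀ in
/-- **divisibility descends** along the constant extension: if `β x` is divisible by `n` in
`Pic0 (Ω / 𝔎)`, then `x` is divisible by `n` in `Pic0 (𝔠 / K)`. -/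
theorem s17dr_div [HasPrincipalDivisors K 𝔠]
    (hΓ : ∃ t : 𝔠, Transcendental K t ∧ Module.Finite (IntermediateField.adjoin K {t}) 𝔠 ∧
      Algebra.IsSeparable (IntermediateField.adjoin K {t}) 𝔠)
    (c₀ : ℤ)
    (hR : ∀ D : Divisor 𝔎 Ω, 0 ≤ Divisor.degree D - c₀ →
      ∃ f : Ω, f ≠ 0 ∧ f ∈ riemannRochSpace D)
    (n : ℕ) [Finite (Pic0.torsion 𝔎 Ω n)]
    (x : Pic0 K 𝔠) (hx : ∃ y : Pic0 𝔎 Ω, n • y = s27bcBeta hld hgen hall x) :
    ∃ x₁ : Pic0 K 𝔠, n • x₁ = x := by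
  obtain ⟨y, hy⟩ := hx
  have hy' : (n : ℤ) • y = s27bcBeta hld hgen hall x := by
    rw [natCast_zsmul]
    exact hy
  obtain ⟨x₁, -, hx₁⟩ := s17dr_main_beta A hld hgen hall hresΩ Q₀ hΓ c₀ hR n y x hy'
  refine ⟨x₁, ?_⟩
  rw [← natCast_zsmul]
  exact hx₁

end main

end Fermat.Agent.S17
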