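/-
S17 sprint, leaf W6 (div), ASSEMBLY (helper90): **`Pic0 (F / K)` is divisible** for a curve `F / K`
over an algebraically closed field `K` of characteristic `0`.

Route (no specialization): on the model of S27-B (`L` an algebraic closure of `Ω_g`,
`FL = Frac (F ⊗[K] L)`, `η` the class of the tautological points):
* (AUT) for a generic tuple `e` there is `ê ∈ Aut(L / K)` with `ê ∘ taut i = e (π i)`;
* `η = n • η₁` (`η₁ = ê₀⁻¹ η`, `ê₀` for the generic tuple of class `n • η`, DOM);
* (AFFINE, `k = 1`) `η + β c` is the class of a generic tuple, hence `= ê₂ η`;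
  so `β c = ê₂ η − η = n • (ê₂ η₁ − η₁)`;
* (RIG, helper12's `s17dr_div`) divisibility descends along `β`.
-/
import Fermat.Agent.S27.DomModel
import Fermat.Agent.S27.ModelTop
import Fermat.Agent.S27.Consts
import Fermat.Agent.S17.DivRig

set_option autoImplicit false
set_option linter.unusedVariables false
set_option linter.unusedSectionVars false
set_option linter.style.haveILetI false

noncomputable section

namespace Fermat.Agent.S17

open AlgebraicCurve Module TensorProduct IntermediateField Fermat.Agent.S26 Fermat.Agent.S27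

universe u v y

section Model

variable {K : Type u} {F : Type v} [Field K] [IsAlgClosed K] [CharZero K] [Field F] [Algebra K F]
  [IsCurveOver K F] [Algebra.EssFiniteType K F]
  {L : Type (max u v)} [Field L] [Algebra K L]
  [Algebra (s27gfOm K F (genusFF K F)) L] [IsScalarTower K (s27gfOm K F (genusFF K F)) L]
  [IsAlgClosed L] [Algebra.IsAlgebraic (s27gfOm K F (genusFF K F)) L]
  {FL : Type y} [Field FL] [Algebra K FL] [Algebra F FL] [Algebra L FL]
  [IsScalarTower K F FL] [IsScalarTower K L FL]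
  (hld : Function.Injective (s26gspMu K F L FL)) (hgen : S26gspGen K F L FL)
  {x : F} (hx : Transcendental K x)
  [FiniteDimensional ↥(IntermediateField.adjoin K {x}) F]
  [Algebra.IsSeparable ↥(IntermediateField.adjoin K {x}) F]

include hx in
/-- **(AUT)**: a generic tuple is the image of the tautological tuple under an automorphism of
`L / K`, up to a permutation. -/
theorem s17dv_aut (e : Fin (genusFF K F) → F →ₐ[K] L) (he : S27dgGeneric K x e) :
    ∃ (ê : L ≃ₐ[K] L) (π : Equiv.Perm (Fin (genusFF K F))),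
      ∀ i, (ê : L →ₐ[K] L).comp (s27pfTaut (K := K) (F := F) (g := genusFF K F) (L := L) i)
        = e (π i) := by
  have hinj : Function.Injective (s27gfLiftR e) :=
    s27dgx_liftR_injective' e x (s27dcl_halg (x := x)) he
  obtain ⟨ê, hê⟩ := s27dgx_X1 (s27dclFld (L := L) hx) (s27dcl_halg (x := x)) (s27psiEv e hinj)
  obtain ⟨π, hπ⟩ := s27pf_perm_of_ext e hinj ê (fun s => hê s)
  exact ⟨ê, π, hπ⟩

include hx in
/-- the class of a generic tuple is `ê η`, and `ê⁻¹` brings it back. -/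
theorem s17dv_cl_aut (G₀ : Divisor K F) (hG₀ : Divisor.degree G₀ = (genusFF K F : ℤ))
    (e : Fin (genusFF K F) → F →ₐ[K] L) (he : S27dgGeneric K x e) :
    ∃ ê : L ≃ₐ[K] L,
      (s27dclPkg hld hgen hx G₀ hG₀).actC ê
          (s27pfCl (s27dclPkg hld hgen hx G₀ hG₀)
            (s27pfTaut (K := K) (F := F) (g := genusFF K F) (L := L)))
        = s27pfCl (s27dclPkg hld hgen hx G₀ hG₀) e ∧
      (s27dclPkg hld hgen hx G₀ hG₀).actC ê.symm (s27pfCl (s27dclPkg hld hgen hx G₀ hG₀) e)
        = s27pfCl (s27dclPkg hld hgen hx G₀ hG₀)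
            (s27pfTaut (K := K) (F := F) (g := genusFF K F) (L := L)) := by
  obtain ⟨ê, π, hπ⟩ := s17dv_aut hx e he
  have h1 : (fun i => (ê : L →ₐ[K] L).comp
      (s27pfTaut (K := K) (F := F) (g := genusFF K F) (L := L) i)) = fun i => e (π i) :=
    funext hπ
  have h2 : s27pfCl (s27dclPkg hld hgen hx G₀ hG₀) e
      = s27pfCl (s27dclPkg hld hgen hx G₀ hG₀) (fun i => (ê : L →ₐ[K] L).comp
        (s27pfTaut (K := K) (F := F) (g := genusFF K F) (L := L) i)) := by
    rw [h1, s27pf_cl_perm]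
  refine ⟨ê, ?_, ?_⟩
  · rw [h2, s27pf_cl_comp]
  · rw [h2, ← s27pf_cl_comp]
    congr 1
    funext i
    apply AlgHom.ext
    intro f
    simp

include hx in
/-- **(AFFINE, `k = 1`)**: the translate of the class of a generic tuple by a constant class is
the class of a generic tuple. -/
theorem s17dv_affine (G₀ : Divisor K F) (hG₀ : Divisor.degree G₀ = (genusFF K F : ℤ))
    (e : Fin (genusFF K F) → F →ₐ[K] L) (he : S27dgGeneric K x e) (c : Pic0 K F) :
    ∃ q : Fin (genusFF K F) → F →ₐ[K] L, S27dgGeneric K x q ∧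
      s27pfCl (s27dclPkg hld hgen hx G₀ hG₀) q =
        s27pfCl (s27dclPkg hld hgen hx G₀ hG₀) e + s27bcBeta hld hgen (s26gspf_hall hx) c := by
  classical
  obtain ⟨D, rfl⟩ := Pic0.mk_surjective c
  have heinj : Function.Injective e := by
    intro i j hij
    exact he.injective (show e i x = e j x by rw [hij])
  have hPinj : Function.Injective (fun i => s27gpPlace hld hgen (e i) hx) := fun i j hij =>
    heinj (s27pt_gpPlace_injective hld hgen hx hij)
  obtain ⟨R', hR'⟩ := (s27dclPkg hld hgen hx G₀ hG₀).rr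
    (s27pfCl (s27dclPkg hld hgen hx G₀ hG₀) e
      + s27bcBeta hld hgen (s26gspf_hall hx) (Pic0.mk D))
  have hR'' : (Pic0.mk (s27pkgDivZeroO (s27pkg_hdeg hld hgen hx)
        (Finsupp.mapDomain (s26gspCon hld hgen (s26gspf_hall hx)) G₀)
        (s27pkgO_degree hld hgen hx G₀ hG₀) R') : Pic0 L FL)
      = Pic0.mk (s27pkgDivZeroO (s27pkg_hdeg hld hgen hx)
        (Finsupp.mapDomain (s26gspCon hld hgen (s26gspf_hall hx)) G₀)
        (s27pkgO_degree hld hgen hx G₀ hG₀) (fun i => s27gpPlace hld hgen (e i) hx)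
          + s27bcConZero hld hgen (s26gspf_hall hx) D) := hR'
  obtain ⟨f, hf, hfv⟩ := (s27pkg_mk_eq_iff _ _).1 hR''
  have hprin : Divisor.IsPrincipal
      ((1 : ℤ) • ∑ i, Finsupp.single (s27gpPlace hld hgen (e i) hx) (1 : ℤ)
        - ∑ j, Finsupp.single (R' j) (1 : ℤ)
        + Finsupp.mapDomain (s26gspCon hld hgen (s26gspf_hall hx)) (D : Divisor K F)) := by
    refine ⟨f⁻¹, inv_ne_zero hf, fun v => ?_⟩
    have h1 := hfv v
    have h2 : ((s27pkgDivZeroO (s27pkg_hdeg hld hgen hx)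
        (Finsupp.mapDomain (s26gspCon hld hgen (s26gspf_hall hx)) G₀)
        (s27pkgO_degree hld hgen hx G₀ hG₀) R' : Divisor.degZero (K := L) (F := FL)) :
        Divisor L FL) v = (∑ j, Finsupp.single (R' j) (1 : ℤ)) v
          - (Finsupp.mapDomain (s26gspCon hld hgen (s26gspf_hall hx)) G₀) v := by
      rw [s27pkgDivZeroO_coe, Finsupp.sub_apply]; rfl
    have h3 : ((s27pkgDivZeroO (s27pkg_hdeg hld hgen hx)
        (Finsupp.mapDomain (s26gspCon hld hgen (s26gspf_hall hx)) G₀)
        (s27pkgO_degree hld hgen hx G₀ hG₀) (fun i => s27gpPlace hld hgen (e i) hx)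
          + s27bcConZero hld hgen (s26gspf_hall hx) D : Divisor.degZero (K := L) (F := FL)) :
        Divisor L FL) v
        = (∑ i, Finsupp.single (s27gpPlace hld hgen (e i) hx) (1 : ℤ)) v
          - (Finsupp.mapDomain (s26gspCon hld hgen (s26gspf_hall hx)) G₀) v
          + (Finsupp.mapDomain (s26gspCon hld hgen (s26gspf_hall hx)) (D : Divisor K F)) v := by
      show ((s27pkgSum (fun i => s27gpPlace hld hgen (e i) hx)
          - Finsupp.mapDomain (s26gspCon hld hgen (s26gspf_hall hx)) G₀)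
          + Finsupp.mapDomain (s26gspCon hld hgen (s26gspf_hall hx)) (D : Divisor K F)) v = _
      rw [Finsupp.add_apply, Finsupp.sub_apply]; rfl
    rw [h2, h3] at h1
    rw [Place.ord_inv]
    simp only [Finsupp.coe_add, Finsupp.coe_sub, Finsupp.coe_smul, Pi.add_apply, Pi.sub_apply,
      Pi.smul_apply, smul_eq_mul]
    omega
  obtain ⟨q, hq, hRq⟩ := s27dom_appZ hld hgen (fun P => s26gspf_hall hx P) hx e he
    (s27dom_hns_of_rr (fun i => s27gpPlace hld hgen (e i) hx) hPinj
      (fun i => algebraMap F FL x - algebraMap L FL (e i x))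
      (fun i => s27gpPlace_ord_unif hld hgen (e i) hx) (s27dcl_hns hld hgen hx e he))
    (1 : ℤ) one_ne_zero R'
    (Finsupp.mapDomain (s26gspCon hld hgen (s26gspf_hall hx)) (D : Divisor K F))
    (fun q => s26gspc_mapDomain_apply_of_trivial hld hgen (s26gspf_hall hx) (D : Divisor K F) _
      (s27pt_gpPlace_trivial hld hgen hx q)) hprin
  refine ⟨q, hq, ?_⟩
  rw [← hR']
  show (s27dclPkg hld hgen hx G₀ hG₀).cl _ = _
  congr 1
  funext j
  exact (hRq j).symm

include hx in
/-- **divisibility over `L`**, from (AFFINE, `k = 1`): `β c ∈ n · Pic0 (FL / L)`. -/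
theorem s17dv_div_L (G₀ : Divisor K F) (hG₀ : Divisor.degree G₀ = (genusFF K F : ℤ))
    (n : ℕ) (hn : 0 < n) (c : Pic0 K F)
    (hAff : ∃ q : Fin (genusFF K F) → F →ₐ[K] L, S27dgGeneric K x q ∧
      s27pfCl (s27dclPkg hld hgen hx G₀ hG₀) q =
        s27pfCl (s27dclPkg hld hgen hx G₀ hG₀)
          (s27pfTaut (K := K) (F := F) (g := genusFF K F) (L := L))
        + s27bcBeta hld hgen (s26gspf_hall hx) c) :
    ∃ d : Pic0 L FL, n • d = s27bcBeta hld hgen (s26gspf_hall hx) c := by
  have hn0 : (n : ℤ) ≠ 0 := by exact_mod_cast hn.ne'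
  obtain ⟨qn, hqn, hcln⟩ := s27dom_modelZ (L := L) hld hgen hx G₀ hG₀ (n : ℤ) hn0
  obtain ⟨ê₀, -, h0⟩ := s17dv_cl_aut hld hgen hx G₀ hG₀ qn hqn
  obtain ⟨q, hq, hcl⟩ := hAff
  obtain ⟨ê₂, h2, -⟩ := s17dv_cl_aut hld hgen hx G₀ hG₀ q hq
  set pkg := s27dclPkg hld hgen hx G₀ hG₀ with hpkg
  set η : Pic0 L FL := s27pfCl pkg (s27pfTaut (K := K) (F := F) (g := genusFF K F) (L := L))
    with hη
  set η₁ : Pic0 L FL := pkg.actC ê₀.symm η with hη₁
  have hdiv : (n : ℤ) • η₁ = η := by
    rw [hη₁, ← map_zsmul, ← hcln]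
    exact h0
  refine ⟨pkg.actC ê₂ η₁ - η₁, ?_⟩
  rw [← natCast_zsmul, zsmul_sub, ← map_zsmul, hdiv, h2, hcl]
  abel

include hld hgen hx in
/-- **divisibility on the model**: every class of `F / K` is divisible by `n`. -/
theorem s17dv_model (G₀ : Divisor K F) (hG₀ : Divisor.degree G₀ = (genusFF K F : ℤ))
    [IsGalois (s27gfSym K F (genusFF K F)) L]
    (n : ℕ) (hn : 0 < n) (c : Pic0 K F) :
    ∃ d₀ : Pic0 K F, n • d₀ = c := by
  have hn0 : (n : ℤ) ≠ 0 := by exact_mod_cast hn.ne'
  obtain ⟨d, hd⟩ := s17dv_div_L hld hgen hx G₀ hG₀ n hn c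
    (s17dv_affine hld hgen hx G₀ hG₀ _ (s27dom_taut_generic hx) c)
  haveI : HasPrincipalDivisors L FL := s26gspf_hasPrincipalDivisors hld hgen hx
  obtain ⟨q, hq⟩ := s27dom_fam (L := L) hld hgen hx G₀ hG₀
  haveI : Finite (Pic0.torsion L FL n) :=
    (s27dom_fam_isDeg hld hgen hx G₀ hG₀ q hq n hn
      (s27pf_fam_pt _ (s27dcl_halg (x := x)) hq n hn0)).2
  obtain ⟨Q₀⟩ := s26err_nonempty_place x hx
  exact s17dr_div (s27dwAct hld hgen) hld hgen (s26gspf_hall hx)
    (fun w => s27pt_hres hld hgen hx w) Q₀ (s27gbc_hΓ hx) (genusFF K F : ℤ)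
    (s27ri_weak_riemann hld hgen hx) n c ⟨d, hd⟩

end Model

section Stage

/-- **W6 (div)**: `Pic0 (F / K)` is a divisible group, for every curve `F / K` over an
algebraically closed field of characteristic `0`. -/
theorem s17dv_main (K : Type u) (F : Type v) [Field K] [Field F] [Algebra K F] [IsAlgClosed K]
    [CharZero K] [IsCurveOver K F] [Algebra.EssFiniteType K F]
    (n : ℕ) (hn : 0 < n) (c : Pic0 K F) : ∃ d : Pic0 K F, n • d = c := by
  obtain ⟨x, G₀, O, hc⟩ := s27cst_exists K F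
  have hx := hc.trans
  haveI := hc.fin
  haveI := hc.sep
  exact s17dv_model (L := s27mtL K F) (FL := s27mtFL K F) (s27stg_hld K F (s27mtL K F))
    (s27stg_hgen K F (s27mtL K F)) hx G₀ hc.deg n hn c

end Stage

end Fermat.Agent.S17

end
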