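/-
S17 sprint — leaf **W6-WRAP** (helper81): `S17kaDiv N m` (input DIV of `s17ka_weak`) from the
divisibility of `Pic0` over an algebraically closed field of characteristic zero
(helper90's `s17dv_main`, taken here as the hypothesis `S17dwDivStmt` in universe 0).

* `S17dwDivStmt`      : `∀ K F` (curve over an algebraically closed field of char. 0), `∀ n > 0`,
                        `∀ c : Pic0 K F, ∃ d, n • d = c`;
* `s17dw_div_all`     : `S17dwDivStmt → ∀ x : JZero N, ∃ y, m • y = x` (`0 < m`);
* `s17dw_div`         : `S17dwDivStmt → S17kaDiv N m` (`0 < m`).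
-/
import Fermat.Agent.S17.Tors

set_option autoImplicit false

noncomputable section

namespace Fermat.Agent.S17

open ModularCurve AlgebraicCurve Fermat.Agent.S24

/-- **the statement of DIV** (`s17dv_main`) in universe 0. -/
def S17dwDivStmt : Prop :=
  ∀ (K F : Type) [Field K] [Field F] [Algebra K F] [IsAlgClosed K] [CharZero K]
    [IsCurveOver K F] [Algebra.EssFiniteType K F] (n : ℕ), 0 < n →
    ∀ c : Pic0 K F, ∃ d : Pic0 K F, n • d = c

/-- every class of `J₀(N)(ℚ̄)` is divisible by `m > 0`. -/
theorem s17dw_div_all (h : S17dwDivStmt) (N : ℕ) [NeZero N] (m : ℕ) (hm : 0 < m)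
    (x : JZero N) : ∃ y : JZero N, m • y = x := by
  have := s17to_isCurveOver N
  have := s17to_essFiniteType N
  exact h Kb (FF N) m hm x

/-- **W6-WRAP**: DIV for `J₀(N)`. -/
theorem s17dw_div (h : S17dwDivStmt) (N : ℕ) [NeZero N] (m : ℕ) (hm : 0 < m) :
    S17kaDiv N m :=
  fun x _ => s17dw_div_all h N m hm x

end Fermat.Agent.S17

end
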