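/-
S17 sprint, leaf W6 (div), CLOSED (helper90): `S17kaDiv N m` for every `m > 0`, unconditional:
helper81's wrapper `s17dw_div` (S17/DivWrap.lean) applied to `s17dv_main` (S17/DivMain.lean).
-/
import Fermat.Agent.S17.DivMain
import Fermat.Agent.S17.DivWrap

set_option autoImplicit false

noncomputable section

namespace Fermat.Agent.S17

open ModularCurve AlgebraicCurve

/-- the statement of DIV holds. -/
theorem s17dv_divStmt : S17dwDivStmt :=
  fun K F _ _ _ _ _ _ _ n hn c => s17dv_main K F n hn c

/-- every class of `J₀(N)(ℚ̄)` is divisible by `m > 0`. -/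
theorem s17dv_div_all (N : ℕ) [NeZero N] (m : ℕ) (hm : 0 < m) (x : JZero N) :
    ∃ y : JZero N, m • y = x :=
  s17dw_div_all s17dv_divStmt N m hm x

/-- **W6 (div), closed**: `S17kaDiv N m` for every `m > 0`. -/
theorem s17dv_kaDiv (N : ℕ) [NeZero N] (m : ℕ) (hm : 0 < m) : S17kaDiv N m :=
  s17dw_div s17dv_divStmt N m hm

end Fermat.Agent.S17

end
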