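/-
S17 sprint, weak Mordell–Weil side, leaf W-UNR (helper94).

`s17unr_main` : `ℓ ∤ m N`, `A ⊂ ℚ̄` a valuation subring over `ℓ`, `σ` in the inertia group of `A`,
  `y = [D] ∈ J₀(N)(ℚ̄)` with `m • y = [E]`, `E` a degree-zero divisor FIXED by `σ` (as a divisor)
  ⇒ `σ • y = y`.
  ("the field of definition of an `m`-th root of a rational point is unramified outside `m N`").

NO reduction data (`ModularCurve.ReductionInputsModL`) is needed: the proof is the twin of
`Fermat.Agent.ES.G2.stmtUnramOfInj` (the case `E = 0`): `m D − E = div u`; by (PRIM)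
`u = c · y₁ / y₂` with `y_i` primitive; `σ u / u` reduces to one, `div (σu/u) = m (σD − D)` because
`σ E = E`; by (INJ) `σu/u = h ^ m`, so `σD − D = div h`.

`s17unr_fixed` : the form for classes: `m • y = x`, `x = [E]` with `E` fixed by the whole Galois
  group ⇒ every inertia group over every `ℓ ∤ m N` fixes `y`.
-/
import Fermat.Agent.ES.G2.Main
import Fermat.Agent.INJ.InjAll

set_option autoImplicit false
set_option linter.unusedVariables false
set_option linter.style.longLine false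

noncomputable section

namespace Fermat.Agent.S17

open ModularCurve AlgebraicCurve Fermat.Agent.ES Fermat.Agent.ES.G2 HahnSeries

section Generic

variable {K F : Type*} [Field K] [Field F] [Algebra K F]

/-- If `m D − E = div u`, `g E = E` and `g u / u = h ^ m`, then `g` fixes the class of `D`. -/
theorem s17unr_pic0_smul_eq (g : SemilinearAut K F) (D : Divisor.degZero (K := K) (F := F))
    (E : Divisor K F) (hE : ∀ v : Place K F, E (g⁻¹ • v) = E v)
    (m : ℕ) (hm : m ≠ 0) (u : F) (hu : u ≠ 0)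
    (hD : ∀ v : Place K F, (m : ℤ) * (D : Divisor K F) v - E v = v.ord u)
    (h : F) (hh : h ^ m = (g • u) / u) : g • Pic0.mk D = Pic0.mk D := by
  have hgu : g • u ≠ 0 := by
    rw [SemilinearAut.smul_def]
    exact (map_ne_zero_iff _ (SemilinearAut.toRingAut g).injective).mpr hu
  have hh0 : h ≠ 0 := by
    intro h0
    rw [h0, zero_pow hm] at hh
    exact (div_ne_zero hgu hu) hh.symm
  have hm' : (m : ℤ) ≠ 0 := by exact_mod_cast hm
  have key : ∀ v : Place K F, (g • (D : Divisor K F) - (D : Divisor K F)) v = v.ord h := by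
    intro v
    have h1 : (m : ℤ) * v.ord h = v.ord ((g • u) / u) := by
      rw [← hh, unram_ord_pow]
    have h2 : v.ord (g • u) = (g⁻¹ • v).ord u := by
      have := SemilinearAut.ord_smul g (g⁻¹ • v) u
      rwa [smul_inv_smul] at this
    rw [unram_ord_div v hgu hu, h2, ← hD, ← hD, hE v] at h1
    rw [Finsupp.sub_apply, SemilinearAut.divisor_smul_apply]
    have h3 : (m : ℤ) * v.ord h = (m : ℤ) * ((D : Divisor K F) (g⁻¹ • v) - (D : Divisor K F) v) := by
      rw [h1]; ring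
    exact (mul_left_cancel₀ hm' h3).symm
  rw [SemilinearAut.pic0_smul_mk]
  unfold Pic0.mk
  rw [QuotientAddGroup.eq, AddSubgroup.mem_addSubgroupOf]
  refine ⟨h⁻¹, inv_ne_zero hh0, fun v => ?_⟩
  rw [Place.ord_inv, ← key v]
  simp [Finsupp.sub_apply]
  ring

end Generic

/-- (INJ) for all exponents prime to `ℓ`, unconditional. -/
theorem s17unr_stmtInj : StmtInj :=
  stmtInj_of_stmtInjPrime (stmtInjPrime_of_stmtINJAll Fermat.Agent.INJ.injAll_stmtINJAll)

/-- **W-UNR**, divisor form. -/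
theorem s17unr_main (N : ℕ) [NeZero N] (ℓ : ℕ) (hℓ : ℓ.Prime) (hℓN : ¬ ℓ ∣ N)
    (A : ValuationSubring Qb) (hA : A.LiesOverPrime ℓ)
    (σ : Qb ≃ₐ[ℚ] Qb) (hσ : σ ∈ A.inertiaSubgroupIn ℚ)
    (m : ℕ) (hℓm : ¬ ℓ ∣ m)
    (D E : Divisor.degZero (K := Qb) (F := modularFunctionFieldBar N))
    (hE : ∀ v : Place Qb (modularFunctionFieldBar N),
      (E : Divisor Qb (modularFunctionFieldBar N))
        ((arithmeticGalois (modularFunctionFieldFull N) σ)⁻¹ • v) =
      (E : Divisor Qb (modularFunctionFieldBar N)) v)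
    (hDE : m • Pic0.mk D = Pic0.mk E) :
    arithmeticGalois (modularFunctionFieldFull N) σ • Pic0.mk D = Pic0.mk D := by
  have hInj := s17unr_stmtInj
  have hPrim := stmtPrim
  have hm0 : m ≠ 0 := by rintro rfl; exact hℓm (dvd_zero ℓ)
  -- `m D − E` is principal
  have hprin : ((m • D - E : Divisor.degZero (K := Qb) (F := modularFunctionFieldBar N)) :
      Divisor Qb (modularFunctionFieldBar N)) ∈ Divisor.principal := by
    have h1 : Pic0.mk (m • D - E) = 0 := by
      have h2 : Pic0.mk (m • D - E) = m • Pic0.mk D - Pic0.mk E := rfl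
      rw [h2, hDE, sub_self]
    unfold Pic0.mk at h1
    rw [QuotientAddGroup.eq_zero_iff, AddSubgroup.mem_addSubgroupOf] at h1
    exact h1
  obtain ⟨u, hu, hDu⟩ := hprin
  have hDu' : ∀ v : Place Qb (modularFunctionFieldBar N),
      (m : ℤ) * (D : Divisor Qb (modularFunctionFieldBar N)) v
        - (E : Divisor Qb (modularFunctionFieldBar N)) v = v.ord u := by
    intro v
    rw [← hDu v, AddSubgroup.coe_sub, AddSubgroup.coe_nsmul, Finsupp.sub_apply, Finsupp.smul_apply,
      nsmul_eq_mul]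
  -- PRIM
  obtain ⟨c, y₁, y₂, hc, hy₁, hy₂, hP₁, hP₂, he⟩ := hPrim N ℓ hℓ A hA u hu
  have hy₁0 : y₁ ≠ 0 := unram_ne_zero_of_kronPrim hP₁
  have hy₂0 : y₂ ≠ 0 := unram_ne_zero_of_kronPrim hP₂
  set Y₁ : modularFunctionFieldBar N := ⟨y₁, hy₁⟩ with hY₁
  set Y₂ : modularFunctionFieldBar N := ⟨y₂, hy₂⟩ with hY₂
  have hY₁0 : Y₁ ≠ 0 := fun h => hy₁0 (congrArg Subtype.val h)
  have hY₂0 : Y₂ ≠ 0 := fun h => hy₂0 (congrArg Subtype.val h)
  have heF : u * Y₂ = algebraMap Qb (modularFunctionFieldBar N) c * Y₁ := by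
    apply Subtype.ext
    show (u : LaurentSeries Qb) * y₂ = algebraMap Qb (LaurentSeries Qb) c * y₁
    rw [he, algebraMap_laurentSeries_eq_single]
    rfl
  have hu' : u = algebraMap Qb (modularFunctionFieldBar N) c * (Y₁ / Y₂) := by
    field_simp
    exact heF
  have hdiv0 : Y₁ / Y₂ ≠ 0 := div_ne_zero hY₁0 hY₂0
  have hc' : algebraMap Qb (modularFunctionFieldBar N) c ≠ 0 := by
    simpa using hc
  have hD' : ∀ v : Place Qb (modularFunctionFieldBar N),
      (m : ℤ) * (D : Divisor Qb (modularFunctionFieldBar N)) v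
        - (E : Divisor Qb (modularFunctionFieldBar N)) v = v.ord (Y₁ / Y₂) := by
    intro v
    rw [hDu' v, hu', v.ord_mul hc' hdiv0, unram_ord_algebraMap v hc, zero_add]
  -- the semilinear automorphism
  set g := arithmeticGalois (modularFunctionFieldFull N) σ with hg
  have hσdec : σ ∈ A.decompositionSubgroup ℚ := kron_mem_decomposition_of_mem_inertia hσ
  have hgY₁0 : g • Y₁ ≠ 0 := by
    rw [SemilinearAut.smul_def]
    exact (map_ne_zero_iff _ (SemilinearAut.toRingAut g).injective).mpr hY₁0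
  have hgY₂0 : g • Y₂ ≠ 0 := by
    rw [SemilinearAut.smul_def]
    exact (map_ne_zero_iff _ (SemilinearAut.toRingAut g).injective).mpr hY₂0
  have hgdiv : g • (Y₁ / Y₂) = (g • Y₁) / (g • Y₂) := by
    simp only [SemilinearAut.smul_def, map_div₀]
  -- `w = g u' / u'` reduces to one
  have hw0 : (g • (Y₁ / Y₂)) / (Y₁ / Y₂) ≠ 0 := by
    rw [hgdiv]
    exact div_ne_zero (div_ne_zero hgY₁0 hgY₂0) hdiv0
  have hred : ReducesToOne A N ((g • (Y₁ / Y₂)) / (Y₁ / Y₂)) := by
    refine ⟨coeffMap (σ : Qb →+* Qb) y₁ * y₂, coeffMap (σ : Qb →+* Qb) y₂ * y₁,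
      mul_mem (coeffMap_mem_laurentBaseChange σ hy₁) hy₂,
      mul_mem (coeffMap_mem_laurentBaseChange σ hy₂) hy₁,
      (hP₁.coeffMap_of_mem_decomposition σ hσdec).mul hP₂,
      (hP₂.coeffMap_of_mem_decomposition σ hσdec).mul hP₁, ?_, ?_⟩
    · -- congruence
      have c1 : KronCongr A (coeffMap (σ : Qb →+* Qb) y₁ * y₂) (y₁ * y₂) :=
        KronCongr.mul (hP₁.1.coeffMap_of_mem_decomposition σ hσdec) hP₁.1 hP₂.1 hP₂.1
          (kron_inertia_congr hσ hP₁.1) (KronCongr.refl (A := A) y₂)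
      have c2 : KronCongr A (coeffMap (σ : Qb →+* Qb) y₂ * y₁) (y₂ * y₁) :=
        KronCongr.mul (hP₂.1.coeffMap_of_mem_decomposition σ hσdec) hP₂.1 hP₁.1 hP₁.1
          (kron_inertia_congr hσ hP₂.1) (KronCongr.refl (A := A) y₁)
      rw [mul_comm y₂ y₁] at c2
      exact c1.trans c2.symm
    · -- the fraction
      have e : (g • (Y₁ / Y₂)) / (Y₁ / Y₂) * ((g • Y₂) * Y₁) = (g • Y₁) * Y₂ := by
        rw [hgdiv]
        field_simp
      have := congrArg (Subtype.val) e
      exact this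
  have hdvd : ∀ P : Place Qb (modularFunctionFieldBar N),
      (m : ℤ) ∣ P.ord ((g • (Y₁ / Y₂)) / (Y₁ / Y₂)) := by
    intro P
    have hgu0 : g • (Y₁ / Y₂) ≠ 0 := by rw [hgdiv]; exact div_ne_zero hgY₁0 hgY₂0
    have h2 : P.ord (g • (Y₁ / Y₂)) = (g⁻¹ • P).ord (Y₁ / Y₂) := by
      have := SemilinearAut.ord_smul g (g⁻¹ • P) (Y₁ / Y₂)
      rwa [smul_inv_smul] at this
    rw [unram_ord_div P hgu0 hdiv0, h2, ← hD', ← hD', hE P]
    refine ⟨(D : Divisor Qb (modularFunctionFieldBar N)) (g⁻¹ • P)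
      - (D : Divisor Qb (modularFunctionFieldBar N)) P, ?_⟩
    ring
  obtain ⟨h, hh⟩ := hInj N ℓ hℓ hℓN A hA m hℓm _ hw0 hred hdvd
  exact s17unr_pic0_smul_eq g D (E : Divisor Qb (modularFunctionFieldBar N)) hE m hm0
    (Y₁ / Y₂) hdiv0 hD' h hh

/-- invariance of a divisor under `g`, pointwise form from `g • E = E`. -/
theorem s17unr_inv_of_smul_eq (N : ℕ) [NeZero N] (σ : Qb ≃ₐ[ℚ] Qb)
    (E : Divisor Qb (modularFunctionFieldBar N))
    (hE : arithmeticGalois (modularFunctionFieldFull N) σ • E = E)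
    (v : Place Qb (modularFunctionFieldBar N)) :
    E ((arithmeticGalois (modularFunctionFieldFull N) σ)⁻¹ • v) = E v := by
  have h := congrArg (fun X : Divisor Qb (modularFunctionFieldBar N) => X v) hE
  simp only [SemilinearAut.divisor_smul_apply] at h
  exact h

/-- **W-UNR**, class form: if `m • y = x` and `x` is the class of a degree-zero divisor fixed
(as a divisor) by every element of the Galois group, then for every prime `ℓ ∤ m N` and every
valuation subring `A` of `ℚ̄` over `ℓ` the inertia group of `A` fixes `y`. -/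
theorem s17unr_fixed (N : ℕ) [NeZero N] (m : ℕ) (x y : JZero N) (hxy : m • y = x)
    (E : Divisor.degZero (K := Qb) (F := modularFunctionFieldBar N))
    (hxE : x = Pic0.mk E)
    (hE : ∀ τ : Qb ≃ₐ[ℚ] Qb, arithmeticGalois (modularFunctionFieldFull N) τ •
      (E : Divisor Qb (modularFunctionFieldBar N)) = (E : Divisor Qb (modularFunctionFieldBar N)))
    (ℓ : ℕ) (hℓ : ℓ.Prime) (hℓmN : ¬ ℓ ∣ m * N)
    (A : ValuationSubring Qb) (hA : A.LiesOverPrime ℓ)
    (σ : Qb ≃ₐ[ℚ] Qb) (hσ : σ ∈ A.inertiaSubgroupIn ℚ) : σ • y = y := by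
  obtain ⟨D, rfl⟩ := Pic0.mk_surjective y
  have hℓN : ¬ ℓ ∣ N := fun h => hℓmN (h.mul_left m)
  have hℓm : ¬ ℓ ∣ m := fun h => hℓmN (h.mul_right N)
  exact s17unr_main N ℓ hℓ hℓN A hA σ hσ m hℓm D E
    (fun v => s17unr_inv_of_smul_eq N σ _ (hE σ) v) (hxy.trans hxE)

end Fermat.Agent.S17

end
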