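/-
S17 sprint, glue H90 + W-UNR (helper18): **(unr) for the division points of rational points**.

* `s17h90u_fixed_div` : a `G_ℚ`-invariant class `x` of `J₀(N)` is the class of a divisor of
  degree `0` which is FIXED (as a divisor) by every `τ ∈ G_ℚ` (`E_x − (deg E_x)·∞`, S17/H90.lean);
* `s17h90u_unr`       : `m • y ∈ J₀(N)(ℚ)`, `ℓ ∤ m N` prime, `A ⊂ ℚ̄` a valuation subring over `ℓ`
  ⇒ the inertia group of `A` fixes `y`     (helper94's `s17unr_fixed` fed with H90);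
* `s17h90u_unr_two`   : the case `m = 2`, `ℓ ∤ 2 N`.
-/
import Fermat.Agent.S17.H90
import Fermat.Agent.S17.Unr

set_option autoImplicit false
set_option linter.unusedSectionVars false

noncomputable section

namespace Fermat.Agent.S17

open ModularCurve AlgebraicCurve
open Fermat.Agent.S24 Fermat.Agent.S15

/-- a `G_ℚ`-invariant class is the class of a `G_ℚ`-fixed divisor of degree `0`. -/
theorem s17h90u_fixed_div (N : ℕ) [NeZero N] (x : JZero N)
    (hx : ∀ σ : Kb ≃ₐ[ℚ] Kb, σ • x = x) :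
    ∃ E : Divisor.degZero (K := Kb) (F := modularFunctionFieldBar N),
      x = Pic0.mk E ∧
      ∀ τ : Kb ≃ₐ[ℚ] Kb, arithmeticGalois (modularFunctionFieldFull N) τ •
        (E : Divisor Kb (modularFunctionFieldBar N)) = (E : Divisor Kb (modularFunctionFieldBar N)) := by
  refine ⟨s17h90Div N (s17h90Red N x), (s17h90Red_mk N x).symm, fun τ => ?_⟩
  rw [s17h90Div_coe, smul_sub, SemilinearAut.smul_single]
  have h1 : arithmeticGalois (modularFunctionFieldFull N) τ • s17h90Red N x = s17h90Red N x :=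
    s17h90_main N x hx τ
  have h2 : arithmeticGalois (modularFunctionFieldFull N) τ • cuspInf N = cuspInf N :=
    galAct_smul_cuspInf τ
  rw [h1, h2]

/-- **(unr)**: the inertia groups over the primes `ℓ ∤ m N` fix every `m`-division point of a
rational point of `J₀(N)`. -/
theorem s17h90u_unr (N : ℕ) [NeZero N] (m : ℕ) (y : JZero N)
    (hy : m • y ∈ FixedPoints.addSubgroup (Kb ≃ₐ[ℚ] Kb) (JZero N))
    (ℓ : ℕ) (hℓ : ℓ.Prime) (hℓmN : ¬ ℓ ∣ m * N)
    (A : ValuationSubring Kb) (hA : A.LiesOverPrime ℓ)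
    (σ : Kb ≃ₐ[ℚ] Kb) (hσ : σ ∈ A.inertiaSubgroupIn ℚ) : σ • y = y := by
  obtain ⟨E, hxE, hE⟩ := s17h90u_fixed_div N (m • y) (fun τ => hy τ)
  exact s17unr_fixed N m (m • y) y rfl E hxE hE ℓ hℓ hℓmN A hA σ hσ

/-- (unr) for `m = 2`. -/
theorem s17h90u_unr_two (N : ℕ) [NeZero N] (y : JZero N)
    (hy : 2 • y ∈ FixedPoints.addSubgroup (Kb ≃ₐ[ℚ] Kb) (JZero N))
    (ℓ : ℕ) (hℓ : ℓ.Prime) (hℓN : ¬ ℓ ∣ 2 * N)
    (A : ValuationSubring Kb) (hA : A.LiesOverPrime ℓ)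
    (σ : Kb ≃ₐ[ℚ] Kb) (hσ : σ ∈ A.inertiaSubgroupIn ℚ) : σ • y = y :=
  s17h90u_unr N 2 y hy ℓ hℓ hℓN A hA σ hσ

end Fermat.Agent.S17

end
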