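/-
S17 sprint, layer W, leaf **W2c** (helper53): KUMMER THEORY FOR EXPONENT 2 and the glue to (fin).

Setting: `K / k` a Galois extension (possibly infinite), `2 ≠ 0` in `K`, `Γ = K ≃ₐ[k] K`.

* `s17kq_kummer` : **KUM-2.**  `E₀, E'` finite intermediate fields, `χ : Γ → ZMod 2` additive on
  `G₀ = E₀.fixingSubgroup` and zero on `G₀ ∩ E'.fixingSubgroup`.  Then there is `α ≠ 0` in `K` with
  `α² ∈ E₀` and, for `σ ∈ G₀`:  `χ σ = 0 ↔ σ α = α`  (Lagrange resolvent + Dedekind independence).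
* `s17kq_fix_finite` : a finite set of points with open stabilisers is fixed by ONE finite field.
* `s17kq_unramField` : the fixed field `E₀` of the stabiliser of the `2`-torsion `T`: it is finite,
  its fixing subgroup is EXACTLY the stabiliser of `T`, and it contains every "inertia" element.
* `s17kq_fin_abs`   : **the glue.**  `Γ` acts on `J`; (tors) `J[2]` finite, (open) open stabilisers,
  (unr) every `σ ∈ I` fixes every `y` with `2 • (σ • y − y) = 0`, and
  (RS) for every finite `E₀` fixed by `I` there is a finite `E₁` containing every `α` with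
       `α² ∈ E₀` fixed by all of `I`   [= RAM (helper33) + SEL-FIN (helper58)].
  THEN (fin): one finite field `E` whose fixing subgroup fixes every `y` with `2 • y ∈ J^Γ`.
* `S17kqInertia S`, `S17kqRS S`, `s17kq_fin` : the instance for `J₀(N)`, giving `S17kaFin N 2`.
-/
import Fermat.Agent.S17.KumAbs
import Fermat.Prelude.Def_FLTPrelim_Ramification
import Mathlib.FieldTheory.Galois.Infinite
import Mathlib.LinearAlgebra.Dual.Lemmas

set_option autoImplicit false
set_option linter.style.haveILetI false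
set_option linter.unusedSectionVars false

noncomputable section

namespace Fermat.Agent.S17

open IntermediateField

/-! ### the sign of an element of `ZMod 2` -/

/-- the sign `±1 ∈ K` of an element of `ZMod 2`. -/
def s17kqSign (K : Type*) [Field K] (a : ZMod 2) : K := if a = 0 then 1 else -1

theorem s17kq_sign_zero (K : Type*) [Field K] : s17kqSign K 0 = 1 := by simp [s17kqSign]

theorem s17kq_sign_add (K : Type*) [Field K] (a b : ZMod 2) :
    s17kqSign K (a + b) = s17kqSign K a * s17kqSign K b := by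
  have h : ∀ a b : ZMod 2, (a + b = 0 ↔ (a = 0 ↔ b = 0)) := by decide
  unfold s17kqSign
  by_cases ha : a = 0 <;> by_cases hb : b = 0 <;> simp [h, ha, hb]

theorem s17kq_sign_sq (K : Type*) [Field K] (a : ZMod 2) : s17kqSign K a * s17kqSign K a = 1 := by
  unfold s17kqSign
  by_cases ha : a = 0 <;> simp [ha]

theorem s17kq_sign_ne_zero (K : Type*) [Field K] (a : ZMod 2) : s17kqSign K a ≠ 0 := by
  intro h
  have := s17kq_sign_sq K a
  rw [h, mul_zero] at this
  exact zero_ne_one this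

theorem s17kq_sign_eq_one_iff {K : Type*} [Field K] (h2 : (2 : K) ≠ 0) (a : ZMod 2) :
    s17kqSign K a = 1 ↔ a = 0 := by
  unfold s17kqSign
  by_cases ha : a = 0
  · simp [ha]
  · simp only [ha, if_false, iff_false]
    intro h
    apply h2
    have : (2 : K) = 1 - (-1) := by ring
    rw [this, h, sub_self]

/-! ### KUM-2 : quadratic characters of `G₀` are Kummer characters -/

section kum2

variable {k K : Type*} [Field k] [Field K] [Algebra k K] [IsGalois k K]

theorem s17kq_sign_map (σ : K ≃ₐ[k] K) (a : ZMod 2) : σ (s17kqSign K a) = s17kqSign K a := by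
  unfold s17kqSign
  by_cases ha : a = 0 <;> simp [ha]

/-- **KUM-2.** -/
theorem s17kq_kummer (h2 : (2 : K) ≠ 0) (E₀ E' : IntermediateField k K)
    [FiniteDimensional k E₀] [FiniteDimensional k E']
    (χ : (K ≃ₐ[k] K) → ZMod 2)
    (hχ : ∀ σ ∈ E₀.fixingSubgroup, ∀ τ ∈ E₀.fixingSubgroup, χ (σ * τ) = χ σ + χ τ)
    (hE' : ∀ σ ∈ E₀.fixingSubgroup, σ ∈ E'.fixingSubgroup → χ σ = 0) :
    ∃ α : K, α ≠ 0 ∧ α ^ 2 ∈ E₀ ∧ ∀ σ ∈ E₀.fixingSubgroup, (χ σ = 0 ↔ σ α = α) := by
  classical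
  set G₀ : Subgroup (K ≃ₐ[k] K) := E₀.fixingSubgroup with hG₀
  set E : IntermediateField k K := E₀ ⊔ E' with hE
  set U : Subgroup (K ≃ₐ[k] K) := E.fixingSubgroup with hU
  have hUG₀ : U ≤ G₀ := IntermediateField.fixingSubgroup_le le_sup_left
  have hUE' : U ≤ E'.fixingSubgroup := IntermediateField.fixingSubgroup_le le_sup_right
  haveI : FiniteDimensional k E := IntermediateField.finiteDimensional_sup E₀ E'
  haveI hUfin : U.FiniteIndex := by
    refine ⟨?_⟩
    rw [hU, ← IntermediateField.finrank_eq_fixingSubgroup_index]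
    exact Module.finrank_pos.ne'
  set V : Subgroup G₀ := U.subgroupOf G₀ with hV
  haveI : V.FiniteIndex := Subgroup.instFiniteIndex_subgroupOf U G₀
  haveI : Finite (G₀ ⧸ V) := Subgroup.finite_quotient_of_finiteIndex
  haveI : Fintype (G₀ ⧸ V) := Fintype.ofFinite _
  -- the representative of a coset, as an automorphism
  let r : G₀ ⧸ V → (K ≃ₐ[k] K) := fun q => ((q.out : G₀) : K ≃ₐ[k] K)
  have hr : ∀ q, r q ∈ G₀ := fun q => (q.out : G₀).2
  let s : G₀ ⧸ V → K := fun q => s17kqSign K (χ (r q))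
  -- (F1) the representative of `τ • q`
  have hF1 : ∀ (τ : G₀) (q : G₀ ⧸ V), ∃ u ∈ U, r (τ • q) = (τ : K ≃ₐ[k] K) * r q * u := by
    intro τ q
    obtain ⟨h, hh⟩ := QuotientGroup.mk_out_eq_mul V (τ * q.out)
    have e1 : τ • q = (QuotientGroup.mk (τ * q.out) : G₀ ⧸ V) := by
      conv_lhs => rw [← QuotientGroup.out_eq' q]
      rfl
    refine ⟨((h : G₀) : K ≃ₐ[k] K), h.2, ?_⟩
    show (((τ • q).out : G₀) : K ≃ₐ[k] K) = _
    rw [e1, hh]
    rfl
  -- (F2) the sign of `τ • q`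
  have hF2 : ∀ (τ : G₀) (q : G₀ ⧸ V),
      s q = s17kqSign K (χ (τ : K ≃ₐ[k] K)) * s (τ • q) := by
    intro τ q
    obtain ⟨u, hu, hru⟩ := hF1 τ q
    have e1 : χ (r (τ • q)) = χ (τ : K ≃ₐ[k] K) + χ (r q) := by
      rw [hru, hχ _ (G₀.mul_mem τ.2 (hr q)) _ (hUG₀ hu), hχ _ τ.2 _ (hr q),
        hE' u (hUG₀ hu) (hUE' hu), add_zero]
    show s17kqSign K (χ (r q)) = _ * s17kqSign K (χ (r (τ • q)))
    rw [e1, s17kq_sign_add, ← mul_assoc, s17kq_sign_sq, one_mul]
  -- (F3) the embedding of `τ • q`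
  have hF3 : ∀ (τ : G₀) (q : G₀ ⧸ V) (θ : K), θ ∈ E →
      r (τ • q) θ = (τ : K ≃ₐ[k] K) (r q θ) := by
    intro τ q θ hθ
    obtain ⟨u, hu, hru⟩ := hF1 τ q
    rw [hru]
    have : u θ = θ := (IntermediateField.mem_fixingSubgroup_iff _ u).1 hu θ hθ
    simp [AlgEquiv.mul_apply, this]
  -- the embeddings of `E` attached to the cosets are distinct
  let g : G₀ ⧸ V → (E →* K) := fun q =>
    ((((r q).toAlgHom.comp E.val : E →ₐ[k] K) : E →+* K) : E →* K)
  have hg : ∀ q (θ : E), g q θ = r q (θ : K) := fun q θ => rfl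
  have hginj : Function.Injective g := by
    intro q q' h
    have h1 : ∀ θ ∈ E, r q θ = r q' θ := fun θ hθ => by
      have := DFunLike.congr_fun h ⟨θ, hθ⟩
      simpa [hg] using this
    have h2' : (r q)⁻¹ * r q' ∈ U := by
      rw [hU, IntermediateField.mem_fixingSubgroup_iff]
      intro θ hθ
      rw [AlgEquiv.mul_apply, ← h1 θ hθ]
      exact (r q).symm_apply_apply θ
    have h3 : (q.out : G₀)⁻¹ * q'.out ∈ V := Subgroup.mem_subgroupOf.2 h2'
    have h4 : (QuotientGroup.mk q.out : G₀ ⧸ V) = QuotientGroup.mk q'.out :=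
      QuotientGroup.eq.2 h3
    rwa [QuotientGroup.out_eq', QuotientGroup.out_eq'] at h4
  have hli : LinearIndependent K (fun q : G₀ ⧸ V => (g q : E → K)) :=
    (linearIndependent_monoidHom E K).comp g hginj
  -- a point where the resolvent does not vanish
  obtain ⟨θ₀, hθ₀⟩ : ∃ θ : E, ∑ q, s q * r q (θ : K) ≠ 0 := by
    by_contra hcon
    push Not at hcon
    have h0 : ∑ q, s q • (g q : E → K) = 0 := by
      funext θ
      rw [Finset.sum_apply]
      simpa [hg] using hcon θ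
    have := (Fintype.linearIndependent_iff.1 hli) s h0 (QuotientGroup.mk 1)
    exact s17kq_sign_ne_zero K _ this
  -- (F4)
  have hF4 : ∀ τ ∈ G₀, τ (∑ q, s q * r q (θ₀ : K)) =
      s17kqSign K (χ τ) * ∑ q, s q * r q (θ₀ : K) := by
    intro τ hτ
    have hs : ∀ q, τ (s q) = s q := fun q => s17kq_sign_map τ _
    have e1 : ∀ q, τ (s q * r q (θ₀ : K)) =
        s17kqSign K (χ τ) * (s ((⟨τ, hτ⟩ : G₀) • q) * r ((⟨τ, hτ⟩ : G₀) • q) (θ₀ : K)) := by
      intro q
      rw [map_mul, hs q, hF3 ⟨τ, hτ⟩ q _ θ₀.2, hF2 ⟨τ, hτ⟩ q, mul_assoc]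
    rw [map_sum, Finset.sum_congr rfl (fun q _ => e1 q), ← Finset.mul_sum]
    congr 1
    exact Equiv.sum_comp (MulAction.toPerm (⟨τ, hτ⟩ : G₀)) (fun q => s q * r q (θ₀ : K))
  refine ⟨∑ q, s q * r q (θ₀ : K), hθ₀, ?_, ?_⟩
  · rw [← InfiniteGalois.fixedField_fixingSubgroup E₀, IntermediateField.mem_fixedField_iff]
    intro τ hτ
    rw [map_pow, hF4 τ hτ, mul_pow, sq (s17kqSign K _), s17kq_sign_sq, one_mul]
  · intro σ hσ
    rw [hF4 σ hσ]
    constructor
    · intro h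
      rw [h, s17kq_sign_zero, one_mul]
    · intro h
      have h1 : s17kqSign K (χ σ) = 1 :=
        mul_right_cancel₀ hθ₀ (h.trans (one_mul _).symm)
      exact (s17kq_sign_eq_one_iff h2 _).1 h1

end kum2

/-! ### the glue to (fin) -/

section glue

variable {k K : Type*} [Field k] [Field K] [Algebra k K] [IsGalois k K]
variable {J : Type*} [AddCommGroup J] [DistribMulAction (K ≃ₐ[k] K) J]

/-- a finite set of points with open stabilisers is fixed by ONE finite field. -/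
theorem s17kq_fix_finite
    (hopen : ∀ y : J, ∃ E : IntermediateField k K, FiniteDimensional k E ∧
      ∀ σ ∈ E.fixingSubgroup, σ • y = y)
    (T : Set J) (hT : T.Finite) :
    ∃ E : IntermediateField k K, FiniteDimensional k E ∧
      ∀ t ∈ T, ∀ σ ∈ E.fixingSubgroup, σ • t = t := by
  induction T, hT using Set.Finite.induction_on with
  | empty => exact ⟨⊥, inferInstance, fun t ht => absurd ht (Set.notMem_empty t)⟩
  | @insert a T' _ _ ih =>
    obtain ⟨E, hE, hfix⟩ := ih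
    obtain ⟨E', hE', hfix'⟩ := hopen a
    refine ⟨E ⊔ E', IntermediateField.finiteDimensional_sup E E', ?_⟩
    intro t ht σ hσ
    rcases Set.mem_insert_iff.1 ht with rfl | ht
    · exact hfix' σ (IntermediateField.fixingSubgroup_le le_sup_right hσ)
    · exact hfix t ht σ (IntermediateField.fixingSubgroup_le le_sup_left hσ)

/-- the stabiliser of the `2`-torsion. -/
def s17kqStab (k K J : Type*) [Field k] [Field K] [Algebra k K] [AddCommGroup J]
    [DistribMulAction (K ≃ₐ[k] K) J] : Subgroup (K ≃ₐ[k] K) where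
  carrier := {σ | ∀ t : J, 2 • t = 0 → σ • t = t}
  one_mem' := fun t _ => one_smul _ t
  mul_mem' := fun {a b} ha hb t ht => by rw [mul_smul, hb t ht, ha t ht]
  inv_mem' := fun {a} ha t ht => by rw [inv_smul_eq_iff]; exact (ha t ht).symm

theorem s17kq_mem_stab (σ : K ≃ₐ[k] K) :
    σ ∈ s17kqStab k K J ↔ ∀ t : J, 2 • t = 0 → σ • t = t := Iff.rfl

/-- **the field of the `2`-torsion**: finite, its fixing subgroup is EXACTLY the stabiliser of the
`2`-torsion. -/
theorem s17kq_unramField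
    (htors : {t : J | 2 • t = 0}.Finite)
    (hopen : ∀ y : J, ∃ E : IntermediateField k K, FiniteDimensional k E ∧
      ∀ σ ∈ E.fixingSubgroup, σ • y = y) :
    ∃ E₀ : IntermediateField k K, FiniteDimensional k E₀ ∧
      E₀.fixingSubgroup = s17kqStab k K J := by
  obtain ⟨E', hE', hfix'⟩ := s17kq_fix_finite hopen _ htors
  have hle : E'.fixingSubgroup ≤ s17kqStab k K J := fun σ hσ t ht => hfix' t ht σ hσ
  have hopenS : IsOpen (s17kqStab k K J : Set (K ≃ₐ[k] K)) :=
    Subgroup.isOpen_mono hle E'.fixingSubgroup_isOpen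
  have hclS : IsClosed (s17kqStab k K J : Set (K ≃ₐ[k] K)) :=
    Subgroup.isClosed_of_isOpen _ hopenS
  let H : ClosedSubgroup (K ≃ₐ[k] K) := ⟨s17kqStab k K J, hclS⟩
  refine ⟨IntermediateField.fixedField (s17kqStab k K J), ?_,
    InfiniteGalois.fixingSubgroup_fixedField H⟩
  have hle' : IntermediateField.fixedField (s17kqStab k K J) ≤ E' := by
    intro x hx
    rw [← InfiniteGalois.fixedField_fixingSubgroup E', IntermediateField.mem_fixedField_iff]
    intro σ hσ
    exact (IntermediateField.mem_fixedField_iff _ x).1 hx σ (hle hσ)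
  exact Module.Finite.of_injective (IntermediateField.inclusion hle').toLinearMap
    (IntermediateField.inclusion hle').injective

/-- **the glue**: (tors) + (open) + (unr) + (RS) ⇒ (fin). -/
theorem s17kq_fin_abs (h2 : (2 : K) ≠ 0) (I : Set (K ≃ₐ[k] K))
    (htors : {t : J | 2 • t = 0}.Finite)
    (hopen : ∀ y : J, ∃ E : IntermediateField k K, FiniteDimensional k E ∧
      ∀ σ ∈ E.fixingSubgroup, σ • y = y)
    (hunr : ∀ σ ∈ I, ∀ y : J, 2 • (σ • y - y) = 0 → σ • y = y)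
    (hRS : ∀ E₀ : IntermediateField k K, FiniteDimensional k E₀ →
      (∀ σ ∈ I, σ ∈ E₀.fixingSubgroup) →
      ∃ E₁ : IntermediateField k K, FiniteDimensional k E₁ ∧
        ∀ α : K, α ^ 2 ∈ E₀ → (∀ σ ∈ I, σ α = α) → α ∈ E₁) :
    ∃ E : IntermediateField k K, FiniteDimensional k E ∧
      ∀ y : J, (∀ σ : K ≃ₐ[k] K, σ • (2 • y) = 2 • y) → ∀ σ ∈ E.fixingSubgroup, σ • y = y := by
  classical
  obtain ⟨E₀, hE₀, hE₀S⟩ := s17kq_unramField htors hopen
  have hIE₀ : ∀ σ ∈ I, σ ∈ E₀.fixingSubgroup := by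
    intro σ hσ
    rw [hE₀S]
    intro t ht
    refine hunr σ hσ t ?_
    rw [smul_sub, smul_comm, ht, smul_zero, sub_zero]
  obtain ⟨E₁, hE₁, hRS₁⟩ := hRS E₀ hE₀ hIE₀
  refine ⟨E₀ ⊔ E₁, IntermediateField.finiteDimensional_sup E₀ E₁, ?_⟩
  intro y hy σ hσ
  have hσ₀ : σ ∈ E₀.fixingSubgroup := IntermediateField.fixingSubgroup_le le_sup_left hσ
  have hσ₁ : σ ∈ E₁.fixingSubgroup := IntermediateField.fixingSubgroup_le le_sup_right hσ
  -- the cocycle of `y`
  have hc : ∀ τ : K ≃ₐ[k] K, 2 • (τ • y - y) = 0 := by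
    intro τ
    rw [smul_sub, smul_comm, hy τ, sub_self]
  -- the `2`-torsion as a vector space over `ZMod 2`
  let Tg : AddSubgroup J := (nsmulAddMonoidHom (α := J) 2).ker
  have hTg : ∀ t : J, t ∈ Tg ↔ 2 • t = 0 := fun t => by
    rw [AddMonoidHom.mem_ker, nsmulAddMonoidHom_apply]
  letI : Module (ZMod 2) Tg := AddCommGroup.zmodModule (n := 2) (fun x => by
    apply Subtype.ext
    rw [AddSubgroup.coe_nsmul]
    exact (hTg _).1 x.2)
  by_contra hne
  have ht₀ : (⟨σ • y - y, (hTg _).2 (hc σ)⟩ : Tg) ≠ 0 := by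
    intro h
    apply hne
    have := congrArg Subtype.val h
    exact sub_eq_zero.1 this
  obtain ⟨lam, hlam⟩ := Module.Projective.exists_dual_ne_zero (ZMod 2) ht₀
  let χ : (K ≃ₐ[k] K) → ZMod 2 := fun τ => lam ⟨τ • y - y, (hTg _).2 (hc τ)⟩
  have hχ : ∀ τ ∈ E₀.fixingSubgroup, ∀ ρ ∈ E₀.fixingSubgroup, χ (τ * ρ) = χ τ + χ ρ := by
    intro τ hτ ρ hρ
    rw [hE₀S] at hτ
    have e : (⟨(τ * ρ) • y - y, (hTg _).2 (hc (τ * ρ))⟩ : Tg) =
        ⟨τ • y - y, (hTg _).2 (hc τ)⟩ + ⟨ρ • y - y, (hTg _).2 (hc ρ)⟩ := by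
      apply Subtype.ext
      show (τ * ρ) • y - y = (τ • y - y) + (ρ • y - y)
      have h1 : τ • (ρ • y - y) = ρ • y - y := hτ _ (hc ρ)
      rw [smul_sub] at h1
      rw [mul_smul]
      have : τ • ρ • y - y = (τ • ρ • y - τ • y) + (τ • y - y) := by abel
      rw [this, h1]
      abel
    show lam _ = lam _ + lam _
    rw [e, map_add]
  obtain ⟨Ey, hEy, hfixy⟩ := hopen y
  have hχE : ∀ τ ∈ E₀.fixingSubgroup, τ ∈ Ey.fixingSubgroup → χ τ = 0 := by
    intro τ _ hτ
    have e : (⟨τ • y - y, (hTg _).2 (hc τ)⟩ : Tg) = 0 := by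
      apply Subtype.ext
      show τ • y - y = 0
      rw [hfixy τ hτ, sub_self]
    show lam _ = 0
    rw [e, map_zero]
  obtain ⟨α, -, hα2, hαχ⟩ := s17kq_kummer h2 E₀ Ey χ hχ hχE
  have hαI : ∀ τ ∈ I, τ α = α := by
    intro τ hτ
    refine (hαχ τ (hIE₀ τ hτ)).1 ?_
    have e : (⟨τ • y - y, (hTg _).2 (hc τ)⟩ : Tg) = 0 := by
      apply Subtype.ext
      show τ • y - y = 0
      rw [hunr τ hτ y (hc τ), sub_self]
    show lam _ = 0
    rw [e, map_zero]
  have hαE₁ : α ∈ E₁ := hRS₁ α hα2 hαI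
  have hσα : σ α = α := (IntermediateField.mem_fixingSubgroup_iff _ σ).1 hσ₁ α hαE₁
  exact hlam ((hαχ σ hσ₀).2 hσα)

end glue

/-! ### the instance for `J₀(N)` -/

section inst

open ModularCurve AlgebraicCurve

/-- `ℚ̄/ℚ` is Galois, for the `Algebra ℚ ℚ̄` instance found by unification. -/
theorem s17kq_isGalois : IsGalois ℚ (AlgebraicClosure ℚ) := by
  have h1 : @IsGalois ℚ _ (AlgebraicClosure ℚ) _ (AlgebraicClosure.instAlgebra ℚ) :=
    inferInstance
  convert h1
  exact Subsingleton.elim _ _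

/-- the inertia elements of `G_ℚ` at the primes outside `S`. -/
def S17kqInertia (S : Set ℕ) : Set ((AlgebraicClosure ℚ) ≃ₐ[ℚ] (AlgebraicClosure ℚ)) :=
  {σ | ∃ ℓ : ℕ, ℓ.Prime ∧ ℓ ∉ S ∧ ∃ A : ValuationSubring (AlgebraicClosure ℚ),
    A.LiesOverPrime ℓ ∧ σ ∈ A.inertiaSubgroupIn ℚ}

/-- **(RS)** = RAM + SEL-FIN: over a number field `E₀ ⊂ ℚ̄` unramified outside `S`, the square
roots of elements of `E₀` that are fixed by all inertia groups outside `S` lie in ONE number field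
(the maximal abelian extension of exponent `2` of `E₀` unramified outside `S` is finite). -/
def S17kqRS (S : Set ℕ) : Prop :=
  ∀ E₀ : IntermediateField ℚ (AlgebraicClosure ℚ), FiniteDimensional ℚ E₀ →
    (∀ σ ∈ S17kqInertia S, σ ∈ E₀.fixingSubgroup) →
    ∃ E₁ : IntermediateField ℚ (AlgebraicClosure ℚ), FiniteDimensional ℚ E₁ ∧
      ∀ α : AlgebraicClosure ℚ, α ^ 2 ∈ E₀ → (∀ σ ∈ S17kqInertia S, σ α = α) → α ∈ E₁

/-- **(open)**: every class of `J₀(N)(ℚ̄)` is fixed by an open subgroup of `G_ℚ`. -/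
def S17kqOpen (N : ℕ) [NeZero N] : Prop :=
  ∀ y : JZero N, ∃ E : IntermediateField ℚ (AlgebraicClosure ℚ), FiniteDimensional ℚ E ∧
    ∀ σ ∈ E.fixingSubgroup, σ • y = y

/-- **(unr)** outside `S`: an inertia element at `ℓ ∉ S` fixes every `y` that it moves by
`2`-torsion. -/
def S17kqUnr (N : ℕ) [NeZero N] (S : Set ℕ) : Prop :=
  ∀ ℓ : ℕ, ℓ.Prime → ℓ ∉ S → ∀ A : ValuationSubring (AlgebraicClosure ℚ), A.LiesOverPrime ℓ →
    ∀ σ ∈ A.inertiaSubgroupIn ℚ, ∀ y : JZero N, 2 • (σ • y - y) = 0 → σ • y = y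

/-- (fin) in the field form of the piece table (W0). -/
def S17kqFinField (N : ℕ) [NeZero N] : Prop :=
  ∃ E : IntermediateField ℚ (AlgebraicClosure ℚ), FiniteDimensional ℚ E ∧
    ∀ y : JZero N,
      2 • y ∈ FixedPoints.addSubgroup ((AlgebraicClosure ℚ) ≃ₐ[ℚ] (AlgebraicClosure ℚ)) (JZero N) →
      ∀ σ ∈ E.fixingSubgroup, σ • y = y

/-- **W2c for `J₀(N)`**, field form. -/
theorem s17kq_finField (N : ℕ) [NeZero N] (S : Set ℕ) (htors : S17kaTors N 2)
    (hopen : S17kqOpen N) (hunr : S17kqUnr N S) (hRS : S17kqRS S) : S17kqFinField N := by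
  have h2 : (2 : AlgebraicClosure ℚ) ≠ 0 := two_ne_zero
  haveI := s17kq_isGalois
  obtain ⟨E, hE, hfix⟩ := s17kq_fin_abs (k := ℚ) (K := AlgebraicClosure ℚ) (J := JZero N) h2
    (S17kqInertia S) htors hopen
    (fun σ hσ y hy => by
      obtain ⟨ℓ, hℓ, hℓS, A, hA, hσA⟩ := hσ
      exact hunr ℓ hℓ hℓS A hA σ hσA y hy)
    hRS
  exact ⟨E, hE, fun y hy σ hσ => hfix y (fun τ => hy τ) σ hσ⟩

/-- the field form of (fin) gives `S17kaFin`. -/
theorem s17kq_fin_of_field (N : ℕ) [NeZero N] (m : ℕ)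
    (h : ∃ E : IntermediateField ℚ (AlgebraicClosure ℚ), FiniteDimensional ℚ E ∧
      ∀ y : JZero N,
        m • y ∈ FixedPoints.addSubgroup ((AlgebraicClosure ℚ) ≃ₐ[ℚ] (AlgebraicClosure ℚ))
          (JZero N) →
        ∀ σ ∈ E.fixingSubgroup, σ • y = y) : S17kaFin N m := by
  obtain ⟨E, hE, hfix⟩ := h
  haveI := s17kq_isGalois
  refine ⟨E.fixingSubgroup, ⟨?_⟩, hfix⟩
  rw [← IntermediateField.finrank_eq_fixingSubgroup_index]
  exact Module.finrank_pos.ne'

/-- **W2c for `J₀(N)`**: (tors) + (open) + (unr) + (RS) ⇒ `S17kaFin N 2`. -/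
theorem s17kq_fin (N : ℕ) [NeZero N] (S : Set ℕ) (htors : S17kaTors N 2)
    (hopen : S17kqOpen N) (hunr : S17kqUnr N S) (hRS : S17kqRS S) : S17kaFin N 2 :=
  s17kq_fin_of_field N 2 (s17kq_finField N S htors hopen hunr hRS)

/-- **weak Mordell–Weil** from (div) + (tors) + (open) + (unr) + (RS). -/
theorem s17kq_weak (N : ℕ) [NeZero N] (S : Set ℕ) (hdiv : S17kaDiv N 2) (htors : S17kaTors N 2)
    (hopen : S17kqOpen N) (hunr : S17kqUnr N S) (hRS : S17kqRS S) : S17IsWeak N 2 :=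
  s17ka_weak N 2 hdiv htors (s17kq_fin N S htors hopen hunr hRS)

end inst

end Fermat.Agent.S17

end
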