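/-
S17 sprint (item 17), leaf W2a = RAM (helper33): **inertia-fixed square roots have even valuation.**

`Qb = AlgebraicClosure ℚ`, `K` a number field with an embedding `K → Qb`, `S` a finite set of
rational primes.  If `z ∈ Qb` has `z² = a ∈ Kˣ` and `z` is fixed by the inertia group of EVERY
valuation subring `A` of `Qb` over EVERY prime `ℓ ∉ S`, then `ord_v a` is even at every prime `v` of
`𝓞 K` not over `S`, i.e. the class of `a` lies in Mathlib's Selmer group `K⟮S_K, 2⟯`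
(`IsDedekindDomain.selmerGroup`), `S_K = s17rmS K S` the primes of `𝓞 K` over `S`.

Input: `s59stv_val` (S59/Strict/Val.lean, helper43): the value group of the inertia field of `A`
is generated by `ℓ`.

* `s17rm_exists_ext`   : Chevalley: every valuation subring extends to an extension field;
* `s17rm_exists_prime` : the residue characteristic of a prime `v` of `𝓞 K`;
* `s17rmS K S`, `s17rm_S_finite` : the primes of `𝓞 K` over `S`, a finite set;
* `s17rm_unit_at`      : `a = x · yⁿ` with `x` a unit at `v` ⇒ `valuationOfNeZeroMod n a = 1`;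
* **`s17rm_even`**     : for ONE prime `v` over `ℓ`: `a · ℓ^(2e)` is a unit at `v`;
* **`s17rm_mem_selmer`**: the class of `a` lies in `K⟮S_K, 2⟯`.
-/
import Fermat.Agent.S59.Strict.Val
import Mathlib.RingTheory.DedekindDomain.SelmerGroup
import Mathlib.NumberTheory.NumberField.Basic

set_option autoImplicit false
set_option linter.unusedSectionVars false
set_option linter.unusedVariables false
set_option linter.style.longLine false

noncomputable section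

namespace Fermat.Agent.S17

open IsDedekindDomain NumberField

/-- `ℚ̄` -/
local notation "Qb" => AlgebraicClosure ℚ

section Ext

variable {𝔉 𝔏 : Type*} [Field 𝔉] [Field 𝔏] [Algebra 𝔉 𝔏]

/-- **Chevalley**: every valuation subring of `𝔉` is the trace of a valuation subring of `𝔏`. -/
theorem s17rm_exists_ext (V : ValuationSubring 𝔉) :
    ∃ W : ValuationSubring 𝔏, W.comap (algebraMap 𝔉 𝔏) = V := by
  obtain ⟨W, h, hloc⟩ := IsLocalRing.exists_factor_valuationRing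
    ((algebraMap 𝔉 𝔏).comp V.subtype)
  refine ⟨W, ?_⟩
  ext x
  rw [ValuationSubring.mem_comap]
  constructor
  · intro hx
    by_contra hxV
    have hx0 : x ≠ 0 := fun h0 => hxV (h0 ▸ V.zero_mem)
    have hinv : x⁻¹ ∈ V := (V.mem_or_inv_mem x).resolve_left hxV
    have hu : IsUnit (((algebraMap 𝔉 𝔏).comp V.subtype).codRestrict W.toSubring h
        ⟨x⁻¹, hinv⟩) := by
      refine isUnit_iff_exists_inv.2 ⟨⟨algebraMap 𝔉 𝔏 x, hx⟩, ?_⟩
      apply Subtype.ext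
      show algebraMap 𝔉 𝔏 x⁻¹ * algebraMap 𝔉 𝔏 x = 1
      rw [← map_mul, inv_mul_cancel₀ hx0, map_one]
    have hV : IsUnit (⟨x⁻¹, hinv⟩ : V) := hloc.map_nonunit _ hu
    obtain ⟨y, hy⟩ := isUnit_iff_exists_inv.1 hV
    have hy' : x⁻¹ * (y : 𝔉) = 1 := congrArg Subtype.val hy
    have hxy : (y : 𝔉) = x := by
      have := congrArg (fun t => x * t) hy'
      simpa [← mul_assoc, mul_inv_cancel₀ hx0] using this
    exact hxV (hxy ▸ y.2)
  · intro hx
    exact h ⟨x, hx⟩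

end Ext

section Prime

variable (K : Type*) [Field K] [NumberField K]

/-- the residue characteristic of a prime of `𝓞 K`. -/
theorem s17rm_exists_prime (v : HeightOneSpectrum (𝓞 K)) :
    ∃ ℓ : ℕ, ℓ.Prime ∧ ((ℓ : ℕ) : 𝓞 K) ∈ v.asIdeal := by
  classical
  have hex : ∃ n : ℕ, 0 < n ∧ ((n : ℕ) : 𝓞 K) ∈ v.asIdeal := by
    refine ⟨Ideal.absNorm v.asIdeal, ?_, Ideal.absNorm_mem _⟩
    exact Nat.pos_of_ne_zero fun h => v.ne_bot (Ideal.absNorm_eq_zero_iff.mp h)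
  have hmem := (Nat.find_spec hex).2
  have hpos := (Nat.find_spec hex).1
  have hmin : ∀ m : ℕ, 0 < m → ((m : ℕ) : 𝓞 K) ∈ v.asIdeal → Nat.find hex ≤ m :=
    fun m h1 h2 => Nat.find_min' hex ⟨h1, h2⟩
  refine ⟨Nat.find hex, ?_, hmem⟩
  have hne1 : Nat.find hex ≠ 1 := by
    intro h1
    rw [h1, Nat.cast_one] at hmem
    exact v.isPrime.ne_top ((Ideal.eq_top_iff_one _).mpr hmem)
  rw [Nat.prime_def]
  refine ⟨by omega, fun a ha => ?_⟩
  obtain ⟨b, hb⟩ := ha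
  have hab : ((a : ℕ) : 𝓞 K) * ((b : ℕ) : 𝓞 K) ∈ v.asIdeal := by
    rw [← Nat.cast_mul, ← hb]
    exact hmem
  have ha0 : 0 < a := Nat.pos_of_ne_zero fun h => by rw [h, zero_mul] at hb; omega
  have hb0 : 0 < b := Nat.pos_of_ne_zero fun h => by rw [h, mul_zero] at hb; omega
  rcases v.isPrime.mem_or_mem hab with h | h
  · right
    have h1 := hmin a ha0 h
    have h2 : a ≤ Nat.find hex := Nat.le_of_dvd hpos ⟨b, hb⟩
    omega
  · left
    have h1 := hmin b hb0 h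
    have h2 : b ≤ Nat.find hex := Nat.le_of_dvd hpos ⟨a, by rw [hb, mul_comm]⟩
    have h3 : b = Nat.find hex := le_antisymm h2 h1
    have h4 : a * b = 1 * b := by rw [one_mul, ← hb, h3]
    exact Nat.eq_of_mul_eq_mul_right hb0 h4

/-- the primes of `𝓞 K` over a set `S` of rational primes. -/
def s17rmS (S : Finset ℕ) : Set (HeightOneSpectrum (𝓞 K)) :=
  {v | ∃ ℓ ∈ S, ℓ.Prime ∧ ((ℓ : ℕ) : 𝓞 K) ∈ v.asIdeal}

theorem s17rm_S_finite (S : Finset ℕ) : (s17rmS K S).Finite := by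
  classical
  have hsub : s17rmS K S ⊆ ⋃ ℓ ∈ (S.filter Nat.Prime : Finset ℕ),
      {v : HeightOneSpectrum (𝓞 K) | v.asIdeal ∣ Ideal.span {((ℓ : ℕ) : 𝓞 K)}} := by
    rintro v ⟨ℓ, hℓS, hℓ, hv⟩
    simp only [Set.mem_iUnion, Set.mem_ofPred_eq]
    refine ⟨ℓ, Finset.mem_filter.mpr ⟨hℓS, hℓ⟩, ?_⟩
    rw [Ideal.dvd_span_singleton]
    exact hv
  refine Set.Finite.subset (Set.Finite.biUnion (Finset.finite_toSet _) fun ℓ hℓ => ?_) hsub
  have hℓ' : (ℓ : ℕ).Prime := (Finset.mem_filter.mp hℓ).2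
  apply Ideal.finite_factors
  rw [Ne, Ideal.zero_eq_bot, Ideal.span_singleton_eq_bot]
  exact_mod_cast hℓ'.ne_zero

end Prime

section Unit

variable {R : Type*} [CommRing R] [IsDedekindDomain R] {K : Type*} [Field K] [Algebra R K]
  [IsFractionRing R K]

/-- a unit at `v` has trivial `valuationOfNeZero`. -/
theorem s17rm_valuationOfNeZero_eq_one (v : HeightOneSpectrum R) (x : Kˣ)
    (h1 : v.valuation K (x : K) ≤ 1) (h2 : v.valuation K ((x : K))⁻¹ ≤ 1) :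
    v.valuationOfNeZero x = 1 := by
  have hx : v.valuation K (x : K) = 1 := by
    refine le_antisymm h1 ?_
    rw [map_inv₀] at h2
    have hne : v.valuation K (x : K) ≠ 0 := (Valuation.ne_zero_iff _).mpr x.ne_zero
    by_contra hlt
    rw [not_le] at hlt
    have : 1 < (v.valuation K (x : K))⁻¹ := (one_lt_inv₀ (zero_lt_iff.mpr hne)).mpr hlt
    exact absurd h2 (not_le.mpr this)
  rw [← WithZero.coe_inj, HeightOneSpectrum.valuationOfNeZero_eq, hx]
  rfl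

/-- `a = x · yⁿ` with `x` a unit at `v` ⇒ the class of `a` has trivial valuation mod `n`. -/
theorem s17rm_unit_at (v : HeightOneSpectrum R) (n : ℕ) (a x y : Kˣ) (ha : a = x * y ^ n)
    (hx : v.valuationOfNeZero x = 1) :
    v.valuationOfNeZeroMod n (QuotientGroup.mk a : Kˣ ⧸ (powMonoidHom n : Kˣ →* Kˣ).range) = 1 := by
  have hcl : (QuotientGroup.mk a : Kˣ ⧸ (powMonoidHom n : Kˣ →* Kˣ).range) = QuotientGroup.mk x := by
    rw [QuotientGroup.eq]
    refine ⟨y⁻¹, ?_⟩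
    rw [ha, powMonoidHom_apply]
    simp [mul_comm, mul_inv_rev, inv_pow]
  rw [hcl]
  erw [HeightOneSpectrum.valuationOfNeZeroMod, MonoidHom.comp_apply, ← QuotientGroup.coe_mk',
    QuotientGroup.map_mk' (G := Kˣ) (N := MonoidHom.range (powMonoidHom n)),
    hx, QuotientGroup.mk_one, map_one]

end Unit

section Ram

variable (K : Type*) [Field K] [NumberField K] [Algebra K Qb]

/-- **RAM at one prime**: `z² = a`, `z` fixed by the inertia group of an extension `A` of `v`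
over `ℓ`: `a · ℓ^(2e)` is a unit at `v`. -/
theorem s17rm_even (v : HeightOneSpectrum (𝓞 K)) (ℓ : ℕ) (hℓ : ℓ.Prime)
    (hv : ((ℓ : ℕ) : 𝓞 K) ∈ v.asIdeal) (a : Kˣ) (z : Qb)
    (hz : z ^ 2 = algebraMap K Qb (a : K))
    (hfix : ∀ A : ValuationSubring Qb, A.LiesOverPrime ℓ →
      ∀ σ ∈ A.inertiaSubgroupIn ℚ, σ z = z) :
    ∃ e : ℤ, v.valuation K ((a : K) * ((ℓ : ℕ) : K) ^ (2 * e)) ≤ 1 ∧
      v.valuation K ((a : K) * ((ℓ : ℕ) : K) ^ (2 * e))⁻¹ ≤ 1 := by
  obtain ⟨A, hA⟩ := s17rm_exists_ext (𝔏 := Qb) (v.valuation K).valuationSubring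
  have hmem : ∀ x : K, algebraMap K Qb x ∈ A ↔ v.valuation K x ≤ 1 := by
    intro x
    rw [← ValuationSubring.mem_comap, hA, Valuation.mem_valuationSubring_iff]
  have hℓK : v.valuation K (((ℓ : ℕ) : K)) < 1 := by
    have := (v.valuation_lt_one_iff_mem (K := K) ((ℓ : ℕ) : 𝓞 K)).mpr hv
    simpa using this
  have hℓ0 : ((ℓ : ℕ) : K) ≠ 0 := Nat.cast_ne_zero.mpr hℓ.ne_zero
  have hAℓ : A.LiesOverPrime ℓ := by
    show ((ℓ : ℕ) : Qb) ∈ A.nonunits
    rw [ValuationSubring.mem_nonunits_iff_or]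
    right
    intro hinv
    have h1 : algebraMap K Qb (((ℓ : ℕ) : K))⁻¹ ∈ A := by
      rw [map_inv₀, map_natCast]
      exact hinv
    have h2 := (hmem _).mp h1
    rw [map_inv₀] at h2
    have hne : v.valuation K (((ℓ : ℕ) : K)) ≠ 0 := (Valuation.ne_zero_iff _).mpr hℓ0
    have : 1 < (v.valuation K (((ℓ : ℕ) : K)))⁻¹ := (one_lt_inv₀ (zero_lt_iff.mpr hne)).mpr hℓK
    exact absurd h2 (not_le.mpr this)
  have hz0 : z ≠ 0 := by
    intro h0
    rw [h0, zero_pow (by norm_num)] at hz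
    exact a.ne_zero ((map_eq_zero _).mp hz.symm)
  obtain ⟨e, he1, he2⟩ := Fermat.Agent.S59.s59stv_val hℓ hAℓ hz0 (hfix A hAℓ)
  refine ⟨e, ?_, ?_⟩
  · rw [← hmem, map_mul, map_zpow₀, map_natCast, ← hz]
    have : z ^ 2 * ((ℓ : ℕ) : Qb) ^ (2 * e) = (z * ((ℓ : ℕ) : Qb) ^ e) ^ 2 := by
      rw [mul_pow, ← zpow_natCast (((ℓ : ℕ) : Qb) ^ e) 2, ← zpow_mul, mul_comm e]
      rfl
    rw [this]
    exact A.toSubring.pow_mem he1 2
  · rw [← hmem, map_inv₀, map_mul, map_zpow₀, map_natCast, ← hz]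
    have : (z ^ 2 * ((ℓ : ℕ) : Qb) ^ (2 * e))⁻¹ = ((z * ((ℓ : ℕ) : Qb) ^ e)⁻¹) ^ 2 := by
      rw [inv_pow, mul_pow, ← zpow_natCast (((ℓ : ℕ) : Qb) ^ e) 2, ← zpow_mul, mul_comm e]
      rfl
    rw [this]
    exact A.toSubring.pow_mem he2 2

/-- **RAM**: `z² = a ∈ Kˣ` and `z` fixed by all inertia groups over the primes `ℓ ∉ S` ⇒ the class
of `a` lies in the Selmer group `K⟮S_K, 2⟯`. -/
theorem s17rm_mem_selmer (S : Finset ℕ) (a : Kˣ) (z : Qb)
    (hz : z ^ 2 = algebraMap K Qb (a : K))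
    (hfix : ∀ ℓ : ℕ, ℓ.Prime → ℓ ∉ S → ∀ A : ValuationSubring Qb, A.LiesOverPrime ℓ →
      ∀ σ ∈ A.inertiaSubgroupIn ℚ, σ z = z) :
    (QuotientGroup.mk a : Kˣ ⧸ (powMonoidHom 2 : Kˣ →* Kˣ).range) ∈
      IsDedekindDomain.selmerGroup (R := 𝓞 K) (K := K) (S := s17rmS K S) (n := 2) := by
  intro v hvS
  obtain ⟨ℓ, hℓ, hv⟩ := s17rm_exists_prime K v
  have hℓS : ℓ ∉ S := fun h => hvS ⟨ℓ, h, hℓ, hv⟩
  obtain ⟨e, he1, he2⟩ := s17rm_even K v ℓ hℓ hv a z hz (hfix ℓ hℓ hℓS)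
  have hℓ0 : ((ℓ : ℕ) : K) ≠ 0 := Nat.cast_ne_zero.mpr hℓ.ne_zero
  let L : Kˣ := Units.mk0 _ hℓ0
  have hx : v.valuationOfNeZero (a * L ^ (2 * e)) = 1 := by
    apply s17rm_valuationOfNeZero_eq_one
    · simpa [L] using he1
    · simpa [L] using he2
  refine s17rm_unit_at v 2 a (a * L ^ (2 * e)) (L ^ (-e)) ?_ hx
  rw [mul_assoc, ← zpow_natCast (L ^ (-e)) 2, ← zpow_mul, ← zpow_add]
  have : 2 * e + -e * ((2 : ℕ) : ℤ) = 0 := by push_cast; ring
  rw [this, zpow_zero, mul_one]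

end Ram

end Fermat.Agent.S17
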