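/-
S17 sprint (item 17, Mordell–Weil for `J₀(N)`), leaf SEL-FIN, TWIN with representatives (helper33; owner of SEL-FIN = helper58): **finiteness of the
Selmer group `K(S, n)`** of a number field (Mathlib has the definition
`IsDedekindDomain.selmerGroup` and the finiteness as a TODO).  Pure Mathlib.

`R` a Dedekind domain with fraction field `K`, `n > 0`.

* `s17sr_count_mul`, `s17sr_count_inv` : the order `count K v (x)` is additive in `x : Kˣ`;
* `s17sr_exists_root`   : a nonzero fractional ideal all of whose orders are divisible by `n`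
                          is an `n`-th power;
* `s17sr_reps_empty`    : if the class group is finite and `Rˣ / (Rˣ)ⁿ` is finite, there is a
                          FINITE set `T ⊂ Kˣ` such that every `x` whose principal ideal is an
                          `n`-th power is `t · yⁿ` with `t ∈ T`;
* `s17sr_reps`          : the same for the elements whose orders are divisible by `n` OUTSIDE a
                          finite set `S` of primes;
* `s17sr_units_finite`  : `(𝓞 K)ˣ / ((𝓞 K)ˣ)ⁿ` is finite (Dirichlet);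
* **`s17sr_main`**      : `K` a number field, `S` a finite set of primes of `𝓞 K`, `n > 0`:
                          `∃ T ⊂ Kˣ` finite, every `x ∈ Kˣ` with `n ∣ ord_v x` for all `v ∉ S`
                          is `t · yⁿ`, `t ∈ T`.
-/
import Mathlib

set_option autoImplicit false
set_option linter.unusedSectionVars false
set_option linter.style.haveILetI false

noncomputable section

namespace Fermat.Agent.S17

open IsDedekindDomain FractionalIdeal
open scoped nonZeroDivisors

section Abstract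

variable {R : Type*} [CommRing R] [IsDedekindDomain R] {K : Type*} [Field K] [Algebra R K]
  [IsFractionRing R K]

/-- the order of the principal ideal of `x : Kˣ` at `v`. -/
def s17srOrd (v : HeightOneSpectrum R) (x : Kˣ) : ℤ :=
  count K v (spanSingleton R⁰ (x : K))

theorem s17sr_span_ne_zero (x : Kˣ) : spanSingleton R⁰ (x : K) ≠ 0 :=
  spanSingleton_ne_zero_iff.mpr x.ne_zero

theorem s17sr_count_mul (v : HeightOneSpectrum R) (x y : Kˣ) :
    s17srOrd v (x * y) = s17srOrd v x + s17srOrd v y := by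
  unfold s17srOrd
  rw [Units.val_mul, ← spanSingleton_mul_spanSingleton,
    count_mul K v (s17sr_span_ne_zero x) (s17sr_span_ne_zero y)]

theorem s17sr_count_one (v : HeightOneSpectrum R) : s17srOrd v (1 : Kˣ) = 0 := by
  unfold s17srOrd
  rw [Units.val_one, spanSingleton_one, count_one]

theorem s17sr_count_inv (v : HeightOneSpectrum R) (x : Kˣ) :
    s17srOrd v x⁻¹ = - s17srOrd v x := by
  have h := s17sr_count_mul v x x⁻¹
  rw [mul_inv_cancel, s17sr_count_one] at h
  linarith

theorem s17sr_count_pow (v : HeightOneSpectrum R) (x : Kˣ) (n : ℕ) :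
    s17srOrd v (x ^ n) = n * s17srOrd v x := by
  induction n with
  | zero => simp [s17sr_count_one]
  | succ k ih =>
    rw [pow_succ, s17sr_count_mul, ih]
    push_cast
    ring

/-- a nonzero fractional ideal all of whose orders are divisible by `n` is an `n`-th power. -/
theorem s17sr_exists_root (n : ℕ) (I : FractionalIdeal R⁰ K) (hI : I ≠ 0)
    (h : ∀ v : HeightOneSpectrum R, (n : ℤ) ∣ count K v I) :
    ∃ J : FractionalIdeal R⁰ K, J ≠ 0 ∧ J ^ n = I := by
  classical
  let e : HeightOneSpectrum R → ℤ := fun v => count K v I / n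
  have hfin : ∀ᶠ v : HeightOneSpectrum R in Filter.cofinite, e v = 0 := by
    filter_upwards [FractionalIdeal.finite_factors I] with v hv
    simp only [e, hv, Int.zero_ediv]
  have hfin' : {v : HeightOneSpectrum R | e v ≠ 0}.Finite := hfin
  have hJ0 : (∏ᶠ v : HeightOneSpectrum R, (v.asIdeal : FractionalIdeal R⁰ K) ^ e v) ≠ 0 := by
    rw [finprod_eq_finsetProd_of_mulSupport_subset (s := hfin'.toFinset)]
    · refine Finset.prod_ne_zero_iff.mpr fun v _ => ?_
      exact zpow_ne_zero _ (coeIdeal_ne_zero.mpr v.ne_bot)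
    · intro v hv
      rw [Set.Finite.coe_toFinset]
      intro h0
      rw [Function.mem_mulSupport] at hv
      apply hv
      have : e v = 0 := h0
      rw [this, zpow_zero]
  refine ⟨_, hJ0, ?_⟩
  have hJn : (∏ᶠ v : HeightOneSpectrum R, (v.asIdeal : FractionalIdeal R⁰ K) ^ e v) ^ n ≠ 0 :=
    pow_ne_zero _ hJ0
  rw [← finprod_heightOneSpectrum_factorization' K hJn,
    ← finprod_heightOneSpectrum_factorization' K hI]
  refine finprod_congr fun v => ?_
  congr 1
  rw [count_pow, count_finprod K v e hfin]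
  exact Int.mul_ediv_cancel' (h v)

variable (R K) in
/-- the group of classes of invertible fractional ideals, in `K`. -/
abbrev s17srCl : Type _ := (FractionalIdeal R⁰ K)ˣ ⧸ (toPrincipalIdeal R K).range

theorem s17sr_cl_finite [Finite (ClassGroup R)] : Finite (s17srCl R K) :=
  Finite.of_equiv _ (ClassGroup.equiv (R := R) K).toEquiv

/-- the kernel of `x ↦ (x)`: the units of `R`. -/
theorem s17sr_principal_eq {x y : Kˣ} (h : toPrincipalIdeal R K x = toPrincipalIdeal R K y) :
    ∃ w : Rˣ, Units.map (algebraMap R K : R →* K) w * x = y := by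
  have h1 : spanSingleton R⁰ (x : K) = spanSingleton R⁰ (y : K) := by
    have := congrArg (fun I : (FractionalIdeal R⁰ K)ˣ => (I : FractionalIdeal R⁰ K)) h
    simpa only [coe_toPrincipalIdeal] using this
  obtain ⟨w, hw⟩ := (spanSingleton_eq_spanSingleton (S := R⁰)).mp h1
  refine ⟨w, Units.ext ?_⟩
  rw [Units.val_mul, Units.coe_map, ← hw, Units.smul_def, Algebra.smul_def]
  rfl

/-- **SEL-FIN, `S = ∅`**: representatives modulo `n`-th powers of the elements whose principal
ideal is an `n`-th power. -/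
theorem s17sr_reps_empty (n : ℕ) [Finite (ClassGroup R)]
    (hU : Finite (Rˣ ⧸ (powMonoidHom n : Rˣ →* Rˣ).range)) :
    ∃ T : Set Kˣ, T.Finite ∧ ∀ x : Kˣ,
      (∃ J : (FractionalIdeal R⁰ K)ˣ, J ^ n = toPrincipalIdeal R K x) →
      ∃ t ∈ T, ∃ y : Kˣ, x = t * y ^ n := by
  classical
  haveI : Finite (s17srCl R K) := s17sr_cl_finite
  haveI := hU
  let P : s17srCl R K → Kˣ → Prop := fun c x =>
    ∃ J : (FractionalIdeal R⁰ K)ˣ, J ^ n = toPrincipalIdeal R K x ∧
      (QuotientGroup.mk J : s17srCl R K) = c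
  let rep : s17srCl R K → Kˣ := fun c => if h : ∃ x, P c x then h.choose else 1
  let u : (Rˣ ⧸ (powMonoidHom n : Rˣ →* Rˣ).range) → Rˣ := fun e => Quotient.out e
  refine ⟨Set.range fun p : s17srCl R K × (Rˣ ⧸ (powMonoidHom n : Rˣ →* Rˣ).range) =>
    Units.map (algebraMap R K : R →* K) (u p.2) * rep p.1, Set.finite_range _, ?_⟩
  rintro x ⟨J, hJ⟩
  have hex : ∃ x', P (QuotientGroup.mk J) x' := ⟨x, J, hJ, rfl⟩
  have hrep : P (QuotientGroup.mk J) (rep (QuotientGroup.mk J)) := by
    simp only [rep, dif_pos hex]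
    exact hex.choose_spec
  obtain ⟨J', hJ', hcl⟩ := hrep
  -- `J' = J · (z)`
  obtain ⟨z, hz⟩ : ∃ z : Kˣ, toPrincipalIdeal R K z = J⁻¹ * J' := by
    have := (QuotientGroup.eq (s := (toPrincipalIdeal R K).range)).mp hcl.symm
    exact this
  -- `(rep) = (x · zⁿ)`
  have hprin : toPrincipalIdeal R K (x * z ^ n) =
      toPrincipalIdeal R K (rep (QuotientGroup.mk J)) := by
    rw [map_mul, map_pow, hz, ← hJ, ← hJ', mul_pow, ← mul_assoc, ← mul_pow, mul_inv_cancel,
      one_pow, one_mul]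
  obtain ⟨w, hw⟩ := s17sr_principal_eq hprin
  -- `w⁻¹ = u_e · sⁿ`
  obtain ⟨s, hs⟩ : ∃ s : Rˣ, s ^ n = (u (QuotientGroup.mk w⁻¹))⁻¹ * w⁻¹ := by
    have h1 : (QuotientGroup.mk (u (QuotientGroup.mk w⁻¹)) :
        Rˣ ⧸ (powMonoidHom n : Rˣ →* Rˣ).range) = QuotientGroup.mk w⁻¹ :=
      Quotient.out_eq _
    have h2 := (QuotientGroup.eq (s := (powMonoidHom n : Rˣ →* Rˣ).range)).mp h1
    obtain ⟨s, hs⟩ := h2
    exact ⟨s, hs⟩
  refine ⟨_, ⟨(QuotientGroup.mk J, QuotientGroup.mk w⁻¹), rfl⟩,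
    Units.map (algebraMap R K : R →* K) s * z⁻¹, ?_⟩
  -- `x = u_e · rep · (s · z⁻¹)ⁿ`, from `rep = w x zⁿ` and `w⁻¹ = u_e sⁿ`
  have hw' : rep (QuotientGroup.mk J) = Units.map (algebraMap R K : R →* K) w * (x * z ^ n) :=
    hw.symm
  have hs' : Units.map (algebraMap R K : R →* K) s ^ n =
      (Units.map (algebraMap R K : R →* K) (u (QuotientGroup.mk w⁻¹)))⁻¹ *
        (Units.map (algebraMap R K : R →* K) w)⁻¹ := by
    rw [← map_pow, hs, map_mul, map_inv, map_inv]
  show x = Units.map (algebraMap R K : R →* K) (u (QuotientGroup.mk w⁻¹)) *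
    rep (QuotientGroup.mk J) * (Units.map (algebraMap R K : R →* K) s * z⁻¹) ^ n
  rw [hw', mul_pow, hs', inv_pow]
  generalize Units.map (algebraMap R K : R →* K) (u (QuotientGroup.mk w⁻¹)) = U
  generalize Units.map (algebraMap R K : R →* K) w = W
  generalize z ^ n = Z
  have : U * (W * (x * Z)) * (U⁻¹ * W⁻¹ * Z⁻¹) = x * (U * U⁻¹) * (W * W⁻¹) * (Z * Z⁻¹) := by
    simp only [mul_assoc, mul_left_comm]
  rw [this, mul_inv_cancel, mul_inv_cancel, mul_inv_cancel, mul_one, mul_one, mul_one]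

/-- **SEL-FIN, count form**: representatives modulo `n`-th powers of the elements all of whose
orders outside a finite set `S` of primes are divisible by `n`. -/
theorem s17sr_reps (n : ℕ) (hn : 0 < n) [Finite (ClassGroup R)]
    (hU : Finite (Rˣ ⧸ (powMonoidHom n : Rˣ →* Rˣ).range))
    (S : Set (HeightOneSpectrum R)) (hS : S.Finite) :
    ∃ T : Set Kˣ, T.Finite ∧ ∀ x : Kˣ,
      (∀ v : HeightOneSpectrum R, v ∉ S → (n : ℤ) ∣ s17srOrd v x) →
      ∃ t ∈ T, ∃ y : Kˣ, x = t * y ^ n := by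
  classical
  obtain ⟨T₀, hT₀, hT₀'⟩ := s17sr_reps_empty (R := R) (K := K) n hU
  haveI : NeZero n := ⟨hn.ne'⟩
  haveI : Finite S := hS
  -- the residues of the orders at `S`
  let ε : Kˣ → (S → ZMod n) := fun x v => ((s17srOrd (v : HeightOneSpectrum R) x : ℤ) : ZMod n)
  let P : (S → ZMod n) → Kˣ → Prop := fun e x =>
    (∀ v : HeightOneSpectrum R, v ∉ S → (n : ℤ) ∣ s17srOrd v x) ∧ ε x = e
  let rep : (S → ZMod n) → Kˣ := fun e => if h : ∃ x, P e x then h.choose else 1
  refine ⟨Set.image2 (fun a b => a * b) (Set.range rep) T₀,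
    Set.Finite.image2 _ (Set.finite_range _) hT₀, ?_⟩
  intro x hx
  have hex : ∃ x', P (ε x) x' := ⟨x, hx, rfl⟩
  have hrep : P (ε x) (rep (ε x)) := by
    simp only [rep, dif_pos hex]
    exact hex.choose_spec
  obtain ⟨hr1, hr2⟩ := hrep
  -- `x / rep` has all orders divisible by `n`
  have hall : ∀ v : HeightOneSpectrum R, (n : ℤ) ∣ s17srOrd v (x * (rep (ε x))⁻¹) := by
    intro v
    rw [s17sr_count_mul, s17sr_count_inv, ← sub_eq_add_neg]
    by_cases hv : v ∈ S
    · have h1 := congrFun hr2 ⟨v, hv⟩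
      have h2 : ((s17srOrd v (rep (ε x)) : ℤ) : ZMod n) = ((s17srOrd v x : ℤ) : ZMod n) := h1
      have h3 : (((s17srOrd v x - s17srOrd v (rep (ε x)) : ℤ)) : ZMod n) = 0 := by
        rw [Int.cast_sub, h2, sub_self]
      exact (ZMod.intCast_zmod_eq_zero_iff_dvd _ n).mp h3
    · exact dvd_sub (hx v hv) (hr1 v hv)
  obtain ⟨J, hJ0, hJ⟩ := s17sr_exists_root n (spanSingleton R⁰ ((x * (rep (ε x))⁻¹ : Kˣ) : K))
    (s17sr_span_ne_zero _) hall
  have hJu : ∃ J' : (FractionalIdeal R⁰ K)ˣ, J' ^ n = toPrincipalIdeal R K (x * (rep (ε x))⁻¹) := by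
    refine ⟨Units.mk0 J hJ0, Units.ext ?_⟩
    rw [Units.val_pow_eq_pow_val, Units.val_mk0, hJ, coe_toPrincipalIdeal]
  obtain ⟨t, ht, y, hy⟩ := hT₀' _ hJu
  refine ⟨rep (ε x) * t, ⟨rep (ε x), ⟨ε x, rfl⟩, t, ht, rfl⟩, y, ?_⟩
  rw [mul_assoc, ← hy, mul_comm x, ← mul_assoc, mul_inv_cancel, one_mul]

end Abstract

section NumberField

open NumberField

variable (K : Type*) [Field K] [NumberField K]

/-- `(𝓞 K)ˣ / ((𝓞 K)ˣ)ⁿ` is finite (Dirichlet). -/
theorem s17sr_units_finite (n : ℕ) (hn : 0 < n) :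
    Finite ((𝓞 K)ˣ ⧸ (powMonoidHom n : (𝓞 K)ˣ →* (𝓞 K)ˣ).range) := by
  haveI : Group.FG (𝓞 K)ˣ := Group.fg_iff_monoid_fg.mpr inferInstance
  apply CommGroup.finite_of_fg_isMulTorsion
  intro q
  obtain ⟨u, rfl⟩ := QuotientGroup.mk_surjective q
  rw [isOfFinOrder_iff_pow_eq_one]
  refine ⟨n, hn, ?_⟩
  rw [← QuotientGroup.mk_pow, QuotientGroup.eq_one_iff]
  exact ⟨u, rfl⟩

/-- **SEL-FIN** for a number field, count form. -/
theorem s17sr_main (n : ℕ) (hn : 0 < n) (S : Set (HeightOneSpectrum (𝓞 K))) (hS : S.Finite) :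
    ∃ T : Set Kˣ, T.Finite ∧ ∀ x : Kˣ,
      (∀ v : HeightOneSpectrum (𝓞 K), v ∉ S → (n : ℤ) ∣ s17srOrd v x) →
      ∃ t ∈ T, ∃ y : Kˣ, x = t * y ^ n :=
  s17sr_reps (R := 𝓞 K) (K := K) n hn (s17sr_units_finite K n hn) S hS

end NumberField

section Selmer

variable {R : Type*} [CommRing R] [IsDedekindDomain R] {K : Type*} [Field K] [Algebra R K]
  [IsFractionRing R K]

/-- Mathlib's valuation modulo `n`, computed. -/
theorem s17sr_mod_eq (v : HeightOneSpectrum R) (n : ℕ) (x : Kˣ) :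
    v.valuationOfNeZeroMod n (QuotientGroup.mk x : Kˣ ⧸ (powMonoidHom n : Kˣ →* Kˣ).range) =
      Multiplicative.ofAdd (((Multiplicative.toAdd (v.valuationOfNeZero x) : ℤ)) : ZMod n) := by
  rfl

/-- the order of the principal ideal is minus the exponent of the valuation. -/
theorem s17sr_ord_eq (v : HeightOneSpectrum R) (x : Kˣ) :
    s17srOrd v x = - Multiplicative.toAdd (v.valuationOfNeZero x) := by
  classical
  unfold s17srOrd
  have hsec := IsLocalization.sec_spec R⁰ (x : K)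
  set a := (IsLocalization.sec R⁰ (x : K)).1 with ha
  set b := (IsLocalization.sec R⁰ (x : K)).2 with hb
  have hb0 : algebraMap R K (b : R) ≠ 0 :=
    IsLocalization.to_map_ne_zero_of_mem_nonZeroDivisors K le_rfl b.2
  have hI : spanSingleton R⁰ (x : K) =
      spanSingleton R⁰ ((algebraMap R K) (b : R))⁻¹ * ↑(Ideal.span {a} : Ideal R) := by
    rw [coeIdeal_span_singleton, spanSingleton_mul_spanSingleton]
    congr 1
    rw [← hsec]
    field_simp
  rw [count_well_defined K v (spanSingleton_ne_zero_iff.mpr x.ne_zero) hI]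
  show _ = - ((-((Associates.mk v.asIdeal).count (Associates.mk (Ideal.span {a})).factors : ℤ)) -
    (-((Associates.mk v.asIdeal).count (Associates.mk (Ideal.span {(b : R)})).factors : ℤ)))
  ring

/-- membership in Mathlib's Selmer group, in terms of the orders. -/
theorem s17sr_mem_selmer_iff (S : Set (HeightOneSpectrum R)) (n : ℕ) (x : Kˣ) :
    (QuotientGroup.mk x : Kˣ ⧸ (powMonoidHom n : Kˣ →* Kˣ).range) ∈
        IsDedekindDomain.selmerGroup (R := R) (K := K) (S := S) (n := n) ↔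
      ∀ v : HeightOneSpectrum R, v ∉ S → (n : ℤ) ∣ s17srOrd v x := by
  refine forall_congr' fun v => imp_congr_right fun _ => ?_
  rw [s17sr_mod_eq, s17sr_ord_eq, dvd_neg, ← ZMod.intCast_zmod_eq_zero_iff_dvd]
  exact Iff.rfl

end Selmer

section Main

open NumberField

variable (K : Type*) [Field K] [NumberField K]

/-- **SEL-FIN, representatives**: a finite set `T ⊂ Kˣ` such that every `a` whose class lies in
the Selmer group `K⟮S, n⟯` is `t · yⁿ` with `t ∈ T`. -/
theorem s17sr_selmer_reps (n : ℕ) (hn : 0 < n) (S : Set (HeightOneSpectrum (𝓞 K)))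
    (hS : S.Finite) :
    ∃ T : Set Kˣ, T.Finite ∧ ∀ a : Kˣ,
      (QuotientGroup.mk a : Kˣ ⧸ (powMonoidHom n : Kˣ →* Kˣ).range) ∈
        IsDedekindDomain.selmerGroup (R := 𝓞 K) (K := K) (S := S) (n := n) →
      ∃ t ∈ T, ∃ y : Kˣ, a = t * y ^ n := by
  obtain ⟨T, hT, h⟩ := s17sr_main K n hn S hS
  exact ⟨T, hT, fun a ha => h a ((s17sr_mem_selmer_iff S n a).mp ha)⟩

/-- **SEL-FIN**: the Selmer group `K⟮S, n⟯` of a number field is finite (`S` finite, `n > 0`). -/
theorem s17sr_selmer_finite (n : ℕ) (hn : 0 < n) (S : Set (HeightOneSpectrum (𝓞 K)))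
    (hS : S.Finite) :
    Finite (IsDedekindDomain.selmerGroup (R := 𝓞 K) (K := K) (S := S) (n := n)) := by
  obtain ⟨T, hT, h⟩ := s17sr_selmer_reps K n hn S hS
  have hsub : (IsDedekindDomain.selmerGroup (R := 𝓞 K) (K := K) (S := S) (n := n) :
      Set (Kˣ ⧸ (powMonoidHom n : Kˣ →* Kˣ).range)) ⊆
      (fun t : Kˣ => (QuotientGroup.mk t : Kˣ ⧸ (powMonoidHom n : Kˣ →* Kˣ).range)) '' T := by
    intro q hq
    obtain ⟨a, rfl⟩ := QuotientGroup.mk_surjective q
    obtain ⟨t, ht, y, hy⟩ := h a hq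
    refine ⟨t, ht, ?_⟩
    show (QuotientGroup.mk t : Kˣ ⧸ (powMonoidHom n : Kˣ →* Kˣ).range) = QuotientGroup.mk a
    rw [QuotientGroup.eq]
    refine ⟨y, ?_⟩
    rw [hy, powMonoidHom_apply, ← mul_assoc, inv_mul_cancel, one_mul]
  exact ((hT.image _).subset hsub).to_subtype

end Main

end Fermat.Agent.S17
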