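/-
S17 sprint, layer W, leaf **W2c, last glue** (helper53): **(RS) from RAM + SEL-FIN**, hence
`S17kaFin N 2` (the field `ℚ(½ J₀(N)(ℚ))` is a number field) from (tors) + (open) + (unr).

* `s17ks_RS S`  : `S17kqRS S` for every finite set `S` of primes: over a number field `E₀ ⊂ ℚ̄` the
  square roots of elements of `E₀` that are fixed by all inertia groups outside `S` lie in ONE
  number field `E₁ = E₀(√t : t ∈ T)`, `T` = representatives of the Selmer group `E₀(S, 2)`
  (RAM = `s17rm_mem_selmer`, helper33 + helper43; SEL-FIN = `s17sr_selmer_reps`, helper33).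
* `s17ks_fin`   : (tors) + (open) + (unr outside `S`) ⇒ `S17kaFin N 2`.
* `s17ks_weak`  : (div) + (tors) + (open) + (unr outside `S`) ⇒ `S17IsWeak N 2`.
-/
import Fermat.Agent.S17.KumQuad
import Fermat.Agent.S17.Ram
import Fermat.Agent.S17.SelReps

set_option autoImplicit false
set_option linter.style.haveILetI false
set_option linter.unusedSectionVars false

noncomputable section

namespace Fermat.Agent.S17

open IsDedekindDomain NumberField IntermediateField ModularCurve AlgebraicCurve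

/-- **(RS)** for every finite set of primes. -/
theorem s17ks_RS (S : Finset ℕ) : S17kqRS (S : Set ℕ) := by
  classical
  intro E₀ hE₀ _
  haveI : NumberField ↥E₀ := { to_charZero := inferInstance, to_finiteDimensional := hE₀ }
  obtain ⟨T, hT, hreps⟩ := s17sr_selmer_reps (↥E₀) 2 (by norm_num) (s17rmS (↥E₀) S)
    (s17rm_S_finite (↥E₀) S)
  -- square roots of the representatives
  have hroot : ∀ t : (↥E₀)ˣ, ∃ z : AlgebraicClosure ℚ, z ^ 2 = ((t : ↥E₀) : AlgebraicClosure ℚ) :=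
    fun t => IsAlgClosed.exists_pow_nat_eq _ (by norm_num)
  choose z hz using hroot
  have hZ : (z '' T).Finite := hT.image z
  haveI : Algebra.IsAlgebraic ℚ (AlgebraicClosure ℚ) := by
    haveI := s17kq_isGalois
    infer_instance
  haveI : Finite ↥(z '' T) := hZ.to_subtype
  haveI : FiniteDimensional ℚ (IntermediateField.adjoin ℚ (z '' T)) :=
    IntermediateField.finiteDimensional_adjoin
      (fun x _ => (Algebra.IsAlgebraic.isAlgebraic x).isIntegral)
  refine ⟨E₀ ⊔ IntermediateField.adjoin ℚ (z '' T), IntermediateField.finiteDimensional_sup _ _, ?_⟩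
  intro α hα hfix
  by_cases h0 : α = 0
  · rw [h0]
    exact zero_mem _
  have ha0 : (⟨α ^ 2, hα⟩ : ↥E₀) ≠ 0 := by
    intro h
    exact h0 (pow_eq_zero_iff (n := 2) (by norm_num) |>.1 (congrArg Subtype.val h))
  have hmem := s17rm_mem_selmer (↥E₀) S (Units.mk0 ⟨α ^ 2, hα⟩ ha0) α rfl
    (fun ℓ hℓ hℓS A hA σ hσ => hfix σ ⟨ℓ, hℓ, fun h => hℓS (Finset.mem_coe.1 h), A, hA, hσ⟩)
  obtain ⟨t, ht, y, hy⟩ := hreps _ hmem
  have e : α ^ 2 = (z t * ((y : ↥E₀) : AlgebraicClosure ℚ)) ^ 2 := by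
    rw [mul_pow, hz t]
    have h1 := congrArg (fun u : (↥E₀)ˣ => (((u : ↥E₀)) : AlgebraicClosure ℚ)) hy
    simpa using h1
  have hzE : z t ∈ E₀ ⊔ IntermediateField.adjoin ℚ (z '' T) :=
    (le_sup_right : IntermediateField.adjoin ℚ (z '' T) ≤ _)
      (IntermediateField.subset_adjoin ℚ _ ⟨t, ht, rfl⟩)
  have hyE : ((y : ↥E₀) : AlgebraicClosure ℚ) ∈ E₀ ⊔ IntermediateField.adjoin ℚ (z '' T) :=
    (le_sup_left : E₀ ≤ _) (y : ↥E₀).2
  rcases sq_eq_sq_iff_eq_or_eq_neg.1 e with h | h <;> rw [h]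
  · exact mul_mem hzE hyE
  · exact neg_mem (mul_mem hzE hyE)

/-- **(fin)** for `J₀(N)`, `m = 2`: (tors) + (open) + (unr outside `S`) ⇒ `S17kaFin N 2`. -/
theorem s17ks_fin (N : ℕ) [NeZero N] (S : Finset ℕ) (htors : S17kaTors N 2)
    (hopen : S17kqOpen N) (hunr : S17kqUnr N (S : Set ℕ)) : S17kaFin N 2 :=
  s17kq_fin N (S : Set ℕ) htors hopen hunr (s17ks_RS S)

/-- **weak Mordell–Weil** (`m = 2`) from (div) + (tors) + (open) + (unr outside `S`). -/
theorem s17ks_weak (N : ℕ) [NeZero N] (S : Finset ℕ) (hdiv : S17kaDiv N 2)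
    (htors : S17kaTors N 2) (hopen : S17kqOpen N) (hunr : S17kqUnr N (S : Set ℕ)) :
    S17IsWeak N 2 :=
  s17kq_weak N (S : Set ℕ) hdiv htors hopen hunr (s17ks_RS S)

end Fermat.Agent.S17

end
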