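/-
S17 sprint, COST CUT — **weak Mordell–Weil at `2` and the TOP at `16`, PT/TW-free** (helper90,
double of helper53's S17/WeakTwo.lean and helper71's S17/WeakTwoB.lean; own prefix `s17w2d_`).

The closure of the landed top (`s17s9_result_346`, S17/StageTopNine.lean) contains PT/TW
(≈ 400 modules) ONLY through weak Mordell–Weil at `3` (`TW.G.stmtLevFin`).  Here the multiplier is
`2`: Kummer theory (S17/KumQuad.lean, S17/KumSel.lean) replaces the finiteness of `H¹`.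

* `s17w2d_fin_abs`  : `s17kq_fin_abs` with (unr) asked ONLY at the `y` with `2 • y` rational (the
                      shape that `s17h90u_unr_two` provides);
* `s17w2d_open`     : (open) from `S15.selfl_exists_field'`;
* `s17w2d_fin`      : `S17kaFin N 2`;
* `s17w2d_weak`     : **`S17IsWeak N 2`**, unconditional;
* `s17w2d_weak16`, `s17w2d_tors16` : WEAK and TORS at `16 = 2 ^ 4`;
* `s17w2d_stmt16`   : `S17sxStmt 2 a b → S17sxStmt 16 a (b ^ 4)`;
* `s17w2d_result`   : `S17sxStmt 2 a b → (frozen type of S17)` whenever `0 < a`, `0 ≤ b`,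
                      `a ^ 2 < b ^ 4`;
* `s17w2d_result_243` : the constants `(m, a, b) = (2, 4, 3)`  (`16 < 81`).
-/
import Fermat.Agent.S17.KumSel
import Fermat.Agent.S17.H90Unr
import Fermat.Agent.S17.Tors
import Fermat.Agent.S17.DivClosed
import Fermat.Agent.S17.StageTop
import Fermat.Agent.S17.TopNine
import Fermat.Agent.S15.SelFL

set_option autoImplicit false
set_option linter.unusedVariables false
set_option linter.unusedSectionVars false
set_option linter.style.haveILetI false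
set_option linter.style.longLine false

noncomputable section

namespace Fermat.Agent.S17

open ModularCurve AlgebraicCurve IntermediateField

section glue

variable {k K : Type*} [Field k] [Field K] [Algebra k K] [IsGalois k K]
  {J : Type*} [AddCommGroup J] [DistribMulAction (K ≃ₐ[k] K) J]

/-- **the glue of `s17kq_fin_abs`, weak (unr)**: (unr) is asked only at the `y` with `2 • y`
rational. -/
theorem s17w2d_fin_abs (h2 : (2 : K) ≠ 0) (I : Set (K ≃ₐ[k] K))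
    (htors : {t : J | 2 • t = 0}.Finite)
    (hopen : ∀ y : J, ∃ E : IntermediateField k K, FiniteDimensional k E ∧
      ∀ σ ∈ E.fixingSubgroup, σ • y = y)
    (hunr : ∀ σ ∈ I, ∀ y : J, (∀ τ : K ≃ₐ[k] K, τ • (2 • y) = 2 • y) → σ • y = y)
    (hRS : ∀ E₀ : IntermediateField k K, FiniteDimensional k E₀ →
      (∀ σ ∈ I, σ ∈ E₀.fixingSubgroup) →
      ∃ E₁ : IntermediateField k K, FiniteDimensional k E₁ ∧
        ∀ α : K, α ^ 2 ∈ E₀ → (∀ σ ∈ I, σ α = α) → α ∈ E₁) :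
    ∃ E : IntermediateField k K, FiniteDimensional k E ∧
      ∀ y : J, (∀ σ : K ≃ₐ[k] K, σ • (2 • y) = 2 • y) → ∀ σ ∈ E.fixingSubgroup, σ • y = y := by
  classical
  obtain ⟨E₀, hE₀, hE₀S⟩ := s17kq_unramField htors hopen
  have hIE₀ : ∀ σ ∈ I, σ ∈ E₀.fixingSubgroup := by
    intro σ hσ
    rw [hE₀S]
    intro t ht
    refine hunr σ hσ t ?_
    intro τ
    rw [ht, smul_zero]
  obtain ⟨E₁, hE₁, hRS₁⟩ := hRS E₀ hE₀ hIE₀
  refine ⟨E₀ ⊔ E₁, IntermediateField.finiteDimensional_sup E₀ E₁, ?_⟩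
  intro y hy σ hσ
  have hσ₀ : σ ∈ E₀.fixingSubgroup := IntermediateField.fixingSubgroup_le le_sup_left hσ
  have hσ₁ : σ ∈ E₁.fixingSubgroup := IntermediateField.fixingSubgroup_le le_sup_right hσ
  -- the cocycle of `y`
  have hc : ∀ τ : K ≃ₐ[k] K, 2 • (τ • y - y) = 0 := by
    intro τ
    rw [smul_sub, smul_comm, hy τ, sub_self]
  -- the `2`-torsion as a vector space over `ZMod 2`
  let Tg : AddSubgroup J := (nsmulAddMonoidHom (α := J) 2).ker
  have hTg : ∀ t : J, t ∈ Tg ↔ 2 • t = 0 := fun t => by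
    rw [AddMonoidHom.mem_ker, nsmulAddMonoidHom_apply]
  letI : Module (ZMod 2) Tg := AddCommGroup.zmodModule (n := 2) (fun x => by
    apply Subtype.ext
    rw [AddSubgroup.coe_nsmul]
    exact (hTg _).1 x.2)
  by_contra hne
  have ht₀ : (⟨σ • y - y, (hTg _).2 (hc σ)⟩ : Tg) ≠ 0 := by
    intro h
    apply hne
    have := congrArg Subtype.val h
    exact sub_eq_zero.1 this
  obtain ⟨lam, hlam⟩ := Module.Projective.exists_dual_ne_zero (ZMod 2) ht₀
  let χ : (K ≃ₐ[k] K) → ZMod 2 := fun τ => lam ⟨τ • y - y, (hTg _).2 (hc τ)⟩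
  have hχ : ∀ τ ∈ E₀.fixingSubgroup, ∀ ρ ∈ E₀.fixingSubgroup, χ (τ * ρ) = χ τ + χ ρ := by
    intro τ hτ ρ hρ
    rw [hE₀S] at hτ
    have e : (⟨(τ * ρ) • y - y, (hTg _).2 (hc (τ * ρ))⟩ : Tg) =
        ⟨τ • y - y, (hTg _).2 (hc τ)⟩ + ⟨ρ • y - y, (hTg _).2 (hc ρ)⟩ := by
      apply Subtype.ext
      show (τ * ρ) • y - y = (τ • y - y) + (ρ • y - y)
      have h1 : τ • (ρ • y - y) = ρ • y - y := hτ _ (hc ρ)
      rw [smul_sub] at h1
      rw [mul_smul]
      have : τ • ρ • y - y = (τ • ρ • y - τ • y) + (τ • y - y) := by abel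
      rw [this, h1]
      abel
    show lam _ = lam _ + lam _
    rw [e, map_add]
  obtain ⟨Ey, hEy, hfixy⟩ := hopen y
  have hχE : ∀ τ ∈ E₀.fixingSubgroup, τ ∈ Ey.fixingSubgroup → χ τ = 0 := by
    intro τ _ hτ
    have e : (⟨τ • y - y, (hTg _).2 (hc τ)⟩ : Tg) = 0 := by
      apply Subtype.ext
      show τ • y - y = 0
      rw [hfixy τ hτ, sub_self]
    show lam _ = 0
    rw [e, map_zero]
  obtain ⟨α, -, hα2, hαχ⟩ := s17kq_kummer h2 E₀ Ey χ hχ hχE
  have hαI : ∀ τ ∈ I, τ α = α := by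
    intro τ hτ
    refine (hαχ τ (hIE₀ τ hτ)).1 ?_
    have e : (⟨τ • y - y, (hTg _).2 (hc τ)⟩ : Tg) = 0 := by
      apply Subtype.ext
      show τ • y - y = 0
      rw [hunr τ hτ y hy, sub_self]
    show lam _ = 0
    rw [e, map_zero]
  have hαE₁ : α ∈ E₁ := hRS₁ α hα2 hαI
  have hσα : σ α = α := (IntermediateField.mem_fixingSubgroup_iff _ σ).1 hσ₁ α hαE₁
  exact hlam ((hαχ σ hσ₀).2 hσα)

end glue

/-- **(open)**: every class of `J₀(N)(ℚ̄)` is fixed by an open subgroup of `G_ℚ`. -/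
theorem s17w2d_open (N : ℕ) [NeZero N] : S17kqOpen N := by
  intro y
  obtain ⟨E, hE, h⟩ := Fermat.Agent.S15.selfl_exists_field' N y
  exact ⟨E, hE, fun σ hσ =>
    h σ (fun a ha => (IntermediateField.mem_fixingSubgroup_iff E σ).1 hσ a ha)⟩

/-- **(fin)** at `2`, field form, unconditional. -/
theorem s17w2d_finField (N : ℕ) [NeZero N] : S17kqFinField N := by
  have h2 : (2 : AlgebraicClosure ℚ) ≠ 0 := two_ne_zero
  haveI := s17kq_isGalois
  have h2N : 2 * N ≠ 0 := mul_ne_zero two_ne_zero (NeZero.ne N)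
  obtain ⟨E, hE, hfix⟩ := s17w2d_fin_abs (k := ℚ) (K := AlgebraicClosure ℚ) (J := JZero N) h2
    (S17kqInertia (((2 * N).divisors : Finset ℕ) : Set ℕ)) (s17to_tors_two N) (s17w2d_open N)
    (fun σ hσ y hy => by
      obtain ⟨ℓ, hℓ, hℓS, A, hA, hσA⟩ := hσ
      refine s17h90u_unr_two N y (fun τ => hy τ) ℓ hℓ ?_ A hA σ hσA
      intro hdvd
      exact hℓS (Finset.mem_coe.2 (Nat.mem_divisors.2 ⟨hdvd, h2N⟩)))
    (s17ks_RS ((2 * N).divisors))
  exact ⟨E, hE, fun y hy σ hσ => hfix y (fun τ => hy τ) σ hσ⟩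

/-- **(fin)** at `2`: `S17kaFin N 2`, unconditional. -/
theorem s17w2d_fin (N : ℕ) [NeZero N] : S17kaFin N 2 :=
  s17kq_fin_of_field N 2 (s17w2d_finField N)

/-- **WEAK MORDELL–WEIL for `J₀(N)` at `2`**, unconditional, PT/TW-free. -/
theorem s17w2d_weak (N : ℕ) [NeZero N] : S17IsWeak N 2 :=
  s17ka_weak N 2 (s17dv_kaDiv N 2 (by norm_num)) (s17to_tors_two N) (s17w2d_fin N)

/-- WEAK at `16`. -/
theorem s17w2d_weak16 (N : ℕ) [NeZero N] : S17IsWeak N 16 := by
  have h := s17wm_pow N 2 (s17w2d_weak N) 4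
  have e : (2 : ℕ) ^ 4 = 16 := by norm_num
  rw [e] at h
  exact h

/-- TORS at `16`. -/
theorem s17w2d_tors16 (N : ℕ) [NeZero N] : S17kaTors N 16 := by
  haveI : Fact (Nat.Prime 2) := ⟨Nat.prime_two⟩
  have h := s17to_finite_pow N 2 4
  have e : (2 : ℕ) ^ 4 = 16 := by norm_num
  rw [e] at h
  exact h

/-- the stage statement at `m` gives the stage statement at `m ^ 2`, one level. -/
theorem s17w2d_stmtAt_sq (N : ℕ) [NeZero N] {m : ℕ} {a b : ℝ} (hb : 0 ≤ b)
    (H : S17sxStmtAt N m a b) : S17sxStmtAt N (m ^ 2) a (b ^ 2) := by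
  intro h1 h2
  obtain ⟨x, G₀, O, hc, ι, hι, s, hM, hT, hN⟩ := H h1 h2
  exact ⟨x, G₀, O, hc, ι, hι, s, s17t9_plM_sq hb hM, hT, hN⟩

/-- the stage statement at `2` gives the stage statement at `16`, one level. -/
theorem s17w2d_stmtAt16 (N : ℕ) [NeZero N] {a b : ℝ} (hb : 0 ≤ b)
    (H : S17sxStmtAt N 2 a b) : S17sxStmtAt N 16 a (b ^ 4) := by
  have h4 := s17w2d_stmtAt_sq N hb H
  have h16 := s17w2d_stmtAt_sq N (sq_nonneg b) h4
  have e1 : ((2 : ℕ) ^ 2) ^ 2 = 16 := by norm_num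
  have e2 : (b ^ 2) ^ 2 = b ^ 4 := by ring
  rw [e1, e2] at h16
  exact h16

/-- the stage statement at `2` gives the stage statement at `16`. -/
theorem s17w2d_stmt16 {a b : ℝ} (hb : 0 ≤ b) (H : S17sxStmt 2 a b) :
    S17sxStmt 16 a (b ^ 4) :=
  fun N _ hN hN5 hg => s17w2d_stmtAt16 N hb (H N hN hN5 hg)

/-- the frozen type of S17 from the stage statement at `2`, through the multiplier `16`;
PT/TW-free. -/
theorem s17w2d_result (a b : ℝ) (ha : 0 < a) (hb : 0 ≤ b) (hab : a ^ 2 < b ^ 4)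
    (H : S17sxStmt 2 a b)
    (N : ℕ) [NeZero N] (hN : N.Prime) (hN5 : 5 ≤ N) :
    AddGroup.FG ↥(FixedPoints.addSubgroup ((AlgebraicClosure ℚ) ≃ₐ[ℚ] (AlgebraicClosure ℚ))
      (JZero N)) :=
  s17sx_result 16 a (b ^ 4) ha hab (s17w2d_stmt16 hb H) (fun N _ => s17w2d_tors16 N)
    (fun N _ => s17w2d_weak16 N) N hN hN5

/-- the constants `(m, a, b) = (2, 4, 3)`  (`16 < 81`): what `s17fz_stmtAt` gives at `n = 2`. -/
theorem s17w2d_result_243 (H : S17sxStmt 2 4 3)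
    (N : ℕ) [NeZero N] (hN : N.Prime) (hN5 : 5 ≤ N) :
    AddGroup.FG ↥(FixedPoints.addSubgroup ((AlgebraicClosure ℚ) ≃ₐ[ℚ] (AlgebraicClosure ℚ))
      (JZero N)) :=
  s17w2d_result 4 3 (by norm_num) (by norm_num) (by norm_num) H N hN hN5

end Fermat.Agent.S17

end
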