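/-
S17 sprint, **FINAL ASSEMBLY, LEAN CLOSURE (helper47)**: the frozen type of S17 with a closure
WITHOUT the Poitou–Tate / Taylor–Wiles part (weak Mordell–Weil at `2`, S17/WeakTwoD.lean), to keep
the cold build of the root short.

* `s17alz_at`     : `S17sxStmtAt N 2 4 3` on the model constants (`x = jF N`, `O = cuspInf N`);
* `s17alz_stmt`   : `S17sxStmt 2 4 3`;
* `s17alz_result` : the frozen type of S17 (`s17w2d_result_243`).

Leaves: (hF) `s17bg_pmk`, (M) `s17pmf_plM` at `n = 2`, (T) `s17ptk_plT`, (N) `s17pnt_plN` with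
(hint) `s17ait_hint`, (L1) `s17psc_hsec`, (L2) `s17hvu_hunit_stage`, `t` `s17rf_exists_ord`,
(open) `S15.selfl_exists_field'`; packaging `s17mdt_stmtAt_tuple`.
-/
import Fermat.Agent.S17.PlNTop
import Fermat.Agent.S17.HVisU
import Fermat.Agent.S17.PlNSec
import Fermat.Agent.S17.RatFn
import Fermat.Agent.S17.BpfGlue
import Fermat.Agent.S17.PlTFinalK
import Fermat.Agent.S17.PlMFinal
import Fermat.Agent.S17.AsmInt
import Fermat.Agent.S17.ModelTop
import Fermat.Agent.S17.WeakTwoD

set_option autoImplicit false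
set_option linter.unusedVariables false
set_option linter.unusedSectionVars false
set_option linter.style.haveILetI false
set_option linter.style.longLine false

noncomputable section

namespace Fermat.Agent.S17

open ModularCurve AlgebraicCurve Module TensorProduct IntermediateField
open Fermat.Agent.S24 Fermat.Agent.S26 Fermat.Agent.S27 Fermat.Agent.DEU

/-- (open): every class is fixed by an open subgroup of `G_ℚ`. -/
theorem s17alz_open (N : ℕ) [NeZero N] : S17luOpen N := by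
  intro y
  obtain ⟨E, hE, h⟩ := s17w2d_open N y
  exact ⟨E, hE, h⟩

/-- **the three place statements on the model** at `(n, a, b) = (2, 4, 3)`. -/
theorem s17alz_at (N : ℕ) [NeZero N] (hN2 : 2 ≤ N) (hg : 0 < genusFF Kb (FF N)) :
    S17sxStmtAt N 2 4 3 := by
  haveI := s17to_isCurveOver N
  haveI := s17to_essFiniteType N
  have hc := s17md_const N
  haveI := hc.fin
  haveI := hc.sep
  obtain ⟨T, Fam, hF0, hF⟩ := s17bg_pmk hc.trans (s17mdG0 N) hc.deg hg (s17mdO N) hc
    (s17mdQ N) (s17md_hq N)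
  have hM := s17pmf_plM N hc.trans (s17mdG0 N) hc.deg hg (s17mdO N) hc (s17mdQ N)
    (s17md_hq N) 2 (by norm_num) 2 Fam hF hF0
  have h3 : ((s27indTri 2 : ℕ) : ℝ) = 3 := by
    have h : s27indTri 2 = 3 := rfl
    rw [h]
    norm_num
  rw [h3] at hM
  have hT := s17ptk_plT N hc.trans (s17mdG0 N) hc.deg hg (s17mdO N) hc (s17mdQ N)
    (s17md_hq N) 2 Fam hF
  obtain ⟨t, htΓ, ht, htneg, httr⟩ := s17rf_exists_ord N hN2
  have hnc : ∀ c : Kb, t ≠ algebraMap Kb (FF N) c := by
    intro c hcE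
    apply httr
    rw [hcE]
    exact isAlgebraic_algebraMap c
  obtain ⟨M, hsec⟩ := s17psc_hsec hc hg (s17mdQ N) (s17md_hq N) t ht
  have hNn := s17pnt_plN N (s27stg_hld Kb (FF N) (s27mtL Kb (FF N)))
    (s27stg_hgen Kb (FF N) (s27mtL Kb (FF N))) hc.trans (s17mdG0 N) hc.deg
    (s17mdQ N (-1)) ((s17md_hq N) (-1) (by norm_num)).2
    (s17amY N hc.trans (s17mdG0 N) hc.deg (s17mdO N) (s17mdQ N) (s17md_hq N))
    (fun P => s17ait_hint N hc.trans (s17mdG0 N) hc.deg hg (s17mdO N) hc (s17mdQ N)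
      (s17md_hq N) P)
    2 (by norm_num) Fam hF t hnc htΓ ht M hsec
    (fun P hP => s17hvu_hunit_stage N hc hg (s17mdQ N) (s17md_hq N) P hP)
    (s17alz_open N) 4 (by norm_num) hT
  exact s17mdt_stmtAt_tuple N 2 4 3 Fam hM hT hNn

/-- **LAYER H CLOSED** at `(2, 4, 3)`. -/
theorem s17alz_stmt : S17sxStmt 2 4 3 :=
  fun N _ hN hN5 hg => s17alz_at N (by omega) hg

/-- **S17**: Mordell–Weil for `J₀(N)`, `N ≥ 5` prime (closure without Poitou–Tate). -/
theorem s17alz_result (N : ℕ) [NeZero N] (hN : N.Prime) (hN5 : 5 ≤ N) :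
    AddGroup.FG ↥(FixedPoints.addSubgroup ((AlgebraicClosure ℚ) ≃ₐ[ℚ] (AlgebraicClosure ℚ))
      (JZero N)) :=
  s17w2d_result_243 s17alz_stmt N hN hN5

end Fermat.Agent.S17

end
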