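/-
S17 sprint, brick **DECK** (helper86): the translations `τ_c = T 1 c` by the `m`-torsion classes
are exactly the DECK TRANSFORMATIONS of `ψ_m = [m]^* : 𝔉 → 𝔉` (`𝔉 = s27gfSym K F g`).

Abstract part (`pkg`, `κ : C →+ P`, the affine family `q` of `S17/Affine.lean`):
* `s17ad_class_eq`      : `T k c = T k d` (`k ≠ 0`) ⇒ `κ c = κ d`;
* `s17ad_inj`           : `κ` injective ⇒ `c ↦ T k c` injective (`k ≠ 0`);
* `s17ad_tau_inj`       : `κ` injective ⇒ `c ↦ τ_c` injective;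
* `s17ad_deck`          : `m • c = 0` ⇒ `τ_c ∘ T m 0 = T m 0`;
* `s17ad_deck_psi`      : the same for `ψ_m = s27pfPsi` of S27-B;
* `s17ad_deck_iff`      : `κ` injective ⇒ (`τ_c ∘ T m 0 = T m 0 ↔ m • c = 0`);
* `s17ad_deck_apply`    : `τ_c (T m 0 s) = T m 0 s`;
* `s17ad_deckHom`       : `τ_c` as an `E`-algebra endomorphism of `𝔉`, `E = (T n 0).fieldRange`;
* `s17ad_deck_surj`     : COUNT: if `[𝔉 : T n 0 𝔉] = #C[n]` and `κ` is injective, then every
                          `σ : 𝔉 →ₐ[K] 𝔉` with `σ ∘ T n 0 = T n 0` is `τ_c` with `n • c = 0`.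

Model part (`pkg = s27dclPkg …`, `κ = β`): `s17ad_model_inj`, `s17ad_model_deck_surj`
(unconditional: DEG-CLOSED of S27-B gives the count).
-/
import Fermat.Agent.S17.Affine
import Mathlib.LinearAlgebra.FreeModule.Finite.Matrix

set_option autoImplicit false
set_option linter.unusedVariables false
set_option linter.unusedSectionVars false
set_option linter.style.haveILetI false

noncomputable section

namespace Fermat.Agent.S17

open AlgebraicCurve TensorProduct IntermediateField Fermat.Agent.S27 Fermat.Agent.S26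
  Fermat.Agent.S24

universe u v x y z

section Abs

variable {K : Type u} {F : Type v} [Field K] [IsAlgClosed K] [Field F] [Algebra K F] {g : ℕ}
variable {L : Type (max u v)} [Field L] [Algebra K L] [Algebra (s27gfOm K F g) L]
  [IsScalarTower K (s27gfOm K F g) L]
variable {t : F} {Pl : Type x} {P : Type y} [AddCommGroup P] (pkg : S27DegPkg K F L t g Pl P)
variable {C : Type z} [AddCommGroup C] (κ : C →+ P)
variable [IsGalois (s27gfSym K F g) L]

/-- **`T k c` determines the class `κ c`** (`k ≠ 0`). -/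
theorem s17ad_class_eq (hκ : S17afInv pkg κ)
    (halg : ∀ f : F, IsAlgebraic (IntermediateField.adjoin K {t}) f)
    {q : ℤ → C → Fin g → F →ₐ[K] L} (hq : S17afFam pkg κ q) (k : ℤ) (hk : k ≠ 0) (c d : C)
    (h : s17afT pkg κ hκ halg hq k c = s17afT pkg κ hκ halg hq k d) : κ c = κ d := by
  rw [s17afT_of_ne pkg κ hκ halg hq k hk c, s17afT_of_ne pkg κ hκ halg hq k hk d] at h
  have hc := s17af_fam_pt pkg κ hκ halg hq k hk c
  have hd := s17af_fam_pt pkg κ hκ halg hq k hk d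
  have key : ∀ s : s27gfSym K F g,
      s27psiEv (q k c) hc.inj s = s27psiEv (q k d) hd.inj s := fun s => by
    rw [← s27psi_spec' (q k c) hc s, ← s27psi_spec' (q k d) hd s, h]
  obtain ⟨π, hπ⟩ := s27dgx_exists_perm_points (q k d) (q k c) hd.inj hc.inj
    (fun y hy => key ⟨y, hy⟩)
  have h1 : s27pfCl pkg (q k c) = s27pfCl pkg (q k d) := by
    have h2 : q k c = fun i => q k d (π i) := funext hπ
    rw [h2, s27pf_cl_perm]
  rw [(hq k hk c).2, (hq k hk d).2] at h1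
  exact add_left_cancel h1

/-- `κ` injective ⇒ `c ↦ T k c` injective. -/
theorem s17ad_inj (hκ : S17afInv pkg κ)
    (halg : ∀ f : F, IsAlgebraic (IntermediateField.adjoin K {t}) f)
    {q : ℤ → C → Fin g → F →ₐ[K] L} (hq : S17afFam pkg κ q) (hinj : Function.Injective κ)
    (k : ℤ) (hk : k ≠ 0) : Function.Injective (fun c : C => s17afT pkg κ hκ halg hq k c) :=
  fun c d h => hinj (s17ad_class_eq pkg κ hκ halg hq k hk c d h)

/-- `κ` injective ⇒ `c ↦ τ_c` injective. -/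
theorem s17ad_tau_inj (hκ : S17afInv pkg κ)
    (halg : ∀ f : F, IsAlgebraic (IntermediateField.adjoin K {t}) f)
    (hX1 : ∀ σ : s27gfSym K F g →ₐ[K] L, ∃ ê : L ≃ₐ[K] L,
      ∀ s : s27gfSym K F g, ê (algebraMap (s27gfOm K F g) L (s : s27gfOm K F g)) = σ s)
    {q : ℤ → C → Fin g → F →ₐ[K] L} (hq : S17afFam pkg κ q) (hinj : Function.Injective κ) :
    Function.Injective (fun c : C => s17afTau pkg κ hκ halg hX1 hq c) := by
  intro c d h
  refine s17ad_inj pkg κ hκ halg hq hinj 1 one_ne_zero ?_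
  apply AlgHom.ext
  intro s
  have h1 := congrArg (fun e : s27gfSym K F g ≃ₐ[K] s27gfSym K F g => e s) h
  simpa only [s17afTau_apply] using h1

/-- **DECK**: `m • c = 0` ⇒ `τ_c ∘ T m 0 = T m 0`. -/
theorem s17ad_deck (hκ : S17afInv pkg κ)
    (halg : ∀ f : F, IsAlgebraic (IntermediateField.adjoin K {t}) f)
    (hX1 : ∀ σ : s27gfSym K F g →ₐ[K] L, ∃ ê : L ≃ₐ[K] L,
      ∀ s : s27gfSym K F g, ê (algebraMap (s27gfOm K F g) L (s : s27gfOm K F g)) = σ s)
    {q : ℤ → C → Fin g → F →ₐ[K] L} (hq : S17afFam pkg κ q) (m : ℤ) (hm : m ≠ 0) (c : C)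
    (hc : m • c = 0) :
    (s17afT pkg κ hκ halg hq 1 c).comp (s17afT pkg κ hκ halg hq m 0) =
      s17afT pkg κ hκ halg hq m 0 := by
  rw [s17af_tau_psi pkg κ hκ halg hX1 hq m hm c, hc]

/-- **DECK, pointwise**: `τ_c (T m 0 s) = T m 0 s`. -/
theorem s17ad_deck_apply (hκ : S17afInv pkg κ)
    (halg : ∀ f : F, IsAlgebraic (IntermediateField.adjoin K {t}) f)
    (hX1 : ∀ σ : s27gfSym K F g →ₐ[K] L, ∃ ê : L ≃ₐ[K] L,
      ∀ s : s27gfSym K F g, ê (algebraMap (s27gfOm K F g) L (s : s27gfOm K F g)) = σ s)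
    {q : ℤ → C → Fin g → F →ₐ[K] L} (hq : S17afFam pkg κ q) (m : ℤ) (hm : m ≠ 0) (c : C)
    (hc : m • c = 0) (s : s27gfSym K F g) :
    s17afT pkg κ hκ halg hq 1 c (s17afT pkg κ hκ halg hq m 0 s) =
      s17afT pkg κ hκ halg hq m 0 s :=
  congrArg (fun e : s27gfSym K F g →ₐ[K] s27gfSym K F g => e s)
    (s17ad_deck pkg κ hκ halg hX1 hq m hm c hc)

/-- **DECK for `ψ_m`** of S27-B: `m • c = 0` ⇒ `τ_c ∘ ψ_m = ψ_m`. -/
theorem s17ad_deck_psi (hκ : S17afInv pkg κ)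
    (halg : ∀ f : F, IsAlgebraic (IntermediateField.adjoin K {t}) f)
    (hX1 : ∀ σ : s27gfSym K F g →ₐ[K] L, ∃ ê : L ≃ₐ[K] L,
      ∀ s : s27gfSym K F g, ê (algebraMap (s27gfOm K F g) L (s : s27gfOm K F g)) = σ s)
    {q : ℤ → C → Fin g → F →ₐ[K] L} (hq : S17afFam pkg κ q)
    {q' : ℤ → Fin g → F →ₐ[K] L} (hq' : S27pfFam pkg q') (m : ℤ) (hm : m ≠ 0) (c : C)
    (hc : m • c = 0) :
    (s17afT pkg κ hκ halg hq 1 c).comp (s27pfPsi pkg halg hq' m) = s27pfPsi pkg halg hq' m := by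
  rw [← s17afT_zero_eq_psi pkg κ hκ halg hq hq' m hm]
  exact s17ad_deck pkg κ hκ halg hX1 hq m hm c hc

/-- **DECK, converse**: `κ` injective and `τ_c ∘ T m 0 = T m 0` ⇒ `m • c = 0`. -/
theorem s17ad_deck_iff (hκ : S17afInv pkg κ)
    (halg : ∀ f : F, IsAlgebraic (IntermediateField.adjoin K {t}) f)
    (hX1 : ∀ σ : s27gfSym K F g →ₐ[K] L, ∃ ê : L ≃ₐ[K] L,
      ∀ s : s27gfSym K F g, ê (algebraMap (s27gfOm K F g) L (s : s27gfOm K F g)) = σ s)
    {q : ℤ → C → Fin g → F →ₐ[K] L} (hq : S17afFam pkg κ q) (hinj : Function.Injective κ)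
    (m : ℤ) (hm : m ≠ 0) (c : C) :
    (s17afT pkg κ hκ halg hq 1 c).comp (s17afT pkg κ hκ halg hq m 0) =
      s17afT pkg κ hκ halg hq m 0 ↔ m • c = 0 := by
  constructor
  · intro h
    rw [s17af_tau_psi pkg κ hκ halg hX1 hq m hm c] at h
    exact s17ad_inj pkg κ hκ halg hq hinj m hm h
  · exact s17ad_deck pkg κ hκ halg hX1 hq m hm c

/-- `τ_c` (`n • c = 0`) as an algebra endomorphism of `𝔉` over `E = (T n 0).fieldRange`. -/
def s17ad_deckHom (hκ : S17afInv pkg κ)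
    (halg : ∀ f : F, IsAlgebraic (IntermediateField.adjoin K {t}) f)
    (hX1 : ∀ σ : s27gfSym K F g →ₐ[K] L, ∃ ê : L ≃ₐ[K] L,
      ∀ s : s27gfSym K F g, ê (algebraMap (s27gfOm K F g) L (s : s27gfOm K F g)) = σ s)
    {q : ℤ → C → Fin g → F →ₐ[K] L} (hq : S17afFam pkg κ q) (n : ℤ) (hn : n ≠ 0)
    (c : {c : C // n • c = 0}) :
    s27gfSym K F g →ₐ[(s17afT pkg κ hκ halg hq n 0).fieldRange] s27gfSym K F g :=
  { (s17afT pkg κ hκ halg hq 1 c.1 : s27gfSym K F g →+* s27gfSym K F g) with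
    commutes' := fun e => by
      obtain ⟨s, hs⟩ := AlgHom.mem_fieldRange.1 e.2
      show s17afT pkg κ hκ halg hq 1 c.1 (e : s27gfSym K F g) = (e : s27gfSym K F g)
      rw [← hs]
      exact s17ad_deck_apply pkg κ hκ halg hX1 hq n hn c.1 c.2 s }

theorem s17ad_deckHom_apply (hκ : S17afInv pkg κ)
    (halg : ∀ f : F, IsAlgebraic (IntermediateField.adjoin K {t}) f)
    (hX1 : ∀ σ : s27gfSym K F g →ₐ[K] L, ∃ ê : L ≃ₐ[K] L,
      ∀ s : s27gfSym K F g, ê (algebraMap (s27gfOm K F g) L (s : s27gfOm K F g)) = σ s)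
    {q : ℤ → C → Fin g → F →ₐ[K] L} (hq : S17afFam pkg κ q) (n : ℤ) (hn : n ≠ 0)
    (c : {c : C // n • c = 0}) (s : s27gfSym K F g) :
    s17ad_deckHom pkg κ hκ halg hX1 hq n hn c s = s17afT pkg κ hκ halg hq 1 c.1 s := rfl

/-- **COUNT**: if `[𝔉 : T n 0 𝔉] = #C[n]` and `κ` is injective, the deck transformations of
`T n 0` are exactly the translations by `C[n]`. -/
theorem s17ad_deck_surj (hκ : S17afInv pkg κ)
    (halg : ∀ f : F, IsAlgebraic (IntermediateField.adjoin K {t}) f)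
    (hX1 : ∀ σ : s27gfSym K F g →ₐ[K] L, ∃ ê : L ≃ₐ[K] L,
      ∀ s : s27gfSym K F g, ê (algebraMap (s27gfOm K F g) L (s : s27gfOm K F g)) = σ s)
    {q : ℤ → C → Fin g → F →ₐ[K] L} (hq : S17afFam pkg κ q) (hinj : Function.Injective κ)
    (n : ℤ) (hn : n ≠ 0)
    (hfin : Module.Finite (s17afT pkg κ hκ halg hq n 0).fieldRange (s27gfSym K F g))
    (hdeg : Module.finrank (s17afT pkg κ hκ halg hq n 0).fieldRange (s27gfSym K F g) =
      Nat.card {c : C // n • c = 0})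
    (σ : s27gfSym K F g →ₐ[K] s27gfSym K F g)
    (hσ : σ.comp (s17afT pkg κ hκ halg hq n 0) = s17afT pkg κ hκ halg hq n 0) :
    ∃ c : C, n • c = 0 ∧ σ = s17afT pkg κ hκ halg hq 1 c := by
  classical
  haveI := hfin
  haveI hfree : Module.Free (s17afT pkg κ hκ halg hq n 0).fieldRange (s27gfSym K F g) :=
    Module.Free.of_divisionRing _ _
  have hΦinj : Function.Injective (s17ad_deckHom pkg κ hκ halg hX1 hq n hn) := by
    intro c d h
    apply Subtype.ext
    refine s17ad_inj pkg κ hκ halg hq hinj 1 one_ne_zero ?_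
    apply AlgHom.ext
    intro s
    have h1 := congrArg (fun e : s27gfSym K F g →ₐ[(s17afT pkg κ hκ halg hq n 0).fieldRange]
      s27gfSym K F g => e s) h
    exact h1
  have hle : Nat.card (s27gfSym K F g →ₐ[(s17afT pkg κ hκ halg hq n 0).fieldRange]
      s27gfSym K F g) ≤ Nat.card {c : C // n • c = 0} := by
    rw [← hdeg]
    exact card_algHom_le_finrank _ _ _
  have hbij := hΦinj.bijective_of_nat_card_le hle
  let σ' : s27gfSym K F g →ₐ[(s17afT pkg κ hκ halg hq n 0).fieldRange] s27gfSym K F g :=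
    { (σ : s27gfSym K F g →+* s27gfSym K F g) with
      commutes' := fun e => by
        obtain ⟨s, hs⟩ := AlgHom.mem_fieldRange.1 e.2
        show σ (e : s27gfSym K F g) = (e : s27gfSym K F g)
        rw [← hs]
        exact congrArg (fun e : s27gfSym K F g →ₐ[K] s27gfSym K F g => e s) hσ }
  obtain ⟨c, hc⟩ := hbij.2 σ'
  refine ⟨c.1, c.2, ?_⟩
  apply AlgHom.ext
  intro s
  have h1 := congrArg (fun e : s27gfSym K F g →ₐ[(s17afT pkg κ hκ halg hq n 0).fieldRange]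
    s27gfSym K F g => e s) hc
  exact h1.symm

end Abs

/-! ### The model -/

section Model

variable {K : Type u} {F : Type v} [Field K] [IsAlgClosed K] [CharZero K] [Field F] [Algebra K F]
  [IsCurveOver K F] [Algebra.EssFiniteType K F]
  {L : Type (max u v)} [Field L] [Algebra K L]
  [Algebra (s27gfOm K F (genusFF K F)) L] [IsScalarTower K (s27gfOm K F (genusFF K F)) L]
  [IsAlgClosed L] [Algebra.IsAlgebraic (s27gfOm K F (genusFF K F)) L]
  {FL : Type y} [Field FL] [Algebra K FL] [Algebra F FL] [Algebra L FL]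
  [IsScalarTower K F FL] [IsScalarTower K L FL]
  (hld : Function.Injective (s26gspMu K F L FL)) (hgen : S26gspGen K F L FL)
  {x : F} (hx : Transcendental K x)
  [FiniteDimensional ↥(IntermediateField.adjoin K {x}) F]
  [Algebra.IsSeparable ↥(IntermediateField.adjoin K {x}) F]
  (G₀ : Divisor K F) (hG₀ : Divisor.degree G₀ = (genusFF K F : ℤ))

/-- `β` is injective on the model. -/
theorem s17ad_model_inj :
    Function.Injective (s27bcBeta hld hgen (s26gspf_hall hx)) :=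
  s27bcBeta_injective hld hgen (s26gspf_hall hx) (s27gbc_hΓ hx)

include hx in
/-- the hypothesis `hX1` on the model. -/
theorem s17ad_model_hX1 :
    ∀ σ : s27gfSym K F (genusFF K F) →ₐ[K] L, ∃ ê : L ≃ₐ[K] L,
      ∀ s : s27gfSym K F (genusFF K F),
        ê (algebraMap (s27gfOm K F (genusFF K F)) L (s : s27gfOm K F (genusFF K F))) = σ s :=
  fun σ => s27dgx_X1 (s27dclFld (L := L) hx) (s27dcl_halg (x := x)) σ

variable [IsGalois (s27gfSym K F (genusFF K F)) L]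

/-- **DEG for `T n 0`** on the model: `[𝔉 : T n 0 𝔉] = #Pic0(F)[n]`. -/
theorem s17ad_model_isDeg
    {q : ℤ → Pic0 K F → Fin (genusFF K F) → F →ₐ[K] L}
    (hq : S17afFam (s27dclPkg hld hgen hx G₀ hG₀) (s27bcBeta hld hgen (s26gspf_hall hx)) q)
    (n : ℕ) (hn : 0 < n) :
    S27IsDeg K (s17afT (s27dclPkg hld hgen hx G₀ hG₀) (s27bcBeta hld hgen (s26gspf_hall hx))
        (s17af_inv hld hgen hx G₀ hG₀) (s27dcl_halg (x := x)) hq (n : ℤ) 0)
      (Nat.card (Pic0.torsion K F n)) := by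
  obtain ⟨q', hq'⟩ := s27mp_exists_fam (L := L) hld hgen hx G₀ hG₀
  have hn0 : (n : ℤ) ≠ 0 := by exact_mod_cast hn.ne'
  rw [s17afT_zero_eq_psi (s27dclPkg hld hgen hx G₀ hG₀) (s27bcBeta hld hgen (s26gspf_hall hx))
    (s17af_inv hld hgen hx G₀ hG₀) (s27dcl_halg (x := x)) hq hq' (n : ℤ) hn0]
  exact s27mp_isDeg hld hgen hx G₀ hG₀ hq' n hn

/-- **the deck transformations of `[n]^*` on the model are the translations by `Pic0(F)[n]`.** -/
theorem s17ad_model_deck_surj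
    {q : ℤ → Pic0 K F → Fin (genusFF K F) → F →ₐ[K] L}
    (hq : S17afFam (s27dclPkg hld hgen hx G₀ hG₀) (s27bcBeta hld hgen (s26gspf_hall hx)) q)
    (n : ℕ) (hn : 0 < n)
    (σ : s27gfSym K F (genusFF K F) →ₐ[K] s27gfSym K F (genusFF K F))
    (hσ : σ.comp (s17afT (s27dclPkg hld hgen hx G₀ hG₀) (s27bcBeta hld hgen (s26gspf_hall hx))
        (s17af_inv hld hgen hx G₀ hG₀) (s27dcl_halg (x := x)) hq (n : ℤ) 0) =
      s17afT (s27dclPkg hld hgen hx G₀ hG₀) (s27bcBeta hld hgen (s26gspf_hall hx))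
        (s17af_inv hld hgen hx G₀ hG₀) (s27dcl_halg (x := x)) hq (n : ℤ) 0) :
    ∃ c : Pic0 K F, (n : ℤ) • c = 0 ∧
      σ = s17afT (s27dclPkg hld hgen hx G₀ hG₀) (s27bcBeta hld hgen (s26gspf_hall hx))
        (s17af_inv hld hgen hx G₀ hG₀) (s27dcl_halg (x := x)) hq 1 c := by
  have hn0 : (n : ℤ) ≠ 0 := by exact_mod_cast hn.ne'
  have hD := s17ad_model_isDeg hld hgen hx G₀ hG₀ hq n hn
  refine s17ad_deck_surj (s27dclPkg hld hgen hx G₀ hG₀) (s27bcBeta hld hgen (s26gspf_hall hx))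
    (s17af_inv hld hgen hx G₀ hG₀) (s27dcl_halg (x := x)) (s17ad_model_hX1 hx) hq
    (s17ad_model_inj hld hgen hx) (n : ℤ) hn0 hD.deg_fin ?_ σ hσ
  rw [hD.deg]
  exact Nat.card_congr (Equiv.subtypeEquivRight fun c => Pic0.mem_torsion)

/-- **the translations by `Pic0(F)[n]` are deck transformations of `[n]^*` on the model.** -/
theorem s17ad_model_deck
    {q : ℤ → Pic0 K F → Fin (genusFF K F) → F →ₐ[K] L}
    (hq : S17afFam (s27dclPkg hld hgen hx G₀ hG₀) (s27bcBeta hld hgen (s26gspf_hall hx)) q)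
    (n : ℤ) (hn : n ≠ 0) (c : Pic0 K F) (hc : n • c = 0) :
    (s17afT (s27dclPkg hld hgen hx G₀ hG₀) (s27bcBeta hld hgen (s26gspf_hall hx))
        (s17af_inv hld hgen hx G₀ hG₀) (s27dcl_halg (x := x)) hq 1 c).comp
      (s17afT (s27dclPkg hld hgen hx G₀ hG₀) (s27bcBeta hld hgen (s26gspf_hall hx))
        (s17af_inv hld hgen hx G₀ hG₀) (s27dcl_halg (x := x)) hq n 0) =
      s17afT (s27dclPkg hld hgen hx G₀ hG₀) (s27bcBeta hld hgen (s26gspf_hall hx))
        (s17af_inv hld hgen hx G₀ hG₀) (s27dcl_halg (x := x)) hq n 0 :=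
  s17ad_deck (s27dclPkg hld hgen hx G₀ hG₀) (s27bcBeta hld hgen (s26gspf_hall hx))
    (s17af_inv hld hgen hx G₀ hG₀) (s27dcl_halg (x := x)) (s17ad_model_hX1 hx) hq n hn c hc

end Model

end Fermat.Agent.S17

end
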