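/-
S17 sprint, layer H, FINAL ASSEMBLY input **(hy)** (helper86): on the concrete stage of `X₀(N)`
over `ℚ̄`, the lifted local equations `s17amY = s17pmtB (s27indB ψ β 1)` (`b = B(+1)`, ruling (A))
are EXACT local equations of `Θ_{Ao}` at the generic class `η` along every `W ⊇ K`
(`S27icIdx`, NOT only up to a unit of `W`): the hypothesis `hy` of `s17am_plT4` / `s17am_stmtAt_7`
(S17/AsmMT.lean).

* `s17ayi_nat`      : exact transport of `S27ptIsIdx` along a lift `τ` of `ψ` (exact `s27pn_nat`);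
* `s17ayi_beta`     : `β = s27beta A'` is an exact local equation at the tautological tuple;
* `s17ayi_indB`     : `ι (B k (W ∩ 𝔉))` is an exact local equation at `q k` along `W` (`k ≠ 0`);
* **`s17ayi_hy`**   : the literal `hy` of S17/AsmMT.lean.
-/
import Fermat.Agent.S17.AsmMT
import Fermat.Agent.S17.TranslTop

set_option autoImplicit false
set_option linter.unusedVariables false
set_option linter.unusedSectionVars false
set_option linter.style.haveILetI false
set_option linter.style.longLine false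

noncomputable section

namespace Fermat.Agent.S17

open ModularCurve AlgebraicCurve Module TensorProduct IntermediateField
open Fermat.Agent.S24 Fermat.Agent.S26 Fermat.Agent.S27 Fermat.Agent.DEU

universe u v w w'

section Abs

variable {K : Type u} {F : Type v} [Field K] [Field F] [Algebra K F]
variable {𝔉 : Type w} [Field 𝔉] [Algebra K 𝔉]
variable {L : Type w'} [Field L] [Algebra K L] [Algebra 𝔉 L] [IsScalarTower K 𝔉 L]

/-- exact transport of the local equation along `τ` (exact form of `s27pn_nat`). -/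
theorem s17ayi_nat {N : ℕ} (p q : Fin N → F →ₐ[K] L) (A' : Divisor K F)
    (β : ValuationSubring 𝔉 → 𝔉)
    (hβ : ∀ W : ValuationSubring L, S27IsKValU K W →
      S27ptIsIdx W p A' (algebraMap 𝔉 L (β (W.comap (algebraMap 𝔉 L)))))
    (ψ : 𝔉 →ₐ[K] 𝔉) (τ : L →ₐ[K] L)
    (hτ : ∀ s : 𝔉, τ (algebraMap 𝔉 L s) = algebraMap 𝔉 L (ψ s))
    (hq : ∀ i f, τ (p i f) = q i f)
    (W : ValuationSubring L) (hW : S27IsKValU K W) :
    S27ptIsIdx W q A' (algebraMap 𝔉 L
      (ψ (β ((W.comap (algebraMap 𝔉 L)).comap ((ψ : 𝔉 →ₐ[K] 𝔉) : 𝔉 →+* 𝔉))))) := by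
  have hx := hβ (W.comap (τ : L →+* L)) (s27pn_kval_comap τ hW)
  rw [s27pn_comap ψ τ hτ W] at hx
  have h1 := s27pt_idx_nat τ W hx
  have h2 : (fun i => τ.comp (p i)) = q := by
    funext i
    exact AlgHom.ext fun f => hq i f
  rw [h2] at h1
  rw [← hτ]
  exact h1

end Abs

section Model

variable {K : Type u} {F : Type v} [Field K] [IsAlgClosed K] [Field F] [Algebra K F] {g : ℕ}
variable {L : Type w'} [Field L] [Algebra K L] [Algebra (s27gfOm K F g) L]
  [IsScalarTower K (s27gfOm K F g) L]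

/-- `β = s27beta A'` is an EXACT local equation at the tautological tuple along every `W ⊇ K`
of `L`. -/
theorem s17ayi_beta (hconj : s27beta_StmtConj K F g) (A' : Divisor K F)
    (f : Module.Basis (Fin g) K ↥(riemannRochSpace A'))
    (hlat : ∀ W : ValuationSubring (s27gfOm K F g),
      (∀ a : K, algebraMap K (s27gfOm K F g) a ∈ W) →
        ∃ φ : Fin g → F, S27ptIsLatBasis W (s27betaPt K F g) A' φ)
    (W : ValuationSubring L) (hW : S27IsKValU K W) :
    S27ptIsIdx W (s27pnTaut (K := K) (F := F) (g := g) (L := L)) A'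
      (algebraMap (s27gfSym K F g) L
        (s27beta (g := g) A' (W.comap (algebraMap (s27gfSym K F g) L)))) := by
  have hK : ∀ a : K, algebraMap K (s27gfOm K F g) a ∈
      W.comap (algebraMap (s27gfOm K F g) L) := by
    intro a
    rw [ValuationSubring.mem_comap, ← IsScalarTower.algebraMap_apply K (s27gfOm K F g) L]
    exact hW a
  have h1 := s27beta_spec hconj A' f hlat (W.comap (algebraMap (s27gfOm K F g) L)) hK
  have h2 := s27pt_idx_nat (IsScalarTower.toAlgHom K (s27gfOm K F g) L) W h1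
  have h3 : (W.comap (algebraMap (s27gfOm K F g) L)).comap
      (algebraMap (s27gfSym K F g) (s27gfOm K F g)) =
      W.comap (algebraMap (s27gfSym K F g) L) := by
    ext s
    simp only [ValuationSubring.mem_comap]
    rfl
  rw [h3] at h2
  exact h2

/-- `ι (B k (W ∩ 𝔉))` is an EXACT local equation of `Θ` at `q k` along `W` (`k ≠ 0`). -/
theorem s17ayi_indB [IsAlgClosed L] [Algebra.IsAlgebraic (s27gfOm K F g) L]
    (hconj : s27beta_StmtConj K F g) (A' : Divisor K F)
    (f : Module.Basis (Fin g) K ↥(riemannRochSpace A'))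
    (hlat : ∀ W : ValuationSubring (s27gfOm K F g),
      (∀ a : K, algebraMap K (s27gfOm K F g) a ∈ W) →
        ∃ φ : Fin g → F, S27ptIsLatBasis W (s27betaPt K F g) A' φ)
    (ψ : ℤ → (s27gfSym K F g →ₐ[K] s27gfSym K F g)) (q : ℤ → Fin g → F →ₐ[K] L)
    (k : ℤ) (hk : k ≠ 0)
    (hspec : ∃ he : Function.Injective (s27gfLiftR (q k)), ∀ s : s27gfSym K F g,
      algebraMap (s27gfOm K F g) L ((ψ k s : s27gfSym K F g) : s27gfOm K F g) =
        s27psiT (q k) he (s : s27gfOm K F g))
    (W : ValuationSubring L) (hW : S27IsKValU K W) :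
    S27ptIsIdx W (q k) A' (algebraMap (s27gfSym K F g) L
      (s27indB ψ (s27beta (g := g) A') k (W.comap (algebraMap (s27gfSym K F g) L)))) := by
  obtain ⟨he, hs⟩ := hspec
  obtain ⟨τ, hτ⟩ := s27pc_exists_lift (s27psiT (q k) he)
  unfold s27indB
  rw [if_neg hk]
  refine s17ayi_nat (s27pnTaut (K := K) (F := F) (g := g) (L := L)) (q k) A'
    (s27beta (g := g) A') (fun W' hW' => s17ayi_beta hconj A' f hlat W' hW') (ψ k) τ
    (fun s => ?_) (fun i f => ?_) W hW
  · have h1 : algebraMap (s27gfSym K F g) L s =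
        algebraMap (s27gfOm K F g) L (s : s27gfOm K F g) := rfl
    have h2 : algebraMap (s27gfSym K F g) L (ψ k s) =
        algebraMap (s27gfOm K F g) L ((ψ k s : s27gfSym K F g) : s27gfOm K F g) := rfl
    rw [h1, h2, hτ, hs]
  · show τ (algebraMap (s27gfOm K F g) L (s27gfIota i f)) = q k i f
    rw [hτ, s27psiT_iota]

end Model

section Stage

variable (N : ℕ) [NeZero N] [IsCurveOver Kb (FF N)] [Algebra.EssFiniteType Kb (FF N)]
  {x : FF N} (hx : Transcendental Kb x)
  [FiniteDimensional ↥(IntermediateField.adjoin Kb {x}) (FF N)]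
  [Algebra.IsSeparable ↥(IntermediateField.adjoin Kb {x}) (FF N)]
  (G₀ : Divisor Kb (FF N)) (hG₀ : Divisor.degree G₀ = (genusFF Kb (FF N) : ℤ))

/-- **(hy) of S17/AsmMT.lean**: the lifted `B(+1)` is an EXACT local equation of `Θ_{Ao}` at `η`
along every `W ⊇ K` of the stage field. -/
theorem s17ayi_hy (hg : 0 < genusFF Kb (FF N)) (O : Place Kb (FF N))
    (hc : S27cstIsConst x G₀ O)
    (q : ℤ → Fin (genusFF Kb (FF N)) → FF N →ₐ[Kb] s27mtL Kb (FF N))
    (hq : S27pfFam (s27ftPkg hx G₀ hG₀) q) :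
    ∀ W : ValuationSubring (s27mtL Kb (FF N)), S27IsKValU Kb W →
      S27icIdx (FL := s27mtFL Kb (FF N))
        (s27stg_hld Kb (FF N) (s27mtL Kb (FF N))) (s27stg_hgen Kb (FF N) (s27mtL Kb (FF N)))
        hx (s27cstAo G₀ O) W
        (s27pfCl (s27dclPkg (FL := s27mtFL Kb (FF N))
            (s27stg_hld Kb (FF N) (s27mtL Kb (FF N)))
            (s27stg_hgen Kb (FF N) (s27mtL Kb (FF N))) hx G₀ hG₀)
          (s27pfTaut (K := Kb) (F := FF N) (g := genusFF Kb (FF N)) (L := s27mtL Kb (FF N))))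
        (s17amY N hx G₀ hG₀ O q hq W) := by
  intro W hW
  have f₀ : Module.Basis (Fin (genusFF Kb (FF N))) Kb
      ↥(riemannRochSpace (G₀ + s27cstAo G₀ O)) :=
    s27fgrBasis (K := Kb) (F := FF N) hc hg
  have hlat := s27flx_latEx Kb (FF N) hx (G₀ + s27cstAo G₀ O)
  have hz := s17ayi_indB (L := s27mtL Kb (FF N)) s27betac_conj (G₀ + s27cstAo G₀ O) f₀ hlat
    (s27pfPsi (s27ftPkg hx G₀ hG₀) (s27dcl_halg (x := x)) hq) q 1 one_ne_zero
    ⟨(s27pf_fam_pt (s27ftPkg hx G₀ hG₀) (s27dcl_halg (x := x)) hq 1 one_ne_zero).inj,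
      fun s => s27pfPsi_spec (s27ftPkg hx G₀ hG₀) (s27dcl_halg (x := x)) hq 1 one_ne_zero s⟩
    W hW
  have h1 := s27ic_hIdx (FL := s27mtFL Kb (FF N)) (s27stg_hld Kb (FF N) (s27mtL Kb (FF N)))
    (s27stg_hgen Kb (FF N) (s27mtL Kb (FF N))) hx G₀ hG₀ hq (s27cstAo G₀ O) 1 one_ne_zero
    W hW _ hz
  rw [one_zsmul] at h1
  exact h1

end Stage

end Fermat.Agent.S17

end
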