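/-
S17 sprint, layer H — **BPF on the closed stage** (helper45; a twin of the glue PlM-BPF-GLUE):
the finite two-sided pool (`s17cv2_pool`, S17/CoverTwo.lean) + the pool family (`s17bpl_bpf`,
S17/BpfPool.lean) + "`β` is a local equation of `Θ_{Ao}` at `η`" (`s27pn_beta_main`) give ONE
finite family `Fam : T → L` of the big field `L = s27mtL K F`, `Fam D ≠ 0`, which is
base-point-free of exponent `2`

* w.r.t. a choice `y` of local equations of `Θ_{Ao}` at the generic class `η`
  (`S17trBpf K y 2 Fam` = `hX` of S17/TranslWrap.lean, with `hy`), and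
* w.r.t. the lifted local equations `b_L = s17pmtB (s27indB ψ β 1)` at the `K`-places
  (`S17pmkBpf K b_L 2 Fam` = `hF` of S17/PlMStageL.lean `s17pmx_plM`).

* `s17bsg_exists_y`   : local equations of `Θ_{Ao}` at `η` exist along every `W ⊇ K` (general stage);
* `s17bsg_pool_y`     : the pool family is bpf w.r.t. them (general stage);
* `s17bsg_indB_one`   : `B 1 = β` when `ψ 1 = id`;
* `s17bsg_beta_eq`    : `β_L W = u · z`, `z` a local equation at `η`, `u` a unit of `W`;
* **`s17bsg_main`**   : the statement above on the closed stage.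
-/
import Fermat.Agent.S17.BpfPool
import Fermat.Agent.S17.CoverTwo
import Fermat.Agent.S17.PlMStageL
import Fermat.Agent.S17.Transl

set_option autoImplicit false
set_option linter.unusedVariables false
set_option linter.unusedSectionVars false
set_option linter.style.haveILetI false
set_option linter.style.longLine false

noncomputable section

namespace Fermat.Agent.S17

open AlgebraicCurve Module TensorProduct IntermediateField Fermat.Agent.S26 Fermat.Agent.S27

universe u v y

section General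

variable {K : Type u} {F : Type v} [Field K] [IsAlgClosed K] [CharZero K] [Field F] [Algebra K F]
  [IsCurveOver K F] [Algebra.EssFiniteType K F]
  {L : Type (max u v)} [Field L] [Algebra K L]
  [Algebra (s27gfOm K F (genusFF K F)) L] [IsScalarTower K (s27gfOm K F (genusFF K F)) L]
  [IsAlgClosed L] [Algebra.IsAlgebraic (s27gfOm K F (genusFF K F)) L]
  {FL : Type y} [Field FL] [Algebra K FL] [Algebra F FL] [Algebra L FL]
  [IsScalarTower K F FL] [IsScalarTower K L FL]
  (hld : Function.Injective (s26gspMu K F L FL)) (hgen : S26gspGen K F L FL)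
  {x : F} (hx : Transcendental K x)
  [FiniteDimensional ↥(IntermediateField.adjoin K {x}) F]
  [Algebra.IsSeparable ↥(IntermediateField.adjoin K {x}) F]
  [IsGalois (s27gfSym K F (genusFF K F)) L]
  (G₀ : Divisor K F) (hG₀ : Divisor.degree G₀ = (genusFF K F : ℤ))

/-- **(hy)**: local equations of `Θ_{Ao}` at the generic class `η` exist along every `W ⊇ K`. -/
theorem s17bsg_exists_y (Ao : Divisor K F)
    (f₀ : Module.Basis (Fin (genusFF K F)) K ↥(riemannRochSpace (G₀ + Ao))) :
    ∃ y : ValuationSubring L → L, ∀ W : ValuationSubring L, S27IsKValU K W →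
      S27icIdx hld hgen hx Ao W
        (s27pfCl (s27dclPkg hld hgen hx G₀ hG₀)
          (s27pfTaut (K := K) (F := F) (g := genusFF K F) (L := L))) (y W) := by
  classical
  have hR : Function.Injective
      (s27pfTaut (K := K) (F := F) (g := genusFF K F) (L := L)) :=
    s27ic_generic_injective (x := x) (s27mp_taut_generic (K := K) (F := F) (L := L) hx)
  have h : ∀ W : ValuationSubring L, S27IsKValU K W → ∃ z : L,
      S27icIdx hld hgen hx Ao W
        (s27pfCl (s27dclPkg hld hgen hx G₀ hG₀)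
          (s27pfTaut (K := K) (F := F) (g := genusFF K F) (L := L))) z :=
    fun W hW => s17bpl_exists_idx hld hgen hx Ao W hW
      (s27pfTaut (K := K) (F := F) (g := genusFF K F) (L := L)) hR G₀ hG₀ f₀ _ rfl
  refine ⟨fun W => if hW : S27IsKValU K W then (h W hW).choose else 1, fun W hW => ?_⟩
  simp only [dif_pos hW]
  exact (h W hW).choose_spec

include hx in
/-- **the pool family with its local equations** (general stage): a finite family, nowhere zero,
base-point-free of exponent `2` w.r.t. EVERY choice of local equations at `η`; and such a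
choice exists. -/
theorem s17bsg_pool_y (hg : 0 < genusFF K F) (hG0 : 0 ≤ G₀) (Ao : Divisor K F)
    (hAo : riemannRochSpace Ao = ⊥) (hAod : Divisor.degree Ao = (genusFF K F : ℤ) - 1)
    (O : Place K F)
    (f₀ : Module.Basis (Fin (genusFF K F)) K ↥(riemannRochSpace (G₀ + Ao))) :
    ∃ (T : Finset (Divisor.degZero (K := K) (F := F))) (s : ↥T → L),
      Nonempty ↥T ∧ (∀ D, s D ≠ 0) ∧
      (∀ y : ValuationSubring L → L,
        (∀ W : ValuationSubring L, S27IsKValU K W → S27icIdx hld hgen hx Ao W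
          (s27pfCl (s27dclPkg hld hgen hx G₀ hG₀)
            (s27pfTaut (K := K) (F := F) (g := genusFF K F) (L := L))) (y W)) →
        S17muBpf K y 2 s) ∧
      ∃ y : ValuationSubring L → L, ∀ W : ValuationSubring L, S27IsKValU K W →
        S27icIdx hld hgen hx Ao W
          (s27pfCl (s27dclPkg hld hgen hx G₀ hG₀)
            (s27pfTaut (K := K) (F := F) (g := genusFF K F) (L := L))) (y W) := by
  obtain ⟨T, hT, hcov⟩ := s17cv2_pool x hx Ao hAod
  obtain ⟨s, hs0, hs⟩ := s17bpl_bpf hld hgen hx G₀ hG₀ hg hG0 Ao hAo hAod O T hT hcov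
  obtain ⟨D, hD, -⟩ := hcov 0
  exact ⟨T, s, ⟨⟨D, hD⟩⟩, hs0, hs, s17bsg_exists_y hld hgen hx G₀ hG₀ Ao f₀⟩

end General

section Ind

variable {K : Type u} [Field K] {𝔉 : Type v} [Field 𝔉] [Algebra K 𝔉]

/-- `B 1 = β` when `ψ 1 = id`. -/
theorem s17bsg_indB_one (ψ : ℤ → (𝔉 →ₐ[K] 𝔉)) (β : ValuationSubring 𝔉 → 𝔉)
    (h1 : ∀ s, ψ 1 s = s) (V : ValuationSubring 𝔉) : s27indB ψ β 1 V = β V := by
  have hV : V.comap ((ψ 1 : 𝔉 →ₐ[K] 𝔉) : 𝔉 →+* 𝔉) = V := by
    ext a
    rw [ValuationSubring.mem_comap]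
    have : ((ψ 1 : 𝔉 →ₐ[K] 𝔉) : 𝔉 →+* 𝔉) a = a := h1 a
    rw [this]
  unfold s27indB
  rw [if_neg one_ne_zero, hV, h1]

end Ind

section Stage

variable {K : Type u} {F : Type v} [Field K] [Field F] [Algebra K F] [IsAlgClosed K] [CharZero K]
  [IsCurveOver K F] [Algebra.EssFiniteType K F]
variable {x : F} (hx : Transcendental K x)
  [FiniteDimensional ↥(IntermediateField.adjoin K {x}) F]
  [Algebra.IsSeparable ↥(IntermediateField.adjoin K {x}) F]
  (G₀ : Divisor K F) (hG₀ : Divisor.degree G₀ = (genusFF K F : ℤ))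

include hx in
/-- **(Y)**: on the closed stage the lifted `β_L W` is a unit multiple of a local equation of
`Θ_{Ao}` at the generic class `η`, along every `W ⊇ K`. -/
theorem s17bsg_beta_eq (Ao : Divisor K F)
    (f₀ : Module.Basis (Fin (genusFF K F)) K ↥(riemannRochSpace (G₀ + Ao)))
    (W : ValuationSubring (s27mtL K F)) (hW : S27IsKValU K W) :
    ∃ z u : s27mtL K F,
      S27icIdx (FL := s27mtFL K F) (s27stg_hld K F (s27mtL K F))
        (s27stg_hgen K F (s27mtL K F)) hx Ao W
        (s27pfCl (s27dclPkg (FL := s27mtFL K F) (s27stg_hld K F (s27mtL K F))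
            (s27stg_hgen K F (s27mtL K F)) hx G₀ hG₀)
          (s27pfTaut (K := K) (F := F) (g := genusFF K F) (L := s27mtL K F))) z ∧
      S27IsUnitIn W u ∧
      algebraMap (s27gfSym K F (genusFF K F)) (s27mtL K F)
        (s27beta (g := genusFF K F) (G₀ + Ao)
          (W.comap (algebraMap (s27gfSym K F (genusFF K F)) (s27mtL K F)))) = u * z := by
  have hlat := s27flx_latEx K F hx (G₀ + Ao)
  have hβ : S27pnBeta (L := s27mtL K F)
      (s27pnTaut (K := K) (F := F) (g := genusFF K F) (L := s27mtL K F)) (G₀ + Ao)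
      (s27beta (g := genusFF K F) (G₀ + Ao)) := s27pn_beta_main s27betac_conj (G₀ + Ao) f₀ hlat
  obtain ⟨z, hz, u, hu, huz⟩ := hβ W hW
  have hR : Function.Injective
      (s27pfTaut (K := K) (F := F) (g := genusFF K F) (L := s27mtL K F)) :=
    s27ic_generic_injective (x := x)
      (s27mp_taut_generic (K := K) (F := F) (L := s27mtL K F) hx)
  refine ⟨z, u, ?_, hu, huz⟩
  exact s27ica_idx (FL := s27mtFL K F) (s27stg_hld K F (s27mtL K F))
    (s27stg_hgen K F (s27mtL K F)) hx Ao W hR hG₀ rfl hz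

/-- **BPF on the closed stage**: ONE finite family `Fam : T → L`, nowhere zero, with local
equations `y` at `η`, base-point-free of exponent `2` w.r.t. `y` (all `W ⊇ K`) and w.r.t. the
lifted `B 1` (at the `K`-places). -/
theorem s17bsg_main (hg : 0 < genusFF K F) (O : Place K F) (hc : S27cstIsConst x G₀ O)
    (q : ℤ → Fin (genusFF K F) → F →ₐ[K] s27mtL K F)
    (hq : S27pfFam (s27ftPkg hx G₀ hG₀) q) :
    ∃ (T : Finset (Divisor.degZero (K := K) (F := F))) (Fam : ↥T → s27mtL K F)
      (y : ValuationSubring (s27mtL K F) → s27mtL K F),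
      Nonempty ↥T ∧ (∀ D, Fam D ≠ 0) ∧ Fam ≠ 0 ∧
      (∀ W : ValuationSubring (s27mtL K F), S27IsKValU K W →
        S27icIdx (FL := s27mtFL K F) (s27stg_hld K F (s27mtL K F))
          (s27stg_hgen K F (s27mtL K F)) hx (s27cstAo G₀ O) W
          (s27pfCl (s27dclPkg (FL := s27mtFL K F) (s27stg_hld K F (s27mtL K F))
              (s27stg_hgen K F (s27mtL K F)) hx G₀ hG₀)
            (s27pfTaut (K := K) (F := F) (g := genusFF K F) (L := s27mtL K F))) (y W)) ∧
      S17trBpf K y 2 Fam ∧
      S17pmkBpf K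
        (s17pmtB (L := s27mtL K F)
          (s27indB (s27pfPsi (s27ftPkg hx G₀ hG₀) (s27dcl_halg (x := x)) hq)
            (s27beta (g := genusFF K F) (G₀ + s27cstAo G₀ O)) 1)) 2 Fam := by
  classical
  haveI : IsGalois (s27gfSym K F (genusFF K F)) (s27mtL K F) := s27psi_isGalois
  have hl := hc.l_A
  have hpos : 0 < Module.finrank K ↥(riemannRochSpace (G₀ + s27cstAo G₀ O)) := by
    rw [hl]; exact hg
  haveI : Module.Finite K ↥(riemannRochSpace (G₀ + s27cstAo G₀ O)) :=
    Module.finite_of_finrank_pos hpos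
  let f₀ : Module.Basis (Fin (genusFF K F)) K ↥(riemannRochSpace (G₀ + s27cstAo G₀ O)) :=
    Module.finBasisOfFinrankEq K _ hl
  obtain ⟨T, Fam, hne, hFam0, hbpf, y, hy⟩ :=
    s17bsg_pool_y (L := s27mtL K F) (FL := s27mtFL K F) (s27stg_hld K F (s27mtL K F))
      (s27stg_hgen K F (s27mtL K F)) hx G₀ hG₀ hg hc.nonneg (s27cstAo G₀ O) hc.bot hc.deg_Ao O f₀
  have hone := (s17pmd_comp hx G₀ hG₀ hq).1
  refine ⟨T, Fam, y, hne, hFam0, ?_, hy, hbpf y hy, fun P => ?_⟩
  · obtain ⟨D⟩ := hne
    intro h0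
    exact hFam0 D (by rw [h0]; rfl)
  · have hW : S27IsKValU K P.W := P.hKW
    obtain ⟨hmem, i, hi⟩ := hbpf y hy P.W hW
    obtain ⟨z, u, hz, hu, huz⟩ := s17bsg_beta_eq hx G₀ hG₀ (s27cstAo G₀ O) f₀ P.W hW
    -- `y W` and `z` are both local equations at `η`: they differ by a unit
    have hLE := s27le5_ckLE (FL := s27mtFL K F) (s27stg_hld K F (s27mtL K F))
      (s27stg_hgen K F (s27mtL K F)) hx (s27cstAo G₀ O) hc.deg_Ao hc.bot
    obtain ⟨w, hw, hzw⟩ := (hLE P.W hW).2 _ z (y P.W) hz (hy P.W hW)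
    have hb : s17pmtB (L := s27mtL K F)
        (s27indB (s27pfPsi (s27ftPkg hx G₀ hG₀) (s27dcl_halg (x := x)) hq)
          (s27beta (g := genusFF K F) (G₀ + s27cstAo G₀ O)) 1) P.W = (u * w) * y P.W := by
      unfold s17pmtB
      rw [s17bsg_indB_one _ _ hone, huz, hzw]
      ring
    have huw : S27IsUnitIn P.W ((u * w) ^ 2) := by
      have h1 := s17su_unit_mul hu hw
      rw [pow_two]
      exact s17su_unit_mul h1 h1
    have e : ∀ j, Fam j * ((u * w) * y P.W) ^ 2 = (u * w) ^ 2 * (Fam j * y P.W ^ 2) := by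
      intro j
      ring
    rw [hb]
    refine ⟨fun j => ?_, i, ?_⟩
    · rw [e j]
      exact P.W.mul_mem _ _ huw.2.1 (hmem j)
    · rw [e i]
      exact s17su_unit_mul huw hi

end Stage

end Fermat.Agent.S17

end
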