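/-
S17 sprint, layer H — **ASSEMBLY (M) + (T), UNCONDITIONAL** (helper45): on the concrete stage of
`X₀(N)` over `ℚ̄` (S17/AsmMT.lean, helper77) the finite pool family `Fam : T → L` of
S17/BpfStage.lean (`s17bsg_main`) satisfies (M′) at `(3, 6)` and `(7, 28)` and (T) at `a = 4`,
with NO hypothesis beyond the constants `S27cstIsConst x G₀ O` and a family `q` of S27-B.

The local equations: (M′) uses the lifted `b_L = s17amY` (`S17pmkBpf`), (T) uses a choice `y` of
genuine local equations of `Θ_Ao` at `η` (`hy`, `S17trBpf`); the family `Fam` is THE SAME.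

* **`s17asb_MT`**       : `∃ T Fam y`, data `∧ PlM 3 6 ∧ PlM 7 28 ∧ PlT 4`;
* **`s17asb_stmtAt_7`** : the body of `S17sxStmtAt N 7 4 28` from (N) for that family.
-/
import Fermat.Agent.S17.BpfStage
import Fermat.Agent.S17.AsmMT
import Fermat.Agent.S17.TranslWrap

set_option autoImplicit false
set_option linter.unusedVariables false
set_option linter.unusedSectionVars false
set_option linter.style.haveILetI false
set_option linter.style.longLine false

noncomputable section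

namespace Fermat.Agent.S17

open ModularCurve AlgebraicCurve Module TensorProduct IntermediateField
open Fermat.Agent.S24 Fermat.Agent.S26 Fermat.Agent.S27 Fermat.Agent.DEU

section Stage

variable (N : ℕ) [NeZero N] [IsCurveOver Kb (FF N)] [Algebra.EssFiniteType Kb (FF N)]
  {x : FF N} (hx : Transcendental Kb x)
  [FiniteDimensional ↥(IntermediateField.adjoin Kb {x}) (FF N)]
  [Algebra.IsSeparable ↥(IntermediateField.adjoin Kb {x}) (FF N)]
  (G₀ : Divisor Kb (FF N)) (hG₀ : Divisor.degree G₀ = (genusFF Kb (FF N) : ℤ))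

/-- **(M′) + (T) for the pool family**, unconditional. -/
theorem s17asb_MT (hg : 0 < genusFF Kb (FF N)) (O : Place Kb (FF N))
    (hc : S27cstIsConst x G₀ O)
    (q : ℤ → Fin (genusFF Kb (FF N)) → FF N →ₐ[Kb] s27mtL Kb (FF N))
    (hq : S27pfFam (s27ftPkg hx G₀ hG₀) q) :
    ∃ (T : Finset (Divisor.degZero (K := Kb) (F := FF N))) (Fam : ↥T → s27mtL Kb (FF N))
      (y : ValuationSubring (s27mtL Kb (FF N)) → s27mtL Kb (FF N)),
      Fam ≠ 0 ∧ (∀ D, Fam D ≠ 0) ∧
      (∀ W : ValuationSubring (s27mtL Kb (FF N)), S27IsKValU Kb W →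
        S27icIdx (FL := s27mtFL Kb (FF N))
          (s27stg_hld Kb (FF N) (s27mtL Kb (FF N))) (s27stg_hgen Kb (FF N) (s27mtL Kb (FF N)))
          hx (s27cstAo G₀ O) W
          (s27pfCl (s27dclPkg (FL := s27mtFL Kb (FF N))
              (s27stg_hld Kb (FF N) (s27mtL Kb (FF N)))
              (s27stg_hgen Kb (FF N) (s27mtL Kb (FF N))) hx G₀ hG₀)
            (s27pfTaut (K := Kb) (F := FF N) (g := genusFF Kb (FF N))
              (L := s27mtL Kb (FF N)))) (y W)) ∧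
      S17trBpf Kb y 2 Fam ∧
      S17pmkBpf Kb (s17amY N hx G₀ hG₀ O q hq) 2 Fam ∧
      S17hyPlM (s17amCl N hx G₀ hG₀) (s17sxHt Fam) 3 6 ∧
      S17hyPlM (s17amCl N hx G₀ hG₀) (s17sxHt Fam) 7 28 ∧
      S17hyPlT (s17amCl N hx G₀ hG₀) (s17sxHt Fam) 4 := by
  classical
  haveI : IsGalois (s27gfSym Kb (FF N) (genusFF Kb (FF N))) (s27mtL Kb (FF N)) :=
    s27psi_isGalois
  obtain ⟨T, Fam, y, -, hFam, hF0, hy, hX, hF⟩ := s17bsg_main hx G₀ hG₀ hg O hc q hq
  have f₀ : Module.Basis (Fin (genusFF Kb (FF N))) Kb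
      ↥(riemannRochSpace (G₀ + s27cstAo G₀ O)) :=
    s27fgrBasis (K := Kb) (F := FF N) hc hg
  refine ⟨T, Fam, y, hF0, hFam, hy, hX, hF, ?_, ?_, ?_⟩
  · have h := s17am_plM N hx G₀ hG₀ hg O hc q hq 3 (by norm_num) 2 Fam hF hF0
    have e : ((s27indTri 3 : ℕ) : ℝ) = 6 := by
      rw [show s27indTri 3 = 6 from rfl]
      norm_num
    rw [e] at h
    exact h
  · have h := s17am_plM N hx G₀ hG₀ hg O hc q hq 7 (by norm_num) 2 Fam hF hF0
    have e : ((s27indTri 7 : ℕ) : ℝ) = 28 := by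
      rw [show s27indTri 7 = 28 from rfl]
      norm_num
    rw [e] at h
    exact h
  · have h := s17twr_plT4 N (L := s27mtL Kb (FF N)) (FL := s27mtFL Kb (FF N))
      (s27stg_hld Kb (FF N) (s27mtL Kb (FF N))) (s27stg_hgen Kb (FF N) (s27mtL Kb (FF N)))
      hx G₀ hG₀ hg (s27cstAo G₀ O) hc.bot hc.deg_Ao O f₀ y hy Fam 2 hX
      (s17amCl N hx G₀ hG₀) (fun _ => rfl) (s17sxHt Fam)
      (fun P α hα => s17sxHt_eq Fam P α hα)
    have e : ((2 : ℝ) ^ 2) = 4 := by norm_num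
    rw [e] at h
    exact h

/-- **the body of `S17sxStmtAt N 7 4 28`** from (N) for the pool family. -/
theorem s17asb_stmtAt_7 (hg : 0 < genusFF Kb (FF N)) (O : Place Kb (FF N))
    (hc : S27cstIsConst x G₀ O)
    (q : ℤ → Fin (genusFF Kb (FF N)) → FF N →ₐ[Kb] s27mtL Kb (FF N))
    (hq : S27pfFam (s27ftPkg hx G₀ hG₀) q)
    (hN : ∀ (T : Finset (Divisor.degZero (K := Kb) (F := FF N)))
      (Fam : ↥T → s27mtL Kb (FF N))
      (y : ValuationSubring (s27mtL Kb (FF N)) → s27mtL Kb (FF N)),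
      Fam ≠ 0 →
      (∀ W : ValuationSubring (s27mtL Kb (FF N)), S27IsKValU Kb W →
        S27icIdx (FL := s27mtFL Kb (FF N))
          (s27stg_hld Kb (FF N) (s27mtL Kb (FF N))) (s27stg_hgen Kb (FF N) (s27mtL Kb (FF N)))
          hx (s27cstAo G₀ O) W
          (s27pfCl (s27dclPkg (FL := s27mtFL Kb (FF N))
              (s27stg_hld Kb (FF N) (s27mtL Kb (FF N)))
              (s27stg_hgen Kb (FF N) (s27mtL Kb (FF N))) hx G₀ hG₀)
            (s27pfTaut (K := Kb) (F := FF N) (g := genusFF Kb (FF N))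
              (L := s27mtL Kb (FF N)))) (y W)) →
      S17trBpf Kb y 2 Fam →
      S17pmkBpf Kb (s17amY N hx G₀ hG₀ O q hq) 2 Fam →
      S17hyPlT (s17amCl N hx G₀ hG₀) (s17sxHt Fam) 4 →
      S17hxPlN (s17amCl N hx G₀ hG₀) (s17sxHt Fam)) :
    ∃ (ι : Type) (_ : Finite ι) (s : ι → s27mtL Kb (FF N)),
      S17hyPlM (s17amCl N hx G₀ hG₀) (s17sxHt s) 7 28 ∧
      S17hyPlT (s17amCl N hx G₀ hG₀) (s17sxHt s) 4 ∧
      S17hxPlN (s17amCl N hx G₀ hG₀) (s17sxHt s) := by
  obtain ⟨T, Fam, y, hF0, -, hy, hX, hF, -, hM, hT⟩ := s17asb_MT N hx G₀ hG₀ hg O hc q hq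
  exact ⟨↥T, inferInstance, Fam, hM, hT, hN T Fam y hF0 hy hX hF hT⟩

end Stage

end Fermat.Agent.S17

end
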