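/-
S17 sprint, layer H — **(hy), EXACT FORM** (helper37; double of helper10's AsmHy): the input `hy`
of the final assembly S17/AsmMT.lean (`s17am_plT4`, `s17am_stmtAt_7`): the LIFTED local equation

    `s17amY … W = ι (B 1 (W ∩ 𝔉))`,   `B k = s27indB ψ β k`,   `β = s27beta (G₀ + Ao)`,

is an EXACT index (`S27ptIsIdx`, no unit factor) of `Θ_Ao` at the generic class `η` along EVERY
valuation subring `W ⊇ K` of the stage field `L`.

S27-B states PSI-NAT up to a unit of `W` (`S27pnBeta`, `S27pnIsEq`, `s27pn_nat`, `s27pn_indB`);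
but the spec of `β` on `Ω` (`s27beta_spec`) and the naturality of the index (`s27pt_idx_nat`) are
exact, so the unit is `1`:

* `s17ahx_nat`    : PSI-NAT, exact, abstract form (transport of an exact index along `τ`);
* `s17ahx_taut`   : `ι (β (W ∩ 𝔉))` is an exact index at the tautological tuple along `W`;
* `s17ahx_indB`   : `ι (B k (W ∩ 𝔉))` is an exact index at `q k` along `W`, `k ≠ 0`;
* `s17ahx_idx`    : the same on the closed stage for `β = s27beta (G₀ + Ao)`;
* `s17ahx_icIdx`  : `S27icIdx … Ao W (k • η) (ι (B k (W ∩ 𝔉)))`, `k ≠ 0`;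
* **`s17ahx_hy`** : the literal `hy` of `s17am_plT4` / `s17am_stmtAt_7` (S17/AsmMT.lean).
-/
import Fermat.Agent.S17.AsmMT
import Fermat.Agent.S17.BpfGlue

set_option autoImplicit false
set_option linter.unusedVariables false
set_option linter.unusedSectionVars false
set_option linter.style.haveILetI false
set_option linter.style.longLine false

noncomputable section

namespace Fermat.Agent.S17

open ModularCurve AlgebraicCurve Module TensorProduct IntermediateField
open Fermat.Agent.S24 Fermat.Agent.S26 Fermat.Agent.S27 Fermat.Agent.DEU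

universe u v w w'

section Abs

variable {K : Type u} {F : Type v} [Field K] [Field F] [Algebra K F]
variable {𝔉 : Type w} [Field 𝔉] [Algebra K 𝔉]
variable {L : Type w'} [Field L] [Algebra K L] [Algebra 𝔉 L] [IsScalarTower K 𝔉 L]

/-- **PSI-NAT, exact form**: transport of an exact index along `τ`. -/
theorem s17ahx_nat {N : ℕ} (p q : Fin N → F →ₐ[K] L) (A' : Divisor K F)
    (β : ValuationSubring 𝔉 → 𝔉)
    (hβ : ∀ W : ValuationSubring L, S27IsKValU K W →
      S27ptIsIdx W p A' (algebraMap 𝔉 L (β (W.comap (algebraMap 𝔉 L)))))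
    (ψ : 𝔉 →ₐ[K] 𝔉) (τ : L →ₐ[K] L)
    (hτ : ∀ s : 𝔉, τ (algebraMap 𝔉 L s) = algebraMap 𝔉 L (ψ s))
    (hq : ∀ i f, τ (p i f) = q i f)
    (W : ValuationSubring L) (hW : S27IsKValU K W) :
    S27ptIsIdx W q A' (algebraMap 𝔉 L
      (ψ (β ((W.comap (algebraMap 𝔉 L)).comap ((ψ : 𝔉 →ₐ[K] 𝔉) : 𝔉 →+* 𝔉))))) := by
  have hx := hβ (W.comap (τ : L →+* L)) (s27pn_kval_comap τ hW)
  rw [s27pn_comap ψ τ hτ W] at hx
  have h1 := s27pt_idx_nat τ W hx
  have h2 : (fun i => τ.comp (p i)) = q := by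
    funext i
    exact AlgHom.ext fun f => hq i f
  rw [h2, hτ] at h1
  exact h1

end Abs

section Model

variable {K : Type u} {F : Type v} [Field K] [IsAlgClosed K] [Field F] [Algebra K F] {g : ℕ}
variable {L : Type w'} [Field L] [Algebra K L] [Algebra (s27gfOm K F g) L]
  [IsScalarTower K (s27gfOm K F g) L]

/-- `ι (β (W ∩ 𝔉))` is an exact index at the tautological tuple along every `W ⊇ K` of `L`. -/
theorem s17ahx_taut (A' : Divisor K F)
    (β : ValuationSubring (s27gfSym K F g) → s27gfSym K F g)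
    (hΩ : ∀ W : ValuationSubring (s27gfOm K F g), (∀ a : K, algebraMap K (s27gfOm K F g) a ∈ W) →
      S27ptIsIdx W (fun i => (s27gfIota i : F →ₐ[K] s27gfOm K F g)) A'
        (algebraMap (s27gfSym K F g) (s27gfOm K F g)
          (β (W.comap (algebraMap (s27gfSym K F g) (s27gfOm K F g))))))
    (W : ValuationSubring L) (hW : S27IsKValU K W) :
    S27ptIsIdx W (s27pnTaut (K := K) (F := F) (g := g) (L := L)) A'
      (algebraMap (s27gfSym K F g) L (β (W.comap (algebraMap (s27gfSym K F g) L)))) := by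
  have hK : ∀ a : K, algebraMap K (s27gfOm K F g) a ∈
      W.comap (algebraMap (s27gfOm K F g) L) := by
    intro a
    rw [ValuationSubring.mem_comap, ← IsScalarTower.algebraMap_apply K (s27gfOm K F g) L]
    exact hW a
  have h1 := hΩ (W.comap (algebraMap (s27gfOm K F g) L)) hK
  have h2 := s27pt_idx_nat (IsScalarTower.toAlgHom K (s27gfOm K F g) L) W h1
  have h3 : (W.comap (algebraMap (s27gfOm K F g) L)).comap
      (algebraMap (s27gfSym K F g) (s27gfOm K F g)) =
      W.comap (algebraMap (s27gfSym K F g) L) := by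
    ext s
    simp only [ValuationSubring.mem_comap]
    rfl
  rw [h3] at h2
  exact h2

/-- `ι (B k (W ∩ 𝔉))` is an exact index at `q k` along every `W ⊇ K` of `L` (`k ≠ 0`). -/
theorem s17ahx_indB [IsAlgClosed L] [Algebra.IsAlgebraic (s27gfOm K F g) L]
    (A' : Divisor K F)
    (β : ValuationSubring (s27gfSym K F g) → s27gfSym K F g)
    (hΩ : ∀ W : ValuationSubring (s27gfOm K F g), (∀ a : K, algebraMap K (s27gfOm K F g) a ∈ W) →
      S27ptIsIdx W (fun i => (s27gfIota i : F →ₐ[K] s27gfOm K F g)) A'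
        (algebraMap (s27gfSym K F g) (s27gfOm K F g)
          (β (W.comap (algebraMap (s27gfSym K F g) (s27gfOm K F g))))))
    (ψ : ℤ → (s27gfSym K F g →ₐ[K] s27gfSym K F g)) (q : ℤ → Fin g → F →ₐ[K] L)
    (k : ℤ) (hk : k ≠ 0)
    (hspec : ∃ he : Function.Injective (s27gfLiftR (q k)), ∀ s : s27gfSym K F g,
      algebraMap (s27gfOm K F g) L ((ψ k s : s27gfSym K F g) : s27gfOm K F g) =
        s27psiT (q k) he (s : s27gfOm K F g))
    (W : ValuationSubring L) (hW : S27IsKValU K W) :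
    S27ptIsIdx W (q k) A' (algebraMap (s27gfSym K F g) L
      (s27indB ψ β k (W.comap (algebraMap (s27gfSym K F g) L)))) := by
  obtain ⟨he, hs⟩ := hspec
  obtain ⟨τ, hτ⟩ := s27pc_exists_lift (s27psiT (q k) he)
  unfold s27indB
  rw [if_neg hk]
  refine s17ahx_nat (s27pnTaut (K := K) (F := F) (g := g) (L := L)) (q k) A' β
    (fun W' hW' => s17ahx_taut A' β hΩ W' hW') (ψ k) τ (fun s => ?_) (fun i f => ?_) W hW
  · have h1 : algebraMap (s27gfSym K F g) L s =
        algebraMap (s27gfOm K F g) L (s : s27gfOm K F g) := rfl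
    have h2 : algebraMap (s27gfSym K F g) L (ψ k s) =
        algebraMap (s27gfOm K F g) L ((ψ k s : s27gfSym K F g) : s27gfOm K F g) := rfl
    rw [h1, h2, hτ, hs]
  · show τ (algebraMap (s27gfOm K F g) L (s27gfIota i f)) = q k i f
    rw [hτ, s27psiT_iota]

end Model

section Stage

variable {K : Type u} {F : Type v} [Field K] [Field F] [Algebra K F] [IsAlgClosed K] [CharZero K]
  [IsCurveOver K F] [Algebra.EssFiniteType K F]
variable {x : F} (hx : Transcendental K x)
  [FiniteDimensional ↥(IntermediateField.adjoin K {x}) F]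
  [Algebra.IsSeparable ↥(IntermediateField.adjoin K {x}) F]
  (G₀ : Divisor K F) (hG₀ : Divisor.degree G₀ = (genusFF K F : ℤ))

/-- on the closed stage: `ι (B k (W ∩ 𝔉))` is an exact index at `q k` along `W`, `k ≠ 0`. -/
theorem s17ahx_idx (hg : 0 < genusFF K F) (Ao : Divisor K F)
    (hl : Module.finrank K ↥(riemannRochSpace (G₀ + Ao)) = genusFF K F)
    (q : ℤ → Fin (genusFF K F) → F →ₐ[K] s27mtL K F)
    (hq : S27pfFam (s27ftPkg hx G₀ hG₀) q) (k : ℤ) (hk : k ≠ 0)
    (W : ValuationSubring (s27mtL K F)) (hW : S27IsKValU K W) :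
    S27ptIsIdx W (q k) (G₀ + Ao)
      (s17pmtB (L := s27mtL K F)
        (s27indB (s27pfPsi (s27ftPkg hx G₀ hG₀) (s27dcl_halg (x := x)) hq)
          (s27beta (g := genusFF K F) (G₀ + Ao)) k) W) := by
  have hpos : 0 < Module.finrank K ↥(riemannRochSpace (G₀ + Ao)) := by rw [hl]; exact hg
  haveI : Module.Finite K ↥(riemannRochSpace (G₀ + Ao)) := Module.finite_of_finrank_pos hpos
  let f₀ : Module.Basis (Fin (genusFF K F)) K ↥(riemannRochSpace (G₀ + Ao)) :=
    Module.finBasisOfFinrankEq K _ hl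
  have hlat := s27flx_latEx K F hx (G₀ + Ao)
  exact s17ahx_indB (G₀ + Ao) (s27beta (g := genusFF K F) (G₀ + Ao))
    (fun W' hW' => s27beta_spec s27betac_conj (G₀ + Ao) f₀ hlat W' hW')
    (s27pfPsi (s27ftPkg hx G₀ hG₀) (s27dcl_halg (x := x)) hq) q k hk
    ⟨(s27pf_fam_pt (s27ftPkg hx G₀ hG₀) (s27dcl_halg (x := x)) hq k hk).inj,
      fun s => s27pfPsi_spec (s27ftPkg hx G₀ hG₀) (s27dcl_halg (x := x)) hq k hk s⟩ W hW

/-- on the closed stage: `ι (B k (W ∩ 𝔉))` is an index of `Θ_Ao` at the class `k • η`. -/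
theorem s17ahx_icIdx (hg : 0 < genusFF K F) (Ao : Divisor K F)
    (hl : Module.finrank K ↥(riemannRochSpace (G₀ + Ao)) = genusFF K F)
    (q : ℤ → Fin (genusFF K F) → F →ₐ[K] s27mtL K F)
    (hq : S27pfFam (s27ftPkg hx G₀ hG₀) q) (k : ℤ) (hk : k ≠ 0)
    (W : ValuationSubring (s27mtL K F)) (hW : S27IsKValU K W) :
    S27icIdx (FL := s27mtFL K F) (s27stg_hld K F (s27mtL K F)) (s27stg_hgen K F (s27mtL K F))
      hx Ao W
      (k • s27pfCl (s27dclPkg (FL := s27mtFL K F) (s27stg_hld K F (s27mtL K F))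
          (s27stg_hgen K F (s27mtL K F)) hx G₀ hG₀)
        (s27pfTaut (K := K) (F := F) (g := genusFF K F) (L := s27mtL K F)))
      (s17pmtB (L := s27mtL K F)
        (s27indB (s27pfPsi (s27ftPkg hx G₀ hG₀) (s27dcl_halg (x := x)) hq)
          (s27beta (g := genusFF K F) (G₀ + Ao)) k) W) :=
  s27ic_hIdx (FL := s27mtFL K F) (s27stg_hld K F (s27mtL K F))
    (s27stg_hgen K F (s27mtL K F)) hx G₀ hG₀ hq Ao k hk W hW _
    (s17ahx_idx hx G₀ hG₀ hg Ao hl q hq k hk W hW)

end Stage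

section Final

variable (N : ℕ) [NeZero N] [IsCurveOver Kb (FF N)] [Algebra.EssFiniteType Kb (FF N)]
  {x : FF N} (hx : Transcendental Kb x)
  [FiniteDimensional ↥(IntermediateField.adjoin Kb {x}) (FF N)]
  [Algebra.IsSeparable ↥(IntermediateField.adjoin Kb {x}) (FF N)]
  (G₀ : Divisor Kb (FF N)) (hG₀ : Divisor.degree G₀ = (genusFF Kb (FF N) : ℤ))

/-- **(hy)**: the literal input `hy` of `s17am_plT4` and `s17am_stmtAt_7` (S17/AsmMT.lean). -/
theorem s17ahx_hy (hg : 0 < genusFF Kb (FF N)) (O : Place Kb (FF N))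
    (hc : S27cstIsConst x G₀ O)
    (q : ℤ → Fin (genusFF Kb (FF N)) → FF N →ₐ[Kb] s27mtL Kb (FF N))
    (hq : S27pfFam (s27ftPkg hx G₀ hG₀) q) :
    ∀ W : ValuationSubring (s27mtL Kb (FF N)), S27IsKValU Kb W →
      S27icIdx (FL := s27mtFL Kb (FF N))
        (s27stg_hld Kb (FF N) (s27mtL Kb (FF N))) (s27stg_hgen Kb (FF N) (s27mtL Kb (FF N)))
        hx (s27cstAo G₀ O) W
        (s27pfCl (s27dclPkg (FL := s27mtFL Kb (FF N))
            (s27stg_hld Kb (FF N) (s27mtL Kb (FF N)))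
            (s27stg_hgen Kb (FF N) (s27mtL Kb (FF N))) hx G₀ hG₀)
          (s27pfTaut (K := Kb) (F := FF N) (g := genusFF Kb (FF N)) (L := s27mtL Kb (FF N))))
        (s17amY N hx G₀ hG₀ O q hq W) := by
  intro W hW
  have h := s17ahx_icIdx hx G₀ hG₀ hg (s27cstAo G₀ O) hc.l_A q hq 1 one_ne_zero W hW
  rw [one_zsmul] at h
  exact h

end Final

end Fermat.Agent.S17

end
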