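/-
S17 sprint, layer H, leaf **hG, L-LEVEL FORM** (helper13) — ruling (A): `b = B (+1) = β`, the Chow
tuple is the one of the OPPOSITE tuple `e = q (−1)` (class `−η`).

On the closed S27-B stage (`L = s27mtL K F`, constants `hc : S27cstIsConst x G₀ O`,
`Ao = s27cstAo G₀ O`, `A' = G₀ + Ao = 2 G₀ − O`, a family `q`), for a function `t` whose only pole
is `O`, of order `≤ N`:  THE CHOW BLOCK LIES IN `L(N · Θ)`, along EVERY valuation subring
`W ⊇ K` of `L` (no descent to `𝔉` is needed for the common tuple of S17/CommonS.lean):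

* `s17cml_opp_symm`  : `S27pdaOpp p q A → S27pdaOpp q p A`;
* `s17cml_idx`       : `S27ptIsIdx W taut A' y ⇒ Chow_n (q (−1) · t) · y ^ N ∈ W`
                       (`s17cil_chow_idx` with the two tuples swapped);
* **`s17cml_beta`**  : `Chow_n · (ι (β (W ∩ 𝔉))) ^ N ∈ W`   (BETA);
* **`s17cml_B`**     : the same with `s17pmtB (s27indB ψ β 1)` (the local equations of PlM);
* `s17cml_B_raise`   : … with any exponent `M ≥ N`;
* **`s17cml_trMem`** : `S17trMem K y N Chow` for EVERY `y` with `S27icIdx … Ao W η (y W)`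
                       (the local equations of PlT), by (LE) `s27lec_le` + `s27final_lea`;
* `s17cml_pmk`       : the `K`-place form (`hG` of `s17cs_pmkBpf_sum`).
-/
import Fermat.Agent.S27.Final
import Fermat.Agent.S27.GrowClosed
import Fermat.Agent.S17.ChowInL
import Fermat.Agent.S17.Transl
import Fermat.Agent.S17.PlMTop
import Fermat.Agent.S24.GaloisCount

set_option autoImplicit false
set_option linter.unusedVariables false
set_option linter.unusedSectionVars false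
set_option linter.style.haveILetI false
set_option linter.style.longLine false

noncomputable section

namespace Fermat.Agent.S17

open AlgebraicCurve Module TensorProduct IntermediateField Fermat.Agent.S26 Fermat.Agent.S27

universe u v w

section Symm

variable {K : Type u} {F : Type v} [Field K] [Field F] [Algebra K F]
variable {𝔏 : Type w} [Field 𝔏] [Algebra K 𝔏]

/-- (OPP) is symmetric in the two tuples. -/
theorem s17cml_opp_symm {g : ℕ} {p q : Fin g → F →ₐ[K] 𝔏} {A : Divisor K F}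
    (h : S27pdaOpp p q A) : S27pdaOpp q p A := by
  intro f
  obtain ⟨c₀, c, hne, hp, hq⟩ := h f
  exact ⟨c₀, c, hne, hq, hp⟩

end Symm

section Stage

variable {K : Type u} {F : Type v} [Field K] [Field F] [Algebra K F] [IsAlgClosed K] [CharZero K]
  [IsCurveOver K F] [Algebra.EssFiniteType K F]
variable {x : F} (hx : Transcendental K x)
  [FiniteDimensional ↥(IntermediateField.adjoin K {x}) F]
  [Algebra.IsSeparable ↥(IntermediateField.adjoin K {x}) F]
  (G₀ : Divisor K F) (hG₀ : Divisor.degree G₀ = (genusFF K F : ℤ))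

/-- **the Chow block of the opposite tuple against a tuple-indexed local equation at `η`.** -/
theorem s17cml_idx (O : Place K F) (hG0 : 0 ≤ G₀) (hOG : G₀ O = 0)
    (q : ℤ → Fin (genusFF K F) → F →ₐ[K] s27mtL K F) (hq : S27pfFam (s27ftPkg hx G₀ hG₀) q)
    (t : F) (N : ℕ) (htO : -(N : ℤ) ≤ O.ord t) (ht : ∀ Q : Place K F, Q ≠ O → 0 ≤ Q.ord t)
    (W : ValuationSubring (s27mtL K F)) (hW : S27IsKValU K W) (y : s27mtL K F)
    (hy : S27ptIsIdx W (s27pfTaut (K := K) (F := F) (g := genusFF K F) (L := s27mtL K F))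
      (2 • G₀ - Finsupp.single O 1) y) (n : Fin (genusFF K F + 1)) :
    s17cvChow (fun i => q (-1) i t) n * y ^ N ∈ W := by
  obtain ⟨hAO, hApos, hA⟩ := s27grc_const G₀ O hG0 hOG
  have hm1 : (-1 : ℤ) ≠ 0 := by norm_num
  have hm1' : (-1 : ℤ) ≠ 1 := by norm_num
  obtain ⟨s, hs⟩ := Fermat.Agent.S24.place_exists_ord_eq_one O
  have hdisj := s27dom_disj_fam (FL := s27mtFL K F) (s27stg_hld K F (s27mtL K F))
    (s27stg_hgen K F (s27mtL K F)) hx G₀ hG₀ q hq (-1) hm1 hm1'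
  exact s17cil_chow_idx x hx W hW O (s26gspf_hall hx O) s hs _ hAO hApos (q (-1))
    (s27pfTaut (K := K) (F := F) (g := genusFF K F) (L := s27mtL K F))
    (s27oppt_fam_inj (s27ftPkg hx G₀ hG₀) q hq (-1) hm1) (s27oppt_taut_inj x hx)
    (fun i j h => hdisj j i h.symm)
    (s17cml_opp_symm (s27oppf_opp (FL := s27mtFL K F) (s27stg_hld K F (s27mtL K F))
      (s27stg_hgen K F (s27mtL K F)) (s26gspf_hall hx) hx
      (s27pkg_hdeg (s27stg_hld K F (s27mtL K F)) (s27stg_hgen K F (s27mtL K F)) hx) G₀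
      (s27pkgO_degree (s27stg_hld K F (s27mtL K F)) (s27stg_hgen K F (s27mtL K F)) hx G₀ hG₀)
      (s27ftPkg hx G₀ hG₀) (fun e => rfl) (fun R => rfl) q hq hG0 O hOG))
    t N htO ht y hy n

/-- (BETA) on the stage for the constants `hc`. -/
theorem s17cml_hbeta (hg : 0 < genusFF K F) (O : Place K F) (hc : S27cstIsConst x G₀ O) :
    S27pnBeta (L := s27mtL K F)
      (s27pnTaut (K := K) (F := F) (g := genusFF K F) (L := s27mtL K F)) (G₀ + s27cstAo G₀ O)
      (s27beta (g := genusFF K F) (G₀ + s27cstAo G₀ O)) := by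
  have hl := hc.l_A
  have hpos : 0 < Module.finrank K ↥(riemannRochSpace (G₀ + s27cstAo G₀ O)) := by
    rw [hl]; exact hg
  haveI : Module.Finite K ↥(riemannRochSpace (G₀ + s27cstAo G₀ O)) :=
    Module.finite_of_finrank_pos hpos
  let f₀ : Module.Basis (Fin (genusFF K F)) K ↥(riemannRochSpace (G₀ + s27cstAo G₀ O)) :=
    Module.finBasisOfFinrankEq K _ hl
  exact s27pn_beta_main s27betac_conj (G₀ + s27cstAo G₀ O) f₀
    (s27flx_latEx K F hc.trans (G₀ + s27cstAo G₀ O))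

/-- a tuple-indexed local equation at `η` along `W` (from BETA). -/
theorem s17cml_exists_idx (hg : 0 < genusFF K F) (O : Place K F) (hc : S27cstIsConst x G₀ O)
    (W : ValuationSubring (s27mtL K F)) (hW : S27IsKValU K W) :
    ∃ y' : s27mtL K F,
      S27ptIsIdx W (s27pfTaut (K := K) (F := F) (g := genusFF K F) (L := s27mtL K F))
        (2 • G₀ - Finsupp.single O 1) y' ∧
      ∃ u : s27mtL K F, S27IsUnitIn W u ∧
        algebraMap (s27gfSym K F (genusFF K F)) (s27mtL K F)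
          (s27beta (g := genusFF K F) (G₀ + s27cstAo G₀ O)
            (W.comap (algebraMap (s27gfSym K F (genusFF K F)) (s27mtL K F)))) = u * y' := by
  obtain ⟨y', hy', u, hu, he⟩ := s17cml_hbeta G₀ hg O hc W hW
  rw [s27cstf_A_eq_two G₀ O] at hy'
  exact ⟨y', hy', u, hu, he⟩

/-- **hG, BETA form**: `Chow_n (q (−1) · t) · (ι (β (W ∩ 𝔉))) ^ N ∈ W`. -/
theorem s17cml_beta (hg : 0 < genusFF K F) (O : Place K F) (hc : S27cstIsConst x G₀ O)
    (q : ℤ → Fin (genusFF K F) → F →ₐ[K] s27mtL K F) (hq : S27pfFam (s27ftPkg hx G₀ hG₀) q)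
    (t : F) (N : ℕ) (htO : -(N : ℤ) ≤ O.ord t) (ht : ∀ Q : Place K F, Q ≠ O → 0 ≤ Q.ord t)
    (W : ValuationSubring (s27mtL K F)) (hW : S27IsKValU K W) (n : Fin (genusFF K F + 1)) :
    s17cvChow (fun i => q (-1) i t) n *
      (algebraMap (s27gfSym K F (genusFF K F)) (s27mtL K F)
        (s27beta (g := genusFF K F) (G₀ + s27cstAo G₀ O)
          (W.comap (algebraMap (s27gfSym K F (genusFF K F)) (s27mtL K F))))) ^ N ∈ W := by
  obtain ⟨y', hy', u, hu, he⟩ := s17cml_exists_idx G₀ hg O hc W hW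
  have h1 := s17cml_idx hx G₀ hG₀ O hc.nonneg hc.off q hq t N htO ht W hW y' hy' n
  rw [he, mul_pow]
  have h2 : s17cvChow (fun i => q (-1) i t) n * (u ^ N * y' ^ N) =
      u ^ N * (s17cvChow (fun i => q (-1) i t) n * y' ^ N) := by ring
  rw [h2]
  exact W.mul_mem _ _ (W.pow_mem hu.2.1 N) h1

/-- `B 1 = β` on the stage. -/
theorem s17cml_B_one (q : ℤ → Fin (genusFF K F) → F →ₐ[K] s27mtL K F)
    (hq : S27pfFam (s27ftPkg hx G₀ hG₀) q)
    (β : ValuationSubring (s27gfSym K F (genusFF K F)) → s27gfSym K F (genusFF K F))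
    (V : ValuationSubring (s27gfSym K F (genusFF K F))) :
    s27indB (s27pfPsi (s27ftPkg hx G₀ hG₀) (s27dcl_halg (x := x)) hq) β 1 V = β V := by
  obtain ⟨h1, -⟩ := s27mp_comp (FL := s27mtFL K F) (s27stg_hld K F (s27mtL K F))
    (s27stg_hgen K F (s27mtL K F)) hx G₀ hG₀ hq
  unfold s27indB
  rw [if_neg one_ne_zero, h1]
  congr 1
  ext z
  simp only [ValuationSubring.mem_comap]
  have e : ((s27pfPsi (s27ftPkg hx G₀ hG₀) (s27dcl_halg (x := x)) hq 1 :
      s27gfSym K F (genusFF K F) →ₐ[K] s27gfSym K F (genusFF K F)) :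
      s27gfSym K F (genusFF K F) →+* s27gfSym K F (genusFF K F)) z = z := h1 z
  rw [e]

/-- **hG for the local equations of PlM**: `Chow_n · (s17pmtB (B 1) W) ^ N ∈ W`. -/
theorem s17cml_B (hg : 0 < genusFF K F) (O : Place K F) (hc : S27cstIsConst x G₀ O)
    (q : ℤ → Fin (genusFF K F) → F →ₐ[K] s27mtL K F) (hq : S27pfFam (s27ftPkg hx G₀ hG₀) q)
    (t : F) (N : ℕ) (htO : -(N : ℤ) ≤ O.ord t) (ht : ∀ Q : Place K F, Q ≠ O → 0 ≤ Q.ord t)
    (W : ValuationSubring (s27mtL K F)) (hW : S27IsKValU K W) (n : Fin (genusFF K F + 1)) :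
    s17cvChow (fun i => q (-1) i t) n *
      s17pmtB (L := s27mtL K F)
        (s27indB (s27pfPsi (s27ftPkg hx G₀ hG₀) (s27dcl_halg (x := x)) hq)
          (s27beta (g := genusFF K F) (G₀ + s27cstAo G₀ O)) 1) W ^ N ∈ W := by
  unfold s17pmtB
  rw [s17cml_B_one hx G₀ hG₀ q hq]
  exact s17cml_beta hx G₀ hG₀ hg O hc q hq t N htO ht W hW n

/-- the same with any exponent `M ≥ N`. -/
theorem s17cml_B_raise (hg : 0 < genusFF K F) (O : Place K F) (hc : S27cstIsConst x G₀ O)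
    (q : ℤ → Fin (genusFF K F) → F →ₐ[K] s27mtL K F) (hq : S27pfFam (s27ftPkg hx G₀ hG₀) q)
    (t : F) (N M : ℕ) (hNM : N ≤ M) (htO : -(N : ℤ) ≤ O.ord t)
    (ht : ∀ Q : Place K F, Q ≠ O → 0 ≤ Q.ord t)
    (W : ValuationSubring (s27mtL K F)) (hW : S27IsKValU K W) (n : Fin (genusFF K F + 1)) :
    s17cvChow (fun i => q (-1) i t) n *
      s17pmtB (L := s27mtL K F)
        (s27indB (s27pfPsi (s27ftPkg hx G₀ hG₀) (s27dcl_halg (x := x)) hq)
          (s27beta (g := genusFF K F) (G₀ + s27cstAo G₀ O)) 1) W ^ M ∈ W := by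
  have h1 := s17cml_B hx G₀ hG₀ hg O hc q hq t N htO ht W hW n
  have hl := hc.l_A
  have hpos : 0 < Module.finrank K ↥(riemannRochSpace (G₀ + s27cstAo G₀ O)) := by
    rw [hl]; exact hg
  haveI : Module.Finite K ↥(riemannRochSpace (G₀ + s27cstAo G₀ O)) :=
    Module.finite_of_finrank_pos hpos
  let f₀ : Module.Basis (Fin (genusFF K F)) K ↥(riemannRochSpace (G₀ + s27cstAo G₀ O)) :=
    Module.finBasisOfFinrankEq K _ hl
  obtain ⟨-, bmem, -⟩ := s27betat_main (g := genusFF K F) (G₀ + s27cstAo G₀ O) f₀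
    (s27flx_latEx K F hx (G₀ + s27cstAo G₀ O))
  have hb : s17pmtB (L := s27mtL K F)
      (s27indB (s27pfPsi (s27ftPkg hx G₀ hG₀) (s27dcl_halg (x := x)) hq)
        (s27beta (g := genusFF K F) (G₀ + s27cstAo G₀ O)) 1) W ∈ W := by
    unfold s17pmtB
    rw [s17cml_B_one hx G₀ hG₀ q hq]
    exact bmem _ (s17pmt_isKVal hW)
  obtain ⟨d, rfl⟩ := Nat.exists_eq_add_of_le hNM
  rw [pow_add, ← mul_assoc]
  exact W.mul_mem _ _ h1 (W.pow_mem hb d)

/-- **hG for the local equations of PlT**: `S17trMem K y N Chow` for EVERY family `y` of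
class-indexed local equations of `Θ_{Ao}` at `η`. -/
theorem s17cml_trMem (hg : 0 < genusFF K F) (O : Place K F) (hc : S27cstIsConst x G₀ O)
    (q : ℤ → Fin (genusFF K F) → F →ₐ[K] s27mtL K F) (hq : S27pfFam (s27ftPkg hx G₀ hG₀) q)
    (t : F) (N : ℕ) (htO : -(N : ℤ) ≤ O.ord t) (ht : ∀ Q : Place K F, Q ≠ O → 0 ≤ Q.ord t)
    (y : ValuationSubring (s27mtL K F) → s27mtL K F)
    (hy : ∀ W : ValuationSubring (s27mtL K F), S27IsKValU K W →
      s27ftIdx hx (s27cstAo G₀ O) W (s27ftEta hx G₀ hG₀) (y W)) :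
    S17trMem K y N (fun n : Fin (genusFF K F + 1) => s17cvChow (fun i => q (-1) i t) n) := by
  intro W hW n
  have hLE : S27ftLE hx (s27cstAo G₀ O) :=
    s27lec_le (FL := s27mtFL K F) (s27stg_hld K F (s27mtL K F))
      (s27stg_hgen K F (s27mtL K F)) hx (s27cstAo G₀ O) hc.bot
      (s27final_lea K F hg x hx G₀ O hc)
  obtain ⟨y', hy', -⟩ := s17cml_exists_idx G₀ hg O hc W hW
  have hy'A : S27ptIsIdx W (s27pfTaut (K := K) (F := F) (g := genusFF K F) (L := s27mtL K F))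
      (G₀ + s27cstAo G₀ O) y' := by
    rw [s27cstf_A_eq_two G₀ O]
    exact hy'
  have hidx : s27ftIdx hx (s27cstAo G₀ O) W (s27ftEta hx G₀ hG₀) y' :=
    Or.inr ⟨genusFF K F, s27pfTaut (K := K) (F := F) (g := genusFF K F) (L := s27mtL K F), G₀,
      hG₀, s27oppt_taut_inj x hx, rfl, hy'A⟩
  obtain ⟨u, hu, he⟩ := (hLE W hW).2 _ _ _ (hy W hW) hidx
  have h1 := s17cml_idx hx G₀ hG₀ O hc.nonneg hc.off q hq t N htO ht W hW y' hy' n
  show s17cvChow (fun i => q (-1) i t) n * y W ^ N ∈ W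
  rw [he, mul_pow]
  have h2 : s17cvChow (fun i => q (-1) i t) n * (u ^ N * y' ^ N) =
      u ^ N * (s17cvChow (fun i => q (-1) i t) n * y' ^ N) := by ring
  rw [h2]
  exact W.mul_mem _ _ (W.pow_mem hu.2.1 N) h1

/-- the `K`-place form (`hG` of `s17cs_pmkBpf_sum`, S17/CommonS.lean). -/
theorem s17cml_pmk (hg : 0 < genusFF K F) (O : Place K F) (hc : S27cstIsConst x G₀ O)
    (q : ℤ → Fin (genusFF K F) → F →ₐ[K] s27mtL K F) (hq : S27pfFam (s27ftPkg hx G₀ hG₀) q)
    (t : F) (N M : ℕ) (hNM : N ≤ M) (htO : -(N : ℤ) ≤ O.ord t)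
    (ht : ∀ Q : Place K F, Q ≠ O → 0 ≤ Q.ord t)
    (P : S17plPlace K (s27mtL K F)) (n : Fin (genusFF K F + 1)) :
    s17cvChow (fun i => q (-1) i t) n *
      s17pmtB (L := s27mtL K F)
        (s27indB (s27pfPsi (s27ftPkg hx G₀ hG₀) (s27dcl_halg (x := x)) hq)
          (s27beta (g := genusFF K F) (G₀ + s27cstAo G₀ O)) 1) P.W ^ M ∈ P.W :=
  s17cml_B_raise hx G₀ hG₀ hg O hc q hq t N M hNM htO ht P.W P.hKW n

/-- the pole order of `t` at `O` is bounded: some `N` works. -/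
theorem s17cml_exists_N (O : Place K F) (t : F) : ∃ N : ℕ, -(N : ℤ) ≤ O.ord t := by
  refine ⟨(-(O.ord t)).toNat, ?_⟩
  have := Int.self_le_toNat (-(O.ord t))
  omega

end Stage

end Fermat.Agent.S17

end
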