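/-
S17 sprint, layer H — **FINAL ASSEMBLY, input (L1) = hsec, LITERAL SHAPE** (helper13): the Chow
sections of the opposite tuple `q (−1)` against the lifted local equations `s17amY`
(S17/AsmMT.lean, `b = B(+1)`, ruling (A)), at every `ℚ̄`-place and along every `W ⊇ ℚ̄`:

* `s17al1_hsec`   : `∀ P n, s17cvChow (fun i => q (−1) i t) n * s17amY … P.W ^ M ∈ P.W`
                    (= `hsec` of `s17pnt_plN`, S17/PlNTop.lean);
* `s17al1_hsec_W` : the same along every valuation subring `W ⊇ ℚ̄` of `L`;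
* `s17al1_trMem`  : `S17trMem Kb (s17amY …) M Chow`.

From S17/ChowMemL.lean (`s17cml_B_raise`); the pole order `N` of `t` at `O` and any `M ≥ N`.
-/
import Fermat.Agent.S17.ChowMemL
import Fermat.Agent.S17.AsmMT

set_option autoImplicit false
set_option linter.unusedVariables false
set_option linter.unusedSectionVars false
set_option linter.style.haveILetI false
set_option linter.style.longLine false

noncomputable section

namespace Fermat.Agent.S17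

open ModularCurve AlgebraicCurve Module TensorProduct IntermediateField
open Fermat.Agent.S24 Fermat.Agent.S26 Fermat.Agent.S27 Fermat.Agent.DEU

section Stage

variable (N : ℕ) [NeZero N] [IsCurveOver Kb (FF N)] [Algebra.EssFiniteType Kb (FF N)]
  {x : FF N} (hx : Transcendental Kb x)
  [FiniteDimensional ↥(IntermediateField.adjoin Kb {x}) (FF N)]
  [Algebra.IsSeparable ↥(IntermediateField.adjoin Kb {x}) (FF N)]
  (G₀ : Divisor Kb (FF N)) (hG₀ : Divisor.degree G₀ = (genusFF Kb (FF N) : ℤ))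

/-- **(L1) along every `W ⊇ ℚ̄`.** -/
theorem s17al1_hsec_W (hg : 0 < genusFF Kb (FF N)) (O : Place Kb (FF N))
    (hc : S27cstIsConst x G₀ O)
    (q : ℤ → Fin (genusFF Kb (FF N)) → FF N →ₐ[Kb] s27mtL Kb (FF N))
    (hq : S27pfFam (s27ftPkg hx G₀ hG₀) q)
    (t : FF N) (N₁ M : ℕ) (hNM : N₁ ≤ M) (htO : -(N₁ : ℤ) ≤ O.ord t)
    (ht : ∀ Q : Place Kb (FF N), Q ≠ O → 0 ≤ Q.ord t)
    (W : ValuationSubring (s27mtL Kb (FF N))) (hW : S27IsKValU Kb W)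
    (n : Fin (genusFF Kb (FF N) + 1)) :
    s17cvChow (fun i => q (-1) i t) n * s17amY N hx G₀ hG₀ O q hq W ^ M ∈ W := by
  unfold s17amY
  exact s17cml_B_raise hx G₀ hG₀ hg O hc q hq t N₁ M hNM htO ht W hW n

/-- **(L1) = `hsec` of `s17pnt_plN`**, literal. -/
theorem s17al1_hsec (hg : 0 < genusFF Kb (FF N)) (O : Place Kb (FF N))
    (hc : S27cstIsConst x G₀ O)
    (q : ℤ → Fin (genusFF Kb (FF N)) → FF N →ₐ[Kb] s27mtL Kb (FF N))
    (hq : S27pfFam (s27ftPkg hx G₀ hG₀) q)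
    (t : FF N) (N₁ M : ℕ) (hNM : N₁ ≤ M) (htO : -(N₁ : ℤ) ≤ O.ord t)
    (ht : ∀ Q : Place Kb (FF N), Q ≠ O → 0 ≤ Q.ord t) :
    ∀ (P : S17plPlace Kb (s27mtL Kb (FF N))) (n : Fin (genusFF Kb (FF N) + 1)),
      s17cvChow (fun i => q (-1) i t) n * s17amY N hx G₀ hG₀ O q hq P.W ^ M ∈ P.W :=
  fun P n => s17al1_hsec_W N hx G₀ hG₀ hg O hc q hq t N₁ M hNM htO ht P.W P.hKW n

/-- (L1) with SOME exponent: `∃ M₀, ∀ M ≥ M₀, hsec`. -/
theorem s17al1_exists (hg : 0 < genusFF Kb (FF N)) (O : Place Kb (FF N))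
    (hc : S27cstIsConst x G₀ O)
    (q : ℤ → Fin (genusFF Kb (FF N)) → FF N →ₐ[Kb] s27mtL Kb (FF N))
    (hq : S27pfFam (s27ftPkg hx G₀ hG₀) q)
    (t : FF N) (ht : ∀ Q : Place Kb (FF N), Q ≠ O → 0 ≤ Q.ord t) :
    ∃ M₀ : ℕ, ∀ M, M₀ ≤ M → ∀ (P : S17plPlace Kb (s27mtL Kb (FF N)))
      (n : Fin (genusFF Kb (FF N) + 1)),
      s17cvChow (fun i => q (-1) i t) n * s17amY N hx G₀ hG₀ O q hq P.W ^ M ∈ P.W := by
  obtain ⟨N₁, hN₁⟩ := s17cml_exists_N O t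
  exact ⟨N₁, fun M hM => s17al1_hsec N hx G₀ hG₀ hg O hc q hq t N₁ M hM hN₁ ht⟩

/-- (L1) as `S17trMem`. -/
theorem s17al1_trMem (hg : 0 < genusFF Kb (FF N)) (O : Place Kb (FF N))
    (hc : S27cstIsConst x G₀ O)
    (q : ℤ → Fin (genusFF Kb (FF N)) → FF N →ₐ[Kb] s27mtL Kb (FF N))
    (hq : S27pfFam (s27ftPkg hx G₀ hG₀) q)
    (t : FF N) (N₁ M : ℕ) (hNM : N₁ ≤ M) (htO : -(N₁ : ℤ) ≤ O.ord t)
    (ht : ∀ Q : Place Kb (FF N), Q ≠ O → 0 ≤ Q.ord t) :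
    S17trMem Kb (s17amY N hx G₀ hG₀ O q hq) M
      (fun n : Fin (genusFF Kb (FF N) + 1) => s17cvChow (fun i => q (-1) i t) n) :=
  fun W hW n => s17al1_hsec_W N hx G₀ hG₀ hg O hc q hq t N₁ M hNM htO ht W hW n

end Stage

end Fermat.Agent.S17

end
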