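/-
S17 sprint, design A v2 (ONE theta divisor), leaf **PlM-MINUS** (helper13): the MODEL works with
`b⁻ = B (−1)` (local equation of `Θ⁻ = [−1]^* Θ`, S17/Model.lean), while the telescoped cube
(S17/MultTele.lean, S17/PlMCube.lean) and bpf are written for `b = B 1` (`Θ`).  Formal transfer
along the involution `σ = ψ (−1)`:

  `b⁻ V := σ (b (V ∘ σ))`   (`s17pmmB σ b`),

* `s17pmm_tele`  : `S17mvTele K φ σ b Ψ c p q` + `σ ∘ σ = id` + `σ ∘ φ = φ ∘ σ`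
                   ⇒ `S17mvTele K φ σ (s17pmmB σ b) (σ Ψ) c p q`;
* `s17pmm_bpf`   : `S17muBpf K b N f ⇒ S17muBpf K (s17pmmB σ b) N (σ ∘ f)`;
* `s17pmm_LU`    : `x ∈ L(m D) ⇒ σ x ∈ L(m D⁻)`;  `s17pmm_LU_iff` (for an involution);
* `s17pmmB_indB` : `s17pmmB (ψ (−1)) (B 1) = B (−1)`  (`B k = s27indB ψ β k`, `ψ (−1) ∘ ψ 1 = ψ (−1)`);
* `s17pmm_tele_ind`, `s17pmm_bpf_ind` : the same in terms of `s27indB ψ β (−1)`;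
* **`s17pmm_tele_stage`** : on the S27-B stage, UNCONDITIONAL, every `n > 0`:
     `∃ Ψ c, 0 < c ∧ S17mvTele K (ψ n) (ψ (−1)) (B (−1)) Ψ c (n(n+1)/2) (n(n−1)/2)`.
-/
import Fermat.Agent.S17.PlMCubeB

set_option autoImplicit false
set_option linter.unusedVariables false
set_option linter.unusedSectionVars false
set_option linter.style.haveILetI false

noncomputable section

namespace Fermat.Agent.S17

open AlgebraicCurve Module TensorProduct IntermediateField Fermat.Agent.S26 Fermat.Agent.S27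

universe u v w x

section Formal

variable {K : Type u} [Field K] {𝔉 : Type w} [Field 𝔉] [Algebra K 𝔉]

/-- the pulled-back local equations `b⁻ V = σ (b (V ∘ σ))`. -/
def s17pmmB (σ : 𝔉 →ₐ[K] 𝔉) (b : ValuationSubring 𝔉 → 𝔉) (V : ValuationSubring 𝔉) : 𝔉 :=
  σ (b (V.comap (σ : 𝔉 →+* 𝔉)))

/-- `(V ∘ φ) ∘ σ = V ∘ τ` when `φ ∘ σ = τ`. -/
theorem s17pmm_comap_comap (φ σ τ : 𝔉 →ₐ[K] 𝔉) (h : ∀ y, φ (σ y) = τ y)
    (V : ValuationSubring 𝔉) :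
    (V.comap (φ : 𝔉 →+* 𝔉)).comap (σ : 𝔉 →+* 𝔉) = V.comap (τ : 𝔉 →+* 𝔉) := by
  ext y
  simp only [ValuationSubring.mem_comap]
  have e : (φ : 𝔉 →+* 𝔉) ((σ : 𝔉 →+* 𝔉) y) = (τ : 𝔉 →+* 𝔉) y := h y
  rw [e]

/-- `(V ∘ σ) ∘ σ = V` for an involution. -/
theorem s17pmm_comap_invol (σ : 𝔉 →ₐ[K] 𝔉) (hσσ : ∀ y, σ (σ y) = y)
    (V : ValuationSubring 𝔉) :
    (V.comap (σ : 𝔉 →+* 𝔉)).comap (σ : 𝔉 →+* 𝔉) = V := by
  ext y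
  simp only [ValuationSubring.mem_comap]
  have e : (σ : 𝔉 →+* 𝔉) ((σ : 𝔉 →+* 𝔉) y) = y := hσσ y
  rw [e]

/-- **the telescoped cube for `Θ⁻`** from the one for `Θ`. -/
theorem s17pmm_tele {φ σ : 𝔉 →ₐ[K] 𝔉} {b : ValuationSubring 𝔉 → 𝔉} {Ψ : 𝔉} {c p q : ℕ}
    (hT : S17mvTele K φ σ b Ψ c p q) (hσσ : ∀ y, σ (σ y) = y)
    (hφσ : ∀ y, σ (φ y) = φ (σ y)) :
    S17mvTele K φ σ (s17pmmB σ b) (σ Ψ) c p q := by
  intro V hV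
  obtain ⟨u, hu, h⟩ := hT (V.comap (σ : 𝔉 →+* 𝔉)) (s17mu_comap_isKVal σ hV)
  refine ⟨σ u, s17mu_unit_comap σ hu, ?_⟩
  have e1 : (V.comap (σ : 𝔉 →+* 𝔉)).comap (φ : 𝔉 →+* 𝔉) =
      (V.comap (φ : 𝔉 →+* 𝔉)).comap (σ : 𝔉 →+* 𝔉) := by
    ext y
    simp only [ValuationSubring.mem_comap]
    have e : (σ : 𝔉 →+* 𝔉) ((φ : 𝔉 →+* 𝔉) y) = (φ : 𝔉 →+* 𝔉) ((σ : 𝔉 →+* 𝔉) y) := hφσ y
    rw [e]
  have h2 := congrArg σ h
  rw [map_pow, map_mul, map_mul, map_mul, map_pow, map_pow, hφσ, e1] at h2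
  exact h2

/-- **base-point-freeness for `Θ⁻`** from the one for `Θ`. -/
theorem s17pmm_bpf {ι : Type x} {b : ValuationSubring 𝔉 → 𝔉} {N : ℕ} {f : ι → 𝔉}
    (hF : S17muBpf K b N f) (σ : 𝔉 →ₐ[K] 𝔉) :
    S17muBpf K (s17pmmB σ b) N (fun i => σ (f i)) :=
  fun V hV => s17mv_pull σ hF V hV

/-- `σ` maps `L(m D)` into `L(m D⁻)`. -/
theorem s17pmm_LU {b : ValuationSubring 𝔉 → 𝔉} {m : ℕ} {y : 𝔉} (hy : y ∈ s27LU K b m)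
    (σ : 𝔉 →ₐ[K] 𝔉) : σ y ∈ s27LU K (s17pmmB σ b) m := by
  intro V hV
  have h := hy (V.comap (σ : 𝔉 →+* 𝔉)) (s17mu_comap_isKVal σ hV)
  have h2 : (σ : 𝔉 →+* 𝔉) (y * b (V.comap (σ : 𝔉 →+* 𝔉)) ^ m) ∈ V := h
  have h3 : (σ : 𝔉 →+* 𝔉) (y * b (V.comap (σ : 𝔉 →+* 𝔉)) ^ m) =
      σ y * s17pmmB σ b V ^ m := by
    unfold s17pmmB
    rw [map_mul, map_pow]
    rfl
  rwa [h3] at h2

/-- `(b⁻)⁻ = b` for an involution. -/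
theorem s17pmmB_invol (σ : 𝔉 →ₐ[K] 𝔉) (hσσ : ∀ y, σ (σ y) = y)
    (b : ValuationSubring 𝔉 → 𝔉) : s17pmmB σ (s17pmmB σ b) = b := by
  funext V
  unfold s17pmmB
  rw [hσσ, s17pmm_comap_invol σ hσσ]

/-- for an involution: `σ y ∈ L(m D⁻) ↔ y ∈ L(m D)`. -/
theorem s17pmm_LU_iff {b : ValuationSubring 𝔉 → 𝔉} {m : ℕ} {y : 𝔉} (σ : 𝔉 →ₐ[K] 𝔉)
    (hσσ : ∀ y, σ (σ y) = y) : σ y ∈ s27LU K (s17pmmB σ b) m ↔ y ∈ s27LU K b m := by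
  refine ⟨fun h => ?_, fun h => s17pmm_LU h σ⟩
  have h2 := s17pmm_LU h σ
  rwa [s17pmmB_invol σ hσσ, hσσ] at h2

/-- `s17pmmB (ψ (−1)) (B 1) = B (−1)`. -/
theorem s17pmmB_indB (ψ : ℤ → (𝔉 →ₐ[K] 𝔉)) (β : ValuationSubring 𝔉 → 𝔉)
    (compm₁ : ∀ y, ψ (-1) (ψ 1 y) = ψ (-1) y) :
    s17pmmB (ψ (-1)) (s27indB ψ β 1) = s27indB ψ β (-1) := by
  funext V
  exact s27indB_map ψ β (-1) 1 (-1) one_ne_zero (by norm_num) compm₁ V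

/-- the telescoped cube for `B (−1)`. -/
theorem s17pmm_tele_ind (ψ : ℤ → (𝔉 →ₐ[K] 𝔉)) (β : ValuationSubring 𝔉 → 𝔉) (n : ℤ)
    {Ψ : 𝔉} {c p q : ℕ}
    (hT : S17mvTele K (ψ n) (ψ (-1)) (s27indB ψ β 1) Ψ c p q)
    (compm₁ : ∀ y, ψ (-1) (ψ 1 y) = ψ (-1) y)
    (hσσ : ∀ y, ψ (-1) (ψ (-1) y) = y)
    (hφσ : ∀ y, ψ (-1) (ψ n y) = ψ n (ψ (-1) y)) :
    S17mvTele K (ψ n) (ψ (-1)) (s27indB ψ β (-1)) (ψ (-1) Ψ) c p q := by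
  have h := s17pmm_tele hT hσσ hφσ
  rwa [s17pmmB_indB ψ β compm₁] at h

/-- base-point-freeness for `B (−1)`. -/
theorem s17pmm_bpf_ind {ι : Type x} (ψ : ℤ → (𝔉 →ₐ[K] 𝔉)) (β : ValuationSubring 𝔉 → 𝔉)
    {N : ℕ} {f : ι → 𝔉} (hF : S17muBpf K (s27indB ψ β 1) N f)
    (compm₁ : ∀ y, ψ (-1) (ψ 1 y) = ψ (-1) y) :
    S17muBpf K (s27indB ψ β (-1)) N (fun i => ψ (-1) (f i)) := by
  have h := s17pmm_bpf hF (ψ (-1))
  rwa [s17pmmB_indB ψ β compm₁] at h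

end Formal

section Stage

variable {K : Type u} {F : Type v} [Field K] [Field F] [Algebra K F] [IsAlgClosed K] [CharZero K]
  [IsCurveOver K F] [Algebra.EssFiniteType K F]
variable {x : F} (hx : Transcendental K x)
  [FiniteDimensional ↥(IntermediateField.adjoin K {x}) F]
  [Algebra.IsSeparable ↥(IntermediateField.adjoin K {x}) F]
  (G₀ : Divisor K F) (hG₀ : Divisor.degree G₀ = (genusFF K F : ℤ))

/-- `ψ (−1)` is an involution commuting with every `ψ n`, `n ≠ 0`, on the stage. -/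
theorem s17pmm_invol {q : ℤ → Fin (genusFF K F) → F →ₐ[K] s27mtL K F}
    (hq : S27pfFam (s27ftPkg hx G₀ hG₀) q) :
    (∀ y, s27pfPsi (s27ftPkg hx G₀ hG₀) (s27dcl_halg (x := x)) hq (-1)
      (s27pfPsi (s27ftPkg hx G₀ hG₀) (s27dcl_halg (x := x)) hq (-1) y) = y) ∧
    (∀ n : ℤ, n ≠ 0 → ∀ y, s27pfPsi (s27ftPkg hx G₀ hG₀) (s27dcl_halg (x := x)) hq (-1)
      (s27pfPsi (s27ftPkg hx G₀ hG₀) (s27dcl_halg (x := x)) hq n y) =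
      s27pfPsi (s27ftPkg hx G₀ hG₀) (s27dcl_halg (x := x)) hq n
        (s27pfPsi (s27ftPkg hx G₀ hG₀) (s27dcl_halg (x := x)) hq (-1) y)) := by
  obtain ⟨h1, h2⟩ := s17pmd_comp hx G₀ hG₀ hq
  refine ⟨fun y => ?_, fun n hn y => ?_⟩
  · rw [h2 (-1) (-1) (by norm_num) (by norm_num) y]
    have e : ((-1 : ℤ) * (-1)) = 1 := by norm_num
    rw [e, h1]
  · rw [h2 (-1) n (by norm_num) hn y, h2 n (-1) hn (by norm_num) y]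
    have e : ((-1 : ℤ) * n) = n * (-1) := by ring
    rw [e]

/-- **PlM-CUBE for `Θ⁻`, UNCONDITIONAL**: the telescoped cube on the stage for the local
equation `B (−1)` of `Θ⁻`, every `n > 0`. -/
theorem s17pmm_tele_stage (hg : 0 < genusFF K F) (O : Place K F) (hc : S27cstIsConst x G₀ O)
    (q : ℤ → Fin (genusFF K F) → F →ₐ[K] s27mtL K F)
    (hq : S27pfFam (s27ftPkg hx G₀ hG₀) q) (n : ℕ) (hn : 0 < n) :
    ∃ (Ψ : s27gfSym K F (genusFF K F)) (c : ℕ), 0 < c ∧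
      S17mvTele K (s27pfPsi (s27ftPkg hx G₀ hG₀) (s27dcl_halg (x := x)) hq n)
        (s27pfPsi (s27ftPkg hx G₀ hG₀) (s27dcl_halg (x := x)) hq (-1))
        (s27indB (s27pfPsi (s27ftPkg hx G₀ hG₀) (s27dcl_halg (x := x)) hq)
          (s27beta (g := genusFF K F) (G₀ + s27cstAo G₀ O)) (-1))
        Ψ c (s27indTri n) (s27indTriM n) := by
  obtain ⟨Ψ, c, hc0, hT⟩ := s17pmd_tele hx G₀ hG₀ hg O hc q hq n hn
  obtain ⟨h1, h2⟩ := s17pmd_comp hx G₀ hG₀ hq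
  obtain ⟨hσσ, hφσ⟩ := s17pmm_invol hx G₀ hG₀ hq
  have hn0 : (n : ℤ) ≠ 0 := by exact_mod_cast hn.ne'
  exact ⟨_, c, hc0, s17pmm_tele_ind _ _ (n : ℤ) hT (fun y => by rw [h1]) hσσ
    (hφσ (n : ℤ) hn0)⟩

end Stage

end Fermat.Agent.S17

end
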