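/-
S17 sprint, layer H, PlN leaf **hG-OPP — CHOW-LU for the OPPOSITE tuple** (helper42), the form of
`hG` under the captain's ruling (A): ONE local equation `b = B(+1) = β` for PlM, PlT and PlN.

Stage of S17/ChowLUStage.lean (`L = s27mtL K F`, `ψ = s27pfPsi (s27ftPkg hx G₀ hG₀) …`,
`β = s27beta (2 G₀ − O)`), `q` a family with `S27pfFam`, so that `q (−1)` is the OPPOSITE tuple
(class `−η`).  For a function `t` whose only pole is `O`, of order `≤ N`:

* `s17copSym`          : `ψ (−1) (s17cluSym t n)`, the Chow coefficient of the opposite tuple in `𝔉`;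
* **`s17cop_mem_LU`**  : `s17copSym … t n ∈ s27LU K (s27indB ψ β 1) N`   (`L(N·Θ)` for `B(+1)`);
* **`s17cop_map`**     : its image in `L` is `s17cvChow (fun i => q (−1) i t) n`;
* **`s17cop_sec`**     : `s17cvChow (fun i => q (−1) i t) n * (s17pmtB (s27indB ψ β 1) W) ^ N ∈ W`
                         for EVERY valuation subring `W ⊇ K` of `L` (lifted local equations `b_L`);
* `s17cop_sec_le`      : the same at every level `M ≥ N` (given `b_L W ∈ W`);
* `_Ao` forms          : the same statements with `β = s27beta (G₀ + s27cstAo G₀ O)` (PlM's name).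
Inputs: `s17cls_mem_LU` (helper46), `s17pmm_LU`, `s17pmmB_indB`, `s17pmmB_invol`, `s17pmm_invol`
(helper13), `s27pfPsi_spec`.  No open input.
-/
import Fermat.Agent.S17.ChowLUStage
import Fermat.Agent.S17.PlMMinus
import Fermat.Agent.S17.PlMTop

set_option autoImplicit false
set_option linter.unusedVariables false
set_option linter.unusedSectionVars false
set_option linter.style.haveILetI false
set_option linter.style.longLine false

noncomputable section

namespace Fermat.Agent.S17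

open AlgebraicCurve Polynomial Module TensorProduct IntermediateField Fermat.Agent.S26
  Fermat.Agent.S27

universe u v

section Stage

variable {K : Type u} {F : Type v} [Field K] [Field F] [Algebra K F] [IsAlgClosed K] [CharZero K]
  [IsCurveOver K F] [Algebra.EssFiniteType K F]
variable {x : F} (hx : Transcendental K x)
  [FiniteDimensional ↥(IntermediateField.adjoin K {x}) F]
  [Algebra.IsSeparable ↥(IntermediateField.adjoin K {x}) F]
  (G₀ : Divisor K F) (hG₀ : Divisor.degree G₀ = (genusFF K F : ℤ))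

/-- the `n`-th Chow coefficient of the OPPOSITE tuple, in `𝔉 = K(Sym^g C)`. -/
def s17copSym (q : ℤ → Fin (genusFF K F) → F →ₐ[K] s27mtL K F)
    (hq : S27pfFam (s27ftPkg hx G₀ hG₀) q) (t : F) (n : Fin (genusFF K F + 1)) :
    s27gfSym K F (genusFF K F) :=
  s27pfPsi (s27ftPkg hx G₀ hG₀) (s27dcl_halg (x := x)) hq (-1)
    (s17cluSym (K := K) (g := genusFF K F) t n)

/-- **CHOW-LU for the opposite tuple**: its Chow coefficients lie in `L(N·Θ)`, `Θ` with the local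
equations `B(+1)`. -/
theorem s17cop_mem_LU (O : Place K F) (hG0 : 0 ≤ G₀) (hOG : G₀ O = 0)
    (f₀ : Module.Basis (Fin (genusFF K F)) K
      ↥(riemannRochSpace (2 • G₀ - Finsupp.single O 1 : Divisor K F)))
    (q : ℤ → Fin (genusFF K F) → F →ₐ[K] s27mtL K F) (hq : S27pfFam (s27ftPkg hx G₀ hG₀) q)
    (s : F) (hs : O.ord s = 1)
    (t : F) (N : ℕ) (htO : -(N : ℤ) ≤ O.ord t)
    (ht : ∀ Q : Place K F, Q ≠ O → 0 ≤ Q.ord t) (n : Fin (genusFF K F + 1)) :
    s17copSym hx G₀ hG₀ q hq t n ∈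
      s27LU K (s27indB (s27pfPsi (s27ftPkg hx G₀ hG₀) (s27dcl_halg (x := x)) hq)
        (s27beta (g := genusFF K F) (2 • G₀ - Finsupp.single O 1 : Divisor K F)) 1) N := by
  have h := s17cls_mem_LU hx G₀ hG₀ O hG0 hOG f₀ q hq s hs t N htO ht n
  obtain ⟨h1, -⟩ := s17pmd_comp hx G₀ hG₀ hq
  obtain ⟨hσσ, -⟩ := s17pmm_invol hx G₀ hG₀ hq
  have h2 := s17pmm_LU h
    (s27pfPsi (s27ftPkg hx G₀ hG₀) (s27dcl_halg (x := x)) hq (-1))
  rw [← s17pmmB_indB (s27pfPsi (s27ftPkg hx G₀ hG₀) (s27dcl_halg (x := x)) hq)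
    (s27beta (g := genusFF K F) (2 • G₀ - Finsupp.single O 1 : Divisor K F))
    (fun y => by rw [h1]),
    s17pmmB_invol _ hσσ] at h2
  exact h2

/-- the image in `L` of `s17copSym` is the Chow coefficient of the opposite tuple `q (−1)`. -/
theorem s17cop_map (q : ℤ → Fin (genusFF K F) → F →ₐ[K] s27mtL K F)
    (hq : S27pfFam (s27ftPkg hx G₀ hG₀) q) (t : F) (n : Fin (genusFF K F + 1)) :
    algebraMap (s27gfSym K F (genusFF K F)) (s27mtL K F) (s17copSym hx G₀ hG₀ q hq t n) =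
      s17cvChow (fun i => q (-1) i t) n := by
  have hm1 : (-1 : ℤ) ≠ 0 := by norm_num
  have h := s27pfPsi_spec (s27ftPkg hx G₀ hG₀) (s27dcl_halg (x := x)) hq (-1) hm1
    (s17cluSym (K := K) (g := genusFF K F) t n)
  have e : algebraMap (s27gfSym K F (genusFF K F)) (s27mtL K F) (s17copSym hx G₀ hG₀ q hq t n) =
      algebraMap (s27gfOm K F (genusFF K F)) (s27mtL K F)
        ((s17copSym hx G₀ hG₀ q hq t n : s27gfSym K F (genusFF K F)) :
          s27gfOm K F (genusFF K F)) := rfl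
  rw [e]
  unfold s17copSym
  rw [h]
  have key : ∀ φ : s27gfOm K F (genusFF K F) →ₐ[K] s27mtL K F,
      (∀ i, φ (s27gfIota (K := K) (g := genusFF K F) i t) = q (-1) i t) →
      φ (s17cluOm (K := K) (g := genusFF K F) t n) = s17cvChow (fun i => q (-1) i t) n := by
    intro φ hφ
    unfold s17cluOm s17cvChow
    have h1 : φ ((∏ i : Fin (genusFF K F),
          (X - C (s27gfIota (K := K) (g := genusFF K F) i t)) :
          (s27gfOm K F (genusFF K F))[X]).coeff n) =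
        ((∏ i : Fin (genusFF K F),
          (X - C (s27gfIota (K := K) (g := genusFF K F) i t)) :
          (s27gfOm K F (genusFF K F))[X]).map
            (φ : s27gfOm K F (genusFF K F) →+* s27mtL K F)).coeff n := by
      rw [Polynomial.coeff_map]
      rfl
    rw [h1, Polynomial.map_prod]
    congr 1
    refine Finset.prod_congr rfl fun i _ => ?_
    rw [Polynomial.map_sub, Polynomial.map_X, Polynomial.map_C]
    congr 2
    exact hφ i
  exact key _ (fun i => s27psiT_iota _ _ i t)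

/-- **hG-OPP at the `L`-level**: the Chow coefficients of the opposite tuple are sections of
`L(N·Θ)` for the LIFTED local equations `b_L = s17pmtB (B(+1))`, at every `W ⊇ K`. -/
theorem s17cop_sec (O : Place K F) (hG0 : 0 ≤ G₀) (hOG : G₀ O = 0)
    (f₀ : Module.Basis (Fin (genusFF K F)) K
      ↥(riemannRochSpace (2 • G₀ - Finsupp.single O 1 : Divisor K F)))
    (q : ℤ → Fin (genusFF K F) → F →ₐ[K] s27mtL K F) (hq : S27pfFam (s27ftPkg hx G₀ hG₀) q)
    (s : F) (hs : O.ord s = 1)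
    (t : F) (N : ℕ) (htO : -(N : ℤ) ≤ O.ord t)
    (ht : ∀ Q : Place K F, Q ≠ O → 0 ≤ Q.ord t) (n : Fin (genusFF K F + 1))
    (W : ValuationSubring (s27mtL K F)) (hW : S27IsKValU K W) :
    s17cvChow (fun i => q (-1) i t) n *
      s17pmtB (s27indB (s27pfPsi (s27ftPkg hx G₀ hG₀) (s27dcl_halg (x := x)) hq)
        (s27beta (g := genusFF K F) (2 • G₀ - Finsupp.single O 1 : Divisor K F)) 1) W ^ N ∈ W := by
  have h := s17cop_mem_LU hx G₀ hG₀ O hG0 hOG f₀ q hq s hs t N htO ht n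
    (W.comap (algebraMap (s27gfSym K F (genusFF K F)) (s27mtL K F))) (s17pmt_isKVal hW)
  rw [ValuationSubring.mem_comap, map_mul, map_pow, s17cop_map hx G₀ hG₀ q hq t n] at h
  exact h

/-- `g · b^N ∈ W`, `b ∈ W`, `N ≤ M` ⇒ `g · b^M ∈ W`. -/
theorem s17cop_raise {𝔏 : Type*} [Field 𝔏] {W : ValuationSubring 𝔏} {a b : 𝔏} {N M : ℕ}
    (hb : b ∈ W) (hNM : N ≤ M) (h : a * b ^ N ∈ W) : a * b ^ M ∈ W := by
  obtain ⟨d, rfl⟩ := Nat.exists_eq_add_of_le hNM
  rw [pow_add, ← mul_assoc]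
  exact W.mul_mem _ _ h (pow_mem hb d)

/-- **hG-OPP at the `L`-level, any level `M ≥ N`.** -/
theorem s17cop_sec_le (O : Place K F) (hG0 : 0 ≤ G₀) (hOG : G₀ O = 0)
    (f₀ : Module.Basis (Fin (genusFF K F)) K
      ↥(riemannRochSpace (2 • G₀ - Finsupp.single O 1 : Divisor K F)))
    (q : ℤ → Fin (genusFF K F) → F →ₐ[K] s27mtL K F) (hq : S27pfFam (s27ftPkg hx G₀ hG₀) q)
    (s : F) (hs : O.ord s = 1)
    (t : F) (N M : ℕ) (hNM : N ≤ M) (htO : -(N : ℤ) ≤ O.ord t)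
    (ht : ∀ Q : Place K F, Q ≠ O → 0 ≤ Q.ord t) (n : Fin (genusFF K F + 1))
    (W : ValuationSubring (s27mtL K F)) (hW : S27IsKValU K W)
    (hb : s17pmtB (s27indB (s27pfPsi (s27ftPkg hx G₀ hG₀) (s27dcl_halg (x := x)) hq)
        (s27beta (g := genusFF K F) (2 • G₀ - Finsupp.single O 1 : Divisor K F)) 1) W ∈ W) :
    s17cvChow (fun i => q (-1) i t) n *
      s17pmtB (s27indB (s27pfPsi (s27ftPkg hx G₀ hG₀) (s27dcl_halg (x := x)) hq)
        (s27beta (g := genusFF K F) (2 • G₀ - Finsupp.single O 1 : Divisor K F)) 1) W ^ M ∈ W :=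
  s17cop_raise hb hNM (s17cop_sec hx G₀ hG₀ O hG0 hOG f₀ q hq s hs t N htO ht n W hW)

/-! ### the same with `β = s27beta (G₀ + s27cstAo G₀ O)` (the name used by PlM / PlT) -/

/-- `G₀ + Ao = 2 G₀ − O`. -/
theorem s17cop_A_eq (O : Place K F) :
    G₀ + s27cstAo G₀ O = 2 • G₀ - Finsupp.single O 1 := by
  unfold s27cstAo
  rw [two_nsmul]
  abel

/-- **CHOW-LU for the opposite tuple**, `β = s27beta (G₀ + Ao)`. -/
theorem s17cop_mem_LU_Ao (O : Place K F) (hG0 : 0 ≤ G₀) (hOG : G₀ O = 0)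
    (f₀ : Module.Basis (Fin (genusFF K F)) K
      ↥(riemannRochSpace (2 • G₀ - Finsupp.single O 1 : Divisor K F)))
    (q : ℤ → Fin (genusFF K F) → F →ₐ[K] s27mtL K F) (hq : S27pfFam (s27ftPkg hx G₀ hG₀) q)
    (s : F) (hs : O.ord s = 1)
    (t : F) (N : ℕ) (htO : -(N : ℤ) ≤ O.ord t)
    (ht : ∀ Q : Place K F, Q ≠ O → 0 ≤ Q.ord t) (n : Fin (genusFF K F + 1)) :
    s17copSym hx G₀ hG₀ q hq t n ∈
      s27LU K (s27indB (s27pfPsi (s27ftPkg hx G₀ hG₀) (s27dcl_halg (x := x)) hq)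
        (s27beta (g := genusFF K F) (G₀ + s27cstAo G₀ O)) 1) N := by
  rw [s17cop_A_eq G₀ O]
  exact s17cop_mem_LU hx G₀ hG₀ O hG0 hOG f₀ q hq s hs t N htO ht n

/-- **hG-OPP at the `L`-level**, `β = s27beta (G₀ + Ao)`. -/
theorem s17cop_sec_Ao (O : Place K F) (hG0 : 0 ≤ G₀) (hOG : G₀ O = 0)
    (f₀ : Module.Basis (Fin (genusFF K F)) K
      ↥(riemannRochSpace (2 • G₀ - Finsupp.single O 1 : Divisor K F)))
    (q : ℤ → Fin (genusFF K F) → F →ₐ[K] s27mtL K F) (hq : S27pfFam (s27ftPkg hx G₀ hG₀) q)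
    (s : F) (hs : O.ord s = 1)
    (t : F) (N : ℕ) (htO : -(N : ℤ) ≤ O.ord t)
    (ht : ∀ Q : Place K F, Q ≠ O → 0 ≤ Q.ord t) (n : Fin (genusFF K F + 1))
    (W : ValuationSubring (s27mtL K F)) (hW : S27IsKValU K W) :
    s17cvChow (fun i => q (-1) i t) n *
      s17pmtB (s27indB (s27pfPsi (s27ftPkg hx G₀ hG₀) (s27dcl_halg (x := x)) hq)
        (s27beta (g := genusFF K F) (G₀ + s27cstAo G₀ O)) 1) W ^ N ∈ W := by
  rw [s17cop_A_eq G₀ O]
  exact s17cop_sec hx G₀ hG₀ O hG0 hOG f₀ q hq s hs t N htO ht n W hW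

/-- **hG-OPP at the `L`-level, any level `M ≥ N`**, `β = s27beta (G₀ + Ao)`. -/
theorem s17cop_sec_le_Ao (O : Place K F) (hG0 : 0 ≤ G₀) (hOG : G₀ O = 0)
    (f₀ : Module.Basis (Fin (genusFF K F)) K
      ↥(riemannRochSpace (2 • G₀ - Finsupp.single O 1 : Divisor K F)))
    (q : ℤ → Fin (genusFF K F) → F →ₐ[K] s27mtL K F) (hq : S27pfFam (s27ftPkg hx G₀ hG₀) q)
    (s : F) (hs : O.ord s = 1)
    (t : F) (N M : ℕ) (hNM : N ≤ M) (htO : -(N : ℤ) ≤ O.ord t)
    (ht : ∀ Q : Place K F, Q ≠ O → 0 ≤ Q.ord t) (n : Fin (genusFF K F + 1))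
    (W : ValuationSubring (s27mtL K F)) (hW : S27IsKValU K W)
    (hb : s17pmtB (s27indB (s27pfPsi (s27ftPkg hx G₀ hG₀) (s27dcl_halg (x := x)) hq)
        (s27beta (g := genusFF K F) (G₀ + s27cstAo G₀ O)) 1) W ∈ W) :
    s17cvChow (fun i => q (-1) i t) n *
      s17pmtB (s27indB (s27pfPsi (s27ftPkg hx G₀ hG₀) (s27dcl_halg (x := x)) hq)
        (s27beta (g := genusFF K F) (G₀ + s27cstAo G₀ O)) 1) W ^ M ∈ W :=
  s17cop_raise hb hNM (s17cop_sec_Ao hx G₀ hG₀ O hG0 hOG f₀ q hq s hs t N htO ht n W hW)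

end Stage

end Fermat.Agent.S17

end
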