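/-
S17 sprint, layer H — **MODEL CONST-∞** (helper45): THE CONSTANTS OF THE MODEL for `J₀(N)`, with
the S27-B point `O″ := ∞ = cuspInf N` and a `G_ℚ`-fixed coordinate `t` whose only pole is `∞`.

S27-B (S27/Consts.lean) works with constants `(x, G₀, O″)`, `S27cstIsConst x G₀ O″`: `x`
transcendental with `F / K(x)` finite, `G₀ ≥ 0` of degree `g` with `ℓ(G₀) = 1`, `O″ ∉ supp G₀`.
For the height layer of S17 (NORTHCOTT by Chow forms, place form (U) with ONE origin shift
`δ = [G₀ − g∞]`) the point `O″` must be the cusp `∞`, and the coordinate `t` must be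
`G_ℚ`-fixed with its only pole at `∞`.

* `s17kc_finiteDimensional` : `F_N / ℚ̄(t)` is finite for every transcendental `t`;
* `s17kc_finrank_one`       : `ℓ(E) = 1` for a divisor `E` reduced with respect to `∞`;
* `s17kc_exists_G0`         : there is a divisor `G₀`, reduced with respect to `∞`, of degree
                              `g = genusFF` (the reduced divisor of a GOOD class, `S17/Pool.lean`);
* `s17kc_isConst`           : `S27cstIsConst t G₀ (cuspInf N)` for EVERY transcendental `t` and
                              EVERY reduced `G₀` of degree `g`;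
* `s17kc_shift`, `s17kcShift` : the origin shift `δ = [G₀ − g∞] = Pic0.mk (s17h90Div N G₀)`;
* **`s17kc_exists`**        : for `N ≥ 2`: `∃ t G₀`, `S27cstIsConst t G₀ (cuspInf N)`, `t` fixed by
                              `G_ℚ`, `0 ≤ ord_v t` for `v ≠ ∞`, `ord_∞ t < 0`, `t` not constant,
                              `G₀` reduced of degree `g`.
-/
import Fermat.Agent.S17.RatFn
import Fermat.Agent.S17.Pool
import Fermat.Agent.S17.Tors
import Fermat.Agent.S27.Consts
import Fermat.Agent.S24.PrincipalDegree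

set_option autoImplicit false
set_option linter.unusedSectionVars false
set_option linter.style.haveILetI false

noncomputable section

namespace Fermat.Agent.S17

open ModularCurve AlgebraicCurve IntermediateField Module
open Fermat.Agent.S24 Fermat.Agent.ES.M Fermat.Agent.ES.H Fermat.Agent.S15 Fermat.Agent.S26
  Fermat.Agent.S27

variable (N : ℕ) [NeZero N]

/-- `F_N / ℚ̄(t)` is finite for every transcendental `t`. -/
theorem s17kc_finiteDimensional (t : FF N) (ht : Transcendental Kb t) :
    FiniteDimensional ↥(IntermediateField.adjoin Kb {t}) (FF N) := by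
  haveI := finiteDimensional_adjoin_jF N
  exact pd_finiteDimensional_adjoin_of_transcendental (jF N) (transcendental_jF N) t ht

variable {N}

/-- **`ℓ(E) = 1`** for a divisor reduced with respect to `∞`. -/
theorem s17kc_finrank_one {E : Divisor Kb (FF N)} (hE : S27Reduced (cuspInf N) E) :
    finrank Kb ↥(riemannRochSpace E) = 1 := by
  classical
  -- the constants, as a linear map onto `L(E)`
  let φ : Kb →ₗ[Kb] ↥(riemannRochSpace E) :=
    { toFun := fun c => ⟨algebraMap Kb (FF N) c, s27rd_const_mem hE.1 c⟩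
      map_add' := fun a b => Subtype.ext (by simp)
      map_smul' := fun a b => Subtype.ext (by
        simp only [smul_eq_mul, map_mul, RingHom.id_apply, SetLike.val_smul]
        rw [Algebra.smul_def]) }
  have hinj : Function.Injective φ := by
    intro a b h
    have := congrArg Subtype.val h
    exact (algebraMap Kb (FF N)).injective this
  have hsurj : Function.Surjective φ := by
    rintro ⟨h, hh⟩
    obtain ⟨c, hc⟩ := s27rd_sections_const (s17h90_res_surj N _) hE hh
    exact ⟨c, Subtype.ext hc.symm⟩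
  have e : Kb ≃ₗ[Kb] ↥(riemannRochSpace E) := LinearEquiv.ofBijective φ ⟨hinj, hsurj⟩
  rw [← e.finrank_eq, Module.finrank_self]

variable (N)

/-- **a reduced divisor of degree `g`**: the reduced divisor of a good class. -/
theorem s17kc_exists_G0 :
    ∃ G₀ : Divisor Kb (FF N), S27Reduced (cuspInf N) G₀ ∧
      Divisor.degree G₀ = (genusFF Kb (FF N) : ℤ) := by
  classical
  obtain ⟨𝒞, h𝒞⟩ := s17po_exists_pool N
  obtain ⟨c, -, hgood⟩ := h𝒞 0
  set y : JZero N := 0 + c with hy
  set E : Divisor Kb (FF N) := s17h90Red N y with hEdef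
  have hred : S27Reduced (cuspInf N) E := s17h90Red_reduced N y
  have hle : Divisor.degree E ≤ (genusFF Kb (FF N) : ℤ) := s17h90_deg_le N hred
  -- pad with the cusp
  set k : ℤ := (genusFF Kb (FF N) : ℤ) - Divisor.degree E with hk
  have hk0 : 0 ≤ k := by omega
  set E' : Divisor Kb (FF N) := E + Finsupp.single (cuspInf N) k with hE'
  have hE'0 : 0 ≤ E' := by
    refine add_nonneg hred.1 ?_
    intro v
    by_cases hv : v = cuspInf N
    · subst hv
      simpa using hk0
    · rw [Finsupp.single_eq_of_ne hv]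
      simp
  have hE'deg : Divisor.degree E' = (genusFF Kb (FF N) : ℤ) := by
    rw [hE', map_add, Divisor.degree_single, cuspInf_deg]
    simp only [Nat.cast_one, mul_one]
    omega
  have hdiv : s17h90Div N E' = s17h90Div N E := by
    apply Subtype.ext
    rw [s17h90Div_coe, s17h90Div_coe, hE'deg, hE']
    have : Finsupp.single (cuspInf N) ((genusFF Kb (FF N) : ℤ)) =
        Finsupp.single (cuspInf N) k + Finsupp.single (cuspInf N) (Divisor.degree E) := by
      rw [← Finsupp.single_add]
      congr 1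
      omega
    rw [this]
    abel
  have hmk : Pic0.mk (s17h90Div N E') = y := by
    rw [hdiv]
    exact s17h90Red_mk N y
  have h0 := hgood E' hE'0 hE'deg hmk
  have h1 : E (cuspInf N) = 0 := s27rd_apply_P₀ hred
  have h2 : k = 0 := by
    have : E' (cuspInf N) = E (cuspInf N) + k := by
      rw [hE']
      simp
    rw [this, h1] at h0
    omega
  exact ⟨E, hred, by omega⟩

variable {N}

/-- **the constants of S27-B with `O″ = ∞`**: every transcendental `t` and every divisor `G₀`,
reduced with respect to `∞`, of degree `g`. -/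
theorem s17kc_isConst [IsCurveOver Kb (FF N)] [Algebra.EssFiniteType Kb (FF N)]
    (t : FF N) (ht : Transcendental Kb t) {G₀ : Divisor Kb (FF N)}
    (hG₀ : S27Reduced (cuspInf N) G₀) (hdeg : Divisor.degree G₀ = (genusFF Kb (FF N) : ℤ)) :
    S27cstIsConst t G₀ (cuspInf N) := by
  haveI := s17kc_finiteDimensional N t ht
  exact s27cst_of ht hG₀.1 hdeg (s17kc_finrank_one hG₀) (s27rd_apply_P₀ hG₀)

variable (N)

/-- the origin shift `δ = [G₀ − g∞]` of the model. -/
def s17kcShift (G₀ : Divisor Kb (FF N)) : JZero N := Pic0.mk (s17h90Div N G₀)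

/-- the reduced divisor of the origin shift is `G₀`. -/
theorem s17kc_shift {G₀ : Divisor Kb (FF N)} (hG₀ : S27Reduced (cuspInf N) G₀) :
    s17h90Red N (s17kcShift N G₀) = G₀ :=
  s17h90Red_eq N hG₀ rfl

/-- **MODEL CONST-∞**: the constants of the model of `J₀(N)`: a `G_ℚ`-fixed coordinate `t` with
only pole `∞`, and an origin `G₀` reduced with respect to `∞`, with the S27-B point `O″ = ∞`. -/
theorem s17kc_exists (hN : 2 ≤ N) :
    ∃ (t : FF N) (G₀ : Divisor Kb (FF N)),
      (∀ (_ : IsCurveOver Kb (FF N)) (_ : Algebra.EssFiniteType Kb (FF N)),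
        S27cstIsConst t G₀ (cuspInf N)) ∧
      (∀ σ : Kb ≃ₐ[ℚ] Kb, galAct N σ • t = t) ∧
      (∀ v : Place Kb (FF N), v ≠ cuspInf N → 0 ≤ v.ord t) ∧
      (cuspInf N).ord t < 0 ∧
      (∀ c : Kb, t ≠ algebraMap Kb (FF N) c) ∧
      S27Reduced (cuspInf N) G₀ ∧ Divisor.degree G₀ = (genusFF Kb (FF N) : ℤ) := by
  obtain ⟨t, h1, h2, h3, h4⟩ := s17rf_exists_ord N hN
  obtain ⟨G₀, hG₀, hdeg⟩ := s17kc_exists_G0 N
  refine ⟨t, G₀, fun _ _ => s17kc_isConst t h4 hG₀ hdeg, h1, h2, h3, ?_, hG₀, hdeg⟩
  intro c hc
  apply h4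
  rw [hc]
  exact isAlgebraic_algebraMap c

/-- the same with the instances of `S17/Tors.lean` plugged in. -/
theorem s17kc_exists' (hN : 2 ≤ N) :
    ∃ (t : FF N) (G₀ : Divisor Kb (FF N)),
      (haveI := s17to_isCurveOver N
       haveI := s17to_essFiniteType N
       S27cstIsConst t G₀ (cuspInf N)) ∧
      (∀ σ : Kb ≃ₐ[ℚ] Kb, galAct N σ • t = t) ∧
      (∀ v : Place Kb (FF N), v ≠ cuspInf N → 0 ≤ v.ord t) ∧
      (cuspInf N).ord t < 0 ∧
      (∀ c : Kb, t ≠ algebraMap Kb (FF N) c) ∧
      S27Reduced (cuspInf N) G₀ ∧ Divisor.degree G₀ = (genusFF Kb (FF N) : ℤ) := by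
  obtain ⟨t, G₀, h0, h1, h2, h3, h4, h5, h6⟩ := s17kc_exists N hN
  exact ⟨t, G₀, h0 (s17to_isCurveOver N) (s17to_essFiniteType N), h1, h2, h3, h4, h5, h6⟩

end Fermat.Agent.S17
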