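/-
S17 sprint, layer W — **CLOSED for every odd prime multiplier** (helper4):
`S17IsWeak N p`, i.e. `J₀(N)(ℚ) / p · J₀(N)(ℚ)` is FINITE (weak Mordell–Weil), UNCONDITIONAL.

Wiring of the landed leaves:
* `s17wl_weak`            (S17/WeakLev.lean, helper4): (div) + (open) ⇒ `S17IsWeak N p`
                          [= KumH1 (helper74) + `TW.G.stmtLevFin` (finiteness of `H¹(G_{ℚ,T}, J[p])`,
                          from the class field theory of S55/S56) + Tors (S27) + H90Unr (helper18/94)
                          + LevOfUnr];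
* (div)  `s17dv_main`     (S17/DivMain.lean, helper90 + helper12/41/86): `Pic0 K F` is divisible;
         `s17dw_div`      (S17/DivWrap.lean, helper81);
* (open) `selfl_exists_field'` (S15/SelFL.lean, helper61): every class of `J₀(N)(ℚ̄)` is fixed by
                          `Gal(ℚ̄/E)`, `E/ℚ` finite.

* `s17wz_div`    : `S17kaDiv N m` (`0 < m`);
* `s17wz_open`   : `S17luOpen N`;
* `s17wz_weak`   : **`S17IsWeak N p`** for every odd prime `p`;
* `s17wz_weak3`  : **`S17IsWeak N 3`**.
-/
import Fermat.Agent.S17.WeakLev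
import Fermat.Agent.S17.DivWrap
import Fermat.Agent.S17.DivMain
import Fermat.Agent.S15.SelFL

set_option autoImplicit false
set_option linter.unusedVariables false
set_option linter.unusedSectionVars false
set_option linter.style.haveILetI false

noncomputable section

namespace Fermat.Agent.S17

open ModularCurve AlgebraicCurve

/-- DIV in the shape of `S17/DivWrap.lean`. -/
theorem s17wz_divStmt : S17dwDivStmt :=
  fun K F _ _ _ _ _ _ _ n hn c => s17dv_main K F n hn c

/-- **W6 (div)**: `S17kaDiv N m`, `0 < m`. -/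
theorem s17wz_div (N : ℕ) [NeZero N] (m : ℕ) (hm : 0 < m) : S17kaDiv N m :=
  s17dw_div s17wz_divStmt N m hm

/-- **W4 (open)**: every class of `J₀(N)(ℚ̄)` has an open stabiliser. -/
theorem s17wz_open (N : ℕ) [NeZero N] : S17luOpen N := by
  intro y
  obtain ⟨E, hE, h⟩ := Fermat.Agent.S15.selfl_exists_field' N y
  exact ⟨E, hE, fun σ hσ =>
    h σ (fun a ha => (IntermediateField.mem_fixingSubgroup_iff E σ).1 hσ a ha)⟩

/-- **WEAK MORDELL–WEIL for `J₀(N)`**, every odd prime multiplier. -/
theorem s17wz_weak (N : ℕ) [NeZero N] (p : ℕ) [Fact p.Prime] (hp2 : p ≠ 2) : S17IsWeak N p :=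
  s17wl_weak N p hp2 (s17wz_div N p (Fact.out : p.Prime).pos) (s17wz_open N)

/-- **WEAK MORDELL–WEIL for `J₀(N)`**, multiplier `3`. -/
theorem s17wz_weak3 (N : ℕ) [NeZero N] : S17IsWeak N 3 :=
  haveI : Fact (Nat.Prime 3) := ⟨Nat.prime_three⟩
  s17wz_weak N 3 (by norm_num)

end Fermat.Agent.S17

end
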