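/-
S17 sprint, layer H — **STAGE TOP, CLOSED FORM** (helper77): S17/StageTop.lean with TORS
(`s17to_tors`, S17/Tors.lean) and WEAK (`s17wz_weak`, S17/WeakClosed.lean) plugged in, for every
odd prime multiplier `p` and free constants `0 < a`, `a ^ 2 < b`.

* `s17sz_fg_stage` : ANY stage, ANY finite tuple `s`: `S17hyPlM cl H p b`, `S17hyPlT cl H a`,
                     `S17hxPlN cl H`  (`cl := s17sxCl …`, `H := s17sxHt s`) ⇒ `AddGroup.FG (s17MW N)`;
* `s17sz_result`   : `S17sxStmt p a b → (frozen type of S17)`;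
* `s17sz_result_326` : the captain's constants `(m, a, b) = (3, 2, 6)`;
* `s17sz_result_7428` : the fallback `(7, 4, 28)`.
-/
import Fermat.Agent.S17.StageTop
import Fermat.Agent.S17.WeakClosed

set_option autoImplicit false
set_option linter.unusedVariables false
set_option linter.unusedSectionVars false
set_option linter.style.haveILetI false
set_option linter.style.longLine false

noncomputable section

namespace Fermat.Agent.S17

open ModularCurve AlgebraicCurve Module TensorProduct IntermediateField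
open Fermat.Agent.S24 Fermat.Agent.S26 Fermat.Agent.S27 Fermat.Agent.DEU

universe y

section Stage

variable (N : ℕ) [NeZero N] [IsCurveOver Kb (FF N)] [Algebra.EssFiniteType Kb (FF N)]
  {L : Type} [Field L] [Algebra Kb L]
  [Algebra (s27gfOm Kb (FF N) (genusFF Kb (FF N))) L]
  [IsScalarTower Kb (s27gfOm Kb (FF N) (genusFF Kb (FF N))) L]
  [IsAlgClosed L] [Algebra.IsAlgebraic (s27gfOm Kb (FF N) (genusFF Kb (FF N))) L]
  {FL : Type y} [Field FL] [Algebra Kb FL] [Algebra (FF N) FL] [Algebra L FL]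
  [IsScalarTower Kb (FF N) FL] [IsScalarTower Kb L FL]
  (hld : Function.Injective (s26gspMu Kb (FF N) L FL)) (hgen : S26gspGen Kb (FF N) L FL)
  {x : FF N} (hx : Transcendental Kb x)
  [FiniteDimensional ↥(IntermediateField.adjoin Kb {x}) (FF N)]
  [Algebra.IsSeparable ↥(IntermediateField.adjoin Kb {x}) (FF N)]
  (G₀ : Divisor Kb (FF N)) (hG₀ : Divisor.degree G₀ = (genusFF Kb (FF N) : ℤ))

/-- **STAGE TOP, closed**: only the three place statements are left. -/
theorem s17sz_fg_stage {ι : Type*} [Finite ι] (s : ι → L) (p : ℕ) [Fact p.Prime] (hp2 : p ≠ 2)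
    (a b : ℝ) (ha : 0 < a) (hab : a ^ 2 < b)
    (hM : S17hyPlM (s17sxCl N (L := L) hld hgen hx G₀ hG₀) (s17sxHt s) p b)
    (hT : S17hyPlT (s17sxCl N (L := L) hld hgen hx G₀ hG₀) (s17sxHt s) a)
    (hN : S17hxPlN (s17sxCl N (L := L) hld hgen hx G₀ hG₀) (s17sxHt s)) :
    AddGroup.FG (s17MW N) :=
  s17sx_fg_stage N hld hgen hx G₀ hG₀ s p a b ha hab hM hT hN (s17to_tors N p)
    (s17wz_weak N p hp2)

end Stage

/-- the frozen type of S17 from the stage statement, every odd prime multiplier. -/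
theorem s17sz_result (p : ℕ) [Fact p.Prime] (hp2 : p ≠ 2) (a b : ℝ) (ha : 0 < a)
    (hab : a ^ 2 < b) (H : S17sxStmt p a b)
    (N : ℕ) [NeZero N] (hN : N.Prime) (hN5 : 5 ≤ N) :
    AddGroup.FG ↥(FixedPoints.addSubgroup ((AlgebraicClosure ℚ) ≃ₐ[ℚ] (AlgebraicClosure ℚ))
      (JZero N)) :=
  s17sx_result p a b ha hab H (fun N _ => s17to_tors N p) (fun N _ => s17wz_weak N p hp2)
    N hN hN5

/-- the captain's constants `(m, a, b) = (3, 2, 6)`. -/
theorem s17sz_result_326 (H : S17sxStmt 3 2 6)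
    (N : ℕ) [NeZero N] (hN : N.Prime) (hN5 : 5 ≤ N) :
    AddGroup.FG ↥(FixedPoints.addSubgroup ((AlgebraicClosure ℚ) ≃ₐ[ℚ] (AlgebraicClosure ℚ))
      (JZero N)) :=
  haveI : Fact (Nat.Prime 3) := ⟨Nat.prime_three⟩
  s17sz_result 3 (by norm_num) 2 6 (by norm_num) (by norm_num) H N hN hN5

/-- the fallback constants `(m, a, b) = (7, 4, 28)`. -/
theorem s17sz_result_7428 (H : S17sxStmt 7 4 28)
    (N : ℕ) [NeZero N] (hN : N.Prime) (hN5 : 5 ≤ N) :
    AddGroup.FG ↥(FixedPoints.addSubgroup ((AlgebraicClosure ℚ) ≃ₐ[ℚ] (AlgebraicClosure ℚ))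
      (JZero N)) :=
  haveI : Fact (Nat.Prime 7) := ⟨by norm_num⟩
  s17sz_result 7 (by norm_num) 4 28 (by norm_num) (by norm_num) H N hN hN5

end Fermat.Agent.S17

end
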