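/-
S17 sprint, layer H — **STAGE TOP at `m ^ 2`** (helper97): the multiplier `n = 3` is ENOUGH, also
when (T) is available with the constant `a = 4` only.

(M′) composes in the place form (`s17t9_plM_sq`, S17/TopNine.lean), so the stage statement
`S17sxStmt m a b` gives `S17sxStmt (m ^ 2) a (b ^ 2)`; TORS at `9` is `s17to_finite_pow N 3 2`,
WEAK at `9` is `s17wm_pow` of `s17wz_weak3`.

* `s17s9_stmtAt`, `s17s9_stmt` : `S17sxStmt m a b → S17sxStmt (m ^ 2) a (b ^ 2)`  (`0 ≤ b`);
* `s17s9_tors`, `s17s9_weak`   : TORS and WEAK at `9`;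
* `s17s9_result`     : `S17sxStmt 3 a b → (frozen type of S17)` whenever `0 < a`, `0 ≤ b`,
                       `a ^ 2 < b ^ 2`;
* `s17s9_result_346` : the constants `(m, a, b) = (3, 4, 6)`  (`16 < 36`): NO cube at `n = 7`.
-/
import Fermat.Agent.S17.StageTopClosed
import Fermat.Agent.S17.TopNine

set_option autoImplicit false
set_option linter.unusedVariables false
set_option linter.unusedSectionVars false
set_option linter.style.haveILetI false
set_option linter.style.longLine false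

noncomputable section

namespace Fermat.Agent.S17

open ModularCurve AlgebraicCurve Module TensorProduct IntermediateField
open Fermat.Agent.S24 Fermat.Agent.S26 Fermat.Agent.S27 Fermat.Agent.DEU

/-- the stage statement at `m` gives the stage statement at `m ^ 2`, one level. -/
theorem s17s9_stmtAt (N : ℕ) [NeZero N] {m : ℕ} {a b : ℝ} (hb : 0 ≤ b)
    (H : S17sxStmtAt N m a b) : S17sxStmtAt N (m ^ 2) a (b ^ 2) := by
  intro h1 h2
  obtain ⟨x, G₀, O, hc, ι, hι, s, hM, hT, hN⟩ := H h1 h2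
  exact ⟨x, G₀, O, hc, ι, hι, s, s17t9_plM_sq hb hM, hT, hN⟩

/-- the stage statement at `m` gives the stage statement at `m ^ 2`. -/
theorem s17s9_stmt {m : ℕ} {a b : ℝ} (hb : 0 ≤ b) (H : S17sxStmt m a b) :
    S17sxStmt (m ^ 2) a (b ^ 2) :=
  fun N _ hN hN5 hg => s17s9_stmtAt N hb (H N hN hN5 hg)

/-- TORS at `9`. -/
theorem s17s9_tors (N : ℕ) [NeZero N] : S17kaTors N 9 := by
  haveI : Fact (Nat.Prime 3) := ⟨Nat.prime_three⟩
  have h := s17to_finite_pow N 3 2
  have e : (3 : ℕ) ^ 2 = 9 := by norm_num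
  rw [e] at h
  exact h

/-- WEAK at `9`. -/
theorem s17s9_weak (N : ℕ) [NeZero N] : S17IsWeak N 9 := by
  have h := s17wm_pow N 3 (s17wz_weak3 N) 2
  have e : (3 : ℕ) ^ 2 = 9 := by norm_num
  rw [e] at h
  exact h

/-- the frozen type of S17 from the stage statement at `3`, through the multiplier `9`. -/
theorem s17s9_result (a b : ℝ) (ha : 0 < a) (hb : 0 ≤ b) (hab : a ^ 2 < b ^ 2)
    (H : S17sxStmt 3 a b)
    (N : ℕ) [NeZero N] (hN : N.Prime) (hN5 : 5 ≤ N) :
    AddGroup.FG ↥(FixedPoints.addSubgroup ((AlgebraicClosure ℚ) ≃ₐ[ℚ] (AlgebraicClosure ℚ))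
      (JZero N)) := by
  have H9 : S17sxStmt 9 a (b ^ 2) := by
    have h := s17s9_stmt hb H
    have e : (3 : ℕ) ^ 2 = 9 := by norm_num
    rw [e] at h
    exact h
  exact s17sx_result 9 a (b ^ 2) ha hab H9 (fun N _ => s17s9_tors N) (fun N _ => s17s9_weak N)
    N hN hN5

/-- the constants `(m, a, b) = (3, 4, 6)`: (T) with `a = 4` and the cube at `n = 3` suffice. -/
theorem s17s9_result_346 (H : S17sxStmt 3 4 6)
    (N : ℕ) [NeZero N] (hN : N.Prime) (hN5 : 5 ≤ N) :
    AddGroup.FG ↥(FixedPoints.addSubgroup ((AlgebraicClosure ℚ) ≃ₐ[ℚ] (AlgebraicClosure ℚ))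
      (JZero N)) :=
  s17s9_result 4 6 (by norm_num) (by norm_num) (by norm_num) H N hN hN5

end Fermat.Agent.S17

end
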