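/-
S17 sprint, leaf W-H1 (helper74; route proposed by helper4): weak Mordell–Weil from the FINITENESS
of the level cohomology `H¹_lev(G_{ℚ,T}, A)` (`Fermat.Agent.TW.G.stmtLevFin`), instead of
Hermite–Minkowski / Kummer–Selmer.

`s17khTor J p`, `s17khRep J p` : the `p`-torsion of `J` as a `Rep (ZMod p) G`;
`s17khCoc`                     : the Kummer cocycle `σ ↦ σ y − y` of a `p`-division point `y`;
`s17kh_weak_abs`               : (DIV) + (LEV: every `p`-division point of `J^G` is fixed by a level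
                                 of the tower `𝒯`) + `Finite (levH1 𝒯 J[p])` ⇒ `p • J^G` has finite
                                 index in `J^G`  (the Kummer map `J^G / p J^G ↪ levH1 𝒯 J[p]`);
`S17khLev N p T`               : LEV for `J₀(N)` and the tower `towerS T` (fields unramified
                                 outside `T`);
`s17kh_weak`                   : LevFin + DIV + TORS + LEV ⇒ `S17IsWeak N p`.
The hypothesis `hLevFin` of `s17kh_weak` is, up to unfolding `TrivOnLevel`, the statement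
`Fermat.Agent.TW.G.stmtLevFin p hp2 T hpT` (unconditional on main, `p` odd, `p ∈ T`).
-/
import Fermat.Agent.S17.KumAbs
import Fermat.Agent.PT.B.Towers

set_option autoImplicit false

noncomputable section

namespace Fermat.Agent.S17

open ModularCurve AlgebraicCurve groupCohomology Fermat.Agent.PT Fermat.Agent.PT.B

section abstract

variable {G : Type} [Group G] (J : Type) [AddCommGroup J] [DistribMulAction G J] (p : ℕ)

/-- the `p`-torsion subgroup of `J`. -/
def s17khTor : AddSubgroup J where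
  carrier := {t | p • t = 0}
  zero_mem' := smul_zero p
  add_mem' := fun {a b} ha hb => by
    have ha' : p • a = 0 := ha
    have hb' : p • b = 0 := hb
    show p • (a + b) = 0
    rw [smul_add, ha', hb', add_zero]
  neg_mem' := fun {a} ha => by
    have ha' : p • a = 0 := ha
    show p • (-a) = 0
    rw [smul_neg, ha', neg_zero]

lemma s17kh_mem_tor (t : J) : t ∈ s17khTor J p ↔ p • t = 0 := Iff.rfl

/-- the `ZMod p`-module structure of the `p`-torsion. -/
instance s17khModule : Module (ZMod p) ↥(s17khTor J p) :=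
  AddCommGroup.zmodModule (fun x => Subtype.ext (by
    show p • (x : J) = 0
    exact x.2))

variable {J} in
/-- the action of `σ` on the `p`-torsion. -/
def s17khAct (σ : G) : ↥(s17khTor J p) →+ ↥(s17khTor J p) where
  toFun t := ⟨σ • (t : J), by
    show p • (σ • (t : J)) = 0
    rw [smul_comm, (t.2 : p • (t : J) = 0), smul_zero]⟩
  map_zero' := Subtype.ext (smul_zero σ)
  map_add' a b := Subtype.ext (smul_add σ (a : J) (b : J))

/-- the representation of `G` on the `p`-torsion. -/
def s17khRho : Representation (ZMod p) G ↥(s17khTor J p) where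
  toFun σ := (s17khAct p σ).toZModLinearMap p
  map_one' := by
    apply LinearMap.ext
    intro t
    apply Subtype.ext
    show (1 : G) • (t : J) = t
    exact one_smul G _
  map_mul' σ τ := by
    apply LinearMap.ext
    intro t
    apply Subtype.ext
    show (σ * τ) • (t : J) = σ • (τ • (t : J))
    exact mul_smul σ τ _

/-- `J[p]` as an object of `Rep (ZMod p) G`. -/
def s17khRep : Rep.{0} (ZMod p) G := Rep.of (s17khRho (G := G) J p)

variable {J} in
/-- the **Kummer cocycle** `σ ↦ σ y − y` of a `p`-division point `y` of `J^G`. -/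
def s17khCoc (y : J) (hy : ∀ σ : G, σ • (p • y) = p • y) : G → (s17khRep (G := G) J p).V :=
  fun σ => (⟨σ • y - y, by
    show p • (σ • y - y) = 0
    rw [smul_sub, smul_comm p σ y, hy σ, sub_self]⟩ : ↥(s17khTor J p))

variable {J} in
/-- the underlying point of `J` of an element of the representation `J[p]`. -/
def s17khVal (t : (s17khRep (G := G) J p).V) : J := (show ↥(s17khTor J p) from t).1

variable {J} in
lemma s17kh_val_smul (t : (s17khRep (G := G) J p).V) : p • s17khVal p t = 0 :=
  (show ↥(s17khTor J p) from t).2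

variable {J} in
lemma s17kh_coc_val (y : J) (hy : ∀ σ : G, σ • (p • y) = p • y) (σ : G) :
    s17khVal p (s17khCoc p y hy σ) = σ • y - y := rfl

variable {J} in
lemma s17kh_rho_val (σ : G) (t : (s17khRep (G := G) J p).V) :
    s17khVal p ((s17khRep (G := G) J p).ρ σ t) = σ • s17khVal p t := rfl

variable {J} in
lemma s17kh_coc_mem (y : J) (hy : ∀ σ : G, σ • (p • y) = p • y) :
    s17khCoc p y hy ∈ cocycles₁ (s17khRep (G := G) J p) := by
  rw [mem_cocycles₁_iff]
  intro g h
  apply Subtype.ext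
  show (g * h) • y - y = g • (h • y - y) + (g • y - y)
  rw [mul_smul, smul_sub]
  abel

variable {J} in
lemma s17kh_coc_level (𝒯 : Tower G) (y : J) (hy : ∀ σ : G, σ • (p • y) = p • y)
    (U : Subgroup G) (hU : U ∈ 𝒯.lev) (hfix : ∀ s ∈ U, s • y = y) :
    IsLevel₁ 𝒯 (s17khCoc p y hy) :=
  ⟨U, hU, fun g s hs => by
    apply Subtype.ext
    show (g * s) • y - y = g • y - y
    rw [mul_smul, hfix s hs]⟩

variable {J} in
/-- finitely many points, each fixed by a level, are fixed by a common level. -/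
lemma s17kh_common_level (𝒯 : Tower G) (S : Finset J)
    (h : ∀ t ∈ S, ∃ U ∈ 𝒯.lev, ∀ s ∈ U, s • t = t) :
    ∃ U ∈ 𝒯.lev, ∀ t ∈ S, ∀ s ∈ U, s • t = t := by
  classical
  induction S using Finset.induction_on with
  | empty => exact ⟨⊤, 𝒯.top_mem, fun t ht => absurd ht (Finset.notMem_empty t)⟩
  | insert a S ha ih =>
    obtain ⟨U, hU, hUS⟩ := ih (fun t ht => h t (Finset.mem_insert_of_mem ht))
    obtain ⟨V, hV, hVa⟩ := h a (Finset.mem_insert_self a S)
    refine ⟨U ⊓ V, 𝒯.inf_mem U V hU hV, fun t ht s hs => ?_⟩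
    rcases Finset.mem_insert.1 ht with rfl | ht'
    · exact hVa s hs.2
    · exact hUS t ht' s hs.1

/-- (TORS) + (LEV on torsion) ⇒ `J[p]` is trivial on a level. -/
theorem s17kh_trivOnLevel (𝒯 : Tower G) (htors : {t : J | p • t = 0}.Finite)
    (hlev : ∀ t : J, p • t = 0 → ∃ U ∈ 𝒯.lev, ∀ s ∈ U, s • t = t) :
    ∃ U ∈ 𝒯.lev, ∀ s ∈ U, (s17khRep (G := G) J p).ρ s = 1 := by
  classical
  obtain ⟨U, hU, hfix⟩ := s17kh_common_level 𝒯 htors.toFinset
    (fun t ht => hlev t (by simpa using ht))
  refine ⟨U, hU, fun s hs => ?_⟩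
  apply LinearMap.ext
  intro t
  apply Subtype.ext
  show s • s17khVal p t = s17khVal p t
  exact hfix _ (by
    rw [Set.Finite.mem_toFinset]
    exact s17kh_val_smul p t) s hs

/-- (TORS) ⇒ `J[p]` is finite-dimensional over `ZMod p`. -/
theorem s17kh_finiteDimensional [Fact p.Prime] (htors : {t : J | p • t = 0}.Finite) :
    FiniteDimensional (ZMod p) (s17khRep (G := G) J p) := by
  have h0 : Finite ↥{t : J | p • t = 0} := htors.to_subtype
  have : Finite ↥(s17khTor J p) :=
    Finite.of_injective (β := ↥{t : J | p • t = 0})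
      (fun t : ↥(s17khTor J p) => ⟨t.1, t.2⟩) (fun a b h => Subtype.ext (congrArg Subtype.val h))
  exact Module.Finite.of_finite (R := ZMod p) (M := ↥(s17khTor J p))

/-- **abstract Kummer injection into level cohomology**:
(DIV) + (LEV) + `Finite (levH1 𝒯 J[p])` ⇒ `p • J^G` has finite index in `J^G`. -/
theorem s17kh_weak_abs (𝒯 : Tower G)
    (hdiv : ∀ x ∈ FixedPoints.addSubgroup G J, ∃ y : J, p • y = x)
    (hlev : ∀ y : J, p • y ∈ FixedPoints.addSubgroup G J → ∃ U ∈ 𝒯.lev, ∀ s ∈ U, s • y = y)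
    (hfin : Finite ↥(levH1 𝒯 (s17khRep (G := G) J p))) :
    (nsmulAddMonoidHom (α := ↥(FixedPoints.addSubgroup G J)) p).range.FiniteIndex := by
  classical
  choose y hy using fun x : ↥(FixedPoints.addSubgroup G J) => hdiv x.1 x.2
  have hyG : ∀ (x : ↥(FixedPoints.addSubgroup G J)) (σ : G), σ • (p • y x) = p • y x :=
    fun x σ => by rw [hy x]; exact x.2 σ
  have hmem : ∀ x : ↥(FixedPoints.addSubgroup G J),
      (H1π (s17khRep (G := G) J p)).hom
          ⟨s17khCoc p (y x) (hyG x), s17kh_coc_mem p (y x) (hyG x)⟩ ∈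
        levH1 𝒯 (s17khRep (G := G) J p) := by
    intro x
    rw [mem_levH1_iff]
    obtain ⟨U, hU, hfix⟩ := hlev (y x) (by rw [hy x]; exact x.2)
    exact ⟨⟨s17khCoc p (y x) (hyG x), s17kh_coc_mem p (y x) (hyG x)⟩,
      s17kh_coc_level p 𝒯 (y x) (hyG x) U hU hfix, rfl⟩
  let φ : ↥(FixedPoints.addSubgroup G J) → ↥(levH1 𝒯 (s17khRep (G := G) J p)) :=
    fun x => ⟨_, hmem x⟩
  refine s17ka_finiteIndex_of_map _ φ ?_
  intro x x' hxx'
  have h1 : H1π (s17khRep (G := G) J p)
        ⟨s17khCoc p (y x) (hyG x), s17kh_coc_mem p (y x) (hyG x)⟩ =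
      H1π (s17khRep (G := G) J p)
        ⟨s17khCoc p (y x') (hyG x'), s17kh_coc_mem p (y x') (hyG x')⟩ :=
    congrArg Subtype.val hxx'
  rw [H1π_eq_iff] at h1
  obtain ⟨a0, ha⟩ := h1
  obtain ⟨a, haa⟩ : ∃ a : J, a = s17khVal (G := G) p a0 := ⟨_, rfl⟩
  have hσ : ∀ σ : G, σ • a - a = (σ • y x - y x) - (σ • y x' - y x') := by
    intro σ
    have := congrArg (s17khVal (G := G) p) (congrFun ha σ)
    rw [haa]
    exact this
  have hz : ∀ σ : G, σ • (y x - y x' - a) = y x - y x' - a := by
    intro σ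
    rw [smul_sub, smul_sub, ← sub_eq_zero]
    have e := hσ σ
    have : σ • y x - σ • y x' - σ • a - (y x - y x' - a)
        = ((σ • y x - y x) - (σ • y x' - y x')) - (σ • a - a) := by abel
    rw [this, e, sub_self]
  refine ⟨⟨y x - y x' - a, hz⟩, ?_⟩
  apply Subtype.ext
  show p • (y x - y x' - a) = (x - x' : ↥(FixedPoints.addSubgroup G J)).1
  have ha0 : p • a = 0 := by rw [haa]; exact s17kh_val_smul (G := G) p a0
  rw [smul_sub, smul_sub, hy x, hy x', ha0, sub_zero]
  rfl

end abstract

/-- **LEV** for `J₀(N)`: every `p`-division point of `J₀(N)(ℚ)` is fixed by `Gal(ℚ̄/F)` for a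
finite extension `F/ℚ` unramified outside `T`. -/
def S17khLev (N : ℕ) [NeZero N] (p : ℕ) (T : Finset Nat.Primes) : Prop :=
  ∀ y : JZero N, p • y ∈ FixedPoints.addSubgroup GQ (JZero N) →
    ∃ F : QbarField, F.IsUnramifiedOutside T ∧ ∀ σ ∈ F.fixingSubgroup, σ • y = y

/-- **weak Mordell–Weil from LevFin + DIV + TORS + LEV** (no Hermite–Minkowski). -/
theorem s17kh_weak (N : ℕ) [NeZero N] (p : ℕ) [Fact p.Prime] (T : Finset Nat.Primes)
    (hLevFin : ∀ (A : Rep.{0} (ZMod p) GQ) [FiniteDimensional (ZMod p) A],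
      (∃ U ∈ (towerS T).lev, ∀ s ∈ U, A.ρ s = 1) → Finite ↥(levH1 (towerS T) A))
    (hdiv : S17kaDiv N p) (htors : S17kaTors N p) (hlev : S17khLev N p T) :
    S17IsWeak N p := by
  have hlev' : ∀ y : JZero N, p • y ∈ FixedPoints.addSubgroup GQ (JZero N) →
      ∃ U ∈ (towerS T).lev, ∀ s ∈ U, s • y = y := by
    intro y hy
    obtain ⟨F, hF, hfix⟩ := hlev y hy
    exact ⟨F.fixingSubgroup, ⟨F, hF, rfl⟩, hfix⟩
  have htriv := s17kh_trivOnLevel (G := GQ) (JZero N) p (towerS T) htors
    (fun t ht => hlev' t (by rw [ht]; exact (FixedPoints.addSubgroup GQ (JZero N)).zero_mem))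
  have := s17kh_finiteDimensional (G := GQ) (JZero N) p htors
  have hfin := hLevFin (s17khRep (G := GQ) (JZero N) p) htriv
  exact s17kh_weak_abs (G := GQ) (JZero N) p (towerS T) hdiv hlev' hfin

end Fermat.Agent.S17
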