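/-
S17 sprint, leaf W5 (tors) — SHORT ROUTE (helper10): the `m`-torsion of `J₀(N)(ℚ̄)` is finite for
every `m > 0`, directly from the ES package (G1, `TorsionUnif`): no S27, no genus hypotheses.

`s17te_tors N m hm : S17kaTors N m`.
-/
import Fermat.Agent.S17.KumAbs
import Fermat.Agent.ES.TorsionUnifProved
import Fermat.Agent.ES.JOfUnif

set_option autoImplicit false

namespace Fermat.Agent.S17

open ModularCurve AlgebraicCurve

/-- **W5 (tors)**: `J₀(N)(ℚ̄)[m]` is finite, every level `N`, every `m > 0`. -/
theorem s17te_tors (N : ℕ) [NeZero N] (m : ℕ) (hm : 0 < m) : S17kaTors N m :=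
  Fermat.Agent.ES.jFinite_of_torsionUnif (M := N) (p := m) hm.ne'
    (Fermat.Agent.ES.torsionUnif_proved N m hm)

/-- the same as a `Finite` instance-shaped statement on the subtype. -/
theorem s17te_finite (N : ℕ) [NeZero N] (m : ℕ) (hm : 0 < m) :
    Finite {t : JZero N // m • t = 0} :=
  Set.finite_coe_iff.2 (s17te_tors N m hm)

end Fermat.Agent.S17
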