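/-
S17 sprint, **W-TOP** (helper94, captain's ruling 06:28Z): WEAK MORDELL–WEIL for `J₀(N)`.

`S17IsWeak N p` (`p` an odd prime) from
* (tors)  `s17te_tors`            (helper10, ES package),
* (open)  `selfl_exists_field'`   (S15/SelFL.lean),
* (unr)   `s17h90u_unr`           (helper94 `S17/Unr.lean` + helper18 `S17/H90.lean`, `H90Unr.lean`),
* (level) `s17lu_level`           (helper4, `S17/LevOfUnr.lean`),
* (LevFin) `TW.G.stmtLevFin`      (finiteness of `H¹_lev(G_{ℚ,T}, A)`, unconditional on main),
* Kummer  `s17kh_weak`            (helper74, `S17/KumH1.lean`),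
and the ONE open input
* (div)   `S17kaDiv N p`          (W6: every rational class is `p` times a class over `ℚ̄`).

Statements:
* `s17wk_open N`        : `S17luOpen N`;
* `s17wk_lev N m hm`    : `S17khLev N m (s17luT (m * N))` — every `m`-division point of a rational
                          class is fixed by `Gal(ℚ̄/F)`, `F/ℚ` finite and unramified outside `m N`
                          (UNCONDITIONAL; uses only the WEAK form of (unr): division points of
                          rational classes);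
* `s17wk_levFin`        : the hypothesis `hLevFin` of `s17kh_weak`, for `T = s17luT (p * N)`;
* **`s17wk_weak`**      : `p` odd prime, `S17kaDiv N p` ⇒ `S17IsWeak N p`;
* `s17wk_weak_three`    : `S17kaDiv N 3 ⇒ S17IsWeak N 3`.
-/
import Fermat.Agent.S17.KumH1
import Fermat.Agent.S17.LevOfUnr
import Fermat.Agent.S17.H90Unr
import Fermat.Agent.S17.TorsES
import Fermat.Agent.S15.SelFL
import Fermat.Agent.TW.G.LevFin

set_option autoImplicit false
set_option linter.unusedVariables false
set_option linter.unusedSectionVars false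
set_option linter.style.longLine false

noncomputable section

namespace Fermat.Agent.S17

open ModularCurve AlgebraicCurve
open Fermat.Agent.PT Fermat.Agent.PT.B

/-- **(open)** for `J₀(N)`: every class is fixed by an open subgroup of `G_ℚ`. -/
theorem s17wk_open (N : ℕ) [NeZero N] : S17luOpen N := by
  intro y
  obtain ⟨E, hE, hfix⟩ := Fermat.Agent.S15.selfl_exists_field' N y
  refine ⟨E, hE, fun σ hσ => hfix σ (fun a ha => ?_)⟩
  exact (IntermediateField.mem_fixingSubgroup_iff E σ).1 hσ a ha

/-- **(lev)**, unconditional: every `m`-division point of a rational class is fixed by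
`Gal(ℚ̄/F)` for a finite extension `F/ℚ` unramified outside the primes dividing `m N`. -/
theorem s17wk_lev (N : ℕ) [NeZero N] (m : ℕ) (hm : m ≠ 0) :
    S17khLev N m (s17luT (m * N)) := by
  intro y hy
  obtain ⟨E, hE, hfix⟩ := s17wk_open N y
  have hlev : MulAction.stabilizer GQ y ∈ (towerS (s17luT (m * N))).lev := by
    refine s17lu_level (s17luT (m * N)) (MulAction.stabilizer GQ y) E hE
      (fun σ hσ => MulAction.mem_stabilizer_iff.2 (hfix σ hσ)) ?_
    intro q hq A hA σ hσ
    refine MulAction.mem_stabilizer_iff.2 ?_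
    refine s17h90u_unr N m y hy (q : ℕ) q.2 ?_ A hA σ hσ
    intro hdvd
    exact hq ((s17lu_mem_T (m * N) (mul_ne_zero hm (NeZero.ne N)) q).2 hdvd)
  obtain ⟨F, hF, hHF⟩ := hlev
  refine ⟨F, hF, fun σ hσ => ?_⟩
  have : σ ∈ MulAction.stabilizer GQ y := by rw [hHF]; exact hσ
  exact MulAction.mem_stabilizer_iff.1 this

/-- `p ∈ T` for `T` = the primes dividing `p N`. -/
theorem s17wk_p_mem (N : ℕ) [NeZero N] (p : ℕ) [hp : Fact p.Prime] :
    (⟨p, hp.out⟩ : Nat.Primes) ∈ s17luT (p * N) :=
  (s17lu_mem_T (p * N) (mul_ne_zero hp.out.ne_zero (NeZero.ne N)) ⟨p, hp.out⟩).2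
    (dvd_mul_right p N)

/-- the finiteness of the level cohomology, in the shape of `s17kh_weak`. -/
theorem s17wk_levFin (N : ℕ) [NeZero N] (p : ℕ) [hp : Fact p.Prime] (hp2 : p ≠ 2)
    (A : Rep.{0} (ZMod p) GQ) [FiniteDimensional (ZMod p) A]
    (hA : ∃ U ∈ (towerS (s17luT (p * N))).lev, ∀ s ∈ U, A.ρ s = 1) :
    Finite ↥(levH1 (towerS (s17luT (p * N))) A) :=
  Fermat.Agent.TW.G.stmtLevFin p hp2 (s17luT (p * N)) (s17wk_p_mem N p) A hA

/-- **W-TOP: weak Mordell–Weil** for `J₀(N)` and an odd prime `p`, from (div). -/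
theorem s17wk_weak (N : ℕ) [NeZero N] (p : ℕ) [hp : Fact p.Prime] (hp2 : p ≠ 2)
    (hdiv : S17kaDiv N p) : S17IsWeak N p :=
  s17kh_weak N p (s17luT (p * N))
    (fun A _ hA => s17wk_levFin N p hp2 A hA) hdiv
    (s17te_tors N p hp.out.pos) (s17wk_lev N p hp.out.ne_zero)

/-- weak Mordell–Weil at `p = 3`. -/
theorem s17wk_weak_three (N : ℕ) [NeZero N] (hdiv : S17kaDiv N 3) : S17IsWeak N 3 :=
  haveI : Fact (Nat.Prime 3) := ⟨Nat.prime_three⟩
  s17wk_weak N 3 (by decide) hdiv

end Fermat.Agent.S17

end
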