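/-
S17 sprint, layer H — **FINAL ASSEMBLY (hedge twin)** (helper41): the captain's open statement
`S17sxStmt 3 4 6` (S17/StageTop.lean) and the frozen type of S17, from the landed leaves.

Constants: `x = t` (a `G_ℚ`-fixed function with its only pole at `∞`), `G₀` reduced of degree `g`,
`O = cuspInf N` (helper45, S17/ConstInf.lean); family `q` (S27/ModelPsi.lean); ONE base-point-free
family `Fam` (helper45, S17/BpfStage.lean); local equation `y = s17pmtB (B 1)` (ruling (A)).

* `s17an41_sec`     : (L1) the Chow sections of `q (−1)` (helper42, S17/ChowOpp.lean), with the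
                      basis and the uniformiser chosen inside;
* `s17an41_int`     : (hint) `y W ∈ W`;
* `s17an41_plN`     : **PlN** for the height of ANY base-point-free family
                      (helper74's `s17pnt_plN` + (L1) + (L2) `s17hvu_hunit_stage` + (T));
* `s17an41_stmtAt`  : `S17sxStmtAt N 3 4 6` for `2 ≤ N`, `0 < g`
                      (PlM, PlT: helper32's `s17ptk_plMT`);
* `s17an41_stmt`    : `S17sxStmt 3 4 6`;
* **`s17an41_result`** : the frozen type of S17 (helper97's `s17s9_result_346`).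
-/
import Fermat.Agent.S17.PlNTop
import Fermat.Agent.S17.HVisU
import Fermat.Agent.S17.ChowOpp
import Fermat.Agent.S17.PlTFinalK
import Fermat.Agent.S17.BpfStage
import Fermat.Agent.S17.ConstInf
import Fermat.Agent.S17.Weak
import Fermat.Agent.S17.StageGrow
import Fermat.Agent.S17.StageTopNine

set_option autoImplicit false
set_option linter.unusedVariables false
set_option linter.unusedSectionVars false
set_option linter.style.haveILetI false
set_option linter.style.longLine false

noncomputable section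

namespace Fermat.Agent.S17

open ModularCurve AlgebraicCurve Module TensorProduct IntermediateField
open Fermat.Agent.S24 Fermat.Agent.ES.M Fermat.Agent.ES.H Fermat.Agent.S15 Fermat.Agent.S26
  Fermat.Agent.S27 Fermat.Agent.DEU

universe u v

section Gen

variable {K : Type u} {F : Type v} [Field K] [Field F] [Algebra K F] [IsAlgClosed K] [CharZero K]
  [IsCurveOver K F] [Algebra.EssFiniteType K F]

/-- **(L1)** the Chow sections of the opposite tuple, closed. -/
theorem s17an41_sec {x : F} {G₀ : Divisor K F} {O : Place K F}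
    (hc : S27cstIsConst x G₀ O) (hg : 0 < genusFF K F) :
    haveI := hc.fin
    haveI := hc.sep
    ∀ (q : ℤ → Fin (genusFF K F) → F →ₐ[K] s27mtL K F)
      (hq : S27pfFam (s27ftPkg hc.trans G₀ hc.deg) q)
      (t : F) (M : ℕ) (htO : -(M : ℤ) ≤ O.ord t)
      (ht : ∀ Q : Place K F, Q ≠ O → 0 ≤ Q.ord t) (n : Fin (genusFF K F + 1))
      (W : ValuationSubring (s27mtL K F)) (hW : S27IsKValU K W),
      s17cvChow (fun i => q (-1) i t) n *
        s17pmtB (L := s27mtL K F)
          (s27indB (s27pfPsi (s27ftPkg hc.trans G₀ hc.deg) (s27dcl_halg (x := x)) hq)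
            (s27beta (g := genusFF K F) (G₀ + s27cstAo G₀ O)) 1) W ^ M ∈ W := by
  haveI := hc.fin
  haveI := hc.sep
  intro q hq t M htO ht n W hW
  obtain ⟨_, _, s, _, _, _, hs, _⟩ := s27pt2_exists x hc.trans O
  have hl : Module.finrank K
      ↥(riemannRochSpace (2 • G₀ - Finsupp.single O 1 : Divisor K F)) = genusFF K F := by
    rw [← s17cop_A_eq G₀ O]
    exact hc.l_A
  have hpos : 0 < Module.finrank K
      ↥(riemannRochSpace (2 • G₀ - Finsupp.single O 1 : Divisor K F)) := by
    rw [hl]; exact hg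
  haveI : Module.Finite K ↥(riemannRochSpace (2 • G₀ - Finsupp.single O 1 : Divisor K F)) :=
    Module.finite_of_finrank_pos hpos
  exact s17cop_sec_Ao hc.trans G₀ hc.deg O hc.nonneg hc.off
    (Module.finBasisOfFinrankEq K _ hl) q hq s hs t M htO ht n W hW

/-- **(hint)** the lifted local equation is integral. -/
theorem s17an41_int {x : F} {G₀ : Divisor K F} {O : Place K F}
    (hc : S27cstIsConst x G₀ O) (hg : 0 < genusFF K F) :
    haveI := hc.fin
    haveI := hc.sep
    ∀ (q : ℤ → Fin (genusFF K F) → F →ₐ[K] s27mtL K F)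
      (hq : S27pfFam (s27ftPkg hc.trans G₀ hc.deg) q)
      (W : ValuationSubring (s27mtL K F)) (hW : S27IsKValU K W),
      s17pmtB (L := s27mtL K F)
        (s27indB (s27pfPsi (s27ftPkg hc.trans G₀ hc.deg) (s27dcl_halg (x := x)) hq)
          (s27beta (g := genusFF K F) (G₀ + s27cstAo G₀ O)) 1) W ∈ W := by
  haveI := hc.fin
  haveI := hc.sep
  intro q hq W hW
  have hbmem := (s17sgw_main hc hg q hq).2.1
  have h := s27indB_mem (s27pfPsi (s27ftPkg hc.trans G₀ hc.deg) (s27dcl_halg (x := x)) hq)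
    (s27beta (g := genusFF K F) (G₀ + s27cstAo G₀ O)) hbmem 1
    (V := W.comap (algebraMap (s27gfSym K F (genusFF K F)) (s27mtL K F))) (s17pmt_isKVal hW)
  rw [ValuationSubring.mem_comap] at h
  exact h

end Gen

section Stage

variable (N : ℕ) [NeZero N] [IsCurveOver Kb (FF N)] [Algebra.EssFiniteType Kb (FF N)]

/-- **PlN** on the closed stage for the height of ANY base-point-free family. -/
theorem s17an41_plN {x : FF N} {G₀ : Divisor Kb (FF N)}
    (hc : S27cstIsConst x G₀ (cuspInf N)) (hg : 0 < genusFF Kb (FF N)) :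
    haveI := hc.fin
    haveI := hc.sep
    ∀ (q : ℤ → Fin (genusFF Kb (FF N)) → FF N →ₐ[Kb] s27mtL Kb (FF N))
      (hq : S27pfFam (s27ftPkg hc.trans G₀ hc.deg) q)
      (t : FF N) (hnc : ∀ c : Kb, t ≠ algebraMap Kb (FF N) c)
      (htΓ : ∀ σ : Kb ≃ₐ[ℚ] Kb, galAct N σ • t = t)
      (ht : ∀ v : Place Kb (FF N), v ≠ cuspInf N → 0 ≤ v.ord t)
      {ι : Type} [Fintype ι] (N₀ : ℕ) (hN₀ : 0 < N₀) (Fam : ι → s27mtL Kb (FF N))
      (hF : S17pmkBpf Kb
        (s17pmtB (L := s27mtL Kb (FF N))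
          (s27indB (s27pfPsi (s27ftPkg hc.trans G₀ hc.deg) (s27dcl_halg (x := x)) hq)
            (s27beta (g := genusFF Kb (FF N)) (G₀ + s27cstAo G₀ (cuspInf N))) 1)) N₀ Fam)
      (a : ℝ) (ha : 0 ≤ a)
      (hT : S17hyPlT (s17sxCl N (L := s27mtL Kb (FF N)) (FL := s27mtFL Kb (FF N))
        (s27stg_hld Kb (FF N) (s27mtL Kb (FF N))) (s27stg_hgen Kb (FF N) (s27mtL Kb (FF N)))
        hc.trans G₀ hc.deg) (s17sxHt Fam) a),
      S17hxPlN (s17sxCl N (L := s27mtL Kb (FF N)) (FL := s27mtFL Kb (FF N))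
        (s27stg_hld Kb (FF N) (s27mtL Kb (FF N))) (s27stg_hgen Kb (FF N) (s27mtL Kb (FF N)))
        hc.trans G₀ hc.deg) (s17sxHt Fam) := by
  haveI := hc.fin
  haveI := hc.sep
  intro q hq t hnc htΓ ht ι _ N₀ hN₀ Fam hF a ha hT
  have htO : -(((-(cuspInf N).ord t).toNat : ℕ) : ℤ) ≤ (cuspInf N).ord t := by
    have := Int.self_le_toNat (-(cuspInf N).ord t)
    omega
  exact s17pnt_plN N (L := s27mtL Kb (FF N)) (FL := s27mtFL Kb (FF N))
    (s27stg_hld Kb (FF N) (s27mtL Kb (FF N))) (s27stg_hgen Kb (FF N) (s27mtL Kb (FF N)))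
    hc.trans G₀ hc.deg (q (-1)) (hq (-1) (by norm_num)).2 _
    (fun P => s17an41_int hc hg q hq P.W P.hKW) N₀ hN₀ Fam hF t hnc htΓ ht
    (-(cuspInf N).ord t).toNat
    (fun P n => s17an41_sec hc hg q hq t _ htO ht n P.W P.hKW)
    (fun P hgood => s17hvu_hunit_stage N hc hg q hq P hgood)
    (s17wk_open N) a ha hT

end Stage

section Top

variable (N : ℕ) [NeZero N]

/-- **the open statement of layer H at one level**, closed. -/
theorem s17an41_stmtAt (hN : 2 ≤ N) (hg : 0 < genusFF Kb (FF N)) : S17sxStmtAt N 3 4 6 := by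
  intro i1 i2
  haveI := i1
  haveI := i2
  obtain ⟨t, G₀, hc0, htΓ, ht, hneg, hnc, hred, hdeg⟩ := s17kc_exists N hN
  have hc := hc0 i1 i2
  haveI := hc.fin
  haveI := hc.sep
  obtain ⟨q, hq⟩ := s27mp_exists_fam (L := s27mtL Kb (FF N)) (FL := s27mtFL Kb (FF N))
    (s27stg_hld Kb (FF N) (s27mtL Kb (FF N))) (s27stg_hgen Kb (FF N) (s27mtL Kb (FF N)))
    hc.trans G₀ hc.deg
  obtain ⟨T, Fam, y, hne, hFam0, hFne, hy, htr, hF⟩ :=
    s17bsg_main hc.trans G₀ hc.deg hg (cuspInf N) hc q hq
  obtain ⟨hM, hT⟩ := s17ptk_plMT N hc.trans G₀ hc.deg hg (cuspInf N) hc q hq 2 Fam hF hFne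
  have hN' := s17an41_plN N hc hg q hq t hnc htΓ ht 2 (by norm_num) Fam hF 4 (by norm_num) hT
  exact ⟨t, G₀, cuspInf N, hc, ↥T, inferInstance, Fam, hM, hT, hN'⟩

end Top

/-- **the open statement of layer H**, closed. -/
theorem s17an41_stmt : S17sxStmt 3 4 6 := by
  intro N _ hN hN5 hg
  exact s17an41_stmtAt N (by omega) hg

/-- **Mordell–Weil for `J₀(N)`, `N ≥ 5` prime** (the frozen type of S17). -/
theorem s17an41_result (N : ℕ) [NeZero N] (hN : N.Prime) (hN5 : 5 ≤ N) :
    AddGroup.FG ↥(FixedPoints.addSubgroup ((AlgebraicClosure ℚ) ≃ₐ[ℚ] (AlgebraicClosure ℚ))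
      (JZero N)) :=
  s17s9_result_346 s17an41_stmt N hN hN5

end Fermat.Agent.S17

end
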