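/-
S17 sprint, layer H — **ASSEMBLY (M) + (T) + (N)** (helper45): on the concrete stage of `X₀(N)`
over `ℚ̄` the body of `S17sxStmtAt N 7 4 28` from the TWO leaves of PlN which are still open,
stated for the lifted local equations `s17amY` (`b = B(+1)`, ruling (A)):

  (L1) `hsec`  : the Chow sections of the opposite tuple `q (−1)` lie in `L(M · Θ)` at the
                 `ℚ̄`-places;
  (L2) `hunit` : `s17amY P.W` is a unit at the places with `−x_P + δ` good.

Everything else is plugged in: (M′), (T) and the base-point-free family are `s17asb_MT`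
(S17/AsmBsg.lean), (N) is `s17pnt_plN` (S17/PlNTop.lean, helper74), integrality of `s17amY` is the
BETA package.

* `s17apn_int`          : `s17amY W ∈ W` for every `W ⊇ ℚ̄`;
* **`s17apn_stmtAt_7`** : the body of `S17sxStmtAt N 7 4 28` from (L1), (L2), (open) and a
                          Galois-fixed non-constant `t` regular off `∞`.
-/
import Fermat.Agent.S17.AsmBsg
import Fermat.Agent.S17.PlNTop

set_option autoImplicit false
set_option linter.unusedVariables false
set_option linter.unusedSectionVars false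
set_option linter.style.haveILetI false
set_option linter.style.longLine false

noncomputable section

namespace Fermat.Agent.S17

open ModularCurve AlgebraicCurve Module TensorProduct IntermediateField
open ModularCurve AlgebraicCurve Polynomial Height
open Fermat.Agent.S24 Fermat.Agent.ES.M Fermat.Agent.ES.H Fermat.Agent.S15 Fermat.Agent.S26
  Fermat.Agent.S27 Fermat.Agent.DEU

section Stage

variable (N : ℕ) [NeZero N] [IsCurveOver Kb (FF N)] [Algebra.EssFiniteType Kb (FF N)]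
  {x : FF N} (hx : Transcendental Kb x)
  [FiniteDimensional ↥(IntermediateField.adjoin Kb {x}) (FF N)]
  [Algebra.IsSeparable ↥(IntermediateField.adjoin Kb {x}) (FF N)]
  (G₀ : Divisor Kb (FF N)) (hG₀ : Divisor.degree G₀ = (genusFF Kb (FF N) : ℤ))

/-- the lifted local equations are integral. -/
theorem s17apn_int (hg : 0 < genusFF Kb (FF N)) (O : Place Kb (FF N))
    (hc : S27cstIsConst x G₀ O)
    (q : ℤ → Fin (genusFF Kb (FF N)) → FF N →ₐ[Kb] s27mtL Kb (FF N))
    (hq : S27pfFam (s27ftPkg hx G₀ hG₀) q)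
    (W : ValuationSubring (s27mtL Kb (FF N))) (hW : S27IsKValU Kb W) :
    s17amY N hx G₀ hG₀ O q hq W ∈ W := by
  have hone := (s17pmd_comp hx G₀ hG₀ hq).1
  have hβ := (s17pmd_beta hx (G₀ + s27cstAo G₀ O) hc.l_A hg).2
    (W.comap (algebraMap (s27gfSym Kb (FF N) (genusFF Kb (FF N))) (s27mtL Kb (FF N))))
    (s17pmt_isKVal hW)
  unfold s17amY s17pmtB
  rw [s17bsg_indB_one _ _ hone]
  exact hβ

/-- **the body of `S17sxStmtAt N 7 4 28`** from the two open leaves (L1), (L2) of PlN. -/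
theorem s17apn_stmtAt_7 (hg : 0 < genusFF Kb (FF N)) (O : Place Kb (FF N))
    (hc : S27cstIsConst x G₀ O)
    (q : ℤ → Fin (genusFF Kb (FF N)) → FF N →ₐ[Kb] s27mtL Kb (FF N))
    (hq : S27pfFam (s27ftPkg hx G₀ hG₀) q)
    (t : FF N)
    (hnc : ∀ c : Kb, t ≠ algebraMap Kb (FF N) c)
    (htΓ : ∀ σ : Kb ≃ₐ[ℚ] Kb, galAct N σ • t = t)
    (ht : ∀ v : Place Kb (FF N), v ≠ cuspInf N → 0 ≤ v.ord t)
    (M : ℕ)
    (hsec : ∀ (P : S17plPlace Kb (s27mtL Kb (FF N))) (n : Fin (genusFF Kb (FF N) + 1)),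
      s17cvChow (fun i => q (-1) i t) n * s17amY N hx G₀ hG₀ O q hq P.W ^ M ∈ P.W)
    (hunit : ∀ (P : S17plPlace Kb (s27mtL Kb (FF N))),
      S17poGood N (-s17amCl N hx G₀ hG₀ P + s17pnoShift N G₀) →
      S27IsUnitIn P.W (s17amY N hx G₀ hG₀ O q hq P.W))
    (hopen : S17luOpen N) :
    ∃ (ι : Type) (_ : Finite ι) (s : ι → s27mtL Kb (FF N)),
      S17hyPlM (s17amCl N hx G₀ hG₀) (s17sxHt s) 7 28 ∧
      S17hyPlT (s17amCl N hx G₀ hG₀) (s17sxHt s) 4 ∧
      S17hxPlN (s17amCl N hx G₀ hG₀) (s17sxHt s) := by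
  classical
  obtain ⟨T, Fam, y, hF0, -, hy, hX, hF, -, hM, hT⟩ := s17asb_MT N hx G₀ hG₀ hg O hc q hq
  refine ⟨↥T, inferInstance, Fam, hM, hT, ?_⟩
  exact s17pnt_plN N (L := s27mtL Kb (FF N)) (FL := s27mtFL Kb (FF N))
    (s27stg_hld Kb (FF N) (s27mtL Kb (FF N))) (s27stg_hgen Kb (FF N) (s27mtL Kb (FF N)))
    hx G₀ hG₀ (q (-1)) (hq (-1) (by norm_num)).2 (s17amY N hx G₀ hG₀ O q hq)
    (fun P => s17apn_int N hx G₀ hG₀ hg O hc q hq P.W P.hKW) 2 (by norm_num) Fam hF
    t hnc htΓ ht M hsec hunit hopen 4 (by norm_num) hT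

end Stage

end Fermat.Agent.S17

end
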