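/-
S17 sprint, layer W — **weak Mordell–Weil at the powers of `2`, WITHOUT class field theory**
(helper53).

The closed form `s17wz_weak` (S17/WeakClosed.lean) of weak Mordell–Weil at an odd prime goes
through `TW.G.stmtLevFin`, whose import closure (Poitou–Tate / Taylor–Wiles, about 400 modules) is
used NOWHERE ELSE in the closure of `Fermat/Agent/S17/`.  This file closes the layer W at `m = 2`
(hence at every `2 ^ k`) by exponent-`2` Kummer theory (S17/KumQuad.lean) and the `2`-Selmer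
finiteness (S17/KumSel.lean, S17/SelReps.lean, S17/Ram.lean): Mathlib only, plus the leaves
(div), (tors), (open), (unr) that the rest of S17 imports anyway.

* `s17w2_fin_abs`  : the glue of S17/KumQuad.lean with the WEAK form of (unr)
                     ("`2 • y` rational ⇒ inertia fixes `y`", the shape of `s17h90u_unr`);
* `s17w2_div`      : `S17kaDiv N m` (`0 < m`);
* `s17w2_open`     : `S17luOpen N`;
* `s17w2_tors_pow` : `S17kaTors N (2 ^ k)`;
* `s17w2_fin`      : `S17kaFin N 2`;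
* `s17w2_weak`     : **`S17IsWeak N 2`**;
* `s17w2_weak_pow` : **`S17IsWeak N (2 ^ k)`**.
-/
import Fermat.Agent.S17.KumSel
import Fermat.Agent.S17.H90Unr
import Fermat.Agent.S17.DivWrap
import Fermat.Agent.S17.DivMain
import Fermat.Agent.S17.WeakMul
import Fermat.Agent.S17.LevOfUnr
import Fermat.Agent.S15.SelFL

set_option autoImplicit false
set_option linter.style.haveILetI false
set_option linter.unusedSectionVars false
set_option linter.unusedVariables false

noncomputable section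

namespace Fermat.Agent.S17

open IntermediateField ModularCurve AlgebraicCurve

/-! ### the glue with the weak form of (unr) -/

section glue

variable {k K : Type*} [Field k] [Field K] [Algebra k K] [IsGalois k K]
variable {J : Type*} [AddCommGroup J] [DistribMulAction (K ≃ₐ[k] K) J]

/-- **the glue, weak (unr)**: (tors) + (open) + (unr for the halves of rational points) + (RS)
⇒ (fin). -/
theorem s17w2_fin_abs (h2 : (2 : K) ≠ 0) (I : Set (K ≃ₐ[k] K))
    (htors : {t : J | 2 • t = 0}.Finite)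
    (hopen : ∀ y : J, ∃ E : IntermediateField k K, FiniteDimensional k E ∧
      ∀ σ ∈ E.fixingSubgroup, σ • y = y)
    (hunr : ∀ σ ∈ I, ∀ y : J, (∀ τ : K ≃ₐ[k] K, τ • (2 • y) = 2 • y) → σ • y = y)
    (hRS : ∀ E₀ : IntermediateField k K, FiniteDimensional k E₀ →
      (∀ σ ∈ I, σ ∈ E₀.fixingSubgroup) →
      ∃ E₁ : IntermediateField k K, FiniteDimensional k E₁ ∧
        ∀ α : K, α ^ 2 ∈ E₀ → (∀ σ ∈ I, σ α = α) → α ∈ E₁) :
    ∃ E : IntermediateField k K, FiniteDimensional k E ∧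
      ∀ y : J, (∀ σ : K ≃ₐ[k] K, σ • (2 • y) = 2 • y) → ∀ σ ∈ E.fixingSubgroup, σ • y = y := by
  classical
  obtain ⟨E₀, hE₀, hE₀S⟩ := s17kq_unramField htors hopen
  have hIE₀ : ∀ σ ∈ I, σ ∈ E₀.fixingSubgroup := by
    intro σ hσ
    rw [hE₀S]
    intro t ht
    refine hunr σ hσ t ?_
    intro τ
    rw [ht, smul_zero]
  obtain ⟨E₁, hE₁, hRS₁⟩ := hRS E₀ hE₀ hIE₀
  refine ⟨E₀ ⊔ E₁, IntermediateField.finiteDimensional_sup E₀ E₁, ?_⟩
  intro y hy σ hσ
  have hσ₀ : σ ∈ E₀.fixingSubgroup := IntermediateField.fixingSubgroup_le le_sup_left hσ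
  have hσ₁ : σ ∈ E₁.fixingSubgroup := IntermediateField.fixingSubgroup_le le_sup_right hσ
  -- the cocycle of `y`
  have hc : ∀ τ : K ≃ₐ[k] K, 2 • (τ • y - y) = 0 := by
    intro τ
    rw [smul_sub, smul_comm, hy τ, sub_self]
  -- the `2`-torsion as a vector space over `ZMod 2`
  let Tg : AddSubgroup J := (nsmulAddMonoidHom (α := J) 2).ker
  have hTg : ∀ t : J, t ∈ Tg ↔ 2 • t = 0 := fun t => by
    rw [AddMonoidHom.mem_ker, nsmulAddMonoidHom_apply]
  letI : Module (ZMod 2) Tg := AddCommGroup.zmodModule (n := 2) (fun x => by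
    apply Subtype.ext
    rw [AddSubgroup.coe_nsmul]
    exact (hTg _).1 x.2)
  by_contra hne
  have ht₀ : (⟨σ • y - y, (hTg _).2 (hc σ)⟩ : Tg) ≠ 0 := by
    intro h
    apply hne
    have := congrArg Subtype.val h
    exact sub_eq_zero.1 this
  obtain ⟨lam, hlam⟩ := Module.Projective.exists_dual_ne_zero (ZMod 2) ht₀
  let χ : (K ≃ₐ[k] K) → ZMod 2 := fun τ => lam ⟨τ • y - y, (hTg _).2 (hc τ)⟩
  have hχ : ∀ τ ∈ E₀.fixingSubgroup, ∀ ρ ∈ E₀.fixingSubgroup, χ (τ * ρ) = χ τ + χ ρ := by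
    intro τ hτ ρ hρ
    rw [hE₀S] at hτ
    have e : (⟨(τ * ρ) • y - y, (hTg _).2 (hc (τ * ρ))⟩ : Tg) =
        ⟨τ • y - y, (hTg _).2 (hc τ)⟩ + ⟨ρ • y - y, (hTg _).2 (hc ρ)⟩ := by
      apply Subtype.ext
      show (τ * ρ) • y - y = (τ • y - y) + (ρ • y - y)
      have h1 : τ • (ρ • y - y) = ρ • y - y := hτ _ (hc ρ)
      rw [smul_sub] at h1
      rw [mul_smul]
      have : τ • ρ • y - y = (τ • ρ • y - τ • y) + (τ • y - y) := by abel
      rw [this, h1]
      abel
    show lam _ = lam _ + lam _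
    rw [e, map_add]
  obtain ⟨Ey, hEy, hfixy⟩ := hopen y
  have hχE : ∀ τ ∈ E₀.fixingSubgroup, τ ∈ Ey.fixingSubgroup → χ τ = 0 := by
    intro τ _ hτ
    have e : (⟨τ • y - y, (hTg _).2 (hc τ)⟩ : Tg) = 0 := by
      apply Subtype.ext
      show τ • y - y = 0
      rw [hfixy τ hτ, sub_self]
    show lam _ = 0
    rw [e, map_zero]
  obtain ⟨α, -, hα2, hαχ⟩ := s17kq_kummer h2 E₀ Ey χ hχ hχE
  have hαI : ∀ τ ∈ I, τ α = α := by
    intro τ hτ
    refine (hαχ τ (hIE₀ τ hτ)).1 ?_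
    have e : (⟨τ • y - y, (hTg _).2 (hc τ)⟩ : Tg) = 0 := by
      apply Subtype.ext
      show τ • y - y = 0
      rw [hunr τ hτ y hy, sub_self]
    show lam _ = 0
    rw [e, map_zero]
  have hαE₁ : α ∈ E₁ := hRS₁ α hα2 hαI
  have hσα : σ α = α := (IntermediateField.mem_fixingSubgroup_iff _ σ).1 hσ₁ α hαE₁
  exact hlam ((hαχ σ hσ₀).2 hσα)

end glue

/-! ### the leaves for `J₀(N)` -/

section inst

/-- DIV in the shape of `S17/DivWrap.lean`. -/
theorem s17w2_divStmt : S17dwDivStmt :=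
  fun K F _ _ _ _ _ _ _ n hn c => s17dv_main K F n hn c

/-- **(div)**: `S17kaDiv N m`, `0 < m`. -/
theorem s17w2_div (N : ℕ) [NeZero N] (m : ℕ) (hm : 0 < m) : S17kaDiv N m :=
  s17dw_div s17w2_divStmt N m hm

/-- **(open)**: every class of `J₀(N)(ℚ̄)` has an open stabiliser. -/
theorem s17w2_open (N : ℕ) [NeZero N] : S17luOpen N := by
  intro y
  obtain ⟨E, hE, h⟩ := Fermat.Agent.S15.selfl_exists_field' N y
  exact ⟨E, hE, fun σ hσ =>
    h σ (fun a ha => (IntermediateField.mem_fixingSubgroup_iff E σ).1 hσ a ha)⟩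

/-- **(tors)** at `2 ^ k`. -/
theorem s17w2_tors_pow (N : ℕ) [NeZero N] (k : ℕ) : S17kaTors N (2 ^ k) :=
  haveI : Fact (Nat.Prime 2) := ⟨Nat.prime_two⟩
  s17to_finite_pow N 2 k

/-- **(fin)** at `2`, field form: ONE number field whose Galois group fixes every half of a
rational class. -/
theorem s17w2_finField (N : ℕ) [NeZero N] : S17kqFinField N := by
  have h2 : (2 : AlgebraicClosure ℚ) ≠ 0 := two_ne_zero
  haveI := s17kq_isGalois
  obtain ⟨E, hE, hfix⟩ := s17w2_fin_abs (k := ℚ) (K := AlgebraicClosure ℚ) (J := JZero N) h2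
    (S17kqInertia (((2 * N).primeFactors : Finset ℕ) : Set ℕ)) (s17to_tors_two N) (s17w2_open N)
    (fun σ hσ y hy => by
      obtain ⟨ℓ, hℓ, hℓS, A, hA, hσA⟩ := hσ
      have hℓN : ¬ ℓ ∣ 2 * N := by
        intro hdvd
        apply hℓS
        rw [Finset.mem_coe, Nat.mem_primeFactors]
        exact ⟨hℓ, hdvd, mul_ne_zero two_ne_zero (NeZero.ne N)⟩
      exact s17h90u_unr N 2 y (fun τ => hy τ) ℓ hℓ hℓN A hA σ hσA)
    (s17ks_RS (2 * N).primeFactors)
  exact ⟨E, hE, fun y hy σ hσ => hfix y (fun τ => hy τ) σ hσ⟩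

/-- **(fin)** at `2`. -/
theorem s17w2_fin (N : ℕ) [NeZero N] : S17kaFin N 2 :=
  s17kq_fin_of_field N 2 (s17w2_finField N)

/-- **WEAK MORDELL–WEIL for `J₀(N)`** at `m = 2`, by Kummer theory. -/
theorem s17w2_weak (N : ℕ) [NeZero N] : S17IsWeak N 2 :=
  s17ka_weak N 2 (s17w2_div N 2 (by norm_num)) (s17to_tors_two N) (s17w2_fin N)

/-- **WEAK MORDELL–WEIL for `J₀(N)`** at every power of `2`. -/
theorem s17w2_weak_pow (N : ℕ) [NeZero N] (k : ℕ) : S17IsWeak N (2 ^ k) :=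
  s17wm_pow N 2 (s17w2_weak N) k

end inst

end Fermat.Agent.S17

end
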