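/-
S17 sprint — **COST CUT: the closed top WITHOUT the class field theory of PT / TW** (helper71).

PT-free twin of S17/AsmTwin.lean (same leaves, same model), at the multiplier `n = 2`:
* PlM at `n = 2` with `b = 3`  (`s17pmf_plM`, S17/PlMFinal.lean, generic `n`; `s27indTri 2 = 3`);
* PlT with `a = 4`             (`s17ptk_plMT`, S17/PlTFinalK.lean);
* PlN                          (`s17pnt_plN`, S17/PlNTop.lean) with (open) from S17/WeakTwo.lean
                               (`s17w2_open`, helper53) instead of S17/Weak.lean;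
* WEAK + TORS at `2 ^ 4`, Kummer theory for the exponent `2`
                               (`s17w2d_result_243`, S17/WeakTwoD.lean, helper90: `16 < 81`).

* `s17apfb_at`     : `S17sxStmtAt N 2 4 3` for every level of positive genus;
* `s17apfb_stmt`   : **`S17sxStmt 2 4 3`**;
* **`s17apfb_result`** : the frozen type of S17 (Mordell–Weil for `J₀(N)`, `N ≥ 5` prime).
The import closure contains no module of `Fermat/Agent/PT`, `Fermat/Agent/TW` beyond the 7 PT
modules of S17/LevOfUnr.lean.
-/
import Fermat.Agent.S17.PlNTop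
import Fermat.Agent.S17.HVisU
import Fermat.Agent.S17.PlNSec
import Fermat.Agent.S17.RatFn
import Fermat.Agent.S17.BpfGlue
import Fermat.Agent.S17.PlTFinalK
import Fermat.Agent.S17.AsmInt
import Fermat.Agent.S17.ModelTop
import Fermat.Agent.S17.PlMFinal
import Fermat.Agent.S17.WeakTwo
import Fermat.Agent.S17.WeakTwoD

set_option autoImplicit false
set_option linter.unusedVariables false
set_option linter.unusedSectionVars false
set_option linter.style.haveILetI false
set_option linter.style.longLine false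

noncomputable section

namespace Fermat.Agent.S17

open ModularCurve AlgebraicCurve Module TensorProduct IntermediateField
open Fermat.Agent.S24 Fermat.Agent.S26 Fermat.Agent.S27 Fermat.Agent.DEU

/-- **the three place statements on the model at the multiplier `2`**, one level of positive
genus. -/
theorem s17apfb_at (N : ℕ) [NeZero N] (hN2 : 2 ≤ N) (hg : 0 < genusFF Kb (FF N)) :
    S17sxStmtAt N 2 4 3 := by
  haveI := s17to_isCurveOver N
  haveI := s17to_essFiniteType N
  have hc := s17md_const N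
  haveI := hc.fin
  haveI := hc.sep
  obtain ⟨T, Fam, hF0, hF⟩ := s17bg_pmk hc.trans (s17mdG0 N) hc.deg hg (s17mdO N) hc
    (s17mdQ N) (s17md_hq N)
  have hM2 := s17pmf_plM N hc.trans (s17mdG0 N) hc.deg hg (s17mdO N) hc (s17mdQ N)
    (s17md_hq N) 2 (by norm_num) 2 Fam hF hF0
  have e : ((s27indTri 2 : ℕ) : ℝ) = 3 := by
    rw [show s27indTri 2 = 3 from rfl]
    norm_num
  rw [e] at hM2
  have hMT := s17ptk_plMT N hc.trans (s17mdG0 N) hc.deg hg (s17mdO N) hc (s17mdQ N)
    (s17md_hq N) 2 Fam hF hF0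
  obtain ⟨t, htΓ, ht, htneg, httr⟩ := s17rf_exists_ord N hN2
  have hnc : ∀ c : Kb, t ≠ algebraMap Kb (FF N) c := by
    intro c hcE
    apply httr
    rw [hcE]
    exact isAlgebraic_algebraMap c
  obtain ⟨M, hsec⟩ := s17psc_hsec hc hg (s17mdQ N) (s17md_hq N) t ht
  have hNn := s17pnt_plN N (s27stg_hld Kb (FF N) (s27mtL Kb (FF N)))
    (s27stg_hgen Kb (FF N) (s27mtL Kb (FF N))) hc.trans (s17mdG0 N) hc.deg
    (s17mdQ N (-1)) ((s17md_hq N) (-1) (by norm_num)).2
    (s17amY N hc.trans (s17mdG0 N) hc.deg (s17mdO N) (s17mdQ N) (s17md_hq N))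
    (fun P => s17ait_hint N hc.trans (s17mdG0 N) hc.deg hg (s17mdO N) hc (s17mdQ N)
      (s17md_hq N) P)
    2 (by norm_num) Fam hF t hnc htΓ ht M hsec
    (fun P hP => s17hvu_hunit_stage N hc hg (s17mdQ N) (s17md_hq N) P hP)
    (s17w2_open N) 4 (by norm_num) hMT.2
  exact s17mdt_stmtAt_tuple N 2 4 3 Fam hM2 hMT.2 hNn

/-- **LAYER H CLOSED at the multiplier `2`**: `S17sxStmt 2 4 3`. -/
theorem s17apfb_stmt : S17sxStmt 2 4 3 :=
  fun N _ hN hN5 hg => s17apfb_at N (by omega) hg

/-- **S17 without PT / TW**: Mordell–Weil for `J₀(N)`, `N ≥ 5` prime. -/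
theorem s17apfb_result (N : ℕ) [NeZero N] (hN : N.Prime) (hN5 : 5 ≤ N) :
    AddGroup.FG ↥(FixedPoints.addSubgroup ((AlgebraicClosure ℚ) ≃ₐ[ℚ] (AlgebraicClosure ℚ))
      (JZero N)) :=
  s17w2d_result_243 s17apfb_stmt N hN hN5

end Fermat.Agent.S17

end
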