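/-
S17 sprint, **FINAL ASSEMBLY (twin, helper47)**: the one open statement of layer H,
`S17sxStmt 3 4 6` (S17/StageTop.lean), CLOSED on the model constants of S17/Model.lean
(`x = jF N`, `O = cuspInf N`), from the landed leaves:

* (hF)   `s17bg_pmk`          (S17/BpfGlue.lean)   : a finite bpf family `Fam ⊂ L`, `N₀ = 2`;
* (M)+(T) `s17ptk_plMT`       (S17/PlTFinalK.lean) : `PlM 3 6 ∧ PlT 4` for `s17sxHt Fam`;
* (N)    `s17pnt_plN`         (S17/PlNTop.lean)    with
    (hint)  `s17ait_hint`        (S17/AsmInt.lean),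
    (L1)    `s17psc_hsec`        (S17/PlNSec.lean),
    (L2)    `s17hvu_hunit_stage` (S17/HVisU.lean),
    `t`     `s17rf_exists_ord`   (S17/RatFn.lean),
    (open)  `s17wk_open`         (S17/Weak.lean);
* packaging `s17mdt_stmtAt_tuple` (S17/ModelTop.lean), top `s17s9_result_346` (S17/StageTopNine.lean).
-/
import Fermat.Agent.S17.PlNTop
import Fermat.Agent.S17.HVisU
import Fermat.Agent.S17.PlNSec
import Fermat.Agent.S17.RatFn
import Fermat.Agent.S17.BpfGlue
import Fermat.Agent.S17.PlTFinalK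
import Fermat.Agent.S17.AsmInt
import Fermat.Agent.S17.ModelTop
import Fermat.Agent.S17.StageTopNine
import Fermat.Agent.S17.Weak

set_option autoImplicit false
set_option linter.unusedVariables false
set_option linter.unusedSectionVars false
set_option linter.style.haveILetI false
set_option linter.style.longLine false

noncomputable section

namespace Fermat.Agent.S17

open ModularCurve AlgebraicCurve Module TensorProduct IntermediateField
open Fermat.Agent.S24 Fermat.Agent.S26 Fermat.Agent.S27 Fermat.Agent.DEU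

/-- **the three place statements on the model**, one level of positive genus. -/
theorem s17atw_at (N : ℕ) [NeZero N] (hN2 : 2 ≤ N) (hg : 0 < genusFF Kb (FF N)) :
    S17sxStmtAt N 3 4 6 := by
  haveI := s17to_isCurveOver N
  haveI := s17to_essFiniteType N
  have hc := s17md_const N
  haveI := hc.fin
  haveI := hc.sep
  obtain ⟨T, Fam, hF0, hF⟩ := s17bg_pmk hc.trans (s17mdG0 N) hc.deg hg (s17mdO N) hc
    (s17mdQ N) (s17md_hq N)
  have hMT := s17ptk_plMT N hc.trans (s17mdG0 N) hc.deg hg (s17mdO N) hc (s17mdQ N)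
    (s17md_hq N) 2 Fam hF hF0
  obtain ⟨t, htΓ, ht, htneg, httr⟩ := s17rf_exists_ord N hN2
  have hnc : ∀ c : Kb, t ≠ algebraMap Kb (FF N) c := by
    intro c hcE
    apply httr
    rw [hcE]
    exact isAlgebraic_algebraMap c
  obtain ⟨M, hsec⟩ := s17psc_hsec hc hg (s17mdQ N) (s17md_hq N) t ht
  have hNn := s17pnt_plN N (s27stg_hld Kb (FF N) (s27mtL Kb (FF N)))
    (s27stg_hgen Kb (FF N) (s27mtL Kb (FF N))) hc.trans (s17mdG0 N) hc.deg
    (s17mdQ N (-1)) ((s17md_hq N) (-1) (by norm_num)).2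
    (s17amY N hc.trans (s17mdG0 N) hc.deg (s17mdO N) (s17mdQ N) (s17md_hq N))
    (fun P => s17ait_hint N hc.trans (s17mdG0 N) hc.deg hg (s17mdO N) hc (s17mdQ N)
      (s17md_hq N) P)
    2 (by norm_num) Fam hF t hnc htΓ ht M hsec
    (fun P hP => s17hvu_hunit_stage N hc hg (s17mdQ N) (s17md_hq N) P hP)
    (s17wk_open N) 4 (by norm_num) hMT.2
  exact s17mdt_stmtAt_tuple N 3 4 6 Fam hMT.1 hMT.2 hNn

/-- **LAYER H CLOSED**: `S17sxStmt 3 4 6`. -/
theorem s17atw_stmt : S17sxStmt 3 4 6 :=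
  fun N _ hN hN5 hg => s17atw_at N (by omega) hg

/-- **S17**: Mordell–Weil for `J₀(N)`, `N ≥ 5` prime. -/
theorem s17atw_result (N : ℕ) [NeZero N] (hN : N.Prime) (hN5 : 5 ≤ N) :
    AddGroup.FG ↥(FixedPoints.addSubgroup ((AlgebraicClosure ℚ) ≃ₐ[ℚ] (AlgebraicClosure ℚ))
      (JZero N)) :=
  s17s9_result_346 s17atw_stmt N hN hN5

end Fermat.Agent.S17

end
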