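/-
S17 sprint, layer H — **UNIT-CONST + DESCENT-POWER** (helper4), for the NORM descent of a
base-point-free family from the stage field `L` to the function field `𝔉` of `J` (PlM-BPF).

Pure algebra (Mathlib + S17/PlaceK.lean).

* `s17ucn_exists_zero`  : `K` algebraically closed, `x ∈ L` transcendental over `K` ⇒ there is a
                          valuation subring `W ⊇ K` of `L` with `x ∈ 𝔪_W`;
* `s17ucn_isAlgebraic`  : `x ∉ 𝔪_W` for EVERY valuation subring `W ⊇ K` ⇒ `x` algebraic over `K`;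
* **`s17ucn_const`**    : **UNIT-CONST**: `x ≠ 0` with `x⁻¹ ∈ W` for every `W ⊇ K` is a CONSTANT:
                          `x = algebraMap K L c`;
* `s17ucn_ratio_const`  : two functions `Φ, Ψ ≠ 0` with `Ψ / Φ ∈ W` for every `W ⊇ K`
                          (in particular if `Ψ / Φ` is a unit everywhere) differ by a constant;
* **`s17ucn_pow_mem`**  : **DESCENT-POWER**: `L / 𝔉` normal, `Φ ∈ L` algebraic over `𝔉`, `Φ ≠ 0`,
                          and every conjugate `σ Φ` (`σ ∈ Gal(L/𝔉)`) is `c_σ · Φ` with `c_σ ∈ 𝔉`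
                          ⇒ `∃ e ≥ 1, Φ ^ e ∈ 𝔉` (`e = deg minpoly`);
* `s17ucn_pow_mem_of_units` : the combination: `K ⊆ 𝔉 ⊆ L`, `K` algebraically closed, `L / 𝔉`
                          normal and algebraic, `σ Φ / Φ` has no pole at any `W ⊇ K` for every
                          `σ ∈ Gal(L/𝔉)` ⇒ `∃ e ≥ 1, Φ ^ e ∈ 𝔉`.
-/
import Fermat.Agent.S17.PlaceK

set_option autoImplicit false
set_option linter.unusedVariables false
set_option linter.unusedSectionVars false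
set_option linter.style.haveILetI false

noncomputable section

namespace Fermat.Agent.S17

open Polynomial

section UnitConst

variable {K L : Type*} [Field K] [IsAlgClosed K] [Field L] [Algebra K L]

/-- a transcendental element lies in the maximal ideal of some valuation subring `W ⊇ K`. -/
theorem s17ucn_exists_zero (x : L) (hx : Transcendental K x) :
    ∃ W : ValuationSubring L, (∀ c : K, algebraMap K L c ∈ W) ∧ x ∈ W.nonunits := by
  have hinj : Function.Injective (aeval (R := K) x) := transcendental_iff_injective.1 hx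
  let e : K[X] ≃ₐ[K] (aeval (R := K) x).range := AlgEquiv.ofInjective (aeval (R := K) x) hinj
  let φ : (aeval (R := K) x).range →ₐ[K] K :=
    (aeval (R := K) (0 : K)).comp (e.symm : (aeval (R := K) x).range →ₐ[K] K[X])
  obtain ⟨W, hKW, res, hAW, -, hres, hker⟩ := s17pk_exists_alg (aeval (R := K) x).range φ
  refine ⟨W, hKW, ?_⟩
  have hxmem : x ∈ (aeval (R := K) x).range := ⟨X, aeval_X x⟩
  have h1 : e X = ⟨x, hxmem⟩ := by
    apply Subtype.ext
    show aeval x (X : K[X]) = x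
    exact aeval_X x
  have h2 : φ ⟨x, hxmem⟩ = 0 := by
    show aeval (0 : K) (e.symm ⟨x, hxmem⟩) = 0
    rw [← h1, AlgEquiv.symm_apply_apply, aeval_X]
  have h3 := hres ⟨x, hxmem⟩
  rw [h2] at h3
  exact (hker _).1 h3

/-- an element that lies in no maximal ideal `𝔪_W`, `W ⊇ K`, is algebraic over `K`. -/
theorem s17ucn_isAlgebraic (x : L)
    (h : ∀ W : ValuationSubring L, (∀ c : K, algebraMap K L c ∈ W) → x ∉ W.nonunits) :
    IsAlgebraic K x := by
  by_contra hx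
  obtain ⟨W, hKW, hW⟩ := s17ucn_exists_zero x hx
  exact h W hKW hW

/-- an algebraic element over an algebraically closed field is a constant. -/
theorem s17ucn_const_of_isAlgebraic (x : L) (hx : IsAlgebraic K x) :
    ∃ c : K, x = algebraMap K L c := by
  have hint : IsIntegral K x := hx.isIntegral
  have hdeg : (minpoly K x).degree = 1 :=
    IsAlgClosed.degree_eq_one_of_irreducible K (minpoly.irreducible hint)
  obtain ⟨c, hc⟩ := minpoly.degree_eq_one_iff.1 hdeg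
  exact ⟨c, hc.symm⟩

/-- **UNIT-CONST**: `x ≠ 0` whose inverse lies in every valuation subring `W ⊇ K` is a
constant. -/
theorem s17ucn_const (x : L) (hx : x ≠ 0)
    (h : ∀ W : ValuationSubring L, (∀ c : K, algebraMap K L c ∈ W) → x⁻¹ ∈ W) :
    ∃ c : K, x = algebraMap K L c := by
  apply s17ucn_const_of_isAlgebraic
  apply s17ucn_isAlgebraic
  intro W hKW hW
  have h1 := h W hKW
  rw [ValuationSubring.mem_nonunits_iff] at hW
  have h2 : W.valuation x⁻¹ ≤ 1 := (W.valuation_le_one_iff _).2 h1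
  rw [map_inv₀] at h2
  have h3 : W.valuation x ≠ 0 := (Valuation.ne_zero_iff _).2 hx
  have h4 : W.valuation x * (W.valuation x)⁻¹ = 1 := mul_inv_cancel₀ h3
  have h5 : W.valuation x * (W.valuation x)⁻¹ < 1 := by
    calc W.valuation x * (W.valuation x)⁻¹ ≤ W.valuation x * 1 := by
          gcongr
      _ = W.valuation x := mul_one _
      _ < 1 := hW
  rw [h4] at h5
  exact lt_irrefl _ h5

/-- two nonzero functions whose ratio has no zero at any `W ⊇ K` differ by a constant. -/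
theorem s17ucn_ratio_const (Φ Ψ : L) (hΦ : Φ ≠ 0) (hΨ : Ψ ≠ 0)
    (h : ∀ W : ValuationSubring L, (∀ c : K, algebraMap K L c ∈ W) → Φ / Ψ ∈ W) :
    ∃ c : K, c ≠ 0 ∧ Ψ = algebraMap K L c * Φ := by
  obtain ⟨c, hc⟩ := s17ucn_const (Ψ / Φ) (div_ne_zero hΨ hΦ) (fun W hKW => by
    rw [inv_div]
    exact h W hKW)
  have hc0 : c ≠ 0 := by
    rintro rfl
    rw [map_zero] at hc
    exact div_ne_zero hΨ hΦ hc
  refine ⟨c, hc0, ?_⟩
  rw [← hc, div_mul_cancel₀ _ hΦ]

end UnitConst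

section Descent

variable {𝔉 L : Type*} [Field 𝔉] [Field L] [Algebra 𝔉 L]

/-- a multiset of multiples `c · Φ` (`c ∈ 𝔉`) has product `c' · Φ ^ card`. -/
theorem s17ucn_prod_multiples (Φ : L) (s : Multiset L)
    (h : ∀ r ∈ s, ∃ c : 𝔉, r = algebraMap 𝔉 L c * Φ) :
    ∃ c : 𝔉, s.prod = algebraMap 𝔉 L c * Φ ^ (Multiset.card s) := by
  induction s using Multiset.induction_on with
  | empty => exact ⟨1, by simp⟩
  | cons a s ih =>
    obtain ⟨c, hc⟩ := ih (fun r hr => h r (Multiset.mem_cons_of_mem hr))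
    obtain ⟨d, hd⟩ := h a (Multiset.mem_cons_self a s)
    refine ⟨d * c, ?_⟩
    rw [Multiset.prod_cons, Multiset.card_cons, hc, hd, map_mul, pow_succ]
    ring

/-- **DESCENT-POWER**: if every conjugate of `Φ ≠ 0` over `𝔉` is an `𝔉`-multiple of `Φ`, then a
power `Φ ^ e`, `e ≥ 1`, lies in `𝔉`. -/
theorem s17ucn_pow_mem [Normal 𝔉 L] (Φ : L) (hΦ : Φ ≠ 0)
    (h : ∀ σ : L ≃ₐ[𝔉] L, ∃ c : 𝔉, σ Φ = algebraMap 𝔉 L c * Φ) :
    ∃ e : ℕ, 0 < e ∧ ∃ a : 𝔉, Φ ^ e = algebraMap 𝔉 L a := by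
  classical
  have hint : IsIntegral 𝔉 Φ := (Normal.isIntegral (inferInstance : Normal 𝔉 L) Φ)
  have halg : IsAlgebraic 𝔉 Φ := hint.isAlgebraic
  set p : L[X] := (minpoly 𝔉 Φ).map (algebraMap 𝔉 L) with hp
  have hsplit : p.Splits := Normal.splits (inferInstance : Normal 𝔉 L) Φ
  have hmonic : p.Monic := (minpoly.monic hint).map _
  have hroots : ∀ r ∈ p.roots, ∃ c : 𝔉, r = algebraMap 𝔉 L c * Φ := by
    intro r hr
    have hr0 : aeval r (minpoly 𝔉 Φ) = 0 := by
      have := (mem_roots (hmonic.ne_zero)).1 hr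
      rwa [IsRoot.def, hp, eval_map_algebraMap] at this
    obtain ⟨σ, hσ⟩ := minpoly.exists_algEquiv_of_root' halg hr0
    obtain ⟨c, hc⟩ := h σ
    exact ⟨c, by rw [← hσ, hc]⟩
  obtain ⟨c, hc⟩ := s17ucn_prod_multiples Φ p.roots hroots
  have hcoeff := hsplit.coeff_zero_eq_prod_roots_of_monic hmonic
  have hcard : Multiset.card p.roots = p.natDegree := hsplit.natDegree_eq_card_roots.symm
  have hdeg : p.natDegree = (minpoly 𝔉 Φ).natDegree := natDegree_map _
  have hpos : 0 < (minpoly 𝔉 Φ).natDegree := minpoly.natDegree_pos hint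
  have hc0 : c ≠ 0 := by
    rintro rfl
    rw [map_zero, zero_mul] at hc
    have h0 : (0 : L) ∈ p.roots := by
      rw [Multiset.prod_eq_zero_iff] at hc
      exact hc
    obtain ⟨d, hd⟩ := hroots 0 h0
    have hr0 : aeval (0 : L) (minpoly 𝔉 Φ) = 0 := by
      have := (mem_roots (hmonic.ne_zero)).1 h0
      rwa [IsRoot.def, hp, eval_map_algebraMap] at this
    obtain ⟨σ, hσ⟩ := minpoly.exists_algEquiv_of_root' halg hr0
    exact hΦ ((map_eq_zero σ).1 hσ)
  refine ⟨(minpoly 𝔉 Φ).natDegree, hpos, ?_⟩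
  have h1 : p.coeff 0 = algebraMap 𝔉 L ((minpoly 𝔉 Φ).coeff 0) := by
    rw [hp, coeff_map]
  rw [h1, hc, hcard, hdeg] at hcoeff
  -- `algebraMap a₀ = (-1)^e * (algebraMap c * Φ^e)`
  refine ⟨(-1) ^ (minpoly 𝔉 Φ).natDegree * (minpoly 𝔉 Φ).coeff 0 * c⁻¹, ?_⟩
  have hcL : algebraMap 𝔉 L c ≠ 0 := by
    rwa [Ne, map_eq_zero]
  rw [map_mul, map_mul, map_pow, map_neg, map_one, hcoeff, map_inv₀]
  have hsq : ((-1 : L) ^ (minpoly 𝔉 Φ).natDegree) * ((-1 : L) ^ (minpoly 𝔉 Φ).natDegree) = 1 := by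
    rw [← mul_pow]
    simp
  have hre : (-1 : L) ^ (minpoly 𝔉 Φ).natDegree *
      ((-1 : L) ^ (minpoly 𝔉 Φ).natDegree * (algebraMap 𝔉 L c * Φ ^ (minpoly 𝔉 Φ).natDegree)) *
      (algebraMap 𝔉 L c)⁻¹ =
      ((-1 : L) ^ (minpoly 𝔉 Φ).natDegree * (-1 : L) ^ (minpoly 𝔉 Φ).natDegree) *
        (algebraMap 𝔉 L c * (algebraMap 𝔉 L c)⁻¹) * Φ ^ (minpoly 𝔉 Φ).natDegree := by
    ring
  rw [hre, hsq, mul_inv_cancel₀ hcL, one_mul, one_mul]

end Descent

section Combined

variable {K 𝔉 L : Type*} [Field K] [IsAlgClosed K] [Field 𝔉] [Field L] [Algebra K 𝔉]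
  [Algebra 𝔉 L] [Algebra K L] [IsScalarTower K 𝔉 L]

/-- **NORM descent, power form**: if for every `σ ∈ Gal(L/𝔉)` the ratio `Φ / σ Φ` lies in every
valuation subring `W ⊇ K` of `L`, then a power `Φ ^ e`, `e ≥ 1`, lies in `𝔉`. -/
theorem s17ucn_pow_mem_of_units [Normal 𝔉 L] (Φ : L) (hΦ : Φ ≠ 0)
    (h : ∀ (σ : L ≃ₐ[𝔉] L) (W : ValuationSubring L), (∀ c : K, algebraMap K L c ∈ W) →
      Φ / σ Φ ∈ W) :
    ∃ e : ℕ, 0 < e ∧ ∃ a : 𝔉, Φ ^ e = algebraMap 𝔉 L a := by
  refine s17ucn_pow_mem Φ hΦ fun σ => ?_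
  have hσΦ : σ Φ ≠ 0 := by
    rwa [Ne, map_eq_zero]
  obtain ⟨c, -, hc⟩ := s17ucn_ratio_const (K := K) Φ (σ Φ) hΦ hσΦ (h σ)
  exact ⟨algebraMap K 𝔉 c, by rw [hc, ← IsScalarTower.algebraMap_apply]⟩

end Combined

end Fermat.Agent.S17

end
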