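/-
S17 sprint, layer H — **BPF-DESCENT, semi-invariant form** (helper4): descent of a FINITE
base-point-free family from the stage field `L` to the function field `𝔉` of `J`.

`K ⊆ 𝔉 ⊆ L`, `K` algebraically closed, `L / 𝔉` normal; `β V` the local equations of a divisor at
the valuation subrings `V ⊇ K` of `𝔉`, `b_L W := ι (β (W ∩ 𝔉))` the lifted local equations
(`= s17pmtB β W` of S17/PlMTop.lean `= s17pmlB β W` of S17/PlMLift.lean, by `rfl`).

* `s17bd_pow`          : a finite family `g D ≠ 0` of `L` which is SEMI-INVARIANT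
                         (`g D / σ (g D) ∈ W` for all `σ ∈ Gal(L/𝔉)`, `W ⊇ K`; i.e. `σ (g D) = c · g D`,
                         `c ∈ K`) has a COMMON exponent `E ≥ 1` with `g D ^ E ∈ 𝔉` for all `D`
                         (UNIT-CONST + DESCENT-POWER, S17/UnitConst.lean);
* `s17bd_mem`, `s17bd_unit` : membership / units of `V = W ∩ 𝔉` are tested in `W`;
* **`s17bd_descent`**  : if moreover `g` is base-point-free in `L(N·D)` at the `L`-level
                         (`S17muBpf K b_L N g`), then `f D := g D ^ E ∈ 𝔉` is base-point-free in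
                         `L(N·E·D)` at the `𝔉`-level: `S17muBpf K β (N * E) f`.
  No uniformity problem: the family is finite, `E = ∏ e_D`.
-/
import Fermat.Agent.S17.UnitConst
import Fermat.Agent.S17.Mult
import Fermat.Agent.S17.PlaceExt

set_option autoImplicit false
set_option linter.unusedVariables false
set_option linter.unusedSectionVars false
set_option linter.style.haveILetI false

noncomputable section

namespace Fermat.Agent.S17

open Fermat.Agent.S27

section Descent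

variable {K 𝔉 L : Type*} [Field K] [IsAlgClosed K] [Field 𝔉] [Field L] [Algebra K 𝔉]
  [Algebra 𝔉 L] [Algebra K L] [IsScalarTower K 𝔉 L]

/-- the lifted local equations `b_L W = ι (β (W ∩ 𝔉))`. -/
def s17bdB (β : ValuationSubring 𝔉 → 𝔉) (W : ValuationSubring L) : L :=
  algebraMap 𝔉 L (β (W.comap (algebraMap 𝔉 L)))

/-- **common exponent**: a finite semi-invariant family has a common power in `𝔉`. -/
theorem s17bd_pow [Normal 𝔉 L] {T : Type*} [Fintype T] (g : T → L) (hg0 : ∀ D, g D ≠ 0)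
    (hgal : ∀ (D : T) (σ : L ≃ₐ[𝔉] L) (W : ValuationSubring L),
      (∀ c : K, algebraMap K L c ∈ W) → g D / σ (g D) ∈ W) :
    ∃ (E : ℕ) (f : T → 𝔉), 0 < E ∧ ∀ D, algebraMap 𝔉 L (f D) = g D ^ E := by
  classical
  choose e he a ha using fun D =>
    s17ucn_pow_mem_of_units (K := K) (𝔉 := 𝔉) (g D) (hg0 D) (hgal D)
  refine ⟨∏ D, e D, fun D => a D ^ ((∏ D', e D') / e D),
    Finset.prod_pos fun D _ => he D, fun D => ?_⟩
  have hdvd : e D ∣ ∏ D', e D' := Finset.dvd_prod_of_mem e (Finset.mem_univ D)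
  rw [map_pow, ← ha D, ← pow_mul, Nat.mul_div_cancel' hdvd]

/-- membership in `V = W ∩ 𝔉` is tested in `W`. -/
theorem s17bd_mem {W : ValuationSubring L} {V : ValuationSubring 𝔉}
    (hWV : W.comap (algebraMap 𝔉 L) = V) (x : 𝔉) : x ∈ V ↔ algebraMap 𝔉 L x ∈ W := by
  rw [← hWV, ValuationSubring.mem_comap]

/-- units of `V = W ∩ 𝔉` are tested in `W`. -/
theorem s17bd_unit {W : ValuationSubring L} {V : ValuationSubring 𝔉}
    (hWV : W.comap (algebraMap 𝔉 L) = V) (x : 𝔉) :
    S27IsUnitIn V x ↔ S27IsUnitIn W (algebraMap 𝔉 L x) := by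
  unfold S27IsUnitIn
  constructor
  · rintro ⟨h0, h1, h2⟩
    refine ⟨by rwa [Ne, map_eq_zero], (s17bd_mem hWV x).1 h1, ?_⟩
    rw [← map_inv₀]
    exact (s17bd_mem hWV _).1 h2
  · rintro ⟨h0, h1, h2⟩
    refine ⟨fun h => h0 (by rw [h, map_zero]), (s17bd_mem hWV x).2 h1, ?_⟩
    refine (s17bd_mem hWV _).2 ?_
    rw [map_inv₀]
    exact h2

/-- a power of a unit is a unit. -/
theorem s17bd_unit_pow {W : ValuationSubring L} {x : L} (h : S27IsUnitIn W x) (E : ℕ) :
    S27IsUnitIn W (x ^ E) := by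
  refine ⟨pow_ne_zero E h.1, pow_mem h.2.1 E, ?_⟩
  rw [← inv_pow]
  exact pow_mem h.2.2 E

/-- **BPF-DESCENT** (semi-invariant form). -/
theorem s17bd_descent [Normal 𝔉 L] {T : Type*} [Fintype T] (β : ValuationSubring 𝔉 → 𝔉)
    (N : ℕ) (g : T → L) (hg0 : ∀ D, g D ≠ 0)
    (hbpf : S17muBpf K (s17bdB (L := L) β) N g)
    (hgal : ∀ (D : T) (σ : L ≃ₐ[𝔉] L) (W : ValuationSubring L),
      (∀ c : K, algebraMap K L c ∈ W) → g D / σ (g D) ∈ W) :
    ∃ (E : ℕ) (f : T → 𝔉), 0 < E ∧ (∀ D, algebraMap 𝔉 L (f D) = g D ^ E) ∧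
      S17muBpf K β (N * E) f := by
  obtain ⟨E, f, hE, hf⟩ := s17bd_pow (K := K) g hg0 hgal
  refine ⟨E, f, hE, hf, fun V hV => ?_⟩
  obtain ⟨W, hWV⟩ := s17px_chevalley (algebraMap 𝔉 L) V
  have hKW : S27IsKValU K W := by
    intro c
    rw [IsScalarTower.algebraMap_apply K 𝔉 L, ← s17bd_mem hWV]
    exact hV c
  obtain ⟨h1, D₀, h2⟩ := hbpf W hKW
  have hb : s17bdB (L := L) β W = algebraMap 𝔉 L (β V) := by
    unfold s17bdB
    rw [hWV]
  have key : ∀ D, algebraMap 𝔉 L (f D * β V ^ (N * E)) = (g D * s17bdB (L := L) β W ^ N) ^ E := by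
    intro D
    rw [map_mul, map_pow, hf D, hb, mul_pow, ← pow_mul]
  refine ⟨fun D => ?_, D₀, ?_⟩
  · rw [s17bd_mem hWV, key D]
    exact pow_mem (h1 D) E
  · rw [s17bd_unit hWV, key D₀]
    exact s17bd_unit_pow h2 E

end Descent

end Fermat.Agent.S17

end
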