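/-
S17 sprint, layer H, leaf (P) of PlM-BPF / N2 (helper90; double of helper33's PoolTwo):
**the TWO-SIDED FINITE POOL**, curve level, pure Riemann–Roch counting.

`K` algebraically closed, `F / K` a function field of one variable, `g = genusFF K F`.

* `s17cpm_exists` : there are `m`, `d` such that for every place `Q₀`, every `n` divisors `Y i`
    of degree `g − 1` and every set `S` of more than `n · d` places there are
    `R 1, …, R m ∈ S` with, for `D := m · Q₀ − Σ_j R j` (degree `0`),
        `L(Y i + D) = 0`  and  `L(Y i − D) = 0`   for ALL `i`;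
* `s17cpm_pool`   : **(P)** for `Ao` of degree `g − 1` there is a FINITE set `T` of divisors of
    degree `0` with `L(Ao − D) = L(Ao + D) = 0` for all `D ∈ T`, such that every class `c` has
    `D ∈ T` with `c + [D]` and `c − [D]` off `Θ_{Ao}` (`S17mvcOff`, S17/MoveCls.lean).
-/
import Fermat.Agent.S17.Cover
import Fermat.Agent.S17.MoveCls

set_option autoImplicit false
set_option linter.unusedVariables false
set_option linter.unusedSectionVars false
set_option linter.style.haveILetI false

noncomputable section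

namespace Fermat.Agent.S17

open AlgebraicCurve Module IntermediateField Fermat.Agent.S24 Fermat.Agent.ES.R
  Fermat.Agent.S26 Fermat.Agent.S27

variable {K F : Type*} [Field K] [Field F] [Algebra K F]

/-- **growth points are few**: if `ℓ(D) > deg D + 1 − γ`, a set `T` of places `P` with
`ℓ(D + P) ≠ ℓ(D)` has `deg D + #T < c`. -/
theorem s17cpm_growth_card [HasPrincipalDivisors K F]
    (hfinR : ∀ v : Place K F, Module.Finite K v.ResidueField)
    (hdeg : ∀ v : Place K F, v.deg = 1) {γ c : ℤ}
    (hc : ∀ A : Divisor K F, c ≤ Divisor.degree A →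
      (finrank K ↥(riemannRochSpace A) : ℤ) = Divisor.degree A + 1 - γ)
    (D : Divisor K F) (hD : Divisor.degree D + 1 - γ < (finrank K ↥(riemannRochSpace D) : ℤ))
    (T : Finset (Place K F))
    (hT : ∀ P ∈ T, finrank K ↥(riemannRochSpace (D + Finsupp.single P 1)) ≠
      finrank K ↥(riemannRochSpace D)) :
    Divisor.degree D + T.card < c := by
  by_contra hcon
  rw [not_lt] at hcon
  have h1 := s26errf_growth hfinR D T hT
  have hdegT : Divisor.degree (D + s26errfSum T) = Divisor.degree D + T.card := by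
    rw [map_add, s26errf_degree_sum hdeg T]
  have h2 := hc (D + s26errfSum T) (by rw [hdegT]; exact hcon)
  rw [hdegT] at h2
  have h3 : ((finrank K ↥(riemannRochSpace D) + T.card : ℕ) : ℤ) ≤
      (finrank K ↥(riemannRochSpace (D + s26errfSum T)) : ℤ) := by exact_mod_cast h1
  push_cast at h3
  linarith

/-- the bad set for the DROP of `U`. -/
theorem s17cpm_badU [HasPrincipalDivisors K F] (hdeg : ∀ v : Place K F, v.deg = 1)
    (hfin : ∀ D : Divisor K F, Module.Finite K ↥(riemannRochSpace D))
    (U : Divisor K F) (d : ℕ) (hd : Divisor.degree U ≤ d) (k : ℕ)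
    (hk : finrank K ↥(riemannRochSpace U) ≤ k + 1) (S : Finset (Place K F)) :
    ∃ B : Finset (Place K F), B.card ≤ d ∧
      ∀ R ∈ S, R ∉ B → finrank K ↥(riemannRochSpace (U - Finsupp.single R 1)) ≤ k := by
  classical
  by_cases h0 : riemannRochSpace U = ⊥
  · refine ⟨∅, by simp, fun R _ _ => ?_⟩
    have hle := s17cov_sub_single_le U R
    rw [h0, le_bot_iff] at hle
    rw [hle, finrank_bot]
    exact Nat.zero_le k
  · set Bf : Finset (Place K F) :=
      S.filter (fun R => riemannRochSpace (U - Finsupp.single R 1) = riemannRochSpace U)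
      with hBf
    refine ⟨Bf, ?_, fun R hRS hR => ?_⟩
    · have h2 := s17cov_basepoints_card hdeg U h0 Bf (fun R hR => by
        rw [hBf, Finset.mem_filter] at hR
        exact hR.2)
      have : (Bf.card : ℤ) ≤ (d : ℤ) := h2.trans hd
      exact_mod_cast this
    · haveI := hfin U
      haveI := hfin (U - Finsupp.single R 1)
      have hne : riemannRochSpace (U - Finsupp.single R 1) ≠ riemannRochSpace U := fun heq =>
        hR (by rw [hBf, Finset.mem_filter]; exact ⟨hRS, heq⟩)
      have hlt : riemannRochSpace (U - Finsupp.single R 1) < riemannRochSpace U :=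
        lt_of_le_of_ne (s17cov_sub_single_le U R) hne
      have := Submodule.finrank_lt_finrank_of_lt hlt
      omega

/-- the bad set for KEEPING `L(V) = 0`. -/
theorem s17cpm_badV [HasPrincipalDivisors K F]
    (hfinR : ∀ v : Place K F, Module.Finite K v.ResidueField)
    (hdeg : ∀ v : Place K F, v.deg = 1)
    (hfin : ∀ D : Divisor K F, Module.Finite K ↥(riemannRochSpace D)) {γ c : ℤ}
    (hc : ∀ A : Divisor K F, c ≤ Divisor.degree A →
      (finrank K ↥(riemannRochSpace A) : ℤ) = Divisor.degree A + 1 - γ)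
    (V : Divisor K F) (hV : riemannRochSpace V = ⊥) (hVdeg : Divisor.degree V + 1 - γ < 0)
    (d' : ℕ) (hVlow : c - Divisor.degree V ≤ d') (S : Finset (Place K F)) :
    ∃ G : Finset (Place K F), G.card ≤ d' ∧
      ∀ R ∈ S, R ∉ G → riemannRochSpace (V + Finsupp.single R 1) = ⊥ := by
  classical
  have h0 : finrank K ↥(riemannRochSpace V) = 0 := by rw [hV, finrank_bot]
  set Gf : Finset (Place K F) :=
    S.filter (fun R => finrank K ↥(riemannRochSpace (V + Finsupp.single R 1)) ≠
      finrank K ↥(riemannRochSpace V)) with hGf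
  refine ⟨Gf, ?_, fun R hRS hR => ?_⟩
  · have h1 := s17cpm_growth_card hfinR hdeg hc V (by rw [h0]; exact_mod_cast hVdeg) Gf
      (fun P hP => by
        rw [hGf, Finset.mem_filter] at hP
        exact hP.2)
    have : (Gf.card : ℤ) ≤ (d' : ℤ) := by linarith
    exact_mod_cast this
  · haveI := hfin (V + Finsupp.single R 1)
    have heq : finrank K ↥(riemannRochSpace (V + Finsupp.single R 1)) =
        finrank K ↥(riemannRochSpace V) := by
      by_contra hne
      exact hR (by rw [hGf, Finset.mem_filter]; exact ⟨hRS, hne⟩)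
    rw [h0] at heq
    exact Submodule.finrank_eq_zero.1 heq

/-- **one step**: some `R ∈ S` lowers the dimensions of the `U i` and keeps `L(V i) = 0`. -/
theorem s17cpm_step [HasPrincipalDivisors K F]
    (hfinR : ∀ v : Place K F, Module.Finite K v.ResidueField)
    (hdeg : ∀ v : Place K F, v.deg = 1)
    (hfin : ∀ D : Divisor K F, Module.Finite K ↥(riemannRochSpace D)) {γ c : ℤ}
    (hc : ∀ A : Divisor K F, c ≤ Divisor.degree A →
      (finrank K ↥(riemannRochSpace A) : ℤ) = Divisor.degree A + 1 - γ)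
    {n n' : ℕ} (U : Fin n → Divisor K F) (V : Fin n' → Divisor K F) (d d' : ℕ)
    (hd : ∀ i, Divisor.degree (U i) ≤ d) (k : ℕ)
    (hk : ∀ i, finrank K ↥(riemannRochSpace (U i)) ≤ k + 1)
    (hV : ∀ i, riemannRochSpace (V i) = ⊥) (hVdeg : ∀ i, Divisor.degree (V i) + 1 - γ < 0)
    (hVlow : ∀ i, c - Divisor.degree (V i) ≤ d')
    (S : Finset (Place K F)) (hS : n * d + n' * d' < S.card) :
    ∃ R ∈ S, (∀ i, finrank K ↥(riemannRochSpace (U i - Finsupp.single R 1)) ≤ k) ∧
      ∀ i, riemannRochSpace (V i + Finsupp.single R 1) = ⊥ := by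
  classical
  choose B hBcard hB using fun i => s17cpm_badU hdeg hfin (U i) d (hd i) k (hk i) S
  choose G hGcard hG using fun i =>
    s17cpm_badV hfinR hdeg hfin hc (V i) (hV i) (hVdeg i) d' (hVlow i) S
  have hU : (Finset.univ.biUnion B ∪ Finset.univ.biUnion G).card ≤ n * d + n' * d' := by
    refine (Finset.card_union_le _ _).trans (add_le_add ?_ ?_)
    · refine (Finset.card_biUnion_le).trans ?_
      calc ∑ i : Fin n, (B i).card ≤ ∑ _i : Fin n, d := Finset.sum_le_sum fun i _ => hBcard i
        _ = n * d := by simp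
    · refine (Finset.card_biUnion_le).trans ?_
      calc ∑ i : Fin n', (G i).card ≤ ∑ _i : Fin n', d' := Finset.sum_le_sum fun i _ => hGcard i
        _ = n' * d' := by simp
  obtain ⟨R, hRS, hRU⟩ : ∃ R ∈ S, R ∉ Finset.univ.biUnion B ∪ Finset.univ.biUnion G := by
    by_contra hcon
    push Not at hcon
    have : S ⊆ Finset.univ.biUnion B ∪ Finset.univ.biUnion G := fun R hR => hcon R hR
    have := Finset.card_le_card this
    omega
  rw [Finset.mem_union, not_or, Finset.mem_biUnion, Finset.mem_biUnion] at hRU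
  refine ⟨R, hRS, fun i => hB i R hRS (fun h => hRU.1 ⟨i, Finset.mem_univ i, h⟩),
    fun i => hG i R hRS (fun h => hRU.2 ⟨i, Finset.mem_univ i, h⟩)⟩

/-- **iteration.** -/
theorem s17cpm_iter [HasPrincipalDivisors K F]
    (hfinR : ∀ v : Place K F, Module.Finite K v.ResidueField)
    (hdeg : ∀ v : Place K F, v.deg = 1)
    (hfin : ∀ D : Divisor K F, Module.Finite K ↥(riemannRochSpace D)) {γ c : ℤ}
    (hc : ∀ A : Divisor K F, c ≤ Divisor.degree A →
      (finrank K ↥(riemannRochSpace A) : ℤ) = Divisor.degree A + 1 - γ)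
    {n n' : ℕ} (d d' : ℕ) (S : Finset (Place K F)) (hS : n * d + n' * d' < S.card) :
    ∀ (k : ℕ) (U : Fin n → Divisor K F) (V : Fin n' → Divisor K F),
      (∀ i, Divisor.degree (U i) ≤ d) → (∀ i, finrank K ↥(riemannRochSpace (U i)) ≤ k) →
      (∀ i, riemannRochSpace (V i) = ⊥) → (∀ i, Divisor.degree (V i) + k ≤ γ - 1) →
      (∀ i, c - Divisor.degree (V i) ≤ d') →
      ∃ R : Fin k → Place K F, (∀ j, R j ∈ S) ∧
        (∀ i, riemannRochSpace (U i - ∑ j, Finsupp.single (R j) (1 : ℤ)) = ⊥) ∧
        ∀ i, riemannRochSpace (V i + ∑ j, Finsupp.single (R j) (1 : ℤ)) = ⊥ := by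
  intro k
  induction k with
  | zero =>
    intro U V hd hk hV hVdeg hVlow
    refine ⟨Fin.elim0, fun j => j.elim0, fun i => ?_, fun i => ?_⟩
    · haveI := hfin (U i)
      have h0 : finrank K ↥(riemannRochSpace (U i)) = 0 := Nat.le_zero.1 (hk i)
      rw [Finset.univ_eq_empty, Finset.sum_empty, sub_zero]
      exact Submodule.finrank_eq_zero.1 h0
    · rw [Finset.univ_eq_empty, Finset.sum_empty, add_zero]
      exact hV i
  | succ k ih =>
    intro U V hd hk hV hVdeg hVlow
    obtain ⟨R₀, hR₀, hstepU, hstepV⟩ := s17cpm_step hfinR hdeg hfin hc U V d d' hd k hk hV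
      (fun i => by have := hVdeg i; push_cast at this; linarith) hVlow S hS
    have hd' : ∀ i, Divisor.degree (U i - Finsupp.single R₀ 1) ≤ d := by
      intro i
      rw [map_sub, Divisor.degree_single, hdeg R₀]
      have := hd i
      push_cast
      linarith
    have hVd : ∀ i, Divisor.degree (V i + Finsupp.single R₀ 1) = Divisor.degree (V i) + 1 := by
      intro i
      rw [map_add, Divisor.degree_single, hdeg R₀]
      push_cast
      ring
    obtain ⟨R, hR, hbotU, hbotV⟩ := ih (fun i => U i - Finsupp.single R₀ 1)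
      (fun i => V i + Finsupp.single R₀ 1) hd' hstepU hstepV
      (fun i => by rw [hVd i]; have := hVdeg i; push_cast at this; linarith)
      (fun i => by rw [hVd i]; have := hVlow i; linarith)
    refine ⟨Fin.cons R₀ R, fun j => ?_, fun i => ?_, fun i => ?_⟩
    · refine Fin.cases ?_ (fun j => ?_) j
      · simpa using hR₀
      · simpa using hR j
    · have h1 : U i - ∑ j, Finsupp.single ((Fin.cons R₀ R : Fin (k + 1) → Place K F) j) (1 : ℤ)
          = U i - Finsupp.single R₀ 1 - ∑ j, Finsupp.single (R j) (1 : ℤ) := by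
        rw [Fin.sum_univ_succ]
        simp only [Fin.cons_zero, Fin.cons_succ]
        abel
      rw [h1]
      exact hbotU i
    · have h1 : V i + ∑ j, Finsupp.single ((Fin.cons R₀ R : Fin (k + 1) → Place K F) j) (1 : ℤ)
          = V i + Finsupp.single R₀ 1 + ∑ j, Finsupp.single (R j) (1 : ℤ) := by
        rw [Fin.sum_univ_succ]
        simp only [Fin.cons_zero, Fin.cons_succ]
        abel
      rw [h1]
      exact hbotV i

section Main

variable [IsAlgClosed K] (x : F) (hx : Transcendental K x) [FiniteDimensional K⟮x⟯ F]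

/-- the divisor `m · Q₀ − Σ_j R j` of the pool. -/
def s17cpmDiv (Q₀ : Place K F) {m : ℕ} (R : Fin m → Place K F) : Divisor K F :=
  Finsupp.single Q₀ (m : ℤ) - ∑ j, Finsupp.single (R j) (1 : ℤ)

theorem s17cpmDiv_degree (hdeg : ∀ v : Place K F, v.deg = 1) (Q₀ : Place K F) {m : ℕ}
    (R : Fin m → Place K F) : Divisor.degree (s17cpmDiv Q₀ R) = 0 := by
  unfold s17cpmDiv
  rw [map_sub, map_sum, Divisor.degree_single, hdeg Q₀]
  simp [Divisor.degree_single, hdeg]

include hx in
/-- **the two-sided cover, divisor form.** -/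
theorem s17cpm_exists :
    ∃ m d : ℕ, ∀ (Q₀ : Place K F) (n : ℕ) (Y : Fin n → Divisor K F),
      (∀ i, Divisor.degree (Y i) = (genusFF K F : ℤ) - 1) →
      ∀ S : Finset (Place K F), n * d < S.card →
      ∃ R : Fin m → Place K F, (∀ j, R j ∈ S) ∧
        ∀ i, riemannRochSpace (Y i + s17cpmDiv Q₀ R) = ⊥ ∧
          riemannRochSpace (Y i - s17cpmDiv Q₀ R) = ⊥ := by
  haveI := s26err_hasPrincipalDivisors (K := K) x hx
  have hdeg : ∀ v : Place K F, v.deg = 1 := fun v => s26errg_deg_eq_one x hx v
  have hfinR : ∀ v : Place K F, Module.Finite K v.ResidueField :=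
    fun v => s26err_residue_finite x hx v
  have hfin : ∀ D : Divisor K F, Module.Finite K ↥(riemannRochSpace D) :=
    fun D => s26err_rr_finite' x hx D
  obtain ⟨c, hc⟩ := s27rr_large x hx
  set g : ℕ := genusFF K F with hg
  set m : ℕ := max (c - ((g : ℤ) - 1)).toNat g with hm
  set d' : ℕ := (c - ((g : ℤ) - 1 - m)).toNat with hd'
  refine ⟨m, (g + m) + d', fun Q₀ n Y hY S hS => ?_⟩
  have hmc : c ≤ (g : ℤ) - 1 + m := by
    have h1 := Int.self_le_toNat (c - ((g : ℤ) - 1))
    have h2 : ((c - ((g : ℤ) - 1)).toNat : ℤ) ≤ (m : ℤ) := by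
      exact_mod_cast le_max_left _ _
    linarith
  have hmg : (g : ℤ) ≤ m := by exact_mod_cast le_max_right _ _
  have hUdeg : ∀ i, Divisor.degree (Y i + Finsupp.single Q₀ (m : ℤ)) = (g : ℤ) - 1 + m := by
    intro i
    rw [map_add, hY i, Divisor.degree_single, hdeg Q₀]
    push_cast
    ring
  have hVdeg : ∀ i, Divisor.degree (Y i - Finsupp.single Q₀ (m : ℤ)) = (g : ℤ) - 1 - m := by
    intro i
    rw [map_sub, hY i, Divisor.degree_single, hdeg Q₀]
    push_cast
    ring
  have hS' : n * (g + m) + n * d' < S.card := by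
    have : n * (g + m) + n * d' = n * ((g + m) + d') := by ring
    rw [this]
    exact hS
  obtain ⟨R, hR, hU, hV⟩ := s17cpm_iter hfinR hdeg hfin hc (g + m) d' S hS' m
    (fun i => Y i + Finsupp.single Q₀ (m : ℤ)) (fun i => Y i - Finsupp.single Q₀ (m : ℤ))
    (fun i => by rw [hUdeg i]; push_cast; linarith)
    (fun i => by
      have h1 := hc (Y i + Finsupp.single Q₀ (m : ℤ)) (by rw [hUdeg i]; exact hmc)
      rw [hUdeg i] at h1
      have : (finrank K ↥(riemannRochSpace (Y i + Finsupp.single Q₀ (m : ℤ))) : ℤ) = m := by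
        rw [h1]; ring
      have h2 : finrank K ↥(riemannRochSpace (Y i + Finsupp.single Q₀ (m : ℤ))) = m := by
        exact_mod_cast this
      exact h2.le)
    (fun i => rr_eq_bot_of_degree_neg (by rw [hVdeg i]; linarith))
    (fun i => by rw [hVdeg i]; linarith)
    (fun i => by
      rw [hVdeg i, hd']
      exact Int.self_le_toNat _)
  refine ⟨R, hR, fun i => ⟨?_, ?_⟩⟩
  · have e : Y i + s17cpmDiv Q₀ R
        = Y i + Finsupp.single Q₀ (m : ℤ) - ∑ j, Finsupp.single (R j) (1 : ℤ) := by
      unfold s17cpmDiv; abel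
    rw [e]
    exact hU i
  · have e : Y i - s17cpmDiv Q₀ R
        = Y i - Finsupp.single Q₀ (m : ℤ) + ∑ j, Finsupp.single (R j) (1 : ℤ) := by
      unfold s17cpmDiv; abel
    rw [e]
    exact hV i

include hx in
/-- **(P): the two-sided finite pool**, class form. -/
theorem s17cpm_pool (Ao : Divisor K F) (hAo : Divisor.degree Ao = (genusFF K F : ℤ) - 1) :
    ∃ T : Finset (Divisor.degZero (K := K) (F := F)),
      (∀ D ∈ T, riemannRochSpace (Ao - (D : Divisor K F)) = ⊥ ∧
        riemannRochSpace (Ao + (D : Divisor K F)) = ⊥) ∧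
      ∀ c : Pic0 K F, ∃ D ∈ T, S17mvcOff Ao (c + Pic0.mk D) ∧ S17mvcOff Ao (c - Pic0.mk D) := by
  classical
  have hdeg : ∀ v : Place K F, v.deg = 1 := fun v => s26errg_deg_eq_one x hx v
  haveI : Infinite (Place K F) := s26errg_infinite_place x hx
  obtain ⟨m, d, hmd⟩ := s17cpm_exists x hx
  obtain ⟨Q₀⟩ : Nonempty (Place K F) := inferInstance
  obtain ⟨S, hScard⟩ := Infinite.exists_subset_card_eq (Place K F) (2 * d + 1)
  -- all the divisors of the pool
  set all : Finset (Divisor.degZero (K := K) (F := F)) :=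
    (Finset.univ : Finset (Fin m → ↥S)).image
      (fun R => ⟨s17cpmDiv Q₀ (fun j => ((R j : ↥S) : Place K F)),
        s17cpmDiv_degree hdeg Q₀ _⟩) with hall
  refine ⟨all.filter (fun D => riemannRochSpace (Ao - (D : Divisor K F)) = ⊥ ∧
      riemannRochSpace (Ao + (D : Divisor K F)) = ⊥), fun D hD => (Finset.mem_filter.1 hD).2,
    fun c => ?_⟩
  obtain ⟨X, rfl⟩ := Pic0.mk_surjective c
  have hXdeg : Divisor.degree (X : Divisor K F) = 0 := X.2
  obtain ⟨R, hR, h⟩ := hmd Q₀ 2 ![Ao - (X : Divisor K F), Ao]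
    (fun i => by
      fin_cases i
      · show Divisor.degree (Ao - (X : Divisor K F)) = _
        rw [map_sub, hXdeg, hAo, sub_zero]
      · exact hAo) S (by rw [hScard]; omega)
  have h0 := h 0
  have h1 := h 1
  simp only [Matrix.cons_val_zero, Matrix.cons_val_one] at h0 h1
  set D : Divisor.degZero (K := K) (F := F) :=
    ⟨s17cpmDiv Q₀ R, s17cpmDiv_degree hdeg Q₀ R⟩ with hD
  have hDall : D ∈ all := by
    rw [hall, Finset.mem_image]
    refine ⟨fun j => ⟨R j, hR j⟩, Finset.mem_univ _, rfl⟩
  refine ⟨D, Finset.mem_filter.2 ⟨hDall, h1.2, h1.1⟩, ?_, ?_⟩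
  · rw [← Pic0.mk_add]
    refine s17mvc_off_of_rep Ao _ ?_
    have e : Ao - ((X + D : Divisor.degZero (K := K) (F := F)) : Divisor K F) =
        Ao - (X : Divisor K F) - s17cpmDiv Q₀ R := by
      rw [AddSubgroup.coe_add]
      abel
    rw [e]
    exact h0.2
  · have hsub : Pic0.mk X - Pic0.mk D = Pic0.mk (X - D) := rfl
    rw [hsub]
    refine s17mvc_off_of_rep Ao _ ?_
    have e : Ao - ((X - D : Divisor.degZero (K := K) (F := F)) : Divisor K F) =
        Ao - (X : Divisor K F) + s17cpmDiv Q₀ R := by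
      rw [AddSubgroup.coe_sub]
      abel
    rw [e]
    exact h0.1

end Main

end Fermat.Agent.S17

end
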