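/-
S17 sprint, layer H — leaf **BPF-NAT** (helper95): ONE finite base-point-free family `s` of the big
field `L` for BOTH kinds of local equations of `Θ_{Ao}` at `η` used by the tops:

  (y)   ANY choice `y W` of class-indexed local equations (`S27icIdx … Ao W η (y W)`), the shape of
        PlT (`hy`, S17/TranslWrap*.lean);
  (b_L) the LIFTED local equations `b_L W = ι (B 1 (W ∩ 𝔉))` (`s17pmtB (s27indB ψ β 1)`), the shape
        of PlM (S17/PlMStageL.lean `s17pmx_plM`), given (PSI-NAT) at `j = 1`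
        (`S27ckNat K ψ β Idx η 1`, S27/ModelCube.lean `s27mc_nat`).

* `s17bpn_of_eq`   : base-point-freeness does not depend on the choice of the local equations up to
                     units (`b W ≐_W y W`);
* `s17bpn_exists`  : POOL (`s17cpm_pool`, helper90) + BPF-POOL (`s17bpl_bpf`): a finite family
                     `s : T → L`, `T ≠ ∅`, `s D ≠ 0`, with `S17muBpf K y 2 s` for every `y` of (y);
* **`s17bpn_main`** : the same `s` is base-point-free w.r.t. `b_L` as well:
                     `S17muBpf K (s17pmtB (s27indB ψ β 1)) 2 s`;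
* `s17bpn_pmk`     : the `K`-place form `S17pmkBpf` of both.
-/
import Fermat.Agent.S17.BpfPool
import Fermat.Agent.S17.CoverPM
import Fermat.Agent.S17.PlMTop
import Fermat.Agent.S17.PlMK
import Fermat.Agent.S27.CubeK

set_option autoImplicit false
set_option linter.style.haveILetI false
set_option linter.unusedSectionVars false
set_option linter.unusedVariables false

noncomputable section

namespace Fermat.Agent.S17

open AlgebraicCurve Module TensorProduct IntermediateField Fermat.Agent.S26 Fermat.Agent.S27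

universe u v y

/-- base-point-freeness depends on the local equations only up to units. -/
theorem s17bpn_of_eq {K : Type*} [Field K] {𝔏 : Type*} [Field 𝔏] [Algebra K 𝔏] {ι : Type*}
    (b y : ValuationSubring 𝔏 → 𝔏) (N : ℕ) (s : ι → 𝔏) (h : S17muBpf K y N s)
    (he : ∀ W : ValuationSubring 𝔏, S27IsKValU K W → s27cptEq W (b W) (y W)) :
    S17muBpf K b N s := by
  intro W hW
  obtain ⟨u, hu, e⟩ := he W hW
  have hk : ∀ i, s i * b W ^ N = u ^ N * (s i * y W ^ N) := by
    intro i
    rw [e, mul_pow]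
    ring
  obtain ⟨h1, i, h2⟩ := h W hW
  refine ⟨fun i => ?_, i, ?_⟩
  · rw [hk i]
    exact W.mul_mem _ _ (pow_mem hu.2.1 N) (h1 i)
  · rw [hk i]
    exact s17mu_unit_mul (s17mu_unit_pow hu N) h2

section Stage

variable {K : Type u} {F : Type v} [Field K] [IsAlgClosed K] [CharZero K] [Field F] [Algebra K F]
  [IsCurveOver K F] [Algebra.EssFiniteType K F]
  {L : Type (max u v)} [Field L] [Algebra K L]
  [Algebra (s27gfOm K F (genusFF K F)) L] [IsScalarTower K (s27gfOm K F (genusFF K F)) L]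
  [IsAlgClosed L] [Algebra.IsAlgebraic (s27gfOm K F (genusFF K F)) L]
  {FL : Type y} [Field FL] [Algebra K FL] [Algebra F FL] [Algebra L FL]
  [IsScalarTower K F FL] [IsScalarTower K L FL]
  (hld : Function.Injective (s26gspMu K F L FL)) (hgen : S26gspGen K F L FL)
  {x : F} (hx : Transcendental K x)
  [FiniteDimensional ↥(IntermediateField.adjoin K {x}) F]
  [Algebra.IsSeparable ↥(IntermediateField.adjoin K {x}) F]
  [IsGalois (s27gfSym K F (genusFF K F)) L]
  (G₀ : Divisor K F) (hG₀ : Divisor.degree G₀ = (genusFF K F : ℤ))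

/-- **the finite base-point-free family** (`L`-level, `N = 2`, all `W ⊇ K`, every choice of
class-indexed local equations at `η`). -/
theorem s17bpn_exists (hg : 0 < genusFF K F) (hG0 : 0 ≤ G₀) (Ao : Divisor K F)
    (hAo : riemannRochSpace Ao = ⊥) (hAod : Divisor.degree Ao = (genusFF K F : ℤ) - 1)
    (O : Place K F) :
    ∃ (T : Finset (Divisor.degZero (K := K) (F := F))) (s : T → L), T.Nonempty ∧
      (∀ D, s D ≠ 0) ∧ ∀ y : ValuationSubring L → L,
      (∀ W : ValuationSubring L, S27IsKValU K W → S27icIdx hld hgen hx Ao W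
        (s27pfCl (s27dclPkg hld hgen hx G₀ hG₀)
          (s27pfTaut (K := K) (F := F) (g := genusFF K F) (L := L))) (y W)) →
      S17muBpf K y 2 s := by
  obtain ⟨T, hT, hcov⟩ := s17cpm_pool x hx Ao hAod
  obtain ⟨s, hs0, hs⟩ := s17bpl_bpf hld hgen hx G₀ hG₀ hg hG0 Ao hAo hAod O T hT hcov
  obtain ⟨D, hD, -⟩ := hcov 0
  exact ⟨T, s, ⟨D, hD⟩, hs0, hs⟩

/-- **BPF-NAT**: ONE finite family, base-point-free w.r.t. the lifted local equations
`b_L = s17pmtB (s27indB ψ β 1)` AND w.r.t. every choice of class-indexed local equations at `η`. -/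
theorem s17bpn_main (hg : 0 < genusFF K F) (hG0 : 0 ≤ G₀) (Ao : Divisor K F)
    (hAo : riemannRochSpace Ao = ⊥) (hAod : Divisor.degree Ao = (genusFF K F : ℤ) - 1)
    (O : Place K F)
    (ψ : ℤ → (s27gfSym K F (genusFF K F) →ₐ[K] s27gfSym K F (genusFF K F)))
    (β : ValuationSubring (s27gfSym K F (genusFF K F)) → s27gfSym K F (genusFF K F))
    (hnat : S27ckNat K ψ β (S27icIdx hld hgen hx Ao)
      (s27pfCl (s27dclPkg hld hgen hx G₀ hG₀)
        (s27pfTaut (K := K) (F := F) (g := genusFF K F) (L := L))) 1) :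
    ∃ (T : Finset (Divisor.degZero (K := K) (F := F))) (s : T → L), T.Nonempty ∧
      (∀ D, s D ≠ 0) ∧
      S17muBpf K (s17pmtB (L := L) (s27indB ψ β 1)) 2 s ∧
      ∀ y : ValuationSubring L → L,
      (∀ W : ValuationSubring L, S27IsKValU K W → S27icIdx hld hgen hx Ao W
        (s27pfCl (s27dclPkg hld hgen hx G₀ hG₀)
          (s27pfTaut (K := K) (F := F) (g := genusFF K F) (L := L))) (y W)) →
      S17muBpf K y 2 s := by
  classical
  obtain ⟨T, s, hne, hs0, hs⟩ := s17bpn_exists hld hgen hx G₀ hG₀ hg hG0 Ao hAo hAod O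
  refine ⟨T, s, hne, hs0, ?_, hs⟩
  -- a choice of class-indexed local equations with `b_L ≐ y₀`
  have hex : ∀ W : ValuationSubring L, S27IsKValU K W → ∃ z : L,
      S27icIdx hld hgen hx Ao W
        (s27pfCl (s27dclPkg hld hgen hx G₀ hG₀)
          (s27pfTaut (K := K) (F := F) (g := genusFF K F) (L := L))) z ∧
      s27cptEq W (s17pmtB (L := L) (s27indB ψ β 1) W) z := by
    intro W hW
    obtain ⟨z, hz, hzz⟩ := hnat W hW
    rw [one_zsmul] at hz
    exact ⟨z, hz, hzz⟩
  set y₀ : ValuationSubring L → L := fun W =>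
    if h : S27IsKValU K W then Classical.choose (hex W h) else 0 with hy₀def
  have hy₀ : ∀ W : ValuationSubring L, ∀ h : S27IsKValU K W,
      y₀ W = Classical.choose (hex W h) := by
    intro W h
    rw [hy₀def]
    exact dif_pos h
  refine s17bpn_of_eq _ y₀ 2 s (hs y₀ fun W hW => ?_) fun W hW => ?_
  · rw [hy₀ W hW]
    exact (Classical.choose_spec (hex W hW)).1
  · rw [hy₀ W hW]
    exact (Classical.choose_spec (hex W hW)).2

/-- the `K`-place form of `s17bpn_main` (the literal `hF` of `s17pmx_plM`). -/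
theorem s17bpn_pmk (hg : 0 < genusFF K F) (hG0 : 0 ≤ G₀) (Ao : Divisor K F)
    (hAo : riemannRochSpace Ao = ⊥) (hAod : Divisor.degree Ao = (genusFF K F : ℤ) - 1)
    (O : Place K F)
    (ψ : ℤ → (s27gfSym K F (genusFF K F) →ₐ[K] s27gfSym K F (genusFF K F)))
    (β : ValuationSubring (s27gfSym K F (genusFF K F)) → s27gfSym K F (genusFF K F))
    (hnat : S27ckNat K ψ β (S27icIdx hld hgen hx Ao)
      (s27pfCl (s27dclPkg hld hgen hx G₀ hG₀)
        (s27pfTaut (K := K) (F := F) (g := genusFF K F) (L := L))) 1) :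
    ∃ (T : Finset (Divisor.degZero (K := K) (F := F))) (s : T → L), T.Nonempty ∧
      (∀ D, s D ≠ 0) ∧ s ≠ 0 ∧
      S17pmkBpf K (s17pmtB (L := L) (s27indB ψ β 1)) 2 s ∧
      ∀ y : ValuationSubring L → L,
      (∀ W : ValuationSubring L, S27IsKValU K W → S27icIdx hld hgen hx Ao W
        (s27pfCl (s27dclPkg hld hgen hx G₀ hG₀)
          (s27pfTaut (K := K) (F := F) (g := genusFF K F) (L := L))) (y W)) →
      S17pmkBpf K y 2 s := by
  obtain ⟨T, s, hne, hs0, hb, hs⟩ :=
    s17bpn_main hld hgen hx G₀ hG₀ hg hG0 Ao hAo hAod O ψ β hnat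
  refine ⟨T, s, hne, hs0, ?_, s17pmk_bpf_of hb, fun y hy => s17pmk_bpf_of (hs y hy)⟩
  obtain ⟨D, hD⟩ := hne
  intro h0
  exact hs0 ⟨D, hD⟩ (congrFun h0 ⟨D, hD⟩)

end Stage

end Fermat.Agent.S17

end
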