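/-
S17 sprint, layer H — leaf **MOVE-CEN** (helper8): the unit criterion in CENTRE form, for a GIVEN
constant divisor `D` (the shape needed for a finite POOL of constants).

Stage of S17/SqUnit.lean, S17/CentreHom.lean: `P : S17plPlace K L` a `K`-place of `L`,
`x_P = s17ch2Centre hx G₀ hG₀ P = [Σ Q i − G₀] ∈ Pic0 K F` its centre (`Q i` the centres of the
tautological points), `η` the generic class, `β [D]` the constant classes,
`S17mvcOff Ao c` = "`c` is off `Θ_{Ao}`" (`L_K(Ao − X) = 0` for the representatives `X` of `c`).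

* `s17mce_hres`     : the residue field of a `K`-place is `K`
                      (`∀ w ∈ P.W, ∃ c : K, w − c ∈ 𝔪_W`);
* **`s17mce_unit_sub`** : `L_K(Ao + D) = 0`, `x_P − [D]` off `Θ_{Ao}` ⇒ every local equation of
                      `Θ_{Ao}` at `η − β [D]` along `P.W` is a unit of `P.W`;
* **`s17mce_unit_add`** : `L_K(Ao − D) = 0`, `x_P + [D]` off `Θ_{Ao}` ⇒ the same at `η + β [D]`;
* `s17mce_unit_eta` : `x_P` off `Θ_{Ao}` ⇒ the same at `η`.
So for a POOL `T` of constants such that every class `x` has `D ∈ T` with `x ± [D]` off `Θ_{Ao}`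
(and `L_K(Ao ∓ D) = 0`), the square functions `(Φ_D⁻¹)_{D ∈ T}` of `s17su_square` have no common
zero at the `K`-places: `Φ_D⁻¹ · x₀²` is a unit of `P.W` for some `D ∈ T`.
-/
import Fermat.Agent.S17.MoveUp
import Fermat.Agent.S17.CentreHom

set_option autoImplicit false
set_option linter.style.haveILetI false
set_option linter.unusedSectionVars false
set_option linter.unusedVariables false

noncomputable section

namespace Fermat.Agent.S17

open AlgebraicCurve Module TensorProduct IntermediateField Fermat.Agent.S26 Fermat.Agent.S27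

universe u v y

/-- the residue field of a `K`-place is `K`. -/
theorem s17mce_hres {K : Type*} {L : Type*} [Field K] [Field L] [Algebra K L]
    (P : S17plPlace K L) :
    ∀ w ∈ P.W, ∃ c : K, w - algebraMap K L c ∈ P.W.nonunits := by
  intro w hw
  refine ⟨P.res ⟨w, hw⟩, ?_⟩
  have hcW : algebraMap K L (P.res ⟨w, hw⟩) ∈ P.W := P.hKW _
  have hmem : w - algebraMap K L (P.res ⟨w, hw⟩) ∈ P.W := P.W.sub_mem hw hcW
  by_contra hnu
  have hne : w - algebraMap K L (P.res ⟨w, hw⟩) ≠ 0 := by
    intro h0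
    apply hnu
    rw [h0, ValuationSubring.mem_nonunits_iff, map_zero]
    exact zero_lt_one
  have hinv : (w - algebraMap K L (P.res ⟨w, hw⟩))⁻¹ ∈ P.W := s17mvv_inv_mem hnu hmem
  apply s17pl_res_ne_zero P hne hmem hinv
  have h1 : (⟨w - algebraMap K L (P.res ⟨w, hw⟩), hmem⟩ : ↥P.W) =
      ⟨w, hw⟩ - ⟨algebraMap K L (P.res ⟨w, hw⟩), hcW⟩ := rfl
  rw [h1, map_sub, P.hres, sub_self]

section Stage

variable {K : Type u} {F : Type v} [Field K] [IsAlgClosed K] [CharZero K] [Field F] [Algebra K F]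
  [IsCurveOver K F] [Algebra.EssFiniteType K F]
  {L : Type (max u v)} [Field L] [Algebra K L]
  [Algebra (s27gfOm K F (genusFF K F)) L] [IsScalarTower K (s27gfOm K F (genusFF K F)) L]
  [IsAlgClosed L] [Algebra.IsAlgebraic (s27gfOm K F (genusFF K F)) L]
  {FL : Type y} [Field FL] [Algebra K FL] [Algebra F FL] [Algebra L FL]
  [IsScalarTower K F FL] [IsScalarTower K L FL]
  (hld : Function.Injective (s26gspMu K F L FL)) (hgen : S26gspGen K F L FL)
  {x : F} (hx : Transcendental K x)
  [FiniteDimensional ↥(IntermediateField.adjoin K {x}) F]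
  [Algebra.IsSeparable ↥(IntermediateField.adjoin K {x}) F]
  [IsGalois (s27gfSym K F (genusFF K F)) L]
  (G₀ : Divisor K F) (hG₀ : Divisor.degree G₀ = (genusFF K F : ℤ))

/-- **units at `η − β [D]`** for a given constant `D`, centre form. -/
theorem s17mce_unit_sub (hG0 : 0 ≤ G₀) (Ao : Divisor K F) (hAo : riemannRochSpace Ao = ⊥)
    (hAod : Divisor.degree Ao = (genusFF K F : ℤ) - 1)
    (P : S17plPlace K L) (D : Divisor.degZero (K := K) (F := F))
    (hDp : riemannRochSpace (Ao + (D : Divisor K F)) = ⊥)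
    (hoff : S17mvcOff Ao (s17ch2Centre (L := L) hx G₀ hG₀ P - Pic0.mk D))
    (z : L)
    (hz : S27icIdx hld hgen hx Ao P.W
      (s27pfCl (s27dclPkg hld hgen hx G₀ hG₀)
        (s27pfTaut (K := K) (F := F) (g := genusFF K F) (L := L)) -
        s27bcBeta hld hgen (s26gspf_hall hx) (Pic0.mk D)) z) : S27IsUnitIn P.W z := by
  classical
  set R : Fin (genusFF K F) → F →ₐ[K] L :=
    s27pfTaut (K := K) (F := F) (g := genusFF K F) (L := L) with hRdef
  have hR : Function.Injective R :=
    s27ic_generic_injective (x := x) (s27mp_taut_generic (K := K) (F := F) (L := L) hx)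
  have hQ : ∀ i, P.W.comap (R i : F →+* L) = (s17ch2CentrePl (L := L) hx P i).toValuationSubring :=
    fun i => s17ch2CentrePl_spec hx P i
  have hcl0 : s27icCl hld hgen hx R G₀ hG₀ =
      s27pfCl (s27dclPkg hld hgen hx G₀ hG₀) R := rfl
  have hB := s17su_deg_add D hG₀
  have hcl : s27icCl hld hgen hx R (G₀ + (D : Divisor K F)) hB =
      s27pfCl (s27dclPkg hld hgen hx G₀ hG₀) R -
        s27bcBeta hld hgen (s26gspf_hall hx) (Pic0.mk D) := by
    rw [s17su_cl_shift hld hgen hx R G₀ D hG₀ hB, hcl0]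
  have h20 : finrank K ↥(riemannRochSpace (Ao + (D : Divisor K F))) = 0 := by
    rw [hDp]
    exact finrank_bot K F
  obtain ⟨f'⟩ := s27rd_exists_basis x hx (Ao + (D : Divisor K F))
    (s17su_deg_add' Ao D hAod) h20 G₀ hG0 hG₀
  have e : G₀ + (Ao + (D : Divisor K F)) = G₀ + (D : Divisor K F) + Ao := by abel
  rw [e] at f'
  have hoff' : riemannRochSpace
      (G₀ + (D : Divisor K F) + Ao - s17unsDiv (s17ch2CentrePl (L := L) hx P)) = ⊥ := by
    have h3 := hoff (s27pkgDivZeroO (s17ds_hdegK (fun P => s26gspf_hall hx P)) G₀ hG₀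
      (s17ch2CentrePl (L := L) hx P) - D) rfl
    have e' : G₀ + (D : Divisor K F) + Ao - s17unsDiv (s17ch2CentrePl (L := L) hx P) =
        Ao - ((s27pkgDivZeroO (s17ds_hdegK (fun P => s26gspf_hall hx P)) G₀ hG₀
          (s17ch2CentrePl (L := L) hx P) - D : Divisor.degZero (K := K) (F := F)) :
            Divisor K F) := by
      rw [AddSubgroup.coe_sub, s27pkgDivZeroO_coe]
      show G₀ + (D : Divisor K F) + Ao - s17unsDiv (s17ch2CentrePl (L := L) hx P) =
        Ao - ((s17unsDiv (s17ch2CentrePl (L := L) hx P) - G₀) - (D : Divisor K F))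
      abel
    rw [e']
    exact h3
  exact s17mup_unit_of_off hld hgen hx Ao hAo hAod P.W P.hKW (s17mce_hres P) R hR _ hB f'
    (s17ch2CentrePl (L := L) hx P) hQ hoff' _ hcl z hz

/-- **units at `η + β [D]`** for a given constant `D`, centre form. -/
theorem s17mce_unit_add (hG0 : 0 ≤ G₀) (Ao : Divisor K F) (hAo : riemannRochSpace Ao = ⊥)
    (hAod : Divisor.degree Ao = (genusFF K F : ℤ) - 1)
    (P : S17plPlace K L) (D : Divisor.degZero (K := K) (F := F))
    (hDm : riemannRochSpace (Ao - (D : Divisor K F)) = ⊥)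
    (hoff : S17mvcOff Ao (s17ch2Centre (L := L) hx G₀ hG₀ P + Pic0.mk D))
    (z : L)
    (hz : S27icIdx hld hgen hx Ao P.W
      (s27pfCl (s27dclPkg hld hgen hx G₀ hG₀)
        (s27pfTaut (K := K) (F := F) (g := genusFF K F) (L := L)) +
        s27bcBeta hld hgen (s26gspf_hall hx) (Pic0.mk D)) z) : S27IsUnitIn P.W z := by
  refine s17mce_unit_sub hld hgen hx G₀ hG₀ hG0 Ao hAo hAod P (-D) ?_ ?_ z ?_
  · rw [NegMemClass.coe_neg, ← sub_eq_add_neg]
    exact hDm
  · have h1 : (Pic0.mk (-D) : Pic0 K F) = -Pic0.mk D := rfl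
    rw [h1, sub_neg_eq_add]
    exact hoff
  · rw [s17su_beta_neg hld hgen hx D, sub_neg_eq_add]
    exact hz

/-- **units at `η`**, centre form: `x_P` off `Θ_{Ao}`. -/
theorem s17mce_unit_eta (hG0 : 0 ≤ G₀) (Ao : Divisor K F) (hAo : riemannRochSpace Ao = ⊥)
    (hAod : Divisor.degree Ao = (genusFF K F : ℤ) - 1)
    (P : S17plPlace K L)
    (hoff : S17mvcOff Ao (s17ch2Centre (L := L) hx G₀ hG₀ P))
    (z : L)
    (hz : S27icIdx hld hgen hx Ao P.W
      (s27pfCl (s27dclPkg hld hgen hx G₀ hG₀)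
        (s27pfTaut (K := K) (F := F) (g := genusFF K F) (L := L))) z) : S27IsUnitIn P.W z := by
  refine s17mce_unit_sub hld hgen hx G₀ hG₀ hG0 Ao hAo hAod P 0 ?_ ?_ z ?_
  · rw [ZeroMemClass.coe_zero, add_zero]
    exact hAo
  · have h1 : (Pic0.mk (0 : Divisor.degZero (K := K) (F := F)) : Pic0 K F) = 0 := rfl
    rw [h1, sub_zero]
    exact hoff
  · have h1 : (Pic0.mk (0 : Divisor.degZero (K := K) (F := F)) : Pic0 K F) = 0 := rfl
    rw [h1, map_zero, sub_zero]
    exact hz

end Stage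

end Fermat.Agent.S17

end
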