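/-
S17 sprint, layer H — leaf **(B) BPF FROM THE POOL, L-level** (helper48; double of helper95's
S17/BpfPool.lean): a FINITE family of square functions without common zero at the `K`-places.

Stage of S17/SqUnit.lean, S17/MoveCen.lean: `η` the generic class, `β [D]` the constant classes,
`S27icIdx hld hgen hx Ao W c y` = "`y` is a local equation along `W` of `Θ_{Ao}` at the class `c`",
`P : S17plPlace K L` the `K`-places of `L`.

Input: the TWO-SIDED FINITE POOL `T` (S17/CoverTwo.lean `s17cv2_pool`, helper94):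
`∀ D ∈ T, L(Ao ∓ D) = 0` and `∀ c, ∃ D ∈ T, c ± [D]` off `Θ_{Ao}`.

* `S17bpqPool Ao T`     : the pool property;
* `s17bpq_pool`         : there is a pool (`s17cv2_pool`);
* **`s17bpq_core`**     : a pool `T` gives `s : ↥T → L`, all `s D ≠ 0`, such that for EVERY `K`-place
                          `P` and EVERY local equation `x₀` of `Θ_{Ao}` at `η` along `P.W`:
                          `s D · x₀² ∈ P.W` for all `D` and `s D · x₀²` is a UNIT of `P.W` for some
                          `D` (`s D` = the function `Φ` of the square `s17su_square` at `D`);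
* `s17bpq_bpf`          : hence `S17pmkBpf K y 2 s` for every choice `y` of local equations at `η`;
* **`s17bpq_exists`**   : the closed form: `∃ n, ∃ s : Fin n → L`, `s ≠ 0`, `S17pmkBpf K y 2 s`
                          for every choice `y` of local equations of `Θ_{Ao}` at `η`.
-/
import Fermat.Agent.S17.MoveCen
import Fermat.Agent.S17.CoverTwo
import Fermat.Agent.S17.PlMK

set_option autoImplicit false
set_option linter.style.haveILetI false
set_option linter.unusedSectionVars false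
set_option linter.unusedVariables false
set_option linter.style.longLine false

noncomputable section

namespace Fermat.Agent.S17

open AlgebraicCurve Module TensorProduct IntermediateField Fermat.Agent.S26 Fermat.Agent.S27

universe u v y

/-- the TWO-SIDED FINITE POOL property. -/
def S17bpqPool {K : Type*} {F : Type*} [Field K] [Field F] [Algebra K F] (Ao : Divisor K F)
    (T : Finset (Divisor.degZero (K := K) (F := F))) : Prop :=
  (∀ D ∈ T, riemannRochSpace (Ao - (D : Divisor K F)) = ⊥ ∧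
    riemannRochSpace (Ao + (D : Divisor K F)) = ⊥) ∧
  ∀ c : Pic0 K F, ∃ D ∈ T, S17mvcOff Ao (c + Pic0.mk D) ∧ S17mvcOff Ao (c - Pic0.mk D)

/-- there is a pool (helper94's `s17cv2_pool`). -/
theorem s17bpq_pool {K : Type*} {F : Type*} [Field K] [Field F] [Algebra K F] [IsAlgClosed K]
    (x : F) (hx : Transcendental K x) [FiniteDimensional K⟮x⟯ F] (Ao : Divisor K F)
    (hAo : Divisor.degree Ao = (genusFF K F : ℤ) - 1) :
    ∃ T : Finset (Divisor.degZero (K := K) (F := F)), S17bpqPool Ao T :=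
  s17cv2_pool x hx Ao hAo

section Stage

variable {K : Type u} {F : Type v} [Field K] [IsAlgClosed K] [CharZero K] [Field F] [Algebra K F]
  [IsCurveOver K F] [Algebra.EssFiniteType K F]
  {L : Type (max u v)} [Field L] [Algebra K L]
  [Algebra (s27gfOm K F (genusFF K F)) L] [IsScalarTower K (s27gfOm K F (genusFF K F)) L]
  [IsAlgClosed L] [Algebra.IsAlgebraic (s27gfOm K F (genusFF K F)) L]
  {FL : Type y} [Field FL] [Algebra K FL] [Algebra F FL] [Algebra L FL]
  [IsScalarTower K F FL] [IsScalarTower K L FL]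
  (hld : Function.Injective (s26gspMu K F L FL)) (hgen : S26gspGen K F L FL)
  {x : F} (hx : Transcendental K x)
  [FiniteDimensional ↥(IntermediateField.adjoin K {x}) F]
  [Algebra.IsSeparable ↥(IntermediateField.adjoin K {x}) F]
  [IsGalois (s27gfSym K F (genusFF K F)) L]
  (G₀ : Divisor K F) (hG₀ : Divisor.degree G₀ = (genusFF K F : ℤ))

/-- the square at ONE constant `D` and ONE `K`-place: membership, and units off the theta divisor. -/
theorem s17bpq_at (hg : 0 < genusFF K F) (hG0 : 0 ≤ G₀) (Ao : Divisor K F)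
    (hAo : riemannRochSpace Ao = ⊥) (hAod : Divisor.degree Ao = (genusFF K F : ℤ) - 1)
    (O : Place K F) (D : Divisor.degZero (K := K) (F := F))
    (hDm : riemannRochSpace (Ao - (D : Divisor K F)) = ⊥)
    (hDp : riemannRochSpace (Ao + (D : Divisor K F)) = ⊥) :
    ∃ Φ : L, Φ ≠ 0 ∧ ∀ (P : S17plPlace K L) (x0 : L),
      S27icIdx hld hgen hx Ao P.W
        (s27pfCl (s27dclPkg hld hgen hx G₀ hG₀)
          (s27pfTaut (K := K) (F := F) (g := genusFF K F) (L := L))) x0 →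
      Φ * x0 ^ 2 ∈ P.W ∧
      (S17mvcOff Ao (s17ch2Centre (L := L) hx G₀ hG₀ P + Pic0.mk D) →
        S17mvcOff Ao (s17ch2Centre (L := L) hx G₀ hG₀ P - Pic0.mk D) →
        S27IsUnitIn P.W (Φ * x0 ^ 2)) := by
  obtain ⟨Φ, hΦ, hsq⟩ := s17su_square hld hgen hx G₀ hG₀ hg hG0 Ao hAo hAod O D hDm hDp 1
  obtain ⟨Φ', -, hcp⟩ := s17su_cp hld hgen hx G₀ hG₀ hg hG0 Ao hAo hAod O D hDm hDp 1
  rw [one_zsmul] at hsq hcp
  refine ⟨Φ, hΦ, fun P x0 hx0 => ?_⟩
  obtain ⟨y₁, y₂, y₃, y₁₂, y₁₃, y₂₃, y₁₂₃, -, -, -, i12, i13, -, -, -⟩ := hcp P.W P.hKW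
  obtain ⟨u, hu, e⟩ := hsq P.W P.hKW y₁₂ y₁₃ x0 i12 i13 hx0
  have h12 : y₁₂ ∈ P.W := s17su_idx_mem hld hgen hx Ao P.W _ y₁₂ i12
  have h13 : y₁₃ ∈ P.W := s17su_idx_mem hld hgen hx Ao P.W _ y₁₃ i13
  have key : Φ * x0 ^ 2 = u⁻¹ * (y₁₂ * y₁₃) := by
    rw [e]
    field_simp [hu.1]
  refine ⟨?_, fun hp hm => ?_⟩
  · rw [key]
    exact P.W.mul_mem _ _ hu.2.2 (P.W.mul_mem _ _ h12 h13)
  · have u12 : S27IsUnitIn P.W y₁₂ :=
      s17mce_unit_add hld hgen hx G₀ hG₀ hG0 Ao hAo hAod P D hDm hp y₁₂ i12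
    have u13 : S27IsUnitIn P.W y₁₃ :=
      s17mce_unit_sub hld hgen hx G₀ hG₀ hG0 Ao hAo hAod P D hDp hm y₁₃ i13
    rw [key]
    exact s17su_unit_mul ⟨inv_ne_zero hu.1, hu.2.2, by rw [inv_inv]; exact hu.2.1⟩
      (s17su_unit_mul u12 u13)

/-- **(B), core**: the square functions of a pool have no common zero at the `K`-places. -/
theorem s17bpq_core (hg : 0 < genusFF K F) (hG0 : 0 ≤ G₀) (Ao : Divisor K F)
    (hAo : riemannRochSpace Ao = ⊥) (hAod : Divisor.degree Ao = (genusFF K F : ℤ) - 1)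
    (O : Place K F) (T : Finset (Divisor.degZero (K := K) (F := F))) (hT : S17bpqPool Ao T) :
    ∃ s : ↥T → L, (∀ D, s D ≠ 0) ∧ ∀ (P : S17plPlace K L) (x0 : L),
      S27icIdx hld hgen hx Ao P.W
        (s27pfCl (s27dclPkg hld hgen hx G₀ hG₀)
          (s27pfTaut (K := K) (F := F) (g := genusFF K F) (L := L))) x0 →
      (∀ D, s D * x0 ^ 2 ∈ P.W) ∧ ∃ D, S27IsUnitIn P.W (s D * x0 ^ 2) := by
  choose Φ hΦ hat using fun D : ↥T =>
    s17bpq_at hld hgen hx G₀ hG₀ hg hG0 Ao hAo hAod O D.1 (hT.1 D.1 D.2).1 (hT.1 D.1 D.2).2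
  refine ⟨Φ, hΦ, fun P x0 hx0 => ⟨fun D => (hat D P x0 hx0).1, ?_⟩⟩
  obtain ⟨D, hD, hp, hm⟩ := hT.2 (s17ch2Centre (L := L) hx G₀ hG₀ P)
  exact ⟨⟨D, hD⟩, (hat ⟨D, hD⟩ P x0 hx0).2 hp hm⟩

/-- **(B)**: `S17pmkBpf K y 2 s` for every choice `y` of local equations of `Θ_{Ao}` at `η`. -/
theorem s17bpq_bpf (hg : 0 < genusFF K F) (hG0 : 0 ≤ G₀) (Ao : Divisor K F)
    (hAo : riemannRochSpace Ao = ⊥) (hAod : Divisor.degree Ao = (genusFF K F : ℤ) - 1)
    (O : Place K F) (T : Finset (Divisor.degZero (K := K) (F := F))) (hT : S17bpqPool Ao T) :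
    ∃ s : ↥T → L, (∀ D, s D ≠ 0) ∧ ∀ y : ValuationSubring L → L,
      (∀ P : S17plPlace K L, S27icIdx hld hgen hx Ao P.W
        (s27pfCl (s27dclPkg hld hgen hx G₀ hG₀)
          (s27pfTaut (K := K) (F := F) (g := genusFF K F) (L := L))) (y P.W)) →
      S17pmkBpf K y 2 s := by
  obtain ⟨s, hs, h⟩ := s17bpq_core hld hgen hx G₀ hG₀ hg hG0 Ao hAo hAod O T hT
  exact ⟨s, hs, fun y hy P => h P (y P.W) (hy P)⟩

/-- **(B), closed form**: a finite NONEMPTY family `s : Fin (n + 1) → L` of nonzero functions,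
base-point-free in `L(2 Θ_{Ao})` at the `K`-places, for every choice of local equations at `η`. -/
theorem s17bpq_exists (hg : 0 < genusFF K F) (hG0 : 0 ≤ G₀) (Ao : Divisor K F)
    (hAo : riemannRochSpace Ao = ⊥) (hAod : Divisor.degree Ao = (genusFF K F : ℤ) - 1)
    (O : Place K F) :
    ∃ (n : ℕ) (s : Fin n → L), (∀ i, s i ≠ 0) ∧ 0 < n ∧ ∀ y : ValuationSubring L → L,
      (∀ P : S17plPlace K L, S27icIdx hld hgen hx Ao P.W
        (s27pfCl (s27dclPkg hld hgen hx G₀ hG₀)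
          (s27pfTaut (K := K) (F := F) (g := genusFF K F) (L := L))) (y P.W)) →
      S17pmkBpf K y 2 s := by
  classical
  obtain ⟨T, hT⟩ := s17bpq_pool x hx Ao hAod
  obtain ⟨s, hs, h⟩ := s17bpq_bpf hld hgen hx G₀ hG₀ hg hG0 Ao hAo hAod O T hT
  obtain ⟨D₀, hD₀, -⟩ := hT.2 0
  set e : Fin (Fintype.card ↥T) ≃ ↥T := (Fintype.equivFin ↥T).symm with he
  refine ⟨Fintype.card ↥T, fun i => s (e i), fun i => hs _, ?_, fun y hy P => ?_⟩
  · exact Fintype.card_pos_iff.2 ⟨⟨D₀, hD₀⟩⟩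
  · obtain ⟨hmem, D, hD⟩ := h y hy P
    refine ⟨fun i => hmem (e i), e.symm D, ?_⟩
    show S27IsUnitIn P.W (s (e (e.symm D)) * y P.W ^ 2)
    rw [Equiv.apply_symm_apply]
    exact hD

end Stage

end Fermat.Agent.S17

end
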