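/-
S17 sprint, layer H — **TWO-SIDED finite POOL** (helper97; double of helper33's PoolTwo).

`K` algebraically closed, `F / K` a function field of one variable, `g = genusFF K F`.

* `s17ppm_up_card` : for `E` with `deg E + 1 − g < ℓ(E)` at most `(c − deg E).toNat − 1` places
                     `Q` have `ℓ(E) < ℓ(E + Q)`  (`c` = the constant of Riemann's equality);
* `s17ppm_step`, `s17ppm_iter` : ONE place of a big finite set `S` lowers all `ℓ(D i)` and keeps
                     all `L(E i) = 0`; iterate;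
* `s17ppm_exists`  : **∃ m M, ∀ Q₀, ∀ Y i, Y' j of degree `g − 1`, ∀ S with `(n + n') M < #S`,
                     ∃ R 1 … R m ∈ S:  `L(Y i + m Q₀ − Σ R) = 0`  and  `L(Y' j − m Q₀ + Σ R) = 0`**;
* the finite pool of classes is in S17/PoolPMCls.lean (`s17ppc_pool`).
-/
import Fermat.Agent.S17.Cover
import Fermat.Agent.S17.MoveCls

set_option autoImplicit false
set_option linter.unusedVariables false
set_option linter.unusedSectionVars false
set_option linter.style.haveILetI false

noncomputable section

namespace Fermat.Agent.S17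

open AlgebraicCurve Module IntermediateField Fermat.Agent.S24 Fermat.Agent.ES.R
  Fermat.Agent.S26 Fermat.Agent.S27

variable {K F : Type*} [Field K] [Field F] [Algebra K F]

/-- a big finite set is not covered by few small ones. -/
theorem s17ppm_avoid {α ι : Type*} [DecidableEq α] [Fintype ι] (S : Finset α)
    (B : ι → Finset α) (b : ℕ) (hB : ∀ i, (B i).card ≤ b)
    (hS : Fintype.card ι * b < S.card) : ∃ R ∈ S, ∀ i, R ∉ B i := by
  classical
  have hU : (Finset.univ.biUnion B).card ≤ Fintype.card ι * b := by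
    refine (Finset.card_biUnion_le).trans ?_
    calc ∑ i : ι, (B i).card ≤ ∑ _i : ι, b := Finset.sum_le_sum fun i _ => hB i
      _ = Fintype.card ι * b := by simp
  obtain ⟨R, hRS, hRU⟩ : ∃ R ∈ S, R ∉ Finset.univ.biUnion B := by
    by_contra hcon
    have hsub : S ⊆ Finset.univ.biUnion B := by
      intro R hR
      by_contra hR'
      exact hcon ⟨R, hR, hR'⟩
    have := Finset.card_le_card hsub
    omega
  refine ⟨R, hRS, fun i hi => hRU ?_⟩
  rw [Finset.mem_biUnion]
  exact ⟨i, Finset.mem_univ i, hi⟩

section AlgClosed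

variable [IsAlgClosed K] (x : F) (hx : Transcendental K x) [FiniteDimensional K⟮x⟯ F]

include hx

/-- the degree of `E + Σ_{Q ∈ s} Q`. -/
theorem s17ppm_degree_add_sum (E : Divisor K F) (s : Finset (Place K F)) :
    Divisor.degree (E + ∑ Q ∈ s, Finsupp.single Q 1) = Divisor.degree E + s.card := by
  rw [map_add, map_sum]
  have : ∀ Q ∈ s, Divisor.degree (Finsupp.single Q 1 : Divisor K F) = 1 := fun Q _ => by
    rw [Divisor.degree_single, s26errg_deg_eq_one x hx Q]
    simp
  rw [Finset.sum_congr rfl this]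
  simp

/-- **uniform bound for the places that raise `ℓ`.** -/
theorem s17ppm_up_card (c : ℤ)
    (hc : ∀ A : Divisor K F, c ≤ Divisor.degree A →
      (finrank K ↥(riemannRochSpace A) : ℤ) = Divisor.degree A + 1 - genusFF K F)
    (E : Divisor K F)
    (hδ : Divisor.degree E + 1 - genusFF K F < (finrank K ↥(riemannRochSpace E) : ℤ))
    (B : Finset (Place K F))
    (hB : ∀ Q ∈ B, finrank K ↥(riemannRochSpace E) <
      finrank K ↥(riemannRochSpace (E + Finsupp.single Q 1))) :
    B.card < (c - Divisor.degree E).toNat := by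
  classical
  by_contra hlt
  rw [not_lt] at hlt
  obtain ⟨s, hsB, hcard⟩ := Finset.exists_subset_card_eq hlt
  have hchain := s17mrr_chain x hx E s (fun Q hQ => hB Q (hsB hQ))
  have hdeg := s17ppm_degree_add_sum x hx E s
  have hlarge := hc (E + ∑ Q ∈ s, Finsupp.single Q 1) (by
    rw [hdeg, hcard]
    have := Int.self_le_toNat (c - Divisor.degree E)
    omega)
  rw [hdeg] at hlarge
  have hchain' : (finrank K ↥(riemannRochSpace E) : ℤ) + s.card ≤
      finrank K ↥(riemannRochSpace (E + ∑ Q ∈ s, Finsupp.single Q 1)) := by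
    exact_mod_cast hchain
  omega

/-- **one step**: some `R ∈ S` lowers all `ℓ(D i) ≤ k + 1` to `≤ k` and keeps all `L(E j) = 0`. -/
theorem s17ppm_step (c : ℤ)
    (hc : ∀ A : Divisor K F, c ≤ Divisor.degree A →
      (finrank K ↥(riemannRochSpace A) : ℤ) = Divisor.degree A + 1 - genusFF K F)
    {n n' : ℕ} (D : Fin n → Divisor K F) (E : Fin n' → Divisor K F) (b : ℕ)
    (hd : ∀ i, Divisor.degree (D i) ≤ b)
    (k : ℕ) (hk : ∀ i, finrank K ↥(riemannRochSpace (D i)) ≤ k + 1)
    (hE0 : ∀ j, riemannRochSpace (E j) = ⊥)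
    (hEdeg : ∀ j, Divisor.degree (E j) < (genusFF K F : ℤ) - 1)
    (hEb : ∀ j, (c - Divisor.degree (E j)).toNat ≤ b)
    (S : Finset (Place K F)) (hS : (n + n') * b < S.card) :
    ∃ R ∈ S, (∀ i, finrank K ↥(riemannRochSpace (D i - Finsupp.single R 1)) ≤ k) ∧
      ∀ j, riemannRochSpace (E j + Finsupp.single R 1) = ⊥ := by
  classical
  haveI := s26err_hasPrincipalDivisors (K := K) x hx
  have hdeg : ∀ v : Place K F, v.deg = 1 := fun v => s26errg_deg_eq_one x hx v
  have hfin : ∀ A : Divisor K F, Module.Finite K ↥(riemannRochSpace A) :=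
    fun A => s26err_rr_finite' x hx A
  -- the bad sets
  set B : Fin n ⊕ Fin n' → Finset (Place K F) := fun o =>
    match o with
    | Sum.inl i =>
      if riemannRochSpace (D i) = ⊥ then ∅
      else S.filter (fun R =>
        riemannRochSpace (D i - Finsupp.single R 1) = riemannRochSpace (D i))
    | Sum.inr j => S.filter (fun Q => finrank K ↥(riemannRochSpace (E j)) <
        finrank K ↥(riemannRochSpace (E j + Finsupp.single Q 1)))
    with hBdef
  have hBcard : ∀ o, (B o).card ≤ b := by
    rintro (i | j)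
    · by_cases h0 : riemannRochSpace (D i) = ⊥
      · simp [hBdef, h0]
      · have h1 : B (Sum.inl i) = S.filter (fun R =>
            riemannRochSpace (D i - Finsupp.single R 1) = riemannRochSpace (D i)) := by
          simp [hBdef, h0]
        have h2 := s17cov_basepoints_card hdeg (D i) h0 (B (Sum.inl i)) (fun R hR => by
          rw [h1, Finset.mem_filter] at hR
          exact hR.2)
        have h3 := hd i
        have : ((B (Sum.inl i)).card : ℤ) ≤ (b : ℤ) := h2.trans h3
        exact_mod_cast this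
    · have h1 : B (Sum.inr j) = S.filter (fun Q => finrank K ↥(riemannRochSpace (E j)) <
          finrank K ↥(riemannRochSpace (E j + Finsupp.single Q 1))) := rfl
      have hδ : Divisor.degree (E j) + 1 - genusFF K F <
          (finrank K ↥(riemannRochSpace (E j)) : ℤ) := by
        have := hEdeg j
        have h0 : (0 : ℤ) ≤ (finrank K ↥(riemannRochSpace (E j)) : ℤ) := Int.natCast_nonneg _
        omega
      have h2 := s17ppm_up_card x hx c hc (E j) hδ (B (Sum.inr j)) (fun Q hQ => by
        rw [h1, Finset.mem_filter] at hQ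
        exact hQ.2)
      exact (Nat.le_of_lt h2).trans (hEb j)
  have hScard : Fintype.card (Fin n ⊕ Fin n') * b < S.card := by
    rw [Fintype.card_sum, Fintype.card_fin, Fintype.card_fin]
    exact hS
  obtain ⟨R, hRS, hRB⟩ := s17ppm_avoid S B b hBcard hScard
  refine ⟨R, hRS, fun i => ?_, fun j => ?_⟩
  · haveI := hfin (D i)
    haveI := hfin (D i - Finsupp.single R 1)
    by_cases h0 : riemannRochSpace (D i) = ⊥
    · have hle := s17cov_sub_single_le (D i) R
      rw [h0, le_bot_iff] at hle
      rw [hle, finrank_bot]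
      exact Nat.zero_le k
    · have hne : riemannRochSpace (D i - Finsupp.single R 1) ≠ riemannRochSpace (D i) := by
        intro heq
        apply hRB (Sum.inl i)
        have h1 : B (Sum.inl i) = S.filter (fun R =>
            riemannRochSpace (D i - Finsupp.single R 1) = riemannRochSpace (D i)) := by
          simp [hBdef, h0]
        rw [h1, Finset.mem_filter]
        exact ⟨hRS, heq⟩
      have hlt : riemannRochSpace (D i - Finsupp.single R 1) < riemannRochSpace (D i) :=
        lt_of_le_of_ne (s17cov_sub_single_le (D i) R) hne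
      have := Submodule.finrank_lt_finrank_of_lt hlt
      have := hk i
      omega
  · haveI := hfin (E j + Finsupp.single R 1)
    have hnot : ¬ finrank K ↥(riemannRochSpace (E j)) <
        finrank K ↥(riemannRochSpace (E j + Finsupp.single R 1)) := by
      intro hlt
      apply hRB (Sum.inr j)
      have h1 : B (Sum.inr j) = S.filter (fun Q => finrank K ↥(riemannRochSpace (E j)) <
          finrank K ↥(riemannRochSpace (E j + Finsupp.single Q 1))) := rfl
      rw [h1, Finset.mem_filter]
      exact ⟨hRS, hlt⟩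
    rw [not_lt, hE0 j, finrank_bot, Nat.le_zero] at hnot
    exact Submodule.finrank_eq_zero.1 hnot

/-- **iteration**: `k` places of `S` kill all `L(D i)` (`ℓ ≤ k`) and keep all `L(E j) = 0`. -/
theorem s17ppm_iter (c : ℤ)
    (hc : ∀ A : Divisor K F, c ≤ Divisor.degree A →
      (finrank K ↥(riemannRochSpace A) : ℤ) = Divisor.degree A + 1 - genusFF K F)
    {n n' : ℕ} (b : ℕ) (S : Finset (Place K F)) (hS : (n + n') * b < S.card) :
    ∀ (k : ℕ) (D : Fin n → Divisor K F) (E : Fin n' → Divisor K F),
      (∀ i, Divisor.degree (D i) ≤ b) →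
      (∀ i, finrank K ↥(riemannRochSpace (D i)) ≤ k) →
      (∀ j, riemannRochSpace (E j) = ⊥) →
      (∀ j, Divisor.degree (E j) + k ≤ (genusFF K F : ℤ) - 1) →
      (∀ j, (c - Divisor.degree (E j)).toNat ≤ b) →
      ∃ R : Fin k → Place K F, (∀ l, R l ∈ S) ∧
        (∀ i, riemannRochSpace (D i - ∑ l, Finsupp.single (R l) (1 : ℤ)) = ⊥) ∧
        ∀ j, riemannRochSpace (E j + ∑ l, Finsupp.single (R l) (1 : ℤ)) = ⊥ := by
  intro k
  induction k with
  | zero =>
    intro D E hd hk hE0 hEdeg hEb
    refine ⟨Fin.elim0, fun l => l.elim0, fun i => ?_, fun j => ?_⟩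
    · haveI := s26err_rr_finite' x hx (D i)
      have h0 : finrank K ↥(riemannRochSpace (D i)) = 0 := Nat.le_zero.1 (hk i)
      rw [Finset.univ_eq_empty, Finset.sum_empty, sub_zero]
      exact Submodule.finrank_eq_zero.1 h0
    · rw [Finset.univ_eq_empty, Finset.sum_empty, add_zero]
      exact hE0 j
  | succ k ih =>
    intro D E hd hk hE0 hEdeg hEb
    have hdeg1 : ∀ v : Place K F, v.deg = 1 := fun v => s26errg_deg_eq_one x hx v
    have hEdeg' : ∀ j, Divisor.degree (E j) < (genusFF K F : ℤ) - 1 := by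
      intro j
      have := hEdeg j
      push_cast at this
      omega
    obtain ⟨R₀, hR₀, hstepD, hstepE⟩ := s17ppm_step x hx c hc D E b hd k hk hE0 hEdeg' hEb S hS
    have hd' : ∀ i, Divisor.degree (D i - Finsupp.single R₀ 1) ≤ b := by
      intro i
      rw [map_sub, Divisor.degree_single, hdeg1 R₀]
      have := hd i
      push_cast
      linarith
    have hEdegS : ∀ j, Divisor.degree (E j + Finsupp.single R₀ 1) = Divisor.degree (E j) + 1 := by
      intro j
      rw [map_add, Divisor.degree_single, hdeg1 R₀]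
      push_cast
      ring
    have hEdeg'' : ∀ j, Divisor.degree (E j + Finsupp.single R₀ 1) + k ≤
        (genusFF K F : ℤ) - 1 := by
      intro j
      rw [hEdegS j]
      have := hEdeg j
      push_cast at this
      omega
    have hEb' : ∀ j, (c - Divisor.degree (E j + Finsupp.single R₀ 1)).toNat ≤ b := by
      intro j
      rw [hEdegS j]
      refine le_trans ?_ (hEb j)
      exact Int.toNat_le_toNat (by omega)
    obtain ⟨R, hR, hbotD, hbotE⟩ := ih (fun i => D i - Finsupp.single R₀ 1)
      (fun j => E j + Finsupp.single R₀ 1) hd' hstepD hstepE hEdeg'' hEb'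
    refine ⟨Fin.cons R₀ R, fun l => ?_, fun i => ?_, fun j => ?_⟩
    · refine Fin.cases ?_ (fun l => ?_) l
      · simpa using hR₀
      · simpa using hR l
    · have h1 : D i - ∑ l, Finsupp.single ((Fin.cons R₀ R : Fin (k + 1) → Place K F) l) (1 : ℤ)
          = D i - Finsupp.single R₀ 1 - ∑ l, Finsupp.single (R l) (1 : ℤ) := by
        rw [Fin.sum_univ_succ]
        simp only [Fin.cons_zero, Fin.cons_succ]
        abel
      rw [h1]
      exact hbotD i
    · have h1 : E j + ∑ l, Finsupp.single ((Fin.cons R₀ R : Fin (k + 1) → Place K F) l) (1 : ℤ)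
          = E j + Finsupp.single R₀ 1 + ∑ l, Finsupp.single (R l) (1 : ℤ) := by
        rw [Fin.sum_univ_succ]
        simp only [Fin.cons_zero, Fin.cons_succ]
        abel
      rw [h1]
      exact hbotE j

/-- **TWO-SIDED COVER, divisor form.** -/
theorem s17ppm_exists :
    ∃ m M : ℕ, ∀ (Q₀ : Place K F) (n n' : ℕ) (Y : Fin n → Divisor K F)
      (Y' : Fin n' → Divisor K F),
      (∀ i, Divisor.degree (Y i) = (genusFF K F : ℤ) - 1) →
      (∀ j, Divisor.degree (Y' j) = (genusFF K F : ℤ) - 1) →
      ∀ S : Finset (Place K F), (n + n') * M < S.card →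
      ∃ R : Fin m → Place K F, (∀ l, R l ∈ S) ∧
        (∀ i, riemannRochSpace (Y i + Finsupp.single Q₀ (m : ℤ)
          - ∑ l, Finsupp.single (R l) (1 : ℤ)) = ⊥) ∧
        ∀ j, riemannRochSpace (Y' j - Finsupp.single Q₀ (m : ℤ)
          + ∑ l, Finsupp.single (R l) (1 : ℤ)) = ⊥ := by
  haveI := s26err_hasPrincipalDivisors (K := K) x hx
  have hdeg : ∀ v : Place K F, v.deg = 1 := fun v => s26errg_deg_eq_one x hx v
  obtain ⟨c, hc⟩ := s27rr_large x hx
  set m : ℕ := (c - ((genusFF K F : ℤ) - 1)).toNat + genusFF K F with hm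
  set M : ℕ := (genusFF K F + m) + (c - ((genusFF K F : ℤ) - 1 - m)).toNat with hM
  refine ⟨m, M, fun Q₀ n n' Y Y' hY hY' S hS => ?_⟩
  have hmc : c ≤ (genusFF K F : ℤ) - 1 + m := by
    have := Int.self_le_toNat (c - ((genusFF K F : ℤ) - 1))
    rw [hm]
    push_cast
    linarith
  have hmg : (genusFF K F : ℤ) ≤ m := by
    rw [hm]
    push_cast
    have : (0 : ℤ) ≤ ((c - ((genusFF K F : ℤ) - 1)).toNat : ℤ) := Int.natCast_nonneg _
    linarith
  have hZdeg : ∀ i, Divisor.degree (Y i + Finsupp.single Q₀ (m : ℤ))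
      = (genusFF K F : ℤ) - 1 + m := by
    intro i
    rw [map_add, hY i, Divisor.degree_single, hdeg Q₀]
    push_cast
    ring
  have hZ'deg : ∀ j, Divisor.degree (Y' j - Finsupp.single Q₀ (m : ℤ))
      = (genusFF K F : ℤ) - 1 - m := by
    intro j
    rw [map_sub, hY' j, Divisor.degree_single, hdeg Q₀]
    push_cast
    ring
  refine s17ppm_iter x hx c hc M S hS m
    (fun i => Y i + Finsupp.single Q₀ (m : ℤ)) (fun j => Y' j - Finsupp.single Q₀ (m : ℤ))
    (fun i => ?_) (fun i => ?_) (fun j => ?_) (fun j => ?_) (fun j => ?_)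
  · rw [hZdeg i, hM]
    push_cast
    have : (0 : ℤ) ≤ ((c - ((genusFF K F : ℤ) - 1 - m)).toNat : ℤ) := Int.natCast_nonneg _
    linarith
  · have h1 := hc (Y i + Finsupp.single Q₀ (m : ℤ)) (by rw [hZdeg i]; exact hmc)
    rw [hZdeg i] at h1
    have : (finrank K ↥(riemannRochSpace (Y i + Finsupp.single Q₀ (m : ℤ))) : ℤ) = m := by
      rw [h1]; ring
    have h2 : finrank K ↥(riemannRochSpace (Y i + Finsupp.single Q₀ (m : ℤ))) = m := by
      exact_mod_cast this
    exact h2.le
  · refine rr_eq_bot_of_degree_neg (K := K) (F := F) ?_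
    rw [hZ'deg j]
    linarith
  · rw [hZ'deg j]
    linarith
  · rw [hZ'deg j, hM]
    exact Nat.le_add_left _ _

end AlgClosed

end Fermat.Agent.S17

end
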