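/-
S17 sprint, layer H — **the finite TWO-SIDED POOL of classes** (helper97).

`K` algebraically closed, `F / K` a function field of one variable, `Ao` of degree `g − 1`,
`Θ_{Ao} = {x : L(Ao − x) ≠ 0}` (`S17mvcOff Ao x` : `x ∉ Θ_{Ao}`, S17/MoveCls.lean).

* `s17ppc_pool` : for every `k` and every finite set `T₀` of places there is a FINITE set `T` of
  divisors of degree `0`, all supported off `T₀`, all with `L(Ao − D) = 0 = L(Ao + D)`, such that
  for ANY `k` classes `c 1, …, c k` some `D ∈ T` has `c i + [D]`, `c i − [D]` off `Θ_{Ao}` for all `i`;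
* `s17ppc_pool_one` : the case `k = 1`.
So the SQUARE at the finitely many `D ∈ T` gives a FINITE family `(Φ_D⁻¹)_{D ∈ T}` which is
base-point-free (MOVING at every centre `c` with ONE of the finitely many `D`).
-/
import Fermat.Agent.S17.PoolPM

set_option autoImplicit false
set_option linter.unusedVariables false
set_option linter.unusedSectionVars false
set_option linter.style.haveILetI false

noncomputable section

namespace Fermat.Agent.S17

open AlgebraicCurve Module IntermediateField Fermat.Agent.S24 Fermat.Agent.ES.R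
  Fermat.Agent.S26 Fermat.Agent.S27

variable {K F : Type*} [Field K] [Field F] [Algebra K F]

/-- the divisor `m · Q₀ − Σ_l R l`. -/
def s17ppcDiv (Q₀ : Place K F) {m : ℕ} (R : Fin m → Place K F) : Divisor K F :=
  Finsupp.single Q₀ (m : ℤ) - ∑ l, Finsupp.single (R l) (1 : ℤ)

/-- `m · Q₀ − Σ_l R l` vanishes at the places different from `Q₀` and all `R l`. -/
theorem s17ppcDiv_apply_eq_zero (Q₀ : Place K F) {m : ℕ} (R : Fin m → Place K F)
    (v : Place K F) (h0 : v ≠ Q₀) (hR : ∀ l, v ≠ R l) : s17ppcDiv Q₀ R v = 0 := by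
  classical
  unfold s17ppcDiv
  rw [Finsupp.sub_apply, Finsupp.finsetSum_apply, Finsupp.single_apply, if_neg (Ne.symm h0)]
  rw [Finset.sum_eq_zero]
  · simp
  · intro l _
    rw [Finsupp.single_apply, if_neg (Ne.symm (hR l))]

section AlgClosed

variable [IsAlgClosed K] (x : F) (hx : Transcendental K x) [FiniteDimensional K⟮x⟯ F]

include hx

/-- `m · Q₀ − Σ_l R l` has degree `0`. -/
theorem s17ppcDiv_degree (Q₀ : Place K F) {m : ℕ} (R : Fin m → Place K F) :
    Divisor.degree (s17ppcDiv Q₀ R) = 0 := by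
  unfold s17ppcDiv
  rw [map_sub, map_sum, Divisor.degree_single, s26errg_deg_eq_one x hx Q₀]
  have : ∀ l ∈ (Finset.univ : Finset (Fin m)),
      Divisor.degree (Finsupp.single (R l) 1 : Divisor K F) = 1 := fun l _ => by
    rw [Divisor.degree_single, s26errg_deg_eq_one x hx (R l)]
    simp
  rw [Finset.sum_congr rfl this]
  simp

/-- **the finite two-sided pool**, for `k` classes at once. -/
theorem s17ppc_pool (Ao : Divisor K F)
    (hAo : Divisor.degree Ao = (genusFF K F : ℤ) - 1) (k : ℕ) (T₀ : Finset (Place K F)) :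
    ∃ T : Finset (Divisor.degZero (K := K) (F := F)),
      (∀ D ∈ T, (∀ v ∈ T₀, (D : Divisor K F) v = 0) ∧
        riemannRochSpace (Ao - (D : Divisor K F)) = ⊥ ∧
        riemannRochSpace (Ao + (D : Divisor K F)) = ⊥) ∧
      ∀ c : Fin k → Pic0 K F, ∃ D ∈ T,
        ∀ i, S17mvcOff Ao (c i + Pic0.mk D) ∧ S17mvcOff Ao (c i - Pic0.mk D) := by
  classical
  haveI : Infinite (Place K F) := s26errg_infinite_place x hx
  obtain ⟨m, M, hcov⟩ := s17ppm_exists x hx
  obtain ⟨Q₀, hQ₀⟩ := Infinite.exists_notMem_finset T₀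
  have hinf : ((T₀ : Set (Place K F))ᶜ).Infinite := (Finset.finite_toSet T₀).infinite_compl
  obtain ⟨S, hST₀, hScard⟩ := hinf.exists_subset_card_eq (((k + 1) + (k + 1)) * M + 1)
  have hSoff : ∀ v ∈ S, v ∉ T₀ := fun v hv hvT => hST₀ (Finset.mem_coe.2 hv) (Finset.mem_coe.2 hvT)
  -- the candidates
  set f : (Fin m → Place K F) → Divisor.degZero (K := K) (F := F) :=
    fun R => ⟨s17ppcDiv Q₀ R, s17ppcDiv_degree x hx Q₀ R⟩ with hf
  set T : Finset (Divisor.degZero (K := K) (F := F)) :=
    ((Fintype.piFinset fun _ : Fin m => S).image f).filter (fun D =>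
      riemannRochSpace (Ao - (D : Divisor K F)) = ⊥ ∧
        riemannRochSpace (Ao + (D : Divisor K F)) = ⊥) with hT
  refine ⟨T, fun D hD => ?_, fun c => ?_⟩
  · rw [hT, Finset.mem_filter, Finset.mem_image] at hD
    obtain ⟨⟨R, hR, rfl⟩, h1, h2⟩ := hD
    rw [Fintype.mem_piFinset] at hR
    refine ⟨fun v hv => ?_, h1, h2⟩
    refine s17ppcDiv_apply_eq_zero Q₀ R v ?_ ?_
    · rintro rfl
      exact hQ₀ hv
    · rintro l rfl
      exact hSoff _ (hR l) hv
  · choose X hX using fun i => Pic0.mk_surjective (K := K) (F := F) (c i)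
    have hXdeg : ∀ i, Divisor.degree ((X i : Divisor K F)) = 0 := fun i => (X i).2
    set Y : Fin (k + 1) → Divisor K F := Fin.cons Ao (fun i => Ao - (X i : Divisor K F)) with hY
    have hYdeg : ∀ i, Divisor.degree (Y i) = (genusFF K F : ℤ) - 1 := by
      intro i
      refine Fin.cases ?_ (fun i => ?_) i
      · simpa [hY] using hAo
      · simp only [hY, Fin.cons_succ]
        rw [map_sub, hXdeg i, hAo, sub_zero]
    obtain ⟨R, hRS, hdown, hup⟩ := hcov Q₀ (k + 1) (k + 1) Y Y hYdeg hYdeg S (by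
      rw [hScard]; exact Nat.lt_succ_self _)
    have hmem : f R ∈ (Fintype.piFinset fun _ : Fin m => S).image f :=
      Finset.mem_image_of_mem f (Fintype.mem_piFinset.2 hRS)
    have hfR : ((f R : Divisor.degZero (K := K) (F := F)) : Divisor K F) = s17ppcDiv Q₀ R := rfl
    -- the two conditions at `Ao`
    have hd0 := hdown 0
    have hu0 := hup 0
    simp only [hY, Fin.cons_zero] at hd0 hu0
    have e1 : Ao + s17ppcDiv Q₀ R =
        Ao + Finsupp.single Q₀ (m : ℤ) - ∑ l, Finsupp.single (R l) (1 : ℤ) := by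
      unfold s17ppcDiv; abel
    have e2 : Ao - s17ppcDiv Q₀ R =
        Ao - Finsupp.single Q₀ (m : ℤ) + ∑ l, Finsupp.single (R l) (1 : ℤ) := by
      unfold s17ppcDiv; abel
    refine ⟨f R, ?_, fun i => ⟨?_, ?_⟩⟩
    · rw [hT, Finset.mem_filter]
      refine ⟨hmem, ?_, ?_⟩
      · rw [hfR, e2]; exact hu0
      · rw [hfR, e1]; exact hd0
    · -- `c i + [D]` off theta: representative `X i + D`, `Ao − X i − D`
      rw [← hX i, ← Pic0.mk_add]
      refine s17mvc_off_of_rep Ao _ ?_
      have hui := hup i.succ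
      simp only [hY, Fin.cons_succ] at hui
      have e : Ao - ((X i + f R : Divisor.degZero (K := K) (F := F)) : Divisor K F) =
          Ao - (X i : Divisor K F) - Finsupp.single Q₀ (m : ℤ)
            + ∑ l, Finsupp.single (R l) (1 : ℤ) := by
        rw [AddSubgroup.coe_add, hfR]
        unfold s17ppcDiv
        abel
      rw [e]
      exact hui
    · -- `c i − [D]` off theta: representative `X i − D`, `Ao − X i + D`
      have hsub : c i - Pic0.mk (f R) = Pic0.mk (X i - f R) := by
        rw [← hX i]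
        rfl
      rw [hsub]
      refine s17mvc_off_of_rep Ao _ ?_
      have hdi := hdown i.succ
      simp only [hY, Fin.cons_succ] at hdi
      have e : Ao - ((X i - f R : Divisor.degZero (K := K) (F := F)) : Divisor K F) =
          Ao - (X i : Divisor K F) + Finsupp.single Q₀ (m : ℤ)
            - ∑ l, Finsupp.single (R l) (1 : ℤ) := by
        rw [AddSubgroup.coe_sub, hfR]
        unfold s17ppcDiv
        abel
      rw [e]
      exact hdi

/-- **the finite two-sided pool**, one class. -/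
theorem s17ppc_pool_one (Ao : Divisor K F)
    (hAo : Divisor.degree Ao = (genusFF K F : ℤ) - 1) (T₀ : Finset (Place K F)) :
    ∃ T : Finset (Divisor.degZero (K := K) (F := F)),
      (∀ D ∈ T, (∀ v ∈ T₀, (D : Divisor K F) v = 0) ∧
        riemannRochSpace (Ao - (D : Divisor K F)) = ⊥ ∧
        riemannRochSpace (Ao + (D : Divisor K F)) = ⊥) ∧
      ∀ c : Pic0 K F, ∃ D ∈ T,
        S17mvcOff Ao (c + Pic0.mk D) ∧ S17mvcOff Ao (c - Pic0.mk D) := by
  obtain ⟨T, hT, h⟩ := s17ppc_pool x hx Ao hAo 1 T₀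
  refine ⟨T, hT, fun c => ?_⟩
  obtain ⟨D, hD, hc⟩ := h (fun _ => c)
  exact ⟨D, hD, hc 0⟩

end AlgClosed

end Fermat.Agent.S17

end
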