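/-
S17 sprint, layer H — **BPF, CLOSED** (helper97): the finite base-point-free family at the
`L`-level with `N = 2`, WITHOUT hypotheses on a pool: helper95's `s17bpl_bpf` (S17/BpfPool.lean)
fed with the finite two-sided pool `s17ppc_pool_one` (S17/PoolPMCls.lean).

* `s17bpc_bpf` : on the stage, for `Ao` with `L(Ao) = 0`, `deg Ao = g − 1`:
  `∃ (T : Finset degZero) (s : T → L), (∀ D, s D ≠ 0) ∧ ∀ y (local equations of Θ_{Ao} at η along
  all W ⊇ K), S17muBpf K y 2 s`;
* `s17bpc_bpf_fin` : the same with the index type `Fin n`.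
-/
import Fermat.Agent.S17.BpfPool
import Fermat.Agent.S17.PoolPMCls

set_option autoImplicit false
set_option linter.style.haveILetI false
set_option linter.unusedSectionVars false
set_option linter.unusedVariables false

noncomputable section

namespace Fermat.Agent.S17

open AlgebraicCurve Module TensorProduct IntermediateField Fermat.Agent.S26 Fermat.Agent.S27

universe u v y

section Stage

variable {K : Type u} {F : Type v} [Field K] [IsAlgClosed K] [CharZero K] [Field F] [Algebra K F]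
  [IsCurveOver K F] [Algebra.EssFiniteType K F]
  {L : Type (max u v)} [Field L] [Algebra K L]
  [Algebra (s27gfOm K F (genusFF K F)) L] [IsScalarTower K (s27gfOm K F (genusFF K F)) L]
  [IsAlgClosed L] [Algebra.IsAlgebraic (s27gfOm K F (genusFF K F)) L]
  {FL : Type y} [Field FL] [Algebra K FL] [Algebra F FL] [Algebra L FL]
  [IsScalarTower K F FL] [IsScalarTower K L FL]
  (hld : Function.Injective (s26gspMu K F L FL)) (hgen : S26gspGen K F L FL)
  {x : F} (hx : Transcendental K x)
  [FiniteDimensional ↥(IntermediateField.adjoin K {x}) F]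
  [Algebra.IsSeparable ↥(IntermediateField.adjoin K {x}) F]
  [IsGalois (s27gfSym K F (genusFF K F)) L]
  (G₀ : Divisor K F) (hG₀ : Divisor.degree G₀ = (genusFF K F : ℤ))

/-- **the finite base-point-free family** (`L`-level, `N = 2`, all `W ⊇ K`), closed form. -/
theorem s17bpc_bpf (hg : 0 < genusFF K F) (hG0 : 0 ≤ G₀) (Ao : Divisor K F)
    (hAo : riemannRochSpace Ao = ⊥) (hAod : Divisor.degree Ao = (genusFF K F : ℤ) - 1)
    (O : Place K F) :
    ∃ (T : Finset (Divisor.degZero (K := K) (F := F))) (s : T → L),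
      (∀ D, s D ≠ 0) ∧ ∀ y : ValuationSubring L → L,
      (∀ W : ValuationSubring L, S27IsKValU K W → S27icIdx hld hgen hx Ao W
        (s27pfCl (s27dclPkg hld hgen hx G₀ hG₀)
          (s27pfTaut (K := K) (F := F) (g := genusFF K F) (L := L))) (y W)) →
      S17muBpf K y 2 s := by
  obtain ⟨T, hT, hcov⟩ := s17ppc_pool_one x hx Ao hAod ∅
  obtain ⟨s, hs0, hs⟩ := s17bpl_bpf hld hgen hx G₀ hG₀ hg hG0 Ao hAo hAod O T
    (fun D hD => ⟨(hT D hD).2.1, (hT D hD).2.2⟩) hcov
  exact ⟨T, s, hs0, hs⟩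

/-- the same with the index type `Fin n`, `0 < n`. -/
theorem s17bpc_bpf_fin (hg : 0 < genusFF K F) (hG0 : 0 ≤ G₀) (Ao : Divisor K F)
    (hAo : riemannRochSpace Ao = ⊥) (hAod : Divisor.degree Ao = (genusFF K F : ℤ) - 1)
    (O : Place K F) :
    ∃ (n : ℕ) (s : Fin n → L),
      (∀ i, s i ≠ 0) ∧ ∀ y : ValuationSubring L → L,
      (∀ W : ValuationSubring L, S27IsKValU K W → S27icIdx hld hgen hx Ao W
        (s27pfCl (s27dclPkg hld hgen hx G₀ hG₀)
          (s27pfTaut (K := K) (F := F) (g := genusFF K F) (L := L))) (y W)) →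
      S17muBpf K y 2 s := by
  classical
  obtain ⟨T, s, hs0, hs⟩ := s17bpc_bpf hld hgen hx G₀ hG₀ hg hG0 Ao hAo hAod O
  refine ⟨T.card, fun i => s (T.equivFin.symm i), fun i => hs0 _, fun y hy W hW => ?_⟩
  obtain ⟨hmem, D, hD⟩ := hs y hy W hW
  refine ⟨fun i => hmem _, T.equivFin D, ?_⟩
  simpa using hD

end Stage

end Fermat.Agent.S17

end
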