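/-
S17 sprint, layer H, leaf PlM-BPF — **POWER TRICK** (helper58): a FINITE pool needs no uniform
NORM exponent.

The square (theorem of the square, upstairs) + NORM (`s27nm_norm`) give, for every member `i` of
the pool, an exponent `e i > 0` and `φ i ∈ 𝔉` with

    `(X i V) ^ (e i) ≐_V φ i · (b V ^ M) ^ (e i)`        (`X i V = y₊ V · y₋ V`, `M = 2`)

at every valuation subring `V ⊇ K`; the exponent `e i = deg minpoly_𝔉 Φ'_i` DEPENDS ON `i`.
For a FINITE pool put `E := ∏ i, e i` and `f i := φ i ^ (E / e i)`.  Then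

    `f i · b V ^ (M · E) ≐_V (X i V) ^ E`,

so `f` lies in `L(M · E · D)` and has no common zero as soon as for every `V` some `X i V` is a
unit (MOVING):  `S17muBpf K b (M · E) f`.

* `s17bpwE e`, `s17bpwF e φ`   : the common exponent and the powered family;
* `s17bpw_at`                  : the statement at ONE valuation subring (use it for any class of
                                 valuation subrings: all `V ⊇ K`, or the `K`-places only);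
* `s17bpw_muBpf`, `s17bpw_trBpf` : `S17muBpf` / `S17trBpf` of the powered family;
* `s17bpw_pmkBpf`              : the same at the `K`-places only (`S17pmkBpf`);
* `s17bpw_norm`                : directly from the UPSTAIRS relations (`Φ' i ∈ 𝔏`, hypothesis of
                                 `s27nm_norm`), `e i = s27nmE 𝔉 (Φ' i)`, `φ i = s27nmPhi 𝔉 (Φ' i)`.
-/
import Fermat.Agent.S27.Norm
import Fermat.Agent.S17.Mult
import Fermat.Agent.S17.Transl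
import Fermat.Agent.S17.PlMK

set_option autoImplicit false
set_option linter.unusedVariables false
set_option linter.unusedSectionVars false

noncomputable section

namespace Fermat.Agent.S17

open Fermat.Agent.S27

universe u w w' x

section Core

variable {𝔉 : Type w} [Field 𝔉] {ι : Type x} [Fintype ι]

/-- the common exponent of a finite pool. -/
def s17bpwE (e : ι → ℕ) : ℕ := ∏ i, e i

/-- the powered family. -/
def s17bpwF (e : ι → ℕ) (φ : ι → 𝔉) : ι → 𝔉 := fun i => φ i ^ (s17bpwE e / e i)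

theorem s17bpwE_pos {e : ι → ℕ} (he : ∀ i, 0 < e i) : 0 < s17bpwE e :=
  Finset.prod_pos fun i _ => he i

theorem s17bpw_dvd (e : ι → ℕ) (i : ι) : e i ∣ s17bpwE e :=
  Finset.dvd_prod_of_mem e (Finset.mem_univ i)

theorem s17bpw_mul_div (e : ι → ℕ) (i : ι) : e i * (s17bpwE e / e i) = s17bpwE e :=
  Nat.mul_div_cancel' (s17bpw_dvd e i)

theorem s17bpw_unit_pow {V : ValuationSubring 𝔉} {a : 𝔉} (ha : S27IsUnitIn V a) (k : ℕ) :
    S27IsUnitIn V (a ^ k) :=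
  ⟨pow_ne_zero _ ha.1, V.pow_mem ha.2.1 k, by rw [← inv_pow]; exact V.pow_mem ha.2.2 k⟩

theorem s17bpw_unit_mul {V : ValuationSubring 𝔉} {a c : 𝔉} (ha : S27IsUnitIn V a)
    (hc : S27IsUnitIn V c) : S27IsUnitIn V (a * c) :=
  ⟨mul_ne_zero ha.1 hc.1, V.mul_mem _ _ ha.2.1 hc.2.1, by
    rw [mul_inv]
    exact V.mul_mem _ _ ha.2.2 hc.2.2⟩

theorem s17bpw_unit_inv {V : ValuationSubring 𝔉} {a : 𝔉} (ha : S27IsUnitIn V a) :
    S27IsUnitIn V a⁻¹ :=
  ⟨inv_ne_zero ha.1, ha.2.2, by rw [inv_inv]; exact ha.2.1⟩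

/-- the powered relation for ONE member: `f i · b ^ (M · E) = (u⁻¹ · X ^ e) ^ (E / e)`. -/
theorem s17bpw_eq (e : ι → ℕ) (φ : ι → 𝔉) (i : ι) {b X u : 𝔉} {M : ℕ} (hu : u ≠ 0)
    (h : X ^ e i = u * φ i * (b ^ M) ^ e i) :
    s17bpwF e φ i * b ^ (M * s17bpwE e) = (u⁻¹ * X ^ e i) ^ (s17bpwE e / e i) := by
  have h1 : u⁻¹ * X ^ e i = φ i * (b ^ M) ^ e i := by
    rw [h, ← mul_assoc, ← mul_assoc, inv_mul_cancel₀ hu, one_mul]
  have h2 : b ^ (M * s17bpwE e) = ((b ^ M) ^ e i) ^ (s17bpwE e / e i) := by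
    rw [← pow_mul, ← pow_mul, s17bpw_mul_div]
  rw [h1, mul_pow, h2]
  rfl

/-- **POWER TRICK at one valuation subring.** -/
theorem s17bpw_at (V : ValuationSubring 𝔉) (b : 𝔉) (M : ℕ) (e : ι → ℕ) (φ : ι → 𝔉)
    (X : ι → 𝔉) (hX : ∀ i, X i ∈ V)
    (hn : ∀ i, ∃ u : 𝔉, S27IsUnitIn V u ∧ X i ^ e i = u * φ i * (b ^ M) ^ e i)
    (hmove : ∃ i, S27IsUnitIn V (X i)) :
    (∀ i, s17bpwF e φ i * b ^ (M * s17bpwE e) ∈ V) ∧
      ∃ i, S27IsUnitIn V (s17bpwF e φ i * b ^ (M * s17bpwE e)) := by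
  refine ⟨fun i => ?_, ?_⟩
  · obtain ⟨u, hu, hux⟩ := hn i
    rw [s17bpw_eq e φ i hu.1 hux]
    exact V.pow_mem (V.mul_mem _ _ hu.2.2 (V.pow_mem (hX i) _)) _
  · obtain ⟨i, hi⟩ := hmove
    obtain ⟨u, hu, hux⟩ := hn i
    refine ⟨i, ?_⟩
    rw [s17bpw_eq e φ i hu.1 hux]
    exact s17bpw_unit_pow (s17bpw_unit_mul (s17bpw_unit_inv hu) (s17bpw_unit_pow hi _)) _

end Core

section Families

variable {K : Type u} [Field K] {𝔉 : Type w} [Field 𝔉] [Algebra K 𝔉] {ι : Type x} [Fintype ι]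

/-- **POWER TRICK, all `V ⊇ K`**: the powered family of a finite pool is base-point-free. -/
theorem s17bpw_muBpf (b : ValuationSubring 𝔉 → 𝔉) (M : ℕ) (e : ι → ℕ) (φ : ι → 𝔉)
    (X : ι → ValuationSubring 𝔉 → 𝔉)
    (hX : ∀ V : ValuationSubring 𝔉, S27IsKValU K V → ∀ i, X i V ∈ V)
    (hn : ∀ i, ∀ V : ValuationSubring 𝔉, S27IsKValU K V →
      ∃ u : 𝔉, S27IsUnitIn V u ∧ X i V ^ e i = u * φ i * (b V ^ M) ^ e i)
    (hmove : ∀ V : ValuationSubring 𝔉, S27IsKValU K V → ∃ i, S27IsUnitIn V (X i V)) :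
    S17muBpf K b (M * s17bpwE e) (s17bpwF e φ) :=
  fun V hV => s17bpw_at V (b V) M e φ (fun i => X i V) (hX V hV) (fun i => hn i V hV)
    (hmove V hV)

/-- the same in the shape of S17/Transl.lean. -/
theorem s17bpw_trBpf (b : ValuationSubring 𝔉 → 𝔉) (M : ℕ) (e : ι → ℕ) (φ : ι → 𝔉)
    (X : ι → ValuationSubring 𝔉 → 𝔉)
    (hX : ∀ V : ValuationSubring 𝔉, S27IsKValU K V → ∀ i, X i V ∈ V)
    (hn : ∀ i, ∀ V : ValuationSubring 𝔉, S27IsKValU K V →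
      ∃ u : 𝔉, S27IsUnitIn V u ∧ X i V ^ e i = u * φ i * (b V ^ M) ^ e i)
    (hmove : ∀ V : ValuationSubring 𝔉, S27IsKValU K V → ∃ i, S27IsUnitIn V (X i V)) :
    S17trBpf K b (M * s17bpwE e) (s17bpwF e φ) :=
  fun V hV => s17bpw_at V (b V) M e φ (fun i => X i V) (hX V hV) (fun i => hn i V hV)
    (hmove V hV)

/-- **POWER TRICK, `K`-places only.** -/
theorem s17bpw_pmkBpf (b : ValuationSubring 𝔉 → 𝔉) (M : ℕ) (e : ι → ℕ) (φ : ι → 𝔉)
    (X : ι → ValuationSubring 𝔉 → 𝔉)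
    (hX : ∀ P : S17plPlace K 𝔉, ∀ i, X i P.W ∈ P.W)
    (hn : ∀ i, ∀ P : S17plPlace K 𝔉,
      ∃ u : 𝔉, S27IsUnitIn P.W u ∧ X i P.W ^ e i = u * φ i * (b P.W ^ M) ^ e i)
    (hmove : ∀ P : S17plPlace K 𝔉, ∃ i, S27IsUnitIn P.W (X i P.W)) :
    S17pmkBpf K b (M * s17bpwE e) (s17bpwF e φ) :=
  fun P => s17bpw_at P.W (b P.W) M e φ (fun i => X i P.W) (hX P) (fun i => hn i P) (hmove P)

/-- a base-point-free family with exponent `1` everywhere is the family itself. -/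
theorem s17bpwF_one (φ : ι → 𝔉) : s17bpwF (fun _ : ι => 1) φ = φ := by
  funext i
  unfold s17bpwF s17bpwE
  simp

end Families

section Norm

variable {K : Type u} [Field K] {𝔉 : Type w} [Field 𝔉] [Algebra K 𝔉]
  {𝔏 : Type w'} [Field 𝔏] [Algebra 𝔉 𝔏] [Algebra K 𝔏] [IsScalarTower K 𝔉 𝔏]
  {ι : Type x} [Fintype ι]

/-- **POWER TRICK after NORM**: upstairs relations `X i V ≐_W Φ' i · b V ^ M` (`Φ' i ∈ 𝔏ˣ`, the
hypothesis of `s27nm_norm`) for a FINITE pool, integrality of the `X i V` and MOVING give a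
base-point-free family in `L(M · E · D)` downstairs, `E = ∏ i, deg minpoly_𝔉 (Φ' i)`. -/
theorem s17bpw_norm [Normal 𝔉 𝔏] (b : ValuationSubring 𝔉 → 𝔉) (M : ℕ)
    (X : ι → ValuationSubring 𝔉 → 𝔉) (Φ' : ι → 𝔏) (hΦ' : ∀ i, Φ' i ≠ 0)
    (h : ∀ i, ∀ W : ValuationSubring 𝔏, S27IsKValU K W → ∃ u : 𝔏, S27IsUnitIn W u ∧
      algebraMap 𝔉 𝔏 (X i (W.comap (algebraMap 𝔉 𝔏))) =
        u * Φ' i * algebraMap 𝔉 𝔏 (b (W.comap (algebraMap 𝔉 𝔏)) ^ M))
    (hX : ∀ V : ValuationSubring 𝔉, S27IsKValU K V → ∀ i, X i V ∈ V)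
    (hmove : ∀ V : ValuationSubring 𝔉, S27IsKValU K V → ∃ i, S27IsUnitIn V (X i V)) :
    S17muBpf K b (M * s17bpwE fun i => s27nmE 𝔉 (Φ' i))
      (s17bpwF (fun i => s27nmE 𝔉 (Φ' i)) fun i => s27nmPhi 𝔉 (Φ' i)) :=
  s17bpw_muBpf b M _ _ X hX
    (fun i V hV => s27nm_norm (K := K) (X i) (fun V => b V ^ M) (Φ' i) (hΦ' i)
      (fun W hW => by simpa only [map_pow] using h i W hW) V hV) hmove

/-- the exponent of `s17bpw_norm` is positive. -/
theorem s17bpw_norm_pos [Normal 𝔉 𝔏] (Φ' : ι → 𝔏) :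
    0 < s17bpwE fun i => s27nmE 𝔉 (Φ' i) :=
  s17bpwE_pos fun i => s27nmE_pos (Φ' i)

/-- the members of the family of `s17bpw_norm` are nonzero. -/
theorem s17bpw_norm_ne [Normal 𝔉 𝔏] (Φ' : ι → 𝔏) (hΦ' : ∀ i, Φ' i ≠ 0) (i : ι) :
    s17bpwF (fun i => s27nmE 𝔉 (Φ' i)) (fun i => s27nmPhi 𝔉 (Φ' i)) i ≠ 0 :=
  pow_ne_zero _ (s27nmPhi_ne (hΦ' i))

end Norm

end Fermat.Agent.S17

end
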