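/-
S17 sprint, layer H — **CENTRE-UNIQ** (helper4): a class with a UNIQUE, MULTIPLICITY-FREE effective
divisor forces the centres of every tuple of that class to be pairwise distinct.

`F / K` a function field with the prelude's places (all of degree one), `O` a divisor of degree
`g`, `s27pkgClO hdeg O hO R = [Σ_i R i − O]`.

* `s17cu_const`     : `D ≥ 0`, `ℓ(D) = 1` ⇒ every `f ∈ L(D)` is a constant;
* `s17cu_sum_eq`    : `ℓ(Σ S) = 1` and `[Σ R − O] = [Σ S − O]` ⇒ `Σ R = Σ S` as divisors;
* `s17cu_injective` : if moreover `S` is injective (the divisor `Σ S` is multiplicity-free), then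
                      `R` is injective: the points `R i` are PAIRWISE DISTINCT;
* `s17cu_perm`      : and `R = S ∘ π` for a permutation `π`.

USE (note "MOVE-VAL at colliding centres", helper4 07:02Z): `S = Q′` the universal tuple of
`s17mvn_exists` (`T = 0`), `R = ` the centres of the tautological tuple along the translated place
`W.comap ρ_a`, `a = [Σ Q′ − G₀] − sp_W η`; then UNIT-CRIT (distinct closed centres) applies to the
tuple `ρ_a ∘ taut` of the class `η`, and LE-CLASS gives MOVE-VAL at EVERY `K`-place.
-/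
import Fermat.Agent.S27.DegPkgO
import Fermat.Agent.S24.GaloisCount

set_option autoImplicit false
set_option linter.unusedSectionVars false
set_option linter.unusedVariables false
set_option linter.style.haveILetI false

noncomputable section

namespace Fermat.Agent.S17

open AlgebraicCurve Module Fermat.Agent.S27

variable {K : Type*} {F : Type*} [Field K] [Field F] [Algebra K F]

/-- `1 ∈ L(D)` for `D ≥ 0`. -/
theorem s17cu_one_mem (D : Divisor K F) (hD : ∀ v : Place K F, 0 ≤ D v) :
    (1 : F) ∈ riemannRochSpace D := by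
  rw [mem_riemannRochSpace_iff]
  intro v
  right
  have h1 : v.ord (1 : F) = 0 := by
    have := Fermat.Agent.S24.place_ord_algebraMap v (1 : K)
    rwa [map_one] at this
  rw [h1]
  have := hD v
  omega

/-- `D ≥ 0`, `ℓ(D) = 1` ⇒ every element of `L(D)` is a constant. -/
theorem s17cu_const (D : Divisor K F) (hD : ∀ v : Place K F, 0 ≤ D v)
    (h1 : finrank K ↥(riemannRochSpace D) = 1) {f : F} (hf : f ∈ riemannRochSpace D) :
    ∃ c : K, f = algebraMap K F c := by
  have hone : (⟨1, s17cu_one_mem D hD⟩ : ↥(riemannRochSpace D)) ≠ 0 := by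
    intro h
    have := congrArg Subtype.val h
    exact one_ne_zero this
  obtain ⟨c, hc⟩ := (finrank_eq_one_iff_of_nonzero' _ hone).1 h1 ⟨f, hf⟩
  refine ⟨c, ?_⟩
  have := congrArg Subtype.val hc
  simp only [Submodule.coe_smul] at this
  rw [← this, Algebra.smul_def, mul_one]

theorem s17cu_sum_nonneg {g : ℕ} (R : Fin g → Place K F) (v : Place K F) :
    0 ≤ s27pkgSum R v := by
  rw [s27pkgSum_apply]
  exact Int.natCast_nonneg _

/-- `ℓ(Σ S) = 1` and `[Σ R − O] = [Σ S − O]` ⇒ `Σ R = Σ S`. -/
theorem s17cu_sum_eq (hdeg : ∀ w : Place K F, w.deg = 1) {g : ℕ} (O : Divisor K F)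
    (hO : Divisor.degree O = g) (R S : Fin g → Place K F)
    (h1 : finrank K ↥(riemannRochSpace (s27pkgSum S)) = 1)
    (hcl : s27pkgClO hdeg O hO R = s27pkgClO hdeg O hO S) :
    s27pkgSum R = s27pkgSum S := by
  obtain ⟨f, hf0, hf⟩ := (s27pkgClO_eq hdeg O hO R S).1 hcl
  have hmem : f ∈ riemannRochSpace (s27pkgSum S) := by
    rw [mem_riemannRochSpace_iff]
    intro v
    right
    have h2 := hf v
    have h3 := s17cu_sum_nonneg R v
    omega
  obtain ⟨c, hc⟩ := s17cu_const (s27pkgSum S) (s17cu_sum_nonneg S) h1 hmem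
  ext v
  have h2 := hf v
  rw [hc, Fermat.Agent.S24.place_ord_algebraMap, add_zero] at h2
  exact h2

/-- the multiplicity of a point in the divisor of an injective tuple is `≤ 1`. -/
theorem s17cu_sum_le_one {g : ℕ} (S : Fin g → Place K F) (hS : Function.Injective S)
    (v : Place K F) : s27pkgSum S v ≤ 1 := by
  classical
  rw [s27pkgSum_apply]
  have : (Finset.univ.filter fun i => S i = v).card ≤ 1 := by
    rw [Finset.card_le_one]
    intro a ha b hb
    rw [Finset.mem_filter] at ha hb
    exact hS (ha.2.trans hb.2.symm)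
  exact_mod_cast this

/-- **CENTRE-UNIQ**: the points of a tuple in the class of a unique multiplicity-free divisor are
pairwise distinct. -/
theorem s17cu_injective (hdeg : ∀ w : Place K F, w.deg = 1) {g : ℕ} (O : Divisor K F)
    (hO : Divisor.degree O = g) (R S : Fin g → Place K F) (hS : Function.Injective S)
    (h1 : finrank K ↥(riemannRochSpace (s27pkgSum S)) = 1)
    (hcl : s27pkgClO hdeg O hO R = s27pkgClO hdeg O hO S) :
    Function.Injective R := by
  classical
  have hsum := s17cu_sum_eq hdeg O hO R S h1 hcl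
  intro i j hij
  by_contra hne
  have h2 : s27pkgSum R (R i) ≤ 1 := by
    rw [hsum]
    exact s17cu_sum_le_one S hS _
  rw [s27pkgSum_apply] at h2
  have h3 : 1 < (Finset.univ.filter fun k => R k = R i).card := by
    rw [Finset.one_lt_card]
    exact ⟨i, by simp, j, by simp [hij], hne⟩
  have h4 : (1 : ℤ) < ((Finset.univ.filter fun k => R k = R i).card : ℤ) := by exact_mod_cast h3
  omega

/-- every point of `R` is a point of `S`. -/
theorem s17cu_mem_range (hdeg : ∀ w : Place K F, w.deg = 1) {g : ℕ} (O : Divisor K F)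
    (hO : Divisor.degree O = g) (R S : Fin g → Place K F)
    (h1 : finrank K ↥(riemannRochSpace (s27pkgSum S)) = 1)
    (hcl : s27pkgClO hdeg O hO R = s27pkgClO hdeg O hO S) (i : Fin g) :
    ∃ j, S j = R i := by
  classical
  have hsum := s17cu_sum_eq hdeg O hO R S h1 hcl
  have h2 : 0 < s27pkgSum R (R i) := by
    rw [s27pkgSum_apply]
    have : 0 < (Finset.univ.filter fun k => R k = R i).card :=
      Finset.card_pos.2 ⟨i, by simp⟩
    exact_mod_cast this
  rw [hsum, s27pkgSum_apply] at h2
  have h3 : 0 < (Finset.univ.filter fun k => S k = R i).card := by exact_mod_cast h2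
  obtain ⟨j, hj⟩ := Finset.card_pos.1 h3
  exact ⟨j, (Finset.mem_filter.1 hj).2⟩

/-- **CENTRE-UNIQ, permutation form**: `R = S ∘ π`. -/
theorem s17cu_perm (hdeg : ∀ w : Place K F, w.deg = 1) {g : ℕ} (O : Divisor K F)
    (hO : Divisor.degree O = g) (R S : Fin g → Place K F) (hS : Function.Injective S)
    (h1 : finrank K ↥(riemannRochSpace (s27pkgSum S)) = 1)
    (hcl : s27pkgClO hdeg O hO R = s27pkgClO hdeg O hO S) :
    ∃ π : Equiv.Perm (Fin g), ∀ i, R i = S (π i) := by
  classical
  have hR := s17cu_injective hdeg O hO R S hS h1 hcl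
  choose p hp using s17cu_mem_range hdeg O hO R S h1 hcl
  have hpinj : Function.Injective p := by
    intro i j hij
    apply hR
    rw [← hp i, ← hp j, hij]
  exact ⟨Equiv.ofBijective p (Finite.injective_iff_bijective.1 hpinj), fun i => (hp i).symm⟩

end Fermat.Agent.S17

end
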