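/-
S17 sprint, leaf CERT (helper13): NULLSTELLENSATZ CERTIFICATE ⇒ TWO-SIDED HEIGHT BOUND
(pure Mathlib).

`s17ct_homComp_mul` : `homogeneousComponent (N + d) (c * Φ) = homogeneousComponent N c * Φ`
                      for `Φ` homogeneous of degree `d`;
`s17ct_exists_cert` : forms `Φ k` of degree `d` over `K` without common zero `≠ 0` over an
                      algebraically closed extension `Kb`: there are `N` and forms `q (i, k)` of
                      degree `N` over `K` with `∑ k, q (i, k) * Φ k = X i ^ (N + d)`;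
`s17ct_main`        : then `C₁ * H(x) ^ d ≤ H(Φ(x)) ≤ C₂ * H(x) ^ d` for all `x : ι → K`;
`s17ct_main_log`    : `|logHeight (Φ(x)) − d * logHeight x| ≤ C`.
-/
import Mathlib.NumberTheory.Height.MvPolynomial
import Mathlib.RingTheory.Nullstellensatz
import Mathlib.RingTheory.MvPolynomial.Homogeneous

set_option autoImplicit false
set_option linter.style.haveILetI false

namespace Fermat.Agent.S17

open MvPolynomial Height

/-- the homogeneous component of a product with a homogeneous factor. -/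
theorem s17ct_homComp_mul {K : Type*} [CommRing K] {ι : Type*} (N d : ℕ)
    (c Φ : MvPolynomial ι K) (hΦ : Φ.IsHomogeneous d) :
    homogeneousComponent (N + d) (c * Φ) = homogeneousComponent N c * Φ := by
  classical
  letI : GradedAlgebra (homogeneousSubmodule ι K) := MvPolynomial.gradedAlgebra
  have h1 := DirectSum.coe_decompose_mul_add_of_right_mem (homogeneousSubmodule ι K)
    (i := N) (j := d) (a := c) (b := Φ) hΦ
  have h2 : ∀ (φ : MvPolynomial ι K) (i : ℕ),
      ((DirectSum.decompose (homogeneousSubmodule ι K) φ i : homogeneousSubmodule ι K i) :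
        MvPolynomial ι K) = homogeneousComponent i φ :=
    fun φ i => decomposition.decompose'_apply φ i
  rw [h2, h2] at h1
  exact h1

/-- **NULLSTELLENSATZ CERTIFICATE.** -/
theorem s17ct_exists_cert {K : Type*} [Field K] (Kb : Type*) [Field Kb] [Algebra K Kb]
    [IsAlgClosed Kb] {ι κ : Type*} [Fintype ι] [Fintype κ] (d : ℕ)
    (Φ : κ → MvPolynomial ι K) (hΦ : ∀ k, (Φ k).IsHomogeneous d)
    (hbpf : ∀ x : ι → Kb, (∀ k, aeval x (Φ k) = 0) → x = 0) :
    ∃ (N : ℕ) (q : ι × κ → MvPolynomial ι K), (∀ t, (q t).IsHomogeneous N) ∧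
      ∀ i, ∑ k, q (i, k) * Φ k = X i ^ (N + d) := by
  classical
  set I : Ideal (MvPolynomial ι K) := Ideal.span (Set.range Φ) with hI
  -- the zero locus is `⊆ {0}`
  have hz : ∀ x ∈ zeroLocus Kb I, x = 0 := by
    intro x hx
    refine hbpf x fun k => ?_
    exact hx (Φ k) (Ideal.subset_span ⟨k, rfl⟩)
  -- `X i ∈ √I`
  have hrad : ∀ i, (X i : MvPolynomial ι K) ∈ I.radical := by
    intro i
    rw [← vanishingIdeal_zeroLocus_eq_radical (K := Kb), mem_vanishingIdeal_iff]
    intro x hx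
    rw [hz x hx]
    simp
  choose n hn using hrad
  set N := ∑ i, n i with hN
  have hpow : ∀ i, (X i : MvPolynomial ι K) ^ (N + d) ∈ I := by
    intro i
    have h1 : n i ≤ N + d :=
      (Finset.single_le_sum (fun j _ => Nat.zero_le (n j)) (Finset.mem_univ i)).trans
        (Nat.le_add_right _ _)
    exact I.pow_mem_of_pow_mem (hn i) h1
  have hex : ∀ i, ∃ c : κ → MvPolynomial ι K, ∑ k, c k * Φ k = X i ^ (N + d) := by
    intro i
    exact Ideal.mem_span_range_iff_exists_fun.mp (hpow i)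
  choose c hc using hex
  refine ⟨N, fun t => homogeneousComponent N (c t.1 t.2), fun t =>
    homogeneousComponent_isHomogeneous _ _, fun i => ?_⟩
  have h1 := congrArg (homogeneousComponent (N + d)) (hc i)
  rw [map_sum] at h1
  have h2 : homogeneousComponent (N + d) ((X i : MvPolynomial ι K) ^ (N + d))
      = X i ^ (N + d) := by
    have h3 : ((X i : MvPolynomial ι K) ^ (N + d)).IsHomogeneous (N + d) :=
      isHomogeneous_X_pow i (N + d)
    rw [homogeneousComponent_of_mem h3, if_pos rfl]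
  rw [h2] at h1
  rw [← h1]
  exact Finset.sum_congr rfl fun k _ => (s17ct_homComp_mul N d (c i k) (Φ k) (hΦ k)).symm

/-- **CERT.** Forms of degree `d` without common zero: two-sided height bound. -/
theorem s17ct_main {K : Type*} [Field K] [AdmissibleAbsValues K] (Kb : Type*) [Field Kb]
    [Algebra K Kb] [IsAlgClosed Kb] {ι κ : Type*} [Fintype ι] [Fintype κ] (d : ℕ)
    (Φ : κ → MvPolynomial ι K) (hΦ : ∀ k, (Φ k).IsHomogeneous d)
    (hbpf : ∀ x : ι → Kb, (∀ k, aeval x (Φ k) = 0) → x = 0) :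
    ∃ C₁ > 0, ∃ C₂ > 0, ∀ x : ι → K,
      C₁ * mulHeight x ^ d ≤ mulHeight (fun k => eval x (Φ k)) ∧
        mulHeight (fun k => eval x (Φ k)) ≤ C₂ * mulHeight x ^ d := by
  obtain ⟨N, q, hq, hcert⟩ := s17ct_exists_cert Kb d Φ hΦ hbpf
  obtain ⟨C₁, hC₁, H₁⟩ := mulHeight_eval_ge' (K := K) (ι := ι) (ι' := κ) (M := N) (N := d)
    (q := q) hq
  obtain ⟨C₂, hC₂, H₂⟩ := mulHeight_eval_le' (K := K) (ι := ι) (ι' := κ) (N := d) (p := Φ) hΦ
  refine ⟨C₁, hC₁, C₂, hC₂, fun x => ⟨?_, H₂ x⟩⟩
  refine H₁ Φ (x := x) fun i => ?_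
  have h := congrArg (eval x) (hcert i)
  simpa only [map_sum, map_mul, map_pow, eval_X] using h

/-- logarithmic form of `s17ct_main`. -/
theorem s17ct_main_log {K : Type*} [Field K] [AdmissibleAbsValues K] (Kb : Type*) [Field Kb]
    [Algebra K Kb] [IsAlgClosed Kb] {ι κ : Type*} [Fintype ι] [Fintype κ] (d : ℕ)
    (Φ : κ → MvPolynomial ι K) (hΦ : ∀ k, (Φ k).IsHomogeneous d)
    (hbpf : ∀ x : ι → Kb, (∀ k, aeval x (Φ k) = 0) → x = 0) :
    ∃ C : ℝ, ∀ x : ι → K, |logHeight (fun k => eval x (Φ k)) - d * logHeight x| ≤ C := by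
  obtain ⟨C₁, hC₁, C₂, hC₂, H⟩ := s17ct_main Kb d Φ hΦ hbpf
  refine ⟨max (-Real.log C₁) (Real.log C₂), fun x => ?_⟩
  obtain ⟨h1, h2⟩ := H x
  have hx := mulHeight_pos x
  have hy := mulHeight_pos (fun k => eval x (Φ k))
  have e1 : Real.log C₁ + d * logHeight x ≤ logHeight (fun k => eval x (Φ k)) := by
    rw [logHeight_eq_log_mulHeight, logHeight_eq_log_mulHeight, ← Real.log_pow,
      ← Real.log_mul hC₁.ne' (pow_ne_zero _ hx.ne')]
    exact Real.log_le_log (mul_pos hC₁ (pow_pos hx _)) h1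
  have e2 : logHeight (fun k => eval x (Φ k)) ≤ Real.log C₂ + d * logHeight x := by
    rw [logHeight_eq_log_mulHeight, logHeight_eq_log_mulHeight, ← Real.log_pow,
      ← Real.log_mul hC₂.ne' (pow_ne_zero _ hx.ne')]
    exact Real.log_le_log hy h2
  have m1 := le_max_left (-Real.log C₁) (Real.log C₂)
  have m2 := le_max_right (-Real.log C₁) (Real.log C₂)
  rw [abs_le]
  constructor <;> linarith

end Fermat.Agent.S17
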