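/-
S17 sprint, layer H, PlN sub-leaf **U3 — CHOW-GOOD-U** (helper46; file ChowGoodU.lean): at a place whose centre class
is GOOD, the Chow vector `s17ppChow N t y` of the class IS the coefficient vector of the Chow
form of the centre divisor `∑ i, Q i`, and `t` is regular at all the centres.  With helper48's
N3 (`s17n3_main`) this is the inequality (U) of `S17/PlNAsm.lean` at ONE place.

* `s17cgd_sum_nonneg`, `s17cgd_sum_degree` : `∑ i, single (Q i) 1` is effective of degree `g`;
* `s17cgd_red_eq`   : GOOD + `[∑ Q i − g∞] = y` ⇒ `∑ i, single (Q i) 1 = s17h90Red N y`;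
* `s17cgd_ne_inf`   : then no `Q i` is the cusp `∞`;
* `s17cgd_reg`      : then `t` (only pole `∞`) lies in every `(Q i).toValuationSubring`;
* `s17cgd_chow_eq`  : `s17ppChow N t y = coefficients of s17chForm t (∑ i, single (Q i) 1)`;
* `s17cgd_U`        : **(U) at one place**: visible Chow block ⇒
                      `habs (s17ppChow N t y) ≤ habs [s]_P + (log #ι + habs c)`.
-/
import Fermat.Agent.S17.ChowHt
import Fermat.Agent.S17.PlNPool
import Fermat.Agent.S17.Pool

set_option autoImplicit false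
set_option linter.unusedSectionVars false
set_option linter.unusedVariables false
set_option linter.style.haveILetI false

noncomputable section

namespace Fermat.Agent.S17

open ModularCurve AlgebraicCurve Polynomial Height
open Fermat.Agent.S24 Fermat.Agent.ES.M Fermat.Agent.ES.H Fermat.Agent.S15 Fermat.Agent.S26
  Fermat.Agent.S27

variable (N : ℕ) [NeZero N]

/-- the divisor of a tuple of places is effective. -/
theorem s17cgd_sum_nonneg {g : ℕ} (Q : Fin g → Place Kb (FF N)) :
    0 ≤ (∑ i, Finsupp.single (Q i) (1 : ℤ) : Divisor Kb (FF N)) := by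
  classical
  refine Finset.sum_nonneg fun i _ => ?_
  rw [Finsupp.le_def]
  intro v
  rw [Finsupp.single_apply]
  simp only [Finsupp.coe_zero, Pi.zero_apply]
  split_ifs <;> norm_num

/-- the divisor of a `g`-tuple of places has degree `g`. -/
theorem s17cgd_sum_degree {g : ℕ} (Q : Fin g → Place Kb (FF N)) :
    Divisor.degree (∑ i, Finsupp.single (Q i) (1 : ℤ) : Divisor Kb (FF N)) = (g : ℤ) := by
  haveI := finiteDimensional_adjoin_jF N
  have hdeg : ∀ v : Place Kb (FF N), v.deg = 1 :=
    fun v => s26errg_deg_eq_one (jF N) (transcendental_jF N) v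
  rw [map_sum]
  simp [Divisor.degree_single, hdeg]

variable {N}

/-- GOOD: the centre divisor is THE reduced divisor of the class. -/
theorem s17cgd_red_eq {y : JZero N} (hy : S17poGood N y)
    (Q : Fin (genusFF Kb (FF N)) → Place Kb (FF N))
    (hmk : Pic0.mk (s17h90Div N (∑ i, Finsupp.single (Q i) (1 : ℤ))) = y) :
    (∑ i, Finsupp.single (Q i) (1 : ℤ) : Divisor Kb (FF N)) = s17h90Red N y :=
  s17po_good_unique N hy (s17cgd_sum_nonneg N Q) (s17cgd_sum_degree N Q) hmk

/-- GOOD: no centre is the cusp `∞`. -/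
theorem s17cgd_ne_inf {y : JZero N} (hy : S17poGood N y)
    (Q : Fin (genusFF Kb (FF N)) → Place Kb (FF N))
    (hmk : Pic0.mk (s17h90Div N (∑ i, Finsupp.single (Q i) (1 : ℤ))) = y)
    (i : Fin (genusFF Kb (FF N))) : Q i ≠ cuspInf N := by
  classical
  intro hi
  have h0 := hy _ (s17cgd_sum_nonneg N Q) (s17cgd_sum_degree N Q) hmk
  rw [Finsupp.finsetSum_apply] at h0
  have h1 : ∀ j ∈ (Finset.univ : Finset (Fin (genusFF Kb (FF N)))),
      (0 : ℤ) ≤ (Finsupp.single (Q j) (1 : ℤ) : Divisor Kb (FF N)) (cuspInf N) := by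
    intro j _
    rw [Finsupp.single_apply]
    split_ifs <;> norm_num
  have h2 := (Finset.sum_eq_zero_iff_of_nonneg h1).1 h0 i (Finset.mem_univ i)
  rw [hi, Finsupp.single_eq_same] at h2
  exact one_ne_zero h2

/-- GOOD: a function whose only pole is `∞` is regular at all the centres. -/
theorem s17cgd_reg {y : JZero N} (hy : S17poGood N y)
    (Q : Fin (genusFF Kb (FF N)) → Place Kb (FF N))
    (hmk : Pic0.mk (s17h90Div N (∑ i, Finsupp.single (Q i) (1 : ℤ))) = y)
    {t : FF N} (ht : ∀ v : Place Kb (FF N), v ≠ cuspInf N → 0 ≤ v.ord t)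
    (i : Fin (genusFF Kb (FF N))) : t ∈ (Q i).toValuationSubring :=
  PlaceAux.mem_of_ord_nonneg (Q i) (ht (Q i) (s17cgd_ne_inf hy Q hmk i))

/-- GOOD: the Chow vector of the class is the coefficient vector of the Chow form of the centre
divisor. -/
theorem s17cgd_chow_eq {y : JZero N} (hy : S17poGood N y)
    (Q : Fin (genusFF Kb (FF N)) → Place Kb (FF N))
    (hmk : Pic0.mk (s17h90Div N (∑ i, Finsupp.single (Q i) (1 : ℤ))) = y) (t : FF N) :
    s17ppChow N t y = fun n : Fin (genusFF Kb (FF N) + 1) =>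
      (s17chForm t (∑ i, Finsupp.single (Q i) (1 : ℤ) : Divisor Kb (FF N))).coeff (n : ℕ) := by
  unfold s17ppChow
  rw [s17cgd_red_eq hy Q hmk]

/-- **(U) at one place**: at a place `P` of `L` with centres `Q i` of the points `e i`, GOOD class
`y = [∑ Q i − g∞]` and a visible Chow block `G = Φ · (Chow tuple of e · t)`:
`habs (s17ppChow N t y) ≤ habs [s]_P + (log #ι + habs c)`. -/
theorem s17cgd_U {L : Type*} [Field L] [Algebra Kb L] {ι : Type*} [Fintype ι]
    (P : S17plPlace Kb L) (s : ι → L) (α : ι) (h : S17plIsMin P.W s α)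
    (c : Fin (genusFF Kb (FF N) + 1) → ι → Kb) (Φ : L) (hΦ : Φ ≠ 0)
    (e : Fin (genusFF Kb (FF N)) → FF N →ₐ[Kb] L)
    (Q : Fin (genusFF Kb (FF N)) → Place Kb (FF N))
    (hQ : ∀ i, S27ptIsCentre P.W (e i) (Q i))
    {t : FF N} (ht : ∀ v : Place Kb (FF N), v ≠ cuspInf N → 0 ≤ v.ord t)
    (hG : ∀ n, s17pvLin c s n = Φ * s17cvChow (fun i => e i t) n)
    (j₀ : Fin (genusFF Kb (FF N) + 1)) (hj₀ : s17pvLinK c (s17plVal P s α h) j₀ ≠ 0)
    {y : JZero N} (hy : S17poGood N y)
    (hmk : Pic0.mk (s17h90Div N (∑ i, Finsupp.single (Q i) (1 : ℤ))) = y) :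
    s17haAbsQ (s17ppChow N t y)
      ≤ s17haAbsQ (s17plVal P s α h)
        + (Real.log (Nat.card ι) + s17haAbsQ (fun p : Fin (genusFF Kb (FF N) + 1) × ι =>
            c p.1 p.2)) := by
  rw [s17cgd_chow_eq hy Q hmk t]
  exact s17n3_main P s α h c Φ hΦ e Q hQ t hG j₀ hj₀ (s17cgd_reg hy Q hmk ht)

end Fermat.Agent.S17

end
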