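/-
S17 sprint, layer H, PlN leaf **hsec — CHOW SECTIONS under ruling (A)** (helper46): ONE local
equation `b = B (+1) = β` (the theta divisor `Θ_{A'}` at the generic class `η`); the functions of
`L(M · Θ)` are the Chow coefficients of the OPPOSITE tuple `q (−1)` (class `−η`).

Closed S27-B stage: `L = s27mtL K F`, `ψ = s27pfPsi (s27ftPkg hx G₀ hG₀) …`,
`β = s27beta A'`, `A' = 2 G₀ − O = G₀ + s27cstAo G₀ O`, `t` with its only pole at `O`, of order
`≤ M`.  For EVERY valuation subring `W ⊇ K` of `L` (in particular every `K`-rational place):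

* `s17chs_opp_symm`  : `S27pdaOpp` is symmetric;
* `s17chs_indB_one`  : `s27indB ψ β 1 V = β V`;
* `s17chs_sec_gen`   : general form: local equation `y` at the tautological tuple + POLE-DIV for
                       the tuple `e` ⇒ `Chow_n (e i t) · y ^ M ∈ W`;
* **`s17chs_sec`**   : `Chow_n (q (−1) i t) · ι (B 1 (W ∩ 𝔉)) ^ M ∈ W`, `A' = 2 G₀ − O`
                       (NO open input);   `ι (B 1 (W ∩ 𝔉)) = s17pmtB (s27indB ψ β 1) W` by `rfl`;
* **`s17chs_sec_Ao`**: the same with `β = s27beta (G₀ + s27cstAo G₀ O)` (the model's `β`);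
* `s17chs_sec_place` : the literal `hsec` of `s17pnt_plN` (S17/PlNTop.lean) at the `K`-places.
-/
import Fermat.Agent.S17.ChowLUStage
import Fermat.Agent.S17.PlMTop
import Fermat.Agent.S17.Transl
import Fermat.Agent.S27.Consts

set_option autoImplicit false
set_option linter.unusedVariables false
set_option linter.unusedSectionVars false
set_option linter.style.haveILetI false
set_option linter.style.longLine false

noncomputable section

namespace Fermat.Agent.S17

open AlgebraicCurve Module TensorProduct IntermediateField Fermat.Agent.S26 Fermat.Agent.S27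

universe u v w'

section Gen

variable {K : Type u} {F : Type v} [Field K] [IsAlgClosed K] [Field F] [Algebra K F] {g : ℕ}
variable {L : Type w'} [Field L] [Algebra K L]

/-- `S27pdaOpp` is symmetric. -/
theorem s17chs_opp_symm {p q : Fin g → F →ₐ[K] L} {A : Divisor K F} (h : S27pdaOpp p q A) :
    S27pdaOpp q p A := by
  intro f
  obtain ⟨c₀, c, hne, h1, h2⟩ := h f
  exact ⟨c₀, c, hne, h2, h1⟩

/-- **CHOW SECTIONS, general form**: `y` a local equation (up to a unit) of the index of the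
tuple `r` w.r.t. `A'`, POLE-DIV for the tuple `e` ⇒ `Chow_n (e i t) · y ^ M ∈ W`. -/
theorem s17chs_sec_gen (x₀ : F) (hx₀ : Transcendental K x₀) [FiniteDimensional K⟮x₀⟯ F]
    (W : ValuationSubring L) (hKW : ∀ a : K, algebraMap K L a ∈ W)
    (O : Place K F) (s : F) (hs : O.ord s = 1)
    (r e : Fin g → F →ₐ[K] L) (A' : Divisor K F)
    (y : L) (hy : S27pnIsEq W r A' y)
    (hΓ : ∀ x : L, S27ptIsIdx W r A' x → ∃ w ∈ W, x = w * s27pdsGamma W e O s)
    (t : F) (M : ℕ) (htO : -(M : ℤ) ≤ O.ord t)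
    (ht : ∀ Q : Place K F, Q ≠ O → 0 ≤ Q.ord t) (n : Fin (g + 1)) :
    s17cvChow (fun i => e i t) n * y ^ M ∈ W := by
  obtain ⟨x, hx, u, hu, rfl⟩ := hy
  have hchow := s17cil_chow_mem x₀ hx₀ W hKW O s hs e t M htO ht x (hΓ x hx) n
  have h3 : s17cvChow (fun i => e i t) n * (u * x) ^ M =
      u ^ M * (s17cvChow (fun i => e i t) n * x ^ M) := by
    rw [mul_pow]
    ring
  rw [h3]
  exact W.mul_mem _ _ (pow_mem hu.2.1 M) hchow

end Gen

section Stage

variable {K : Type u} {F : Type v} [Field K] [Field F] [Algebra K F] [IsAlgClosed K] [CharZero K]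
  [IsCurveOver K F] [Algebra.EssFiniteType K F]
variable {x : F} (hx : Transcendental K x)
  [FiniteDimensional ↥(IntermediateField.adjoin K {x}) F]
  [Algebra.IsSeparable ↥(IntermediateField.adjoin K {x}) F]
  (G₀ : Divisor K F) (hG₀ : Divisor.degree G₀ = (genusFF K F : ℤ))

/-- `B (+1) = β` on the stage. -/
theorem s17chs_indB_one (q : ℤ → Fin (genusFF K F) → F →ₐ[K] s27mtL K F)
    (hq : S27pfFam (s27ftPkg hx G₀ hG₀) q)
    (β : ValuationSubring (s27gfSym K F (genusFF K F)) → s27gfSym K F (genusFF K F))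
    (V : ValuationSubring (s27gfSym K F (genusFF K F))) :
    s27indB (s27pfPsi (s27ftPkg hx G₀ hG₀) (s27dcl_halg (x := x)) hq) β 1 V = β V := by
  unfold s27indB
  rw [if_neg one_ne_zero, s27pfPsi_one]
  have h1 : V.comap ((AlgHom.id K (s27gfSym K F (genusFF K F)) :
      s27gfSym K F (genusFF K F) →ₐ[K] s27gfSym K F (genusFF K F)) :
      s27gfSym K F (genusFF K F) →+* s27gfSym K F (genusFF K F)) = V := by
    ext y
    rfl
  rw [h1]
  rfl

/-- **CHOW SECTIONS on the stage** (ruling (A): `b = B (+1)`, opposite tuple `q (−1)`),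
`A' = 2 G₀ − O`. -/
theorem s17chs_sec (O : Place K F) (hG0 : 0 ≤ G₀) (hOG : G₀ O = 0)
    (f₀ : Module.Basis (Fin (genusFF K F)) K
      ↥(riemannRochSpace (2 • G₀ - Finsupp.single O 1 : Divisor K F)))
    (q : ℤ → Fin (genusFF K F) → F →ₐ[K] s27mtL K F) (hq : S27pfFam (s27ftPkg hx G₀ hG₀) q)
    (s : F) (hs : O.ord s = 1)
    (t : F) (M : ℕ) (htO : -(M : ℤ) ≤ O.ord t)
    (ht : ∀ Q : Place K F, Q ≠ O → 0 ≤ Q.ord t)
    (W : ValuationSubring (s27mtL K F)) (hW : S27IsKValU K W) (n : Fin (genusFF K F + 1)) :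
    s17cvChow (fun i => q (-1) i t) n *
      algebraMap (s27gfSym K F (genusFF K F)) (s27mtL K F)
        (s27indB (s27pfPsi (s27ftPkg hx G₀ hG₀) (s27dcl_halg (x := x)) hq)
          (s27beta (g := genusFF K F) (2 • G₀ - Finsupp.single O 1 : Divisor K F)) 1
          (W.comap (algebraMap (s27gfSym K F (genusFF K F)) (s27mtL K F)))) ^ M ∈ W := by
  obtain ⟨hAO, hApos, hA⟩ := s27grc_const G₀ O hG0 hOG
  have hm1 : (-1 : ℤ) ≠ 0 := by norm_num
  have hm1' : (-1 : ℤ) ≠ 1 := by norm_num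
  obtain ⟨β_ne, β_mem, hβ⟩ := s27betat_main (g := genusFF K F)
    (2 • G₀ - Finsupp.single O 1 : Divisor K F) f₀ (s27flx_latEx K F hx _)
  have hdisj := s27dom_disj_fam (FL := s27mtFL K F) (s27stg_hld K F (s27mtL K F))
    (s27stg_hgen K F (s27mtL K F)) hx G₀ hG₀ q hq (-1) hm1 hm1'
  have hopp := s27oppf_opp (FL := s27mtFL K F) (s27stg_hld K F (s27mtL K F))
    (s27stg_hgen K F (s27mtL K F)) (s26gspf_hall hx) hx
    (s27pkg_hdeg (s27stg_hld K F (s27mtL K F)) (s27stg_hgen K F (s27mtL K F)) hx) G₀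
    (s27pkgO_degree (s27stg_hld K F (s27mtL K F)) (s27stg_hgen K F (s27mtL K F)) hx G₀ hG₀)
    (s27ftPkg hx G₀ hG₀) (fun e => rfl) (fun R => rfl) q hq hG0 O hOG
  rw [s17chs_indB_one hx G₀ hG₀ q hq]
  refine s17chs_sec_gen (L := s27mtL K F) x hx W hW O s hs
    (s27pfTaut (K := K) (F := F) (g := genusFF K F) (L := s27mtL K F)) (q (-1))
    (2 • G₀ - Finsupp.single O 1) _
    ((s27pn_beta_of_om (L := s27mtL K F) _ _ hβ) W hW) ?_ t M htO ht n
  intro y hy
  exact s27pda_main x hx W hW O (s26gspf_hall hx O) s hs _ hAO hApos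
    (q (-1)) (s27pfTaut (K := K) (F := F) (g := genusFF K F) (L := s27mtL K F))
    (s27oppt_fam_inj (s27ftPkg hx G₀ hG₀) q hq (-1) hm1) (s27oppt_taut_inj x hx)
    (fun i j h => hdisj j i h.symm) (s17chs_opp_symm hopp) y hy

/-- `G₀ + Ao = 2 G₀ − O`. -/
theorem s17chs_div_eq (O : Place K F) :
    G₀ + s27cstAo G₀ O = (2 • G₀ - Finsupp.single O 1 : Divisor K F) := by
  unfold s27cstAo
  rw [two_smul]
  abel

/-- **CHOW SECTIONS on the stage**, `β = s27beta (G₀ + Ao)` (the model's `β`), constants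
`hc : S27cstIsConst x G₀ O`; NO open input. -/
theorem s17chs_sec_Ao (O : Place K F) (hc : S27cstIsConst x G₀ O) (hg : 0 < genusFF K F)
    (q : ℤ → Fin (genusFF K F) → F →ₐ[K] s27mtL K F) (hq : S27pfFam (s27ftPkg hx G₀ hG₀) q)
    (t : F) (M : ℕ) (htO : -(M : ℤ) ≤ O.ord t)
    (ht : ∀ Q : Place K F, Q ≠ O → 0 ≤ Q.ord t)
    (W : ValuationSubring (s27mtL K F)) (hW : S27IsKValU K W) (n : Fin (genusFF K F + 1)) :
    s17cvChow (fun i => q (-1) i t) n *
      algebraMap (s27gfSym K F (genusFF K F)) (s27mtL K F)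
        (s27indB (s27pfPsi (s27ftPkg hx G₀ hG₀) (s27dcl_halg (x := x)) hq)
          (s27beta (g := genusFF K F) (G₀ + s27cstAo G₀ O)) 1
          (W.comap (algebraMap (s27gfSym K F (genusFF K F)) (s27mtL K F)))) ^ M ∈ W := by
  obtain ⟨s, hs⟩ := Fermat.Agent.S24.place_exists_ord_eq_one O
  have hl := hc.l_A
  rw [s17chs_div_eq G₀ O] at hl ⊢
  have hpos : 0 < Module.finrank K
      ↥(riemannRochSpace (2 • G₀ - Finsupp.single O 1 : Divisor K F)) := by
    rw [hl]; exact hg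
  haveI : Module.Finite K ↥(riemannRochSpace (2 • G₀ - Finsupp.single O 1 : Divisor K F)) :=
    Module.finite_of_finrank_pos hpos
  exact s17chs_sec hx G₀ hG₀ O hc.nonneg hc.off (Module.finBasisOfFinrankEq K _ hl) q hq s hs
    t M htO ht W hW n

/-- **(L1) `hsec` of `s17pnt_plN`** (S17/PlNTop.lean), literal: at the `K`-rational places, with
`y = s17pmtB (s27indB ψ β 1)`, `β = s27beta (G₀ + Ao)` — the local equation of PlM-FINAL. -/
theorem s17chs_sec_place (O : Place K F) (hc : S27cstIsConst x G₀ O) (hg : 0 < genusFF K F)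
    (q : ℤ → Fin (genusFF K F) → F →ₐ[K] s27mtL K F) (hq : S27pfFam (s27ftPkg hx G₀ hG₀) q)
    (t : F) (M : ℕ) (htO : -(M : ℤ) ≤ O.ord t)
    (ht : ∀ Q : Place K F, Q ≠ O → 0 ≤ Q.ord t)
    (P : S17plPlace K (s27mtL K F)) (n : Fin (genusFF K F + 1)) :
    s17cvChow (fun i => q (-1) i t) n *
      s17pmtB (L := s27mtL K F)
        (s27indB (s27pfPsi (s27ftPkg hx G₀ hG₀) (s27dcl_halg (x := x)) hq)
          (s27beta (g := genusFF K F) (G₀ + s27cstAo G₀ O)) 1) P.W ^ M ∈ P.W :=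
  s17chs_sec_Ao hx G₀ hG₀ O hc hg q hq t M htO ht P.W P.hKW n

/-- the same as `S17trMem` (all valuation subrings `W ⊇ K` of `L`). -/
theorem s17chs_trMem (O : Place K F) (hc : S27cstIsConst x G₀ O) (hg : 0 < genusFF K F)
    (q : ℤ → Fin (genusFF K F) → F →ₐ[K] s27mtL K F) (hq : S27pfFam (s27ftPkg hx G₀ hG₀) q)
    (t : F) (M : ℕ) (htO : -(M : ℤ) ≤ O.ord t)
    (ht : ∀ Q : Place K F, Q ≠ O → 0 ≤ Q.ord t) :
    S17trMem K
      (s17pmtB (L := s27mtL K F)
        (s27indB (s27pfPsi (s27ftPkg hx G₀ hG₀) (s27dcl_halg (x := x)) hq)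
          (s27beta (g := genusFF K F) (G₀ + s27cstAo G₀ O)) 1)) M
      (s17cvChow (fun i => q (-1) i t)) :=
  fun W hW n => s17chs_sec_Ao hx G₀ hG₀ O hc hg q hq t M htO ht W hW n

end Stage

end Fermat.Agent.S17

end
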