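/-
S17 sprint, layer H, PlN leaf **hsec — CHOW SECTIONS, the DOUBLE** (helper75): `hsec` of
`s17pnt_plN` (S17/PlNTop.lean) for the OPPOSITE tuple `q (−1)` and the lifted local equation
`y = s17pmtB (s27indB ψ β 1)` of ruling (A), with `M = N` = the pole order of `t` at `O`.

Route (the FLIP): helper46's `s17cls_mem_LU` (S17/ChowLUStage.lean) is the `B (−1)` / tautological
form `Chow_n(taut · t) ∈ L(N · Θ⁻)`.  Read it at `V.comap ψ(−1)` and use `ψ(−1) ∘ ψ(−1) = ψ 1 = id`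
(`s17pmd_comp`): `ψ(−1) (Chow_n) · (β V) ^ N ∈ V`, and `B (+1) V = ψ 1 (β (V.comap ψ 1)) = β V`.
The image in `L` of `ψ(−1) (Chow_n(taut · t))` is `Chow_n(q (−1) · t)` (`s27pfPsi_spec`,
`s27psiT_iota`).

* `s17csd_flip`       : abstract flip `z ∈ s27LU (B (−1)) N → ψ(−1) z ∈ s27LU (B 1) N`;
* `s17csd_map`        : `ι (ψ(−1) (s17cluSym t n)) = s17cvChow (q (−1) · t) n`;
* `s17csd_mem_LU`     : `ψ(−1) (s17cluSym t n) ∈ s27LU K (s27indB ψ β 1) N` on the stage;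
* **`s17csd_hsec`**   : `hsec`, `β = s27beta (2 G₀ − O)`;
* **`s17csd_hsec_const`** : `hsec` from `S27cstIsConst x G₀ O`, `β = s27beta (G₀ + s27cstAo G₀ O)`
                        (the `β` of PlM / PlT), no open input.
-/
import Fermat.Agent.S17.ChowLUStage
import Fermat.Agent.S17.PlMCubeB
import Fermat.Agent.S17.PlMTop
import Fermat.Agent.S24.GaloisCount

set_option autoImplicit false
set_option linter.unusedVariables false
set_option linter.unusedSectionVars false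
set_option linter.style.haveILetI false
set_option linter.style.longLine false

noncomputable section

namespace Fermat.Agent.S17

open AlgebraicCurve Module TensorProduct IntermediateField Polynomial
open Fermat.Agent.S26 Fermat.Agent.S27

universe u v

section Abstract

variable {K : Type u} [Field K] {𝔉 : Type v} [Field 𝔉] [Algebra K 𝔉]

theorem s17csd_comap_comap (ψ : ℤ → (𝔉 →ₐ[K] 𝔉)) (hone : ∀ s, ψ 1 s = s)
    (hcomp : ∀ s, ψ (-1) (ψ (-1) s) = ψ 1 s) (V : ValuationSubring 𝔉) :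
    (V.comap ((ψ (-1) : 𝔉 →ₐ[K] 𝔉) : 𝔉 →+* 𝔉)).comap ((ψ (-1) : 𝔉 →ₐ[K] 𝔉) : 𝔉 →+* 𝔉) = V := by
  ext z
  rw [ValuationSubring.mem_comap, ValuationSubring.mem_comap]
  show ψ (-1) (ψ (-1) z) ∈ V ↔ z ∈ V
  rw [hcomp, hone]

theorem s17csd_comap_one (ψ : ℤ → (𝔉 →ₐ[K] 𝔉)) (hone : ∀ s, ψ 1 s = s)
    (V : ValuationSubring 𝔉) :
    V.comap ((ψ 1 : 𝔉 →ₐ[K] 𝔉) : 𝔉 →+* 𝔉) = V := by
  ext z
  rw [ValuationSubring.mem_comap]
  show ψ 1 z ∈ V ↔ z ∈ V
  rw [hone]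

/-- `B (+1) V = β V` when `ψ 1 = id`. -/
theorem s17csd_indB_one (ψ : ℤ → (𝔉 →ₐ[K] 𝔉)) (β : ValuationSubring 𝔉 → 𝔉)
    (hone : ∀ s, ψ 1 s = s) (V : ValuationSubring 𝔉) : s27indB ψ β 1 V = β V := by
  unfold s27indB
  rw [if_neg one_ne_zero, s17csd_comap_one ψ hone V, hone]

/-- **the FLIP**: `ψ(−1)` carries `L(N · Θ⁻)` into `L(N · Θ)`. -/
theorem s17csd_flip (ψ : ℤ → (𝔉 →ₐ[K] 𝔉)) (β : ValuationSubring 𝔉 → 𝔉)
    (hone : ∀ s, ψ 1 s = s) (hcomp : ∀ s, ψ (-1) (ψ (-1) s) = ψ 1 s) {z : 𝔉} {N : ℕ}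
    (hz : z ∈ s27LU K (s27indB ψ β (-1)) N) :
    ψ (-1) z ∈ s27LU K (s27indB ψ β 1) N := by
  intro V hV
  have h := hz (V.comap ((ψ (-1) : 𝔉 →ₐ[K] 𝔉) : 𝔉 →+* 𝔉)) (s27ind_isKVal_comap (ψ (-1)) hV)
  rw [ValuationSubring.mem_comap] at h
  have e : s27indB ψ β (-1) (V.comap ((ψ (-1) : 𝔉 →ₐ[K] 𝔉) : 𝔉 →+* 𝔉)) = ψ (-1) (β V) := by
    unfold s27indB
    rw [if_neg (by norm_num : (-1 : ℤ) ≠ 0), s17csd_comap_comap ψ hone hcomp V]
  rw [e] at h
  have h2 : ((ψ (-1) : 𝔉 →ₐ[K] 𝔉) : 𝔉 →+* 𝔉) (z * ψ (-1) (β V) ^ N) = ψ (-1) z * β V ^ N := by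
    show ψ (-1) (z * ψ (-1) (β V) ^ N) = ψ (-1) z * β V ^ N
    rw [map_mul, map_pow, hcomp, hone]
  rw [h2] at h
  rw [s17csd_indB_one ψ β hone V]
  exact h

end Abstract

section Stage

variable {K : Type u} {F : Type v} [Field K] [Field F] [Algebra K F] [IsAlgClosed K] [CharZero K]
  [IsCurveOver K F] [Algebra.EssFiniteType K F]
variable {x : F} (hx : Transcendental K x)
  [FiniteDimensional ↥(IntermediateField.adjoin K {x}) F]
  [Algebra.IsSeparable ↥(IntermediateField.adjoin K {x}) F]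
  (G₀ : Divisor K F) (hG₀ : Divisor.degree G₀ = (genusFF K F : ℤ))

/-- the image in `L` of `ψ(−1)` of the symmetric Chow coefficient is the Chow coefficient of the
opposite tuple. -/
theorem s17csd_map (q : ℤ → Fin (genusFF K F) → F →ₐ[K] s27mtL K F)
    (hq : S27pfFam (s27ftPkg hx G₀ hG₀) q) (t : F) (n : Fin (genusFF K F + 1)) :
    algebraMap (s27gfSym K F (genusFF K F)) (s27mtL K F)
        (s27pfPsi (s27ftPkg hx G₀ hG₀) (s27dcl_halg (x := x)) hq (-1)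
          (s17cluSym (K := K) (g := genusFF K F) t n)) =
      s17cvChow (fun i => q (-1) i t) n := by
  have hm1 : (-1 : ℤ) ≠ 0 := by norm_num
  have h := s27pfPsi_spec (s27ftPkg hx G₀ hG₀) (s27dcl_halg (x := x)) hq (-1) hm1
    (s17cluSym (K := K) (g := genusFF K F) t n)
  refine Eq.trans h ?_
  have he := (s27pf_fam_pt (s27ftPkg hx G₀ hG₀) (s27dcl_halg (x := x)) hq (-1) hm1).inj
  show s27psiT (q (-1)) he (s17cluOm (K := K) (g := genusFF K F) t n) = _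
  unfold s17cluOm s17cvChow
  have h1 : s27psiT (q (-1)) he
      ((∏ i : Fin (genusFF K F), (X - C (s27gfIota (K := K) (g := genusFF K F) i t)) :
        (s27gfOm K F (genusFF K F))[X]).coeff n) =
      ((∏ i : Fin (genusFF K F), (X - C (s27gfIota (K := K) (g := genusFF K F) i t)) :
        (s27gfOm K F (genusFF K F))[X]).map
        ((s27psiT (q (-1)) he : s27gfOm K F (genusFF K F) →ₐ[K] s27mtL K F) :
          s27gfOm K F (genusFF K F) →+* s27mtL K F)).coeff n := by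
    rw [Polynomial.coeff_map]
    rfl
  rw [h1, Polynomial.map_prod]
  congr 1
  refine Finset.prod_congr rfl fun i _ => ?_
  rw [Polynomial.map_sub, Polynomial.map_X, Polynomial.map_C]
  congr 2
  exact s27psiT_iota (q (-1)) he i t

/-- **CHOW-LU, flipped**: `ψ(−1) (Chow_n) ∈ L(N · Θ)`, `Θ` with local equations `B (+1)`. -/
theorem s17csd_mem_LU (O : Place K F) (hG0 : 0 ≤ G₀) (hOG : G₀ O = 0)
    (f₀ : Module.Basis (Fin (genusFF K F)) K
      ↥(riemannRochSpace (2 • G₀ - Finsupp.single O 1 : Divisor K F)))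
    (q : ℤ → Fin (genusFF K F) → F →ₐ[K] s27mtL K F) (hq : S27pfFam (s27ftPkg hx G₀ hG₀) q)
    (s : F) (hs : O.ord s = 1)
    (t : F) (N : ℕ) (htO : -(N : ℤ) ≤ O.ord t)
    (ht : ∀ Q : Place K F, Q ≠ O → 0 ≤ Q.ord t) (n : Fin (genusFF K F + 1)) :
    s27pfPsi (s27ftPkg hx G₀ hG₀) (s27dcl_halg (x := x)) hq (-1)
        (s17cluSym (K := K) (g := genusFF K F) t n) ∈
      s27LU K (s27indB (s27pfPsi (s27ftPkg hx G₀ hG₀) (s27dcl_halg (x := x)) hq)
        (s27beta (g := genusFF K F) (2 • G₀ - Finsupp.single O 1 : Divisor K F)) 1) N := by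
  have hz := s17cls_mem_LU hx G₀ hG₀ O hG0 hOG f₀ q hq s hs t N htO ht n
  obtain ⟨hone, hcomp⟩ := s17pmd_comp hx G₀ hG₀ hq
  refine s17csd_flip _ _ hone (fun z => ?_) hz
  have h := hcomp (-1) (-1) (by norm_num) (by norm_num) z
  have e : ((-1 : ℤ) * (-1)) = 1 := by norm_num
  rw [e] at h
  exact h

/-- **hsec** of `s17pnt_plN`, `β = s27beta (2 G₀ − O)`. -/
theorem s17csd_hsec (O : Place K F) (hG0 : 0 ≤ G₀) (hOG : G₀ O = 0)
    (f₀ : Module.Basis (Fin (genusFF K F)) K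
      ↥(riemannRochSpace (2 • G₀ - Finsupp.single O 1 : Divisor K F)))
    (q : ℤ → Fin (genusFF K F) → F →ₐ[K] s27mtL K F) (hq : S27pfFam (s27ftPkg hx G₀ hG₀) q)
    (s : F) (hs : O.ord s = 1)
    (t : F) (N : ℕ) (htO : -(N : ℤ) ≤ O.ord t)
    (ht : ∀ Q : Place K F, Q ≠ O → 0 ≤ Q.ord t)
    (P : S17plPlace K (s27mtL K F)) (n : Fin (genusFF K F + 1)) :
    s17cvChow (fun i => q (-1) i t) n *
      s17pmtB (s27indB (s27pfPsi (s27ftPkg hx G₀ hG₀) (s27dcl_halg (x := x)) hq)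
        (s27beta (g := genusFF K F) (2 • G₀ - Finsupp.single O 1 : Divisor K F)) 1) P.W ^ N
      ∈ P.W := by
  have hmem := s17csd_mem_LU hx G₀ hG₀ O hG0 hOG f₀ q hq s hs t N htO ht n
  have hV : S27IsKValU K (P.W.comap (algebraMap (s27gfSym K F (genusFF K F)) (s27mtL K F))) :=
    s17pmt_isKVal (K := K) (𝔉 := s27gfSym K F (genusFF K F)) (L := s27mtL K F)
      (W := P.W) P.hKW
  have h := hmem _ hV
  rw [ValuationSubring.mem_comap, map_mul, map_pow, s17csd_map hx G₀ hG₀ q hq t n] at h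
  exact h

/-- `G₀ + Ao = 2 G₀ − O`. -/
theorem s17csd_A_eq (O : Place K F) :
    G₀ + s27cstAo G₀ O = (2 • G₀ - Finsupp.single O 1 : Divisor K F) := by
  unfold s27cstAo
  rw [two_smul]
  abel

/-- **hsec** of `s17pnt_plN` from the constants, with the `β` of PlM / PlT: no open input. -/
theorem s17csd_hsec_const (hg : 0 < genusFF K F) (O : Place K F) (hc : S27cstIsConst x G₀ O)
    (q : ℤ → Fin (genusFF K F) → F →ₐ[K] s27mtL K F) (hq : S27pfFam (s27ftPkg hx G₀ hG₀) q)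
    (t : F) (N : ℕ) (htO : -(N : ℤ) ≤ O.ord t)
    (ht : ∀ Q : Place K F, Q ≠ O → 0 ≤ Q.ord t)
    (P : S17plPlace K (s27mtL K F)) (n : Fin (genusFF K F + 1)) :
    s17cvChow (fun i => q (-1) i t) n *
      s17pmtB (s27indB (s27pfPsi (s27ftPkg hx G₀ hG₀) (s27dcl_halg (x := x)) hq)
        (s27beta (g := genusFF K F) (G₀ + s27cstAo G₀ O)) 1) P.W ^ N
      ∈ P.W := by
  have hl := hc.l_A
  have hpos : 0 < Module.finrank K ↥(riemannRochSpace (G₀ + s27cstAo G₀ O)) := by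
    rw [hl]; exact hg
  haveI : Module.Finite K ↥(riemannRochSpace (G₀ + s27cstAo G₀ O)) :=
    Module.finite_of_finrank_pos hpos
  have hb : Nonempty (Module.Basis (Fin (genusFF K F)) K
      ↥(riemannRochSpace (G₀ + s27cstAo G₀ O))) := ⟨Module.finBasisOfFinrankEq K _ hl⟩
  rw [s17csd_A_eq G₀ O] at hb ⊢
  obtain ⟨f₀⟩ := hb
  obtain ⟨s, hs⟩ := Fermat.Agent.S24.place_exists_ord_eq_one O
  exact s17csd_hsec hx G₀ hG₀ O hc.nonneg hc.off f₀ q hq s hs t N htO ht P n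

end Stage

end Fermat.Agent.S17

end
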