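/-
S17 sprint, layer H, leaf **CHOW-UNIT** (helper46): at a valuation subring `W ⊇ K` where the
local equation `y` of `Θ⁻` is a UNIT, no point of the tuple is centred at `O`, hence every
function `t` whose only pole is `O` has all its values `p i t` in `W` (so the Chow block
`[1 : u_1 : … : u_g]` is visible at `W`).

* `s17ciu_gamma_inv_mem` : `y = w·γ`, `w ∈ W`, `y⁻¹ ∈ W` ⇒ `γ⁻¹ ∈ W`;
* `s17ciu_not_centre`    : `γ⁻¹ ∈ W` ⇒ no `p i` is centred at `O`;
* `s17ciu_val_mem`       : `γ⁻¹ ∈ W` ⇒ `p i t ∈ W` for all `i`;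
* `s17ciu_val_mem_idx`   : the POLE-DIV form (`S27ptIsIdx W q A y`, `y⁻¹ ∈ W`);
* `s17ciu_chow_mem_idx`  : then every Chow coefficient lies in `W`.
-/
import Fermat.Agent.S17.ChowInL

set_option autoImplicit false
set_option linter.unusedSectionVars false
set_option linter.unusedVariables false
set_option linter.style.haveILetI false

noncomputable section

namespace Fermat.Agent.S17

open AlgebraicCurve Polynomial IntermediateField Fermat.Agent.S27

universe u v w

variable {K : Type u} {F : Type v} {𝔏 : Type w} [Field K] [Field F] [Field 𝔏]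
  [Algebra K F] [Algebra K 𝔏]

/-- `y = w·γ` with `w ∈ W` and `y` a unit of `W` ⇒ `γ⁻¹ ∈ W`. -/
theorem s17ciu_gamma_inv_mem (W : ValuationSubring 𝔏) {y w γ : 𝔏} (hw : w ∈ W)
    (hy : y = w * γ) (hyinv : y⁻¹ ∈ W) (hy0 : y ≠ 0) : γ⁻¹ ∈ W := by
  have hγ0 : γ ≠ 0 := by
    rintro rfl
    exact hy0 (by rw [hy, mul_zero])
  have hw0 : w ≠ 0 := by
    rintro rfl
    exact hy0 (by rw [hy, zero_mul])
  have h1 : γ⁻¹ = w * y⁻¹ := by
    rw [hy]
    field_simp
  rw [h1]
  exact W.mul_mem _ _ hw hyinv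

/-- if `γ` is a unit of `W` then no point is centred at `O`. -/
theorem s17ciu_not_centre (W : ValuationSubring 𝔏) (O : Place K F) (s : F) (hs : O.ord s = 1)
    {g : ℕ} (p : Fin g → F →ₐ[K] 𝔏) (hγ : (s27pdsGamma W p O s)⁻¹ ∈ W) (i : Fin g) :
    ¬ S27ptIsCentre W (p i) O := by
  classical
  intro hO
  have hs0 : s ≠ 0 := by
    rintro rfl
    rw [Place.ord_zero] at hs
    exact zero_ne_one hs
  -- the other factors
  have hsplit : s27pdsGamma W p O s =
      (p i s) * ∏ j ∈ Finset.univ.erase i, (if S27ptIsCentre W (p j) O then p j s else 1) := by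
    unfold s27pdsGamma
    rw [← Finset.mul_prod_erase Finset.univ _ (Finset.mem_univ i), if_pos hO]
  have hrest : (∏ j ∈ Finset.univ.erase i, (if S27ptIsCentre W (p j) O then p j s else 1)) ∈ W :=
    W.toSubring.prod_mem fun j _ => s17cil_gfactor_mem W O s hs (p j)
  have hpis0 : p i s ≠ 0 := (map_ne_zero (p i)).mpr hs0
  have hrest0 : (∏ j ∈ Finset.univ.erase i,
      (if S27ptIsCentre W (p j) O then p j s else 1)) ≠ 0 := by
    intro h
    have := s27pds_gamma_ne_zero W p O hs0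
    rw [hsplit, h, mul_zero] at this
    exact this rfl
  have hinv : (p i s)⁻¹ ∈ W := by
    have h1 : (p i s)⁻¹ = (s27pdsGamma W p O s)⁻¹ *
        ∏ j ∈ Finset.univ.erase i, (if S27ptIsCentre W (p j) O then p j s else 1) := by
      rw [hsplit]
      field_simp
    rw [h1]
    exact W.mul_mem _ _ hγ hrest
  rw [← map_inv₀, s27qi_mem_iff_of_centre hO] at hinv
  have h4 := (Fermat.Agent.S24.PlaceAux.ord_pos_iff_mem_nonunits (v := O) hs0).1
    (by rw [hs]; norm_num)
  obtain ⟨hsW, hmax⟩ := (ValuationSubring.mem_nonunits_iff_exists_mem_maximalIdeal).1 h4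
  have hunit : IsUnit (⟨s, hsW⟩ : O.toValuationSubring) := by
    refine ⟨⟨⟨s, hsW⟩, ⟨s⁻¹, hinv⟩, ?_, ?_⟩, rfl⟩
    · apply Subtype.ext
      show s * s⁻¹ = 1
      exact mul_inv_cancel₀ hs0
    · apply Subtype.ext
      show s⁻¹ * s = 1
      exact inv_mul_cancel₀ hs0
  exact (IsLocalRing.mem_maximalIdeal _).1 hmax hunit

/-- if `γ` is a unit of `W` then every function with its only pole at `O` has its values in
`W`. -/
theorem s17ciu_val_mem (x₀ : F) (hx₀ : Transcendental K x₀) [FiniteDimensional K⟮x₀⟯ F]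
    (W : ValuationSubring 𝔏) (hKW : ∀ a : K, algebraMap K 𝔏 a ∈ W)
    (O : Place K F) (s : F) (hs : O.ord s = 1)
    {g : ℕ} (p : Fin g → F →ₐ[K] 𝔏) (hγ : (s27pdsGamma W p O s)⁻¹ ∈ W)
    (t : F) (ht : ∀ Q : Place K F, Q ≠ O → 0 ≤ Q.ord t) (i : Fin g) : p i t ∈ W := by
  rcases s27qi_centre_or_top x₀ hx₀ W hKW (p i) with h | ⟨Q, hQ⟩
  · exact s27qi_mem_of_top h t
  · have hQO : Q ≠ O := by
      rintro rfl
      exact s17ciu_not_centre W Q s hs p hγ i hQ
    rw [s27qi_mem_iff_of_centre hQ]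
    exact Fermat.Agent.S24.PlaceAux.mem_of_ord_nonneg Q (ht Q hQO)

/-- **CHOW-UNIT, POLE-DIV form**: where the local equation `y` of `Θ⁻` is a unit, all values
`p i t` lie in `W`. -/
theorem s17ciu_val_mem_idx [IsAlgClosed K] [CharZero K] [IsCurveOver K F]
    [Algebra.EssFiniteType K F]
    (x₀ : F) (hx₀ : Transcendental K x₀) [FiniteDimensional ↥(IntermediateField.adjoin K {x₀}) F]
    (W : ValuationSubring 𝔏) (hKW : ∀ a : K, algebraMap K 𝔏 a ∈ W)
    (O : Place K F) (hres : Function.Surjective (algebraMap K O.ResidueField))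
    (s : F) (hs : O.ord s = 1)
    (A : Divisor K F) (hAO : A O = -1) (hApos : ∀ Q : Place K F, Q ≠ O → 0 ≤ A Q)
    {g : ℕ} (p q : Fin g → F →ₐ[K] 𝔏) (hp : Function.Injective p) (hq : Function.Injective q)
    (hpq : ∀ i j, p i ≠ q j) (hopp : S27pdaOpp p q A)
    (t : F) (ht : ∀ Q : Place K F, Q ≠ O → 0 ≤ Q.ord t)
    (y : 𝔏) (hy : S27ptIsIdx W q A y) (hy0 : y ≠ 0) (hyinv : y⁻¹ ∈ W) (i : Fin g) :
    p i t ∈ W := by
  obtain ⟨w, hw, hyw⟩ :=
    s27pda_main x₀ hx₀ W hKW O hres s hs A hAO hApos p q hp hq hpq hopp y hy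
  exact s17ciu_val_mem x₀ hx₀ W hKW O s hs p
    (s17ciu_gamma_inv_mem W hw hyw hyinv hy0) t ht i

/-- the Chow coefficients as signed elementary symmetric sums. -/
theorem s17ciu_chow_eq_sum {g : ℕ} (x : Fin g → 𝔏) (n : Fin (g + 1)) :
    s17cvChow x n = (-1) ^ (g - (n : ℕ)) *
      ∑ T ∈ (Finset.univ : Finset (Fin g)).powersetCard (g - (n : ℕ)), ∏ i ∈ T, x i := by
  classical
  have hcard : Multiset.card ((Finset.univ : Finset (Fin g)).val.map x) = g := by
    simp
  have hn : (n : ℕ) ≤ Multiset.card ((Finset.univ : Finset (Fin g)).val.map x) := by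
    rw [hcard]
    exact Nat.lt_succ_iff.mp n.2
  have hprod : (∏ i : Fin g, (X - C (x i)) : 𝔏[X]) =
      (((Finset.univ : Finset (Fin g)).val.map x).map fun r => X - C r).prod := by
    rw [Multiset.map_map]
    rfl
  unfold s17cvChow
  rw [hprod, Multiset.prod_X_sub_C_coeff _ hn, hcard, Finset.esymm_map_val]

/-- the Chow coefficients of a tuple with entries in `W` lie in `W`. -/
theorem s17ciu_chow_mem_of_mem (W : ValuationSubring 𝔏) {g : ℕ} (x : Fin g → 𝔏)
    (hx : ∀ i, x i ∈ W) (n : Fin (g + 1)) : s17cvChow x n ∈ W := by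
  classical
  rw [s17ciu_chow_eq_sum]
  refine W.mul_mem _ _ (W.toSubring.pow_mem (W.neg_mem _ W.one_mem) _) ?_
  exact W.toSubring.sum_mem fun T _ => W.toSubring.prod_mem fun i _ => hx i

/-- **CHOW-UNIT**: where the local equation `y` of `Θ⁻` is a unit, every Chow coefficient of
the values of `t` lies in `W`. -/
theorem s17ciu_chow_mem_idx [IsAlgClosed K] [CharZero K] [IsCurveOver K F]
    [Algebra.EssFiniteType K F]
    (x₀ : F) (hx₀ : Transcendental K x₀) [FiniteDimensional ↥(IntermediateField.adjoin K {x₀}) F]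
    (W : ValuationSubring 𝔏) (hKW : ∀ a : K, algebraMap K 𝔏 a ∈ W)
    (O : Place K F) (hres : Function.Surjective (algebraMap K O.ResidueField))
    (s : F) (hs : O.ord s = 1)
    (A : Divisor K F) (hAO : A O = -1) (hApos : ∀ Q : Place K F, Q ≠ O → 0 ≤ A Q)
    {g : ℕ} (p q : Fin g → F →ₐ[K] 𝔏) (hp : Function.Injective p) (hq : Function.Injective q)
    (hpq : ∀ i j, p i ≠ q j) (hopp : S27pdaOpp p q A)
    (t : F) (ht : ∀ Q : Place K F, Q ≠ O → 0 ≤ Q.ord t)
    (y : 𝔏) (hy : S27ptIsIdx W q A y) (hy0 : y ≠ 0) (hyinv : y⁻¹ ∈ W) (n : Fin (g + 1)) :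
    s17cvChow (fun i => p i t) n ∈ W :=
  s17ciu_chow_mem_of_mem W _
    (fun i => s17ciu_val_mem_idx x₀ hx₀ W hKW O hres s hs A hAO hApos p q hp hq hpq hopp t ht
      y hy hy0 hyinv i) n

end Fermat.Agent.S17

end
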