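/-
S17 sprint, layer H — **COMMON-S** (helper80): the formal glue for ONE tuple `s` serving the three
place statements PlM, PlT, PlN of `S17/StageTop.lean` (top integrator's alert 07:28Z: "the three
tops must use the SAME tuple `s`, hence the SAME local equation `b`").

PlM / PlT accept ANY base-point-free tuple of `L(M·D)` (`S17muBpf` = `S17trBpf`, or `S17pmkBpf` at
the `K`-rational places); PlN (`s17pns_plN`, `s17pnu_plN`) needs a CHOW BLOCK `G n = Φ · Chow_n`
inside the `K`-span of `s` (`hG : s17pvLin c s n = Φ * Chow n`) which is VISIBLE at the good places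
(`hvis : ∃ j₀, s17pvLinK c [s]_P j₀ ≠ 0`).  So take

      `s := Sum.elim f G`,   `f` = a base-point-free family,   `G` = the Chow block,

and the coordinate forms `c = s17csForm` (`c n = the coordinate inr n`):

* `s17cs_mem_raise`   : `g · b^a ∈ V`, `b ∈ V`, `a ≤ M` ⇒ `g · b^M ∈ V`   (`L(aD) ⊆ L(MD)`);
* `s17cs_muBpf_sum`, `s17cs_trBpf_sum`, `s17cs_pmkBpf_sum` : `f` base-point-free in `L(M·D)` and
                        `G ⊂ L(M·D)` ⇒ `Sum.elim f G` base-point-free in `L(M·D)`;
* `s17cs_lin`         : `s17pvLin s17csForm (Sum.elim f G) n = G n`;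
* `s17cs_linK`        : `s17pvLinK s17csForm v n = v (inr n)`;
* `s17cs_hG`          : the literal `hG` of `s17pns_plN` for `G n = Φ * Ch n`;
* `s17cs_vis`         : if `G j₀ · β^M` is a unit of `P.W` and `s · β^M ⊂ P.W`, then
                        `s17pvLinK s17csForm [s]_P j₀ ≠ 0`   (the literal conclusion of `hvis`);
* `s17cs_vis_exists`  : the same with `∃ j₀`.
Pure valuation-ring algebra on the definitions of S17/Mult, S17/Transl, S17/PlMK, S17/ProjVal.
-/
import Fermat.Agent.S17.Mult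
import Fermat.Agent.S17.Transl
import Fermat.Agent.S17.PlMK
import Fermat.Agent.S17.ProjVal

set_option autoImplicit false
set_option linter.unusedVariables false
set_option linter.unusedSectionVars false

noncomputable section

namespace Fermat.Agent.S17

open Fermat.Agent.S27

section Bpf

variable {K : Type*} [Field K] {L : Type*} [Field L] [Algebra K L] {ι κ : Type*}

/-- `L(a D) ⊆ L(M D)` for `a ≤ M`, at one valuation subring. -/
theorem s17cs_mem_raise {V : ValuationSubring L} {g β : L} {a M : ℕ} (hβ : β ∈ V)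
    (h : g * β ^ a ∈ V) (haM : a ≤ M) : g * β ^ M ∈ V := by
  obtain ⟨d, rfl⟩ := Nat.exists_eq_add_of_le haM
  rw [pow_add, ← mul_assoc]
  exact V.mul_mem _ _ h (pow_mem hβ d)

/-- adding members of `L(M·D)` to a base-point-free family keeps it base-point-free
(`S17muBpf`, all valuation subrings over `K`). -/
theorem s17cs_muBpf_sum {b : ValuationSubring L → L} {M : ℕ} {f : ι → L} {G : κ → L}
    (hf : S17muBpf K b M f)
    (hG : ∀ V : ValuationSubring L, S27IsKValU K V → ∀ n, G n * b V ^ M ∈ V) :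
    S17muBpf K b M (Sum.elim f G) := by
  intro V hV
  obtain ⟨h1, i, hi⟩ := hf V hV
  refine ⟨?_, Sum.inl i, hi⟩
  rintro (j | n)
  · exact h1 j
  · exact hG V hV n

/-- the same for `S17trBpf` (S17/Transl.lean). -/
theorem s17cs_trBpf_sum {b : ValuationSubring L → L} {M : ℕ} {f : ι → L} {G : κ → L}
    (hf : S17trBpf K b M f) (hG : S17trMem K b M G) :
    S17trBpf K b M (Sum.elim f G) := by
  intro V hV
  obtain ⟨h1, i, hi⟩ := hf V hV
  refine ⟨?_, Sum.inl i, hi⟩
  rintro (j | n)
  · exact h1 j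
  · exact hG V hV n

/-- the same at the `K`-rational places only (`S17pmkBpf`, S17/PlMK.lean). -/
theorem s17cs_pmkBpf_sum {b : ValuationSubring L → L} {M : ℕ} {f : ι → L} {G : κ → L}
    (hf : S17pmkBpf K b M f)
    (hG : ∀ P : S17plPlace K L, ∀ n, G n * b P.W ^ M ∈ P.W) :
    S17pmkBpf K b M (Sum.elim f G) := by
  intro P
  obtain ⟨h1, i, hi⟩ := hf P
  refine ⟨?_, Sum.inl i, hi⟩
  rintro (j | n)
  · exact h1 j
  · exact hG P n

/-- `S17muBpf` and `S17trBpf` are the same statement. -/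
theorem s17cs_muBpf_iff_trBpf {b : ValuationSubring L → L} {M : ℕ} {f : ι → L} :
    S17muBpf K b M f ↔ S17trBpf K b M f := Iff.rfl

/-- a tuple which is not `0`: a base-point-free tuple is not `0`. -/
theorem s17cs_ne_zero_of_pmkBpf {b : ValuationSubring L → L} {M : ℕ} {s : ι → L}
    (hs : S17pmkBpf K b M s) (P : S17plPlace K L) : s ≠ 0 := by
  obtain ⟨-, i, hi⟩ := hs P
  intro h0
  apply hi.1
  rw [h0]
  simp

end Bpf

section Lin

variable {K : Type*} [Field K] {L : Type*} [Field L] [Algebra K L] {ι κ : Type*}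
  [Fintype ι] [Fintype κ] [DecidableEq κ]

/-- the coordinate forms of the block: `c n = the coordinate inr n`. -/
def s17csForm (ι : Type*) {κ : Type*} [DecidableEq κ] (K : Type*) [Field K] :
    κ → (ι ⊕ κ) → K :=
  fun n γ => Sum.elim (fun _ => (0 : K)) (fun m => if m = n then 1 else 0) γ

@[simp] theorem s17csForm_inl (n : κ) (i : ι) : s17csForm ι K n (Sum.inl i) = 0 := rfl

@[simp] theorem s17csForm_inr (n m : κ) :
    s17csForm ι K n (Sum.inr m) = if m = n then 1 else 0 := rfl

/-- the block is the image of the tuple under the coordinate forms. -/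
theorem s17cs_lin (f : ι → L) (G : κ → L) (n : κ) :
    s17pvLin (s17csForm ι K) (Sum.elim f G) n = G n := by
  unfold s17pvLin
  rw [Fintype.sum_sum_type]
  simp only [s17csForm_inl, s17csForm_inr, map_zero, zero_mul, Finset.sum_const_zero, zero_add,
    Sum.elim_inr, apply_ite (algebraMap K L), map_one, ite_mul, one_mul]
  rw [Finset.sum_ite_eq' Finset.univ n (fun m => G m)]
  simp

/-- the projected value is the `inr n` coordinate of the value. -/
theorem s17cs_linK (v : ι ⊕ κ → K) (n : κ) :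
    s17pvLinK (s17csForm ι K) v n = v (Sum.inr n) := by
  unfold s17pvLinK
  rw [Fintype.sum_sum_type]
  simp only [s17csForm_inl, s17csForm_inr, zero_mul, Finset.sum_const_zero, zero_add, ite_mul,
    one_mul]
  rw [Finset.sum_ite_eq' Finset.univ n (fun m => v (Sum.inr m))]
  simp

/-- **the literal `hG` of `s17pns_plN` / `s17pnu_plN`** for the tuple `Sum.elim f (Φ · Ch)`. -/
theorem s17cs_hG (f : ι → L) (Φ : L) (Ch : κ → L) (n : κ) :
    s17pvLin (s17csForm ι K) (Sum.elim f (fun m => Φ * Ch m)) n = Φ * Ch n :=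
  s17cs_lin (K := K) f (fun m => Φ * Ch m) n

/-- **VISIBILITY**: if the member `G j₀` of the block generates the lattice at `P`
(`G j₀ · β^M` is a unit, `s · β^M ⊂ P.W`), then the block is visible at `P`. -/
theorem s17cs_vis (P : S17plPlace K L) (f : ι → L) (G : κ → L) (α : ι ⊕ κ)
    (hα : S17plIsMin P.W (Sum.elim f G) α) {β : L} {M : ℕ}
    (hmem : ∀ γ, Sum.elim f G γ * β ^ M ∈ P.W) {j₀ : κ}
    (hu : S27IsUnitIn P.W (G j₀ * β ^ M)) :
    s17pvLinK (s17csForm ι K) (s17plVal P (Sum.elim f G) α hα) j₀ ≠ 0 := by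
  rw [s17cs_linK, s17pl_val_apply]
  have hG0 : G j₀ ≠ 0 := left_ne_zero_of_mul hu.1
  have hβ0 : β ^ M ≠ 0 := right_ne_zero_of_mul hu.1
  have hne : Sum.elim f G (Sum.inr j₀) / Sum.elim f G α ≠ 0 := div_ne_zero hG0 hα.1
  refine s17pl_res_ne_zero P hne (hα.2 _) ?_
  have e : (Sum.elim f G (Sum.inr j₀) / Sum.elim f G α)⁻¹
      = (Sum.elim f G α * β ^ M) * (G j₀ * β ^ M)⁻¹ := by
    have h1 := hα.1
    show (G j₀ / Sum.elim f G α)⁻¹ = _
    field_simp
  rw [e]
  exact P.W.mul_mem _ _ (hmem α) hu.2.2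

/-- the same with `∃ j₀` (the literal conclusion of `hvis`). -/
theorem s17cs_vis_exists (P : S17plPlace K L) (f : ι → L) (G : κ → L) (α : ι ⊕ κ)
    (hα : S17plIsMin P.W (Sum.elim f G) α) {β : L} {M : ℕ}
    (hmem : ∀ γ, Sum.elim f G γ * β ^ M ∈ P.W) {j₀ : κ}
    (hu : S27IsUnitIn P.W (G j₀ * β ^ M)) :
    ∃ j, s17pvLinK (s17csForm ι K) (s17plVal P (Sum.elim f G) α hα) j ≠ 0 :=
  ⟨j₀, s17cs_vis P f G α hα hmem hu⟩

/-- visibility from base-point-freeness at the `K`-places: the membership hypothesis is part of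
`S17pmkBpf`. -/
theorem s17cs_vis_of_pmkBpf {b : ValuationSubring L → L} {M : ℕ} (f : ι → L) (G : κ → L)
    (hs : S17pmkBpf K b M (Sum.elim f G)) (P : S17plPlace K L) (α : ι ⊕ κ)
    (hα : S17plIsMin P.W (Sum.elim f G) α) {j₀ : κ}
    (hu : S27IsUnitIn P.W (G j₀ * b P.W ^ M)) :
    ∃ j, s17pvLinK (s17csForm ι K) (s17plVal P (Sum.elim f G) α hα) j ≠ 0 :=
  s17cs_vis_exists P f G α hα (hs P).1 hu

end Lin

end Fermat.Agent.S17
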