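/-
S17 sprint, layer H — **CLOSE-MT** (helper27): PlM `(3, 6)` and PlT `(a = 4)` on the CLOSED stage for
ONE COMMON tuple, with NO hypothesis on a base-point-free family left.

Stage = S17/StageTop.lean (`L = s27mtL Kb (FF N)`), ANY admissible constants `hc : S27cstIsConst x G₀ O`,
ANY family `q` (`hq`).  `b_L := s17pmtB (s27indB ψ β 1)` = the lifted local equations of `Θ_{Ao}` at
`η` (ruling (A), `b = B(+1)`).

* `s17cmt27_bpf`  : `∃ n (f : Fin n → L), f i ≠ 0, S17muBpf Kb b_L 2 f`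
                    (helper97 `s17bpc_bpf_fin` + helper18 `s17ttp_eq_exists` + change of local equation);
* `s17cmt27_main` : for every `d ≥ 1` and every finite block `G : κ → L` with `G n · b_L(W)^(2d) ∈ W`
                    for all `W ⊇ K` (e.g. the Chow block of PlN, S17/CommonS.lean), the tuple
                    `s := Sum.elim (monomials of degree d of f) G` is base-point-free in `L(2d·Θ)` and
                    `S17hyPlM cl (s17sxHt s) 3 6`, `S17hyPlT cl (s17sxHt s) 4`  (`cl = s17sxCl`);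
* `s17cmt27_plain`: the case without block (`κ = Empty` is not needed: `s := f`, `d = 1`).
-/
import Fermat.Agent.S17.TranslTop
import Fermat.Agent.S17.PlMFinal
import Fermat.Agent.S17.BpfPoolClosed
import Fermat.Agent.S17.CommonS
import Fermat.Agent.S17.Bpf

set_option autoImplicit false
set_option linter.unusedVariables false
set_option linter.unusedSectionVars false
set_option linter.style.haveILetI false
set_option linter.style.longLine false

noncomputable section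

namespace Fermat.Agent.S17

open ModularCurve AlgebraicCurve Module TensorProduct IntermediateField
open Fermat.Agent.S24 Fermat.Agent.S26 Fermat.Agent.S27 Fermat.Agent.DEU

section Formal

variable {K : Type*} [Field K] {𝔏 : Type*} [Field 𝔏] [Algebra K 𝔏]

/-- the trivial valuation subring contains `K`. -/
theorem s17cmt27_top_isKVal : S27IsKValU K (⊤ : ValuationSubring 𝔏) :=
  fun _ => ValuationSubring.mem_top _

/-- a base-point-free tuple is not the zero tuple. -/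
theorem s17cmt27_ne_zero {ι : Type*} {b : ValuationSubring 𝔏 → 𝔏} {M : ℕ} {s : ι → 𝔏}
    (hs : S17muBpf K b M s) : s ≠ 0 := by
  obtain ⟨-, i, hi⟩ := hs ⊤ s17cmt27_top_isKVal
  intro h
  apply hi.1
  rw [h]
  simp

end Formal

section Stage

variable (N : ℕ) [NeZero N] [IsCurveOver Kb (FF N)] [Algebra.EssFiniteType Kb (FF N)]
variable {x : FF N} (hx : Transcendental Kb x)
  [FiniteDimensional ↥(IntermediateField.adjoin Kb {x}) (FF N)]
  [Algebra.IsSeparable ↥(IntermediateField.adjoin Kb {x}) (FF N)]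
  (G₀ : Divisor Kb (FF N)) (hG₀ : Divisor.degree G₀ = (genusFF Kb (FF N) : ℤ))

/-- **the common tuple**: PlM `(3, 6)` and PlT `(a = 4)` for `s = Sum.elim (f^d) G`. -/
theorem s17cmt27_main (hg : 0 < genusFF Kb (FF N)) (O : Place Kb (FF N))
    (hc : S27cstIsConst x G₀ O)
    (q : ℤ → Fin (genusFF Kb (FF N)) → FF N →ₐ[Kb] s27mtL Kb (FF N))
    (hq : S27pfFam (s27ftPkg hx G₀ hG₀) q) (d : ℕ)
    {κ : Type} [Fintype κ] (G : κ → s27mtL Kb (FF N))
    (hG : ∀ W : ValuationSubring (s27mtL Kb (FF N)), S27IsKValU Kb W → ∀ n,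
      G n * s17pmtB (L := s27mtL Kb (FF N))
        (s27indB (s27pfPsi (s27ftPkg hx G₀ hG₀) (s27dcl_halg (x := x)) hq)
          (s27beta (g := genusFF Kb (FF N)) (G₀ + s27cstAo G₀ O)) 1) W ^ (d * 2) ∈ W) :
    ∃ (n : ℕ) (f : Fin n → s27mtL Kb (FF N)), (∀ i, f i ≠ 0) ∧
      S17muBpf Kb (s17pmtB (L := s27mtL Kb (FF N))
        (s27indB (s27pfPsi (s27ftPkg hx G₀ hG₀) (s27dcl_halg (x := x)) hq)
          (s27beta (g := genusFF Kb (FF N)) (G₀ + s27cstAo G₀ O)) 1)) (d * 2)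
        (Sum.elim (fun k : Fin d → Fin n => ∏ j, f (k j)) G) ∧
      S17hyPlM (s17sxCl N (L := s27mtL Kb (FF N)) (FL := s27mtFL Kb (FF N))
          (s27stg_hld Kb (FF N) (s27mtL Kb (FF N))) (s27stg_hgen Kb (FF N) (s27mtL Kb (FF N)))
          hx G₀ hG₀)
        (s17sxHt (Sum.elim (fun k : Fin d → Fin n => ∏ j, f (k j)) G)) 3 6 ∧
      S17hyPlT (s17sxCl N (L := s27mtL Kb (FF N)) (FL := s27mtFL Kb (FF N))
          (s27stg_hld Kb (FF N) (s27mtL Kb (FF N))) (s27stg_hgen Kb (FF N) (s27mtL Kb (FF N)))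
          hx G₀ hG₀)
        (s17sxHt (Sum.elim (fun k : Fin d → Fin n => ∏ j, f (k j)) G)) 4 := by
  obtain ⟨f₀⟩ := s17ttp_exists_basis hg hc
  obtain ⟨y, hy, hyu⟩ := s17ttp_eq_exists N hx G₀ hG₀ hg O hc q hq
  obtain ⟨n, f, hf0, hf⟩ := s17bpc_bpf_fin (L := s27mtL Kb (FF N)) (FL := s27mtFL Kb (FF N))
    (s27stg_hld Kb (FF N) (s27mtL Kb (FF N))) (s27stg_hgen Kb (FF N) (s27mtL Kb (FF N)))
    hx G₀ hG₀ hg hc.nonneg (s27cstAo G₀ O) hc.bot hc.deg_Ao O
  have h1 : S17muBpf Kb y 2 f := hf y hy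
  -- change of the local equation `y → b_L`
  have h2 : S17muBpf Kb (s17pmtB (L := s27mtL Kb (FF N))
      (s27indB (s27pfPsi (s27ftPkg hx G₀ hG₀) (s27dcl_halg (x := x)) hq)
        (s27beta (g := genusFF Kb (FF N)) (G₀ + s27cstAo G₀ O)) 1)) 2 f :=
    s17ttp_bpf_congr (K := Kb) h1 (fun W hW => by
      obtain ⟨u, hu, hbu⟩ := hyu W hW
      exact ⟨u⁻¹, s17mu_unit_inv hu, by rw [hbu, ← mul_assoc, inv_mul_cancel₀ hu.1, one_mul]⟩)
  -- monomials of degree `d`, then the block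
  have h3 := s17bp_pow h2 d
  have h4 := s17cs_muBpf_sum h3 hG
  refine ⟨n, f, hf0, h4, ?_, ?_⟩
  · exact s17pmf_plM_three N hx G₀ hG₀ hg O hc q hq (d * 2) _ (s17pmk_bpf_of h4)
      (s17cmt27_ne_zero h4)
  · have hX : S17trBpf Kb y (d * 2) (Sum.elim (fun k : Fin d → Fin n => ∏ j, f (k j)) G) :=
      s17ttp_bpf_congr (K := Kb) h4 hyu
    have h := s17twr_plT4 N (FL := s27mtFL Kb (FF N)) (s27stg_hld Kb (FF N) (s27mtL Kb (FF N)))
      (s27stg_hgen Kb (FF N) (s27mtL Kb (FF N))) hx G₀ hG₀ hg (s27cstAo G₀ O) hc.bot hc.deg_Ao O f₀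
      y hy _ (d * 2) hX _ (fun _ => rfl) _ (fun P α hα => s17sxHt_eq _ P α hα)
    have e : ((2 : ℝ) ^ 2) = 4 := by norm_num
    rw [e] at h
    exact h

/-- **the plain tuple** `s = f` (`N = 2`): PlM `(3, 6)` and PlT `(a = 4)`. -/
theorem s17cmt27_plain (hg : 0 < genusFF Kb (FF N)) (O : Place Kb (FF N))
    (hc : S27cstIsConst x G₀ O)
    (q : ℤ → Fin (genusFF Kb (FF N)) → FF N →ₐ[Kb] s27mtL Kb (FF N))
    (hq : S27pfFam (s27ftPkg hx G₀ hG₀) q) :
    ∃ (n : ℕ) (f : Fin n → s27mtL Kb (FF N)), (∀ i, f i ≠ 0) ∧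
      S17muBpf Kb (s17pmtB (L := s27mtL Kb (FF N))
        (s27indB (s27pfPsi (s27ftPkg hx G₀ hG₀) (s27dcl_halg (x := x)) hq)
          (s27beta (g := genusFF Kb (FF N)) (G₀ + s27cstAo G₀ O)) 1)) 2 f ∧
      S17hyPlM (s17sxCl N (L := s27mtL Kb (FF N)) (FL := s27mtFL Kb (FF N))
          (s27stg_hld Kb (FF N) (s27mtL Kb (FF N))) (s27stg_hgen Kb (FF N) (s27mtL Kb (FF N)))
          hx G₀ hG₀) (s17sxHt f) 3 6 ∧
      S17hyPlT (s17sxCl N (L := s27mtL Kb (FF N)) (FL := s27mtFL Kb (FF N))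
          (s27stg_hld Kb (FF N) (s27mtL Kb (FF N))) (s27stg_hgen Kb (FF N) (s27mtL Kb (FF N)))
          hx G₀ hG₀) (s17sxHt f) 4 := by
  obtain ⟨f₀⟩ := s17ttp_exists_basis hg hc
  obtain ⟨y, hy, hyu⟩ := s17ttp_eq_exists N hx G₀ hG₀ hg O hc q hq
  obtain ⟨n, f, hf0, hf⟩ := s17bpc_bpf_fin (L := s27mtL Kb (FF N)) (FL := s27mtFL Kb (FF N))
    (s27stg_hld Kb (FF N) (s27mtL Kb (FF N))) (s27stg_hgen Kb (FF N) (s27mtL Kb (FF N)))
    hx G₀ hG₀ hg hc.nonneg (s27cstAo G₀ O) hc.bot hc.deg_Ao O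
  have h1 : S17muBpf Kb y 2 f := hf y hy
  have h2 : S17muBpf Kb (s17pmtB (L := s27mtL Kb (FF N))
      (s27indB (s27pfPsi (s27ftPkg hx G₀ hG₀) (s27dcl_halg (x := x)) hq)
        (s27beta (g := genusFF Kb (FF N)) (G₀ + s27cstAo G₀ O)) 1)) 2 f :=
    s17ttp_bpf_congr (K := Kb) h1 (fun W hW => by
      obtain ⟨u, hu, hbu⟩ := hyu W hW
      exact ⟨u⁻¹, s17mu_unit_inv hu, by rw [hbu, ← mul_assoc, inv_mul_cancel₀ hu.1, one_mul]⟩)
  refine ⟨n, f, hf0, h2, ?_, ?_⟩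
  · exact s17pmf_plM_three N hx G₀ hG₀ hg O hc q hq 2 f (s17pmk_bpf_of h2) (s17cmt27_ne_zero h2)
  · have h := s17twr_plT4 N (FL := s27mtFL Kb (FF N)) (s27stg_hld Kb (FF N) (s27mtL Kb (FF N)))
      (s27stg_hgen Kb (FF N) (s27mtL Kb (FF N))) hx G₀ hG₀ hg (s27cstAo G₀ O) hc.bot hc.deg_Ao O f₀
      y hy f 2 h1 _ (fun _ => rfl) _ (fun P α hα => s17sxHt_eq _ P α hα)
    have e : ((2 : ℝ) ^ 2) = 4 := by norm_num
    rw [e] at h
    exact h

end Stage

end Fermat.Agent.S17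

end
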