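/-
S17 sprint, leaf **H-COMP** (helper89): the COMPOSITE `K`-place.

`K` a field, `Ω₁`, `Ω₂`, `L` fields over `K`, `i₁ : Ω₁ →ₐ[K] L`, `i₂ : Ω₂ →ₐ[K] L` with
`Ω₁ ⊗[K] Ω₂ → L` injective (linear disjointness), `W₁`, `W₂` `K`-places of `Ω₁`, `Ω₂` (valuation
subrings containing `K` with residue field `K`).  THEN there is a `K`-place `W` of `L` with
`W ∩ Ω₁ = W₁` and `W ∩ Ω₂ = W₂`.

* `S17cpIsKPlace K W`   : `W ⊇ K` and every `x ∈ W` is congruent to a constant modulo `𝔪_W`;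
* `s17cpRes hW`         : the residue map `W →+* K` of a `K`-place (`s17cpRes_algebraMap`,
                          `s17cpRes_eq_zero_iff`);
* `S17cpPlaceExt K L`   : the PLACE EXTENSION property (Atiyah–Macdonald 5.21 with target `K`):
                          every ring homomorphism `φ : R →+* K` on a subring `R` of `L` extends to
                          a valuation subring `W ⊇ R` with `res : W →+* K`, `ker res = 𝔪_W`
                          (leaf PLACE-K, helper84: holds for `K` algebraically closed);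
* `s17cp_main`          : **H-COMP** from `S17cpPlaceExt K L`;
* `s17cp_isKPlace_of_res` : a valuation subring with a residue map onto `K` over `K` is a
                          `K`-place;
* `s17cp_comap_eq_of_dom` : domination of valuation subrings of the same field is equality.
Pure Mathlib.
-/
import Mathlib

set_option autoImplicit false
set_option linter.unusedSectionVars false
set_option linter.unusedVariables false

noncomputable section

namespace Fermat.Agent.S17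

open TensorProduct

section KPlace

variable (K : Type*) {Ω : Type*} [Field K] [Field Ω] [Algebra K Ω]

/-- `W` is a `K`-place of `Ω`: `K ⊆ W` and the residue field of `W` is `K`. -/
def S17cpIsKPlace (W : ValuationSubring Ω) : Prop :=
  (∀ c : K, algebraMap K Ω c ∈ W) ∧ ∀ x ∈ W, ∃ c : K, x - algebraMap K Ω c ∈ W.nonunits

variable {K}
variable {W : ValuationSubring Ω}

/-- the constants of a `K`-place, as a ring homomorphism `K →+* W`. -/
def s17cpConst (hW : S17cpIsKPlace K W) : K →+* W :=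
  (algebraMap K Ω).codRestrict W hW.1

@[simp] theorem s17cpConst_coe (hW : S17cpIsKPlace K W) (c : K) :
    ((s17cpConst hW c : W) : Ω) = algebraMap K Ω c := rfl

/-- `K → κ(W)` is bijective for a `K`-place. -/
theorem s17cp_const_bijective (hW : S17cpIsKPlace K W) :
    Function.Bijective ((IsLocalRing.residue W).comp (s17cpConst hW)) := by
  refine ⟨RingHom.injective _, fun y => ?_⟩
  obtain ⟨w, rfl⟩ := IsLocalRing.residue_surjective y
  obtain ⟨c, hc⟩ := hW.2 w w.2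
  refine ⟨c, ?_⟩
  have h1 : (w - s17cpConst hW c : W) ∈ IsLocalRing.maximalIdeal W := by
    rw [← ValuationSubring.coe_mem_nonunits_iff]
    exact hc
  have h2 := (IsLocalRing.residue_eq_zero_iff _).2 h1
  rw [map_sub, sub_eq_zero] at h2
  exact h2.symm

/-- the residue map `W →+* K` of a `K`-place. -/
def s17cpRes (hW : S17cpIsKPlace K W) : W →+* K :=
  ((RingEquiv.ofBijective _ (s17cp_const_bijective hW)).symm : _ →+* K).comp
    (IsLocalRing.residue W)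

theorem s17cpRes_const (hW : S17cpIsKPlace K W) (c : K) :
    s17cpRes hW (s17cpConst hW c) = c := by
  unfold s17cpRes
  rw [RingHom.comp_apply]
  exact (RingEquiv.ofBijective _ (s17cp_const_bijective hW)).symm_apply_apply c

theorem s17cpRes_algebraMap (hW : S17cpIsKPlace K W) (c : K) :
    s17cpRes hW ⟨algebraMap K Ω c, hW.1 c⟩ = c :=
  s17cpRes_const hW c

theorem s17cpRes_eq_zero_iff (hW : S17cpIsKPlace K W) (w : W) :
    s17cpRes hW w = 0 ↔ (w : Ω) ∈ W.nonunits := by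
  unfold s17cpRes
  rw [RingHom.comp_apply, ValuationSubring.coe_mem_nonunits_iff,
    ← IsLocalRing.residue_eq_zero_iff]
  exact map_eq_zero_iff _ (RingEquiv.injective _)

/-- a valuation subring `W ⊇ K` with a ring homomorphism `res : W →+* K` which is the identity on
`K` and whose kernel is `𝔪_W` is a `K`-place. -/
theorem s17cp_isKPlace_of_res (W : ValuationSubring Ω) (hK : ∀ c : K, algebraMap K Ω c ∈ W)
    (res : W →+* K) (hres : ∀ c : K, res ⟨algebraMap K Ω c, hK c⟩ = c)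
    (hker : ∀ w : W, res w = 0 ↔ (w : Ω) ∈ W.nonunits) : S17cpIsKPlace K W := by
  refine ⟨hK, fun x hx => ⟨res ⟨x, hx⟩, ?_⟩⟩
  have h1 : res (⟨x, hx⟩ - ⟨algebraMap K Ω (res ⟨x, hx⟩), hK _⟩) = 0 := by
    rw [map_sub, hres, sub_self]
  exact (hker _).1 h1

/-- `x ∈ 𝔪_A ↔ x = 0 ∨ x⁻¹ ∉ A`. -/
theorem s17cp_mem_nonunits_iff (A : ValuationSubring Ω) (x : Ω) :
    x ∈ A.nonunits ↔ x = 0 ∨ x⁻¹ ∉ A := by
  have h := A.inv_mem_nonunits_iff (x := x⁻¹)
  rw [inv_inv, inv_eq_zero] at h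
  exact h

/-- the maximal ideal of a trace `W ∩ Ω` contains the trace of the maximal ideal. -/
theorem s17cp_mem_nonunits_comap {L : Type*} [Field L] (f : Ω →+* L) (W : ValuationSubring L)
    (x : Ω) (hx : f x ∈ W.nonunits) : x ∈ (W.comap f).nonunits := by
  rw [s17cp_mem_nonunits_iff] at hx ⊢
  rcases hx with h | h
  · exact Or.inl ((map_eq_zero f).1 h)
  · refine Or.inr fun hmem => h ?_
    rw [ValuationSubring.mem_comap, map_inv₀] at hmem
    exact hmem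

/-- **domination is equality** for valuation subrings of the same field: `V ⊆ V'` and
`𝔪_V ⊆ 𝔪_{V'}` imply `V' = V`. -/
theorem s17cp_eq_of_dom (V V' : ValuationSubring Ω) (hle : ∀ x ∈ V, x ∈ V')
    (hm : ∀ x ∈ V.nonunits, x ∈ V'.nonunits) : V' = V := by
  ext x
  constructor
  · intro hx
    by_contra hxV
    have hx0 : x ≠ 0 := fun h => hxV (h ▸ V.zero_mem)
    have h1 : x⁻¹ ∈ V.nonunits := V.inv_mem_nonunits_iff.2 (Or.inr hxV)
    have h2 := V'.inv_mem_nonunits_iff.1 (hm _ h1)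
    rcases h2 with h2 | h2
    · exact hx0 h2
    · exact h2 hx
  · exact hle x

end KPlace

section PlaceExt

/-- **the PLACE EXTENSION property** of `(K, L)`: every ring homomorphism `φ : R →+* K` on a
subring `R` of `L` extends to a valuation subring `W ⊇ R` of `L` with a homomorphism
`res : W →+* K` whose kernel is the maximal ideal of `W`. -/
def S17cpPlaceExt (K : Type*) (L : Type*) [Field K] [Field L] : Prop :=
  ∀ (R : Subring L) (φ : R →+* K),
    ∃ (W : ValuationSubring L) (h : ∀ x ∈ R, x ∈ W) (res : W →+* K),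
      (∀ r : R, res ⟨(r : L), h r r.2⟩ = φ r) ∧ ∀ w : W, res w = 0 ↔ (w : L) ∈ W.nonunits

end PlaceExt

section Main

variable {K Ω₁ Ω₂ L : Type*} [Field K] [Field Ω₁] [Field Ω₂] [Field L]
  [Algebra K Ω₁] [Algebra K Ω₂] [Algebra K L]

/-- the subalgebra of a `K`-place. -/
def s17cpSub {Ω : Type*} [Field Ω] [Algebra K Ω] {W : ValuationSubring Ω}
    (hW : S17cpIsKPlace K W) : Subalgebra K Ω :=
  { W.toSubring.toSubsemiring with algebraMap_mem' := hW.1 }

theorem s17cp_mem_sub {Ω : Type*} [Field Ω] [Algebra K Ω] {W : ValuationSubring Ω}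
    (hW : S17cpIsKPlace K W) (x : Ω) : x ∈ s17cpSub hW ↔ x ∈ W := Iff.rfl

/-- the residue map of a `K`-place as a `K`-algebra homomorphism on its subalgebra. -/
def s17cpResAlg {Ω : Type*} [Field Ω] [Algebra K Ω] {W : ValuationSubring Ω}
    (hW : S17cpIsKPlace K W) : ↥(s17cpSub hW) →ₐ[K] K :=
  { (s17cpRes hW).comp
      (RingHom.codRestrict ((s17cpSub hW).val : ↥(s17cpSub hW) →+* Ω) W (fun x => x.2)) with
    commutes' := fun c => s17cpRes_algebraMap hW c }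

theorem s17cpResAlg_apply {Ω : Type*} [Field Ω] [Algebra K Ω] {W : ValuationSubring Ω}
    (hW : S17cpIsKPlace K W) (x : ↥(s17cpSub hW)) :
    s17cpResAlg hW x = s17cpRes hW ⟨(x : Ω), x.2⟩ := rfl

variable (i₁ : Ω₁ →ₐ[K] L) (i₂ : Ω₂ →ₐ[K] L)
  {W₁ : ValuationSubring Ω₁} {W₂ : ValuationSubring Ω₂}
  (hW₁ : S17cpIsKPlace K W₁) (hW₂ : S17cpIsKPlace K W₂)

/-- the multiplication map `W₁ ⊗[K] W₂ → L`. -/
def s17cpMu : ↥(s17cpSub hW₁) ⊗[K] ↥(s17cpSub hW₂) →ₐ[K] L :=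
  Algebra.TensorProduct.productMap (i₁.comp (s17cpSub hW₁).val) (i₂.comp (s17cpSub hW₂).val)

theorem s17cpMu_eq :
    s17cpMu i₁ i₂ hW₁ hW₂ = (Algebra.TensorProduct.productMap i₁ i₂).comp
      (Algebra.TensorProduct.map (s17cpSub hW₁).val (s17cpSub hW₂).val) := by
  unfold s17cpMu
  ext x
  · simp
  · simp

theorem s17cpMu_injective
    (hinj : Function.Injective (Algebra.TensorProduct.productMap i₁ i₂)) :
    Function.Injective (s17cpMu i₁ i₂ hW₁ hW₂) := by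
  rw [s17cpMu_eq]
  have h1 : Function.Injective
      (Algebra.TensorProduct.map (s17cpSub hW₁).val (s17cpSub hW₂).val) := by
    have := TensorProduct.map_injective_of_flat_flat
      ((s17cpSub hW₁).val.toLinearMap) ((s17cpSub hW₂).val.toLinearMap)
      Subtype.val_injective Subtype.val_injective
    exact this
  exact hinj.comp h1

include hW₁ hW₂ in
/-- **H-COMP**: the composite `K`-place. -/
theorem s17cp_main (hPK : S17cpPlaceExt K L)
    (hinj : Function.Injective (Algebra.TensorProduct.productMap i₁ i₂)) :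
    ∃ W : ValuationSubring L, S17cpIsKPlace K W ∧
      W.comap (i₁ : Ω₁ →+* L) = W₁ ∧ W.comap (i₂ : Ω₂ →+* L) = W₂ := by
  classical
  set μ := s17cpMu i₁ i₂ hW₁ hW₂ with hμdef
  have hμ : Function.Injective μ := s17cpMu_injective i₁ i₂ hW₁ hW₂ hinj
  let ρ : ↥(s17cpSub hW₁) ⊗[K] ↥(s17cpSub hW₂) →ₐ[K] K :=
    Algebra.TensorProduct.productMap (s17cpResAlg hW₁) (s17cpResAlg hW₂)
  let e := AlgEquiv.ofInjective μ hμ
  let φ₀ : ↥μ.range →ₐ[K] K := ρ.comp (e.symm : ↥μ.range →ₐ[K] _)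
  have hφ₀ : ∀ t, ∀ h : μ t ∈ μ.range, φ₀ ⟨μ t, h⟩ = ρ t := by
    intro t h
    have h1 : (⟨μ t, h⟩ : ↥μ.range) = e t := rfl
    show ρ (e.symm ⟨μ t, h⟩) = ρ t
    rw [h1, AlgEquiv.symm_apply_apply]
  obtain ⟨W, hRW, res, hres, hker⟩ := hPK μ.range.toSubring (φ₀ : ↥μ.range →+* K)
  have hK : ∀ c : K, algebraMap K L c ∈ W := fun c => hRW _ (μ.range.algebraMap_mem c)
  have hresK : ∀ c : K, res ⟨algebraMap K L c, hK c⟩ = c := by
    intro c
    have h1 := hres ⟨algebraMap K L c, μ.range.algebraMap_mem c⟩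
    rw [h1]
    have h2 : (⟨algebraMap K L c, μ.range.algebraMap_mem c⟩ : ↥μ.range)
        = algebraMap K ↥μ.range c := rfl
    show φ₀ _ = c
    rw [h2, AlgHom.commutes]
    rfl
  have hWK : S17cpIsKPlace K W := s17cp_isKPlace_of_res W hK res hresK hker
  -- the values on the two factors
  have hμ₁ : ∀ x : ↥(s17cpSub hW₁), μ (x ⊗ₜ[K] 1) = i₁ (x : Ω₁) := by
    intro x
    show Algebra.TensorProduct.productMap _ _ (x ⊗ₜ[K] (1 : ↥(s17cpSub hW₂))) = _
    rw [Algebra.TensorProduct.productMap_left_apply]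
    rfl
  have hμ₂ : ∀ y : ↥(s17cpSub hW₂), μ (1 ⊗ₜ[K] y) = i₂ (y : Ω₂) := by
    intro y
    show Algebra.TensorProduct.productMap _ _ ((1 : ↥(s17cpSub hW₁)) ⊗ₜ[K] y) = _
    rw [Algebra.TensorProduct.productMap_right_apply]
    rfl
  have hρ₁ : ∀ x : ↥(s17cpSub hW₁), ρ (x ⊗ₜ[K] 1) = s17cpResAlg hW₁ x := fun x =>
    Algebra.TensorProduct.productMap_left_apply _ _ x
  have hρ₂ : ∀ y : ↥(s17cpSub hW₂), ρ (1 ⊗ₜ[K] y) = s17cpResAlg hW₂ y := fun y =>
    Algebra.TensorProduct.productMap_right_apply _ _ y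
  have hmem₁ : ∀ x ∈ W₁, i₁ x ∈ W := by
    intro x hx
    refine hRW _ ?_
    exact ⟨(⟨x, hx⟩ : ↥(s17cpSub hW₁)) ⊗ₜ[K] 1, hμ₁ ⟨x, hx⟩⟩
  have hmem₂ : ∀ y ∈ W₂, i₂ y ∈ W := by
    intro y hy
    refine hRW _ ?_
    exact ⟨1 ⊗ₜ[K] (⟨y, hy⟩ : ↥(s17cpSub hW₂)), hμ₂ ⟨y, hy⟩⟩
  have hnon₁ : ∀ x ∈ W₁.nonunits, i₁ x ∈ W.nonunits := by
    intro x hx
    have hxW : x ∈ W₁ := ValuationSubring.nonunits_subset hx
    have h0 : s17cpRes hW₁ ⟨x, hxW⟩ = 0 := (s17cpRes_eq_zero_iff hW₁ ⟨x, hxW⟩).2 hx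
    have hin : μ ((⟨x, hxW⟩ : ↥(s17cpSub hW₁)) ⊗ₜ[K] 1) ∈ μ.range := ⟨_, rfl⟩
    have h1 := hres ⟨μ ((⟨x, hxW⟩ : ↥(s17cpSub hW₁)) ⊗ₜ[K] 1), hin⟩
    have h2 : (φ₀ : ↥μ.range →+* K) ⟨μ ((⟨x, hxW⟩ : ↥(s17cpSub hW₁)) ⊗ₜ[K] 1), hin⟩ = 0 := by
      show φ₀ _ = 0
      rw [hφ₀, hρ₁, s17cpResAlg_apply]
      exact h0
    rw [h2] at h1
    have h3 := (hker _).1 h1
    have h4 : μ ((⟨x, hxW⟩ : ↥(s17cpSub hW₁)) ⊗ₜ[K] 1) = i₁ x := hμ₁ ⟨x, hxW⟩
    simpa [h4] using h3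
  have hnon₂ : ∀ y ∈ W₂.nonunits, i₂ y ∈ W.nonunits := by
    intro y hy
    have hyW : y ∈ W₂ := ValuationSubring.nonunits_subset hy
    have h0 : s17cpRes hW₂ ⟨y, hyW⟩ = 0 := (s17cpRes_eq_zero_iff hW₂ ⟨y, hyW⟩).2 hy
    have hin : μ (1 ⊗ₜ[K] (⟨y, hyW⟩ : ↥(s17cpSub hW₂))) ∈ μ.range := ⟨_, rfl⟩
    have h1 := hres ⟨μ (1 ⊗ₜ[K] (⟨y, hyW⟩ : ↥(s17cpSub hW₂))), hin⟩
    have h2 : (φ₀ : ↥μ.range →+* K) ⟨μ (1 ⊗ₜ[K] (⟨y, hyW⟩ : ↥(s17cpSub hW₂))), hin⟩ = 0 := by
      show φ₀ _ = 0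
      rw [hφ₀, hρ₂, s17cpResAlg_apply]
      exact h0
    rw [h2] at h1
    have h3 := (hker _).1 h1
    have h4 : μ (1 ⊗ₜ[K] (⟨y, hyW⟩ : ↥(s17cpSub hW₂))) = i₂ y := hμ₂ ⟨y, hyW⟩
    simpa [h4] using h3
  refine ⟨W, hWK, ?_, ?_⟩
  · refine s17cp_eq_of_dom W₁ (W.comap (i₁ : Ω₁ →+* L)) (fun x hx => ?_) (fun x hx => ?_)
    · rw [ValuationSubring.mem_comap]
      exact hmem₁ x hx
    · exact s17cp_mem_nonunits_comap (i₁ : Ω₁ →+* L) W x (hnon₁ x hx)
  · refine s17cp_eq_of_dom W₂ (W.comap (i₂ : Ω₂ →+* L)) (fun y hy => ?_) (fun y hy => ?_)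
    · rw [ValuationSubring.mem_comap]
      exact hmem₂ y hy
    · exact s17cp_mem_nonunits_comap (i₂ : Ω₂ →+* L) W y (hnon₂ y hy)

end Main

end Fermat.Agent.S17

end
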