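/-
S17 sprint, layer H, leaf Q1a STAGE2 (helper36): the TWO-GENERIC STAGE.

`K` algebraically closed, `F / K` a field (the function field of the curve `C`), `Ω_n = s27gfOm K F n`
(`= K(Cⁿ)`, S27/GenField.lean).  For `g h : ℕ`:

* `s17st2_rho1 g h : Ω_g →ₐ[K] Ω_{g+h}`, `ρ₁ (ι_i f) = ι_{Fin.castAdd h i} f`   (the first `g` coordinates);
* `s17st2_rho2 g h : Ω_h →ₐ[K] Ω_{g+h}`, `ρ₂ (ι_j f) = ι_{Fin.natAdd g j} f`    (the last `h` coordinates);
* `s17st2_join_injective` : `R_g ⊗_K R_h → R_{g+h}` is injective (it is an isomorphism, `s17st2_split`);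
* `s17st2_productMap_injective` : `Ω_g ⊗_K Ω_h → Ω_{g+h}`, `a ⊗ b ↦ ρ₁ a * ρ₂ b`, is INJECTIVE
  (`ρ₁(Ω_g)` and `ρ₂(Ω_h)` are linearly disjoint over `K`) — the hypothesis of the composite-place leaf
  H-COMP (S17/CompPlace.lean);
* `s17st2_exists_div` : every element of `Ω_{g+h}` is a quotient of two elements of the image of
  `Ω_g ⊗_K Ω_h` (so `Ω_{g+h}` is the fraction field of the compositum).

Only Mathlib + S27/GenField.lean.
-/
import Fermat.Agent.S27.GenField

set_option autoImplicit false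
set_option linter.unusedVariables false
set_option linter.unusedSectionVars false
set_option linter.style.haveILetI false

noncomputable section

namespace Fermat.Agent.S17

open TensorProduct Fermat.Agent.S27

universe u v

section Ring

variable {K : Type u} {F : Type v} [Field K] [Field F] [Algebra K F]

/-- `R_g → R_{g+h}`: the first `g` coordinates -/
def s17st2_r1 (K : Type u) (F : Type v) [Field K] [Field F] [Algebra K F] (g h : ℕ) :
    s27gfR K F g →ₐ[K] s27gfR K F (g + h) :=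
  s27gfLiftR fun i => s27gfSingle (Fin.castAdd h i)

/-- `R_h → R_{g+h}`: the last `h` coordinates -/
def s17st2_r2 (K : Type u) (F : Type v) [Field K] [Field F] [Algebra K F] (g h : ℕ) :
    s27gfR K F h →ₐ[K] s27gfR K F (g + h) :=
  s27gfLiftR fun j => s27gfSingle (Fin.natAdd g j)

@[simp] theorem s17st2_r1_single (g h : ℕ) (i : Fin g) (f : F) :
    s17st2_r1 K F g h (s27gfSingle i f) = s27gfSingle (Fin.castAdd h i) f := by
  simp [s17st2_r1]

@[simp] theorem s17st2_r2_single (g h : ℕ) (j : Fin h) (f : F) :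
    s17st2_r2 K F g h (s27gfSingle j f) = s27gfSingle (Fin.natAdd g j) f := by
  simp [s17st2_r2]

/-- `R_g ⊗ R_h → R_{g+h}` -/
def s17st2_join (K : Type u) (F : Type v) [Field K] [Field F] [Algebra K F] (g h : ℕ) :
    s27gfR K F g ⊗[K] s27gfR K F h →ₐ[K] s27gfR K F (g + h) :=
  Algebra.TensorProduct.productMap (s17st2_r1 K F g h) (s17st2_r2 K F g h)

/-- `R_{g+h} → R_g ⊗ R_h` -/
def s17st2_split (K : Type u) (F : Type v) [Field K] [Field F] [Algebra K F] (g h : ℕ) :
    s27gfR K F (g + h) →ₐ[K] s27gfR K F g ⊗[K] s27gfR K F h :=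
  s27gfLiftR (Fin.addCases
    (fun i => (Algebra.TensorProduct.includeLeft :
      s27gfR K F g →ₐ[K] s27gfR K F g ⊗[K] s27gfR K F h).comp (s27gfSingle i))
    (fun j => (Algebra.TensorProduct.includeRight :
      s27gfR K F h →ₐ[K] s27gfR K F g ⊗[K] s27gfR K F h).comp (s27gfSingle j)))

theorem s17st2_split_single_left (g h : ℕ) (i : Fin g) (f : F) :
    s17st2_split K F g h (s27gfSingle (Fin.castAdd h i) f) =
      (s27gfSingle i f) ⊗ₜ[K] (1 : s27gfR K F h) := by
  unfold s17st2_split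
  rw [s27gfLiftR_single, Fin.addCases_left]
  rfl

theorem s17st2_split_single_right (g h : ℕ) (j : Fin h) (f : F) :
    s17st2_split K F g h (s27gfSingle (Fin.natAdd g j) f) =
      (1 : s27gfR K F g) ⊗ₜ[K] (s27gfSingle j f) := by
  unfold s17st2_split
  rw [s27gfLiftR_single, Fin.addCases_right]
  rfl

theorem s17st2_split_comp_r1 (g h : ℕ) :
    (s17st2_split K F g h).comp (s17st2_r1 K F g h) = Algebra.TensorProduct.includeLeft := by
  apply s27gfR_hom_ext
  intro i f
  show s17st2_split K F g h (s17st2_r1 K F g h (s27gfSingle i f)) = _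
  rw [s17st2_r1_single, s17st2_split_single_left]
  rfl

theorem s17st2_split_comp_r2 (g h : ℕ) :
    (s17st2_split K F g h).comp (s17st2_r2 K F g h) = Algebra.TensorProduct.includeRight := by
  apply s27gfR_hom_ext
  intro j f
  show s17st2_split K F g h (s17st2_r2 K F g h (s27gfSingle j f)) = _
  rw [s17st2_r2_single, s17st2_split_single_right]
  rfl

theorem s17st2_split_join_tmul (g h : ℕ) (a : s27gfR K F g) (b : s27gfR K F h) :
    s17st2_split K F g h (s17st2_join K F g h (a ⊗ₜ[K] b)) = a ⊗ₜ[K] b := by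
  unfold s17st2_join
  rw [Algebra.TensorProduct.productMap_apply_tmul, map_mul]
  have h1 : s17st2_split K F g h (s17st2_r1 K F g h a) = a ⊗ₜ[K] (1 : s27gfR K F h) :=
    congrArg (fun c => c a) (s17st2_split_comp_r1 (K := K) (F := F) g h)
  have h2 : s17st2_split K F g h (s17st2_r2 K F g h b) = (1 : s27gfR K F g) ⊗ₜ[K] b :=
    congrArg (fun c => c b) (s17st2_split_comp_r2 (K := K) (F := F) g h)
  rw [h1, h2, Algebra.TensorProduct.tmul_mul_tmul, mul_one, one_mul]

theorem s17st2_split_join (g h : ℕ) (z : s27gfR K F g ⊗[K] s27gfR K F h) :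
    s17st2_split K F g h (s17st2_join K F g h z) = z := by
  induction z using TensorProduct.induction_on with
  | zero => simp
  | tmul a b => exact s17st2_split_join_tmul g h a b
  | add x y hx hy => rw [map_add, map_add, hx, hy]

theorem s17st2_join_split (g h : ℕ) (z : s27gfR K F (g + h)) :
    s17st2_join K F g h (s17st2_split K F g h z) = z := by
  have hc : (s17st2_join K F g h).comp (s17st2_split K F g h) = AlgHom.id K _ := by
    apply s27gfR_hom_ext
    intro i f
    show s17st2_join K F g h (s17st2_split K F g h (s27gfSingle i f)) = s27gfSingle i f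
    induction i using Fin.addCases with
    | left i =>
      rw [s17st2_split_single_left]
      unfold s17st2_join
      rw [Algebra.TensorProduct.productMap_apply_tmul, map_one, mul_one, s17st2_r1_single]
    | right j =>
      rw [s17st2_split_single_right]
      unfold s17st2_join
      rw [Algebra.TensorProduct.productMap_apply_tmul, map_one, one_mul, s17st2_r2_single]
  exact congrArg (fun c => c z) hc

/-- **`R_g ⊗_K R_h → R_{g+h}` is injective** (indeed bijective). -/
theorem s17st2_join_injective (g h : ℕ) : Function.Injective (s17st2_join K F g h) := by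
  intro x y hxy
  have := congrArg (s17st2_split K F g h) hxy
  rwa [s17st2_split_join, s17st2_split_join] at this

theorem s17st2_join_surjective (g h : ℕ) : Function.Surjective (s17st2_join K F g h) :=
  fun z => ⟨s17st2_split K F g h z, s17st2_join_split g h z⟩

/-- `R_g ⊗_K R_h ≃ R_{g+h}` -/
def s17st2_joinEquiv (K : Type u) (F : Type v) [Field K] [Field F] [Algebra K F] (g h : ℕ) :
    (s27gfR K F g ⊗[K] s27gfR K F h) ≃ₐ[K] s27gfR K F (g + h) :=
  AlgEquiv.ofBijective (s17st2_join K F g h) ⟨s17st2_join_injective g h, s17st2_join_surjective g h⟩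

theorem s17st2_r1_injective [IsAlgClosed K] (g h : ℕ) :
    Function.Injective (s17st2_r1 K F g h) := by
  haveI := s27gf_isDomain K F h
  intro x y hxy
  have h1 : s17st2_split K F g h (s17st2_r1 K F g h x) = x ⊗ₜ[K] (1 : s27gfR K F h) :=
    congrArg (fun c => c x) (s17st2_split_comp_r1 (K := K) (F := F) g h)
  have h2 : s17st2_split K F g h (s17st2_r1 K F g h y) = y ⊗ₜ[K] (1 : s27gfR K F h) :=
    congrArg (fun c => c y) (s17st2_split_comp_r1 (K := K) (F := F) g h)
  have h3 : x ⊗ₜ[K] (1 : s27gfR K F h) = y ⊗ₜ[K] (1 : s27gfR K F h) := by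
    rw [← h1, ← h2, hxy]
  exact Algebra.TensorProduct.includeLeft_injective (R := K) (S := K) (A := s27gfR K F g)
    (B := s27gfR K F h) (algebraMap K (s27gfR K F h)).injective h3

theorem s17st2_r2_injective [IsAlgClosed K] (g h : ℕ) :
    Function.Injective (s17st2_r2 K F g h) := by
  haveI := s27gf_isDomain K F g
  intro x y hxy
  have h1 : s17st2_split K F g h (s17st2_r2 K F g h x) = (1 : s27gfR K F g) ⊗ₜ[K] x :=
    congrArg (fun c => c x) (s17st2_split_comp_r2 (K := K) (F := F) g h)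
  have h2 : s17st2_split K F g h (s17st2_r2 K F g h y) = (1 : s27gfR K F g) ⊗ₜ[K] y :=
    congrArg (fun c => c y) (s17st2_split_comp_r2 (K := K) (F := F) g h)
  have h3 : (1 : s27gfR K F g) ⊗ₜ[K] x = (1 : s27gfR K F g) ⊗ₜ[K] y := by
    rw [← h1, ← h2, hxy]
  exact Algebra.TensorProduct.includeRight_injective (R := K) (A := s27gfR K F g)
    (B := s27gfR K F h) (algebraMap K (s27gfR K F g)).injective h3

end Ring

/-! ### The fields -/

section Field

variable {K : Type u} {F : Type v} [Field K] [IsAlgClosed K] [Field F] [Algebra K F]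

theorem s17st2_liftR_iota1 (g h : ℕ) :
    s27gfLiftR (fun i : Fin g => s27gfIota (K := K) (F := F) (g := g + h) (Fin.castAdd h i)) =
      (IsScalarTower.toAlgHom K (s27gfR K F (g + h)) (s27gfOm K F (g + h))).comp
        (s17st2_r1 K F g h) := by
  apply s27gfR_hom_ext
  intro i f
  rw [s27gfLiftR_single]
  show _ = algebraMap (s27gfR K F (g + h)) (s27gfOm K F (g + h))
    (s17st2_r1 K F g h (s27gfSingle i f))
  rw [s17st2_r1_single]
  rfl

theorem s17st2_liftR_iota2 (g h : ℕ) :
    s27gfLiftR (fun j : Fin h => s27gfIota (K := K) (F := F) (g := g + h) (Fin.natAdd g j)) =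
      (IsScalarTower.toAlgHom K (s27gfR K F (g + h)) (s27gfOm K F (g + h))).comp
        (s17st2_r2 K F g h) := by
  apply s27gfR_hom_ext
  intro j f
  rw [s27gfLiftR_single]
  show _ = algebraMap (s27gfR K F (g + h)) (s27gfOm K F (g + h))
    (s17st2_r2 K F g h (s27gfSingle j f))
  rw [s17st2_r2_single]
  rfl

theorem s17st2_liftR_iota1_injective (g h : ℕ) : Function.Injective
    (s27gfLiftR (fun i : Fin g => s27gfIota (K := K) (F := F) (g := g + h) (Fin.castAdd h i))) := by
  rw [s17st2_liftR_iota1]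
  exact (s27gfOm_algebraMap_injective (K := K) (F := F) (g := g + h)).comp
    (s17st2_r1_injective g h)

theorem s17st2_liftR_iota2_injective (g h : ℕ) : Function.Injective
    (s27gfLiftR (fun j : Fin h => s27gfIota (K := K) (F := F) (g := g + h) (Fin.natAdd g j))) := by
  rw [s17st2_liftR_iota2]
  exact (s27gfOm_algebraMap_injective (K := K) (F := F) (g := g + h)).comp
    (s17st2_r2_injective g h)

/-- **`ρ₁ : Ω_g → Ω_{g+h}`**, the first `g` coordinates -/
def s17st2_rho1 (K : Type u) (F : Type v) [Field K] [IsAlgClosed K] [Field F] [Algebra K F]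
    (g h : ℕ) : s27gfOm K F g →ₐ[K] s27gfOm K F (g + h) :=
  s27gfLift (fun i => s27gfIota (Fin.castAdd h i)) (s17st2_liftR_iota1_injective g h)

/-- **`ρ₂ : Ω_h → Ω_{g+h}`**, the last `h` coordinates -/
def s17st2_rho2 (K : Type u) (F : Type v) [Field K] [IsAlgClosed K] [Field F] [Algebra K F]
    (g h : ℕ) : s27gfOm K F h →ₐ[K] s27gfOm K F (g + h) :=
  s27gfLift (fun j => s27gfIota (Fin.natAdd g j)) (s17st2_liftR_iota2_injective g h)

theorem s17st2_rho1_algebraMap (g h : ℕ) (r : s27gfR K F g) :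
    s17st2_rho1 K F g h (algebraMap (s27gfR K F g) (s27gfOm K F g) r) =
      algebraMap (s27gfR K F (g + h)) (s27gfOm K F (g + h)) (s17st2_r1 K F g h r) := by
  unfold s17st2_rho1
  rw [s27gfLift_algebraMap, s17st2_liftR_iota1]
  rfl

theorem s17st2_rho2_algebraMap (g h : ℕ) (r : s27gfR K F h) :
    s17st2_rho2 K F g h (algebraMap (s27gfR K F h) (s27gfOm K F h) r) =
      algebraMap (s27gfR K F (g + h)) (s27gfOm K F (g + h)) (s17st2_r2 K F g h r) := by
  unfold s17st2_rho2
  rw [s27gfLift_algebraMap, s17st2_liftR_iota2]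
  rfl

@[simp] theorem s17st2_rho1_iota (g h : ℕ) (i : Fin g) (f : F) :
    s17st2_rho1 K F g h (s27gfIota i f) = s27gfIota (Fin.castAdd h i) f := by
  rw [s27gfIota_apply, s17st2_rho1_algebraMap, s17st2_r1_single]
  rfl

@[simp] theorem s17st2_rho2_iota (g h : ℕ) (j : Fin h) (f : F) :
    s17st2_rho2 K F g h (s27gfIota j f) = s27gfIota (Fin.natAdd g j) f := by
  rw [s27gfIota_apply, s17st2_rho2_algebraMap, s17st2_r2_single]
  rfl

theorem s17st2_rho1_injective (g h : ℕ) : Function.Injective (s17st2_rho1 K F g h) :=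
  RingHom.injective ((s17st2_rho1 K F g h : s27gfOm K F g →ₐ[K] s27gfOm K F (g + h)) :
    s27gfOm K F g →+* s27gfOm K F (g + h))

theorem s17st2_rho2_injective (g h : ℕ) : Function.Injective (s17st2_rho2 K F g h) :=
  RingHom.injective ((s17st2_rho2 K F g h : s27gfOm K F h →ₐ[K] s27gfOm K F (g + h)) :
    s27gfOm K F h →+* s27gfOm K F (g + h))

/-- the product map `Ω_g ⊗_K Ω_h → Ω_{g+h}`, `a ⊗ b ↦ ρ₁ a * ρ₂ b` -/
def s17st2_mu (K : Type u) (F : Type v) [Field K] [IsAlgClosed K] [Field F] [Algebra K F]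
    (g h : ℕ) : s27gfOm K F g ⊗[K] s27gfOm K F h →ₐ[K] s27gfOm K F (g + h) :=
  Algebra.TensorProduct.productMap (s17st2_rho1 K F g h) (s17st2_rho2 K F g h)

theorem s17st2_mu_tmul (g h : ℕ) (a : s27gfOm K F g) (b : s27gfOm K F h) :
    s17st2_mu K F g h (a ⊗ₜ[K] b) = s17st2_rho1 K F g h a * s17st2_rho2 K F g h b := by
  unfold s17st2_mu
  rw [Algebra.TensorProduct.productMap_apply_tmul]

/-- `R_g ⊗ R_h → Ω_g ⊗ Ω_h` -/
def s17st2_phi (K : Type u) (F : Type v) [Field K] [IsAlgClosed K] [Field F] [Algebra K F]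
    (g h : ℕ) : s27gfR K F g ⊗[K] s27gfR K F h →ₐ[K] s27gfOm K F g ⊗[K] s27gfOm K F h :=
  Algebra.TensorProduct.map (IsScalarTower.toAlgHom K (s27gfR K F g) (s27gfOm K F g))
    (IsScalarTower.toAlgHom K (s27gfR K F h) (s27gfOm K F h))

theorem s17st2_phi_tmul (g h : ℕ) (a : s27gfR K F g) (b : s27gfR K F h) :
    s17st2_phi K F g h (a ⊗ₜ[K] b) =
      (algebraMap (s27gfR K F g) (s27gfOm K F g) a) ⊗ₜ[K]
        (algebraMap (s27gfR K F h) (s27gfOm K F h) b) := by
  unfold s17st2_phi
  rw [Algebra.TensorProduct.map_tmul]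
  rfl

/-- the square `R_g ⊗ R_h → R_{g+h} → Ω_{g+h}` = `R_g ⊗ R_h → Ω_g ⊗ Ω_h → Ω_{g+h}` -/
theorem s17st2_mu_phi (g h : ℕ) (z : s27gfR K F g ⊗[K] s27gfR K F h) :
    s17st2_mu K F g h (s17st2_phi K F g h z) =
      algebraMap (s27gfR K F (g + h)) (s27gfOm K F (g + h)) (s17st2_join K F g h z) := by
  induction z using TensorProduct.induction_on with
  | zero => simp
  | tmul a b =>
    rw [s17st2_phi_tmul, s17st2_mu_tmul, s17st2_rho1_algebraMap, s17st2_rho2_algebraMap,
      ← map_mul]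
    unfold s17st2_join
    rw [Algebra.TensorProduct.productMap_apply_tmul]
  | add x y hx hy => rw [map_add, map_add, hx, hy, map_add, map_add]

/-- clearing denominators in `Ω_g ⊗ Ω_h` -/
theorem s17st2_clear (g h : ℕ) (z : s27gfOm K F g ⊗[K] s27gfOm K F h) :
    ∃ (s : s27gfR K F g) (t : s27gfR K F h) (z' : s27gfR K F g ⊗[K] s27gfR K F h),
      s ≠ 0 ∧ t ≠ 0 ∧
      ((algebraMap (s27gfR K F g) (s27gfOm K F g) s) ⊗ₜ[K]
        (algebraMap (s27gfR K F h) (s27gfOm K F h) t)) * z = s17st2_phi K F g h z' := by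
  haveI := s27gf_isDomain K F g
  haveI := s27gf_isDomain K F h
  induction z using TensorProduct.induction_on with
  | zero => exact ⟨1, 1, 0, one_ne_zero, one_ne_zero, by simp⟩
  | tmul a b =>
    obtain ⟨r, s, hs, rfl⟩ := IsFractionRing.div_surjective (A := s27gfR K F g) a
    obtain ⟨p, t, ht, rfl⟩ := IsFractionRing.div_surjective (A := s27gfR K F h) b
    have hs0 : s ≠ 0 := nonZeroDivisors.ne_zero hs
    have ht0 : t ≠ 0 := nonZeroDivisors.ne_zero ht
    have hs1 : algebraMap (s27gfR K F g) (s27gfOm K F g) s ≠ 0 := fun h0 =>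
      hs0 (s27gfOm_algebraMap_injective (by rw [h0, map_zero]))
    have ht1 : algebraMap (s27gfR K F h) (s27gfOm K F h) t ≠ 0 := fun h0 =>
      ht0 (s27gfOm_algebraMap_injective (by rw [h0, map_zero]))
    refine ⟨s, t, r ⊗ₜ[K] p, hs0, ht0, ?_⟩
    rw [Algebra.TensorProduct.tmul_mul_tmul, s17st2_phi_tmul, mul_div_cancel₀ _ hs1,
      mul_div_cancel₀ _ ht1]
  | add x y hx hy =>
    obtain ⟨s₁, t₁, x', hs₁, ht₁, ex⟩ := hx
    obtain ⟨s₂, t₂, y', hs₂, ht₂, ey⟩ := hy
    refine ⟨s₁ * s₂, t₁ * t₂, (s₂ ⊗ₜ[K] t₂) * x' + (s₁ ⊗ₜ[K] t₁) * y',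
      mul_ne_zero hs₁ hs₂, mul_ne_zero ht₁ ht₂, ?_⟩
    have e1 : s17st2_phi K F g h ((s₂ ⊗ₜ[K] t₂) * x' + (s₁ ⊗ₜ[K] t₁) * y') =
        ((algebraMap (s27gfR K F g) (s27gfOm K F g) s₂) ⊗ₜ[K]
          (algebraMap (s27gfR K F h) (s27gfOm K F h) t₂)) *
          (((algebraMap (s27gfR K F g) (s27gfOm K F g) s₁) ⊗ₜ[K]
            (algebraMap (s27gfR K F h) (s27gfOm K F h) t₁)) * x) +
        ((algebraMap (s27gfR K F g) (s27gfOm K F g) s₁) ⊗ₜ[K]
          (algebraMap (s27gfR K F h) (s27gfOm K F h) t₁)) *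
          (((algebraMap (s27gfR K F g) (s27gfOm K F g) s₂) ⊗ₜ[K]
            (algebraMap (s27gfR K F h) (s27gfOm K F h) t₂)) * y) := by
      rw [map_add, map_mul, map_mul, s17st2_phi_tmul, s17st2_phi_tmul, ex, ey]
    rw [e1, map_mul, map_mul, ← Algebra.TensorProduct.tmul_mul_tmul]
    ring

/-- **LINEAR DISJOINTNESS on the two-generic stage**: `Ω_g ⊗_K Ω_h → Ω_{g+h}`,
`a ⊗ b ↦ ρ₁ a * ρ₂ b`, is injective. -/
theorem s17st2_mu_injective (g h : ℕ) : Function.Injective (s17st2_mu K F g h) := by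
  haveI := s27gf_isDomain K F g
  haveI := s27gf_isDomain K F h
  rw [injective_iff_map_eq_zero]
  intro z hz
  obtain ⟨s, t, z', hs, ht, e⟩ := s17st2_clear g h z
  have hs1 : algebraMap (s27gfR K F g) (s27gfOm K F g) s ≠ 0 := fun h0 =>
    hs (s27gfOm_algebraMap_injective (by rw [h0, map_zero]))
  have ht1 : algebraMap (s27gfR K F h) (s27gfOm K F h) t ≠ 0 := fun h0 =>
    ht (s27gfOm_algebraMap_injective (by rw [h0, map_zero]))
  have h1 : s17st2_mu K F g h (s17st2_phi K F g h z') = 0 := by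
    rw [← e, map_mul, hz, mul_zero]
  rw [s17st2_mu_phi] at h1
  have h2 : s17st2_join K F g h z' = 0 :=
    s27gfOm_algebraMap_injective (by rw [h1, map_zero])
  have h3 : z' = 0 := s17st2_join_injective g h (by rw [h2, map_zero])
  rw [h3, map_zero] at e
  have h4 : (((algebraMap (s27gfR K F g) (s27gfOm K F g) s)⁻¹) ⊗ₜ[K]
      ((algebraMap (s27gfR K F h) (s27gfOm K F h) t)⁻¹)) *
      (((algebraMap (s27gfR K F g) (s27gfOm K F g) s) ⊗ₜ[K]
        (algebraMap (s27gfR K F h) (s27gfOm K F h) t)) * z) = z := by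
    rw [← mul_assoc, Algebra.TensorProduct.tmul_mul_tmul, inv_mul_cancel₀ hs1,
      inv_mul_cancel₀ ht1]
    exact one_mul z
  rw [← h4, e, mul_zero]

/-- the same, in the literal shape of the hypothesis of H-COMP -/
theorem s17st2_productMap_injective (g h : ℕ) : Function.Injective
    (Algebra.TensorProduct.productMap (s17st2_rho1 K F g h) (s17st2_rho2 K F g h)) :=
  s17st2_mu_injective g h

/-- **`Ω_{g+h}` is the fraction field of the compositum `ρ₁(Ω_g)·ρ₂(Ω_h)`**. -/
theorem s17st2_exists_div (g h : ℕ) (x : s27gfOm K F (g + h)) :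
    ∃ a b : s27gfOm K F g ⊗[K] s27gfOm K F h, s17st2_mu K F g h b ≠ 0 ∧
      x = s17st2_mu K F g h a / s17st2_mu K F g h b := by
  haveI := s27gf_isDomain K F (g + h)
  obtain ⟨r, s, hs, rfl⟩ := IsFractionRing.div_surjective (A := s27gfR K F (g + h)) x
  have hs0 : s ≠ 0 := nonZeroDivisors.ne_zero hs
  have hs1 : algebraMap (s27gfR K F (g + h)) (s27gfOm K F (g + h)) s ≠ 0 := fun h0 =>
    hs0 (s27gfOm_algebraMap_injective (by rw [h0, map_zero]))
  refine ⟨s17st2_phi K F g h (s17st2_split K F g h r),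
    s17st2_phi K F g h (s17st2_split K F g h s), ?_, ?_⟩
  · rw [s17st2_mu_phi, s17st2_join_split]
    exact hs1
  · rw [s17st2_mu_phi, s17st2_mu_phi, s17st2_join_split, s17st2_join_split]

end Field

end Fermat.Agent.S17
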