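/-
S17 sprint, leaf **H-COMP, unconditional and in the frame of `S17plPlace`** (helper89).

On `S17/CompPlace.lean` (helper89: H-COMP from the place extension property), `S17/PlaceK.lean`
(helper84: PLACE-K = Atiyah–Macdonald 5.21, `s17pk_exists'`), `S17/Place.lean` (helper21:
`S17plPlace K L`), `S17/Stage2.lean` (helper36: `Ω_g ⊗[K] Ω_h → Ω_{g+h}` is injective).

* `s17cpp_placeExt`     : `S17cpPlaceExt K L` for `K` algebraically closed;
* `s17cpp_isKPlace P`   : the valuation ring of a `K`-rational place is a `K`-place;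
* `s17cppOfKPlace hW`   : a `K`-place as a `K`-rational place (`S17plPlace K L`);
* `s17cpp_res_unique`   : the residue map of a `K`-rational place is determined by its ring;
* `s17cpp_nonunits_comap_iff` : `x ∈ 𝔪_{W ∩ Ω} ↔ f x ∈ 𝔪_W`;
* `s17cpp_kplace`       : **H-COMP, unconditional** (`S17cpIsKPlace` form);
* `s17cpp_main`         : **H-COMP, unconditional**, for `K`-rational places `P₁`, `P₂`:
                          `∃ P : S17plPlace K L, P.W ∩ Ω_j = P_j.W` and `P.res ∘ i_j = P_j.res`;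
* `s17cpp_stage2`       : the instance `Ω_g`, `Ω_h → Ω_{g+h}` (`ρ₁`, `ρ₂` of `S17/Stage2.lean`).
-/
import Fermat.Agent.S17.CompPlace
import Fermat.Agent.S17.PlaceK
import Fermat.Agent.S17.Place
import Fermat.Agent.S17.Stage2

set_option autoImplicit false
set_option linter.unusedSectionVars false
set_option linter.unusedVariables false

noncomputable section

namespace Fermat.Agent.S17

open TensorProduct Fermat.Agent.S27

section Gen

variable {K L : Type*} [Field K] [Field L] [Algebra K L]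

/-- **PLACE-K** in the shape of `S17/CompPlace.lean`. -/
theorem s17cpp_placeExt [IsAlgClosed K] : S17cpPlaceExt K L :=
  fun R φ => s17pk_exists' R φ

/-- the valuation ring of a `K`-rational place is a `K`-place. -/
theorem s17cpp_isKPlace (P : S17plPlace K L) : S17cpIsKPlace K P.W := by
  refine ⟨P.hKW, fun x hx => ⟨P.res ⟨x, hx⟩, ?_⟩⟩
  have hmem : x - algebraMap K L (P.res ⟨x, hx⟩) ∈ P.W := sub_mem hx (P.hKW _)
  have h1 : P.res ⟨x - algebraMap K L (P.res ⟨x, hx⟩), hmem⟩ = 0 := by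
    have e : (⟨x - algebraMap K L (P.res ⟨x, hx⟩), hmem⟩ : ↥P.W)
        = ⟨x, hx⟩ - ⟨algebraMap K L (P.res ⟨x, hx⟩), P.hKW _⟩ := rfl
    rw [e, map_sub, P.hres, sub_self]
  rw [s17cp_mem_nonunits_iff]
  by_cases h0 : x - algebraMap K L (P.res ⟨x, hx⟩) = 0
  · exact Or.inl h0
  · refine Or.inr fun hinv => ?_
    exact s17pl_res_ne_zero P h0 hmem hinv h1

/-- a `K`-place as a `K`-rational place. -/
def s17cppOfKPlace {W : ValuationSubring L} (hW : S17cpIsKPlace K W) : S17plPlace K L where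
  W := W
  hKW := hW.1
  res := s17cpRes hW
  hres := s17cpRes_algebraMap hW

@[simp] theorem s17cppOfKPlace_W {W : ValuationSubring L} (hW : S17cpIsKPlace K W) :
    (s17cppOfKPlace hW).W = W := rfl

/-- the residue map of a `K`-rational place kills exactly the non-units. -/
theorem s17cpp_res_eq_zero_iff (P : S17plPlace K L) (w : ↥P.W) :
    P.res w = 0 ↔ (w : L) ∈ P.W.nonunits := by
  constructor
  · intro h
    rw [s17cp_mem_nonunits_iff]
    by_cases h0 : (w : L) = 0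
    · exact Or.inl h0
    · exact Or.inr fun hinv => s17pl_res_ne_zero P h0 w.2 hinv h
  · intro h
    obtain ⟨c, hc⟩ := (s17cpp_isKPlace P).2 (w : L) w.2
    -- `w − res w` and `w` are non-units, so the constant `res w` is a non-unit, hence `0`
    by_contra hne
    have hmem : (w : L) - algebraMap K L (P.res w) ∈ P.W := sub_mem w.2 (P.hKW _)
    have h1 : P.res ⟨(w : L) - algebraMap K L (P.res w), hmem⟩ = 0 := by
      have e : (⟨(w : L) - algebraMap K L (P.res w), hmem⟩ : ↥P.W)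
          = w - ⟨algebraMap K L (P.res w), P.hKW _⟩ := rfl
      rw [e, map_sub, P.hres, sub_self]
    -- the constant `res w ≠ 0` is a unit of `W`
    have hcu : algebraMap K L (P.res w) ∉ P.W.nonunits := by
      rw [s17cp_mem_nonunits_iff]
      push Not
      refine ⟨fun h0 => hne ((map_eq_zero _).1 h0), ?_⟩
      rw [← map_inv₀]
      exact P.hKW _
    -- but `res w = w − (w − res w)` with both terms non-units
    have hd : (w : L) - algebraMap K L (P.res w) ∈ P.W.nonunits := by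
      rw [s17cp_mem_nonunits_iff]
      by_cases h0 : (w : L) - algebraMap K L (P.res w) = 0
      · exact Or.inl h0
      · exact Or.inr fun hinv => s17pl_res_ne_zero P h0 hmem hinv h1
    apply hcu
    have e2 : algebraMap K L (P.res w) = (w : L) - ((w : L) - algebraMap K L (P.res w)) := by
      ring
    rw [e2, ValuationSubring.mem_nonunits_iff]
    rw [ValuationSubring.mem_nonunits_iff] at h hd
    calc P.W.valuation ((w : L) - ((w : L) - algebraMap K L (P.res w)))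
        ≤ max (P.W.valuation (w : L)) (P.W.valuation ((w : L) - algebraMap K L (P.res w))) :=
          Valuation.map_sub _ _ _
      _ < 1 := max_lt h hd

/-- the residue map of a `K`-rational place is determined by its valuation ring. -/
theorem s17cpp_res_unique (P P' : S17plPlace K L) (hW : P.W = P'.W) (x : L) (hx : x ∈ P.W)
    (hx' : x ∈ P'.W) : P.res ⟨x, hx⟩ = P'.res ⟨x, hx'⟩ := by
  have hmem : x - algebraMap K L (P'.res ⟨x, hx'⟩) ∈ P.W := sub_mem hx (P.hKW _)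
  have hmem' : x - algebraMap K L (P'.res ⟨x, hx'⟩) ∈ P'.W := sub_mem hx' (P'.hKW _)
  have h1 : P'.res ⟨x - algebraMap K L (P'.res ⟨x, hx'⟩), hmem'⟩ = 0 := by
    have e : (⟨x - algebraMap K L (P'.res ⟨x, hx'⟩), hmem'⟩ : ↥P'.W)
        = ⟨x, hx'⟩ - ⟨algebraMap K L (P'.res ⟨x, hx'⟩), P'.hKW _⟩ := rfl
    rw [e, map_sub, P'.hres, sub_self]
  have h2 := (s17cpp_res_eq_zero_iff P' _).1 h1
  have h3 : x - algebraMap K L (P'.res ⟨x, hx'⟩) ∈ P.W.nonunits := by
    rw [hW]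
    exact h2
  have h4 := (s17cpp_res_eq_zero_iff P ⟨_, hmem⟩).2 h3
  have e : (⟨x - algebraMap K L (P'.res ⟨x, hx'⟩), hmem⟩ : ↥P.W)
      = ⟨x, hx⟩ - ⟨algebraMap K L (P'.res ⟨x, hx'⟩), P.hKW _⟩ := rfl
  rw [e, map_sub, P.hres, sub_eq_zero] at h4
  exact h4

/-- `x ∈ 𝔪_{W ∩ Ω} ↔ f x ∈ 𝔪_W`. -/
theorem s17cpp_nonunits_comap_iff {Ω : Type*} [Field Ω] (f : Ω →+* L) (W : ValuationSubring L)
    (x : Ω) : x ∈ (W.comap f).nonunits ↔ f x ∈ W.nonunits := by
  rw [s17cp_mem_nonunits_iff, s17cp_mem_nonunits_iff, ValuationSubring.mem_comap, map_inv₀,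
    map_eq_zero]

end Gen

section Main

variable {K Ω₁ Ω₂ L : Type*} [Field K] [IsAlgClosed K] [Field Ω₁] [Field Ω₂] [Field L]
  [Algebra K Ω₁] [Algebra K Ω₂] [Algebra K L]

/-- **H-COMP, unconditional** (`S17cpIsKPlace` form). -/
theorem s17cpp_kplace (i₁ : Ω₁ →ₐ[K] L) (i₂ : Ω₂ →ₐ[K] L)
    (hinj : Function.Injective (Algebra.TensorProduct.productMap i₁ i₂))
    {W₁ : ValuationSubring Ω₁} {W₂ : ValuationSubring Ω₂}
    (hW₁ : S17cpIsKPlace K W₁) (hW₂ : S17cpIsKPlace K W₂) :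
    ∃ W : ValuationSubring L, S17cpIsKPlace K W ∧
      W.comap (i₁ : Ω₁ →+* L) = W₁ ∧ W.comap (i₂ : Ω₂ →+* L) = W₂ :=
  s17cp_main i₁ i₂ hW₁ hW₂ s17cpp_placeExt hinj

/-- the residue maps are compatible along a trace. -/
theorem s17cpp_res_comap {Ω : Type*} [Field Ω] [Algebra K Ω] (i : Ω →ₐ[K] L)
    (P : S17plPlace K L) (P' : S17plPlace K Ω) (hW : P.W.comap (i : Ω →+* L) = P'.W)
    (w : Ω) (hw : w ∈ P'.W) (hw' : i w ∈ P.W) : P.res ⟨i w, hw'⟩ = P'.res ⟨w, hw⟩ := by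
  have hmem' : w - algebraMap K Ω (P'.res ⟨w, hw⟩) ∈ P'.W := sub_mem hw (P'.hKW _)
  have h1 : P'.res ⟨w - algebraMap K Ω (P'.res ⟨w, hw⟩), hmem'⟩ = 0 := by
    have e : (⟨w - algebraMap K Ω (P'.res ⟨w, hw⟩), hmem'⟩ : ↥P'.W)
        = ⟨w, hw⟩ - ⟨algebraMap K Ω (P'.res ⟨w, hw⟩), P'.hKW _⟩ := rfl
    rw [e, map_sub, P'.hres, sub_self]
  have h2' : w - algebraMap K Ω (P'.res ⟨w, hw⟩) ∈ P'.W.nonunits :=
    (s17cpp_res_eq_zero_iff P' _).1 h1
  have h2 : (i : Ω →+* L) (w - algebraMap K Ω (P'.res ⟨w, hw⟩)) ∈ P.W.nonunits := by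
    rw [← s17cpp_nonunits_comap_iff, hW]
    exact h2'
  have h3 : (i : Ω →+* L) (w - algebraMap K Ω (P'.res ⟨w, hw⟩))
      = i w - algebraMap K L (P'.res ⟨w, hw⟩) := by
    show i (w - algebraMap K Ω (P'.res ⟨w, hw⟩)) = _
    rw [map_sub, AlgHom.commutes]
  rw [h3] at h2
  have hmem : i w - algebraMap K L (P'.res ⟨w, hw⟩) ∈ P.W := sub_mem hw' (P.hKW _)
  have h4 := (s17cpp_res_eq_zero_iff P ⟨_, hmem⟩).2 h2
  have e : (⟨i w - algebraMap K L (P'.res ⟨w, hw⟩), hmem⟩ : ↥P.W)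
      = ⟨i w, hw'⟩ - ⟨algebraMap K L (P'.res ⟨w, hw⟩), P.hKW _⟩ := rfl
  rw [e, map_sub, P.hres, sub_eq_zero] at h4
  exact h4

/-- **H-COMP, unconditional**, in the frame of `S17plPlace`: two `K`-rational places of linearly
disjoint subfields are the traces of ONE `K`-rational place of `L`, residue maps included. -/
theorem s17cpp_main (i₁ : Ω₁ →ₐ[K] L) (i₂ : Ω₂ →ₐ[K] L)
    (hinj : Function.Injective (Algebra.TensorProduct.productMap i₁ i₂))
    (P₁ : S17plPlace K Ω₁) (P₂ : S17plPlace K Ω₂) :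
    ∃ P : S17plPlace K L,
      P.W.comap (i₁ : Ω₁ →+* L) = P₁.W ∧ P.W.comap (i₂ : Ω₂ →+* L) = P₂.W ∧
      (∀ (w : Ω₁) (hw : w ∈ P₁.W) (hw' : i₁ w ∈ P.W), P.res ⟨i₁ w, hw'⟩ = P₁.res ⟨w, hw⟩) ∧
      (∀ (w : Ω₂) (hw : w ∈ P₂.W) (hw' : i₂ w ∈ P.W), P.res ⟨i₂ w, hw'⟩ = P₂.res ⟨w, hw⟩) := by
  obtain ⟨W, hWK, h1, h2⟩ := s17cpp_kplace i₁ i₂ hinj (s17cpp_isKPlace P₁) (s17cpp_isKPlace P₂)
  refine ⟨s17cppOfKPlace hWK, h1, h2, fun w hw hw' => ?_, fun w hw hw' => ?_⟩
  · exact s17cpp_res_comap i₁ (s17cppOfKPlace hWK) P₁ h1 w hw hw'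
  · exact s17cpp_res_comap i₂ (s17cppOfKPlace hWK) P₂ h2 w hw hw'

end Main

section Stage

universe u v

variable {K : Type u} {F : Type v} [Field K] [IsAlgClosed K] [Field F] [Algebra K F]

/-- **H-COMP on the stage**: `K`-rational places of `Ω_g` and `Ω_h` are the traces (along `ρ₁`,
`ρ₂` of `S17/Stage2.lean`) of ONE `K`-rational place of `Ω_{g+h}`. -/
theorem s17cpp_stage2 (g h : ℕ) (P₁ : S17plPlace K (s27gfOm K F g))
    (P₂ : S17plPlace K (s27gfOm K F h)) :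
    ∃ P : S17plPlace K (s27gfOm K F (g + h)),
      P.W.comap (s17st2_rho1 K F g h : s27gfOm K F g →+* s27gfOm K F (g + h)) = P₁.W ∧
      P.W.comap (s17st2_rho2 K F g h : s27gfOm K F h →+* s27gfOm K F (g + h)) = P₂.W ∧
      (∀ (w : s27gfOm K F g) (hw : w ∈ P₁.W) (hw' : s17st2_rho1 K F g h w ∈ P.W),
        P.res ⟨s17st2_rho1 K F g h w, hw'⟩ = P₁.res ⟨w, hw⟩) ∧
      (∀ (w : s27gfOm K F h) (hw : w ∈ P₂.W) (hw' : s17st2_rho2 K F g h w ∈ P.W),
        P.res ⟨s17st2_rho2 K F g h w, hw'⟩ = P₂.res ⟨w, hw⟩) :=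
  s17cpp_main (s17st2_rho1 K F g h) (s17st2_rho2 K F g h)
    (s17st2_productMap_injective g h) P₁ P₂

end Stage

end Fermat.Agent.S17

end
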