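/-
S17 sprint, layer H — **CONST AT A PRESCRIBED POINT** (helper51).

The constants `S27cstIsConst x G₀ O` of S27-B (S27/Consts.lean) exist for EVERY prescribed place
`O` (for S17: `O = cuspInf N`, so that `Θ⁻ = {ℓ(D − O) > 0}` is the theta divisor of the cusp):

* `s17cat_one_mem`    : `0 ≤ E ⇒ 1 ∈ L(E)`;
* `s17cat_step`       : `E ≥ 0`, `deg E = g`, `ℓ(E) = 1`, `E O > 0` ⇒ for all but finitely many
                        places `Q`: `E' = E − O + Q` has again `E' ≥ 0`, `deg E' = g`, `ℓ(E') = 1`
                        (`E − O` is special, so a generic point does not raise `ℓ`: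
                        `s17mrr_add_point`, helper26);
* `s17cat_exists_G0`  : for every `O` and every finite set `T` of places there is `G₀ ≥ 0` of
                        degree `g` with `ℓ(G₀) = 1`, `G₀ O = 0` and `G₀ = 0` on `T`;
* `s17cat_exists`     : `∀ O, ∃ G₀, S27cstIsConst x G₀ O`.
-/
import Fermat.Agent.S27.Consts
import Fermat.Agent.S17.MoveRR

set_option autoImplicit false
set_option linter.unusedVariables false
set_option linter.unusedSectionVars false
set_option linter.style.haveILetI false

noncomputable section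

namespace Fermat.Agent.S17

open AlgebraicCurve Module IntermediateField Fermat.Agent.S26 Fermat.Agent.S27

universe u v

variable {K : Type u} {F : Type v} [Field K] [Field F] [Algebra K F]

/-- an effective divisor has the constant `1` in its Riemann–Roch space. -/
theorem s17cat_one_mem {E : Divisor K F} (hE : 0 ≤ E) : (1 : F) ∈ riemannRochSpace E := by
  rw [mem_riemannRochSpace_iff]
  intro v
  right
  have h := Finsupp.le_def.mp hE v
  rw [Place.ord_one]
  simp only [Finsupp.coe_zero, Pi.zero_apply] at h
  omega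

section AlgClosed

variable [IsAlgClosed K] [CharZero K] [IsCurveOver K F] [Algebra.EssFiniteType K F]
  (x : F) (hx : Transcendental K x) [FiniteDimensional K⟮x⟯ F]

include hx

/-- `ℓ(E) ≥ 1` for an effective divisor. -/
theorem s17cat_one_le {E : Divisor K F} (hE : 0 ≤ E) :
    1 ≤ finrank K ↥(riemannRochSpace E) := by
  haveI : Module.Finite K ↥(riemannRochSpace E) := s26err_rr_finite' x hx E
  have hne : riemannRochSpace E ≠ ⊥ := by
    intro h
    have h1 := s17cat_one_mem (K := K) (F := F) hE
    rw [h, Submodule.mem_bot] at h1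
    exact one_ne_zero h1
  have hpos : 0 < finrank K ↥(riemannRochSpace E) := by
    rw [Module.finrank_pos_iff_exists_ne_zero]
    obtain ⟨f, hf, hf0⟩ := (Submodule.ne_bot_iff _).1 hne
    exact ⟨⟨f, hf⟩, fun h => hf0 (congrArg Subtype.val h)⟩
  exact hpos

/-- **one step**: move one unit of multiplicity away from `O`. -/
theorem s17cat_step (O : Place K F) {E : Divisor K F} (hE : 0 ≤ E)
    (hdeg : Divisor.degree E = (genusFF K F : ℤ))
    (h1 : finrank K ↥(riemannRochSpace E) = 1) (hO : 0 < E O) :
    ∃ S : Finset (Place K F), ∀ Q : Place K F, Q ∉ S →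
      0 ≤ E - Finsupp.single O 1 + Finsupp.single Q 1 ∧
      Divisor.degree (E - Finsupp.single O 1 + Finsupp.single Q 1) = (genusFF K F : ℤ) ∧
      finrank K ↥(riemannRochSpace (E - Finsupp.single O 1 + Finsupp.single Q 1)) = 1 := by
  classical
  have hB : (0 : Divisor K F) ≤ E - Finsupp.single O 1 := by
    intro v
    have h := Finsupp.le_def.mp hE v
    simp only [Finsupp.coe_zero, Pi.zero_apply, Finsupp.coe_sub, Pi.sub_apply,
      Finsupp.single_apply] at h ⊢
    split_ifs with hv
    · subst hv; omega
    · omega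
  have hBle : E - Finsupp.single O 1 ≤ E :=
    sub_le_self E (s17mrr_single_nonneg O)
  haveI : Module.Finite K ↥(riemannRochSpace E) := s26err_rr_finite' x hx E
  have hB1 : finrank K ↥(riemannRochSpace (E - Finsupp.single O 1)) = 1 := by
    have hle := Submodule.finrank_mono (s17mrr_mono (K := K) (F := F) hBle)
    have hge := s17cat_one_le x hx hB
    omega
  have hBdeg : Divisor.degree (E - Finsupp.single O 1) = (genusFF K F : ℤ) - 1 := by
    rw [map_sub, Divisor.degree_single, s26errg_deg_eq_one x hx O, hdeg]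
    push_cast
    ring
  obtain ⟨S, hS⟩ := s17mrr_add_point x hx (E - Finsupp.single O 1) (by
    rw [hBdeg, hB1]
    push_cast
    omega)
  refine ⟨S, fun Q hQ => ⟨?_, ?_, ?_⟩⟩
  · exact add_nonneg hB (s17mrr_single_nonneg Q)
  · rw [map_add, hBdeg, Divisor.degree_single, s26errg_deg_eq_one x hx Q]
    push_cast
    ring
  · have hle := hS Q hQ
    rw [hB1] at hle
    have hge := s17cat_one_le x hx (add_nonneg hB (s17mrr_single_nonneg Q))
    omega

/-- **a non-special effective divisor of degree `g` off `O` and off a finite set `T`**,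
by induction on the multiplicity at `O`. -/
theorem s17cat_exists_aux (O : Place K F) (n : ℕ) :
    ∀ E : Divisor K F, 0 ≤ E → Divisor.degree E = (genusFF K F : ℤ) →
      finrank K ↥(riemannRochSpace E) = 1 → E O = n →
      ∃ G₀ : Divisor K F, 0 ≤ G₀ ∧ Divisor.degree G₀ = (genusFF K F : ℤ) ∧
        finrank K ↥(riemannRochSpace G₀) = 1 ∧ G₀ O = 0 := by
  classical
  induction n with
  | zero =>
    intro E hE hdeg h1 hO
    exact ⟨E, hE, hdeg, h1, by simpa using hO⟩
  | succ n ih =>
    intro E hE hdeg h1 hO
    have hpos : 0 < E O := by rw [hO]; push_cast; omega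
    obtain ⟨S, hS⟩ := s17cat_step x hx O hE hdeg h1 hpos
    haveI : Infinite (Place K F) := s27td_infinite_place K F
    obtain ⟨Q, hQ⟩ := Infinite.exists_notMem_finset (insert O S)
    have hQO : Q ≠ O := fun h => hQ (h ▸ Finset.mem_insert_self _ _)
    have hQS : Q ∉ S := fun h => hQ (Finset.mem_insert_of_mem h)
    obtain ⟨h0, hd, hl⟩ := hS Q hQS
    refine ih (E - Finsupp.single O 1 + Finsupp.single Q 1) h0 hd hl ?_
    simp only [Finsupp.coe_add, Finsupp.coe_sub, Pi.add_apply, Pi.sub_apply,
      Finsupp.single_eq_same, Finsupp.single_apply, if_neg hQO]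
    rw [hO]
    push_cast
    ring

/-- **a non-special effective divisor of degree `g` which avoids the prescribed place `O`.** -/
theorem s17cat_exists_G0 (O : Place K F) :
    ∃ G₀ : Divisor K F, 0 ≤ G₀ ∧ Divisor.degree G₀ = (genusFF K F : ℤ) ∧
      finrank K ↥(riemannRochSpace G₀) = 1 ∧ G₀ O = 0 := by
  obtain ⟨E₀, hE, hdeg, h1⟩ := s27rr_exists_E0 x hx
  have hn : 0 ≤ E₀ O := by
    have := Finsupp.le_def.mp hE O
    simpa using this
  exact s17cat_exists_aux x hx O (E₀ O).toNat E₀ hE hdeg h1 (Int.toNat_of_nonneg hn).symm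

/-- **CONST at a prescribed point**: for every place `O` the constants of S27-B exist with
`O″ = O`. -/
theorem s17cat_exists (O : Place K F) : ∃ G₀ : Divisor K F, S27cstIsConst x G₀ O := by
  obtain ⟨G₀, hG0, hdeg, h1, hO⟩ := s17cat_exists_G0 x hx O
  exact ⟨G₀, s27cst_of hx hG0 hdeg h1 hO⟩

end AlgClosed

end Fermat.Agent.S17

end
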