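/-
S17 sprint, layer H, PlM-BPF / A-N — **COVER2: the TWO-SIDED finite pool** (helper38).

`K` algebraically closed, `F / K` a function field of one variable, `g = genusFF K F`.
S17/Cover.lean (helper90) moves finitely many classes off the theta divisor by `+ D`,
`D = m · Q₀ − Σ_j R j` with `R j` in a finite set `S`.  The theorem of the square needs BOTH signs:
the local equations at `η + β D` and at `η − β D` must be units, and `Φ_D` exists only if
`L(Ao − D) = L(Ao + D) = 0`.  Here both signs are obtained with the SAME `D`: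

* `s17cvq_bad_card`  : `L(D) = 0`, `deg D ≤ g − 2`: fewer than `c − deg D` places `P` have
                       `L(D + P) ≠ 0` (`c` = the bound of Riemann's equality);
* `s17cvq_step`      : one place `R ∈ S` lowers all the dimensions of the `+`-family and keeps
                       `L = 0` for the `−`-family;
* `s17cvq_iter`      : iteration;
* **`s17cvq_exists`** : `∃ m M, ∀ Q₀ n (Yp Ym : Fin n → Divisor)` of degree `g − 1`,
                       `∀ S, n · M < #S → ∃ R : Fin m → S`,
                       `L(Yp i + m Q₀ − Σ R) = 0` and `L(Ym i − m Q₀ + Σ R) = 0` for all `i`;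
* **`s17cvq_pool`**  : for `Ao` of degree `g − 1` there is ONE FINITE set `𝒟` of divisors of
                       degree `0` with `L(Ao + D) = L(Ao − D) = 0` for all `D ∈ 𝒟` and, for EVERY
                       `A₁` of degree `g − 1`, some `D ∈ 𝒟` with `L(A₁ + D) = L(A₁ − D) = 0`.
  (With `A₁ = Ao − X`, `X` a divisor of the centre class of a `K`-place `W`: by MOVE-VAL the
  local equations of `Θ_{Ao}` at `η ± β D` along `W` are units — the finite cover of `hmove` in
  S17/Bpf.lean `s17bp_of_square`, WITHOUT finite-dimensionality of any space `L(2Θ)`.)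
-/
import Fermat.Agent.S17.Cover

set_option autoImplicit false
set_option linter.unusedVariables false
set_option linter.unusedSectionVars false
set_option linter.style.haveILetI false

noncomputable section

namespace Fermat.Agent.S17

open AlgebraicCurve Module IntermediateField Fermat.Agent.S24 Fermat.Agent.ES.R
  Fermat.Agent.S26 Fermat.Agent.S27

variable {K F : Type*} [Field K] [Field F] [Algebra K F]

/-- `L(D) = 0` and `deg D ≤ γ − 2`: fewer than `c − deg D` places `P` have `L(D + P) ≠ 0`. -/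
theorem s17cvq_bad_card [HasPrincipalDivisors K F]
    (hres : ∀ v : Place K F, Module.Finite K v.ResidueField)
    (hdeg : ∀ v : Place K F, v.deg = 1)
    (hfin : ∀ D : Divisor K F, Module.Finite K ↥(riemannRochSpace D)) {γ c : ℤ}
    (hc : ∀ A : Divisor K F, c ≤ Divisor.degree A →
      (finrank K ↥(riemannRochSpace A) : ℤ) = Divisor.degree A + 1 - γ)
    (D : Divisor K F) (hD0 : riemannRochSpace D = ⊥) (hDdeg : Divisor.degree D + 1 - γ < 0)
    (T : Finset (Place K F))
    (hT : ∀ P ∈ T, riemannRochSpace (D + Finsupp.single P 1) ≠ ⊥) :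
    (T.card : ℤ) < c - Divisor.degree D := by
  by_contra hcon
  rw [not_lt] at hcon
  have h0 : finrank K ↥(riemannRochSpace D) = 0 := by
    rw [hD0]; exact finrank_bot K F
  have hne : ∀ P ∈ T, finrank K ↥(riemannRochSpace (D + Finsupp.single P 1)) ≠
      finrank K ↥(riemannRochSpace D) := by
    intro P hP heq
    rw [h0] at heq
    haveI := hfin (D + Finsupp.single P 1)
    exact hT P hP (Submodule.finrank_eq_zero.1 heq)
  have h1 := s26errf_growth hres D T hne
  rw [h0, zero_add] at h1
  have hdegT : Divisor.degree (D + s26errfSum T) = Divisor.degree D + T.card := by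
    rw [map_add, s26errf_degree_sum hdeg T]
  have h2 := hc (D + s26errfSum T) (by rw [hdegT]; linarith)
  rw [hdegT] at h2
  have h3 : (T.card : ℤ) ≤ (finrank K ↥(riemannRochSpace (D + s26errfSum T)) : ℤ) := by
    exact_mod_cast h1
  linarith

/-- **one step, two-sided.** -/
theorem s17cvq_step [HasPrincipalDivisors K F]
    (hres : ∀ v : Place K F, Module.Finite K v.ResidueField)
    (hdeg : ∀ v : Place K F, v.deg = 1)
    (hfin : ∀ D : Divisor K F, Module.Finite K ↥(riemannRochSpace D)) {γ c : ℤ}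
    (hc : ∀ A : Divisor K F, c ≤ Divisor.degree A →
      (finrank K ↥(riemannRochSpace A) : ℤ) = Divisor.degree A + 1 - γ)
    {n n' : ℕ} (Dp : Fin n → Divisor K F) (Dm : Fin n' → Divisor K F) (d e : ℕ)
    (hd : ∀ i, Divisor.degree (Dp i) ≤ d)
    (k : ℕ) (hk : ∀ i, finrank K ↥(riemannRochSpace (Dp i)) ≤ k + 1)
    (hm0 : ∀ j, riemannRochSpace (Dm j) = ⊥)
    (hmdeg : ∀ j, Divisor.degree (Dm j) + 1 - γ < 0)
    (hme : ∀ j, c - Divisor.degree (Dm j) ≤ e)
    (S : Finset (Place K F)) (hS : n * d + n' * e < S.card) :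
    ∃ R ∈ S, (∀ i, finrank K ↥(riemannRochSpace (Dp i - Finsupp.single R 1)) ≤ k) ∧
      ∀ j, riemannRochSpace (Dm j + Finsupp.single R 1) = ⊥ := by
  classical
  set Bad : Fin n' → Finset (Place K F) := fun j =>
    S.filter (fun R => riemannRochSpace (Dm j + Finsupp.single R 1) ≠ ⊥) with hBad
  have hBadcard : ∀ j, (Bad j).card ≤ e := by
    intro j
    have h1 := s17cvq_bad_card hres hdeg hfin hc (Dm j) (hm0 j) (hmdeg j) (Bad j)
      (fun P hP => by
        rw [hBad, Finset.mem_filter] at hP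
        exact hP.2)
    have h2 := hme j
    have : ((Bad j).card : ℤ) ≤ (e : ℤ) := by linarith
    exact_mod_cast this
  have hU : (Finset.univ.biUnion Bad).card ≤ n' * e := by
    refine (Finset.card_biUnion_le).trans ?_
    calc ∑ j : Fin n', (Bad j).card ≤ ∑ _j : Fin n', e :=
          Finset.sum_le_sum fun j _ => hBadcard j
      _ = n' * e := by simp
  have hS' : n * d < (S \ Finset.univ.biUnion Bad).card := by
    have h1 := Finset.le_card_sdiff (Finset.univ.biUnion Bad) S
    omega
  obtain ⟨R, hR, hstep⟩ := s17cov_step hdeg hfin Dp d hd k hk (S \ Finset.univ.biUnion Bad) hS'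
  rw [Finset.mem_sdiff] at hR
  refine ⟨R, hR.1, hstep, fun j => ?_⟩
  by_contra hne
  apply hR.2
  rw [Finset.mem_biUnion]
  exact ⟨j, Finset.mem_univ j, by rw [hBad, Finset.mem_filter]; exact ⟨hR.1, hne⟩⟩

/-- **iteration, two-sided.** -/
theorem s17cvq_iter [HasPrincipalDivisors K F]
    (hres : ∀ v : Place K F, Module.Finite K v.ResidueField)
    (hdeg : ∀ v : Place K F, v.deg = 1)
    (hfin : ∀ D : Divisor K F, Module.Finite K ↥(riemannRochSpace D)) {γ c : ℤ}
    (hc : ∀ A : Divisor K F, c ≤ Divisor.degree A →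
      (finrank K ↥(riemannRochSpace A) : ℤ) = Divisor.degree A + 1 - γ)
    {n n' : ℕ} (d e : ℕ) (S : Finset (Place K F)) (hS : n * d + n' * e < S.card) :
    ∀ (k : ℕ) (Dp : Fin n → Divisor K F) (Dm : Fin n' → Divisor K F),
      (∀ i, Divisor.degree (Dp i) ≤ d) →
      (∀ i, finrank K ↥(riemannRochSpace (Dp i)) ≤ k) →
      (∀ j, riemannRochSpace (Dm j) = ⊥) →
      (∀ j, Divisor.degree (Dm j) = γ - 1 - k) →
      c - γ + 1 + k ≤ e →
      ∃ R : Fin k → Place K F, (∀ j, R j ∈ S) ∧
        (∀ i, riemannRochSpace (Dp i - ∑ j, Finsupp.single (R j) (1 : ℤ)) = ⊥) ∧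
        ∀ j, riemannRochSpace (Dm j + ∑ l, Finsupp.single (R l) (1 : ℤ)) = ⊥ := by
  intro k
  induction k with
  | zero =>
    intro Dp Dm hd hk hm0 hmdeg he
    refine ⟨Fin.elim0, fun j => j.elim0, fun i => ?_, fun j => ?_⟩
    · haveI := hfin (Dp i)
      have h0 : finrank K ↥(riemannRochSpace (Dp i)) = 0 := Nat.le_zero.1 (hk i)
      rw [Finset.univ_eq_empty, Finset.sum_empty, sub_zero]
      exact Submodule.finrank_eq_zero.1 h0
    · rw [Finset.univ_eq_empty, Finset.sum_empty, add_zero]
      exact hm0 j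
  | succ k ih =>
    intro Dp Dm hd hk hm0 hmdeg he
    obtain ⟨R₀, hR₀, hstep, hstepm⟩ := s17cvq_step hres hdeg hfin hc Dp Dm d e hd k hk hm0
      (fun j => by rw [hmdeg j]; push_cast; linarith)
      (fun j => by rw [hmdeg j]; push_cast at he ⊢; linarith) S hS
    have hd' : ∀ i, Divisor.degree (Dp i - Finsupp.single R₀ 1) ≤ d := by
      intro i
      rw [map_sub, Divisor.degree_single, hdeg R₀]
      have := hd i
      push_cast
      linarith
    have hmdeg' : ∀ j, Divisor.degree (Dm j + Finsupp.single R₀ 1) = γ - 1 - k := by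
      intro j
      rw [map_add, Divisor.degree_single, hdeg R₀, hmdeg j]
      push_cast
      ring
    obtain ⟨R, hR, hbot, hbotm⟩ := ih (fun i => Dp i - Finsupp.single R₀ 1)
      (fun j => Dm j + Finsupp.single R₀ 1) hd' hstep hstepm hmdeg'
      (by push_cast at he ⊢; linarith)
    refine ⟨Fin.cons R₀ R, fun j => ?_, fun i => ?_, fun j => ?_⟩
    · refine Fin.cases ?_ (fun j => ?_) j
      · simpa using hR₀
      · simpa using hR j
    · have h1 : Dp i - ∑ j, Finsupp.single ((Fin.cons R₀ R : Fin (k + 1) → Place K F) j) (1 : ℤ)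
          = Dp i - Finsupp.single R₀ 1 - ∑ j, Finsupp.single (R j) (1 : ℤ) := by
        rw [Fin.sum_univ_succ]
        simp only [Fin.cons_zero, Fin.cons_succ]
        abel
      rw [h1]
      exact hbot i
    · have h1 : Dm j + ∑ l, Finsupp.single ((Fin.cons R₀ R : Fin (k + 1) → Place K F) l) (1 : ℤ)
          = Dm j + Finsupp.single R₀ 1 + ∑ l, Finsupp.single (R l) (1 : ℤ) := by
        rw [Fin.sum_univ_succ]
        simp only [Fin.cons_zero, Fin.cons_succ]
        abel
      rw [h1]
      exact hbotm j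

section Main

variable [IsAlgClosed K] (x : F) (hx : Transcendental K x) [FiniteDimensional K⟮x⟯ F]

include hx in
/-- **COVER2, divisor form.** -/
theorem s17cvq_exists :
    ∃ m M : ℕ, ∀ (Q₀ : Place K F) (n : ℕ) (Yp Ym : Fin n → Divisor K F),
      (∀ i, Divisor.degree (Yp i) = (genusFF K F : ℤ) - 1) →
      (∀ i, Divisor.degree (Ym i) = (genusFF K F : ℤ) - 1) →
      ∀ S : Finset (Place K F), n * M < S.card →
      ∃ R : Fin m → Place K F, (∀ j, R j ∈ S) ∧
        (∀ i, riemannRochSpace (Yp i + Finsupp.single Q₀ (m : ℤ)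
          - ∑ j, Finsupp.single (R j) (1 : ℤ)) = ⊥) ∧
        ∀ i, riemannRochSpace (Ym i - Finsupp.single Q₀ (m : ℤ)
          + ∑ j, Finsupp.single (R j) (1 : ℤ)) = ⊥ := by
  haveI := s26err_hasPrincipalDivisors (K := K) x hx
  have hdeg : ∀ v : Place K F, v.deg = 1 := fun v => s26errg_deg_eq_one x hx v
  have hfin : ∀ D : Divisor K F, Module.Finite K ↥(riemannRochSpace D) :=
    fun D => s26err_rr_finite' x hx D
  have hres : ∀ v : Place K F, Module.Finite K v.ResidueField :=
    fun v => s26err_residue_finite x hx v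
  obtain ⟨c, hc⟩ := s27rr_large x hx
  set m : ℕ := (c - ((genusFF K F : ℤ) - 1)).toNat + genusFF K F with hm
  have hmc : c ≤ (genusFF K F : ℤ) - 1 + m := by
    have := Int.self_le_toNat (c - ((genusFF K F : ℤ) - 1))
    rw [hm]
    push_cast
    have hg : (0 : ℤ) ≤ (genusFF K F : ℤ) := Int.natCast_nonneg _
    linarith
  have hmg : (genusFF K F : ℤ) ≤ m := by
    rw [hm]
    push_cast
    have h0 : (0 : ℤ) ≤ ((c - ((genusFF K F : ℤ) - 1)).toNat : ℤ) := Int.natCast_nonneg _
    linarith
  set e : ℕ := (c - (genusFF K F : ℤ) + 1 + m).toNat with he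
  refine ⟨m, (genusFF K F + m) + e, fun Q₀ n Yp Ym hYp hYm S hS => ?_⟩
  have hZdeg : ∀ i, Divisor.degree (Yp i + Finsupp.single Q₀ (m : ℤ))
      = (genusFF K F : ℤ) - 1 + m := by
    intro i
    rw [map_add, hYp i, Divisor.degree_single, hdeg Q₀]
    push_cast
    ring
  have hWdeg : ∀ i, Divisor.degree (Ym i - Finsupp.single Q₀ (m : ℤ))
      = (genusFF K F : ℤ) - 1 - m := by
    intro i
    rw [map_sub, hYm i, Divisor.degree_single, hdeg Q₀]
    push_cast
    ring
  have hS' : n * (genusFF K F + m) + n * e < S.card := by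
    have : n * (genusFF K F + m + e) = n * (genusFF K F + m) + n * e := by ring
    omega
  refine s17cvq_iter hres hdeg hfin hc (genusFF K F + m) e S hS' m
    (fun i => Yp i + Finsupp.single Q₀ (m : ℤ)) (fun i => Ym i - Finsupp.single Q₀ (m : ℤ))
    (fun i => ?_) (fun i => ?_) (fun i => ?_) (fun i => hWdeg i) ?_
  · rw [hZdeg i]
    push_cast
    linarith
  · have h1 := hc (Yp i + Finsupp.single Q₀ (m : ℤ)) (by rw [hZdeg i]; exact hmc)
    rw [hZdeg i] at h1
    have : (finrank K ↥(riemannRochSpace (Yp i + Finsupp.single Q₀ (m : ℤ))) : ℤ) = m := by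
      rw [h1]; ring
    have h2 : finrank K ↥(riemannRochSpace (Yp i + Finsupp.single Q₀ (m : ℤ))) = m := by
      exact_mod_cast this
    exact h2.le
  · apply rr_eq_bot_of_degree_neg (K := K) (F := F)
    rw [hWdeg i]
    linarith
  · rw [he]
    exact Int.self_le_toNat _

include hx in
/-- **COVER2, the two-sided finite POOL.** -/
theorem s17cvq_pool (Ao : Divisor K F)
    (hAo : Divisor.degree Ao = (genusFF K F : ℤ) - 1) :
    ∃ 𝒟 : Finset (Divisor K F),
      (∀ D ∈ 𝒟, Divisor.degree D = 0 ∧ riemannRochSpace (Ao + D) = ⊥ ∧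
        riemannRochSpace (Ao - D) = ⊥) ∧
      ∀ A₁ : Divisor K F, Divisor.degree A₁ = (genusFF K F : ℤ) - 1 →
        ∃ D ∈ 𝒟, riemannRochSpace (A₁ + D) = ⊥ ∧ riemannRochSpace (A₁ - D) = ⊥ := by
  classical
  have hdeg : ∀ v : Place K F, v.deg = 1 := fun v => s26errg_deg_eq_one x hx v
  haveI : Infinite (Place K F) := s26errg_infinite_place x hx
  obtain ⟨m, M, hmM⟩ := s17cvq_exists x hx
  obtain ⟨S, hS⟩ := Infinite.exists_subset_card_eq (Place K F) (2 * M + 1)
  obtain ⟨Q₀⟩ : Nonempty (Place K F) := inferInstance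
  let DR : (Fin m → Place K F) → Divisor K F := fun R =>
    Finsupp.single Q₀ (m : ℤ) - ∑ j, Finsupp.single (R j) (1 : ℤ)
  have hDRdeg : ∀ R, Divisor.degree (DR R) = 0 := by
    intro R
    simp only [DR]
    rw [map_sub, Divisor.degree_single, hdeg Q₀, map_sum]
    simp [Divisor.degree_single, hdeg]
  refine ⟨((Fintype.piFinset fun _ : Fin m => S).image DR).filter
    (fun D => riemannRochSpace (Ao + D) = ⊥ ∧ riemannRochSpace (Ao - D) = ⊥), ?_, ?_⟩
  · intro D hD
    rw [Finset.mem_filter, Finset.mem_image] at hD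
    obtain ⟨⟨R, -, rfl⟩, h1, h2⟩ := hD
    exact ⟨hDRdeg R, h1, h2⟩
  · intro A₁ hA₁
    obtain ⟨R, hRS, hp, hmn⟩ := hmM Q₀ 2 ![Ao, A₁] ![Ao, A₁]
      (fun i => by fin_cases i <;> simp [hAo, hA₁])
      (fun i => by fin_cases i <;> simp [hAo, hA₁]) S (by rw [hS]; omega)
    have e1 : ∀ Y : Divisor K F, Y + DR R =
        Y + Finsupp.single Q₀ (m : ℤ) - ∑ j, Finsupp.single (R j) (1 : ℤ) := by
      intro Y; simp only [DR]; abel
    have e2 : ∀ Y : Divisor K F, Y - DR R =
        Y - Finsupp.single Q₀ (m : ℤ) + ∑ j, Finsupp.single (R j) (1 : ℤ) := by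
      intro Y; simp only [DR]; abel
    have hp0 := hp 0
    have hp1 := hp 1
    have hm0 := hmn 0
    have hm1 := hmn 1
    simp only [Matrix.cons_val_zero, Matrix.cons_val_one] at hp0 hp1 hm0 hm1
    refine ⟨DR R, ?_, ?_, ?_⟩
    · rw [Finset.mem_filter, Finset.mem_image]
      refine ⟨⟨R, Fintype.mem_piFinset.2 hRS, rfl⟩, ?_, ?_⟩
      · rw [e1]; exact hp0
      · rw [e2]; exact hm0
    · rw [e1]; exact hp1
    · rw [e2]; exact hm1

end Main

end Fermat.Agent.S17

end
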