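/-
S17 sprint, layer H, PlM-BPF closed at the `L`-level (helper90): the glue of
(P) `s17cpm_pool` (S17/CoverPM.lean, the two-sided finite pool) and
(B) `s17bpl_bpf` (S17/BpfPool.lean, helper95):

**there is a FINITE family `s : ι → L`, `s i ≠ 0`, which is base-point-free with `N = 2` w.r.t.
every choice `y` of local equations of `Θ_{Ao}` at the generic class `η`.**
-/
import Fermat.Agent.S17.CoverPM
import Fermat.Agent.S17.BpfPool

set_option autoImplicit false
set_option linter.style.haveILetI false
set_option linter.unusedSectionVars false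
set_option linter.unusedVariables false

noncomputable section

namespace Fermat.Agent.S17

open AlgebraicCurve Module TensorProduct IntermediateField Fermat.Agent.S26 Fermat.Agent.S27

universe u v y

section Stage

variable {K : Type u} {F : Type v} [Field K] [IsAlgClosed K] [CharZero K] [Field F] [Algebra K F]
  [IsCurveOver K F] [Algebra.EssFiniteType K F]
  {L : Type (max u v)} [Field L] [Algebra K L]
  [Algebra (s27gfOm K F (genusFF K F)) L] [IsScalarTower K (s27gfOm K F (genusFF K F)) L]
  [IsAlgClosed L] [Algebra.IsAlgebraic (s27gfOm K F (genusFF K F)) L]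
  {FL : Type y} [Field FL] [Algebra K FL] [Algebra F FL] [Algebra L FL]
  [IsScalarTower K F FL] [IsScalarTower K L FL]
  (hld : Function.Injective (s26gspMu K F L FL)) (hgen : S26gspGen K F L FL)
  {x : F} (hx : Transcendental K x)
  [FiniteDimensional ↥(IntermediateField.adjoin K {x}) F]
  [Algebra.IsSeparable ↥(IntermediateField.adjoin K {x}) F]
  [IsGalois (s27gfSym K F (genusFF K F)) L]

/-- **PlM-BPF at the `L`-level, unconditional**: a finite base-point-free family (`N = 2`),
indexed by a finite pool `T` of constant divisors of degree `0`. -/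
theorem s17cpm_bpf (G₀ : Divisor K F) (hG₀ : Divisor.degree G₀ = (genusFF K F : ℤ))
    (hg : 0 < genusFF K F) (hG0 : 0 ≤ G₀) (Ao : Divisor K F)
    (hAo : riemannRochSpace Ao = ⊥) (hAod : Divisor.degree Ao = (genusFF K F : ℤ) - 1)
    (O : Place K F) :
    ∃ (T : Finset (Divisor.degZero (K := K) (F := F))) (s : T → L), (∀ D, s D ≠ 0) ∧
      (∀ D ∈ T, riemannRochSpace (Ao - (D : Divisor K F)) = ⊥ ∧
        riemannRochSpace (Ao + (D : Divisor K F)) = ⊥) ∧
      (∀ c : Pic0 K F, ∃ D ∈ T, S17mvcOff Ao (c + Pic0.mk D) ∧ S17mvcOff Ao (c - Pic0.mk D)) ∧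
      ∀ y : ValuationSubring L → L,
        (∀ W : ValuationSubring L, S27IsKValU K W → S27icIdx hld hgen hx Ao W
          (s27pfCl (s27dclPkg hld hgen hx G₀ hG₀)
            (s27pfTaut (K := K) (F := F) (g := genusFF K F) (L := L))) (y W)) →
        S17muBpf K y 2 s := by
  obtain ⟨T, hT, hcov⟩ := s17cpm_pool x hx Ao hAod
  obtain ⟨s, hs0, hs⟩ := s17bpl_bpf hld hgen hx (G₀ := G₀) (hG₀ := hG₀) hg hG0 Ao hAo hAod O T
    hT hcov
  exact ⟨T, s, hs0, hT, hcov, hs⟩

end Stage

end Fermat.Agent.S17

end
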