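/-
S17 sprint, PlM-BPF, leaf **DESCENT-POWER** (helper96; split of helper4's note 07:25Z), Mathlib only.

`L / 𝔉` a field extension, `Aut = L ≃ₐ[𝔉] L`, `Φ ∈ L^×` algebraic over `𝔉` such that every
conjugate of `Φ` is a multiple `c • Φ` with a constant `c ∈ 𝔉` (e.g. `c ∈ K ⊆ 𝔉`).  If the fixed
field of `Aut` is `𝔉` (e.g. `L / 𝔉` Galois), then a POWER of `Φ` lies in `𝔉`:

* `s17dpw_orbit_finite`  : the orbit of an algebraic element is finite;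
* **`s17dpw_main`**      : `∃ e ≥ 1, Φ ^ e ∈ (algebraMap 𝔉 L).range`
                           (`e` = the number of conjugates; the product over the orbit is fixed);
* `s17dpw_main_tower`    : the same with the constants `c` in a subfield `K ⊆ 𝔉`;
* `s17dpw_main_galois`, `s17dpw_main_galois_tower` : the same for `[IsGalois 𝔉 L]`
                           (no algebraicity or fixed-field hypothesis left);
* `s17dpw_exists`        : the form `∃ e ≥ 1, ∃ f : 𝔉, f ≠ 0 ∧ algebraMap 𝔉 L f = Φ ^ e`.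
-/
import Mathlib

set_option autoImplicit false

namespace Fermat.Agent.S17

open scoped BigOperators

variable {𝔉 L : Type*} [Field 𝔉] [Field L] [Algebra 𝔉 L]

/-- the orbit of an algebraic element under `Aut (L / 𝔉)` is finite. -/
theorem s17dpw_orbit_finite (Φ : L) (hΦ : IsAlgebraic 𝔉 Φ) :
    (Set.range fun σ : L ≃ₐ[𝔉] L => σ Φ).Finite := by
  have hint : IsIntegral 𝔉 Φ := hΦ.isIntegral
  refine ((minpoly 𝔉 Φ).rootSet_finite L).subset ?_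
  rintro _ ⟨σ, rfl⟩
  rw [Polynomial.mem_rootSet]
  refine ⟨minpoly.ne_zero hint, ?_⟩
  have h1 := Polynomial.aeval_algHom_apply (σ : L →ₐ[𝔉] L) Φ (minpoly 𝔉 Φ)
  rw [minpoly.aeval, map_zero] at h1
  exact h1

/-- **DESCENT-POWER.** -/
theorem s17dpw_main
    (hfix : ∀ x : L, (∀ σ : L ≃ₐ[𝔉] L, σ x = x) → x ∈ (algebraMap 𝔉 L).range)
    (Φ : L) (hΦ0 : Φ ≠ 0) (hΦ : IsAlgebraic 𝔉 Φ)
    (h : ∀ σ : L ≃ₐ[𝔉] L, ∃ c : 𝔉, σ Φ = algebraMap 𝔉 L c * Φ) :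
    ∃ e : ℕ, 1 ≤ e ∧ Φ ^ e ∈ (algebraMap 𝔉 L).range := by
  classical
  set T : Finset L := (s17dpw_orbit_finite (𝔉 := 𝔉) Φ hΦ).toFinset with hT
  have hmem : ∀ s : L, s ∈ T ↔ ∃ σ : L ≃ₐ[𝔉] L, σ Φ = s := by
    intro s
    rw [hT, Set.Finite.mem_toFinset]
    exact Set.mem_range
  have hΦT : Φ ∈ T := (hmem Φ).2 ⟨1, rfl⟩
  -- the product over the orbit is fixed
  have hprod : ∀ σ : L ≃ₐ[𝔉] L, σ (∏ s ∈ T, s) = ∏ s ∈ T, s := by
    intro σ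
    rw [map_prod]
    refine Finset.prod_nbij' (fun s => σ s) (fun s => σ.symm s) ?_ ?_ ?_ ?_ ?_
    · intro s hs
      obtain ⟨τ, rfl⟩ := (hmem s).1 hs
      exact (hmem _).2 ⟨σ * τ, rfl⟩
    · intro s hs
      obtain ⟨τ, rfl⟩ := (hmem s).1 hs
      exact (hmem _).2 ⟨σ.symm * τ, rfl⟩
    · intro s _
      exact σ.symm_apply_apply s
    · intro s _
      exact σ.apply_symm_apply s
    · intro s _
      rfl
  obtain ⟨p₀, hp₀⟩ := hfix _ hprod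
  -- every element of the orbit is a constant multiple of `Φ`
  have hc : ∀ s ∈ T, ∃ c : 𝔉, s = algebraMap 𝔉 L c * Φ := by
    intro s hs
    obtain ⟨τ, rfl⟩ := (hmem s).1 hs
    exact h τ
  choose! c hcs using hc
  have hc0 : ∀ s ∈ T, c s ≠ 0 := by
    intro s hs h0
    obtain ⟨τ, hτ⟩ := (hmem s).1 hs
    have h1 := hcs s hs
    rw [h0, map_zero, zero_mul] at h1
    rw [← hτ] at h1
    exact hΦ0 ((map_eq_zero_iff τ τ.injective).1 h1)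
  have hP : ∏ s ∈ T, s = algebraMap 𝔉 L (∏ s ∈ T, c s) * Φ ^ T.card := by
    rw [map_prod, ← Finset.prod_const, ← Finset.prod_mul_distrib]
    exact Finset.prod_congr rfl (fun s hs => hcs s hs)
  have hC0 : (∏ s ∈ T, c s) ≠ 0 := Finset.prod_ne_zero_iff.2 hc0
  refine ⟨T.card, Finset.card_pos.2 ⟨Φ, hΦT⟩, p₀ * (∏ s ∈ T, c s)⁻¹, ?_⟩
  rw [map_mul, hp₀, hP, map_inv₀]
  have hC0' : algebraMap 𝔉 L (∏ s ∈ T, c s) ≠ 0 := by
    rw [Ne, map_eq_zero]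
    exact hC0
  field_simp

/-- the same with the constants in a subfield `K ⊆ 𝔉`. -/
theorem s17dpw_main_tower {K : Type*} [Field K] [Algebra K 𝔉] [Algebra K L]
    [IsScalarTower K 𝔉 L]
    (hfix : ∀ x : L, (∀ σ : L ≃ₐ[𝔉] L, σ x = x) → x ∈ (algebraMap 𝔉 L).range)
    (Φ : L) (hΦ0 : Φ ≠ 0) (hΦ : IsAlgebraic 𝔉 Φ)
    (h : ∀ σ : L ≃ₐ[𝔉] L, ∃ c : K, σ Φ = algebraMap K L c * Φ) :
    ∃ e : ℕ, 1 ≤ e ∧ Φ ^ e ∈ (algebraMap 𝔉 L).range := by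
  refine s17dpw_main hfix Φ hΦ0 hΦ (fun σ => ?_)
  obtain ⟨c, hc⟩ := h σ
  exact ⟨algebraMap K 𝔉 c, by rw [hc, IsScalarTower.algebraMap_apply K 𝔉 L]⟩

/-- **DESCENT-POWER for a Galois extension** (possibly infinite). -/
theorem s17dpw_main_galois [IsGalois 𝔉 L] (Φ : L) (hΦ0 : Φ ≠ 0)
    (h : ∀ σ : L ≃ₐ[𝔉] L, ∃ c : 𝔉, σ Φ = algebraMap 𝔉 L c * Φ) :
    ∃ e : ℕ, 1 ≤ e ∧ Φ ^ e ∈ (algebraMap 𝔉 L).range :=
  s17dpw_main (fun x hx => (InfiniteGalois.mem_range_algebraMap_iff_fixed x).2 hx) Φ hΦ0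
    (Algebra.IsAlgebraic.isAlgebraic Φ) h

/-- the Galois case with the constants in a subfield `K ⊆ 𝔉`. -/
theorem s17dpw_main_galois_tower {K : Type*} [Field K] [Algebra K 𝔉] [Algebra K L]
    [IsScalarTower K 𝔉 L] [IsGalois 𝔉 L] (Φ : L) (hΦ0 : Φ ≠ 0)
    (h : ∀ σ : L ≃ₐ[𝔉] L, ∃ c : K, σ Φ = algebraMap K L c * Φ) :
    ∃ e : ℕ, 1 ≤ e ∧ Φ ^ e ∈ (algebraMap 𝔉 L).range :=
  s17dpw_main_tower (fun x hx => (InfiniteGalois.mem_range_algebraMap_iff_fixed x).2 hx) Φ hΦ0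
    (Algebra.IsAlgebraic.isAlgebraic Φ) h

/-- the form with an explicit element of `𝔉`. -/
theorem s17dpw_exists
    (hfix : ∀ x : L, (∀ σ : L ≃ₐ[𝔉] L, σ x = x) → x ∈ (algebraMap 𝔉 L).range)
    (Φ : L) (hΦ0 : Φ ≠ 0) (hΦ : IsAlgebraic 𝔉 Φ)
    (h : ∀ σ : L ≃ₐ[𝔉] L, ∃ c : 𝔉, σ Φ = algebraMap 𝔉 L c * Φ) :
    ∃ e : ℕ, 1 ≤ e ∧ ∃ f : 𝔉, f ≠ 0 ∧ algebraMap 𝔉 L f = Φ ^ e := by
  obtain ⟨e, he, f, hf⟩ := s17dpw_main hfix Φ hΦ0 hΦ h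
  refine ⟨e, he, f, ?_, hf⟩
  rintro rfl
  rw [map_zero] at hf
  exact pow_ne_zero e hΦ0 hf.symm

/-- a unit of a valuation subring: the power `Φ ^ e` (`e ≥ 1`) is a unit of `W` iff `Φ` is. -/
theorem s17dpw_pow_mem_iff (W : ValuationSubring L) (Φ : L) {e : ℕ} (he : 1 ≤ e) :
    Φ ^ e ∈ W ↔ Φ ∈ W := by
  constructor
  · intro h
    rw [← ValuationSubring.valuation_le_one_iff] at h ⊢
    rw [map_pow] at h
    exact (pow_le_one_iff (Nat.one_le_iff_ne_zero.1 he)).1 h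
  · intro h
    exact W.toSubring.pow_mem h e

end Fermat.Agent.S17
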