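/-
S17 sprint, layer H, leaf PlT-T9 (AUT on the stage), twin by helper90 from S17/DivMain.lean:
**every translation by a constant class is induced by an automorphism of `L / K`**:
`∀ c : Pic0 K F, ∃ ρ : L ≃ₐ[K] L, actC ρ η = η + β c` (`η` the class of the tautological points),
together with the permutation statement `ρ ∘ taut i = q (π i)`.
No Galois hypothesis is needed.
-/
import Fermat.Agent.S17.DivMain

set_option autoImplicit false
set_option linter.unusedVariables false
set_option linter.unusedSectionVars false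
set_option linter.style.haveILetI false

noncomputable section

namespace Fermat.Agent.S17

open AlgebraicCurve Module TensorProduct IntermediateField Fermat.Agent.S26 Fermat.Agent.S27

universe u v y

section Model

variable {K : Type u} {F : Type v} [Field K] [IsAlgClosed K] [CharZero K] [Field F] [Algebra K F]
  [IsCurveOver K F] [Algebra.EssFiniteType K F]
  {L : Type (max u v)} [Field L] [Algebra K L]
  [Algebra (s27gfOm K F (genusFF K F)) L] [IsScalarTower K (s27gfOm K F (genusFF K F)) L]
  [IsAlgClosed L] [Algebra.IsAlgebraic (s27gfOm K F (genusFF K F)) L]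
  {FL : Type y} [Field FL] [Algebra K FL] [Algebra F FL] [Algebra L FL]
  [IsScalarTower K F FL] [IsScalarTower K L FL]
  (hld : Function.Injective (s26gspMu K F L FL)) (hgen : S26gspGen K F L FL)
  {x : F} (hx : Transcendental K x)
  [FiniteDimensional ↥(IntermediateField.adjoin K {x}) F]
  [Algebra.IsSeparable ↥(IntermediateField.adjoin K {x}) F]

include hx in
/-- **T9 (AUT)**: the translation by the constant class `c` is induced by an automorphism. -/
theorem s17dv_translate_aut (G₀ : Divisor K F) (hG₀ : Divisor.degree G₀ = (genusFF K F : ℤ))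
    (c : Pic0 K F) :
    ∃ ρ : L ≃ₐ[K] L,
      (s27dclPkg hld hgen hx G₀ hG₀).actC ρ
          (s27pfCl (s27dclPkg hld hgen hx G₀ hG₀)
            (s27pfTaut (K := K) (F := F) (g := genusFF K F) (L := L)))
        = s27pfCl (s27dclPkg hld hgen hx G₀ hG₀)
            (s27pfTaut (K := K) (F := F) (g := genusFF K F) (L := L))
          + s27bcBeta hld hgen (s26gspf_hall hx) c := by
  obtain ⟨q, hq, hcl⟩ := s17dv_affine hld hgen hx G₀ hG₀
    (s27pfTaut (K := K) (F := F) (g := genusFF K F) (L := L)) (s27dom_taut_generic hx) c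
  obtain ⟨ρ, h1, -⟩ := s17dv_cl_aut hld hgen hx G₀ hG₀ q hq
  exact ⟨ρ, h1.trans hcl⟩

include hx in
/-- the same for `k • η + β c`, `k ≠ 0`. -/
theorem s17dv_affine_aut (G₀ : Divisor K F) (hG₀ : Divisor.degree G₀ = (genusFF K F : ℤ))
    (k : ℤ) (hk : k ≠ 0) (c : Pic0 K F) :
    ∃ ρ : L ≃ₐ[K] L,
      (s27dclPkg hld hgen hx G₀ hG₀).actC ρ
          (s27pfCl (s27dclPkg hld hgen hx G₀ hG₀)
            (s27pfTaut (K := K) (F := F) (g := genusFF K F) (L := L)))
        = k • s27pfCl (s27dclPkg hld hgen hx G₀ hG₀)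
            (s27pfTaut (K := K) (F := F) (g := genusFF K F) (L := L))
          + s27bcBeta hld hgen (s26gspf_hall hx) c := by
  obtain ⟨qk, hqk, hclk⟩ := s27dom_modelZ (L := L) hld hgen hx G₀ hG₀ k hk
  obtain ⟨q, hq, hcl⟩ := s17dv_affine hld hgen hx G₀ hG₀ qk hqk c
  obtain ⟨ρ, h1, -⟩ := s17dv_cl_aut hld hgen hx G₀ hG₀ q hq
  exact ⟨ρ, by rw [h1, hcl, hclk]⟩

end Model

end Fermat.Agent.S17

end
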