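/-
S17 sprint, leaf W6-RIG, INSTANCE (helper12; step (c) of helper90's assembly of (div) = W6):
the rigidity `s17dr_div` of `S17/DivRig.lean` in the `(hld, hgen)` form of S27-B (no instance
`Algebra (𝔠 ⊗[K] 𝔎) Ω`), for a curve `𝔠 / K` with a transcendental `x`, `[𝔠 : K(x)] < ∞`.

Setting: `K` algebraically closed of characteristic `0`, `𝔎 ⊇ K` algebraically closed,
`Ω = Frac (𝔠 ⊗[K] 𝔎)` (`hld`, `hgen`), `Pic0(Ω)[n]` finite.

* `s17dri_root`  : `(n : ℤ) • y = β c` ⇒ `∃ d, y = β d ∧ (n : ℤ) • d = c`;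
* `s17dri_div`   : **divisibility descends**: `(∃ y : Pic0 𝔎 Ω, n • y = β c) → ∃ d, n • d = c`,
                   `β = s27bcBeta hld hgen hall`, for EVERY `hall`;
* `s17dri_div'`  : the same with `hall = s26gspf_hall hx` written out (the shape of the model
                   frame of `S27/DomModel.lean`);
* `s17dri_div_of_sub` : the shape of helper90's step (b): `β c = n • (y₂ − y₁)`.
-/
import Fermat.Agent.S17.DivRig
import Fermat.Agent.S27.DegWire

set_option autoImplicit false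
set_option linter.style.haveILetI false
set_option linter.unusedSectionVars false
set_option linter.unusedVariables false

noncomputable section

namespace Fermat.Agent.S17

open AlgebraicCurve TensorProduct IntermediateField Module Fermat.Agent.S26 Fermat.Agent.S27

variable {K 𝔠 𝔎 Ω : Type*} [Field K] [Field 𝔠] [Field 𝔎] [Field Ω]
  [Algebra K 𝔠] [Algebra K 𝔎] [Algebra K Ω] [Algebra 𝔠 Ω] [Algebra 𝔎 Ω]
  [IsScalarTower K 𝔠 Ω] [IsScalarTower K 𝔎 Ω]

variable [IsAlgClosed K] [CharZero K] [IsAlgClosed 𝔎]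
  (hld : Function.Injective (s26gspMu K 𝔠 𝔎 Ω)) (hgen : S26gspGen K 𝔠 𝔎 Ω)

/-- **RIGIDITY, instance**: an `n`-th root of a constant class is constant, and its constant is
an `n`-th root. -/
theorem s17dri_root [HasPrincipalDivisors K 𝔠]
    (hall : ∀ P : Place K 𝔠, Function.Surjective (algebraMap K P.ResidueField))
    {x : 𝔠} (hx : Transcendental K x) [FiniteDimensional K⟮x⟯ 𝔠]
    (n : ℕ) [Finite (Pic0.torsion 𝔎 Ω n)] (y : Pic0 𝔎 Ω) (c : Pic0 K 𝔠)
    (hy : (n : ℤ) • y = s27bcBeta hld hgen hall c) :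
    ∃ d : Pic0 K 𝔠, y = s27bcBeta hld hgen hall d ∧ (n : ℤ) • d = c := by
  haveI : HasPrincipalDivisors 𝔎 Ω := s26gspf_hasPrincipalDivisors hld hgen hx
  obtain ⟨Q₀⟩ := s26err_nonempty_place x hx
  exact s17dr_main_beta (s27dwAct hld hgen) hld hgen hall
    (fun w => s27pt_hres hld hgen hx w) Q₀ (s27gbc_hΓ hx) (genusFF K 𝔠 : ℤ)
    (fun D hD => s27ri_weak_riemann hld hgen hx D hD) n y c hy

/-- **divisibility descends** along the constant extension `Ω = Frac (𝔠 ⊗[K] 𝔎)`. -/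
theorem s17dri_div [HasPrincipalDivisors K 𝔠]
    (hall : ∀ P : Place K 𝔠, Function.Surjective (algebraMap K P.ResidueField))
    {x : 𝔠} (hx : Transcendental K x) [FiniteDimensional K⟮x⟯ 𝔠]
    (n : ℕ) [Finite (Pic0.torsion 𝔎 Ω n)] (c : Pic0 K 𝔠)
    (hc : ∃ y : Pic0 𝔎 Ω, n • y = s27bcBeta hld hgen hall c) :
    ∃ d : Pic0 K 𝔠, n • d = c := by
  obtain ⟨y, hy⟩ := hc
  have hy' : (n : ℤ) • y = s27bcBeta hld hgen hall c := by
    rw [natCast_zsmul]
    exact hy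
  obtain ⟨d, -, hd⟩ := s17dri_root hld hgen hall hx n y c hy'
  refine ⟨d, ?_⟩
  rw [← natCast_zsmul]
  exact hd

/-- the same with `hall = s26gspf_hall hx` (the `β` of the model frame). -/
theorem s17dri_div' [HasPrincipalDivisors K 𝔠]
    {x : 𝔠} (hx : Transcendental K x) [FiniteDimensional K⟮x⟯ 𝔠]
    (n : ℕ) [Finite (Pic0.torsion 𝔎 Ω n)] (c : Pic0 K 𝔠)
    (hc : ∃ y : Pic0 𝔎 Ω, n • y = s27bcBeta hld hgen (fun P => s26gspf_hall hx P) c) :
    ∃ d : Pic0 K 𝔠, n • d = c :=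
  s17dri_div hld hgen (fun P => s26gspf_hall hx P) hx n c hc

/-- the shape of the assembly: `β c = n • (y₂ − y₁)` (zsmul form) ⇒ `c ∈ n · Pic0(𝔠)`. -/
theorem s17dri_div_of_sub [HasPrincipalDivisors K 𝔠]
    (hall : ∀ P : Place K 𝔠, Function.Surjective (algebraMap K P.ResidueField))
    {x : 𝔠} (hx : Transcendental K x) [FiniteDimensional K⟮x⟯ 𝔠]
    (n : ℕ) [Finite (Pic0.torsion 𝔎 Ω n)] (c : Pic0 K 𝔠) (y₁ y₂ : Pic0 𝔎 Ω)
    (hc : s27bcBeta hld hgen hall c = (n : ℤ) • y₂ - (n : ℤ) • y₁) :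
    ∃ d : Pic0 K 𝔠, n • d = c := by
  refine s17dri_div hld hgen hall hx n c ⟨y₂ - y₁, ?_⟩
  rw [hc, natCast_zsmul, natCast_zsmul]
  exact nsmul_sub y₂ y₁ n

end Fermat.Agent.S17
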