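/-
S17 sprint, leaf W6c / H3-core, part 3 (helper50): **extension of a `K`-rational place along an
ALGEBRAIC extension** (`K` algebraically closed).

* `s17de_ext` : `Ω ⊆ L` algebraic, `(V, res)` a `K`-rational place of `Ω` (valuation subring
                `V ⊇ K`, `res : V →+* K` the identity on `K`) ⇒ there is a `K`-rational place
                `(W, resW)` of `L` with `W ∩ Ω = V` and `resW = res` on `V`.
  (Chevalley `s27nm_exists_ext` + the residue field of `W` is algebraic over `K`.)
-/
import Fermat.Agent.S17.DivSpEx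
import Fermat.Agent.S27.Norm

set_option autoImplicit false
set_option linter.unusedVariables false
set_option linter.unusedSectionVars false
set_option linter.style.haveILetI false
set_option linter.style.longLine false

noncomputable section

namespace Fermat.Agent.S17

open Polynomial Fermat.Agent.S27

section Ext

variable {K Ω L : Type*} [Field K] [Field Ω] [Field L] [Algebra K Ω] [Algebra K L]
  [Algebra Ω L] [IsScalarTower K Ω L]

/-- an element of `V` with residue `0` is a nonunit of every `W` over `V`. -/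
theorem s17de_residue_zero (V : ValuationSubring Ω) (res : ↥V →+* K) (W : ValuationSubring L)
    (hW : W.comap (algebraMap Ω L) = V) (d : Ω) (hd : d ∈ V) (hd' : algebraMap Ω L d ∈ W)
    (h0 : res ⟨d, hd⟩ = 0) : IsLocalRing.residue ↥W ⟨algebraMap Ω L d, hd'⟩ = 0 := by
  rw [IsLocalRing.residue_eq_zero_iff]
  intro hu
  have hd0 : d ≠ 0 := by
    rintro rfl
    have : (⟨algebraMap Ω L 0, hd'⟩ : ↥W) = 0 := Subtype.ext (map_zero _)
    rw [this] at hu
    exact not_isUnit_zero hu
  obtain ⟨y, hy⟩ := hu.exists_right_inv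
  have hy' : algebraMap Ω L d * (y : L) = 1 := congrArg Subtype.val hy
  have hyinv : (y : L) = algebraMap Ω L d⁻¹ := by
    rw [map_inv₀]
    exact eq_inv_of_mul_eq_one_right hy'
  have hinvW : algebraMap Ω L d⁻¹ ∈ W := hyinv ▸ y.2
  have hinvV : d⁻¹ ∈ V := by
    rw [← hW, ValuationSubring.mem_comap]
    exact hinvW
  have h1 : res ⟨d, hd⟩ * res ⟨d⁻¹, hinvV⟩ = 1 := by
    rw [← map_mul]
    have : (⟨d, hd⟩ : ↥V) * ⟨d⁻¹, hinvV⟩ = 1 := Subtype.ext (mul_inv_cancel₀ hd0)
    rw [this, map_one]
  rw [h0, zero_mul] at h1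
  exact zero_ne_one h1

/-- **extension of a `K`-rational place along an algebraic extension.** -/
theorem s17de_ext [IsAlgClosed K] [Algebra.IsAlgebraic Ω L]
    (V : ValuationSubring Ω) (hKV : ∀ c : K, algebraMap K Ω c ∈ V) (res : ↥V →+* K)
    (hresK : ∀ c : K, res ⟨algebraMap K Ω c, hKV c⟩ = c) :
    ∃ (W : ValuationSubring L) (hKW : ∀ c : K, algebraMap K L c ∈ W) (resW : ↥W →+* K),
      (∀ c : K, resW ⟨algebraMap K L c, hKW c⟩ = c) ∧
      W.comap (algebraMap Ω L) = V ∧
      (∀ (a : Ω) (ha : a ∈ V) (ha' : algebraMap Ω L a ∈ W),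
        resW ⟨algebraMap Ω L a, ha'⟩ = res ⟨a, ha⟩) := by
  obtain ⟨W, hW⟩ := s27nm_exists_ext (𝔉 := Ω) (𝔏 := L) V
  have hVW : ∀ a : Ω, a ∈ V → algebraMap Ω L a ∈ W := by
    intro a ha
    rw [← hW, ValuationSubring.mem_comap] at ha
    exact ha
  have hKW : ∀ c : K, algebraMap K L c ∈ W := by
    intro c
    rw [IsScalarTower.algebraMap_apply K Ω L]
    exact hVW _ (hKV c)
  letI : Algebra K ↥W := ((algebraMap K L).codRestrict W.toSubring hKW).toAlgebra
  have hamW : ∀ c : K, algebraMap K ↥W c = ⟨algebraMap K L c, hKW c⟩ := fun c => rfl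
  -- the residue of an element of `V`
  have hkey : ∀ (a : Ω) (ha : a ∈ V) (ha' : algebraMap Ω L a ∈ W),
      IsLocalRing.residue ↥W ⟨algebraMap Ω L a, ha'⟩ =
        algebraMap K (IsLocalRing.ResidueField ↥W) (res ⟨a, ha⟩) := by
    intro a ha ha'
    set c : K := res ⟨a, ha⟩ with hc
    have hd : a - algebraMap K Ω c ∈ V := sub_mem ha (hKV c)
    have hd' : algebraMap Ω L (a - algebraMap K Ω c) ∈ W := hVW _ hd
    have h0 : res ⟨a - algebraMap K Ω c, hd⟩ = 0 := by
      have : (⟨a - algebraMap K Ω c, hd⟩ : ↥V) = ⟨a, ha⟩ - ⟨algebraMap K Ω c, hKV c⟩ := rfl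
      rw [this, map_sub, hresK, ← hc, sub_self]
    have h1 := s17de_residue_zero V res W hW _ hd hd' h0
    have h2 : (⟨algebraMap Ω L (a - algebraMap K Ω c), hd'⟩ : ↥W)
        = ⟨algebraMap Ω L a, ha'⟩ - algebraMap K ↥W c := by
      apply Subtype.ext
      show algebraMap Ω L (a - algebraMap K Ω c) = algebraMap Ω L a - algebraMap K L c
      rw [map_sub, ← IsScalarTower.algebraMap_apply K Ω L]
    rw [h2, map_sub, sub_eq_zero] at h1
    rw [h1]
    rfl
  -- the residue field is algebraic over `K`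
  have halg : Algebra.IsAlgebraic K (IsLocalRing.ResidueField ↥W) := by
    refine ⟨fun z => ?_⟩
    obtain ⟨w, rfl⟩ := IsLocalRing.residue_surjective z
    obtain ⟨p, hp0, hpw⟩ := Algebra.IsAlgebraic.isAlgebraic (R := Ω) (w : L)
    have hne : p.support.Nonempty := by
      rw [Finset.nonempty_iff_ne_empty, Ne, Polynomial.support_eq_empty]
      exact hp0
    obtain ⟨m, hm, hmax⟩ :=
      Finset.exists_max_image p.support (fun j => V.valuation (p.coeff j)) hne
    have ha0 : p.coeff m ≠ 0 := Polynomial.mem_support_iff.1 hm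
    have hb : ∀ j : ℕ, p.coeff j / p.coeff m ∈ V := by
      intro j
      by_cases hj : j ∈ p.support
      · rw [← ValuationSubring.valuation_le_one_iff, map_div₀]
        have hv0 : V.valuation (p.coeff m) ≠ 0 := (Valuation.ne_zero_iff _).2 ha0
        rw [div_le_iff₀ (zero_lt_iff.2 hv0), one_mul]
        exact hmax j hj
      · rw [Polynomial.notMem_support_iff.1 hj, zero_div]
        exact V.zero_mem
    set P : K[X] := ∑ j ∈ p.support, Polynomial.monomial j (res ⟨_, hb j⟩) with hP
    have hPm : P.coeff m = 1 := by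
      rw [hP, Polynomial.finsetSum_coeff]
      simp only [Polynomial.coeff_monomial]
      rw [Finset.sum_ite_eq' p.support m, if_pos hm]
      have : (⟨p.coeff m / p.coeff m, hb m⟩ : ↥V) = 1 := Subtype.ext (div_self ha0)
      rw [this, map_one]
    have hP0 : P ≠ 0 := by
      intro h
      rw [h, Polynomial.coeff_zero] at hPm
      exact zero_ne_one hPm
    refine ⟨P, hP0, ?_⟩
    have hsum : (∑ j ∈ p.support, algebraMap Ω L (p.coeff j / p.coeff m) * (w : L) ^ j) = 0 := by
      have h1 : Polynomial.aeval (w : L) p = ∑ j ∈ p.support, algebraMap Ω L (p.coeff j) * (w : L) ^ j := by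
        rw [Polynomial.aeval_def, Polynomial.eval₂_eq_sum, Polynomial.sum_def]
      have h2 : (∑ j ∈ p.support, algebraMap Ω L (p.coeff j / p.coeff m) * (w : L) ^ j)
          = (algebraMap Ω L (p.coeff m))⁻¹ * ∑ j ∈ p.support, algebraMap Ω L (p.coeff j) * (w : L) ^ j := by
        rw [Finset.mul_sum]
        refine Finset.sum_congr rfl fun j _ => ?_
        rw [map_div₀]
        ring
      rw [h2, ← h1, hpw, mul_zero]
    have hWsum : (∑ j ∈ p.support, (⟨algebraMap Ω L (p.coeff j / p.coeff m), hVW _ (hb j)⟩ : ↥W) * w ^ j) = 0 := by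
      apply Subtype.ext
      have e0 : (((0 : ↥W)) : L) = 0 := rfl
      rw [e0, ← hsum]
      have e1 : ((∑ j ∈ p.support,
          (⟨algebraMap Ω L (p.coeff j / p.coeff m), hVW _ (hb j)⟩ : ↥W) * w ^ j : ↥W) : L)
          = ∑ j ∈ p.support, (((⟨algebraMap Ω L (p.coeff j / p.coeff m), hVW _ (hb j)⟩ : ↥W) * w ^ j
            : ↥W) : L) := map_sum W.subtype _ _
      rw [e1]
      rfl
    have := congrArg (IsLocalRing.residue ↥W) hWsum
    rw [map_sum, map_zero] at this
    rw [hP, map_sum]
    rw [← this]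
    refine Finset.sum_congr rfl fun j _ => ?_
    rw [Polynomial.aeval_monomial, map_mul, map_pow, hkey _ (hb j)]
  have hbij : Function.Bijective (algebraMap K (IsLocalRing.ResidueField ↥W)) :=
    IsAlgClosed.algebraMap_bijective_of_isIntegral
  refine ⟨W, hKW, s17dxResK hbij.2, ?_, hW, ?_⟩
  · intro c
    exact s17dxResK_algebraMap hbij.2 c
  · intro a ha ha'
    show (RingEquiv.ofBijective (algebraMap K (IsLocalRing.ResidueField ↥W))
      ⟨(algebraMap K (IsLocalRing.ResidueField ↥W)).injective, hbij.2⟩).symm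
        (IsLocalRing.residue ↥W ⟨algebraMap Ω L a, ha'⟩) = res ⟨a, ha⟩
    rw [RingEquiv.symm_apply_eq, hkey a ha ha']
    rfl

end Ext

end Fermat.Agent.S17

end
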