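import Mathlib

/-!
# S17 leaf EXT-COUNT (helper38): the number of extensions of a valuation subring

Pure Mathlib.  For a finite field extension `L / K` and a valuation subring `V` of `K`:

* `s17ec_sep`      : pairwise incomparable valuation subrings `W i` of a field (finite family)
                     have separating elements: `b` a unit of `W i` lying in the maximal ideal of
                     every other `W j`.
* `s17ec_linindep` : such elements are `K`-linearly independent as soon as all `W i` contain
                     (the image of) one valuation subring `V` of `K`.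
* `s17ec_incomp`   : `L / K` algebraic: two extensions `W ≤ W'` of the same `V` are equal.
* `s17ec_card_le`  : a finset of extensions of `V` to `L` has at most `[L : K]` elements.
* `s17ec_finite`, `s17ec_ncard_le` : the set of all extensions is finite of cardinality `≤ [L : K]`.
* `s17ec_unique_of_count` : the counting argument of LIFT (at most `n` extensions, `n` translations
                     with pairwise different classes ⇒ the class determines the extension).
-/

namespace Fermat.Agent.S17

open Finset

section GeomSum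

variable {L : Type*} [Field L]

/-- the geometric sum `1 + x + … + x^(k-1)` -/
def s17ecS (x : L) (k : ℕ) : L := ∑ j ∈ Finset.range k, x ^ j

theorem s17ecS_add (x : L) (a b : ℕ) :
    s17ecS x (a + b) = s17ecS x a + x ^ a * s17ecS x b := by
  unfold s17ecS
  rw [Finset.sum_range_add, Finset.mul_sum]
  congr 1
  apply Finset.sum_congr rfl
  intro i _
  rw [pow_add]

theorem s17ecS_one (x : L) : s17ecS x 1 = 1 := by
  simp [s17ecS]

theorem s17ecS_zero (x : L) : s17ecS x 0 = 0 := by
  simp [s17ecS]

variable {Γ₀ : Type*} [LinearOrderedCommGroupWithZero Γ₀] (v : Valuation L Γ₀)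

theorem s17ecS_le_one {x : L} (hx : v x ≤ 1) (k : ℕ) : v (s17ecS x k) ≤ 1 := by
  unfold s17ecS
  apply Valuation.map_sum_le
  intro j _
  rw [Valuation.map_pow]
  exact pow_le_one₀ zero_le hx

/-- `v x < 1`, `k ≥ 1`: the geometric sum is a unit. -/
theorem s17ecS_eq_one_of_lt {x : L} (hx : v x < 1) {k : ℕ} (hk : 1 ≤ k) :
    v (s17ecS x k) = 1 := by
  obtain ⟨m, rfl⟩ : ∃ m, k = 1 + m := ⟨k - 1, by omega⟩
  rw [s17ecS_add, s17ecS_one, pow_one]
  apply Valuation.map_one_add_of_lt
  rw [Valuation.map_mul]
  have h1 : v (s17ecS x m) ≤ 1 := s17ecS_le_one v hx.le m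
  calc v x * v (s17ecS x m) ≤ v x * 1 := mul_le_mul_right h1 _
    _ = v x := mul_one _
    _ < 1 := hx

/-- closure under sums of the set of bad exponents -/
theorem s17ecS_bad_add {x : L} (hx : v x ≤ 1) {a b : ℕ} (ha : v (s17ecS x a) < 1)
    (hb : v (s17ecS x b) < 1) : v (s17ecS x (a + b)) < 1 := by
  rw [s17ecS_add]
  apply Valuation.map_add_lt _ ha
  rw [Valuation.map_mul, Valuation.map_pow]
  calc v x ^ a * v (s17ecS x b) ≤ 1 * v (s17ecS x b) :=
        mul_le_mul_left (pow_le_one₀ zero_le hx) _
    _ = v (s17ecS x b) := one_mul _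
    _ < 1 := hb

theorem s17ecS_bad_mul {x : L} (hx : v x ≤ 1) {d : ℕ} (hd : v (s17ecS x d) < 1) (m : ℕ) :
    v (s17ecS x (m * d)) < 1 := by
  induction m with
  | zero => simp [s17ecS_zero]
  | succ m ih =>
    rw [Nat.succ_mul]
    exact s17ecS_bad_add v hx ih hd

/-- closure under differences of the set of bad exponents (for a unit `x`) -/
theorem s17ecS_bad_sub {x : L} (hx : v x = 1) {a b : ℕ} (ha : v (s17ecS x a) < 1)
    (hab : v (s17ecS x (a + b)) < 1) : v (s17ecS x b) < 1 := by
  have h1 : x ^ a * s17ecS x b = s17ecS x (a + b) - s17ecS x a := by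
    rw [s17ecS_add]; ring
  have h2 : v (x ^ a * s17ecS x b) < 1 := by
    rw [h1]; exact Valuation.map_sub_lt v hab ha
  rwa [Valuation.map_mul, Valuation.map_pow, hx, one_pow, one_mul] at h2

/-- `x ∉` the valuation ring, `k = m + 1`: the geometric sum has the valuation of `x ^ m`. -/
theorem s17ecS_eq_pow_of_gt {x : L} (hx : 1 < v x) (m : ℕ) :
    v (s17ecS x (m + 1)) = v x ^ m := by
  have hS : s17ecS x (m + 1) = s17ecS x m + x ^ m := by
    unfold s17ecS; rw [Finset.sum_range_succ]
  have hne : v x ^ m ≠ 0 := pow_ne_zero _ (ne_of_gt (lt_trans zero_lt_one hx))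
  have hlt : v (s17ecS x m) < v (x ^ m) := by
    rw [Valuation.map_pow]
    unfold s17ecS
    apply Valuation.map_sum_lt v hne
    intro j hj
    rw [Valuation.map_pow]
    exact pow_lt_pow_right₀ hx (Finset.mem_range.1 hj)
  rw [hS, Valuation.map_add_eq_of_lt_right v hlt, Valuation.map_pow]

end GeomSum

section Family

variable {L : Type*} [Field L] {ι : Type*} [Fintype ι]

/-- **Bourbaki's lemma.**  For a finite family of valuation subrings and `x : L` there is `k ≥ 3`
such that the geometric sum `1 + x + … + x^(k-1)` is a unit of every `W i` containing `x`. -/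
theorem s17ec_exists_k (W : ι → ValuationSubring L) (x : L) :
    ∃ k : ℕ, 3 ≤ k ∧ ∀ i, x ∈ W i → (W i).valuation (s17ecS x k) = 1 := by
  classical
  let d : ι → ℕ := fun i =>
    if h : ∃ k : ℕ, 1 ≤ k ∧ (W i).valuation (s17ecS x k) < 1 then h.choose else 1
  have hd1 : ∀ i, 1 ≤ d i := by
    intro i
    by_cases h : ∃ k : ℕ, 1 ≤ k ∧ (W i).valuation (s17ecS x k) < 1
    · simp only [d, dif_pos h]; exact h.choose_spec.1
    · simp only [d, dif_neg h]; exact le_refl 1
  have hD : 1 ≤ ∏ i, d i := by
    apply Nat.one_le_iff_ne_zero.2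
    apply Finset.prod_ne_zero_iff.2
    intro i _
    exact Nat.one_le_iff_ne_zero.1 (hd1 i)
  refine ⟨2 * (∏ i, d i) + 1, by omega, ?_⟩
  intro i hxi
  have hx1 : (W i).valuation x ≤ 1 := ((W i).valuation_le_one_iff x).2 hxi
  rcases lt_or_eq_of_le hx1 with hlt | heq
  · exact s17ecS_eq_one_of_lt _ hlt (by omega)
  · by_contra hne
    have hle := s17ecS_le_one (W i).valuation hx1 (2 * (∏ i, d i) + 1)
    have hlt : (W i).valuation (s17ecS x (2 * (∏ i, d i) + 1)) < 1 := lt_of_le_of_ne hle hne
    have h : ∃ k : ℕ, 1 ≤ k ∧ (W i).valuation (s17ecS x k) < 1 := ⟨_, by omega, hlt⟩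
    have hdi : (W i).valuation (s17ecS x (d i)) < 1 := by
      simp only [d, dif_pos h]; exact h.choose_spec.2
    obtain ⟨m, hm⟩ : d i ∣ 2 * ∏ i, d i :=
      Dvd.dvd.mul_left (Finset.dvd_prod_of_mem d (Finset.mem_univ i)) 2
    have h2D : (W i).valuation (s17ecS x (2 * ∏ i, d i)) < 1 := by
      rw [hm, mul_comm]
      exact s17ecS_bad_mul _ hx1 hdi m
    have h1 := s17ecS_bad_sub (W i).valuation heq h2D hlt
    rw [s17ecS_one, Valuation.map_one] at h1
    exact lt_irrefl _ h1

/-- For a finite family of valuation subrings and `x : L` there is `t : L` lying in every `W i`,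
a unit of `W i` when `x ∈ W i`, and in the maximal ideal of `W i` when `x ∉ W i`. -/
theorem s17ec_exists_t (W : ι → ValuationSubring L) (x : L) :
    ∃ t : L, (∀ i, x ∈ W i → (W i).valuation t = 1) ∧
      (∀ i, x ∉ W i → (W i).valuation t < 1) ∧ (∀ i, (W i).valuation (x * t) ≤ 1) := by
  obtain ⟨k, hk3, hk⟩ := s17ec_exists_k W x
  obtain ⟨m, rfl⟩ : ∃ m, k = m + 1 := ⟨k - 1, by omega⟩
  have hgt : ∀ i, x ∉ W i → 1 < (W i).valuation x := by
    intro i hxi
    by_contra hcon
    exact hxi (((W i).valuation_le_one_iff x).1 (not_lt.1 hcon))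
  refine ⟨(s17ecS x (m + 1))⁻¹, ?_, ?_, ?_⟩
  · intro i hxi
    rw [map_inv₀, hk i hxi, inv_one]
  · intro i hxi
    have h1 := hgt i hxi
    rw [map_inv₀, s17ecS_eq_pow_of_gt _ h1]
    exact inv_lt_one_of_one_lt₀ (one_lt_pow₀ h1 (by omega))
  · intro i
    by_cases hxi : x ∈ W i
    · rw [Valuation.map_mul, map_inv₀, hk i hxi, inv_one, mul_one]
      exact ((W i).valuation_le_one_iff x).2 hxi
    · have h1 := hgt i hxi
      rw [Valuation.map_mul, map_inv₀, s17ecS_eq_pow_of_gt _ h1]
      have hpos : (0 : (W i).ValueGroup) < (W i).valuation x ^ m :=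
        lt_trans zero_lt_one (one_lt_pow₀ h1 (by omega))
      rw [← div_eq_mul_inv, div_le_one₀ hpos]
      exact le_self_pow₀ h1.le (by omega)

/-- **Separating elements** for pairwise incomparable valuation subrings. -/
theorem s17ec_sep (W : ι → ValuationSubring L) (hinc : ∀ i j, i ≠ j → ¬ (W i ≤ W j)) (i : ι) :
    ∃ b : L, (W i).valuation b = 1 ∧ ∀ j, j ≠ i → (W j).valuation b < 1 := by
  classical
  have key : ∀ s : Finset ι, i ∉ s →
      ∃ b : L, (W i).valuation b = 1 ∧ (∀ l, (W l).valuation b ≤ 1) ∧
        ∀ j ∈ s, (W j).valuation b < 1 := by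
    intro s
    induction s using Finset.induction_on with
    | empty =>
      intro _
      exact ⟨1, Valuation.map_one _, fun l => by rw [Valuation.map_one], by simp⟩
    | insert j s hjs ih =>
      intro hi
      have hij : i ≠ j := fun h => hi (h ▸ Finset.mem_insert_self _ _)
      have his : i ∉ s := fun h => hi (Finset.mem_insert_of_mem h)
      obtain ⟨b, hb1, hb2, hb3⟩ := ih his
      obtain ⟨x, hxi, hxj⟩ := SetLike.not_le_iff_exists.1 (hinc i j hij)
      obtain ⟨t, ht1, ht2, -⟩ := s17ec_exists_t W x
      have htle : ∀ l, (W l).valuation t ≤ 1 := by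
        intro l
        by_cases hl : x ∈ W l
        · exact (ht1 l hl).le
        · exact (ht2 l hl).le
      refine ⟨b * t, ?_, ?_, ?_⟩
      · rw [Valuation.map_mul, hb1, ht1 i hxi, one_mul]
      · intro l
        rw [Valuation.map_mul]
        calc (W l).valuation b * (W l).valuation t ≤ 1 * (W l).valuation t :=
              mul_le_mul_left (hb2 l) _
          _ = (W l).valuation t := one_mul _
          _ ≤ 1 := htle l
      · intro l hl
        rw [Valuation.map_mul]
        rcases Finset.mem_insert.1 hl with rfl | hl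
        · calc (W l).valuation b * (W l).valuation t ≤ 1 * (W l).valuation t :=
                mul_le_mul_left (hb2 l) _
            _ = (W l).valuation t := one_mul _
            _ < 1 := ht2 l hxj
        · calc (W l).valuation b * (W l).valuation t ≤ (W l).valuation b * 1 :=
                mul_le_mul_right (htle l) _
            _ = (W l).valuation b := mul_one _
            _ < 1 := hb3 l hl
  obtain ⟨b, hb1, -, hb3⟩ := key (Finset.univ.erase i) (Finset.notMem_erase i _)
  exact ⟨b, hb1, fun j hj => hb3 j (Finset.mem_erase.2 ⟨hj, Finset.mem_univ j⟩)⟩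

end Family

section Count

variable {K L : Type*} [Field K] [Field L] [Algebra K L]

/-- Separating elements of valuation subrings of `L` containing the image of a valuation subring
`V` of `K` are `K`-linearly independent. -/
theorem s17ec_linindep {ι : Type*} (V : ValuationSubring K) (W : ι → ValuationSubring L)
    (hV : ∀ i, ∀ a ∈ V, algebraMap K L a ∈ W i) (b : ι → L)
    (hb1 : ∀ i, (W i).valuation (b i) = 1)
    (hb2 : ∀ i j, j ≠ i → (W j).valuation (b i) < 1) :
    LinearIndependent K b := by
  classical
  rw [linearIndependent_iff']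
  intro s g hsum i his
  by_contra hgi
  obtain ⟨i0, hi0s, hi0⟩ := Finset.exists_max_image s (fun j => V.valuation (g j)) ⟨i, his⟩
  have hg0 : g i0 ≠ 0 := by
    intro h0
    have := hi0 i his
    simp only [h0, Valuation.map_zero] at this
    exact hgi ((Valuation.zero_iff _).1 (le_antisymm this zero_le))
  -- the coefficients `c j = g j / g i0` lie in `V`
  have hc : ∀ j ∈ s, algebraMap K L (g j / g i0) ∈ W i0 := by
    intro j hj
    apply hV
    rw [← V.valuation_le_one_iff, map_div₀]
    exact (div_le_one₀ (zero_lt_iff.2 ((Valuation.ne_zero_iff _).2 hg0))).2 (hi0 j hj)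
  have hrel : ∑ j ∈ s, algebraMap K L (g j / g i0) * b j = 0 := by
    have h1 : ∑ j ∈ s, algebraMap K L (g j / g i0) * b j
        = algebraMap K L (g i0)⁻¹ * ∑ j ∈ s, g j • b j := by
      rw [Finset.mul_sum]
      apply Finset.sum_congr rfl
      intro j _
      rw [Algebra.smul_def, div_eq_mul_inv, map_mul]
      ring
    rw [h1, hsum, mul_zero]
  rw [← Finset.add_sum_erase s _ hi0s, div_self hg0, map_one, one_mul] at hrel
  have hlt : (W i0).valuation (∑ j ∈ s.erase i0, algebraMap K L (g j / g i0) * b j) < 1 := by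
    apply Valuation.map_sum_lt _ one_ne_zero
    intro j hj
    rw [Valuation.map_mul]
    have hj' := Finset.mem_erase.1 hj
    calc (W i0).valuation (algebraMap K L (g j / g i0)) * (W i0).valuation (b j)
        ≤ 1 * (W i0).valuation (b j) :=
          mul_le_mul_left (((W i0).valuation_le_one_iff _).2 (hc j hj'.2)) _
      _ = (W i0).valuation (b j) := one_mul _
      _ < 1 := hb2 j i0 (Ne.symm hj'.1)
  have h2 : b i0 = -∑ j ∈ s.erase i0, algebraMap K L (g j / g i0) * b j :=
    eq_neg_of_add_eq_zero_left hrel
  have h3 := hb1 i0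
  rw [h2, Valuation.map_neg] at h3
  exact absurd h3 (ne_of_lt hlt)

/-- A finite family of pairwise incomparable valuation subrings of `L` containing the image of
a valuation subring of `K` has at most `[L : K]` members. -/
theorem s17ec_card_le_of_incomp [FiniteDimensional K L] {ι : Type*} [Fintype ι]
    (V : ValuationSubring K) (W : ι → ValuationSubring L)
    (hV : ∀ i, ∀ a ∈ V, algebraMap K L a ∈ W i)
    (hinc : ∀ i j, i ≠ j → ¬ (W i ≤ W j)) :
    Fintype.card ι ≤ Module.finrank K L := by
  classical
  choose b hb1 hb2 using fun i => s17ec_sep W hinc i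
  exact (s17ec_linindep V W hV b hb1 (fun i j hj => hb2 i j hj)).fintype_card_le_finrank

/-- the maximal ideal grows when the valuation ring shrinks -/
theorem s17ec_lt_one_of_le {W W' : ValuationSubring L} (h : W ≤ W') {z : L}
    (hz : W'.valuation z < 1) : W.valuation z < 1 := by
  by_cases hz0 : z = 0
  · rw [hz0, Valuation.map_zero]; exact zero_lt_one
  · by_contra hcon
    have h1 : 1 ≤ W.valuation z := not_lt.1 hcon
    have h2 : W.valuation z⁻¹ ≤ 1 := by
      rw [map_inv₀]
      exact inv_le_one_of_one_le₀ h1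
    have h3 : z⁻¹ ∈ W' := h ((W.valuation_le_one_iff _).1 h2)
    have h4 : W'.valuation z⁻¹ ≤ 1 := (W'.valuation_le_one_iff _).2 h3
    rw [map_inv₀] at h4
    have h5 : 1 ≤ W'.valuation z := by
      have hpos : (0 : W'.ValueGroup) < W'.valuation z :=
        zero_lt_iff.2 ((Valuation.ne_zero_iff _).2 hz0)
      exact (inv_le_one₀ hpos).1 h4
    exact absurd hz (not_lt.2 h5)

/-- **Extensions of a valuation ring along an algebraic extension are incomparable.** -/
theorem s17ec_incomp [Algebra.IsAlgebraic K L] {W W' : ValuationSubring L} (h : W ≤ W')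
    (hc : W'.comap (algebraMap K L) ≤ W.comap (algebraMap K L)) : W' ≤ W := by
  classical
  intro x hx'
  by_contra hx
  have hxgt : 1 < W.valuation x := by
    by_contra hcon
    exact hx ((W.valuation_le_one_iff x).1 (not_lt.1 hcon))
  have hx0 : x ≠ 0 := by
    rintro rfl
    exact hx (zero_mem _)
  have hylt : W.valuation x⁻¹ < 1 := by
    rw [map_inv₀]; exact inv_lt_one_of_one_lt₀ hxgt
  have hx'le : W'.valuation x ≤ 1 := (W'.valuation_le_one_iff x).2 hx'
  -- the three transfer facts from `V = W ∩ K` to `W`, `W'`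
  have f1 : ∀ a : K, (W.comap (algebraMap K L)).valuation a ≤ 1 →
      W.valuation (algebraMap K L a) ≤ 1 := by
    intro a ha
    exact (W.valuation_le_one_iff _).2
      (ValuationSubring.mem_comap.1 (((W.comap (algebraMap K L)).valuation_le_one_iff a).1 ha))
  have f2 : ∀ a : K, (W.comap (algebraMap K L)).valuation a = 1 →
      W.valuation (algebraMap K L a) = 1 := by
    intro a ha
    apply le_antisymm (f1 a ha.le)
    have h1 : (W.comap (algebraMap K L)).valuation a⁻¹ ≤ 1 := by
      rw [map_inv₀, ha, inv_one]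
    have h2 := f1 a⁻¹ h1
    rw [map_inv₀, map_inv₀] at h2
    have ha0 : algebraMap K L a ≠ 0 := by
      intro h0
      have : a = 0 := (map_eq_zero (algebraMap K L)).1 h0
      rw [this, Valuation.map_zero] at ha
      exact zero_ne_one ha
    exact (inv_le_one₀ (zero_lt_iff.2 ((Valuation.ne_zero_iff _).2 ha0))).1 h2
  have f3 : ∀ a : K, (W.comap (algebraMap K L)).valuation a < 1 →
      W.valuation (algebraMap K L a) < 1 := by
    intro a ha
    apply s17ec_lt_one_of_le h
    by_cases ha0 : a = 0
    · rw [ha0, map_zero, Valuation.map_zero]; exact zero_lt_one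
    · by_contra hcon
      have h1 : 1 ≤ W'.valuation (algebraMap K L a) := not_lt.1 hcon
      have h2 : W'.valuation (algebraMap K L a⁻¹) ≤ 1 := by
        rw [map_inv₀, map_inv₀]
        exact inv_le_one_of_one_le₀ h1
      have h3 : a⁻¹ ∈ W.comap (algebraMap K L) :=
        hc (ValuationSubring.mem_comap.2 ((W'.valuation_le_one_iff _).1 h2))
      have h4 := ((W.comap (algebraMap K L)).valuation_le_one_iff _).2 h3
      rw [map_inv₀] at h4
      have h5 : 1 ≤ (W.comap (algebraMap K L)).valuation a :=
        (inv_le_one₀ (zero_lt_iff.2 ((Valuation.ne_zero_iff _).2 ha0))).1 h4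
      exact absurd ha (not_lt.2 h5)
  -- an algebraic relation for `x`
  obtain ⟨p, hp0, hpx⟩ := Algebra.IsAlgebraic.isAlgebraic (R := K) x
  rw [Polynomial.aeval_eq_sum_range] at hpx
  obtain ⟨m, hm, hmmax⟩ := Finset.exists_max_image (Finset.range (p.natDegree + 1))
    (fun j => (W.comap (algebraMap K L)).valuation (p.coeff j)) ⟨0, by simp⟩
  have ham : p.coeff m ≠ 0 := by
    intro h0
    have h1 := hmmax p.natDegree (Finset.self_mem_range_succ _)
    simp only [h0, Valuation.map_zero] at h1
    have h2 : p.coeff p.natDegree = 0 := (Valuation.zero_iff _).1 (le_antisymm h1 zero_le)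
    exact hp0 (Polynomial.leadingCoeff_eq_zero.1 h2)
  have hcV : ∀ j ∈ Finset.range (p.natDegree + 1),
      (W.comap (algebraMap K L)).valuation (p.coeff j / p.coeff m) ≤ 1 := by
    intro j hj
    rw [map_div₀]
    exact (div_le_one₀ (zero_lt_iff.2 ((Valuation.ne_zero_iff _).2 ham))).2 (hmmax j hj)
  have hrel : ∑ j ∈ Finset.range (p.natDegree + 1),
      algebraMap K L (p.coeff j / p.coeff m) * x ^ j = 0 := by
    have h1 : ∑ j ∈ Finset.range (p.natDegree + 1),
        algebraMap K L (p.coeff j / p.coeff m) * x ^ j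
        = algebraMap K L (p.coeff m)⁻¹ *
          ∑ j ∈ Finset.range (p.natDegree + 1), p.coeff j • x ^ j := by
      rw [Finset.mul_sum]
      apply Finset.sum_congr rfl
      intro j _
      rw [Algebra.smul_def, div_eq_mul_inv, map_mul]
      ring
    rw [h1, hpx, mul_zero]
  -- the largest index with a unit coefficient
  have hT : ((Finset.range (p.natDegree + 1)).filter
      (fun j => (W.comap (algebraMap K L)).valuation (p.coeff j / p.coeff m) = 1)).Nonempty :=
    ⟨m, Finset.mem_filter.2 ⟨hm, by rw [div_self ham, Valuation.map_one]⟩⟩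
  obtain ⟨J, hJT, hJmax⟩ : ∃ J ∈ (Finset.range (p.natDegree + 1)).filter
      (fun j => (W.comap (algebraMap K L)).valuation (p.coeff j / p.coeff m) = 1),
      ∀ j ∈ (Finset.range (p.natDegree + 1)).filter
        (fun j => (W.comap (algebraMap K L)).valuation (p.coeff j / p.coeff m) = 1), j ≤ J :=
    ⟨_, Finset.max'_mem _ hT, fun j hj => Finset.le_max' _ j hj⟩
  obtain ⟨hJr, hJ1⟩ := Finset.mem_filter.1 hJT
  have hJlt : ∀ j ∈ Finset.range (p.natDegree + 1), J < j →
      (W.comap (algebraMap K L)).valuation (p.coeff j / p.coeff m) < 1 := by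
    intro j hj hJj
    rcases lt_or_eq_of_le (hcV j hj) with h1 | h1
    · exact h1
    · exact absurd (hJmax j (Finset.mem_filter.2 ⟨hj, h1⟩)) (not_le.2 hJj)
  have hrel2 : ∑ j ∈ Finset.range (p.natDegree + 1),
      algebraMap K L (p.coeff j / p.coeff m) * x ^ j * x⁻¹ ^ J = 0 := by
    rw [← Finset.sum_mul, hrel, zero_mul]
  rw [← Finset.add_sum_erase _ _ hJr] at hrel2
  have hpowJ : x ^ J * x⁻¹ ^ J = 1 := by
    rw [← mul_pow, mul_inv_cancel₀ hx0, one_pow]
  have hterm : W.valuation (algebraMap K L (p.coeff J / p.coeff m) * x ^ J * x⁻¹ ^ J) = 1 := by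
    rw [mul_assoc, hpowJ, mul_one]
    exact f2 _ hJ1
  have hrest : W.valuation (∑ j ∈ (Finset.range (p.natDegree + 1)).erase J,
      algebraMap K L (p.coeff j / p.coeff m) * x ^ j * x⁻¹ ^ J) < 1 := by
    apply Valuation.map_sum_lt _ one_ne_zero
    intro j hj
    obtain ⟨hjJ, hjr⟩ := Finset.mem_erase.1 hj
    rcases lt_or_gt_of_ne hjJ with hlt | hgt
    · -- `j < J`: the term is `c_j * (x⁻¹)^(J - j)`
      have e1 : x ^ j * x⁻¹ ^ J = x⁻¹ ^ (J - j) := by
        rw [pow_sub₀ x⁻¹ (inv_ne_zero hx0) hlt.le, inv_pow, inv_pow, inv_inv, mul_comm]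
      rw [mul_assoc, e1, Valuation.map_mul, Valuation.map_pow]
      calc W.valuation (algebraMap K L (p.coeff j / p.coeff m)) * W.valuation x⁻¹ ^ (J - j)
          ≤ 1 * W.valuation x⁻¹ ^ (J - j) := mul_le_mul_left (f1 _ (hcV j hjr)) _
        _ = W.valuation x⁻¹ ^ (J - j) := one_mul _
        _ < 1 := pow_lt_one₀ zero_le hylt (by omega)
    · -- `J < j`: the term is `c_j * x^(j - J)` with `c_j` in the maximal ideal of `V`
      have e1 : x ^ j * x⁻¹ ^ J = x ^ (j - J) := by
        rw [pow_sub₀ x hx0 hgt.le, inv_pow]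
      rw [mul_assoc, e1]
      apply s17ec_lt_one_of_le h
      rw [Valuation.map_mul, Valuation.map_pow]
      have h1 : W'.valuation (algebraMap K L (p.coeff j / p.coeff m)) < 1 := by
        by_cases ha0 : p.coeff j / p.coeff m = 0
        · rw [ha0, map_zero, Valuation.map_zero]; exact zero_lt_one
        · by_contra hcon
          have h1 : 1 ≤ W'.valuation (algebraMap K L (p.coeff j / p.coeff m)) := not_lt.1 hcon
          have h2 : W'.valuation (algebraMap K L (p.coeff j / p.coeff m)⁻¹) ≤ 1 := by
            rw [map_inv₀, map_inv₀]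
            exact inv_le_one_of_one_le₀ h1
          have h3 : (p.coeff j / p.coeff m)⁻¹ ∈ W.comap (algebraMap K L) :=
            hc (ValuationSubring.mem_comap.2 ((W'.valuation_le_one_iff _).1 h2))
          have h4 := ((W.comap (algebraMap K L)).valuation_le_one_iff _).2 h3
          rw [map_inv₀] at h4
          have h5 : 1 ≤ (W.comap (algebraMap K L)).valuation (p.coeff j / p.coeff m) :=
            (inv_le_one₀ (zero_lt_iff.2 ((Valuation.ne_zero_iff _).2 ha0))).1 h4
          exact absurd (hJlt j hjr hgt) (not_lt.2 h5)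
      calc W'.valuation (algebraMap K L (p.coeff j / p.coeff m)) * W'.valuation x ^ (j - J)
          ≤ W'.valuation (algebraMap K L (p.coeff j / p.coeff m)) * 1 :=
            mul_le_mul_right (pow_le_one₀ zero_le hx'le) _
        _ = W'.valuation (algebraMap K L (p.coeff j / p.coeff m)) := mul_one _
        _ < 1 := h1
  have hfin := Valuation.map_add_eq_of_lt_left W.valuation
    (x := algebraMap K L (p.coeff J / p.coeff m) * x ^ J * x⁻¹ ^ J)
    (y := ∑ j ∈ (Finset.range (p.natDegree + 1)).erase J,
      algebraMap K L (p.coeff j / p.coeff m) * x ^ j * x⁻¹ ^ J) (by rw [hterm]; exact hrest)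
  rw [hrel2, Valuation.map_zero, hterm] at hfin
  exact zero_ne_one hfin

/-- **EXT-COUNT.**  A finset of extensions of `V` to the finite extension `L` of `K` has at most
`[L : K]` elements. -/
theorem s17ec_card_le [FiniteDimensional K L] (V : ValuationSubring K)
    (S : Finset (ValuationSubring L)) (hS : ∀ W ∈ S, W.comap (algebraMap K L) = V) :
    S.card ≤ Module.finrank K L := by
  classical
  have key := s17ec_card_le_of_incomp V (fun i : S => i.1)
    (fun i a ha => by
      have h1 := hS i.1 i.2
      rw [← h1] at ha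
      exact ValuationSubring.mem_comap.1 ha)
    (fun i j hij hle => hij (Subtype.ext (le_antisymm hle
      (s17ec_incomp (K := K) hle (by rw [hS i.1 i.2, hS j.1 j.2])))))
  rwa [Fintype.card_coe] at key

/-- The set of extensions of `V` to a finite extension is finite. -/
theorem s17ec_finite [FiniteDimensional K L] (V : ValuationSubring K) :
    {W : ValuationSubring L | W.comap (algebraMap K L) = V}.Finite := by
  by_contra hinf
  obtain ⟨t, hts, htc⟩ :=
    Set.Infinite.exists_subset_card_eq (Set.not_finite.1 hinf) (Module.finrank K L + 1)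
  have := s17ec_card_le V t (fun W hW => hts hW)
  omega

/-- The number of extensions of `V` to a finite extension is at most the degree. -/
theorem s17ec_ncard_le [FiniteDimensional K L] (V : ValuationSubring K) :
    {W : ValuationSubring L | W.comap (algebraMap K L) = V}.ncard ≤ Module.finrank K L := by
  rw [Set.ncard_eq_toFinset_card _ (s17ec_finite V)]
  apply s17ec_card_le V
  intro W hW
  exact (s17ec_finite V).mem_toFinset.1 hW

end Count

section Hom

variable {K L : Type*} [Field K] [Field L]

/-- EXT-COUNT for a field embedding `ψ : K →+* L` (no `Algebra` instance needed). -/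
theorem s17ec_card_le_hom (ψ : K →+* L)
    (hfin : letI := ψ.toAlgebra; FiniteDimensional K L) (V : ValuationSubring K)
    (S : Finset (ValuationSubring L)) (hS : ∀ W ∈ S, W.comap ψ = V) :
    S.card ≤ (letI := ψ.toAlgebra; Module.finrank K L) := by
  letI := ψ.toAlgebra
  haveI := hfin
  exact s17ec_card_le V S hS

theorem s17ec_finite_hom (ψ : K →+* L)
    (hfin : letI := ψ.toAlgebra; FiniteDimensional K L) (V : ValuationSubring K) :
    {W : ValuationSubring L | W.comap ψ = V}.Finite := by
  letI := ψ.toAlgebra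
  haveI := hfin
  exact s17ec_finite V

theorem s17ec_ncard_le_hom (ψ : K →+* L)
    (hfin : letI := ψ.toAlgebra; FiniteDimensional K L) (V : ValuationSubring K) :
    {W : ValuationSubring L | W.comap ψ = V}.ncard ≤
      (letI := ψ.toAlgebra; Module.finrank K L) := by
  letI := ψ.toAlgebra
  haveI := hfin
  exact s17ec_ncard_le V

end Hom

section Lift

/-- **The counting argument of LIFT.**  `Ext` a finite set with at most `#T` elements, `T` acting
on `Ext` and shifting the class `cl` by an injective `τ : T → G`: the class determines the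
element of `Ext`. -/
theorem s17ec_unique_of_count {E T G : Type*} [AddCommGroup G] [Fintype T]
    (Ext : Set E) (hfin : Ext.Finite) (hcard : Ext.ncard ≤ Fintype.card T)
    (act : T → E → E) (hact : ∀ t e, e ∈ Ext → act t e ∈ Ext)
    (cl : E → G) (τ : T → G) (hτ : Function.Injective τ)
    (hcl : ∀ t e, e ∈ Ext → cl (act t e) = cl e + τ t)
    {e e' : E} (he : e ∈ Ext) (he' : e' ∈ Ext) (h : cl e = cl e') : e = e' := by
  classical
  have hinj : Function.Injective (fun t => act t e) := by
    intro t t' htt
    apply hτ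
    have h1 := hcl t e he
    have h2 := hcl t' e he
    have h3 : act t e = act t' e := htt
    rw [h3, h2] at h1
    exact (add_left_cancel h1).symm
  have hsub : Set.range (fun t => act t e) ⊆ Ext := by
    rintro _ ⟨t, rfl⟩
    exact hact t e he
  have hrc : (Set.range (fun t => act t e)).ncard = Fintype.card T := by
    rw [← Set.image_univ, Set.ncard_image_of_injective _ hinj, Set.ncard_univ, Nat.card_eq_fintype_card]
  have heq : Set.range (fun t => act t e) = Ext :=
    Set.eq_of_subset_of_ncard_le hsub (by rw [hrc]; exact hcard) hfin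
  obtain ⟨t, ht⟩ : e ∈ Set.range (fun t => act t e) := by rw [heq]; exact he
  obtain ⟨t', ht'⟩ : e' ∈ Set.range (fun t => act t e) := by rw [heq]; exact he'
  have h1 := hcl t e he
  have h2 := hcl t' e he
  have e1 : act t e = e := ht
  have e2 : act t' e = e' := ht'
  rw [e1] at h1
  rw [e2, ← h] at h2
  have h3 : τ t = τ t' := by
    have a1 : τ t = 0 := by
      have := h1
      exact (add_eq_left.1 this.symm)
    have a2 : τ t' = 0 := by
      have := h2
      exact (add_eq_left.1 this.symm)
    rw [a1, a2]
  have h4 := hτ h3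
  rw [← e1, ← e2, h4]

/-- existence half of LIFT: the translations reach every class in the coset. -/
theorem s17ec_exists_of_act {E T G : Type*} [AddCommGroup G]
    (Ext : Set E) (act : T → E → E) (hact : ∀ t e, e ∈ Ext → act t e ∈ Ext)
    (cl : E → G) (τ : T → G) (hcl : ∀ t e, e ∈ Ext → cl (act t e) = cl e + τ t)
    {e₀ : E} (he₀ : e₀ ∈ Ext) {x : G} (hx : ∃ t, τ t = x - cl e₀) :
    ∃ e ∈ Ext, cl e = x := by
  obtain ⟨t, ht⟩ := hx
  exact ⟨act t e₀, hact t e₀ he₀, by rw [hcl t e₀ he₀, ht]; abel⟩

end Lift

end Fermat.Agent.S17
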