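/-
S17 sprint, layer H, Northcott (A-N), step (N4) **FINITENESS OF THE MOVING FAMILY** (helper31).
Pure Mathlib.

A family `f : I → L` of elements of a field `L ⊇ K` whose `K`-span is finite-dimensional has a
FINITE subfamily `T` such that for every valuation subring `W ⊇ K` of `L` the minimal valuation of
the whole family is attained on `T`:

* `s17fgd_exists_min`     : a finite family which is not `0` has a member of minimal valuation;
* `s17fgd_span_div_mem`   : if `f i / f j ∈ W` for `i ∈ T`, then `g / f j ∈ W` for `g` in the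
                            `K`-span of `f '' T`;
* `s17fgd_exists_finset`  : the finite subfamily `T`;
* `s17fgd_good_transfer`  : MOVING with finitely many members: if for every `W ⊇ K` SOME member
  `f i ≠ 0` of the family dominates a set `M` (`m / f i ∈ W` for `m ∈ M`), then for every `W` a
  member with index in the finite set `T` does.
-/
import Mathlib

set_option autoImplicit false

namespace Fermat.Agent.S17

variable {K L : Type*} [Field K] [Field L] [Algebra K L]

/-- a finite family which is not zero has a member of minimal valuation. -/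
theorem s17fgd_exists_min (W : ValuationSubring L) {J : Type*} (T : Finset J) (f : J → L)
    (h : ∃ j ∈ T, f j ≠ 0) :
    ∃ j ∈ T, f j ≠ 0 ∧ ∀ i ∈ T, f i / f j ∈ W := by
  obtain ⟨j₀, hj₀, hj₀0⟩ := h
  obtain ⟨j, hjT, hj⟩ := Finset.exists_max_image T (fun j => W.valuation (f j)) ⟨j₀, hj₀⟩
  have hj0 : f j ≠ 0 := by
    intro h0
    have h1 := hj j₀ hj₀
    simp only [h0, map_zero] at h1
    exact hj₀0 ((map_eq_zero W.valuation).1 (le_antisymm h1 zero_le))
  refine ⟨j, hjT, hj0, fun i hi => ?_⟩
  rw [← ValuationSubring.valuation_le_one_iff, map_div₀]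
  have hv : W.valuation (f j) ≠ 0 := (map_ne_zero W.valuation).2 hj0
  rw [div_le_one₀ (lt_of_le_of_ne zero_le (Ne.symm hv))]
  exact hj i hi

/-- the span of a family dominated by `f j` is dominated by `f j`. -/
theorem s17fgd_span_div_mem (W : ValuationSubring L) (hKW : ∀ a : K, algebraMap K L a ∈ W)
    (S : Set L) (y : L) (hy : ∀ x ∈ S, x / y ∈ W) (g : L) (hg : g ∈ Submodule.span K S) :
    g / y ∈ W := by
  induction hg using Submodule.span_induction with
  | mem x hx => exact hy x hx
  | zero => rw [zero_div]; exact W.zero_mem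
  | add x z _ _ hx hz => rw [add_div]; exact W.add_mem _ _ hx hz
  | smul a x _ hx =>
    rw [Algebra.smul_def, mul_div_assoc]
    exact W.mul_mem _ _ (hKW a) hx

/-- **the finite subfamily**: the minimal valuation of a family with finite-dimensional span is
attained on a finite subfamily, for all valuation subrings `W ⊇ K` at once. -/
theorem s17fgd_exists_finset {I : Type*} (f : I → L)
    (hfin : (Submodule.span K (Set.range f)).FG) :
    ∃ T : Finset I, ∀ W : ValuationSubring L, (∀ a : K, algebraMap K L a ∈ W) →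
      (∃ i, f i ≠ 0) → ∃ j ∈ T, f j ≠ 0 ∧ ∀ i, f i / f j ∈ W := by
  classical
  obtain ⟨s', hs', hspan⟩ := (Submodule.fg_span_iff_fg_span_finset_subset (Set.range f)).1 hfin
  -- indices of the members of `s'`
  have hch : ∀ y : {y // y ∈ s'}, ∃ i, f i = y.1 := fun y => hs' y.2
  choose idx hidx using hch
  refine ⟨s'.attach.image idx, fun W hKW hne => ?_⟩
  have hT : ∃ j ∈ s'.attach.image idx, f j ≠ 0 := by
    by_contra hcon
    simp only [not_exists, not_and, not_not] at hcon
    obtain ⟨i, hi⟩ := hne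
    apply hi
    have h1 : f i ∈ Submodule.span K (Set.range f) := Submodule.subset_span ⟨i, rfl⟩
    rw [hspan] at h1
    have h2 : (s' : Set L) ⊆ {0} := by
      intro y hy
      have h3 := hcon (idx ⟨y, hy⟩) (Finset.mem_image.2 ⟨⟨y, hy⟩, Finset.mem_attach _ _, rfl⟩)
      rw [hidx] at h3
      exact h3
    have h4 : Submodule.span K (s' : Set L) ≤ ⊥ := by
      rw [Submodule.span_le]
      intro y hy
      have := h2 hy
      simpa using this
    exact (Submodule.mem_bot K).1 (h4 h1)
  obtain ⟨j, hjT, hj0, hj⟩ := s17fgd_exists_min W (s'.attach.image idx) f hT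
  refine ⟨j, hjT, hj0, fun i => ?_⟩
  have h1 : f i ∈ Submodule.span K (s' : Set L) := by
    rw [← hspan]
    exact Submodule.subset_span ⟨i, rfl⟩
  refine s17fgd_span_div_mem W hKW (s' : Set L) (f j) (fun y hy => ?_) (f i) h1
  have := hj (idx ⟨y, hy⟩) (Finset.mem_image.2 ⟨⟨y, hy⟩, Finset.mem_attach _ _, rfl⟩)
  rwa [hidx] at this

/-- the same for a family inside a finite-dimensional subspace. -/
theorem s17fgd_exists_finset_of_le {I : Type*} (f : I → L) (V : Submodule K L)
    [Module.Finite K V] (hf : ∀ i, f i ∈ V) :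
    ∃ T : Finset I, ∀ W : ValuationSubring L, (∀ a : K, algebraMap K L a ∈ W) →
      (∃ i, f i ≠ 0) → ∃ j ∈ T, f j ≠ 0 ∧ ∀ i, f i / f j ∈ W := by
  refine s17fgd_exists_finset f ?_
  have hN : IsNoetherian K V := inferInstance
  have hle : Submodule.span K (Set.range f) ≤ V := by
    rw [Submodule.span_le]
    rintro _ ⟨i, rfl⟩
    exact hf i
  exact Submodule.FG.of_le (Module.Finite.iff_fg.1 inferInstance) hle

/-- **MOVING with finitely many members**: if for every `W ⊇ K` some nonzero member of the family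
dominates the set `M`, then for every `W` a member with index in a FIXED finite set does. -/
theorem s17fgd_good_transfer {I : Type*} (f : I → L) (V : Submodule K L)
    [Module.Finite K V] (hf : ∀ i, f i ∈ V) (M : Set L)
    (hgood : ∀ W : ValuationSubring L, (∀ a : K, algebraMap K L a ∈ W) →
      ∃ i, f i ≠ 0 ∧ ∀ m ∈ M, m / f i ∈ W) :
    ∃ T : Finset I, ∀ W : ValuationSubring L, (∀ a : K, algebraMap K L a ∈ W) →
      ∃ j ∈ T, f j ≠ 0 ∧ (∀ i, f i / f j ∈ W) ∧ ∀ m ∈ M, m / f j ∈ W := by
  obtain ⟨T, hT⟩ := s17fgd_exists_finset_of_le f V hf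
  refine ⟨T, fun W hKW => ?_⟩
  obtain ⟨i, hi0, hi⟩ := hgood W hKW
  obtain ⟨j, hjT, hj0, hj⟩ := hT W hKW ⟨i, hi0⟩
  refine ⟨j, hjT, hj0, hj, fun m hm => ?_⟩
  have h1 : m / f j = (m / f i) * (f i / f j) := by
    field_simp
  rw [h1]
  exact W.mul_mem _ _ (hi m hm) (hj i)

/-- the indexed version for families `f b : ι → L` (tuples indexed by the moving parameter `b`):
finitely many parameters `b` suffice. -/
theorem s17fgd_good_transfer_tuple {B ι : Type*} (f : B → ι → L) (V : Submodule K L)
    [Module.Finite K V] (hf : ∀ b k, f b k ∈ V) (M : Set L)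
    (hgood : ∀ W : ValuationSubring L, (∀ a : K, algebraMap K L a ∈ W) →
      ∃ b k, f b k ≠ 0 ∧ ∀ m ∈ M, m / f b k ∈ W) :
    ∃ T : Finset B, ∀ W : ValuationSubring L, (∀ a : K, algebraMap K L a ∈ W) →
      ∃ b ∈ T, ∃ k, f b k ≠ 0 ∧ (∀ b' k', f b' k' / f b k ∈ W) ∧ ∀ m ∈ M, m / f b k ∈ W := by
  classical
  obtain ⟨T, hT⟩ := s17fgd_good_transfer (I := B × ι) (fun p => f p.1 p.2) V
    (fun p => hf p.1 p.2) M (fun W hKW => by
      obtain ⟨b, k, h0, h⟩ := hgood W hKW
      exact ⟨(b, k), h0, h⟩)
  refine ⟨T.image Prod.fst, fun W hKW => ?_⟩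
  obtain ⟨p, hpT, hp0, hp, hpM⟩ := hT W hKW
  exact ⟨p.1, Finset.mem_image.2 ⟨p, hpT, rfl⟩, p.2, hp0, fun b' k' => hp (b', k'), hpM⟩

end Fermat.Agent.S17
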