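/-
S17 sprint, layer H — **FINAL ASSEMBLY** (helper77, top integrator): the three FINALS of the
sub-integrators on ONE family.

Concrete stage of `X₀(N)` over `ℚ̄` (`L := s27mtL Kb (FF N)`, `FL := s27mtFL Kb (FF N)`), constants
`hc : S27cstIsConst x G₀ O`, a family `q` of S27-B, `b_L := s17fzB … = s17pmtB (s27indB ψ β 1)` the
lifted local equations of `Θ_Ao` at `η` (ruling (A)), `Fam : ι → L` base-point-free at the
`ℚ̄`-places w.r.t. `b_L`.  Then

* (M′) `S17hyPlM cl H 7 28`   — `s17pmf_plM` (helper11, S17/PlMFinal.lean);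
* (T)  `S17hyPlT cl H 4`      — `s17ptk_plT` (helper32 / helper18, S17/PlTFinalK.lean);
* (N)  `S17hxPlN cl H`        — `s17pnt_plN` (helper74, S17/PlNTop.lean) with `y := b_L`, from
        `hint` (b_L integral at the places), `hsec` (CHOW SECTIONS of the opposite tuple),
        `hunit` (U1), (open) and the (T) above;

for `cl = s17sxCl …`, `H = s17sxHt Fam`: the body of `S17sxStmtAt N 7 4 28` (S17/StageTop.lean).

* `s17fz_three`  : the three statements, every multiplier `n > 0`;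
* `S17fzData N`  : the data which the leaves still owe (constants, family, opposite tuple, `t`,
                   `hint`, `hsec`, `hunit`);
* `s17fz_stmtAt` : `S17sxStmtAt N n 4 (n (n + 1) / 2)` from the data; `_7` : `(7, 4, 28)`;
                   `_8` : `(8, 4, 36)`.
-/
import Fermat.Agent.S17.StageTop
import Fermat.Agent.S17.PlMFinal
import Fermat.Agent.S17.PlTFinalK
import Fermat.Agent.S17.PlNTop

set_option autoImplicit false
set_option linter.unusedVariables false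
set_option linter.unusedSectionVars false
set_option linter.style.haveILetI false
set_option linter.style.longLine false

noncomputable section

namespace Fermat.Agent.S17

open ModularCurve AlgebraicCurve Polynomial Height Module TensorProduct IntermediateField
open Fermat.Agent.S24 Fermat.Agent.ES.M Fermat.Agent.ES.H Fermat.Agent.S15 Fermat.Agent.S26
open Fermat.Agent.S27 Fermat.Agent.DEU

section Stage

variable (N : ℕ) [NeZero N] [IsCurveOver Kb (FF N)] [Algebra.EssFiniteType Kb (FF N)]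
  {x : FF N} (hx : Transcendental Kb x)
  [FiniteDimensional ↥(IntermediateField.adjoin Kb {x}) (FF N)]
  [Algebra.IsSeparable ↥(IntermediateField.adjoin Kb {x}) (FF N)]
  (G₀ : Divisor Kb (FF N)) (hG₀ : Divisor.degree G₀ = (genusFF Kb (FF N) : ℤ))

/-- **the lifted local equations** `b_L` of `Θ_Ao` at `η` (`b = B(+1)`), on the concrete stage. -/
def s17fzB (O : Place Kb (FF N))
    (q : ℤ → Fin (genusFF Kb (FF N)) → FF N →ₐ[Kb] s27mtL Kb (FF N))
    (hq : S27pfFam (s27ftPkg hx G₀ hG₀) q) :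
    ValuationSubring (s27mtL Kb (FF N)) → s27mtL Kb (FF N) :=
  s17pmtB (L := s27mtL Kb (FF N))
    (s27indB (s27pfPsi (s27ftPkg hx G₀ hG₀) (s27dcl_halg (x := x)) hq)
      (s27beta (g := genusFF Kb (FF N)) (G₀ + s27cstAo G₀ O)) 1)

/-- the centre map of the concrete stage. -/
abbrev s17fzCl : S17plPlace Kb (s27mtL Kb (FF N)) → JZero N :=
  s17sxCl N (L := s27mtL Kb (FF N)) (FL := s27mtFL Kb (FF N))
    (s27stg_hld Kb (FF N) (s27mtL Kb (FF N))) (s27stg_hgen Kb (FF N) (s27mtL Kb (FF N)))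
    hx G₀ hG₀

/-- **FINAL ASSEMBLY**: (M′) at `(n, n (n + 1) / 2)`, (T) at `4`, (N), for ONE family. -/
theorem s17fz_three (n : ℕ) (hn : 0 < n) (hg : 0 < genusFF Kb (FF N)) (O : Place Kb (FF N))
    (hc : S27cstIsConst x G₀ O)
    (q : ℤ → Fin (genusFF Kb (FF N)) → FF N →ₐ[Kb] s27mtL Kb (FF N))
    (hq : S27pfFam (s27ftPkg hx G₀ hG₀) q)
    {ι : Type} [Fintype ι] (N₀ : ℕ) (hN₀ : 0 < N₀) (Fam : ι → s27mtL Kb (FF N))
    (hF : S17pmkBpf Kb (s17fzB N hx G₀ hG₀ O q hq) N₀ Fam) (hF0 : Fam ≠ 0)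
    (qo : Fin (genusFF Kb (FF N)) → FF N →ₐ[Kb] s27mtL Kb (FF N))
    (hqo : s27pfCl (s27dclPkg (FL := s27mtFL Kb (FF N))
          (s27stg_hld Kb (FF N) (s27mtL Kb (FF N)))
          (s27stg_hgen Kb (FF N) (s27mtL Kb (FF N))) hx G₀ hG₀) qo =
      (-1 : ℤ) • s27pfCl (s27dclPkg (FL := s27mtFL Kb (FF N))
          (s27stg_hld Kb (FF N) (s27mtL Kb (FF N)))
          (s27stg_hgen Kb (FF N) (s27mtL Kb (FF N))) hx G₀ hG₀)
        (s27pfTaut (K := Kb) (F := FF N) (g := genusFF Kb (FF N)) (L := s27mtL Kb (FF N))))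
    (hint : ∀ P : S17plPlace Kb (s27mtL Kb (FF N)), s17fzB N hx G₀ hG₀ O q hq P.W ∈ P.W)
    (t : FF N) (hnc : ∀ c : Kb, t ≠ algebraMap Kb (FF N) c)
    (htΓ : ∀ σ : Kb ≃ₐ[ℚ] Kb, galAct N σ • t = t)
    (ht : ∀ v : Place Kb (FF N), v ≠ cuspInf N → 0 ≤ v.ord t)
    (M : ℕ)
    (hsec : ∀ (P : S17plPlace Kb (s27mtL Kb (FF N))) (n : Fin (genusFF Kb (FF N) + 1)),
      s17cvChow (fun i => qo i t) n * s17fzB N hx G₀ hG₀ O q hq P.W ^ M ∈ P.W)
    (hunit : ∀ (P : S17plPlace Kb (s27mtL Kb (FF N))),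
      S17poGood N (-s17coCl (L := s27mtL Kb (FF N)) (FL := s27mtFL Kb (FF N))
          (s27stg_hld Kb (FF N) (s27mtL Kb (FF N)))
          (s27stg_hgen Kb (FF N) (s27mtL Kb (FF N))) hx G₀ hG₀ P + s17pnoShift N G₀) →
      S27IsUnitIn P.W (s17fzB N hx G₀ hG₀ O q hq P.W))
    (hopen : S17luOpen N) :
    S17hyPlM (s17fzCl N hx G₀ hG₀) (s17sxHt Fam) n ((s27indTri n : ℕ) : ℝ) ∧
      S17hyPlT (s17fzCl N hx G₀ hG₀) (s17sxHt Fam) 4 ∧
      S17hxPlN (s17fzCl N hx G₀ hG₀) (s17sxHt Fam) := by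
  have hM := s17pmf_plM N hx G₀ hG₀ hg O hc q hq n hn N₀ Fam hF hF0
  have hT := s17ptk_plT N hx G₀ hG₀ hg O hc q hq N₀ Fam hF
  refine ⟨hM, hT, ?_⟩
  exact s17pnt_plN N (L := s27mtL Kb (FF N)) (FL := s27mtFL Kb (FF N))
    (s27stg_hld Kb (FF N) (s27mtL Kb (FF N))) (s27stg_hgen Kb (FF N) (s27mtL Kb (FF N)))
    hx G₀ hG₀ qo hqo (s17fzB N hx G₀ hG₀ O q hq) hint N₀ hN₀ Fam hF t hnc htΓ ht M hsec hunit
    hopen 4 (by norm_num) hT

end Stage

section StmtAt

variable (N : ℕ) [NeZero N]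

/-- **the data of the final assembly** for the level `N` (everything the leaves still owe). -/
def S17fzData : Prop :=
  ∀ (_ : IsCurveOver Kb (FF N)) (_ : Algebra.EssFiniteType Kb (FF N)),
    ∃ (x : FF N) (G₀ : Divisor Kb (FF N)) (O : Place Kb (FF N)) (hc : S27cstIsConst x G₀ O),
      haveI := hc.fin
      haveI := hc.sep
      ∃ (q : ℤ → Fin (genusFF Kb (FF N)) → FF N →ₐ[Kb] s27mtL Kb (FF N))
        (hq : S27pfFam (s27ftPkg hc.trans G₀ hc.deg) q)
        (ι : Type) (_ : Fintype ι) (N₀ : ℕ) (Fam : ι → s27mtL Kb (FF N))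
        (qo : Fin (genusFF Kb (FF N)) → FF N →ₐ[Kb] s27mtL Kb (FF N))
        (t : FF N) (M : ℕ),
        0 < N₀ ∧ S17pmkBpf Kb (s17fzB N hc.trans G₀ hc.deg O q hq) N₀ Fam ∧ Fam ≠ 0 ∧
        s27pfCl (s27dclPkg (FL := s27mtFL Kb (FF N))
            (s27stg_hld Kb (FF N) (s27mtL Kb (FF N)))
            (s27stg_hgen Kb (FF N) (s27mtL Kb (FF N))) hc.trans G₀ hc.deg) qo =
          (-1 : ℤ) • s27pfCl (s27dclPkg (FL := s27mtFL Kb (FF N))
            (s27stg_hld Kb (FF N) (s27mtL Kb (FF N)))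
            (s27stg_hgen Kb (FF N) (s27mtL Kb (FF N))) hc.trans G₀ hc.deg)
            (s27pfTaut (K := Kb) (F := FF N) (g := genusFF Kb (FF N))
              (L := s27mtL Kb (FF N))) ∧
        (∀ P : S17plPlace Kb (s27mtL Kb (FF N)),
          s17fzB N hc.trans G₀ hc.deg O q hq P.W ∈ P.W) ∧
        (∀ c : Kb, t ≠ algebraMap Kb (FF N) c) ∧
        (∀ σ : Kb ≃ₐ[ℚ] Kb, galAct N σ • t = t) ∧
        (∀ v : Place Kb (FF N), v ≠ cuspInf N → 0 ≤ v.ord t) ∧
        (∀ (P : S17plPlace Kb (s27mtL Kb (FF N))) (n : Fin (genusFF Kb (FF N) + 1)),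
          s17cvChow (fun i => qo i t) n * s17fzB N hc.trans G₀ hc.deg O q hq P.W ^ M ∈ P.W) ∧
        (∀ (P : S17plPlace Kb (s27mtL Kb (FF N))),
          S17poGood N (-s17coCl (L := s27mtL Kb (FF N)) (FL := s27mtFL Kb (FF N))
              (s27stg_hld Kb (FF N) (s27mtL Kb (FF N)))
              (s27stg_hgen Kb (FF N) (s27mtL Kb (FF N))) hc.trans G₀ hc.deg P +
              s17pnoShift N G₀) →
          S27IsUnitIn P.W (s17fzB N hc.trans G₀ hc.deg O q hq P.W))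

/-- **`S17sxStmtAt N n 4 (n (n + 1) / 2)` from the data**, (open) as a hypothesis. -/
theorem s17fz_stmtAt (n : ℕ) (hn : 0 < n) (hg : 0 < genusFF Kb (FF N)) (hopen : S17luOpen N)
    (D : S17fzData N) : S17sxStmtAt N n 4 ((s27indTri n : ℕ) : ℝ) := by
  intro h1 h2
  obtain ⟨x, G₀, O, hc, hrest⟩ := D h1 h2
  haveI := hc.fin
  haveI := hc.sep
  obtain ⟨q, hq, ι, hι, N₀, Fam, qo, t, M, hN₀, hF, hF0, hqo, hint, hnc, htΓ, ht, hsec,
    hunit⟩ := hrest
  haveI := hι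
  exact ⟨x, G₀, O, hc, ι, inferInstance, Fam,
    s17fz_three N hc.trans G₀ hc.deg n hn hg O hc q hq N₀ hN₀ Fam hF hF0 qo hqo hint t hnc htΓ ht
      M hsec hunit hopen⟩

/-- the case `n = 7`: `S17sxStmtAt N 7 4 28`. -/
theorem s17fz_stmtAt_7 (hg : 0 < genusFF Kb (FF N)) (hopen : S17luOpen N) (D : S17fzData N) :
    S17sxStmtAt N 7 4 28 := by
  have h := s17fz_stmtAt N 7 (by norm_num) hg hopen D
  have e : ((s27indTri 7 : ℕ) : ℝ) = 28 := by
    rw [show s27indTri 7 = 28 from rfl]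
    norm_num
  rw [e] at h
  exact h

/-- the case `n = 8` (PT-free weak Mordell–Weil at `2 ^ 3`): `S17sxStmtAt N 8 4 36`. -/
theorem s17fz_stmtAt_8 (hg : 0 < genusFF Kb (FF N)) (hopen : S17luOpen N) (D : S17fzData N) :
    S17sxStmtAt N 8 4 36 := by
  have h := s17fz_stmtAt N 8 (by norm_num) hg hopen D
  have e : ((s27indTri 8 : ℕ) : ℝ) = 36 := by
    rw [show s27indTri 8 = 36 from rfl]
    norm_num
  rw [e] at h
  exact h

end StmtAt

end Fermat.Agent.S17

end
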