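/-
S17 sprint, layer H — **FINAL DATA** (helper77, top integrator): the data `S17fzData N` of the final
assembly (S17/FinalAsm.lean) for every level `N ≥ 2` of positive genus, from the landed leaves:

* constants `(t, G₀, ∞)`        — `s17kc_exists` (helper45, S17/ConstInf.lean);
* the family `q` of S27-B        — `s27dom_fam` (S27/DomModel.lean);
* the base-point-free family     — `s17bg_pmk` (S17/BpfGlue.lean);
* the opposite tuple `q (−1)`    — the family itself;
* `hint`                         — `s17apn_int` (helper45, S17/AsmPlN.lean);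
* `hsec` (CHOW SECTIONS)         — `s17csd_hsec_const` (helper75, S17/ChowSecD.lean);
* `hunit` (U1)                   — `s17ut_hunit_stage` (helper66, S17/UnitTwin.lean).

* `s17fd_data`     : `S17fzData N`;
* `s17fd_stmtAt_7` : `S17sxStmtAt N 7 4 28` from (open);
* `s17fd_stmtAt_8` : `S17sxStmtAt N 8 4 36` from (open).
-/
import Fermat.Agent.S17.FinalAsm
import Fermat.Agent.S17.ConstInf
import Fermat.Agent.S17.BpfGlue
import Fermat.Agent.S17.AsmPlN
import Fermat.Agent.S17.ChowSecD
import Fermat.Agent.S17.UnitTwin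
import Fermat.Agent.S27.DomModel

set_option autoImplicit false
set_option linter.unusedVariables false
set_option linter.unusedSectionVars false
set_option linter.style.haveILetI false
set_option linter.style.longLine false

noncomputable section

namespace Fermat.Agent.S17

open ModularCurve AlgebraicCurve Polynomial Height Module TensorProduct IntermediateField
open Fermat.Agent.S24 Fermat.Agent.ES.M Fermat.Agent.ES.H Fermat.Agent.S15 Fermat.Agent.S26
open Fermat.Agent.S27 Fermat.Agent.DEU

variable (N : ℕ) [NeZero N]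

/-- **the data of the final assembly**, every level `N ≥ 2` of positive genus. -/
theorem s17fd_data (hN : 2 ≤ N) (hg : 0 < genusFF Kb (FF N)) : S17fzData N := by
  intro h1 h2
  obtain ⟨t, G₀, h0, htΓ, ht, htO, hnc, hred, hdeg⟩ := s17kc_exists N hN
  have hc : S27cstIsConst t G₀ (cuspInf N) := h0 h1 h2
  refine ⟨t, G₀, cuspInf N, hc, ?_⟩
  haveI := hc.fin
  haveI := hc.sep
  obtain ⟨q, hq⟩ := s27dom_fam (L := s27mtL Kb (FF N)) (FL := s27mtFL Kb (FF N))
    (s27stg_hld Kb (FF N) (s27mtL Kb (FF N))) (s27stg_hgen Kb (FF N) (s27mtL Kb (FF N)))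
    hc.trans G₀ hc.deg
  have hq' : S27pfFam (s27ftPkg hc.trans G₀ hc.deg) q := hq
  obtain ⟨T, Fam, hF0, hF⟩ := s17bg_pmk hc.trans G₀ hc.deg hg (cuspInf N) hc q hq'
  refine ⟨q, hq', ↥T, inferInstance, 2, Fam, q (-1), t, (-(cuspInf N).ord t).toNat,
    by norm_num, hF, hF0, (hq' (-1) (by norm_num)).2, ?_, hnc, htΓ, ht, ?_, ?_⟩
  · intro P
    exact s17apn_int N hc.trans G₀ hc.deg hg (cuspInf N) hc q hq' P.W P.hKW
  · intro P n
    exact s17csd_hsec_const hc.trans G₀ hc.deg hg (cuspInf N) hc q hq' t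
      (-(cuspInf N).ord t).toNat (by omega) ht P n
  · exact s17ut_hunit_stage N hc hg q hq'

/-- **`S17sxStmtAt N 7 4 28`** from (open). -/
theorem s17fd_stmtAt_7 (hN : 2 ≤ N) (hg : 0 < genusFF Kb (FF N)) (hopen : S17luOpen N) :
    S17sxStmtAt N 7 4 28 :=
  s17fz_stmtAt_7 N hg hopen (s17fd_data N hN hg)

/-- **`S17sxStmtAt N 8 4 36`** from (open). -/
theorem s17fd_stmtAt_8 (hN : 2 ≤ N) (hg : 0 < genusFF Kb (FF N)) (hopen : S17luOpen N) :
    S17sxStmtAt N 8 4 36 :=
  s17fz_stmtAt_8 N hg hopen (s17fd_data N hN hg)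

end Fermat.Agent.S17

end
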