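/-
S17 sprint, layer H — **FINAL DATA, double** (helper28; hedge for helper77's S17/FinalData.lean):
the ONE Prop `S17fzData N` of the final assembly (S17/FinalAsm.lean, helper77) holds for every
level `N ≥ 2` of positive genus, hence `S17sxStmtAt N n 4 (n (n + 1) / 2)` for every `n > 0`.

Conjuncts (table of helper77, 07:57Z):
  0 constants       `s17mcu_exists`            (helper10, S17/ModelCusp.lean): `x = jF N`, `O = ∞`;
  1 family `q`      `s27dom_fam`               (S27/DomModel.lean);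
  2 `Fam`, `N₀ = 2` `s17bg_pmk`                (helper33, S17/BpfGlue.lean);
  3 `qo := q (−1)`  from `S27pfFam`;
  4 `hint`          `s17ait_hint`              (helper47, S17/AsmInt.lean);
  5 `t`             `s17rf_exists_ord`         (helper45, S17/RatFn.lean);
  6 `hsec`          `s17psc_hsec`              (helper28, S17/PlNSec.lean);
  7 `hunit`         `s17hvu_hunit_stage`       (helper41, S17/HVisU.lean).

* `s17fdb_data`     : `S17fzData N`;
* `s17fdb_stmtAt`   : `S17sxStmtAt N n 4 (n (n + 1) / 2)`, (open) as a hypothesis;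
* `s17fdb_stmtAt_7`, `s17fdb_stmtAt_8` : `(7, 4, 28)`, `(8, 4, 36)`.
-/
import Fermat.Agent.S17.FinalAsm
import Fermat.Agent.S17.PlNSec
import Fermat.Agent.S17.HVisU
import Fermat.Agent.S17.BpfGlue
import Fermat.Agent.S17.AsmInt
import Fermat.Agent.S17.ModelCusp
import Fermat.Agent.S17.RatFn

set_option autoImplicit false
set_option linter.unusedVariables false
set_option linter.unusedSectionVars false
set_option linter.style.haveILetI false
set_option linter.style.longLine false

noncomputable section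

namespace Fermat.Agent.S17

open ModularCurve AlgebraicCurve Polynomial Height Module TensorProduct IntermediateField
open Fermat.Agent.S24 Fermat.Agent.ES.M Fermat.Agent.ES.H Fermat.Agent.S15 Fermat.Agent.S26
open Fermat.Agent.S27 Fermat.Agent.DEU

variable (N : ℕ) [NeZero N]

/-- **the data of the final assembly exist** (levels of positive genus). -/
theorem s17fdb_data (hN : 2 ≤ N) (hg : 0 < genusFF Kb (FF N)) : S17fzData N := by
  intro h1 h2
  haveI := h1
  haveI := h2
  obtain ⟨G₀, hc⟩ := s17mcu_exists N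
  refine ⟨jF N, G₀, cuspInf N, hc, ?_⟩
  haveI := hc.fin
  haveI := hc.sep
  obtain ⟨q, hq⟩ := s27dom_fam (FL := s27mtFL Kb (FF N))
    (s27stg_hld Kb (FF N) (s27mtL Kb (FF N))) (s27stg_hgen Kb (FF N) (s27mtL Kb (FF N)))
    hc.trans G₀ hc.deg
  obtain ⟨T, Fam, hF0, hF⟩ := s17bg_pmk hc.trans G₀ hc.deg hg (cuspInf N) hc q hq
  obtain ⟨t, htΓ, ht, -, httr⟩ := s17rf_exists_ord N hN
  obtain ⟨M, hsec⟩ := s17psc_hsec hc hg q hq t ht
  refine ⟨q, hq, ↥T, inferInstance, 2, Fam, q (-1), t, M, by norm_num, hF, hF0,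
    (hq (-1) (by norm_num)).2, ?_, ?_, htΓ, ht, hsec, ?_⟩
  · exact fun P => s17ait_hint N hc.trans G₀ hc.deg hg (cuspInf N) hc q hq P
  · intro c hcEq
    exact httr (hcEq ▸ isAlgebraic_algebraMap c)
  · exact s17hvu_hunit_stage N hc hg q hq

/-- **`S17sxStmtAt N n 4 (n (n + 1) / 2)`**, (open) as a hypothesis. -/
theorem s17fdb_stmtAt (hN : 2 ≤ N) (n : ℕ) (hn : 0 < n) (hg : 0 < genusFF Kb (FF N))
    (hopen : S17luOpen N) : S17sxStmtAt N n 4 ((s27indTri n : ℕ) : ℝ) :=
  s17fz_stmtAt N n hn hg hopen (s17fdb_data N hN hg)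

/-- `S17sxStmtAt N 7 4 28`. -/
theorem s17fdb_stmtAt_7 (hN : 2 ≤ N) (hg : 0 < genusFF Kb (FF N)) (hopen : S17luOpen N) :
    S17sxStmtAt N 7 4 28 :=
  s17fz_stmtAt_7 N hg hopen (s17fdb_data N hN hg)

/-- `S17sxStmtAt N 8 4 36`. -/
theorem s17fdb_stmtAt_8 (hN : 2 ≤ N) (hg : 0 < genusFF Kb (FF N)) (hopen : S17luOpen N) :
    S17sxStmtAt N 8 4 36 :=
  s17fz_stmtAt_8 N hg hopen (s17fdb_data N hN hg)

end Fermat.Agent.S17

end
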