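/-
S17 sprint, sub-integrator file **PlN-FINAL** (helper74): PlN in the LITERAL input shape of
PlM-FINAL (`S17/PlMFinal.lean`) and PlT-FINAL (`S17/PlTFinalK.lean`) = the input `hN` of the final
assembly (`S17/AsmMT.lean`): on the closed stage of `X₀(N)` over `ℚ̄` with the constants
`hc : S27cstIsConst x G₀ (cuspInf N)` (`O = ∞`), EVERY family `q`, EVERY finite tuple
`Fam : ι → L` which is base-point-free at the `ℚ̄`-places w.r.t. the lifted local equations
`b_L = s17pmtB (s27indB ψ β 1)` (ruling (A)):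

  `S17hxPlN (s17sxCl N hld hgen hx G₀ hG₀) (s17sxHt Fam)`.

Inputs which are plugged in: (L2) U1 = `s17hv_unit_good` (helper41, S17/HVis.lean) at `k = 1`,
`e = q (−1)`; the class of `q (−1)`; `s17pnt_plN` (S17/PlNTop.lean).
Inputs which are LEFT (hypotheses):
  `hint` : `b_L P.W ∈ P.W`                        (closed in S17/PlNFinalT.lean),
  `hT`   : (T) at some `a ≥ 0`                     (closed in S17/PlNFinalT.lean, `a = 4`),
  `hsec` : (L1) CHOW SECTIONS `Chow_n (q (−1) · t) · b_L P.W ^ M ∈ P.W`,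
  `t`    : Galois-fixed, non-constant, regular off `∞`   (S17/RatFn.lean, S17/ConstInf.lean),
  `hopen`: `S17luOpen N`                           (closed: `s17wk_open`).

* `s17pnl_unit`     : (L2) for `b_L`;
* **`s17pnl_plN_core`** : PlN-FINAL from `hint`, `hT`, `hsec`.
-/
import Fermat.Agent.S17.PlNTop
import Fermat.Agent.S17.HVis
import Fermat.Agent.S17.StageTop
import Fermat.Agent.S17.PlMTop

set_option autoImplicit false
set_option linter.unusedVariables false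
set_option linter.unusedSectionVars false
set_option linter.style.haveILetI false
set_option linter.style.longLine false

noncomputable section

namespace Fermat.Agent.S17

open ModularCurve AlgebraicCurve Polynomial Height Module TensorProduct IntermediateField
open Fermat.Agent.S24 Fermat.Agent.ES.M Fermat.Agent.ES.H Fermat.Agent.S15 Fermat.Agent.S26
  Fermat.Agent.S27 Fermat.Agent.DEU

section Stage

variable (N : ℕ) [NeZero N] [IsCurveOver Kb (FF N)] [Algebra.EssFiniteType Kb (FF N)]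
variable {x : FF N} (hx : Transcendental Kb x)
  [FiniteDimensional ↥(IntermediateField.adjoin Kb {x}) (FF N)]
  [Algebra.IsSeparable ↥(IntermediateField.adjoin Kb {x}) (FF N)]
  (G₀ : Divisor Kb (FF N)) (hG₀ : Divisor.degree G₀ = (genusFF Kb (FF N) : ℤ))

/-- the class of the opposite tuple `q (−1)` of a family. -/
theorem s17pnl_opp
    (q : ℤ → Fin (genusFF Kb (FF N)) → FF N →ₐ[Kb] s27mtL Kb (FF N))
    (hq : S27pfFam (s27ftPkg hx G₀ hG₀) q) :
    s27pfCl (s27dclPkg (FL := s27mtFL Kb (FF N)) (s27stg_hld Kb (FF N) (s27mtL Kb (FF N)))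
        (s27stg_hgen Kb (FF N) (s27mtL Kb (FF N))) hx G₀ hG₀) (q (-1)) =
      (-1 : ℤ) • s27pfCl (s27dclPkg (FL := s27mtFL Kb (FF N))
        (s27stg_hld Kb (FF N) (s27mtL Kb (FF N)))
        (s27stg_hgen Kb (FF N) (s27mtL Kb (FF N))) hx G₀ hG₀)
        (s27pfTaut (K := Kb) (F := FF N) (g := genusFF Kb (FF N)) (L := s27mtL Kb (FF N))) :=
  (hq (-1) (by norm_num)).2

/-- **(L2) U1 for the lifted `B(+1)`**: at the `ℚ̄`-places `P` with `−x_P + δ` GOOD the local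
equation `b_L P.W` is a unit. -/
theorem s17pnl_unit (hg : 0 < genusFF Kb (FF N))
    (hc : S27cstIsConst x G₀ (cuspInf N))
    (q : ℤ → Fin (genusFF Kb (FF N)) → FF N →ₐ[Kb] s27mtL Kb (FF N))
    (hq : S27pfFam (s27ftPkg hx G₀ hG₀) q)
    (P : S17plPlace Kb (s27mtL Kb (FF N)))
    (hgood : S17poGood N (-s17coCl (L := s27mtL Kb (FF N)) (FL := s27mtFL Kb (FF N))
        (s27stg_hld Kb (FF N) (s27mtL Kb (FF N))) (s27stg_hgen Kb (FF N) (s27mtL Kb (FF N)))
        hx G₀ hG₀ P + s17pnoShift N G₀)) :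
    S27IsUnitIn P.W
      (s17pmtB (L := s27mtL Kb (FF N))
        (s27indB (s27pfPsi (s27ftPkg hx G₀ hG₀) (s27dcl_halg (x := x)) hq)
          (s27beta (g := genusFF Kb (FF N)) (G₀ + s27cstAo G₀ (cuspInf N))) 1) P.W) := by
  have hcen : ∀ i, ∃ Q : Place Kb (FF N), S27ptIsCentre P.W (q (-1) i) Q :=
    fun i => s17ch2_exists_centre P hx (q (-1) i)
  choose Q hQ using hcen
  have hq' := s17pnl_opp N hx G₀ hG₀ q hq
  have hq'' : (s27dclPkg (FL := s27mtFL Kb (FF N)) (s27stg_hld Kb (FF N) (s27mtL Kb (FF N)))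
        (s27stg_hgen Kb (FF N) (s27mtL Kb (FF N))) hx G₀ hG₀).cl
        (fun i => (s27dclPkg (FL := s27mtFL Kb (FF N)) (s27stg_hld Kb (FF N) (s27mtL Kb (FF N)))
          (s27stg_hgen Kb (FF N) (s27mtL Kb (FF N))) hx G₀ hG₀).pt (q (-1) i)) =
      (-1 : ℤ) • ((s27dclPkg (FL := s27mtFL Kb (FF N)) (s27stg_hld Kb (FF N) (s27mtL Kb (FF N)))
        (s27stg_hgen Kb (FF N) (s27mtL Kb (FF N))) hx G₀ hG₀).cl
        (fun i => (s27dclPkg (FL := s27mtFL Kb (FF N)) (s27stg_hld Kb (FF N) (s27mtL Kb (FF N)))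
          (s27stg_hgen Kb (FF N) (s27mtL Kb (FF N))) hx G₀ hG₀).pt
          (s27pfTaut (K := Kb) (F := FF N) (g := genusFF Kb (FF N))
            (L := s27mtL Kb (FF N)) i)))
        + s27bcBeta (s27stg_hld Kb (FF N) (s27mtL Kb (FF N)))
            (s27stg_hgen Kb (FF N) (s27mtL Kb (FF N))) (s26gspf_hall hx) 0 := by
    rw [map_zero, add_zero]
    exact hq'
  have hcl := s17pno_cl N (FL := s27mtFL Kb (FF N)) (s27stg_hld Kb (FF N) (s27mtL Kb (FF N)))
    (s27stg_hgen Kb (FF N) (s27mtL Kb (FF N))) hx G₀ hG₀ (q (-1)) (-1) 0 hq'' P Q hQ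
  rw [add_zero, neg_one_zsmul] at hcl
  rw [hcl] at hgood
  exact s17hv_unit_good N (FL := s27mtFL Kb (FF N)) (s27stg_hld Kb (FF N) (s27mtL Kb (FF N)))
    (s27stg_hgen Kb (FF N) (s27mtL Kb (FF N))) hx G₀ hG₀ hq _ (s17hv_beta hc hg) 1 one_ne_zero
    (q (-1)) hq' P Q hQ hgood

/-- **PlN-FINAL, core**: PlN for the height of the base-point-free tuple `Fam` of PlM / PlT from
the integrality of `b_L`, (T) at some `a ≥ 0` and the CHOW SECTIONS (L1). -/
theorem s17pnl_plN_core (hg : 0 < genusFF Kb (FF N))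
    (hc : S27cstIsConst x G₀ (cuspInf N))
    (q : ℤ → Fin (genusFF Kb (FF N)) → FF N →ₐ[Kb] s27mtL Kb (FF N))
    (hq : S27pfFam (s27ftPkg hx G₀ hG₀) q)
    {ι : Type} [Fintype ι] (N₀ : ℕ) (hN₀ : 0 < N₀) (Fam : ι → s27mtL Kb (FF N))
    (hF : S17pmkBpf Kb
      (s17pmtB (L := s27mtL Kb (FF N))
        (s27indB (s27pfPsi (s27ftPkg hx G₀ hG₀) (s27dcl_halg (x := x)) hq)
          (s27beta (g := genusFF Kb (FF N)) (G₀ + s27cstAo G₀ (cuspInf N))) 1)) N₀ Fam)
    (hint : ∀ P : S17plPlace Kb (s27mtL Kb (FF N)),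
      s17pmtB (L := s27mtL Kb (FF N))
        (s27indB (s27pfPsi (s27ftPkg hx G₀ hG₀) (s27dcl_halg (x := x)) hq)
          (s27beta (g := genusFF Kb (FF N)) (G₀ + s27cstAo G₀ (cuspInf N))) 1) P.W ∈ P.W)
    (t : FF N)
    (hnc : ∀ c : Kb, t ≠ algebraMap Kb (FF N) c)
    (htΓ : ∀ σ : Kb ≃ₐ[ℚ] Kb, galAct N σ • t = t)
    (ht : ∀ v : Place Kb (FF N), v ≠ cuspInf N → 0 ≤ v.ord t)
    (M : ℕ)
    (hsec : ∀ (P : S17plPlace Kb (s27mtL Kb (FF N))) (n : Fin (genusFF Kb (FF N) + 1)),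
      s17cvChow (fun i => q (-1) i t) n *
        s17pmtB (L := s27mtL Kb (FF N))
          (s27indB (s27pfPsi (s27ftPkg hx G₀ hG₀) (s27dcl_halg (x := x)) hq)
            (s27beta (g := genusFF Kb (FF N)) (G₀ + s27cstAo G₀ (cuspInf N))) 1) P.W ^ M ∈ P.W)
    (hopen : S17luOpen N) (a : ℝ) (ha : 0 ≤ a)
    (hT : S17hyPlT (s17sxCl N (L := s27mtL Kb (FF N)) (FL := s27mtFL Kb (FF N))
        (s27stg_hld Kb (FF N) (s27mtL Kb (FF N))) (s27stg_hgen Kb (FF N) (s27mtL Kb (FF N)))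
        hx G₀ hG₀) (s17sxHt Fam) a) :
    S17hxPlN (s17sxCl N (L := s27mtL Kb (FF N)) (FL := s27mtFL Kb (FF N))
        (s27stg_hld Kb (FF N) (s27mtL Kb (FF N))) (s27stg_hgen Kb (FF N) (s27mtL Kb (FF N)))
        hx G₀ hG₀) (s17sxHt Fam) :=
  s17pnt_plN N (FL := s27mtFL Kb (FF N)) (s27stg_hld Kb (FF N) (s27mtL Kb (FF N)))
    (s27stg_hgen Kb (FF N) (s27mtL Kb (FF N))) hx G₀ hG₀ (q (-1))
    (s17pnl_opp N hx G₀ hG₀ q hq) _ hint N₀ hN₀ Fam hF t hnc htΓ ht M hsec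
    (fun P hgood => s17pnl_unit N hx G₀ hG₀ hg hc q hq P hgood) hopen a ha hT

end Stage

end Fermat.Agent.S17

end
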