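/-
S17 sprint, leaf H6b PROJ-RAT (helper14): GALOIS-FIXED PROJECTIVE POINTS ARE RATIONAL, and the
height of a tuple of `ℚ̄`-values that is proportional to a rational tuple (Mathlib + leaf H0).

`s17pr_isGalois`          : `ℚ̄ / ℚ` is Galois (for the `Algebra` instance found by unification);
`s17pr_rat_of_fixed`      : an element of `ℚ̄` fixed by `Γ = Gal(ℚ̄/ℚ)` is rational;
`s17pr_exists_rat`        : (i) `v : ι → ℚ̄`, `v ≠ 0`, `∀ σ, ∃ c, σ ∘ v = c • v`
                            ⇒ `v = c • (algebraMap ∘ w)` with `c ≠ 0`, `w : ι → ℚ`, `w ≠ 0`;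
`S17prIsRat v`            : `v` is proportional to a rational tuple;
`s17prHt v`               : (ii) the logarithmic height of the rational representative (`0` if none);
`s17prHt_eq`              : `s17prHt (c • algebraMap ∘ w) = logHeight w` (`c ≠ 0`);
`s17prHt_smul`, `s17prHt_galois`, `s17prHt_nonneg`;
`s17pr_cert_descend`      : a homogeneous certificate `y_j^M + ∑_k a_{jk}(x) y_j^{M-1-k} = 0` with
                            coefficients in `ℚ` for `(x, y) = c • (x₀, y₀)` holds for `(x₀, y₀)`;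
`s17prHt_le_of_cert`      : TRANSFER of a height bound for certificates over `ℚ` (leaf H0) to
                            `s17prHt` of tuples of `ℚ̄`-values;
(the valuative criterion with `K₀ = ℚ` is `S17/ValCritQ.lean`, `S17/ValQ.lean`; the relative
height over a number field is `S17/HtExt.lean`: not needed here.)
-/
import Mathlib.NumberTheory.Height.NumberField
import Mathlib.NumberTheory.Height.MvPolynomial
import Mathlib.FieldTheory.Galois.Infinite
import Mathlib.FieldTheory.IsAlgClosed.AlgebraicClosure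
import Fermat.Agent.S17.HtCert

set_option autoImplicit false

namespace Fermat.Agent.S17

open Height

/-- `ℚ̄ / ℚ` is Galois, for the `Algebra ℚ ℚ̄` instance found by unification. -/
theorem s17pr_isGalois : IsGalois ℚ (AlgebraicClosure ℚ) := by
  have h1 : @IsGalois ℚ _ (AlgebraicClosure ℚ) _ (AlgebraicClosure.instAlgebra ℚ) :=
    inferInstance
  convert h1
  exact Subsingleton.elim _ _

/-- an element of `ℚ̄` fixed by the whole Galois group is rational. -/
theorem s17pr_rat_of_fixed (x : AlgebraicClosure ℚ)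
    (hx : ∀ σ : AlgebraicClosure ℚ ≃ₐ[ℚ] AlgebraicClosure ℚ, σ x = x) :
    ∃ q : ℚ, algebraMap ℚ (AlgebraicClosure ℚ) q = x := by
  have := s17pr_isGalois
  exact (InfiniteGalois.mem_range_algebraMap_iff_fixed x).2 hx

/-- **(i) a Galois-fixed point of `ℙ(ℚ̄)` is rational.** -/
theorem s17pr_exists_rat {ι : Type*} (v : ι → AlgebraicClosure ℚ) (hv : v ≠ 0)
    (hfix : ∀ σ : AlgebraicClosure ℚ ≃ₐ[ℚ] AlgebraicClosure ℚ,
      ∃ c : AlgebraicClosure ℚ, (fun i => σ (v i)) = c • v) :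
    ∃ (c : AlgebraicClosure ℚ) (w : ι → ℚ), c ≠ 0 ∧ w ≠ 0 ∧
      v = c • (fun i => algebraMap ℚ (AlgebraicClosure ℚ) (w i)) := by
  classical
  obtain ⟨i₀, hi₀⟩ : ∃ i, v i ≠ 0 := Function.ne_iff.mp hv
  have hfixed : ∀ i, ∀ σ : AlgebraicClosure ℚ ≃ₐ[ℚ] AlgebraicClosure ℚ,
      σ (v i / v i₀) = v i / v i₀ := by
    intro i σ
    obtain ⟨c, hc⟩ := hfix σ
    have h1 : σ (v i) = c * v i := by simpa using congrFun hc i
    have h0 : σ (v i₀) = c * v i₀ := by simpa using congrFun hc i₀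
    have hc0 : c ≠ 0 := by
      rintro rfl
      rw [zero_mul] at h0
      exact hi₀ ((map_eq_zero_iff σ σ.injective).1 h0)
    rw [map_div₀, h1, h0, mul_div_mul_left _ _ hc0]
  choose w hw using fun i => s17pr_rat_of_fixed (v i / v i₀) (hfixed i)
  refine ⟨v i₀, w, hi₀, ?_, ?_⟩
  · intro h0
    have h1 := hw i₀
    rw [h0, Pi.zero_apply, map_zero, div_self hi₀] at h1
    exact zero_ne_one h1
  · funext i
    simp only [Pi.smul_apply, smul_eq_mul]
    rw [hw i, mul_div_cancel₀ _ hi₀]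

/-- `v` is proportional to a rational tuple. -/
def S17prIsRat {ι : Type*} (v : ι → AlgebraicClosure ℚ) : Prop :=
  ∃ (c : AlgebraicClosure ℚ) (w : ι → ℚ), c ≠ 0 ∧
    v = c • (fun i => algebraMap ℚ (AlgebraicClosure ℚ) (w i))

theorem s17pr_isRat_of_fixed {ι : Type*} (v : ι → AlgebraicClosure ℚ)
    (hfix : ∀ σ : AlgebraicClosure ℚ ≃ₐ[ℚ] AlgebraicClosure ℚ,
      ∃ c : AlgebraicClosure ℚ, (fun i => σ (v i)) = c • v) : S17prIsRat v := by
  by_cases hv : v = 0
  · refine ⟨1, 0, one_ne_zero, ?_⟩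
    rw [hv]
    funext i
    simp
  · obtain ⟨c, w, hc, -, h⟩ := s17pr_exists_rat v hv hfix
    exact ⟨c, w, hc, h⟩

theorem s17pr_isRat_algebraMap {ι : Type*} (w : ι → ℚ) :
    S17prIsRat (fun i => algebraMap ℚ (AlgebraicClosure ℚ) (w i)) :=
  ⟨1, w, one_ne_zero, by rw [one_smul]⟩

theorem s17pr_isRat_smul {ι : Type*} {v : ι → AlgebraicClosure ℚ} (h : S17prIsRat v)
    {c : AlgebraicClosure ℚ} (hc : c ≠ 0) : S17prIsRat (c • v) := by
  obtain ⟨d, w, hd, rfl⟩ := h
  exact ⟨c * d, w, mul_ne_zero hc hd, by rw [smul_smul]⟩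

/-- two rational tuples that are proportional over `ℚ̄` are proportional over `ℚ`. -/
theorem s17pr_rat_prop {ι : Type*} (w w' : ι → ℚ) (c c' : AlgebraicClosure ℚ) (hc : c ≠ 0)
    (hc' : c' ≠ 0)
    (h : c • (fun i => algebraMap ℚ (AlgebraicClosure ℚ) (w i)) =
      c' • (fun i => algebraMap ℚ (AlgebraicClosure ℚ) (w' i))) :
    ∃ q : ℚ, q ≠ 0 ∧ w' = q • w := by
  classical
  have hinj : Function.Injective (algebraMap ℚ (AlgebraicClosure ℚ)) :=
    (algebraMap ℚ (AlgebraicClosure ℚ)).injective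
  have hi : ∀ i, c * algebraMap ℚ (AlgebraicClosure ℚ) (w i) =
      c' * algebraMap ℚ (AlgebraicClosure ℚ) (w' i) := fun i => by simpa using congrFun h i
  by_cases hw : w = 0
  · refine ⟨1, one_ne_zero, ?_⟩
    rw [one_smul, hw]
    funext i
    have h1 := hi i
    rw [hw, Pi.zero_apply, map_zero, mul_zero] at h1
    have h2 : algebraMap ℚ (AlgebraicClosure ℚ) (w' i) = 0 := by
      rcases mul_eq_zero.1 h1.symm with h3 | h3
      · exact absurd h3 hc'
      · exact h3
    have h3 : w' i = 0 := hinj (by rw [h2, map_zero])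
    simpa using h3
  · obtain ⟨i₀, hi₀⟩ : ∃ i, w i ≠ 0 := Function.ne_iff.mp hw
    have hwi₀ : algebraMap ℚ (AlgebraicClosure ℚ) (w i₀) ≠ 0 := by
      intro h0
      exact hi₀ (hinj (by rw [h0, map_zero]))
    -- `c / c' = w' i₀ / w i₀`
    have hq : c = c' * algebraMap ℚ (AlgebraicClosure ℚ) (w' i₀ / w i₀) := by
      rw [map_div₀, ← mul_div_assoc, ← hi i₀, mul_div_cancel_right₀ _ hwi₀]
    have hq0 : w' i₀ / w i₀ ≠ 0 := by
      intro h0
      rw [h0, map_zero, mul_zero] at hq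
      exact hc hq
    refine ⟨w' i₀ / w i₀, hq0, ?_⟩
    funext i
    apply hinj
    have h1 := hi i
    rw [hq, mul_assoc] at h1
    have h2 := mul_left_cancel₀ hc' h1
    rw [Pi.smul_apply, smul_eq_mul, map_mul]
    exact h2.symm

open Classical in
/-- **(ii) the height of a tuple of `ℚ̄`-values**: the logarithmic height of the rational
representative (`0` if the tuple is not proportional to a rational one). -/
noncomputable def s17prHt {ι : Type*} (v : ι → AlgebraicClosure ℚ) : ℝ :=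
  if h : S17prIsRat v then logHeight (Classical.choose (Classical.choose_spec h)) else 0

theorem s17prHt_eq {ι : Type*} [Finite ι] (w : ι → ℚ) {c : AlgebraicClosure ℚ} (hc : c ≠ 0) :
    s17prHt (c • (fun i => algebraMap ℚ (AlgebraicClosure ℚ) (w i))) = logHeight w := by
  have h : S17prIsRat (c • (fun i => algebraMap ℚ (AlgebraicClosure ℚ) (w i))) :=
    ⟨c, w, hc, rfl⟩
  rw [s17prHt, dif_pos h]
  obtain ⟨hc', hw'⟩ := Classical.choose_spec (Classical.choose_spec h)
  obtain ⟨q, hq, hqw⟩ := s17pr_rat_prop w _ c _ hc hc' hw'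
  rw [hqw, logHeight_smul_eq_logHeight w hq]

theorem s17prHt_algebraMap {ι : Type*} [Finite ι] (w : ι → ℚ) :
    s17prHt (fun i => algebraMap ℚ (AlgebraicClosure ℚ) (w i)) = logHeight w := by
  have := s17prHt_eq w (one_ne_zero (α := AlgebraicClosure ℚ))
  rwa [one_smul] at this

theorem s17prHt_smul {ι : Type*} [Finite ι] (v : ι → AlgebraicClosure ℚ)
    {c : AlgebraicClosure ℚ} (hc : c ≠ 0) : s17prHt (c • v) = s17prHt v := by
  by_cases h : S17prIsRat v
  · obtain ⟨d, w, hd, rfl⟩ := h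
    rw [smul_smul, s17prHt_eq w (mul_ne_zero hc hd), s17prHt_eq w hd]
  · have h' : ¬ S17prIsRat (c • v) := by
      intro h1
      apply h
      have := s17pr_isRat_smul h1 (inv_ne_zero hc)
      rwa [smul_smul, inv_mul_cancel₀ hc, one_smul] at this
    rw [s17prHt, s17prHt, dif_neg h, dif_neg h']

theorem s17prHt_nonneg {ι : Type*} [Finite ι] (v : ι → AlgebraicClosure ℚ) : 0 ≤ s17prHt v := by
  unfold s17prHt
  split_ifs with h
  · exact logHeight_nonneg _
  · exact le_rfl

/-- the height of place-values is Galois-invariant. -/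
theorem s17prHt_galois {ι : Type*} [Finite ι] (v : ι → AlgebraicClosure ℚ)
    (σ : AlgebraicClosure ℚ ≃ₐ[ℚ] AlgebraicClosure ℚ) :
    s17prHt (fun i => σ (v i)) = s17prHt v := by
  have key : ∀ (u : ι → AlgebraicClosure ℚ)
      (τ : AlgebraicClosure ℚ ≃ₐ[ℚ] AlgebraicClosure ℚ), S17prIsRat u →
      ∃ (d : AlgebraicClosure ℚ) (w : ι → ℚ), d ≠ 0 ∧
        u = d • (fun i => algebraMap ℚ (AlgebraicClosure ℚ) (w i)) ∧
        (fun i => τ (u i)) = τ d • (fun i => algebraMap ℚ (AlgebraicClosure ℚ) (w i)) := by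
    rintro u τ ⟨d, w, hd, rfl⟩
    refine ⟨d, w, hd, rfl, ?_⟩
    funext i
    simp only [Pi.smul_apply, smul_eq_mul, map_mul, AlgEquiv.commutes]
  by_cases h : S17prIsRat v
  · obtain ⟨d, w, hd, h1, h2⟩ := key v σ h
    have hσd : σ d ≠ 0 := fun h0 => hd ((map_eq_zero_iff σ σ.injective).1 h0)
    rw [h2, s17prHt_eq w hσd, h1, s17prHt_eq w hd]
  · have h' : ¬ S17prIsRat (fun i => σ (v i)) := by
      intro h1
      apply h
      obtain ⟨d, w, hd, -, h2⟩ := key _ σ.symm h1
      have hσd : σ.symm d ≠ 0 :=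
        fun h0 => hd ((map_eq_zero_iff σ.symm σ.symm.injective).1 h0)
      refine ⟨σ.symm d, w, hσd, ?_⟩
      rw [← h2]
      funext i
      simp
    rw [s17prHt, s17prHt, dif_neg h, dif_neg h']

open MvPolynomial in
/-- evaluation of a homogeneous polynomial at a scaled tuple. -/
theorem s17pr_eval_smul {ι R : Type*} [CommRing R] (p : MvPolynomial ι R) {n : ℕ}
    (hp : p.IsHomogeneous n) (c : R) (x : ι → R) :
    eval (c • x) p = c ^ n * eval x p := by
  classical
  rw [eval_eq, eval_eq, Finset.mul_sum]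
  refine Finset.sum_congr rfl fun d hd => ?_
  have hdeg : ∑ i ∈ d.support, d i = n := by
    have := hp (mem_support_iff.1 hd)
    rw [← Finsupp.degree_apply, Finsupp.degree_eq_weight_one]
    exact this
  simp only [Pi.smul_apply, smul_eq_mul, mul_pow, Finset.prod_mul_distrib,
    Finset.prod_pow_eq_pow_sum, hdeg]
  ring

open MvPolynomial in
/-- **descent of a homogeneous certificate**: if `(x, y) = c • (x₀, y₀)` over `ℚ̄` with `x₀, y₀`
rational and `c ≠ 0`, a certificate `y^M + ∑_k a_k(x) y^(M-1-k) = 0` with `a_k ∈ ℚ[X]` homogeneous of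
degree `k + 1` for `(x, y)` is a certificate for `(x₀, y₀)`. -/
theorem s17pr_cert_descend {ι : Type*} (M : ℕ) (a : Fin M → MvPolynomial ι ℚ)
    (ha : ∀ k, (a k).IsHomogeneous (k + 1)) (c : AlgebraicClosure ℚ) (hc : c ≠ 0)
    (x₀ : ι → ℚ) (y₀ : ℚ)
    (hcert : (c * algebraMap ℚ (AlgebraicClosure ℚ) y₀) ^ M +
      ∑ k : Fin M, eval (c • fun i => algebraMap ℚ (AlgebraicClosure ℚ) (x₀ i))
        (map (algebraMap ℚ (AlgebraicClosure ℚ)) (a k)) *
          (c * algebraMap ℚ (AlgebraicClosure ℚ) y₀) ^ (M - 1 - k) = 0) :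
    y₀ ^ M + ∑ k : Fin M, eval x₀ (a k) * y₀ ^ (M - 1 - k) = 0 := by
  have hinj : Function.Injective (algebraMap ℚ (AlgebraicClosure ℚ)) :=
    (algebraMap ℚ (AlgebraicClosure ℚ)).injective
  apply hinj
  rw [map_zero, map_add, map_pow, map_sum]
  have hterm : ∀ k : Fin M,
      eval (c • fun i => algebraMap ℚ (AlgebraicClosure ℚ) (x₀ i))
        (map (algebraMap ℚ (AlgebraicClosure ℚ)) (a k)) *
          (c * algebraMap ℚ (AlgebraicClosure ℚ) y₀) ^ (M - 1 - k) =
      c ^ M * algebraMap ℚ (AlgebraicClosure ℚ) (eval x₀ (a k) * y₀ ^ (M - 1 - k)) := by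
    intro k
    have h1 : eval (fun i => algebraMap ℚ (AlgebraicClosure ℚ) (x₀ i))
        (map (algebraMap ℚ (AlgebraicClosure ℚ)) (a k)) =
        algebraMap ℚ (AlgebraicClosure ℚ) (eval x₀ (a k)) := by
      rw [eval_map, eval₂_comp]
      rfl
    rw [s17pr_eval_smul _ ((ha k).map _), h1]
    have hk : (k : ℕ) + 1 + (M - 1 - k) = M := by
      have := k.2
      omega
    rw [mul_pow, map_mul, map_pow]
    calc c ^ ((k : ℕ) + 1) * algebraMap ℚ (AlgebraicClosure ℚ) (eval x₀ (a k)) *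
          (c ^ (M - 1 - k) * algebraMap ℚ (AlgebraicClosure ℚ) y₀ ^ (M - 1 - k))
        = c ^ ((k : ℕ) + 1 + (M - 1 - k)) * (algebraMap ℚ (AlgebraicClosure ℚ) (eval x₀ (a k)) *
            algebraMap ℚ (AlgebraicClosure ℚ) y₀ ^ (M - 1 - k)) := by
          rw [pow_add]; ring
      _ = _ := by rw [hk]
  have h2 : c ^ M * (algebraMap ℚ (AlgebraicClosure ℚ) y₀ ^ M +
      ∑ k : Fin M, algebraMap ℚ (AlgebraicClosure ℚ) (eval x₀ (a k) * y₀ ^ (M - 1 - k))) = 0 := by
    rw [mul_add, Finset.mul_sum, ← mul_pow]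
    rw [← hcert]
    congr 1
    exact Finset.sum_congr rfl fun k _ => (hterm k).symm
  rcases mul_eq_zero.1 h2 with h3 | h3
  · exact absurd (pow_eq_zero_iff (n := M) (by
      rintro rfl
      simp at h2) |>.1 h3) hc
  · exact h3

/-- restriction of a rational representative to the two blocks of a joint tuple. -/
theorem s17pr_isRat_inl {ι κ : Type*} {x : ι → AlgebraicClosure ℚ} {y : κ → AlgebraicClosure ℚ}
    (h : S17prIsRat (Sum.elim x y)) : S17prIsRat x := by
  obtain ⟨c, w, hc, hw⟩ := h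
  refine ⟨c, fun i => w (Sum.inl i), hc, ?_⟩
  funext i
  simpa using congrFun hw (Sum.inl i)

open MvPolynomial in
/-- **TRANSFER of H0 to the height of `ℚ̄`-values**: fixed homogeneous coefficient polynomials
`a j k ∈ ℚ[X]` of degree `k + 1`; there is `C` such that for all tuples `x`, `y` of `ℚ̄`-values
whose joint tuple is proportional to a rational one and which satisfy the equations of integral
dependence `y_j^M + ∑_k a_{jk}(x) y_j^(M-1-k) = 0`: `s17prHt (x, y) ≤ C + s17prHt x`. -/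
theorem s17prHt_le_of_cert {ι κ : Type*} [Fintype ι] [Fintype κ] (M : ℕ)
    (a : κ → Fin M → MvPolynomial ι ℚ) (ha : ∀ j k, (a j k).IsHomogeneous ((k : ℕ) + 1)) :
    ∃ C : ℝ, ∀ (x : ι → AlgebraicClosure ℚ) (y : κ → AlgebraicClosure ℚ),
      S17prIsRat (Sum.elim x y) →
      (∀ j, y j ^ M + ∑ k : Fin M,
        eval x (map (algebraMap ℚ (AlgebraicClosure ℚ)) (a j k)) * y j ^ (M - 1 - (k : ℕ)) = 0) →
      s17prHt (Sum.elim x y) ≤ C + s17prHt x := by
  obtain ⟨C, hC⟩ := s17hc_main_log (K := ℚ) M a ha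
  refine ⟨C, fun x y hrat hcert => ?_⟩
  obtain ⟨c, w, hc, hw⟩ := hrat
  have hx : x = c • fun i => algebraMap ℚ (AlgebraicClosure ℚ) (w (Sum.inl i)) := by
    funext i
    simpa using congrFun hw (Sum.inl i)
  have hy : ∀ j, y j = c * algebraMap ℚ (AlgebraicClosure ℚ) (w (Sum.inr j)) := fun j => by
    simpa using congrFun hw (Sum.inr j)
  have hcert₀ : ∀ j, (w (Sum.inr j)) ^ M + ∑ k : Fin M,
      eval (fun i => w (Sum.inl i)) (a j k) * (w (Sum.inr j)) ^ (M - 1 - (k : ℕ)) = 0 := by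
    intro j
    refine s17pr_cert_descend M (a j) (ha j) c hc _ _ ?_
    have := hcert j
    rw [hy j, hx] at this
    exact this
  have hle := hC (fun i => w (Sum.inl i)) (fun j => w (Sum.inr j)) hcert₀
  have hjoint : Sum.elim (fun i => w (Sum.inl i)) (fun j => w (Sum.inr j)) = w := by
    funext t
    cases t <;> rfl
  rw [hjoint] at hle
  rw [hw, s17prHt_eq w hc, hx, s17prHt_eq _ hc]
  exact hle

end Fermat.Agent.S17
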