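/-
S17 sprint, leaf H7b "NC-DIV" (helper45): **finitely many Galois-invariant effective divisors of
bounded Chow height**, and NORTHCOTT for the Chow height of the reduced divisor on the
Mordell–Weil group.

`F_N = FF N`, `t ∈ F_N` a `G_ℚ`-fixed nonconstant function (e.g. the `t` of `S17/RatFn.lean`,
whose only pole is the cusp `∞`).

* `s17ndVal N t v`     : the value `t(v) ∈ ℚ̄` of `t` at the place `v` (`0` at the poles);
  `s17nd_val_spec`, `s17nd_val_unique`, `s17nd_val_smul` (`t(σ v) = σ (t(v))`);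
* `s17ndChow N t D`    : the CHOW FORM `∏_v (X − t(v))^{D v}` of a divisor `D`;
  `s17ndChow_monic`, `s17ndChow_smul` (`Chow(σ D) = σ(Chow D)`), `s17ndChow_natDegree`
  (`= deg D` for `D ≥ 0`), `s17ndChow_rat` (`D` Galois-invariant ⇒ `Chow D ∈ ℚ[X]`);
* `s17ndRat N t D : ℚ[X]`, `s17ndHtMul N t D` : the rational Chow form and the multiplicative
  height of its coefficient vector;
* `s17nd_fibre_finite` : finitely many effective divisors (off the poles of `t`) with a given
  Chow form;
* `s17nd_finite`       : **NC-DIV**: the effective, Galois-invariant divisors `D` off the poles of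
  `t` with `deg Chow ≤ d` and Chow height `≤ B` are finitely many;
* `s17ndHeight N t`    : the height `x ↦ log H(Chow(E_x))` on `s17MW N` (`E_x` the reduced
  divisor of `S17/H90.lean`), `s17ndHeight_nonneg`;
* `s17nd_northcott`    : **NORTHCOTT** for `s17ndHeight N t`;
* `s17nd_exists_height`: for `N ≥ 2` there is `h : s17MW N → ℝ`, `h ≥ 0`, with Northcott.

In the language of helper99's `S17/ChowFF.lean` (`s17chfPoly N t x : ℚ[X]`, the rational Chow
polynomial of the reduced divisor of `x`), with the coefficient vector in the FIXED space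
`ℚ^{g+1}`, `g = genusFF`:
* `s17nd_poly_finite`  : finitely many monic `q ∈ ℚ[X]` of degree `≤ g` with
  `mulHeight (coeff_0 q, …, coeff_g q) ≤ B`;
* `s17ndHtFF N t`      : `x ↦ logHeight (coeff_j (s17chfPoly N t x))_{j ≤ g}` on `s17MW N`;
* `s17nd_northcott_FF` : **NORTHCOTT** for `s17ndHtFF N t`.
-/
import Fermat.Agent.S17.RatFn
import Fermat.Agent.S17.NorthChow
import Fermat.Agent.S17.ProjRat
import Fermat.Agent.S17.Top
import Fermat.Agent.S17.ChowFF

set_option autoImplicit false
set_option linter.unusedSectionVars false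
set_option linter.style.haveILetI false

noncomputable section

namespace Fermat.Agent.S17

open ModularCurve AlgebraicCurve IntermediateField Polynomial Height
open Fermat.Agent.S24 Fermat.Agent.ES.M Fermat.Agent.ES.H Fermat.Agent.S15 Fermat.Agent.S26
  Fermat.Agent.S27 Fermat.Agent.UNIP Fermat.Agent.INJ

variable (N : ℕ) [NeZero N]

open scoped Classical in
/-- the value of `t` at the place `v` (`0` if `t` has a pole at `v`). -/
def s17ndVal (t : FF N) (v : Place Kb (FF N)) : Kb :=
  if h : ∃ c : Kb, t - algebraMap Kb (FF N) c ∈ v.toValuationSubring.nonunits then h.choose else 0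

variable {N}

theorem s17nd_val_exists (t : FF N) (v : Place Kb (FF N)) (ht : t ∈ v.toValuationSubring) :
    ∃ c : Kb, t - algebraMap Kb (FF N) c ∈ v.toValuationSubring.nonunits := by
  haveI := finiteDimensional_adjoin_jF N
  have halg : Algebra.IsAlgebraic (IntermediateField.adjoin Kb {jF N}) (FF N) :=
    Algebra.IsAlgebraic.of_finite _ _
  exact exists_sub_mem_nonunits (jF N) (transcendental_jF N) halg v t ht

theorem s17nd_val_spec (t : FF N) (v : Place Kb (FF N)) (ht : t ∈ v.toValuationSubring) :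
    t - algebraMap Kb (FF N) (s17ndVal N t v) ∈ v.toValuationSubring.nonunits := by
  have h := s17nd_val_exists t v ht
  unfold s17ndVal
  rw [dif_pos h]
  exact h.choose_spec

theorem s17nd_val_unique (t : FF N) (v : Place Kb (FF N)) (c : Kb)
    (hc : t - algebraMap Kb (FF N) c ∈ v.toValuationSubring.nonunits) :
    s17ndVal N t v = c := by
  have ht : t ∈ v.toValuationSubring := by
    have h1 : t - algebraMap Kb (FF N) c ∈ v.toValuationSubring :=
      ValuationSubring.nonunits_subset hc
    have := v.toValuationSubring.add_mem _ _ h1 (v.algebraMap_mem' c)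
    simpa using this
  have h1 := s17nd_val_spec t v ht
  have h2 := rat_sub_mem_nonunits _ hc h1
  have e : t - algebraMap Kb (FF N) c - (t - algebraMap Kb (FF N) (s17ndVal N t v)) =
      algebraMap Kb (FF N) (s17ndVal N t v - c) := by
    rw [map_sub]; ring
  rw [e] at h2
  exact sub_eq_zero.1 (rat_const_eq_zero_of_mem_nonunits v h2)

/-- **equivariance of the values**: `t(σ v) = σ (t(v))` for a Galois-fixed `t`. -/
theorem s17nd_val_smul (t : FF N) (hfix : ∀ σ : Kb ≃ₐ[ℚ] Kb, galAct N σ • t = t)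
    (σ : Kb ≃ₐ[ℚ] Kb) (v : Place Kb (FF N)) (ht : t ∈ v.toValuationSubring) :
    s17ndVal N t (galAct N σ • v) = σ (s17ndVal N t v) := by
  apply s17nd_val_unique
  have h1 := rat_smul_mem_nonunits (galAct N σ) v (s17nd_val_spec t v ht)
  rwa [smul_sub, hfix σ, galAct_algebraMap] at h1

/-- at a place where `t` is regular, `t − t(v)` has positive order. -/
theorem s17nd_val_ord (t : FF N) (hnc : ∀ c : Kb, t ≠ algebraMap Kb (FF N) c)
    (v : Place Kb (FF N)) (ht : t ∈ v.toValuationSubring) :
    0 < v.ord (t - algebraMap Kb (FF N) (s17ndVal N t v)) :=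
  (PlaceAux.ord_pos_iff_mem_nonunits v (sub_ne_zero.2 (hnc _))).2 (s17nd_val_spec t v ht)

variable (N)

/-- **the Chow form** `∏_v (X − t(v))^{D v}` of a divisor. -/
def s17ndChow (t : FF N) (D : Divisor Kb (FF N)) : Kb[X] :=
  ∏ v ∈ D.support, (X - C (s17ndVal N t v)) ^ (D v).toNat

variable {N}

theorem s17ndChow_monic (t : FF N) (D : Divisor Kb (FF N)) : (s17ndChow N t D).Monic :=
  monic_prod_of_monic _ _ fun _ _ => (monic_X_sub_C _).pow _

theorem s17ndChow_ne_zero (t : FF N) (D : Divisor Kb (FF N)) : s17ndChow N t D ≠ 0 :=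
  (s17ndChow_monic t D).ne_zero

/-- every place of `F_N` has degree `1`. -/
theorem s17nd_deg_one (v : Place Kb (FF N)) : v.deg = 1 :=
  s27rd_deg_one v (s17h90_res_surj N v)

/-- the degree of a divisor of `F_N` is the sum of its values. -/
theorem s17nd_degree_eq_sum (E : Divisor Kb (FF N)) :
    Divisor.degree E = E.sum fun _ n => n := by
  induction E using Finsupp.induction with
  | zero => simp
  | single_add v n E hv hn ih =>
      rw [map_add, ih, Divisor.degree_single, s17nd_deg_one v, Nat.cast_one, mul_one,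
        Finsupp.sum_add_index' (fun _ => rfl) (fun _ _ _ => rfl), Finsupp.sum_single_index rfl]

/-- the degree of the Chow form of an effective divisor is the degree of the divisor. -/
theorem s17ndChow_natDegree (t : FF N) (D : Divisor Kb (FF N)) (hD : 0 ≤ D) :
    ((s17ndChow N t D).natDegree : ℤ) = Divisor.degree D := by
  classical
  unfold s17ndChow
  rw [natDegree_prod_of_monic _ _ fun _ _ => (monic_X_sub_C _).pow _,
    s17nd_degree_eq_sum D, Finsupp.sum, Nat.cast_sum]
  refine Finset.sum_congr rfl fun v _ => ?_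
  rw [(monic_X_sub_C _).natDegree_pow, natDegree_X_sub_C, mul_one]
  exact Int.toNat_of_nonneg (by simpa using Finsupp.le_def.mp hD v)

/-- **equivariance of the Chow form.** -/
theorem s17ndChow_smul (t : FF N) (hfix : ∀ σ : Kb ≃ₐ[ℚ] Kb, galAct N σ • t = t)
    (σ : Kb ≃ₐ[ℚ] Kb) (D : Divisor Kb (FF N))
    (hD : ∀ v ∈ D.support, t ∈ v.toValuationSubring) :
    s17ndChow N t (galAct N σ • D) = (s17ndChow N t D).map (σ : Kb →+* Kb) := by
  classical
  have hinj : Function.Injective (fun v : Place Kb (FF N) => galAct N σ • v) :=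
    MulAction.injective _
  unfold s17ndChow
  rw [SemilinearAut.divisor_smul_def, Finsupp.mapDomain_support_of_injective hinj,
    Finset.prod_image (fun x _ y _ h => hinj h), Polynomial.map_prod]
  refine Finset.prod_congr rfl fun v hv => ?_
  rw [Finsupp.mapDomain_apply hinj, s17nd_val_smul t hfix σ v (hD v hv), Polynomial.map_pow,
    Polynomial.map_sub, Polynomial.map_X, Polynomial.map_C]
  rfl

/-- **rationality of the Chow form** of a Galois-invariant divisor. -/
theorem s17ndChow_rat (t : FF N) (hfix : ∀ σ : Kb ≃ₐ[ℚ] Kb, galAct N σ • t = t)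
    (D : Divisor Kb (FF N)) (hD : ∀ v ∈ D.support, t ∈ v.toValuationSubring)
    (hinv : ∀ σ : Kb ≃ₐ[ℚ] Kb, galAct N σ • D = D) :
    ∃ Q : ℚ[X], Q.map (algebraMap ℚ Kb) = s17ndChow N t D := by
  have hco : ∀ n, ∃ q : ℚ, algebraMap ℚ Kb q = (s17ndChow N t D).coeff n := by
    intro n
    apply s17pr_rat_of_fixed
    intro σ
    have h := s17ndChow_smul t hfix σ D hD
    rw [hinv σ] at h
    have := congrArg (fun P : Kb[X] => P.coeff n) h
    simp only [coeff_map] at this
    exact this.symm
  have hlift : s17ndChow N t D ∈ Polynomial.lifts (algebraMap ℚ Kb) := by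
    rw [Polynomial.lifts_iff_coeff_lifts]
    intro n
    obtain ⟨q, hq⟩ := hco n
    exact ⟨q, hq⟩
  exact (Polynomial.mem_lifts _).1 hlift

variable (N)

open scoped Classical in
/-- the rational Chow form (`1` if the Chow form is not rational). -/
def s17ndRat (t : FF N) (D : Divisor Kb (FF N)) : ℚ[X] :=
  if h : ∃ Q : ℚ[X], Q.map (algebraMap ℚ Kb) = s17ndChow N t D then h.choose else 1

/-- the multiplicative height of the coefficient vector of the rational Chow form. -/
def s17ndHtMul (t : FF N) (D : Divisor Kb (FF N)) : ℝ :=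
  mulHeight (fun j : Fin ((s17ndRat N t D).natDegree + 1) => (s17ndRat N t D).coeff (j : ℕ))

variable {N}

theorem s17ndRat_map (t : FF N) (D : Divisor Kb (FF N))
    (h : ∃ Q : ℚ[X], Q.map (algebraMap ℚ Kb) = s17ndChow N t D) :
    (s17ndRat N t D).map (algebraMap ℚ Kb) = s17ndChow N t D := by
  unfold s17ndRat
  rw [dif_pos h]
  exact h.choose_spec

theorem s17ndRat_monic (t : FF N) (D : Divisor Kb (FF N)) : (s17ndRat N t D).Monic := by
  by_cases h : ∃ Q : ℚ[X], Q.map (algebraMap ℚ Kb) = s17ndChow N t D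
  · apply monic_of_injective (algebraMap ℚ Kb).injective
    rw [s17ndRat_map t D h]
    exact s17ndChow_monic t D
  · unfold s17ndRat
    rw [dif_neg h]
    exact monic_one

theorem s17ndRat_natDegree (t : FF N) (D : Divisor Kb (FF N))
    (h : ∃ Q : ℚ[X], Q.map (algebraMap ℚ Kb) = s17ndChow N t D) :
    (s17ndRat N t D).natDegree = (s17ndChow N t D).natDegree := by
  rw [← s17ndRat_map t D h, natDegree_map]

theorem s17ndHtMul_one_le (t : FF N) (D : Divisor Kb (FF N)) : 1 ≤ s17ndHtMul N t D :=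
  one_le_mulHeight _

/-- **finitely many effective divisors with a given Chow form.** -/
theorem s17nd_fibre_finite (t : FF N) (hnc : ∀ c : Kb, t ≠ algebraMap Kb (FF N) c)
    (P : Kb[X]) :
    {D : Divisor Kb (FF N) | 0 ≤ D ∧ (∀ v ∈ D.support, t ∈ v.toValuationSubring) ∧
      s17ndChow N t D = P}.Finite := by
  classical
  haveI := hasPrincipalDivisors_FF N
  by_cases hP : P = 0
  · refine Set.Finite.subset Set.finite_empty ?_
    rintro D ⟨-, -, h⟩
    exact (s17ndChow_ne_zero t D (h.trans hP)).elim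
  -- the finite set of admissible places
  set S : Set (Place Kb (FF N)) :=
    ⋃ c ∈ P.roots.toFinset, {v : Place Kb (FF N) | 0 < v.ord (t - algebraMap Kb (FF N) c)}
    with hSdef
  have hS : S.Finite :=
    Set.Finite.biUnion P.roots.toFinset.finite_toSet fun c _ => s17nc_fibre_finite t hnc c
  haveI : Finite ↥S := hS.to_subtype
  -- facts on the members
  have hkey : ∀ D : Divisor Kb (FF N), 0 ≤ D → (∀ v ∈ D.support, t ∈ v.toValuationSubring) →
      s17ndChow N t D = P → ∀ v : Place Kb (FF N),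
        (v ∈ D.support → v ∈ S) ∧ 0 ≤ D v ∧ D v ≤ (P.natDegree : ℤ) := by
    intro D hD0 hDreg hDP v
    have h0 : 0 ≤ D v := by simpa using Finsupp.le_def.mp hD0 v
    refine ⟨fun hv => ?_, h0, ?_⟩
    · have hne : D v ≠ 0 := Finsupp.mem_support_iff.1 hv
      have hpos : 0 < (D v).toNat := by
        omega
      rw [hSdef, Set.mem_iUnion₂]
      refine ⟨s17ndVal N t v, ?_, s17nd_val_ord t hnc v (hDreg v hv)⟩
      rw [Multiset.mem_toFinset, mem_roots hP, ← hDP, IsRoot.def]
      unfold s17ndChow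
      rw [eval_prod]
      refine Finset.prod_eq_zero hv ?_
      rw [eval_pow, eval_sub, eval_X, eval_C, sub_self]
      exact zero_pow hpos.ne'
    · by_cases hv : v ∈ D.support
      · have hdvd : (X - C (s17ndVal N t v)) ^ (D v).toNat ∣ P := by
          rw [← hDP]
          unfold s17ndChow
          exact Finset.dvd_prod_of_mem _ hv
        have h1 := natDegree_le_of_dvd hdvd hP
        rw [(monic_X_sub_C _).natDegree_pow, natDegree_X_sub_C, mul_one] at h1
        have h2 : ((D v).toNat : ℤ) = D v := Int.toNat_of_nonneg h0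
        omega
      · rw [Finsupp.notMem_support_iff.1 hv]
        exact Int.natCast_nonneg _
  -- injection into the functions `S → [0, deg P]`
  refine Set.Finite.of_finite_image
    (f := fun (D : Divisor Kb (FF N)) (v : ↥S) => D (v : Place Kb (FF N))) ?_ ?_
  · refine (Set.Finite.pi fun _ : ↥S => Set.finite_Icc (0 : ℤ) (P.natDegree : ℤ)).subset ?_
    rintro _ ⟨D, ⟨hD0, hDreg, hDP⟩, rfl⟩
    rw [Set.mem_univ_pi]
    intro v
    exact ⟨(hkey D hD0 hDreg hDP v).2.1, (hkey D hD0 hDreg hDP v).2.2⟩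
  · rintro D ⟨hD0, hDreg, hDP⟩ D' ⟨hD0', hDreg', hDP'⟩ h
    ext v
    by_cases hv : v ∈ S
    · exact congrFun h ⟨v, hv⟩
    · have h1 : v ∉ D.support := fun hh => hv ((hkey D hD0 hDreg hDP v).1 hh)
      have h2 : v ∉ D'.support := fun hh => hv ((hkey D' hD0' hDreg' hDP' v).1 hh)
      rw [Finsupp.notMem_support_iff.1 h1, Finsupp.notMem_support_iff.1 h2]

/-- **NC-DIV**: the effective, Galois-invariant divisors off the poles of `t` whose Chow form has
degree `≤ d` and height `≤ B` are finitely many. -/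
theorem s17nd_finite (t : FF N) (hfix : ∀ σ : Kb ≃ₐ[ℚ] Kb, galAct N σ • t = t)
    (hnc : ∀ c : Kb, t ≠ algebraMap Kb (FF N) c) (d : ℕ) (B : ℝ) :
    {D : Divisor Kb (FF N) | 0 ≤ D ∧ (∀ v ∈ D.support, t ∈ v.toValuationSubring) ∧
      (∀ σ : Kb ≃ₐ[ℚ] Kb, galAct N σ • D = D) ∧ (s17ndChow N t D).natDegree ≤ d ∧
      s17ndHtMul N t D ≤ B}.Finite := by
  classical
  -- the finitely many rational Chow forms
  set T : Set ℚ[X] := ⋃ g ∈ Finset.range (d + 1),
    {Q : ℚ[X] | Q.Monic ∧ Q.natDegree = g ∧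
      mulHeight (fun j : Fin (g + 1) => Q.coeff (j : ℕ)) ≤ B} with hTdef
  have hT : T.Finite :=
    Set.Finite.biUnion (Finset.range (d + 1)).finite_toSet fun g _ => s17nc_northcott_poly g B
  refine (Set.Finite.biUnion hT fun Q _ =>
    s17nd_fibre_finite t hnc (Q.map (algebraMap ℚ Kb))).subset ?_
  rintro D ⟨hD0, hDreg, hDinv, hDd, hDB⟩
  have hrat := s17ndChow_rat t hfix D hDreg hDinv
  rw [Set.mem_iUnion₂]
  refine ⟨s17ndRat N t D, ?_, hD0, hDreg, (s17ndRat_map t D hrat).symm⟩
  rw [hTdef, Set.mem_iUnion₂]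
  refine ⟨(s17ndRat N t D).natDegree, ?_, s17ndRat_monic t D, rfl, hDB⟩
  rw [Finset.mem_range, s17ndRat_natDegree t D hrat]
  omega

variable (N)

/-- **the Chow height of the reduced divisor**, a height on the Mordell–Weil group. -/
def s17ndHeight (t : FF N) (x : s17MW N) : ℝ :=
  Real.log (s17ndHtMul N t (s17h90Red N (x : JZero N)))

variable {N}

theorem s17ndHeight_nonneg (t : FF N) (x : s17MW N) : 0 ≤ s17ndHeight N t x :=
  Real.log_nonneg (s17ndHtMul_one_le t _)

/-- **NORTHCOTT** for the Chow height of the reduced divisor. -/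
theorem s17nd_northcott (t : FF N) (hfix : ∀ σ : Kb ≃ₐ[ℚ] Kb, galAct N σ • t = t)
    (hreg : ∀ v : Place Kb (FF N), v ≠ cuspInf N → t ∈ v.toValuationSubring)
    (hnc : ∀ c : Kb, t ≠ algebraMap Kb (FF N) c) (B : ℝ) :
    {x : s17MW N | s17ndHeight N t x ≤ B}.Finite := by
  classical
  have hinj : Function.Injective (fun x : s17MW N => s17h90Red N (x : JZero N)) :=
    fun x y h => Subtype.ext (s17h90Red_injective N h)
  refine (Set.Finite.preimage (hinj.injOn)
    (s17nd_finite t hfix hnc (genusFF Kb (FF N)) (Real.exp B))).subset ?_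
  intro x hx
  rw [Set.mem_preimage]
  have hred := s17h90Red_reduced N (x : JZero N)
  have hsupp : ∀ v ∈ (s17h90Red N (x : JZero N)).support, t ∈ v.toValuationSubring := by
    intro v hv
    apply hreg
    rintro rfl
    exact (Finsupp.mem_support_iff.1 hv) (s27rd_apply_P₀ hred)
  refine ⟨hred.1, hsupp, fun σ => s17h90_main_fixed N x σ, ?_, ?_⟩
  · have h1 := s17ndChow_natDegree t _ hred.1
    have h2 := s17h90_deg_le N hred
    omega
  · exact (Real.log_le_iff_le_exp (lt_of_lt_of_le one_pos (s17ndHtMul_one_le t _))).1 hx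

variable (N)

/-- for `N ≥ 2`: a nonnegative height on the Mordell–Weil group with the Northcott property. -/
theorem s17nd_exists_height (hN : 2 ≤ N) :
    ∃ h : s17MW N → ℝ, (∀ x, 0 ≤ h x) ∧ ∀ B : ℝ, {x : s17MW N | h x ≤ B}.Finite := by
  obtain ⟨t, h1, h2, h3⟩ := s17rf_exists N hN
  exact ⟨s17ndHeight N t, s17ndHeight_nonneg t, s17nd_northcott t h1 h2 h3⟩

/-! ### the same in the language of `S17/ChowFF.lean` -/

/-- finitely many monic rational polynomials of degree `≤ g` of bounded height (coefficient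
vector in `ℚ^{g+1}`). -/
theorem s17nd_poly_finite (g : ℕ) (B : ℝ) :
    {q : ℚ[X] | q.Monic ∧ q.natDegree ≤ g ∧
      mulHeight (fun j : Fin (g + 1) => q.coeff (j : ℕ)) ≤ B}.Finite := by
  have hA : (⋃ n : Fin (g + 1), {y : Fin (g + 1) → ℚ | y n = 1 ∧ mulHeight y ≤ B}).Finite :=
    Set.finite_iUnion fun n => s17nc_northcott_affine (K := ℚ) n B
  refine Set.Finite.of_finite_image
    (f := fun q : ℚ[X] => fun j : Fin (g + 1) => q.coeff (j : ℕ)) (hA.subset ?_) ?_
  · rintro y ⟨q, ⟨hm, hd, hB⟩, rfl⟩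
    rw [Set.mem_iUnion]
    refine ⟨⟨q.natDegree, by omega⟩, ?_, hB⟩
    show q.coeff q.natDegree = 1
    exact hm.coeff_natDegree
  · rintro q ⟨-, hd, -⟩ q' ⟨-, hd', -⟩ h
    ext n
    by_cases hn : n ≤ g
    · exact congrFun h ⟨n, by omega⟩
    · rw [coeff_eq_zero_of_natDegree_lt (by omega), coeff_eq_zero_of_natDegree_lt (by omega)]

/-- the Chow height of `S17/ChowFF.lean`, on the Mordell–Weil group. -/
def s17ndHtFF (t : FF N) (x : s17MW N) : ℝ :=
  logHeight (fun j : Fin (genusFF Kb (FF N) + 1) =>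
    (s17chfPoly N t (x : JZero N)).coeff (j : ℕ))

variable {N}

theorem s17ndHtFF_nonneg (t : FF N) (x : s17MW N) : 0 ≤ s17ndHtFF N t x :=
  Real.log_nonneg (one_le_mulHeight _)

/-- **NORTHCOTT** for the Chow height of `S17/ChowFF.lean`. -/
theorem s17nd_northcott_FF (t : FF N) (hnc : ∀ c : Kb, t ≠ algebraMap Kb (FF N) c)
    (htΓ : ∀ σ : Kb ≃ₐ[ℚ] Kb, galAct N σ • t = t)
    (ht : ∀ v : Place Kb (FF N), v ≠ cuspInf N → 0 ≤ v.ord t) (B : ℝ) :
    {x : s17MW N | s17ndHtFF N t x ≤ B}.Finite := by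
  classical
  have hP := s17nd_poly_finite (genusFF Kb (FF N)) (Real.exp B)
  refine (Set.Finite.biUnion hP fun q _ =>
    Set.Finite.preimage (f := fun x : s17MW N => (x : JZero N)) Subtype.val_injective.injOn
      (s17chfPoly_fibre_finite N t hnc htΓ ht q)).subset ?_
  intro x hx
  rw [Set.mem_iUnion₂]
  refine ⟨s17chfPoly N t (x : JZero N),
    ⟨s17chfPoly_monic N t _, s17chfPoly_natDegree_le N t _, ?_⟩, ?_⟩
  · exact (Real.log_le_iff_le_exp (mulHeight_pos _)).1 hx
  · rw [Set.mem_preimage]
    exact ⟨fun σ => x.2 σ, rfl⟩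

end Fermat.Agent.S17
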