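/-
S17 sprint, layer H — **ORIGIN SHIFT** (helper40): the place statements under a change of origin.

The model's centre is `cl P = sp_P η = [Σ Q i − G₀]` (S17/CentreOnto.lean `s17coCl`), the Northcott
leaves (S17/PlNU.lean, H90) use `cl' P = [Σ Q i − g·∞] = cl P + δ`, `δ = [G₀ − g·∞]`, and `δ` is NOT
rational in general.  Formal facts, for `cl₂ = cl + δ` (`δ` ANY constant class):

* `s17nsh_plT`   : (T) is invariant: `S17hyPlT cl H a → S17hyPlT cl₂ H a`;
* `s17nsh_plN`   : (T) + (N) for `cl` ⇒ (N) for `cl₂`  (a place over the rational class `x` for `cl₂`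
                   has a translate over `x` for `cl` of height `≤ a · H + c_δ`);
* `s17nsh_plT_x`, `s17nsh_plN_x` : the same in the shape of S17/HTop.lean (`a = 2`);
* `s17nsh_plN_sub`, `s17nsh_plT_sub` : the same with `cl = cl₂ + δ`.
REMARK: (M′) is NOT invariant under a change of origin (`m • (cl − δ) = cl − δ` is another equation),
so (M′) has to be proved for the model's `cl = sp_P η`, where `x_{P∘ψ_m} = m • x_P` holds.
-/
import Fermat.Agent.S17.HTopAB

set_option autoImplicit false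

namespace Fermat.Agent.S17

open ModularCurve AlgebraicCurve

variable {N : ℕ} [NeZero N] {P : Type*}

/-- (T) does not depend on the origin. -/
theorem s17nsh_plT (cl cl₂ : P → JZero N) (H : P → ℝ) (a : ℝ) (δ : JZero N)
    (h : ∀ p, cl₂ p = cl p + δ) (hT : S17hyPlT cl H a) : S17hyPlT cl₂ H a := by
  intro g
  obtain ⟨c, hc⟩ := hT g
  refine ⟨c, fun p => ?_⟩
  obtain ⟨p₁, h1, h2⟩ := hc p
  refine ⟨p₁, ?_, h2⟩
  rw [h p₁, h p, ← h1]
  abel

/-- (T) + (N) for `cl` give (N) for every shifted origin `cl₂ = cl + δ`. -/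
theorem s17nsh_plN (cl cl₂ : P → JZero N) (H : P → ℝ) (a : ℝ) (ha : 0 ≤ a) (δ : JZero N)
    (h : ∀ p, cl₂ p = cl p + δ) (hT : S17hyPlT cl H a) (hN : S17hxPlN cl H) :
    S17hxPlN cl₂ H := by
  intro B
  obtain ⟨c, hc⟩ := hT (-δ)
  refine (hN (a * B + c)).subset ?_
  rintro x ⟨p, hp, hB⟩
  obtain ⟨p₁, h1, h2⟩ := hc p
  refine ⟨p₁, ?_, ?_⟩
  · have h3 : cl p₁ = cl p + δ := by
      rw [← h1]
      abel
    rw [h3, ← h p, hp]
  · have h4 : a * H p ≤ a * B := mul_le_mul_of_nonneg_left hB ha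
    linarith

/-- (T) in the shape of S17/HTop.lean does not depend on the origin. -/
theorem s17nsh_plT_x (cl cl₂ : P → JZero N) (H : P → ℝ) (δ : JZero N)
    (h : ∀ p, cl₂ p = cl p + δ) (hT : S17hxPlT cl H) : S17hxPlT cl₂ H :=
  s17nsh_plT cl cl₂ H 2 δ h hT

/-- (T) + (N) for `cl` give (N) for `cl₂ = cl + δ`, in the shape of S17/HTop.lean. -/
theorem s17nsh_plN_x (cl cl₂ : P → JZero N) (H : P → ℝ) (δ : JZero N)
    (h : ∀ p, cl₂ p = cl p + δ) (hT : S17hxPlT cl H) (hN : S17hxPlN cl H) :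
    S17hxPlN cl₂ H :=
  s17nsh_plN cl cl₂ H 2 (by norm_num) δ h hT hN

/-- the same with the shift written as a subtraction: `cl₂ = cl − δ`. -/
theorem s17nsh_plN_sub (cl cl₂ : P → JZero N) (H : P → ℝ) (a : ℝ) (ha : 0 ≤ a) (δ : JZero N)
    (h : ∀ p, cl p = cl₂ p + δ) (hT : S17hyPlT cl H a) (hN : S17hxPlN cl H) :
    S17hxPlN cl₂ H :=
  s17nsh_plN cl cl₂ H a ha (-δ) (fun p => by rw [h p]; abel) hT hN

/-- (T) with the shift written as a subtraction. -/
theorem s17nsh_plT_sub (cl cl₂ : P → JZero N) (H : P → ℝ) (a : ℝ) (δ : JZero N)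
    (h : ∀ p, cl p = cl₂ p + δ) (hT : S17hyPlT cl H a) : S17hyPlT cl₂ H a :=
  s17nsh_plT cl cl₂ H a (-δ) (fun p => by rw [h p]; abel) hT

end Fermat.Agent.S17
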