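/-
S17 sprint, layer H — **ORIGIN BRIDGE** (helper40): the two classes of the centre divisor.

For a tuple `Q` of `g` places of `FF N / ℚ̄` and an origin `G₀` of degree `g`:

  `[Σ Q i − G₀] + δ = [Σ Q i − g·∞]`,     `δ := [G₀ − g·∞] = Pic0.mk (s17h90Div N G₀)`,

i.e. `s27pkgClO hdeg G₀ hG₀ Q + s17obDelta N G₀ = s17pnuCl N Q` (S27/DegPkgO.lean, S17/PlNU.lean).
With S17/NorthShift.lean (`s17nsh_plN`, `s17nsh_plT`) the place statements (T), (N) pass between the
model's centre `cl P = sp_P η = [Σ Q i − G₀]` and the centre `[Σ Q i − g·∞]` of the Northcott leaves.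

* `s17obDelta N G₀`      : the class `δ`;
* `s17ob_cl`             : the displayed identity;
* `s17ob_cl_sub`         : `[Σ Q i − G₀] = [Σ Q i − g·∞] − δ`;
* `s17obDeltaMd N`, `s17ob_model`, `s17ob_model_sub` : the same for the centre `s17mdCl N P` of the
                           MODEL (S17/Model.lean), `Q i` the centres of `P` on the tautological points.
-/
import Fermat.Agent.S17.PlNU
import Fermat.Agent.S17.Model
import Fermat.Agent.S27.DegPkgO

set_option autoImplicit false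
set_option linter.unusedVariables false
set_option linter.unusedSectionVars false

noncomputable section

namespace Fermat.Agent.S17

open ModularCurve AlgebraicCurve
open Fermat.Agent.S24 Fermat.Agent.S27

variable (N : ℕ) [NeZero N]

/-- the class `δ = [G₀ − (deg G₀)·∞]` of the origin shift. -/
def s17obDelta (G₀ : Divisor Kb (FF N)) : JZero N :=
  Pic0.mk (s17h90Div N G₀)

/-- **origin bridge**: `[Σ Q i − G₀] + [G₀ − g·∞] = [Σ Q i − g·∞]`. -/
theorem s17ob_cl (hdeg : ∀ w : Place Kb (FF N), w.deg = 1) {g : ℕ} (G₀ : Divisor Kb (FF N))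
    (hG₀ : Divisor.degree G₀ = g) (Q : Fin g → Place Kb (FF N)) :
    s27pkgClO hdeg G₀ hG₀ Q + s17obDelta N G₀ = s17pnuCl N Q := by
  unfold s27pkgClO s17obDelta s17pnuCl Pic0.mk
  rw [← QuotientAddGroup.mk_add]
  congr 1
  apply Subtype.ext
  have hsum : s17pnuDiv N Q = s27pkgSum Q := rfl
  have hdegQ : Divisor.degree (s17pnuDiv N Q) = g := by
    rw [hsum]
    exact s27pkgSum_degree hdeg Q
  show (s27pkgDivZeroO hdeg G₀ hG₀ Q : Divisor Kb (FF N)) +
      (s17h90Div N G₀ : Divisor Kb (FF N)) = (s17h90Div N (s17pnuDiv N Q) : Divisor Kb (FF N))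
  rw [s27pkgDivZeroO_coe, s17h90Div_coe, s17h90Div_coe, hdegQ, hG₀, hsum]
  abel

/-- `[Σ Q i − G₀] = [Σ Q i − g·∞] − δ`. -/
theorem s17ob_cl_sub (hdeg : ∀ w : Place Kb (FF N), w.deg = 1) {g : ℕ} (G₀ : Divisor Kb (FF N))
    (hG₀ : Divisor.degree G₀ = g) (Q : Fin g → Place Kb (FF N)) :
    s27pkgClO hdeg G₀ hG₀ Q = s17pnuCl N Q - s17obDelta N G₀ := by
  rw [← s17ob_cl N hdeg G₀ hG₀ Q]
  abel

/-- the origin shift of the model. -/
def s17obDeltaMd : JZero N := s17obDelta N (s17mdG0 N)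

/-- **origin bridge on the model**: `cl P + δ = [Σ Q i − g·∞]`. -/
theorem s17ob_model (hdeg : ∀ w : Place Kb (FF N), w.deg = 1) (P : s17mdP N)
    (Q : Fin (genusFF Kb (FF N)) → Place Kb (FF N))
    (hQ : ∀ i, S27ptIsCentre P.W
      (s27pfTaut (K := Kb) (F := FF N) (g := genusFF Kb (FF N)) (L := s17mdL N) i) (Q i)) :
    s17mdCl N P + s17obDeltaMd N = s17pnuCl N Q := by
  rw [s17mdCl_eq N hdeg P Q hQ]
  exact s17ob_cl N hdeg (s17mdG0 N) (s17md_hG0 N) Q

/-- `cl P = [Σ Q i − g·∞] − δ` on the model. -/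
theorem s17ob_model_sub (hdeg : ∀ w : Place Kb (FF N), w.deg = 1) (P : s17mdP N)
    (Q : Fin (genusFF Kb (FF N)) → Place Kb (FF N))
    (hQ : ∀ i, S27ptIsCentre P.W
      (s27pfTaut (K := Kb) (F := FF N) (g := genusFF Kb (FF N)) (L := s17mdL N) i) (Q i)) :
    s17mdCl N P = s17pnuCl N Q - s17obDeltaMd N := by
  rw [← s17ob_model N hdeg P Q hQ]
  abel

end Fermat.Agent.S17

end
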