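/-
S17 sprint, layer H — **PlN AT THE STAGE LEVEL** (helper40): helper99's `s17pnu_plN`
(S17/PlNU.lean, centre `[Σ Q i − g·∞]`) transported to the centre map `s17sxCl` and the height
`s17sxHt s` of helper77's S17/StageTop.lean, for ANY constants `(x, G₀)` of the stage and ANY
finite tuple `s ≠ 0` — the shape of the conjunct (N) of `S17sxStmtAt`.

* `s17pns_exists_centre` : every `ℚ̄`-place of `L` has centres on the tautological points;
* `s17pns_cl`            : `s17sxCl … P + δ = s17pnuCl N Q`, `δ = s17obDelta N G₀ = [G₀ − g·∞]`;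
* **`s17pns_plN`**       : CHOW BLOCK `hG` + VISIBILITY `hvis` at good places + (T) for
                           `(s17sxCl, s17sxHt s)` ⇒ `S17hxPlN (s17sxCl …) (s17sxHt s)`;
* `s17pns_plN_y`         : the same with (T) in the free-constant shape `S17hyPlT … 2`.
-/
import Fermat.Agent.S17.OriginBridge
import Fermat.Agent.S17.NorthShift
import Fermat.Agent.S17.CentreHom
import Fermat.Agent.S17.NorthDiv
import Fermat.Agent.S17.StageTop

set_option autoImplicit false
set_option linter.unusedVariables false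
set_option linter.unusedSectionVars false
set_option linter.style.haveILetI false
set_option linter.style.longLine false

noncomputable section

namespace Fermat.Agent.S17

open ModularCurve AlgebraicCurve Module TensorProduct IntermediateField
open Fermat.Agent.S24 Fermat.Agent.ES.M Fermat.Agent.ES.H Fermat.Agent.S15 Fermat.Agent.S26
  Fermat.Agent.S27 Fermat.Agent.DEU

universe y

variable (N : ℕ) [NeZero N] [IsCurveOver Kb (FF N)] [Algebra.EssFiniteType Kb (FF N)]
  {L : Type} [Field L] [Algebra Kb L]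
  [Algebra (s27gfOm Kb (FF N) (genusFF Kb (FF N))) L]
  [IsScalarTower Kb (s27gfOm Kb (FF N) (genusFF Kb (FF N))) L]
  [IsAlgClosed L] [Algebra.IsAlgebraic (s27gfOm Kb (FF N) (genusFF Kb (FF N))) L]
  {FL : Type y} [Field FL] [Algebra Kb FL] [Algebra (FF N) FL] [Algebra L FL]
  [IsScalarTower Kb (FF N) FL] [IsScalarTower Kb L FL]
  (hld : Function.Injective (s26gspMu Kb (FF N) L FL)) (hgen : S26gspGen Kb (FF N) L FL)
  {x : FF N} (hx : Transcendental Kb x)
  [FiniteDimensional ↥(IntermediateField.adjoin Kb {x}) (FF N)]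
  [Algebra.IsSeparable ↥(IntermediateField.adjoin Kb {x}) (FF N)]
  (G₀ : Divisor Kb (FF N)) (hG₀ : Divisor.degree G₀ = (genusFF Kb (FF N) : ℤ))

include hx in
/-- every `ℚ̄`-place of `L` has centres on the tautological points. -/
theorem s17pns_exists_centre (P : S17plPlace Kb L) :
    ∃ Q : Fin (genusFF Kb (FF N)) → Place Kb (FF N), ∀ i, S27ptIsCentre P.W
      (s27pfTaut (K := Kb) (F := FF N) (g := genusFF Kb (FF N)) (L := L) i) (Q i) := by
  have h : ∀ i, ∃ Q : Place Kb (FF N), S27ptIsCentre P.W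
      (s27pfTaut (K := Kb) (F := FF N) (g := genusFF Kb (FF N)) (L := L) i) Q :=
    fun i => s17ch2_exists_centre P hx _
  exact ⟨fun i => Classical.choose (h i), fun i => Classical.choose_spec (h i)⟩

/-- **origin bridge at the stage level**: `cl P + δ = [Σ Q i − g·∞]`. -/
theorem s17pns_cl (P : S17plPlace Kb L) (Q : Fin (genusFF Kb (FF N)) → Place Kb (FF N))
    (hQ : ∀ i, S27ptIsCentre P.W
      (s27pfTaut (K := Kb) (F := FF N) (g := genusFF Kb (FF N)) (L := L) i) (Q i)) :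
    s17sxCl N (L := L) hld hgen hx G₀ hG₀ P + s17obDelta N G₀ = s17pnuCl N Q := by
  unfold s17sxCl
  rw [s17coCl_eq hld hgen hx G₀ hG₀ P Q hQ]
  exact s17ob_cl N _ G₀ hG₀ Q

variable {ι : Type*} [Fintype ι]

/-- **PlN at the stage level.** -/
theorem s17pns_plN (s : ι → L) (hs : s ≠ 0) (t : FF N)
    (hnc : ∀ c : Kb, t ≠ algebraMap Kb (FF N) c)
    (htΓ : ∀ σ : Kb ≃ₐ[ℚ] Kb, galAct N σ • t = t)
    (ht : ∀ v : Place Kb (FF N), v ≠ cuspInf N → 0 ≤ v.ord t)
    (c : Fin (genusFF Kb (FF N) + 1) → ι → Kb) (Φ : L) (hΦ : Φ ≠ 0)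
    (hG : ∀ n, s17pvLin c s n = Φ * s17cvChow
      (fun i => s27pfTaut (K := Kb) (F := FF N) (g := genusFF Kb (FF N)) (L := L) i t) n)
    (hvis : ∀ (P : S17plPlace Kb L) (α : ι) (hα : S17plIsMin P.W s α)
      (Q : Fin (genusFF Kb (FF N)) → Place Kb (FF N)),
      (∀ i, S27ptIsCentre P.W
        (s27pfTaut (K := Kb) (F := FF N) (g := genusFF Kb (FF N)) (L := L) i) (Q i)) →
      S17poGood N (s17pnuCl N Q) → ∃ j₀, s17pvLinK c (s17plVal P s α hα) j₀ ≠ 0)
    (hT : S17hxPlT (s17sxCl N (L := L) hld hgen hx G₀ hG₀) (s17sxHt s)) :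
    S17hxPlN (s17sxCl N (L := L) hld hgen hx G₀ hG₀) (s17sxHt s) := by
  classical
  choose Q hQ using s17pns_exists_centre N (L := L) hx
  choose α hα using fun P : S17plPlace Kb L => s17pl_exists_min P.W hs
  -- the two heights agree
  have hH : (fun P : S17plPlace Kb L => s17haAbsQ (s17plVal P s (α P) (hα P))) = s17sxHt s := by
    funext P
    exact (s17sxHt_eq s P (α P) (hα P)).symm
  -- the two centres differ by `δ`
  have hcl : ∀ P : S17plPlace Kb L,
      s17pnuCl N (Q P) = s17sxCl N (L := L) hld hgen hx G₀ hG₀ P + s17obDelta N G₀ :=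
    fun P => (s17pns_cl N hld hgen hx G₀ hG₀ P (Q P) (hQ P)).symm
  -- (T) for the shifted centre
  have hT' : S17hxPlT (fun P : S17plPlace Kb L => s17pnuCl N (Q P))
      (fun P : S17plPlace Kb L => s17haAbsQ (s17plVal P s (α P) (hα P))) := by
    rw [hH]
    exact s17nsh_plT_x (s17sxCl N (L := L) hld hgen hx G₀ hG₀) _ (s17sxHt s)
      (s17obDelta N G₀) hcl hT
  -- (N) for the shifted centre
  have hN' := s17pnu_plN N s
    (fun i => s27pfTaut (K := Kb) (F := FF N) (g := genusFF Kb (FF N)) (L := L) i)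
    t hnc htΓ ht c Φ hΦ hG (fun P : S17plPlace Kb L => P) α hα Q hQ
    (fun P hgood => hvis P (α P) (hα P) (Q P) (hQ P) hgood) hT'
  rw [hH] at hN' hT'
  -- back to the centre of the stage
  exact s17nsh_plN_sub (fun P : S17plPlace Kb L => s17pnuCl N (Q P))
    (s17sxCl N (L := L) hld hgen hx G₀ hG₀) (s17sxHt s) 2 (by norm_num) (s17obDelta N G₀)
    hcl hT' hN'

/-- **PlN at the stage level**, (T) in the free-constant shape. -/
theorem s17pns_plN_y (s : ι → L) (hs : s ≠ 0) (t : FF N)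
    (hnc : ∀ c : Kb, t ≠ algebraMap Kb (FF N) c)
    (htΓ : ∀ σ : Kb ≃ₐ[ℚ] Kb, galAct N σ • t = t)
    (ht : ∀ v : Place Kb (FF N), v ≠ cuspInf N → 0 ≤ v.ord t)
    (c : Fin (genusFF Kb (FF N) + 1) → ι → Kb) (Φ : L) (hΦ : Φ ≠ 0)
    (hG : ∀ n, s17pvLin c s n = Φ * s17cvChow
      (fun i => s27pfTaut (K := Kb) (F := FF N) (g := genusFF Kb (FF N)) (L := L) i t) n)
    (hvis : ∀ (P : S17plPlace Kb L) (α : ι) (hα : S17plIsMin P.W s α)
      (Q : Fin (genusFF Kb (FF N)) → Place Kb (FF N)),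
      (∀ i, S27ptIsCentre P.W
        (s27pfTaut (K := Kb) (F := FF N) (g := genusFF Kb (FF N)) (L := L) i) (Q i)) →
      S17poGood N (s17pnuCl N Q) → ∃ j₀, s17pvLinK c (s17plVal P s α hα) j₀ ≠ 0)
    (hT : S17hyPlT (s17sxCl N (L := L) hld hgen hx G₀ hG₀) (s17sxHt s) 2) :
    S17hxPlN (s17sxCl N (L := L) hld hgen hx G₀ hG₀) (s17sxHt s) :=
  s17pns_plN N hld hgen hx G₀ hG₀ s hs t hnc htΓ ht c Φ hΦ hG hvis hT

end Fermat.Agent.S17

end
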