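/-
S17 sprint, layer H — **PlN AT THE STAGE LEVEL, AFFINE FORM** (helper40).

Captain's ruling (A) (07:31Z): PlM / PlT use the local equation `b = B(+1)`, whose unit locus and
Chow coordinates see the OPPOSITE class.  So the Chow block of PlN is the one of a tuple `e` of
class `−η + β c₀` (or `η + β c₀`), not of the tautological tuple.  This file is
S17/PlNStage.lean for such a tuple:

  `e` of class `k • η + β c₀`, `k = ±1`;  `Q i` the centres of `P` on `e i`;
  `[Σ Q i − g·∞] = k • cl P + (c₀ + δ)`  (`s17coCl_affine` + origin bridge);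
  helper99's `s17pnu_plN` gives (N) for `P ↦ [Σ Q i − g·∞]`; origin shift (S17/NorthShift.lean) and
  negation (S17/PlNNeg.lean) bring it back to `cl = s17sxCl`.

* `s17pnf_exists_centre` : centres on ANY tuple `e`;
* `s17pnf_cl`            : `[Σ Q i − g·∞] = k • s17sxCl P + (c₀ + δ)`;
* **`s17pnf_plN_neg`**   : `k = −1`: CHOW BLOCK of `e` + VISIBILITY + (T) ⇒
                           `S17hxPlN (s17sxCl …) (s17sxHt s)`;
* **`s17pnf_plN_pos`**   : `k = 1`: the same.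
-/
import Fermat.Agent.S17.PlNStage
import Fermat.Agent.S17.PlNNeg

set_option autoImplicit false
set_option linter.unusedVariables false
set_option linter.unusedSectionVars false
set_option linter.style.haveILetI false
set_option linter.style.longLine false

noncomputable section

namespace Fermat.Agent.S17

open ModularCurve AlgebraicCurve Module TensorProduct IntermediateField
open Fermat.Agent.S24 Fermat.Agent.ES.M Fermat.Agent.ES.H Fermat.Agent.S15 Fermat.Agent.S26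
  Fermat.Agent.S27 Fermat.Agent.DEU

universe y

variable (N : ℕ) [NeZero N] [IsCurveOver Kb (FF N)] [Algebra.EssFiniteType Kb (FF N)]
  {L : Type} [Field L] [Algebra Kb L]
  [Algebra (s27gfOm Kb (FF N) (genusFF Kb (FF N))) L]
  [IsScalarTower Kb (s27gfOm Kb (FF N) (genusFF Kb (FF N))) L]
  [IsAlgClosed L] [Algebra.IsAlgebraic (s27gfOm Kb (FF N) (genusFF Kb (FF N))) L]
  {FL : Type y} [Field FL] [Algebra Kb FL] [Algebra (FF N) FL] [Algebra L FL]
  [IsScalarTower Kb (FF N) FL] [IsScalarTower Kb L FL]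
  (hld : Function.Injective (s26gspMu Kb (FF N) L FL)) (hgen : S26gspGen Kb (FF N) L FL)
  {x : FF N} (hx : Transcendental Kb x)
  [FiniteDimensional ↥(IntermediateField.adjoin Kb {x}) (FF N)]
  [Algebra.IsSeparable ↥(IntermediateField.adjoin Kb {x}) (FF N)]
  (G₀ : Divisor Kb (FF N)) (hG₀ : Divisor.degree G₀ = (genusFF Kb (FF N) : ℤ))

include hx in
/-- every `ℚ̄`-place of `L` has centres on every tuple of points. -/
theorem s17pnf_exists_centre (e : Fin (genusFF Kb (FF N)) → FF N →ₐ[Kb] L)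
    (P : S17plPlace Kb L) :
    ∃ Q : Fin (genusFF Kb (FF N)) → Place Kb (FF N), ∀ i, S27ptIsCentre P.W (e i) (Q i) := by
  have h : ∀ i, ∃ Q : Place Kb (FF N), S27ptIsCentre P.W (e i) Q :=
    fun i => s17ch2_exists_centre P hx _
  exact ⟨fun i => Classical.choose (h i), fun i => Classical.choose_spec (h i)⟩

/-- the class of the centre divisor of a tuple of class `k • η + β c₀`. -/
theorem s17pnf_cl (k : ℤ) (c₀ : JZero N) (e : Fin (genusFF Kb (FF N)) → FF N →ₐ[Kb] L)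
    (he : (s27dclPkg hld hgen hx G₀ hG₀).cl
        (fun i => (s27dclPkg hld hgen hx G₀ hG₀).pt (e i)) =
      k • ((s27dclPkg hld hgen hx G₀ hG₀).cl
        (fun i => (s27dclPkg hld hgen hx G₀ hG₀).pt
          (s27pfTaut (K := Kb) (F := FF N) (g := genusFF Kb (FF N)) (L := L) i)))
        + s27bcBeta hld hgen (s26gspf_hall hx) c₀)
    (P : S17plPlace Kb L) (Q : Fin (genusFF Kb (FF N)) → Place Kb (FF N))
    (hQ : ∀ i, S27ptIsCentre P.W (e i) (Q i)) :
    s17pnuCl N Q = k • s17sxCl N (L := L) hld hgen hx G₀ hG₀ P + (c₀ + s17obDelta N G₀) := by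
  have h1 := s17coCl_affine hld hgen hx G₀ hG₀ P k c₀ e Q hQ he
  have h2 := s17ob_cl N (s17ds_hdegK (s26gspf_hall hx)) G₀ hG₀ Q
  unfold s17sxCl
  rw [← h2, h1]
  abel

variable {ι : Type*} [Fintype ι]

/-- **PlN at the stage level, tuple of class `−η + β c₀`.** -/
theorem s17pnf_plN_neg (c₀ : JZero N) (e : Fin (genusFF Kb (FF N)) → FF N →ₐ[Kb] L)
    (he : (s27dclPkg hld hgen hx G₀ hG₀).cl
        (fun i => (s27dclPkg hld hgen hx G₀ hG₀).pt (e i)) =
      (-1 : ℤ) • ((s27dclPkg hld hgen hx G₀ hG₀).cl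
        (fun i => (s27dclPkg hld hgen hx G₀ hG₀).pt
          (s27pfTaut (K := Kb) (F := FF N) (g := genusFF Kb (FF N)) (L := L) i)))
        + s27bcBeta hld hgen (s26gspf_hall hx) c₀)
    (s : ι → L) (hs : s ≠ 0) (t : FF N)
    (hnc : ∀ c : Kb, t ≠ algebraMap Kb (FF N) c)
    (htΓ : ∀ σ : Kb ≃ₐ[ℚ] Kb, galAct N σ • t = t)
    (ht : ∀ v : Place Kb (FF N), v ≠ cuspInf N → 0 ≤ v.ord t)
    (c : Fin (genusFF Kb (FF N) + 1) → ι → Kb) (Φ : L) (hΦ : Φ ≠ 0)
    (hG : ∀ n, s17pvLin c s n = Φ * s17cvChow (fun i => e i t) n)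
    (hvis : ∀ (P : S17plPlace Kb L) (α : ι) (hα : S17plIsMin P.W s α)
      (Q : Fin (genusFF Kb (FF N)) → Place Kb (FF N)),
      (∀ i, S27ptIsCentre P.W (e i) (Q i)) →
      S17poGood N (s17pnuCl N Q) → ∃ j₀, s17pvLinK c (s17plVal P s α hα) j₀ ≠ 0)
    (hT : S17hxPlT (s17sxCl N (L := L) hld hgen hx G₀ hG₀) (s17sxHt s)) :
    S17hxPlN (s17sxCl N (L := L) hld hgen hx G₀ hG₀) (s17sxHt s) := by
  classical
  choose Q hQ using s17pnf_exists_centre N (L := L) hx e
  choose α hα using fun P : S17plPlace Kb L => s17pl_exists_min P.W hs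
  have hH : (fun P : S17plPlace Kb L => s17haAbsQ (s17plVal P s (α P) (hα P))) = s17sxHt s := by
    funext P
    exact (s17sxHt_eq s P (α P) (hα P)).symm
  -- `[Σ Q − g∞] = −cl + (c₀ + δ)`
  have hcl : ∀ P : S17plPlace Kb L, s17pnuCl N (Q P) =
      (fun p => -s17sxCl N (L := L) hld hgen hx G₀ hG₀ p) P + (c₀ + s17obDelta N G₀) := by
    intro P
    rw [s17pnf_cl N hld hgen hx G₀ hG₀ (-1) c₀ e he P (Q P) (hQ P)]
    simp
  -- (T) for `−cl`, then for the shifted centre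
  have hTn : S17hxPlT (fun p => -s17sxCl N (L := L) hld hgen hx G₀ hG₀ p) (s17sxHt s) :=
    s17nn_plT_neg (a := 2) hT
  have hT' : S17hxPlT (fun P : S17plPlace Kb L => s17pnuCl N (Q P))
      (fun P : S17plPlace Kb L => s17haAbsQ (s17plVal P s (α P) (hα P))) := by
    rw [hH]
    exact s17nsh_plT_x _ _ (s17sxHt s) (c₀ + s17obDelta N G₀) hcl hTn
  have hN' := s17pnu_plN N s e t hnc htΓ ht c Φ hΦ hG (fun P : S17plPlace Kb L => P) α hα Q hQ
    (fun P hgood => hvis P (α P) (hα P) (Q P) (hQ P) hgood) hT'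
  rw [hH] at hN' hT'
  have hNn : S17hxPlN (fun p => -s17sxCl N (L := L) hld hgen hx G₀ hG₀ p) (s17sxHt s) :=
    s17nsh_plN_sub (fun P : S17plPlace Kb L => s17pnuCl N (Q P)) _ (s17sxHt s) 2
      (by norm_num) (c₀ + s17obDelta N G₀) hcl hT' hN'
  exact s17nn_plN_of_neg hNn

/-- **PlN at the stage level, tuple of class `η + β c₀`.** -/
theorem s17pnf_plN_pos (c₀ : JZero N) (e : Fin (genusFF Kb (FF N)) → FF N →ₐ[Kb] L)
    (he : (s27dclPkg hld hgen hx G₀ hG₀).cl
        (fun i => (s27dclPkg hld hgen hx G₀ hG₀).pt (e i)) =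
      (1 : ℤ) • ((s27dclPkg hld hgen hx G₀ hG₀).cl
        (fun i => (s27dclPkg hld hgen hx G₀ hG₀).pt
          (s27pfTaut (K := Kb) (F := FF N) (g := genusFF Kb (FF N)) (L := L) i)))
        + s27bcBeta hld hgen (s26gspf_hall hx) c₀)
    (s : ι → L) (hs : s ≠ 0) (t : FF N)
    (hnc : ∀ c : Kb, t ≠ algebraMap Kb (FF N) c)
    (htΓ : ∀ σ : Kb ≃ₐ[ℚ] Kb, galAct N σ • t = t)
    (ht : ∀ v : Place Kb (FF N), v ≠ cuspInf N → 0 ≤ v.ord t)
    (c : Fin (genusFF Kb (FF N) + 1) → ι → Kb) (Φ : L) (hΦ : Φ ≠ 0)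
    (hG : ∀ n, s17pvLin c s n = Φ * s17cvChow (fun i => e i t) n)
    (hvis : ∀ (P : S17plPlace Kb L) (α : ι) (hα : S17plIsMin P.W s α)
      (Q : Fin (genusFF Kb (FF N)) → Place Kb (FF N)),
      (∀ i, S27ptIsCentre P.W (e i) (Q i)) →
      S17poGood N (s17pnuCl N Q) → ∃ j₀, s17pvLinK c (s17plVal P s α hα) j₀ ≠ 0)
    (hT : S17hxPlT (s17sxCl N (L := L) hld hgen hx G₀ hG₀) (s17sxHt s)) :
    S17hxPlN (s17sxCl N (L := L) hld hgen hx G₀ hG₀) (s17sxHt s) := by
  classical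
  choose Q hQ using s17pnf_exists_centre N (L := L) hx e
  choose α hα using fun P : S17plPlace Kb L => s17pl_exists_min P.W hs
  have hH : (fun P : S17plPlace Kb L => s17haAbsQ (s17plVal P s (α P) (hα P))) = s17sxHt s := by
    funext P
    exact (s17sxHt_eq s P (α P) (hα P)).symm
  have hcl : ∀ P : S17plPlace Kb L, s17pnuCl N (Q P) =
      s17sxCl N (L := L) hld hgen hx G₀ hG₀ P + (c₀ + s17obDelta N G₀) := by
    intro P
    rw [s17pnf_cl N hld hgen hx G₀ hG₀ 1 c₀ e he P (Q P) (hQ P)]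
    simp
  have hT' : S17hxPlT (fun P : S17plPlace Kb L => s17pnuCl N (Q P))
      (fun P : S17plPlace Kb L => s17haAbsQ (s17plVal P s (α P) (hα P))) := by
    rw [hH]
    exact s17nsh_plT_x _ _ (s17sxHt s) (c₀ + s17obDelta N G₀) hcl hT
  have hN' := s17pnu_plN N s e t hnc htΓ ht c Φ hΦ hG (fun P : S17plPlace Kb L => P) α hα Q hQ
    (fun P hgood => hvis P (α P) (hα P) (Q P) (hQ P) hgood) hT'
  rw [hH] at hN' hT'
  exact s17nsh_plN_sub (fun P : S17plPlace Kb L => s17pnuCl N (Q P)) _ (s17sxHt s) 2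
    (by norm_num) (c₀ + s17obDelta N G₀) hcl hT' hN'

end Fermat.Agent.S17

end
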