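/-
S17 sprint, layer H — **(L2) `hunit` of PlN TOP, TWIN** (helper66; captain's call 07:43Z: double of
the visibility / unit input of PlN).  Route: helper41's `s17hv_unit_good` (S17/HVis.lean) for the
OPPOSITE tuple `q (−1)` of the family + helper40's `s17pnf_cl` (S17/PlNAffine.lean, `k = −1`,
`c₀ = 0`) — independent of S17/PlNUnit.lean (helper74: `s17mce_unit_eta` + `s17u1_off`).

Ruling (A): ONE local equation `b = B (+1) = s27indB ψ β 1`, lifted to `L`:
`y W := ι (b (W ∩ 𝔉))`, `ι = algebraMap 𝔉 L`.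

* `s17ut_cl`          : the centres `Q` of `q (−1)` along `P` have class `[Σ Q − g∞] = −x_P + δ`,
                        `δ = s17pnoShift N G₀`;
* **`s17ut_hunit`**   : `−x_P + δ` GOOD ⇒ `ι (B 1 (P.W ∩ 𝔉))` is a unit of `P.W`;
* `s17utY`, **`s17ut_hunit_y`** : the same in the literal shape of the hypothesis `hunit` of
                        `s17pnt_plN` (S17/PlNTop.lean) and `s17pno_plN_unit` (S17/PlNOpp.lean);
* **`s17ut_hunit_stage`** : on the closed stage `L = s27mtL`, `β = s27beta (G₀ + Ao)`, ANY constants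
                        `hc : S27cstIsConst x G₀ (cuspInf N)`, ANY family `q`.
-/
import Fermat.Agent.S17.HVis
import Fermat.Agent.S17.PlNAffine
import Fermat.Agent.S17.PlNOpp

set_option autoImplicit false
set_option linter.unusedVariables false
set_option linter.unusedSectionVars false
set_option linter.style.haveILetI false
set_option linter.style.longLine false

noncomputable section

namespace Fermat.Agent.S17

open ModularCurve AlgebraicCurve Module TensorProduct IntermediateField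
open Fermat.Agent.S24 Fermat.Agent.ES.M Fermat.Agent.ES.H Fermat.Agent.S15 Fermat.Agent.S26
  Fermat.Agent.S27 Fermat.Agent.DEU

universe y

section Stage

variable (N : ℕ) [NeZero N] [IsCurveOver Kb (FF N)] [Algebra.EssFiniteType Kb (FF N)]
  {L : Type} [Field L] [Algebra Kb L]
  [Algebra (s27gfOm Kb (FF N) (genusFF Kb (FF N))) L]
  [IsScalarTower Kb (s27gfOm Kb (FF N) (genusFF Kb (FF N))) L]
  [IsAlgClosed L] [Algebra.IsAlgebraic (s27gfOm Kb (FF N) (genusFF Kb (FF N))) L]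
  [IsGalois (s27gfSym Kb (FF N) (genusFF Kb (FF N))) L]
  {FL : Type y} [Field FL] [Algebra Kb FL] [Algebra (FF N) FL] [Algebra L FL]
  [IsScalarTower Kb (FF N) FL] [IsScalarTower Kb L FL]
  (hld : Function.Injective (s26gspMu Kb (FF N) L FL)) (hgen : S26gspGen Kb (FF N) L FL)
  {x : FF N} (hx : Transcendental Kb x)
  [FiniteDimensional ↥(IntermediateField.adjoin Kb {x}) (FF N)]
  [Algebra.IsSeparable ↥(IntermediateField.adjoin Kb {x}) (FF N)]
  (G₀ : Divisor Kb (FF N)) (hG₀ : Divisor.degree G₀ = (genusFF Kb (FF N) : ℤ))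

/-- the centres of a tuple of class `(−1) • η` along `P` have class `−x_P + δ`. -/
theorem s17ut_cl (e : Fin (genusFF Kb (FF N)) → FF N →ₐ[Kb] L)
    (he : s27pfCl (s27dclPkg hld hgen hx G₀ hG₀) e =
      (-1 : ℤ) • s27pfCl (s27dclPkg hld hgen hx G₀ hG₀)
        (s27pfTaut (K := Kb) (F := FF N) (g := genusFF Kb (FF N)) (L := L)))
    (P : S17plPlace Kb L) (Q : Fin (genusFF Kb (FF N)) → Place Kb (FF N))
    (hQ : ∀ i, S27ptIsCentre P.W (e i) (Q i)) :
    s17pnuCl N Q = -s17coCl (L := L) hld hgen hx G₀ hG₀ P + s17pnoShift N G₀ := by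
  have he' : (s27dclPkg hld hgen hx G₀ hG₀).cl
        (fun i => (s27dclPkg hld hgen hx G₀ hG₀).pt (e i)) =
      (-1 : ℤ) • ((s27dclPkg hld hgen hx G₀ hG₀).cl
        (fun i => (s27dclPkg hld hgen hx G₀ hG₀).pt
          (s27pfTaut (K := Kb) (F := FF N) (g := genusFF Kb (FF N)) (L := L) i)))
        + s27bcBeta hld hgen (s26gspf_hall hx) 0 := by
    rw [map_zero, add_zero]
    exact he
  have h := s17pnf_cl N hld hgen hx G₀ hG₀ (-1) 0 e he' P Q hQ
  rw [h]
  unfold s17sxCl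
  have hδ : s17obDelta N G₀ = s17pnoShift N G₀ := rfl
  rw [hδ, zero_add, neg_smul, one_smul]

/-- **(L2), twin**: at the places `P` with `−x_P + δ` GOOD the lifted local equation
`ι (B 1 (P.W ∩ 𝔉))` of the theta divisor is a unit of `P.W`. -/
theorem s17ut_hunit
    {q : ℤ → Fin (genusFF Kb (FF N)) → FF N →ₐ[Kb] L}
    (hq : S27pfFam (s27dclPkg hld hgen hx G₀ hG₀) q)
    (β : ValuationSubring (s27gfSym Kb (FF N) (genusFF Kb (FF N))) →
      s27gfSym Kb (FF N) (genusFF Kb (FF N)))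
    (hβ : S27pnBeta (L := L)
      (s27pnTaut (K := Kb) (F := FF N) (g := genusFF Kb (FF N)) (L := L))
      (G₀ + s27cstAo G₀ (cuspInf N)) β)
    (P : S17plPlace Kb L)
    (hgood : S17poGood N (-s17coCl (L := L) hld hgen hx G₀ hG₀ P + s17pnoShift N G₀)) :
    S27IsUnitIn P.W (algebraMap (s27gfSym Kb (FF N) (genusFF Kb (FF N))) L
      (s27indB (s27pfPsi (s27dclPkg hld hgen hx G₀ hG₀) (s27dcl_halg (x := x)) hq) β 1
        (P.W.comap (algebraMap (s27gfSym Kb (FF N) (genusFF Kb (FF N))) L)))) := by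
  obtain ⟨Q, hQ⟩ := s17pnf_exists_centre N (L := L) hx (q (-1)) P
  have he : s27pfCl (s27dclPkg hld hgen hx G₀ hG₀) (q (-1)) =
      (-1 : ℤ) • s27pfCl (s27dclPkg hld hgen hx G₀ hG₀)
        (s27pfTaut (K := Kb) (F := FF N) (g := genusFF Kb (FF N)) (L := L)) :=
    (hq (-1) (by norm_num)).2
  have hcl := s17ut_cl N hld hgen hx G₀ hG₀ (q (-1)) he P Q hQ
  have hgood' : S17poGood N (s17pnuCl N Q) := by
    rw [hcl]
    exact hgood
  exact s17hv_unit_good N hld hgen hx G₀ hG₀ hq β hβ 1 one_ne_zero (q (-1)) he P Q hQ hgood'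

/-- the lifted local equation `y W = ι (B 1 (W ∩ 𝔉))` of ruling (A). -/
def s17utY
    {q : ℤ → Fin (genusFF Kb (FF N)) → FF N →ₐ[Kb] L}
    (hq : S27pfFam (s27dclPkg hld hgen hx G₀ hG₀) q)
    (β : ValuationSubring (s27gfSym Kb (FF N) (genusFF Kb (FF N))) →
      s27gfSym Kb (FF N) (genusFF Kb (FF N))) (W : ValuationSubring L) : L :=
  algebraMap (s27gfSym Kb (FF N) (genusFF Kb (FF N))) L
    (s27indB (s27pfPsi (s27dclPkg hld hgen hx G₀ hG₀) (s27dcl_halg (x := x)) hq) β 1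
      (W.comap (algebraMap (s27gfSym Kb (FF N) (genusFF Kb (FF N))) L)))

/-- **(L2), twin, literal shape of `hunit`** in `s17pnt_plN` / `s17pno_plN_unit`. -/
theorem s17ut_hunit_y
    {q : ℤ → Fin (genusFF Kb (FF N)) → FF N →ₐ[Kb] L}
    (hq : S27pfFam (s27dclPkg hld hgen hx G₀ hG₀) q)
    (β : ValuationSubring (s27gfSym Kb (FF N) (genusFF Kb (FF N))) →
      s27gfSym Kb (FF N) (genusFF Kb (FF N)))
    (hβ : S27pnBeta (L := L)
      (s27pnTaut (K := Kb) (F := FF N) (g := genusFF Kb (FF N)) (L := L))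
      (G₀ + s27cstAo G₀ (cuspInf N)) β) :
    ∀ (P : S17plPlace Kb L),
      S17poGood N (-s17coCl (L := L) hld hgen hx G₀ hG₀ P + s17pnoShift N G₀) →
      S27IsUnitIn P.W (s17utY N hld hgen hx G₀ hG₀ hq β P.W) :=
  fun P hgood => s17ut_hunit N hld hgen hx G₀ hG₀ hq β hβ P hgood

end Stage

section Closed

variable (N : ℕ) [NeZero N] [IsCurveOver Kb (FF N)] [Algebra.EssFiniteType Kb (FF N)]

/-- **(L2), twin, on the closed stage** `L = s27mtL`, `β = s27beta (G₀ + Ao)`, for ANY constants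
`hc : S27cstIsConst x G₀ (cuspInf N)` and ANY family `q`. -/
theorem s17ut_hunit_stage {x : FF N} {G₀ : Divisor Kb (FF N)}
    (hc : S27cstIsConst x G₀ (cuspInf N)) (hg : 0 < genusFF Kb (FF N)) :
    haveI := hc.fin
    haveI := hc.sep
    ∀ (q : ℤ → Fin (genusFF Kb (FF N)) → FF N →ₐ[Kb] s27mtL Kb (FF N))
      (hq : S27pfFam (s27ftPkg hc.trans G₀ hc.deg) q)
      (P : S17plPlace Kb (s27mtL Kb (FF N))),
      S17poGood N (-s17coCl (L := s27mtL Kb (FF N)) (FL := s27mtFL Kb (FF N))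
          (s27stg_hld Kb (FF N) (s27mtL Kb (FF N))) (s27stg_hgen Kb (FF N) (s27mtL Kb (FF N)))
          hc.trans G₀ hc.deg P + s17pnoShift N G₀) →
      S27IsUnitIn P.W (algebraMap (s27gfSym Kb (FF N) (genusFF Kb (FF N))) (s27mtL Kb (FF N))
        (s27indB (s27pfPsi (s27ftPkg hc.trans G₀ hc.deg) (s27dcl_halg (x := x)) hq)
          (s27beta (g := genusFF Kb (FF N)) (G₀ + s27cstAo G₀ (cuspInf N))) 1
          (P.W.comap (algebraMap (s27gfSym Kb (FF N) (genusFF Kb (FF N)))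
            (s27mtL Kb (FF N)))))) := by
  haveI := hc.fin
  haveI := hc.sep
  intro q hq P hgood
  exact s17ut_hunit N (FL := s27mtFL Kb (FF N)) (s27stg_hld Kb (FF N) (s27mtL Kb (FF N)))
    (s27stg_hgen Kb (FF N) (s27mtL Kb (FF N))) hc.trans G₀ hc.deg hq _ (s17hv_beta hc hg) P hgood

end Closed

end Fermat.Agent.S17

end
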