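/-
S17 sprint, layer H — **FINAL DATA, third independent assembly** (helper48; doubles helper77's
S17/FinalData.lean and helper51's S17/FinalDataB.lean): the ONE Prop `S17fzData N` of
S17/FinalAsm.lean from the leaves on main, for every level `N ≥ 2` of positive genus.

Constants: `x = jF N`, `O = cuspInf N`, `G₀` from `s17mcu_exists` (helper10); family `q` from
`s27mp_exists_fam`; `Fam` = the pool family of `s17mbf_bpfL` (helper11 / helper95, `N₀ = 2`);
`qo = q (−1)` (`s17pnl_opp`); `hint = s17ait_hint` (helper47); `t` from `s17rf_exists_ord`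
(helper45); `hsec = s17psc_hsec` (helper28); `hunit = s17ut_hunit_stage` (helper66).

* `s17fdc_data`     : `2 ≤ N → 0 < genusFF Kb (FF N) → S17fzData N`;
* `s17fdc_stmtAt_7` : `S17sxStmtAt N 7 4 28`;   `s17fdc_stmtAt_8` : `S17sxStmtAt N 8 4 36`;
* `s17fdc_stmt_7`   : `S17sxStmt 7 4 28`;       `s17fdc_stmt_8`   : `S17sxStmt 8 4 36`
                      (`hopen : ∀ N, S17luOpen N` as a hypothesis: `s17wz_open`).
-/
import Fermat.Agent.S17.FinalAsm
import Fermat.Agent.S17.ModelBpf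
import Fermat.Agent.S17.AsmInt
import Fermat.Agent.S17.PlNSec
import Fermat.Agent.S17.UnitTwin
import Fermat.Agent.S17.RatFn
import Fermat.Agent.S17.ModelCusp
import Fermat.Agent.S17.PlNFinal

set_option autoImplicit false
set_option linter.unusedVariables false
set_option linter.unusedSectionVars false
set_option linter.style.haveILetI false
set_option linter.style.longLine false

noncomputable section

namespace Fermat.Agent.S17

open ModularCurve AlgebraicCurve Polynomial Height Module TensorProduct IntermediateField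
open Fermat.Agent.S24 Fermat.Agent.ES.M Fermat.Agent.ES.H Fermat.Agent.S15 Fermat.Agent.S26
open Fermat.Agent.S27 Fermat.Agent.DEU

variable (N : ℕ) [NeZero N]

/-- **the data of the final assembly**, from the leaves on main. -/
theorem s17fdc_data (hN : 2 ≤ N) (hg : 0 < genusFF Kb (FF N)) : S17fzData N := by
  intro h1 h2
  haveI := h1
  haveI := h2
  obtain ⟨G₀, hc⟩ := s17mcu_exists N
  refine ⟨jF N, G₀, cuspInf N, hc, ?_⟩
  haveI := hc.fin
  haveI := hc.sep
  obtain ⟨q, hq⟩ := s27mp_exists_fam (FL := s27mtFL Kb (FF N))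
    (s27stg_hld Kb (FF N) (s27mtL Kb (FF N))) (s27stg_hgen Kb (FF N) (s27mtL Kb (FF N)))
    hc.trans G₀ hc.deg
  obtain ⟨T, s, hT, hs0, hs⟩ := s17mbf_bpfL N hc.trans G₀ hc.deg hg (cuspInf N) hc q hq
  obtain ⟨t, htΓ, ht, -, htr⟩ := s17rf_exists_ord N hN
  obtain ⟨M, hsec⟩ := s17psc_hsec hc hg q hq t ht
  have hs00 : s ≠ 0 := by
    obtain ⟨D, hD⟩ := hT
    intro h0
    exact hs0 ⟨D, hD⟩ (congrFun h0 ⟨D, hD⟩)
  have hnc : ∀ c : Kb, t ≠ algebraMap Kb (FF N) c := by
    intro c hc'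
    apply htr
    rw [hc']
    exact isAlgebraic_algebraMap c
  exact ⟨q, hq, ↥T, inferInstance, 2, s, q (-1), t, M, by norm_num, s17pmk_bpf_of hs, hs00,
    s17pnl_opp N hc.trans G₀ hc.deg q hq,
    fun P => s17ait_hint N hc.trans G₀ hc.deg hg (cuspInf N) hc q hq P,
    hnc, htΓ, ht, hsec, s17ut_hunit_stage N hc hg q hq⟩

/-- `S17sxStmtAt N 7 4 28`. -/
theorem s17fdc_stmtAt_7 (hN : 2 ≤ N) (hg : 0 < genusFF Kb (FF N)) (hopen : S17luOpen N) :
    S17sxStmtAt N 7 4 28 :=
  s17fz_stmtAt_7 N hg hopen (s17fdc_data N hN hg)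

/-- `S17sxStmtAt N 8 4 36`. -/
theorem s17fdc_stmtAt_8 (hN : 2 ≤ N) (hg : 0 < genusFF Kb (FF N)) (hopen : S17luOpen N) :
    S17sxStmtAt N 8 4 36 :=
  s17fz_stmtAt_8 N hg hopen (s17fdc_data N hN hg)

/-- **the one open statement of layer H**, `(m, a, b) = (7, 4, 28)`. -/
theorem s17fdc_stmt_7 (hopen : ∀ (N : ℕ) [NeZero N], S17luOpen N) : S17sxStmt 7 4 28 :=
  fun N _ _ hN5 hg => s17fdc_stmtAt_7 N (by omega) hg (hopen N)

/-- **the one open statement of layer H**, `(m, a, b) = (8, 4, 36)`. -/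
theorem s17fdc_stmt_8 (hopen : ∀ (N : ℕ) [NeZero N], S17luOpen N) : S17sxStmt 8 4 36 :=
  fun N _ _ hN5 hg => s17fdc_stmtAt_8 N (by omega) hg (hopen N)

end Fermat.Agent.S17

end
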