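/-
S17 sprint, layer W — **WEAK MORDELL–WEIL AT `2 ^ k`, PT-FREE, CLOSED, + TOP** (helper29; an
independent double of helper53's S17/WeakTwo.lean; own prefix `s17w2b_`).

The closed weak Mordell–Weil of S17/WeakClosed.lean (`s17wz_weak`, odd `p`) goes through
`TW.G.LevFin`, which drags the whole Poitou–Tate closure (PT, TW, S14, Cheb, S53: about 400
modules) into the closure of the S17 root.  Route B (`m = 2`, quadratic Kummer theory,
S17/KumQuad.lean + S17/KumSel.lean) needs none of it.  Here it is closed: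

* `s17w2b_fin_abs`   : the glue of `s17kq_fin_abs` with (unr) asked ONLY at the division points
                       of invariant points (the form that `s17h90u_unr` proves);
* `s17w2b_open`      : (open), from `S15.selfl_exists_field'`;
* `s17w2b_finField`, `s17w2b_fin` : `S17kaFin N 2`;
* `s17w2b_weak2`     : `S17IsWeak N 2`;   `s17w2b_weak_pow` : `S17IsWeak N (2 ^ k)`;
* `s17w2b_tors_pow`  : `S17kaTors N (2 ^ k)`;
* `s17w2b_result`    : `S17sxStmt (2 ^ k) a b → (frozen type of S17)`, `0 < a`, `a ^ 2 < b`;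
* `s17w2b_result_8`  : the constants `(m, a, b) = (8, 4, 36)`  (`36 = 8 · 9 / 2`).
-/
import Fermat.Agent.S17.KumSel
import Fermat.Agent.S17.H90Unr
import Fermat.Agent.S17.Tors
import Fermat.Agent.S17.DivClosed
import Fermat.Agent.S17.WeakMul
import Fermat.Agent.S17.StageTop
import Fermat.Agent.S15.SelFL

set_option autoImplicit false
set_option linter.unusedVariables false
set_option linter.unusedSectionVars false
set_option linter.style.haveILetI false
set_option linter.style.longLine false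

noncomputable section

namespace Fermat.Agent.S17

open ModularCurve AlgebraicCurve IntermediateField
open Fermat.Agent.S24

section glue

variable {k K : Type*} [Field k] [Field K] [Algebra k K] [IsGalois k K]
variable {J : Type*} [AddCommGroup J] [DistribMulAction (K ≃ₐ[k] K) J]

/-- **the glue, division-point form**: (tors) + (open) + (unr at the `2`-division points of the
invariant points) + (RS) ⇒ (fin). -/
theorem s17w2b_fin_abs (h2 : (2 : K) ≠ 0) (I : Set (K ≃ₐ[k] K))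
    (htors : {t : J | 2 • t = 0}.Finite)
    (hopen : ∀ y : J, ∃ E : IntermediateField k K, FiniteDimensional k E ∧
      ∀ σ ∈ E.fixingSubgroup, σ • y = y)
    (hunr : ∀ σ ∈ I, ∀ y : J, (∀ τ : K ≃ₐ[k] K, τ • (2 • y) = 2 • y) → σ • y = y)
    (hRS : ∀ E₀ : IntermediateField k K, FiniteDimensional k E₀ →
      (∀ σ ∈ I, σ ∈ E₀.fixingSubgroup) →
      ∃ E₁ : IntermediateField k K, FiniteDimensional k E₁ ∧
        ∀ α : K, α ^ 2 ∈ E₀ → (∀ σ ∈ I, σ α = α) → α ∈ E₁) :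
    ∃ E : IntermediateField k K, FiniteDimensional k E ∧
      ∀ y : J, (∀ σ : K ≃ₐ[k] K, σ • (2 • y) = 2 • y) → ∀ σ ∈ E.fixingSubgroup, σ • y = y := by
  classical
  obtain ⟨E₀, hE₀, hE₀S⟩ := s17kq_unramField htors hopen
  have hIE₀ : ∀ σ ∈ I, σ ∈ E₀.fixingSubgroup := by
    intro σ hσ
    rw [hE₀S]
    intro t ht
    refine hunr σ hσ t (fun τ => ?_)
    rw [ht, smul_zero]
  obtain ⟨E₁, hE₁, hRS₁⟩ := hRS E₀ hE₀ hIE₀
  refine ⟨E₀ ⊔ E₁, IntermediateField.finiteDimensional_sup E₀ E₁, ?_⟩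
  intro y hy σ hσ
  have hσ₀ : σ ∈ E₀.fixingSubgroup := IntermediateField.fixingSubgroup_le le_sup_left hσ
  have hσ₁ : σ ∈ E₁.fixingSubgroup := IntermediateField.fixingSubgroup_le le_sup_right hσ
  -- the cocycle of `y`
  have hc : ∀ τ : K ≃ₐ[k] K, 2 • (τ • y - y) = 0 := by
    intro τ
    rw [smul_sub, smul_comm, hy τ, sub_self]
  -- the `2`-torsion as a vector space over `ZMod 2`
  let Tg : AddSubgroup J := (nsmulAddMonoidHom (α := J) 2).ker
  have hTg : ∀ t : J, t ∈ Tg ↔ 2 • t = 0 := fun t => by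
    rw [AddMonoidHom.mem_ker, nsmulAddMonoidHom_apply]
  letI : Module (ZMod 2) Tg := AddCommGroup.zmodModule (n := 2) (fun x => by
    apply Subtype.ext
    rw [AddSubgroup.coe_nsmul]
    exact (hTg _).1 x.2)
  by_contra hne
  have ht₀ : (⟨σ • y - y, (hTg _).2 (hc σ)⟩ : Tg) ≠ 0 := by
    intro h
    apply hne
    have := congrArg Subtype.val h
    exact sub_eq_zero.1 this
  obtain ⟨lam, hlam⟩ := Module.Projective.exists_dual_ne_zero (ZMod 2) ht₀
  let χ : (K ≃ₐ[k] K) → ZMod 2 := fun τ => lam ⟨τ • y - y, (hTg _).2 (hc τ)⟩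
  have hχ : ∀ τ ∈ E₀.fixingSubgroup, ∀ ρ ∈ E₀.fixingSubgroup, χ (τ * ρ) = χ τ + χ ρ := by
    intro τ hτ ρ hρ
    rw [hE₀S] at hτ
    have e : (⟨(τ * ρ) • y - y, (hTg _).2 (hc (τ * ρ))⟩ : Tg) =
        ⟨τ • y - y, (hTg _).2 (hc τ)⟩ + ⟨ρ • y - y, (hTg _).2 (hc ρ)⟩ := by
      apply Subtype.ext
      show (τ * ρ) • y - y = (τ • y - y) + (ρ • y - y)
      have h1 : τ • (ρ • y - y) = ρ • y - y := hτ _ (hc ρ)
      rw [smul_sub] at h1
      rw [mul_smul]
      have : τ • ρ • y - y = (τ • ρ • y - τ • y) + (τ • y - y) := by abel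
      rw [this, h1]
      abel
    show lam _ = lam _ + lam _
    rw [e, map_add]
  obtain ⟨Ey, hEy, hfixy⟩ := hopen y
  have hχE : ∀ τ ∈ E₀.fixingSubgroup, τ ∈ Ey.fixingSubgroup → χ τ = 0 := by
    intro τ _ hτ
    have e : (⟨τ • y - y, (hTg _).2 (hc τ)⟩ : Tg) = 0 := by
      apply Subtype.ext
      show τ • y - y = 0
      rw [hfixy τ hτ, sub_self]
    show lam _ = 0
    rw [e, map_zero]
  obtain ⟨α, -, hα2, hαχ⟩ := s17kq_kummer h2 E₀ Ey χ hχ hχE
  have hαI : ∀ τ ∈ I, τ α = α := by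
    intro τ hτ
    refine (hαχ τ (hIE₀ τ hτ)).1 ?_
    have e : (⟨τ • y - y, (hTg _).2 (hc τ)⟩ : Tg) = 0 := by
      apply Subtype.ext
      show τ • y - y = 0
      rw [hunr τ hτ y hy, sub_self]
    show lam _ = 0
    rw [e, map_zero]
  have hαE₁ : α ∈ E₁ := hRS₁ α hα2 hαI
  have hσα : σ α = α := (IntermediateField.mem_fixingSubgroup_iff _ σ).1 hσ₁ α hαE₁
  exact hlam ((hαχ σ hσ₀).2 hσα)

end glue

/-! ### the instance for `J₀(N)` -/

section inst

/-- **W4 (open)**, in the shape of S17/KumQuad.lean. -/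
theorem s17w2b_open (N : ℕ) [NeZero N] : S17kqOpen N := by
  intro y
  obtain ⟨E, hE, h⟩ := Fermat.Agent.S15.selfl_exists_field' N y
  exact ⟨E, hE, fun σ hσ =>
    h σ (fun a ha => (IntermediateField.mem_fixingSubgroup_iff E σ).1 hσ a ha)⟩

/-- the bad set of primes: the prime factors of `2 N`. -/
def s17w2bS (N : ℕ) : Finset ℕ := (2 * N).primeFactors

theorem s17w2b_not_dvd (N : ℕ) [NeZero N] (ℓ : ℕ) (hℓ : ℓ.Prime)
    (h : ℓ ∉ ((s17w2bS N : Finset ℕ) : Set ℕ)) : ¬ ℓ ∣ 2 * N := by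
  intro hd
  apply h
  have h0 : 2 * N ≠ 0 := mul_ne_zero two_ne_zero (NeZero.ne N)
  exact Finset.mem_coe.2 (Nat.mem_primeFactors.2 ⟨hℓ, hd, h0⟩)

/-- **(fin)**, field form, closed. -/
theorem s17w2b_finField (N : ℕ) [NeZero N] : S17kqFinField N := by
  have h2 : (2 : AlgebraicClosure ℚ) ≠ 0 := two_ne_zero
  haveI := s17kq_isGalois
  obtain ⟨E, hE, hfix⟩ := s17w2b_fin_abs (k := ℚ) (K := AlgebraicClosure ℚ) (J := JZero N) h2
    (S17kqInertia ((s17w2bS N : Finset ℕ) : Set ℕ)) (s17to_tors_two N) (s17w2b_open N)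
    (fun σ hσ y hy => by
      obtain ⟨ℓ, hℓ, hℓS, A, hA, hσA⟩ := hσ
      exact s17h90u_unr N 2 y (fun τ => hy τ) ℓ hℓ (s17w2b_not_dvd N ℓ hℓ hℓS) A hA σ hσA)
    (s17ks_RS (s17w2bS N))
  exact ⟨E, hE, fun y hy σ hσ => hfix y (fun τ => hy τ) σ hσ⟩

/-- **(fin)** for `J₀(N)`, `m = 2`, closed. -/
theorem s17w2b_fin (N : ℕ) [NeZero N] : S17kaFin N 2 :=
  s17kq_fin_of_field N 2 (s17w2b_finField N)

/-- **WEAK MORDELL–WEIL for `J₀(N)`, multiplier `2`**, closed and Poitou–Tate-free. -/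
theorem s17w2b_weak2 (N : ℕ) [NeZero N] : S17IsWeak N 2 :=
  s17ka_weak N 2 (s17dv_kaDiv N 2 (by norm_num)) (s17to_tors_two N) (s17w2b_fin N)

/-- **WEAK MORDELL–WEIL for `J₀(N)`, multiplier `2 ^ k`**. -/
theorem s17w2b_weak_pow (N : ℕ) [NeZero N] (k : ℕ) : S17IsWeak N (2 ^ k) :=
  s17wm_pow N 2 (s17w2b_weak2 N) k

/-- **(tors)** at `2 ^ k`. -/
theorem s17w2b_tors_pow (N : ℕ) [NeZero N] (k : ℕ) : S17kaTors N (2 ^ k) := by
  haveI : Fact (Nat.Prime 2) := ⟨Nat.prime_two⟩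
  exact s17to_finite_pow N 2 k

/-- the frozen type of S17 from the stage statement at the multiplier `2 ^ k`. -/
theorem s17w2b_result (k : ℕ) (a b : ℝ) (ha : 0 < a) (hab : a ^ 2 < b)
    (H : S17sxStmt (2 ^ k) a b)
    (N : ℕ) [NeZero N] (hN : N.Prime) (hN5 : 5 ≤ N) :
    AddGroup.FG ↥(FixedPoints.addSubgroup ((AlgebraicClosure ℚ) ≃ₐ[ℚ] (AlgebraicClosure ℚ))
      (JZero N)) :=
  s17sx_result (2 ^ k) a b ha hab H (fun N _ => s17w2b_tors_pow N k)
    (fun N _ => s17w2b_weak_pow N k) N hN hN5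

/-- the constants `(m, a, b) = (8, 4, 36)`: `36 = 8 · 9 / 2 > 4 ^ 2`. -/
theorem s17w2b_result_8 (H : S17sxStmt 8 4 36)
    (N : ℕ) [NeZero N] (hN : N.Prime) (hN5 : 5 ≤ N) :
    AddGroup.FG ↥(FixedPoints.addSubgroup ((AlgebraicClosure ℚ) ≃ₐ[ℚ] (AlgebraicClosure ℚ))
      (JZero N)) :=
  s17w2b_result 3 4 36 (by norm_num) (by norm_num) H N hN hN5

end inst

end Fermat.Agent.S17

end
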