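/-
S17 sprint — **MORDELL–WEIL FOR `J₀(N)`, CLOSED, POITOU–TATE-FREE** (helper29; own prefix
`s17f2b_`; a twin of S17/FinalData58.lean (helper58) with the weak Mordell–Weil at `8 = 2 ^ 3`
of S17/WeakTwoB.lean in place of the one at `3` of S17/WeakClosed.lean).

The closure of this file has NO module of TW / S14 / Cheb / S53 and only 7 small modules of PT:
654 modules against 1041 for S17/FinalData58.lean — a shorter cold build for the S17 root.

Plugged (exactly as in S17/FinalData58.lean):
* constants `t, G₀, O = ∞`        : `s17kc_exists` (S17/ConstInf.lean);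
* the family `q`                  : `s27mp_exists_fam` (S27/ModelPsi.lean);
* the pool family `Fam`, `N₀ = 2` : `s17bg_pmk` (S17/BpfGlue.lean);
* (hint)                          : `s17ait_hint` (S17/AsmInt.lean);
* (L1) `hsec`                     : `s17psc_hsec` (S17/PlNSec.lean);
* (L2) `hunit`                    : `s17hvu_hunit_stage` (S17/HVisU.lean);
* (open)                          : `s17w2b_open` (S17/WeakTwoB.lean);
* weak Mordell–Weil + torsion at `8` : `s17w2b_weak_pow`, `s17w2b_tors_pow` (S17/WeakTwoB.lean).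

* `s17f2b_data`    : `S17fzData N`;
* `s17f2b_stmtAt`  : `S17sxStmtAt N n 4 (n (n + 1) / 2)`, every `n > 0`;
* `s17f2b_stmt_8`  : `S17sxStmt 8 4 36`;
* **`s17f2b_result`** : the frozen type of S17.
-/
import Fermat.Agent.S17.FinalAsm
import Fermat.Agent.S17.ConstInf
import Fermat.Agent.S17.BpfGlue
import Fermat.Agent.S17.AsmInt
import Fermat.Agent.S17.PlNSec
import Fermat.Agent.S17.HVisU
import Fermat.Agent.S17.WeakTwoB

set_option autoImplicit false
set_option linter.unusedVariables false
set_option linter.unusedSectionVars false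
set_option linter.style.haveILetI false
set_option linter.style.longLine false

noncomputable section

namespace Fermat.Agent.S17

open ModularCurve AlgebraicCurve Polynomial Height Module TensorProduct IntermediateField
open Fermat.Agent.S24 Fermat.Agent.ES.M Fermat.Agent.ES.H Fermat.Agent.S15 Fermat.Agent.S26
open Fermat.Agent.S27 Fermat.Agent.DEU

variable (N : ℕ) [NeZero N]

/-- **the data of the final assembly**, closed (twin of `s17fd58_data`). -/
theorem s17f2b_data (hN : 2 ≤ N) (hg : 0 < genusFF Kb (FF N)) : S17fzData N := by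
  intro h1 h2
  obtain ⟨t, G₀, hc0, htΓ, ht, -, hnc, -, -⟩ := s17kc_exists N hN
  have hc : S27cstIsConst t G₀ (cuspInf N) := hc0 h1 h2
  haveI := hc.fin
  haveI := hc.sep
  obtain ⟨q, hq⟩ := s27mp_exists_fam (FL := s27mtFL Kb (FF N))
    (s27stg_hld Kb (FF N) (s27mtL Kb (FF N))) (s27stg_hgen Kb (FF N) (s27mtL Kb (FF N)))
    hc.trans G₀ hc.deg
  obtain ⟨T, Fam, hF0, hF⟩ := s17bg_pmk hc.trans G₀ hc.deg hg (cuspInf N) hc q hq
  obtain ⟨M, hsec⟩ := s17psc_hsec hc hg q hq t ht
  refine ⟨t, G₀, cuspInf N, hc, q, hq, ↥T, inferInstance, 2, Fam, q (-1), t, M, by norm_num,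
    hF, hF0, (hq (-1) (by norm_num)).2, ?_, hnc, htΓ, ht, hsec,
    s17hvu_hunit_stage N hc hg q hq⟩
  intro P
  exact s17ait_hint N hc.trans G₀ hc.deg hg (cuspInf N) hc q hq P

/-- (open) in the shape of S17/LevOfUnr.lean. -/
theorem s17f2b_open : S17luOpen N := fun y => s17w2b_open N y

/-- **the model statement at one level**, every multiplier `n > 0`. -/
theorem s17f2b_stmtAt (hN : 2 ≤ N) (n : ℕ) (hn : 0 < n) (hg : 0 < genusFF Kb (FF N)) :
    S17sxStmtAt N n 4 ((s27indTri n : ℕ) : ℝ) :=
  s17fz_stmtAt N n hn hg (s17f2b_open N) (s17f2b_data N hN hg)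

/-- **`S17sxStmt 8 4 36`**, closed. -/
theorem s17f2b_stmt_8 : S17sxStmt 8 4 36 := by
  intro N _ hN hN5 hg
  have h := s17f2b_stmtAt N (by omega) 8 (by norm_num) hg
  have e : ((s27indTri 8 : ℕ) : ℝ) = 36 := by
    rw [show s27indTri 8 = 36 from rfl]
    norm_num
  rw [e] at h
  exact h

/-- **Mordell–Weil for `J₀(N)`, `N ≥ 5` prime** (the frozen type of S17), closed and
Poitou–Tate-free. -/
theorem s17f2b_result (N : ℕ) [NeZero N] (hN : N.Prime) (hN5 : 5 ≤ N) :
    AddGroup.FG ↥(FixedPoints.addSubgroup ((AlgebraicClosure ℚ) ≃ₐ[ℚ] (AlgebraicClosure ℚ))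
      (JZero N)) :=
  s17w2b_result_8 s17f2b_stmt_8 N hN hN5

end Fermat.Agent.S17

end
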