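/-
S17 sprint — leaf **G0, place form** (helper81): the genus-`0` case in the shape of A-TOP
(`S17/HTop.lean`), so that the place statements of layer H are owed only for `0 < genusFF`.

For `genusFF Kb (FF N) = 0` the group `J₀(N)(ℚ̄)` is trivial (`s17g0_eq_zero`); take the one-point
set of places `P = Unit`, `cl = 0`, `H = 0`.

* `s17g0p_places`   : genus `0` ⇒ `∃ P cl H, 0 ≤ H ∧ cl onto ∧ S17hxPlM ∧ S17hxPlT ∧ S17hxPlN`;
* `S17g0pPosStmt`   : the statement of layer H restricted to `0 < genusFF Kb (FF N)`;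
* `s17g0p_stmt`     : `S17g0pPosStmt → s17hx_Stmt`;
* `s17g0p_result`   : TORS + WEAK + `S17g0pPosStmt` ⇒ the frozen type of S17.
-/
import Fermat.Agent.S17.G0
import Fermat.Agent.S17.HTop

set_option autoImplicit false

noncomputable section

namespace Fermat.Agent.S17

open ModularCurve AlgebraicCurve Fermat.Agent.S24

/-- **genus `0` in place form**: one place, class `0`, height `0`. -/
theorem s17g0p_places (N : ℕ) [NeZero N] (h0 : genusFF Kb (FF N) = 0) :
    ∃ (P : Type) (cl : P → JZero N) (H : P → ℝ), (∀ p, 0 ≤ H p) ∧ Function.Surjective cl ∧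
      S17hxPlM cl H ∧ S17hxPlT cl H ∧ S17hxPlN cl H := by
  have hz : ∀ x : JZero N, x = 0 := s17g0_eq_zero N h0
  refine ⟨Unit, fun _ => 0, fun _ => 0, fun _ => le_refl _, fun x => ⟨(), (hz x).symm⟩,
    ⟨0, fun _ => ⟨(), by simp, by simp⟩⟩, fun g => ⟨0, fun _ => ⟨(), ?_, by simp⟩⟩, fun B => ?_⟩
  · rw [hz g, add_zero]
  · have := s17g0_subsingleton N h0
    exact Set.toFinite _

/-- the statement of layer H (place form) for the levels of POSITIVE genus. -/
def S17g0pPosStmt : Prop :=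
  ∀ (N : ℕ) [NeZero N], N.Prime → 5 ≤ N → 0 < genusFF Kb (FF N) →
    ∃ (P : Type) (cl : P → JZero N) (H : P → ℝ), (∀ p, 0 ≤ H p) ∧ Function.Surjective cl ∧
      S17hxPlM cl H ∧ S17hxPlT cl H ∧ S17hxPlN cl H

/-- **case split**: layer H is owed only in positive genus. -/
theorem s17g0p_stmt (h : S17g0pPosStmt) : s17hx_Stmt := by
  intro N _ hN hN5
  rcases Nat.eq_zero_or_pos (genusFF Kb (FF N)) with h0 | hpos
  · exact s17g0p_places N h0
  · exact h N hN hN5 hpos

/-- the frozen type of S17 from TORS, WEAK and layer H in positive genus. -/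
theorem s17g0p_result (htors : ∀ (N : ℕ) [NeZero N], S17kaTors N 3)
    (hw : ∀ (N : ℕ) [NeZero N], S17IsWeak N 3) (h : S17g0pPosStmt)
    (N : ℕ) [NeZero N] (hN : N.Prime) (hN5 : 5 ≤ N) :
    AddGroup.FG ↥(FixedPoints.addSubgroup ((AlgebraicClosure ℚ) ≃ₐ[ℚ] (AlgebraicClosure ℚ))
      (JZero N)) :=
  s17hx_result htors hw (s17g0p_stmt h) N hN hN5

end Fermat.Agent.S17

end
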