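/-
S17 sprint — leaf **G0, place form, free constants** (helper81): the genus-`0` case in the shape
of `S17/HTopAB.lean` (`s17hy_Stmt m a b`), so that the place statements of layer H are owed only
for `0 < genusFF Kb (FF N)`.

* `s17g0q_places`   : genus `0` ⇒ `∃ P cl H, 0 ≤ H ∧ cl onto ∧ S17hyPlM cl H m b ∧ S17hyPlT cl H a ∧
                      S17hxPlN cl H` (every `m`, `a`, `b`);
* `S17g0qPosStmt m a b` : `s17hy_Stmt m a b` restricted to `0 < genusFF Kb (FF N)`;
* `s17g0q_stmt`     : `S17g0qPosStmt m a b → s17hy_Stmt m a b`;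
* `s17g0q_result`   : TORS + WEAK + `S17g0qPosStmt m a b` (`0 < a`, `a² < b`) ⇒ the frozen type
                      of S17.
-/
import Fermat.Agent.S17.G0
import Fermat.Agent.S17.HTopAB

set_option autoImplicit false

noncomputable section

namespace Fermat.Agent.S17

open ModularCurve AlgebraicCurve Fermat.Agent.S24

/-- **genus `0` in place form** (free constants): one place, class `0`, height `0`. -/
theorem s17g0q_places (N : ℕ) [NeZero N] (h0 : genusFF Kb (FF N) = 0) (m : ℕ) (a b : ℝ) :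
    ∃ (P : Type) (cl : P → JZero N) (H : P → ℝ), (∀ p, 0 ≤ H p) ∧ Function.Surjective cl ∧
      S17hyPlM cl H m b ∧ S17hyPlT cl H a ∧ S17hxPlN cl H := by
  have hz : ∀ x : JZero N, x = 0 := s17g0_eq_zero N h0
  refine ⟨Unit, fun _ => 0, fun _ => 0, fun _ => le_refl _, fun x => ⟨(), (hz x).symm⟩,
    ⟨0, fun _ => ⟨(), by simp, by simp⟩⟩, fun g => ⟨0, fun _ => ⟨(), ?_, by simp⟩⟩, fun B => ?_⟩
  · rw [hz g, add_zero]
  · have := s17g0_subsingleton N h0
    exact Set.toFinite _

/-- the statement of layer H (place form, free constants) for the levels of POSITIVE genus. -/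
def S17g0qPosStmt (m : ℕ) (a b : ℝ) : Prop :=
  ∀ (N : ℕ) [NeZero N], N.Prime → 5 ≤ N → 0 < genusFF Kb (FF N) →
    ∃ (P : Type) (cl : P → JZero N) (H : P → ℝ), (∀ p, 0 ≤ H p) ∧ Function.Surjective cl ∧
      S17hyPlM cl H m b ∧ S17hyPlT cl H a ∧ S17hxPlN cl H

/-- **case split**: layer H is owed only in positive genus. -/
theorem s17g0q_stmt (m : ℕ) (a b : ℝ) (h : S17g0qPosStmt m a b) : s17hy_Stmt m a b := by
  intro N _ hN hN5
  rcases Nat.eq_zero_or_pos (genusFF Kb (FF N)) with h0 | hpos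
  · exact s17g0q_places N h0 m a b
  · exact h N hN hN5 hpos

/-- the frozen type of S17 from TORS, WEAK and layer H in positive genus. -/
theorem s17g0q_result (m : ℕ) (a b : ℝ) (ha : 0 < a) (hab : a ^ 2 < b)
    (htors : ∀ (N : ℕ) [NeZero N], S17kaTors N m)
    (hw : ∀ (N : ℕ) [NeZero N], S17IsWeak N m) (h : S17g0qPosStmt m a b)
    (N : ℕ) [NeZero N] (hN : N.Prime) (hN5 : 5 ≤ N) :
    AddGroup.FG ↥(FixedPoints.addSubgroup ((AlgebraicClosure ℚ) ≃ₐ[ℚ] (AlgebraicClosure ℚ))
      (JZero N)) :=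
  s17hy_result m a b ha hab htors hw (s17g0q_stmt m a b h) N hN hN5

end Fermat.Agent.S17

end
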