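import Mathlib

/-!
# S17 sprint, leaf H6a: Galois descent for semilinear actions (pure Mathlib)

`L / K` a field extension (no Galois hypothesis needed for the spanning half), `Γ = L ≃ₐ[K] L`,
`V` an `L`-vector space with a semilinear `Γ`-action `ρ` (`S17gdAct ρ`).

* `s17gd_mem_span`  : a vector fixed by `E.fixingSubgroup`, `E / K` finite, lies in the `L`-span of
  the `Γ`-invariant vectors.
* `s17gd_span_eq_top` : if every vector has an open stabiliser, the invariants span `V`.
* `s17gd_exists_basis` : if moreover `V` is finite-dimensional, `V` has a basis of invariant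
  vectors.
* `s17gd_linearIndependent` : (other half) if `L^Γ = K`, a `K`-linearly independent family of
  invariant vectors is `L`-linearly independent.
-/

namespace Fermat.Agent.S17

open scoped BigOperators

variable {K L V : Type*} [Field K] [Field L] [Algebra K L] [AddCommGroup V] [Module L V]

/-- A semilinear action of `Gal(L/K)` on an `L`-vector space. -/
structure S17gdAct (ρ : (L ≃ₐ[K] L) → V → V) : Prop where
  one : ∀ v, ρ 1 v = v
  mul : ∀ σ τ v, ρ (σ * τ) v = ρ σ (ρ τ v)
  add : ∀ σ v w, ρ σ (v + w) = ρ σ v + ρ σ w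
  smul : ∀ σ (c : L) v, ρ σ (c • v) = σ c • ρ σ v

theorem s17gd_zero {ρ : (L ≃ₐ[K] L) → V → V} (hρ : S17gdAct ρ) (σ : L ≃ₐ[K] L) :
    ρ σ 0 = 0 := by
  have h := hρ.add σ 0 0
  simpa using h

theorem s17gd_sum {ρ : (L ≃ₐ[K] L) → V → V} (hρ : S17gdAct ρ) (σ : L ≃ₐ[K] L)
    {ι : Type*} (s : Finset ι) (f : ι → V) :
    ρ σ (∑ i ∈ s, f i) = ∑ i ∈ s, ρ σ (f i) := by
  classical
  induction s using Finset.induction_on with
  | empty => simpa using s17gd_zero hρ σ
  | insert a s ha ih => rw [Finset.sum_insert ha, Finset.sum_insert ha, hρ.add, ih]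

/-- Two elements of the Galois group with the same restriction to `E` act in the same way on a
vector fixed by `E.fixingSubgroup`. -/
theorem s17gd_wd {ρ : (L ≃ₐ[K] L) → V → V} (hρ : S17gdAct ρ) (v : V)
    (E : IntermediateField K L) (hE : ∀ σ ∈ E.fixingSubgroup, ρ σ v = v)
    (σ τ : L ≃ₐ[K] L) (h : ∀ e : E, σ e = τ e) : ρ σ v = ρ τ v := by
  have hmem : τ⁻¹ * σ ∈ E.fixingSubgroup := by
    rw [IntermediateField.mem_fixingSubgroup_iff]
    intro x hx
    have h1 : σ x = τ x := h ⟨x, hx⟩
    rw [AlgEquiv.mul_apply, h1, AlgEquiv.aut_inv]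
    exact τ.symm_apply_apply x
  have h1 := hE _ hmem
  calc ρ σ v = ρ (τ * (τ⁻¹ * σ)) v := by rw [mul_inv_cancel_left]
    _ = ρ τ (ρ (τ⁻¹ * σ) v) := hρ.mul _ _ _
    _ = ρ τ v := by rw [h1]

/-- **Galois descent, spanning half.** A vector with open stabiliser lies in the span of the
invariant vectors. -/
theorem s17gd_mem_span {ρ : (L ≃ₐ[K] L) → V → V} (hρ : S17gdAct ρ) (v : V)
    (E : IntermediateField K L) [FiniteDimensional K E]
    (hE : ∀ σ ∈ E.fixingSubgroup, ρ σ v = v) :
    v ∈ Submodule.span L {w : V | ∀ σ, ρ σ w = w} := by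
  classical
  -- the restrictions to `E` of the elements of the Galois group
  let X : Type _ := {χ : E →ₐ[K] L // ∃ σ : L ≃ₐ[K] L, ∀ e : E, χ e = σ e}
  haveI : Finite X := Subtype.finite
  letI : Fintype X := Fintype.ofFinite X
  have hlift : ∀ χ : X, ∃ σ : L ≃ₐ[K] L, ∀ e : E, χ.1 e = σ e := fun χ => χ.2
  choose s hs using hlift
  let vv : X → V := fun χ => ρ (s χ) v
  -- the action of the Galois group on `X`
  let act : (L ≃ₐ[K] L) → X → X := fun γ χ =>
    ⟨(γ : L →ₐ[K] L).comp χ.1, ⟨γ * s χ, fun e => by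
      rw [AlgHom.comp_apply, AlgEquiv.mul_apply, hs χ e]; rfl⟩⟩
  have hact_apply : ∀ (γ : L ≃ₐ[K] L) (χ : X) (e : E), (act γ χ).1 e = γ (χ.1 e) :=
    fun γ χ e => rfl
  have hact_inj : ∀ γ : L ≃ₐ[K] L, Function.Injective (act γ) := by
    intro γ χ χ' h
    apply Subtype.ext
    apply AlgHom.ext
    intro e
    have h1 : (act γ χ).1 e = (act γ χ').1 e := by rw [h]
    rw [hact_apply, hact_apply] at h1
    exact γ.injective h1
  have hact_bij : ∀ γ : L ≃ₐ[K] L, Function.Bijective (act γ) :=
    fun γ => Finite.injective_iff_bijective.1 (hact_inj γ)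
  have hvv : ∀ (γ : L ≃ₐ[K] L) (χ : X), ρ γ (vv χ) = vv (act γ χ) := by
    intro γ χ
    show ρ γ (ρ (s χ) v) = ρ (s (act γ χ)) v
    rw [← hρ.mul]
    apply s17gd_wd hρ v E hE
    intro e
    rw [← hs (act γ χ) e, hact_apply, AlgEquiv.mul_apply, hs χ e]
  -- the invariant vectors `T c`
  have hT : ∀ c : E, (∑ χ : X, χ.1 c • vv χ) ∈ Submodule.span L {w : V | ∀ σ, ρ σ w = w} := by
    intro c
    apply Submodule.subset_span
    intro γ
    rw [s17gd_sum hρ]
    have h1 : ∀ χ : X, ρ γ (χ.1 c • vv χ) = (act γ χ).1 c • vv (act γ χ) := by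
      intro χ
      rw [hρ.smul, hvv, hact_apply]
    rw [Finset.sum_congr rfl (fun χ _ => h1 χ)]
    exact (hact_bij γ).sum_comp (fun χ : X => χ.1 c • vv χ)
  -- every `vv χ` lies in the span
  have hli : LinearIndependent L (fun χ : X => (χ.1.toLinearMap : E →ₗ[K] L)) :=
    (linearIndependent_toLinearMap K E L).comp (fun χ : X => χ.1) Subtype.val_injective
  have hall : ∀ χ : X, vv χ ∈ Submodule.span L {w : V | ∀ σ, ρ σ w = w} := by
    intro χ
    by_contra hnot
    obtain ⟨f, hf, hf0⟩ := Submodule.exists_dual_map_eq_bot_of_notMem hnot inferInstance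
    have hfU : ∀ w ∈ Submodule.span L {w : V | ∀ σ, ρ σ w = w}, f w = 0 := by
      intro w hw
      have h3 : f w ∈ (Submodule.span L {w : V | ∀ σ, ρ σ w = w}).map f :=
        Submodule.mem_map_of_mem hw
      rw [hf0] at h3
      exact (Submodule.mem_bot L).1 h3
    have hrel : ∑ χ' : X, f (vv χ') • (χ'.1.toLinearMap : E →ₗ[K] L) = 0 := by
      apply LinearMap.ext
      intro c
      have h2 := hfU _ (hT c)
      rw [map_sum] at h2
      rw [LinearMap.sum_apply, LinearMap.zero_apply, ← h2]
      apply Finset.sum_congr rfl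
      intro χ' _
      rw [LinearMap.smul_apply, AlgHom.toLinearMap_apply, map_smul, smul_eq_mul, smul_eq_mul,
        mul_comm]
    exact hf (Fintype.linearIndependent_iff.1 hli (fun χ' => f (vv χ')) hrel χ)
  -- the vector `v` is `vv` of the inclusion
  let χ₀ : X := ⟨E.val, ⟨1, fun e => rfl⟩⟩
  have h0 : vv χ₀ = v := by
    show ρ (s χ₀) v = v
    rw [s17gd_wd hρ v E hE (s χ₀) 1 (fun e => (hs χ₀ e).symm), hρ.one]
  rw [← h0]
  exact hall χ₀

/-- If every vector has an open stabiliser, the invariant vectors span. -/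
theorem s17gd_span_eq_top {ρ : (L ≃ₐ[K] L) → V → V} (hρ : S17gdAct ρ)
    (hopen : ∀ v : V, ∃ E : IntermediateField K L, FiniteDimensional K E ∧
      ∀ σ ∈ E.fixingSubgroup, ρ σ v = v) :
    Submodule.span L {w : V | ∀ σ, ρ σ w = w} = ⊤ := by
  rw [eq_top_iff]
  intro v _
  obtain ⟨E, hfd, hE⟩ := hopen v
  haveI := hfd
  exact s17gd_mem_span hρ v E hE

/-- A finite-dimensional space with a semilinear action with open stabilisers has a basis of
invariant vectors. -/
theorem s17gd_exists_basis {ρ : (L ≃ₐ[K] L) → V → V} (hρ : S17gdAct ρ)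
    (hopen : ∀ v : V, ∃ E : IntermediateField K L, FiniteDimensional K E ∧
      ∀ σ ∈ E.fixingSubgroup, ρ σ v = v) [FiniteDimensional L V] :
    ∃ (n : ℕ) (b : Module.Basis (Fin n) L V), ∀ i σ, ρ σ (b i) = b i := by
  classical
  obtain ⟨b, hb, hspan, hli⟩ := exists_linearIndependent L {w : V | ∀ σ, ρ σ w = w}
  rw [s17gd_span_eq_top hρ hopen] at hspan
  have hspan' : ⊤ ≤ Submodule.span L (Set.range ((↑) : b → V)) := by
    rw [Subtype.range_coe, hspan]
  let B : Module.Basis b L V := Module.Basis.mk hli hspan'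
  haveI : Finite b := Module.Finite.finite_basis B
  obtain ⟨n, ⟨e⟩⟩ := Finite.exists_equiv_fin b
  refine ⟨n, B.reindex e, ?_⟩
  intro i σ
  rw [Module.Basis.reindex_apply, Module.Basis.mk_apply]
  exact hb (e.symm i).2 σ

/-- **Galois descent, independence half.** If `K` is the fixed field of the Galois group, a
`K`-linearly independent family of invariant vectors is `L`-linearly independent. Here the
`K`-structure on `V` is given by restriction of scalars through any `Module K V` compatible with
the `L`-structure. -/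
theorem s17gd_linearIndependent {ρ : (L ≃ₐ[K] L) → V → V} (hρ : S17gdAct ρ)
    [Module K V] [IsScalarTower K L V]
    (hfix : ∀ c : L, (∀ σ : L ≃ₐ[K] L, σ c = c) → c ∈ (algebraMap K L).range)
    {ι : Type*} (w : ι → V) (hw : ∀ i σ, ρ σ (w i) = w i)
    (hli : LinearIndependent K w) : LinearIndependent L w := by
  classical
  rw [linearIndependent_iff']
  -- induction on the size of the support of a relation
  suffices H : ∀ (n : ℕ) (s : Finset ι) (g : ι → L), s.card = n → ∑ i ∈ s, g i • w i = 0 →
      ∀ i ∈ s, g i = 0 from fun s g hg i hi => H s.card s g rfl hg i hi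
  intro n
  induction n using Nat.strong_induction_on with
  | _ n ih =>
    intro s g hcard hg
    by_contra hne
    push Not at hne
    obtain ⟨i₀, hi₀, hgi₀⟩ := hne
    -- discard the zero coefficients
    by_cases hzero : ∃ j ∈ s, g j = 0
    · obtain ⟨j, hj, hgj⟩ := hzero
      have hcard' : (s.erase j).card < n := by
        rw [← hcard]; exact Finset.card_erase_lt_of_mem hj
      have hsum : ∑ i ∈ s.erase j, g i • w i = 0 := by
        rw [← Finset.add_sum_erase s _ hj, hgj, zero_smul, zero_add] at hg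
        exact hg
      have hij : i₀ ≠ j := fun h => hgi₀ (h ▸ hgj)
      exact hgi₀ (ih _ hcard' (s.erase j) g rfl hsum i₀ (Finset.mem_erase.2 ⟨hij, hi₀⟩))
    push Not at hzero
    -- normalise `g i₀ = 1`
    let g' : ι → L := fun i => (g i₀)⁻¹ * g i
    have hg' : ∑ i ∈ s, g' i • w i = 0 := by
      have : ∑ i ∈ s, g' i • w i = (g i₀)⁻¹ • ∑ i ∈ s, g i • w i := by
        rw [Finset.smul_sum]
        exact Finset.sum_congr rfl (fun i _ => mul_smul _ _ _)
      rw [this, hg, smul_zero]
    have hg'1 : g' i₀ = 1 := inv_mul_cancel₀ hgi₀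
    -- every coefficient of `g'` is invariant
    have hinv : ∀ σ : L ≃ₐ[K] L, ∀ i ∈ s, σ (g' i) = g' i := by
      intro σ
      have h1 : ∑ i ∈ s, σ (g' i) • w i = 0 := by
        have := congrArg (ρ σ) hg'
        rw [s17gd_sum hρ, s17gd_zero hρ] at this
        rw [← this]
        exact Finset.sum_congr rfl (fun i _ => by rw [hρ.smul, hw])
      have h2 : ∑ i ∈ s.erase i₀, (σ (g' i) - g' i) • w i = 0 := by
        have h3 : ∑ i ∈ s, (σ (g' i) - g' i) • w i = 0 := by
          simp only [sub_smul, Finset.sum_sub_distrib, h1, hg', sub_zero]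
        rw [← Finset.add_sum_erase s _ hi₀, hg'1, map_one, sub_self, zero_smul, zero_add] at h3
        exact h3
      have hcard' : (s.erase i₀).card < n := by
        rw [← hcard]; exact Finset.card_erase_lt_of_mem hi₀
      intro i hi
      by_cases hii : i = i₀
      · rw [hii, hg'1, map_one]
      · have := ih _ hcard' (s.erase i₀) (fun i => σ (g' i) - g' i) rfl h2 i
          (Finset.mem_erase.2 ⟨hii, hi⟩)
        exact sub_eq_zero.1 this
    -- so the coefficients come from `K`
    have hK : ∀ i ∈ s, ∃ c : K, algebraMap K L c = g' i := fun i hi =>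
      hfix (g' i) (fun σ => hinv σ i hi)
    choose! c hc using hK
    have hrel : ∑ i ∈ s, c i • w i = 0 := by
      rw [← hg']
      apply Finset.sum_congr rfl
      intro i hi
      rw [← hc i hi, algebraMap_smul]
    have := linearIndependent_iff'.1 hli s c hrel i₀ hi₀
    have h1 : g' i₀ = 0 := by rw [← hc i₀ hi₀, this, map_zero]
    rw [hg'1] at h1
    exact one_ne_zero h1

end Fermat.Agent.S17
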