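/-
S17 sprint, leaf **H4g GAUSS-SYM** (helper8) — Mathlib only.

Gauss' lemma for the elementary symmetric functions, in valuation-subring form.  `W` a valuation
subring of a field `Ω`, `x : σ → Ω` a finite tuple, `I = {i | x i ∉ W}` the set of POLES,
`P = ∏_{i ∈ I} x i`, `e_n(x) = aeval x (esymm σ K n)` (the shape of `s27tbU`, S27/GenTB.lean):

* `s17gs_esymm_eq_sum`   : `e_n(x) = ∑_{s, #s = n} ∏_{i ∈ s} x i`;
* `s17gs_mem`            : `e_n(x) · P⁻¹ ∈ W` for EVERY `n`                         (`≥`);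
* **`s17gs_unit`**       : `e_{#I}(x) = u · P` with `u` a unit of `W`               (`=` is attained);
* `s17gs_min`            : both together: `∃ n ≤ #σ, e_n(x) · P⁻¹` is a unit of `W`, and all
                           `e_m(x) · P⁻¹ ∈ W`:   `min_n v(e_n(x)) = Σ_i min (0, v(x i))`;
* `s17gs_prod_pole`      : `P⁻¹ ∈ W`, and `P⁻¹` is a unit iff there is no pole.

Use (helper17's design of layer H, S27-B POLE-DIV with EQUALITY): for `F = (1, u_1, …, u_g)`,
`u_j = e_j(ι_1 t, …, ι_g t)`, the minimum of the valuations of `F` along `W` is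
`−Σ_{i : ι_i t ∉ W} v(ι_i t)⁻¹`; the tuple `F · P⁻¹` is integral with a unit coordinate.
-/
import Mathlib

set_option autoImplicit false
set_option linter.unusedVariables false
set_option linter.unusedSectionVars false

noncomputable section

namespace Fermat.Agent.S17

open MvPolynomial

universe u v w

variable {K : Type u} [Field K] {Ω : Type v} [Field Ω] [Algebra K Ω]
variable {σ : Type w} [Fintype σ] [DecidableEq σ]

/-- `e_n(x)` as a sum over the `n`-subsets. -/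
theorem s17gs_esymm_eq_sum (x : σ → Ω) (n : ℕ) :
    aeval x (esymm σ K n) = ∑ s ∈ Finset.powersetCard n Finset.univ, ∏ i ∈ s, x i := by
  simp [esymm, map_sum, map_prod]

open Classical in
/-- the set of poles of the tuple `x` along `W`. -/
def s17gsPoles (W : ValuationSubring Ω) (x : σ → Ω) : Finset σ :=
  Finset.univ.filter fun i => x i ∉ W

theorem s17gs_mem_poles {W : ValuationSubring Ω} {x : σ → Ω} {i : σ} :
    i ∈ s17gsPoles W x ↔ x i ∉ W := by
  simp [s17gsPoles]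

/-- at a pole, `x i ≠ 0` and `(x i)⁻¹` is a non-unit of `W`. -/
theorem s17gs_inv_lt {W : ValuationSubring Ω} {x : σ → Ω} {i : σ} (hi : i ∈ s17gsPoles W x) :
    W.valuation (x i)⁻¹ < 1 := by
  have h1 : x i ∉ W := s17gs_mem_poles.1 hi
  have h2 : ¬ W.valuation (x i) ≤ 1 := fun h => h1 ((W.valuation_le_one_iff _).1 h)
  have h3 : 1 < W.valuation (x i) := lt_of_not_ge h2
  have h0 : W.valuation (x i) ≠ 0 := (lt_trans zero_lt_one h3).ne'
  rw [map_inv₀]
  exact (inv_lt_one₀ (lt_trans zero_lt_one h3)).2 h3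

theorem s17gs_ne_zero {W : ValuationSubring Ω} {x : σ → Ω} {i : σ} (hi : i ∈ s17gsPoles W x) :
    x i ≠ 0 := by
  intro h
  exact (s17gs_mem_poles.1 hi) (h ▸ W.zero_mem)

theorem s17gs_prod_ne_zero (W : ValuationSubring Ω) (x : σ → Ω) :
    ∏ i ∈ s17gsPoles W x, x i ≠ 0 :=
  Finset.prod_ne_zero_iff.2 fun i hi => s17gs_ne_zero hi

/-- off the poles, `v(x i) ≤ 1`. -/
theorem s17gs_le_one {W : ValuationSubring Ω} {x : σ → Ω} {i : σ} (hi : i ∉ s17gsPoles W x) :
    W.valuation (x i) ≤ 1 := by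
  have h1 : x i ∈ W := by
    by_contra h
    exact hi (s17gs_mem_poles.2 h)
  exact (W.valuation_le_one_iff _).2 h1

/-- the ratio of the monomial of `s` to the monomial of the poles. -/
theorem s17gs_ratio (W : ValuationSubring Ω) (x : σ → Ω) (s : Finset σ) :
    (∏ i ∈ s, x i) * (∏ i ∈ s17gsPoles W x, x i)⁻¹ =
      (∏ i ∈ s \ s17gsPoles W x, x i) * ∏ i ∈ s17gsPoles W x \ s, (x i)⁻¹ := by
  classical
  set I := s17gsPoles W x with hI
  have h1 : ∏ i ∈ s, x i = (∏ i ∈ s \ I, x i) * ∏ i ∈ s ∩ I, x i := by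
    rw [mul_comm]
    exact (Finset.prod_inter_mul_prod_sdiff s I x).symm
  have h2 : ∏ i ∈ I, x i = (∏ i ∈ I \ s, x i) * ∏ i ∈ I ∩ s, x i := by
    rw [mul_comm]
    exact (Finset.prod_inter_mul_prod_sdiff I s x).symm
  have h3 : ∏ i ∈ I ∩ s, x i = ∏ i ∈ s ∩ I, x i := by rw [Finset.inter_comm]
  have h4 : ∏ i ∈ s ∩ I, x i ≠ 0 :=
    Finset.prod_ne_zero_iff.2 fun i hi => s17gs_ne_zero (Finset.mem_inter.1 hi).2
  have h5 : ∏ i ∈ I \ s, x i ≠ 0 :=
    Finset.prod_ne_zero_iff.2 fun i hi => s17gs_ne_zero (Finset.mem_sdiff.1 hi).1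
  rw [h1, h2, h3, Finset.prod_inv_distrib]
  field_simp

/-- the valuation of the ratio is `≤ 1`. -/
theorem s17gs_ratio_le (W : ValuationSubring Ω) (x : σ → Ω) (s : Finset σ) :
    W.valuation ((∏ i ∈ s, x i) * (∏ i ∈ s17gsPoles W x, x i)⁻¹) ≤ 1 := by
  classical
  rw [s17gs_ratio, map_mul, map_prod, map_prod]
  have h1 : ∏ i ∈ s \ s17gsPoles W x, W.valuation (x i) ≤ 1 :=
    Finset.prod_le_one' fun i hi => s17gs_le_one (Finset.mem_sdiff.1 hi).2
  have h2 : ∏ i ∈ s17gsPoles W x \ s, W.valuation (x i)⁻¹ ≤ 1 :=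
    Finset.prod_le_one' fun i hi => (s17gs_inv_lt (Finset.mem_sdiff.1 hi).1).le
  calc _ ≤ 1 * 1 := mul_le_mul' h1 h2
    _ = 1 := one_mul 1

/-- the valuation of the ratio is `< 1` as soon as a pole is missing in `s`. -/
theorem s17gs_ratio_lt (W : ValuationSubring Ω) (x : σ → Ω) (s : Finset σ)
    (hs : (s17gsPoles W x \ s).Nonempty) :
    W.valuation ((∏ i ∈ s, x i) * (∏ i ∈ s17gsPoles W x, x i)⁻¹) < 1 := by
  classical
  rw [s17gs_ratio, map_mul, map_prod, map_prod]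
  have h1 : ∏ i ∈ s \ s17gsPoles W x, W.valuation (x i) ≤ 1 :=
    Finset.prod_le_one' fun i hi => s17gs_le_one (Finset.mem_sdiff.1 hi).2
  obtain ⟨i₀, hi₀⟩ := hs
  have h2 : ∏ i ∈ s17gsPoles W x \ s, W.valuation (x i)⁻¹ < 1 := by
    rw [← Finset.mul_prod_erase _ _ hi₀]
    have h3 : ∏ i ∈ (s17gsPoles W x \ s).erase i₀, W.valuation (x i)⁻¹ ≤ 1 :=
      Finset.prod_le_one' fun i hi =>
        (s17gs_inv_lt (Finset.mem_sdiff.1 (Finset.mem_of_mem_erase hi)).1).le
    calc _ ≤ W.valuation (x i₀)⁻¹ * 1 := mul_le_mul' le_rfl h3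
      _ = W.valuation (x i₀)⁻¹ := mul_one _
      _ < 1 := s17gs_inv_lt (Finset.mem_sdiff.1 hi₀).1
  calc _ ≤ 1 * ∏ i ∈ s17gsPoles W x \ s, W.valuation (x i)⁻¹ := mul_le_mul' h1 le_rfl
    _ = ∏ i ∈ s17gsPoles W x \ s, W.valuation (x i)⁻¹ := one_mul _
    _ < 1 := h2

/-- **(≥)**: `e_n(x) · P⁻¹ ∈ W` for every `n`. -/
theorem s17gs_mem (W : ValuationSubring Ω) (x : σ → Ω) (n : ℕ) :
    aeval x (esymm σ K n) * (∏ i ∈ s17gsPoles W x, x i)⁻¹ ∈ W := by
  rw [s17gs_esymm_eq_sum, Finset.sum_mul]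
  refine W.toSubring.sum_mem fun s _ => ?_
  exact (W.valuation_le_one_iff _).1 (s17gs_ratio_le W x s)

/-- **(=)**: `e_{#I}(x) = u · P` with `u` a unit of `W` (`I` the set of poles). -/
theorem s17gs_unit (W : ValuationSubring Ω) (x : σ → Ω) :
    ∃ u : Ω, u ≠ 0 ∧ u ∈ W ∧ u⁻¹ ∈ W ∧
      aeval x (esymm σ K (s17gsPoles W x).card) = u * ∏ i ∈ s17gsPoles W x, x i := by
  classical
  set I := s17gsPoles W x with hI
  set P := ∏ i ∈ I, x i with hP
  have hP0 : P ≠ 0 := s17gs_prod_ne_zero W x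
  have hmem : I ∈ Finset.powersetCard I.card (Finset.univ : Finset σ) :=
    Finset.mem_powersetCard.2 ⟨Finset.subset_univ _, rfl⟩
  -- the sum of the other ratios
  set m : Ω := ∑ s ∈ (Finset.powersetCard I.card (Finset.univ : Finset σ)).erase I,
    (∏ i ∈ s, x i) * P⁻¹ with hm
  have hmlt : W.valuation m < 1 := by
    refine Valuation.map_sum_lt _ one_ne_zero fun s hs => ?_
    have hs1 : s ≠ I := Finset.ne_of_mem_erase hs
    have hs2 : s.card = I.card := (Finset.mem_powersetCard.1 (Finset.mem_of_mem_erase hs)).2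
    refine s17gs_ratio_lt W x s ?_
    rw [Finset.sdiff_nonempty]
    intro hsub
    exact hs1 (Finset.eq_of_subset_of_card_le hsub hs2.le).symm
  have hu : W.valuation (1 + m) = 1 := by
    have := Valuation.map_add_eq_of_lt_left (v := W.valuation) (x := (1 : Ω)) (y := m)
      (by rw [map_one]; exact hmlt)
    rw [this, map_one]
  refine ⟨1 + m, ?_, ?_, ?_, ?_⟩
  · intro h0
    rw [h0, map_zero] at hu
    exact zero_ne_one hu
  · exact (W.valuation_le_one_iff _).1 hu.le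
  · refine (W.valuation_le_one_iff _).1 ?_
    rw [map_inv₀, hu, inv_one]
  · rw [s17gs_esymm_eq_sum, ← Finset.add_sum_erase _ _ hmem, add_mul, one_mul, hm,
      Finset.sum_mul]
    congr 1
    refine Finset.sum_congr rfl fun s _ => ?_
    rw [mul_assoc, inv_mul_cancel₀ hP0, mul_one]

/-- `P⁻¹ ∈ W`. -/
theorem s17gs_prod_inv_mem (W : ValuationSubring Ω) (x : σ → Ω) :
    (∏ i ∈ s17gsPoles W x, x i)⁻¹ ∈ W := by
  classical
  refine (W.valuation_le_one_iff _).1 ?_
  rw [← Finset.prod_inv_distrib, map_prod]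
  exact Finset.prod_le_one' fun i hi => (s17gs_inv_lt hi).le

/-- `P⁻¹` is a non-unit of `W` as soon as there is a pole. -/
theorem s17gs_prod_inv_lt (W : ValuationSubring Ω) (x : σ → Ω)
    (h : (s17gsPoles W x).Nonempty) :
    W.valuation (∏ i ∈ s17gsPoles W x, x i)⁻¹ < 1 := by
  classical
  obtain ⟨i₀, hi₀⟩ := h
  rw [← Finset.prod_inv_distrib, map_prod, ← Finset.mul_prod_erase _ _ hi₀]
  have h3 : ∏ i ∈ (s17gsPoles W x).erase i₀, W.valuation (x i)⁻¹ ≤ 1 :=
    Finset.prod_le_one' fun i hi => (s17gs_inv_lt (Finset.mem_of_mem_erase hi)).le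
  calc _ ≤ W.valuation (x i₀)⁻¹ * 1 := mul_le_mul' le_rfl h3
    _ = W.valuation (x i₀)⁻¹ := mul_one _
    _ < 1 := s17gs_inv_lt hi₀

/-- **Gauss' lemma for `(e_n(x))_n`**: with `P = ∏_{poles} x i`, all `e_n(x) · P⁻¹` lie in `W`
and one of them (`n = #poles ≤ #σ`) is a unit of `W`. -/
theorem s17gs_min (W : ValuationSubring Ω) (x : σ → Ω) :
    (∀ n : ℕ, aeval x (esymm σ K n) * (∏ i ∈ s17gsPoles W x, x i)⁻¹ ∈ W) ∧
    ∃ n : ℕ, n ≤ Fintype.card σ ∧
      W.valuation (aeval x (esymm σ K n) * (∏ i ∈ s17gsPoles W x, x i)⁻¹) = 1 := by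
  classical
  refine ⟨fun n => s17gs_mem (K := K) W x n, (s17gsPoles W x).card, Finset.card_le_univ _, ?_⟩
  obtain ⟨u, hu0, hu, hui, he⟩ := s17gs_unit (K := K) W x
  rw [he, mul_assoc, mul_inv_cancel₀ (s17gs_prod_ne_zero W x), mul_one]
  have h1 : W.valuation u ≤ 1 := (W.valuation_le_one_iff _).2 hu
  have h2 : W.valuation u⁻¹ ≤ 1 := (W.valuation_le_one_iff _).2 hui
  rw [map_inv₀] at h2
  have h3 : W.valuation u ≠ 0 := (Valuation.ne_zero_iff _).2 hu0
  have h4 : 1 ≤ W.valuation u := by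
    by_contra h
    have h5 : W.valuation u < 1 := lt_of_not_ge h
    have h6 : 1 < (W.valuation u)⁻¹ := (one_lt_inv₀ (zero_lt_iff.2 h3)).2 h5
    exact absurd h2 (not_le.2 h6)
  exact le_antisymm h1 h4

/-- the valuation of the whole tuple: `v(e_n(x)) ≤ v(P)` for all `n`, with equality for
`n = #poles`. -/
theorem s17gs_val (W : ValuationSubring Ω) (x : σ → Ω) :
    (∀ n : ℕ, W.valuation (aeval x (esymm σ K n)) ≤ W.valuation (∏ i ∈ s17gsPoles W x, x i)) ∧
    W.valuation (aeval x (esymm σ K (s17gsPoles W x).card)) =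
      W.valuation (∏ i ∈ s17gsPoles W x, x i) := by
  classical
  have hP0 : W.valuation (∏ i ∈ s17gsPoles W x, x i) ≠ 0 :=
    (Valuation.ne_zero_iff _).2 (s17gs_prod_ne_zero W x)
  constructor
  · intro n
    have h := (W.valuation_le_one_iff _).2 (s17gs_mem (K := K) W x n)
    rw [map_mul, map_inv₀] at h
    have h2 := mul_le_mul' h (le_refl (W.valuation (∏ i ∈ s17gsPoles W x, x i)))
    rwa [mul_assoc, inv_mul_cancel₀ hP0, mul_one, one_mul] at h2
  · obtain ⟨u, hu0, hu, hui, he⟩ := s17gs_unit (K := K) W x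
    have h1 : W.valuation u ≤ 1 := (W.valuation_le_one_iff _).2 hu
    have h2 : W.valuation u⁻¹ ≤ 1 := (W.valuation_le_one_iff _).2 hui
    rw [map_inv₀] at h2
    have h3 : W.valuation u ≠ 0 := (Valuation.ne_zero_iff _).2 hu0
    have h4 : W.valuation u = 1 := by
      refine le_antisymm h1 ?_
      by_contra h
      have h5 : W.valuation u < 1 := lt_of_not_ge h
      have h6 : 1 < (W.valuation u)⁻¹ := (one_lt_inv₀ (zero_lt_iff.2 h3)).2 h5
      exact absurd h2 (not_le.2 h6)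
    rw [he, map_mul, h4, one_mul]

end Fermat.Agent.S17

end
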