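/-
S17 sprint, layer H — **A-TOP, CLOSED FORM** (helper77): the frozen type of S17 from the ONE open
statement of layer H.  TORS (`s17to_tors_three`, S17/Tors.lean) and WEAK (`s17wz_weak3`,
S17/WeakClosed.lean) are plugged in; multiplier `3`, free constants `0 < a`, `a ^ 2 < b`
(captain's ruling: `a = 2`, `b = 6`).

* `s17hz_fg_places` : ONE level `N`: places `P`, `cl` onto, `0 ≤ H`, `S17hyPlM cl H 3 b`,
                      `S17hyPlT cl H a`, `S17hxPlN cl H` ⇒ `AddGroup.FG (s17MW N)`;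
* `s17hz_fg`        : ONE level `N`: a height `h` on `J` with (T), (M′), (N) ⇒ the same;
* `s17hz_result`    : `s17hy_Stmt 3 a b → (frozen type of S17)`;
* `s17hz_result_26` : the case `a = 2`, `b = 6`;   `s17hz_result_29` : `a = 2`, `b = 9`
                      (`s17hx_Stmt` of S17/HTop.lean).
-/
import Fermat.Agent.S17.HTopAB
import Fermat.Agent.S17.WeakClosed

set_option autoImplicit false

namespace Fermat.Agent.S17

open ModularCurve AlgebraicCurve

/-- ONE level, place form: everything but the place statements is closed. -/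
theorem s17hz_fg_places (N : ℕ) [NeZero N] (a b : ℝ) (ha : 0 < a) (hab : a ^ 2 < b)
    {P : Type*} (cl : P → JZero N) (H : P → ℝ)
    (hH : ∀ p, 0 ≤ H p) (hsurj : Function.Surjective cl)
    (hM : S17hyPlM cl H 3 b) (hT : S17hyPlT cl H a) (hN : S17hxPlN cl H) :
    AddGroup.FG (s17MW N) :=
  s17hy_fg_places N 3 a b ha hab cl H hH hsurj hM hT hN (s17to_tors_three N) (s17wz_weak3 N)

/-- ONE level, a height on `J`: everything but (T), (M′), (N) is closed. -/
theorem s17hz_fg (N : ℕ) [NeZero N] (a b : ℝ) (ha : 0 < a) (hab : a ^ 2 < b)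
    (h : JZero N → ℝ) (hT : S17hyT N a h) (hM : S17hyM N 3 b h) (hN : S17hxN N h) :
    AddGroup.FG (s17MW N) :=
  s17hy_fg N 3 a b ha hab h hT hM hN (s17to_tors_three N) (s17wz_weak3 N)

/-- the frozen type of S17 from the place statement of layer H. -/
theorem s17hz_result (a b : ℝ) (ha : 0 < a) (hab : a ^ 2 < b) (H : s17hy_Stmt 3 a b)
    (N : ℕ) [NeZero N] (hN : N.Prime) (hN5 : 5 ≤ N) :
    AddGroup.FG ↥(FixedPoints.addSubgroup ((AlgebraicClosure ℚ) ≃ₐ[ℚ] (AlgebraicClosure ℚ))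
      (JZero N)) :=
  s17hy_result 3 a b ha hab (fun N _ => s17to_tors_three N) (fun N _ => s17wz_weak3 N) H N hN hN5

/-- the case `a = 2`, `b = 6` (ONE theta divisor). -/
theorem s17hz_result_26 (H : s17hy_Stmt 3 2 6)
    (N : ℕ) [NeZero N] (hN : N.Prime) (hN5 : 5 ≤ N) :
    AddGroup.FG ↥(FixedPoints.addSubgroup ((AlgebraicClosure ℚ) ≃ₐ[ℚ] (AlgebraicClosure ℚ))
      (JZero N)) :=
  s17hz_result 2 6 (by norm_num) (by norm_num) H N hN hN5

/-- the case `a = 2`, `b = 9` (the symmetric divisor). -/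
theorem s17hz_result_29 (H : s17hx_Stmt)
    (N : ℕ) [NeZero N] (hN : N.Prime) (hN5 : 5 ≤ N) :
    AddGroup.FG ↥(FixedPoints.addSubgroup ((AlgebraicClosure ℚ) ≃ₐ[ℚ] (AlgebraicClosure ℚ))
      (JZero N)) :=
  s17hx_result (fun N _ => s17to_tors_three N) (fun N _ => s17wz_weak3 N) H N hN hN5

end Fermat.Agent.S17
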