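/-
S17 sprint, layer H — **A-TOP, CLOSED FORM for every odd prime multiplier** (helper87).

After the captain's ruling `(m, a, b) = (7, 4, 28)` (07:09Z) the closed top is needed at `m = 7`;
`S17/HTopClosed.lean` (helper77) is the case `m = 3`.  TORS (`s17to_tors`, S17/Tors.lean) and WEAK
(`s17wz_weak`, S17/WeakClosed.lean) hold for EVERY odd prime `p`, so nothing new is proved here:

* `s17hzp_fg_places` : ONE level `N`, odd prime `p`: places `P`, `cl` onto, `0 ≤ H`,
                       `S17hyPlM cl H p b`, `S17hyPlT cl H a`, `S17hxPlN cl H` (`0 < a`, `a ^ 2 < b`)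
                       ⇒ `AddGroup.FG (s17MW N)`;
* `s17hzp_fg`        : ONE level `N`: a height `h` on `J` with (T), (M′), (N) ⇒ the same;
* `s17hzp_result`    : `s17hy_Stmt p a b → (frozen type of S17)`;
* `s17hzp_result_7_4_28` : the ruled case `p = 7`, `a = 4`, `b = 28`;
* `s17hzp_fg_places_7_4_28` : the same for ONE level.
-/
import Fermat.Agent.S17.HTopAB
import Fermat.Agent.S17.WeakClosed

set_option autoImplicit false

namespace Fermat.Agent.S17

open ModularCurve AlgebraicCurve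

/-- ONE level, place form, odd prime multiplier `p`. -/
theorem s17hzp_fg_places (N : ℕ) [NeZero N] (p : ℕ) [Fact p.Prime] (hp2 : p ≠ 2) (a b : ℝ)
    (ha : 0 < a) (hab : a ^ 2 < b)
    {P : Type*} (cl : P → JZero N) (H : P → ℝ)
    (hH : ∀ q, 0 ≤ H q) (hsurj : Function.Surjective cl)
    (hM : S17hyPlM cl H p b) (hT : S17hyPlT cl H a) (hN : S17hxPlN cl H) :
    AddGroup.FG (s17MW N) :=
  s17hy_fg_places N p a b ha hab cl H hH hsurj hM hT hN (s17to_tors N p) (s17wz_weak N p hp2)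

/-- ONE level, a height on `J`, odd prime multiplier `p`. -/
theorem s17hzp_fg (N : ℕ) [NeZero N] (p : ℕ) [Fact p.Prime] (hp2 : p ≠ 2) (a b : ℝ)
    (ha : 0 < a) (hab : a ^ 2 < b)
    (h : JZero N → ℝ) (hT : S17hyT N a h) (hM : S17hyM N p b h) (hN : S17hxN N h) :
    AddGroup.FG (s17MW N) :=
  s17hy_fg N p a b ha hab h hT hM hN (s17to_tors N p) (s17wz_weak N p hp2)

/-- the frozen type of S17 from the place statement of layer H, odd prime multiplier `p`. -/
theorem s17hzp_result (p : ℕ) [Fact p.Prime] (hp2 : p ≠ 2) (a b : ℝ) (ha : 0 < a)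
    (hab : a ^ 2 < b) (H : s17hy_Stmt p a b)
    (N : ℕ) [NeZero N] (hN : N.Prime) (hN5 : 5 ≤ N) :
    AddGroup.FG ↥(FixedPoints.addSubgroup ((AlgebraicClosure ℚ) ≃ₐ[ℚ] (AlgebraicClosure ℚ))
      (JZero N)) :=
  s17hy_result p a b ha hab (fun N _ => s17to_tors N p) (fun N _ => s17wz_weak N p hp2) H N hN hN5

/-- the ruled case `(m, a, b) = (7, 4, 28)`, ONE level. -/
theorem s17hzp_fg_places_7_4_28 (N : ℕ) [NeZero N]
    {P : Type*} (cl : P → JZero N) (H : P → ℝ)
    (hH : ∀ q, 0 ≤ H q) (hsurj : Function.Surjective cl)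
    (hM : S17hyPlM cl H 7 28) (hT : S17hyPlT cl H 4) (hN : S17hxPlN cl H) :
    AddGroup.FG (s17MW N) :=
  haveI : Fact (Nat.Prime 7) := ⟨by norm_num⟩
  s17hzp_fg_places N 7 (by norm_num) 4 28 (by norm_num) (by norm_num) cl H hH hsurj hM hT hN

/-- the ruled case `(m, a, b) = (7, 4, 28)`: the frozen type of S17. -/
theorem s17hzp_result_7_4_28 (H : s17hy_Stmt 7 4 28)
    (N : ℕ) [NeZero N] (hN : N.Prime) (hN5 : 5 ≤ N) :
    AddGroup.FG ↥(FixedPoints.addSubgroup ((AlgebraicClosure ℚ) ≃ₐ[ℚ] (AlgebraicClosure ℚ))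
      (JZero N)) :=
  haveI : Fact (Nat.Prime 7) := ⟨by norm_num⟩
  s17hzp_result 7 (by norm_num) 4 28 (by norm_num) (by norm_num) H N hN hN5

end Fermat.Agent.S17
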