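/-
S17 sprint, layer H — **(L2) hunit of PlN TOP, double** (helper48; captain's order 07:43Z, double
of helper41's HVis / helper74's PlNUnit): the input `hunit` (and `hint`) of `s17pnt_plN`
(S17/PlNTop.lean) for ANY choice `y` of local equations of `Θ_{Ao}` at `η`, `Ao = G₀ − ∞`.

Route: helper65's `s17u1_off` (S17/UOne.lean: `x + δ` GOOD ⇒ `−x` off `Θ_{Ao}`) at `x = −x_P`,
helper8's `s17mce_unit_eta` (S17/MoveCen.lean: `x_P` off `Θ_{Ao}` ⇒ every local equation at `η`
along `P.W` is a unit), the bridge `s17cb_eq` (S17/CentreBridge.lean).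

* `s17hvb_off`    : `−x_P + δ` GOOD ⇒ the centre `x_P` is off `Θ_{Ao}`;
* **`s17hvb_unit`** : then EVERY local equation `z` of `Θ_{Ao}` at `η` along `P.W` is a unit;
* `s17hvb_hunit`  : the literal `hunit` of `s17pnt_plN` for a choice `y`;
* `s17hvb_hint`   : the literal `hint` of `s17pnt_plN` for a choice `y`.
-/
import Fermat.Agent.S17.MoveCen
import Fermat.Agent.S17.CentreBridge
import Fermat.Agent.S17.UOne
import Fermat.Agent.S17.PlNOpp

set_option autoImplicit false
set_option linter.unusedVariables false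
set_option linter.unusedSectionVars false
set_option linter.style.haveILetI false
set_option linter.style.longLine false

noncomputable section

namespace Fermat.Agent.S17

open ModularCurve AlgebraicCurve Module TensorProduct IntermediateField
open Fermat.Agent.S24 Fermat.Agent.ES.M Fermat.Agent.ES.H Fermat.Agent.S15 Fermat.Agent.S26
  Fermat.Agent.S27 Fermat.Agent.DEU

universe y

variable (N : ℕ) [NeZero N] [IsCurveOver Kb (FF N)] [Algebra.EssFiniteType Kb (FF N)]
  {L : Type} [Field L] [Algebra Kb L]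
  [Algebra (s27gfOm Kb (FF N) (genusFF Kb (FF N))) L]
  [IsScalarTower Kb (s27gfOm Kb (FF N) (genusFF Kb (FF N))) L]
  [IsAlgClosed L] [Algebra.IsAlgebraic (s27gfOm Kb (FF N) (genusFF Kb (FF N))) L]
  {FL : Type y} [Field FL] [Algebra Kb FL] [Algebra (FF N) FL] [Algebra L FL]
  [IsScalarTower Kb (FF N) FL] [IsScalarTower Kb L FL]
  (hld : Function.Injective (s26gspMu Kb (FF N) L FL)) (hgen : S26gspGen Kb (FF N) L FL)
  {x : FF N} (hx : Transcendental Kb x)
  [FiniteDimensional ↥(IntermediateField.adjoin Kb {x}) (FF N)]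
  [Algebra.IsSeparable ↥(IntermediateField.adjoin Kb {x}) (FF N)]
  (G₀ : Divisor Kb (FF N)) (hG₀ : Divisor.degree G₀ = (genusFF Kb (FF N) : ℤ))

variable [IsGalois (s27gfSym Kb (FF N) (genusFF Kb (FF N))) L]

/-- the literal `hint` of `s17pnt_plN` for a choice `y` of local equations (at ANY class). -/
theorem s17hvb_hint (Ao : Divisor Kb (FF N)) (c : Pic0 L FL) (y : ValuationSubring L → L)
    (hy : ∀ P : S17plPlace Kb L, S27icIdx hld hgen hx Ao P.W c (y P.W)) :
    ∀ P : S17plPlace Kb L, y P.W ∈ P.W :=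
  fun P => s17su_idx_mem hld hgen hx Ao P.W c (y P.W) (hy P)


/-- `−x_P + δ` GOOD ⇒ the centre `x_P` is off `Θ_{Ao}`, `Ao = G₀ − ∞`. -/
theorem s17hvb_off (P : S17plPlace Kb L)
    (hgood : S17poGood N (-s17coCl hld hgen hx G₀ hG₀ P + s17pnoShift N G₀)) :
    S17mvcOff (s27cstAo G₀ (cuspInf N)) (s17ch2Centre (L := L) hx G₀ hG₀ P) := by
  have h := s17u1_off N G₀ hG₀ (-s17coCl hld hgen hx G₀ hG₀ P) hgood
  rw [neg_neg, ← s17cb_eq hld hgen hx G₀ hG₀ P] at h
  exact h


/-- **(L2)**: at a place with `−x_P + δ` GOOD every local equation of `Θ_{Ao}` at `η` is a unit. -/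
theorem s17hvb_unit (hG0 : 0 ≤ G₀)
    (hAo : riemannRochSpace (s27cstAo G₀ (cuspInf N)) = ⊥)
    (hAod : Divisor.degree (s27cstAo G₀ (cuspInf N)) = (genusFF Kb (FF N) : ℤ) - 1)
    (P : S17plPlace Kb L)
    (hgood : S17poGood N (-s17coCl hld hgen hx G₀ hG₀ P + s17pnoShift N G₀))
    (z : L)
    (hz : S27icIdx hld hgen hx (s27cstAo G₀ (cuspInf N)) P.W
      (s27pfCl (s27dclPkg hld hgen hx G₀ hG₀)
        (s27pfTaut (K := Kb) (F := FF N) (g := genusFF Kb (FF N)) (L := L))) z) :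
    S27IsUnitIn P.W z :=
  s17mce_unit_eta hld hgen hx G₀ hG₀ hG0 (s27cstAo G₀ (cuspInf N)) hAo hAod P
    (s17hvb_off N hld hgen hx G₀ hG₀ P hgood) z hz

/-- the literal `hunit` of `s17pnt_plN` for a choice `y` of local equations at `η`. -/
theorem s17hvb_hunit (hG0 : 0 ≤ G₀)
    (hAo : riemannRochSpace (s27cstAo G₀ (cuspInf N)) = ⊥)
    (hAod : Divisor.degree (s27cstAo G₀ (cuspInf N)) = (genusFF Kb (FF N) : ℤ) - 1)
    (y : ValuationSubring L → L)
    (hy : ∀ P : S17plPlace Kb L, S27icIdx hld hgen hx (s27cstAo G₀ (cuspInf N)) P.W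
      (s27pfCl (s27dclPkg hld hgen hx G₀ hG₀)
        (s27pfTaut (K := Kb) (F := FF N) (g := genusFF Kb (FF N)) (L := L))) (y P.W)) :
    ∀ P : S17plPlace Kb L,
      S17poGood N (-s17coCl hld hgen hx G₀ hG₀ P + s17pnoShift N G₀) →
        S27IsUnitIn P.W (y P.W) :=
  fun P hgood => s17hvb_unit N hld hgen hx G₀ hG₀ hG0 hAo hAod P hgood (y P.W) (hy P)

end Fermat.Agent.S17

end
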