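/-
S17 sprint, design A v2, leaf A-ABS / CERT (helper13): the certificate bound H0 with a constant
that is UNIFORM over all number fields (pure Mathlib).

For a certificate `a j k ∈ ℚ[X]` (homogeneous of degree `k + 1`) there is `C ≥ 1` such that for
EVERY number field `E` and all tuples `x`, `y` over `E` with
`y j ^ M + ∑ k, (a j k)(x) * y j ^ (M − 1 − k) = 0`:

    `mulHeight (Sum.elim x y) ≤ C ^ [E : ℚ] * mulHeight x`,

i.e. `habs (x, y) ≤ log C + habs x` for the absolute logarithmic height.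

* `s17hac_root`        : root bound from a bound of the lower-order terms;
* `s17hac_root_arch`, `s17hac_root_nonarch` : the two local forms;
* `s17hac_local_global`: local bounds at all places ⇒ bound of the heights (any field with
                         admissible absolute values; the non-archimedean constants `(v c)⁻¹` are
                         collected by the product formula);
* `s17hac_main`        : the uniform certificate bound; `s17hac_main_log` : the logarithmic form.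
-/
import Mathlib.NumberTheory.Height.NumberField
import Mathlib.NumberTheory.Height.MvPolynomial

set_option autoImplicit false

namespace Fermat.Agent.S17

open MvPolynomial Height

/-- **root bound**: if the lower-order terms are `≤ R * S * v y ^ (M − 1)` whenever `S ≤ v y`,
then `v y ≤ R * S`. -/
theorem s17hac_root {E : Type*} [Field E] (v : AbsoluteValue E ℝ) {M : ℕ} (y : E)
    (α : Fin M → E)
    (heq : y ^ M + ∑ k : Fin M, α k * y ^ (M - 1 - (k : ℕ)) = 0)
    (R S : ℝ) (hR : 1 ≤ R) (hS : 0 ≤ S)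
    (hsum : S ≤ v y → v (∑ k : Fin M, α k * y ^ (M - 1 - (k : ℕ))) ≤ R * S * v y ^ (M - 1)) :
    v y ≤ R * S := by
  by_contra hcon
  push Not at hcon
  have hSR : S ≤ R * S := by nlinarith
  have hSy : S ≤ v y := hSR.trans hcon.le
  have hy0 : 0 < v y := lt_of_le_of_lt (by positivity) hcon
  have hM : M ≠ 0 := by
    rintro rfl
    simp at heq
  have h1 : y ^ M = - ∑ k : Fin M, α k * y ^ (M - 1 - (k : ℕ)) := eq_neg_of_add_eq_zero_left heq
  have h2 : v y ^ M = v (∑ k : Fin M, α k * y ^ (M - 1 - (k : ℕ))) := by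
    rw [← map_pow, h1, map_neg_eq_map]
  have h3 := hsum hSy
  have h4 : v y ^ M = v y * v y ^ (M - 1) := by
    rw [← pow_succ']
    congr 1
    omega
  have h5 : 0 < v y ^ (M - 1) := pow_pos hy0 _
  have h6 : R * S * v y ^ (M - 1) < v y * v y ^ (M - 1) :=
    mul_lt_mul_of_pos_right hcon h5
  linarith

/-- the archimedean form: `v (α k) ≤ A k * S ^ (k + 1)` ⇒ `v y ≤ max 1 (∑ A) * S`. -/
theorem s17hac_root_arch {E : Type*} [Field E] (v : AbsoluteValue E ℝ) {M : ℕ} (y : E)
    (α : Fin M → E)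
    (heq : y ^ M + ∑ k : Fin M, α k * y ^ (M - 1 - (k : ℕ)) = 0)
    (A : Fin M → ℝ) (hA : ∀ k, 0 ≤ A k) (S : ℝ) (hS : 0 ≤ S)
    (hα : ∀ k, v (α k) ≤ A k * S ^ ((k : ℕ) + 1)) :
    v y ≤ max 1 (∑ k, A k) * S := by
  refine s17hac_root v y α heq _ S (le_max_left _ _) hS fun hSy => ?_
  have hy0 : 0 ≤ v y := v.nonneg y
  calc v (∑ k : Fin M, α k * y ^ (M - 1 - (k : ℕ)))
      ≤ ∑ k : Fin M, v (α k * y ^ (M - 1 - (k : ℕ))) := v.sum_le _ _
    _ ≤ ∑ k : Fin M, A k * S * v y ^ (M - 1) := by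
        refine Finset.sum_le_sum fun k _ => ?_
        rw [map_mul, map_pow]
        have h1 : S ^ ((k : ℕ) + 1) ≤ S * v y ^ (k : ℕ) := by
          rw [pow_succ']
          exact mul_le_mul_of_nonneg_left (pow_le_pow_left₀ hS hSy _) hS
        have h2 : v y ^ (k : ℕ) * v y ^ (M - 1 - (k : ℕ)) = v y ^ (M - 1) := by
          rw [← pow_add]
          congr 1
          have := k.isLt
          omega
        calc v (α k) * v y ^ (M - 1 - (k : ℕ))
            ≤ A k * S ^ ((k : ℕ) + 1) * v y ^ (M - 1 - (k : ℕ)) :=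
              mul_le_mul_of_nonneg_right (hα k) (pow_nonneg hy0 _)
          _ ≤ A k * (S * v y ^ (k : ℕ)) * v y ^ (M - 1 - (k : ℕ)) :=
              mul_le_mul_of_nonneg_right (mul_le_mul_of_nonneg_left h1 (hA k)) (pow_nonneg hy0 _)
          _ = A k * S * (v y ^ (k : ℕ) * v y ^ (M - 1 - (k : ℕ))) := by ring
          _ = A k * S * v y ^ (M - 1) := by rw [h2]
    _ = (∑ k, A k) * S * v y ^ (M - 1) := by
        rw [Finset.sum_mul, Finset.sum_mul]
    _ ≤ max 1 (∑ k, A k) * S * v y ^ (M - 1) := by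
        have h3 : 0 ≤ S * v y ^ (M - 1) := mul_nonneg hS (pow_nonneg hy0 _)
        have h4 := mul_le_mul_of_nonneg_right (le_max_right 1 (∑ k, A k)) h3
        nlinarith [h4]

/-- the non-archimedean form: `v (α k) ≤ A * S ^ (k + 1)` with `1 ≤ A` ⇒ `v y ≤ A * S`. -/
theorem s17hac_root_nonarch {E : Type*} [Field E] (v : AbsoluteValue E ℝ)
    (hv : IsNonarchimedean v) {M : ℕ} (y : E) (α : Fin M → E)
    (heq : y ^ M + ∑ k : Fin M, α k * y ^ (M - 1 - (k : ℕ)) = 0)
    (A : ℝ) (hA : 1 ≤ A) (S : ℝ) (hS : 0 ≤ S)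
    (hα : ∀ k, v (α k) ≤ A * S ^ ((k : ℕ) + 1)) :
    v y ≤ A * S := by
  refine s17hac_root v y α heq A S hA hS fun hSy => ?_
  have hy0 : 0 ≤ v y := v.nonneg y
  have hA0 : 0 ≤ A := zero_le_one.trans hA
  refine (hv.apply_sum_univ_le).trans ?_
  refine Real.iSup_le (fun k => ?_) (by positivity)
  rw [map_mul, map_pow]
  have h1 : S ^ ((k : ℕ) + 1) ≤ S * v y ^ (k : ℕ) := by
    rw [pow_succ']
    exact mul_le_mul_of_nonneg_left (pow_le_pow_left₀ hS hSy _) hS
  have h2 : v y ^ (k : ℕ) * v y ^ (M - 1 - (k : ℕ)) = v y ^ (M - 1) := by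
    rw [← pow_add]
    congr 1
    have := k.isLt
    omega
  calc v (α k) * v y ^ (M - 1 - (k : ℕ))
      ≤ A * S ^ ((k : ℕ) + 1) * v y ^ (M - 1 - (k : ℕ)) :=
        mul_le_mul_of_nonneg_right (hα k) (pow_nonneg hy0 _)
    _ ≤ A * (S * v y ^ (k : ℕ)) * v y ^ (M - 1 - (k : ℕ)) :=
        mul_le_mul_of_nonneg_right (mul_le_mul_of_nonneg_left h1 hA0) (pow_nonneg hy0 _)
    _ = A * S * (v y ^ (k : ℕ) * v y ^ (M - 1 - (k : ℕ))) := by ring
    _ = A * S * v y ^ (M - 1) := by rw [h2]

/-- **local ⇒ global**: bounds `⨆ v (z j) ≤ B * ⨆ v (x i)` at the archimedean and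
`v c * ⨆ v (z j) ≤ ⨆ v (x i)` at the non-archimedean absolute values give
`mulHeight z ≤ B ^ totalWeight * ∏_{arch} v c * mulHeight x` (product formula for `c`). -/
theorem s17hac_local_global {K : Type*} [Field K] [AdmissibleAbsValues K] {ι ι' : Type*}
    [Finite ι] [Finite ι'] (x : ι → K) (z : ι' → K) (hx : x ≠ 0) (hz : z ≠ 0) (B : ℝ)
    (hB : 0 ≤ B) (c : K) (hc : c ≠ 0)
    (harch : ∀ v ∈ AdmissibleAbsValues.archAbsVal (K := K),
      ⨆ j, v (z j) ≤ B * ⨆ i, v (x i))
    (hnon : ∀ v ∈ AdmissibleAbsValues.nonarchAbsVal (K := K),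
      v c * ⨆ j, v (z j) ≤ ⨆ i, v (x i)) :
    mulHeight z ≤ B ^ totalWeight K *
      ((AdmissibleAbsValues.archAbsVal (K := K)).map (fun v => v c)).prod * mulHeight x := by
  classical
  have hpf := AdmissibleAbsValues.product_formula (K := K) hc
  set P : ℝ := ((AdmissibleAbsValues.archAbsVal (K := K)).map (fun v => v c)).prod with hP
  have hP0 : 0 ≤ P := Multiset.prod_map_nonneg fun v _ => v.nonneg c
  have hfc : (fun v : AdmissibleAbsValues.nonarchAbsVal (K := K) => v.val c).HasFiniteMulSupport :=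
    AdmissibleAbsValues.hasFiniteMulSupport hc
  rw [mulHeight_eq hz, mulHeight_eq hx]
  set Az := ((AdmissibleAbsValues.archAbsVal (K := K)).map fun v => ⨆ j, v (z j)).prod with hAz
  set Ax := ((AdmissibleAbsValues.archAbsVal (K := K)).map fun v => ⨆ i, v (x i)).prod with hAx
  set Nz := ∏ᶠ v : AdmissibleAbsValues.nonarchAbsVal (K := K), ⨆ j, v.val (z j) with hNz
  set Nx := ∏ᶠ v : AdmissibleAbsValues.nonarchAbsVal (K := K), ⨆ i, v.val (x i) with hNx
  have hAz0 : 0 ≤ Az :=
    Multiset.prod_map_nonneg fun v _ => Real.iSup_nonneg_of_nonnegHomClass v _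
  have hAx0 : 0 ≤ Ax :=
    Multiset.prod_map_nonneg fun v _ => Real.iSup_nonneg_of_nonnegHomClass v _
  have hNz0 : 0 ≤ Nz := finprod_nonneg fun v => Real.iSup_nonneg_of_nonnegHomClass v.val _
  have hNx0 : 0 ≤ Nx := finprod_nonneg fun v => Real.iSup_nonneg_of_nonnegHomClass v.val _
  -- archimedean part
  have h1 : Az ≤ B ^ totalWeight K * Ax := by
    rw [hAz, hAx, totalWeight, ← Multiset.prod_replicate, ← Multiset.map_const',
      ← Multiset.prod_map_mul]
    exact Multiset.prod_map_le_prod_map₀ _ _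
      (fun v _ => Real.iSup_nonneg_of_nonnegHomClass v _) fun v hv => harch v hv
  -- non-archimedean part
  have h2 : (∏ᶠ v : AdmissibleAbsValues.nonarchAbsVal (K := K), v.val c) * Nz ≤ Nx := by
    rw [hNz, hNx, ← finprod_mul_distrib hfc (by fun_prop)]
    refine finprod_le_finprod (hfc.mul (by fun_prop))
      (fun v => mul_nonneg (v.val.nonneg c) (Real.iSup_nonneg_of_nonnegHomClass v.val _))
      (by fun_prop) fun v => ?_
    exact hnon v.val v.prop
  have h3 : Nz ≤ P * Nx := by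
    have h4 : Nz = P * ((∏ᶠ v : AdmissibleAbsValues.nonarchAbsVal (K := K), v.val c) * Nz) := by
      rw [← mul_assoc, hpf, one_mul]
    rw [h4]
    exact mul_le_mul_of_nonneg_left h2 hP0
  calc Az * Nz ≤ (B ^ totalWeight K * Ax) * (P * Nx) :=
        mul_le_mul h1 h3 hNz0 (mul_nonneg (pow_nonneg hB _) hAx0)
    _ = B ^ totalWeight K * P * (Ax * Nx) := by ring

/-- value of a rational form, archimedean bound. -/
theorem s17hac_eval_arch {E : Type*} [Field E] [Algebra ℚ E] {ι : Type*} [Finite ι]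
    (v : AbsoluteValue E ℝ) (hQ : ∀ c : ℚ, v (algebraMap ℚ E c) = |(c : ℝ)|)
    (p : MvPolynomial ι ℚ) (n : ℕ) (hp : p.IsHomogeneous n) (x : ι → E) :
    v (aeval x p) ≤ (∑ s ∈ p.support, |((coeff s p : ℚ) : ℝ)|) * (⨆ i, v (x i)) ^ n := by
  classical
  have hS0 : 0 ≤ ⨆ i, v (x i) := Real.iSup_nonneg_of_nonnegHomClass v _
  rw [aeval_def, eval₂_eq, Finset.sum_mul]
  refine (v.sum_le _ _).trans (Finset.sum_le_sum fun s hs => ?_)
  rw [map_mul, hQ, map_prod]
  refine mul_le_mul_of_nonneg_left ?_ (abs_nonneg _)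
  have hd : n = ∑ i ∈ s.support, s i := hp.degree_eq_sum_deg_support hs
  rw [hd, ← Finset.prod_pow_eq_pow_sum]
  refine Finset.prod_le_prod (fun i _ => v.nonneg _) fun i _ => ?_
  rw [map_pow]
  exact pow_le_pow_left₀ (v.nonneg _) (Finite.le_ciSup (fun j => v (x j)) i) _

/-- value of a rational form, non-archimedean bound (`D` clears the denominators). -/
theorem s17hac_eval_nonarch {E : Type*} [Field E] [Algebra ℚ E] {ι : Type*} [Finite ι]
    (v : AbsoluteValue E ℝ) (hv : IsNonarchimedean v)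
    (p : MvPolynomial ι ℚ) (n : ℕ) (hp : p.IsHomogeneous n) (D : ℕ)
    (hD : ∀ s, ∃ m : ℤ, (D : ℚ) * coeff s p = m) (x : ι → E) :
    v (D : E) * v (aeval x p) ≤ (⨆ i, v (x i)) ^ n := by
  classical
  have hS0 : 0 ≤ ⨆ i, v (x i) := Real.iSup_nonneg_of_nonnegHomClass v _
  rw [← map_mul, aeval_def, eval₂_eq, Finset.mul_sum]
  refine (hv.apply_sum_le).trans ?_
  refine Real.iSup_le (fun s => ?_) (pow_nonneg hS0 _)
  obtain ⟨m, hm⟩ := hD s.1
  have h1 : (D : E) * ((algebraMap ℚ E) (coeff s.1 p) * ∏ i ∈ s.1.support, x i ^ s.1 i)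
      = (m : E) * ∏ i ∈ s.1.support, x i ^ s.1 i := by
    rw [← mul_assoc]
    congr 1
    have h2 : (D : E) = algebraMap ℚ E (D : ℚ) := by simp
    rw [h2, ← map_mul, hm]
    simp
  rw [h1, map_mul, map_prod]
  have h3 : v (m : E) ≤ 1 := IsNonarchimedean.apply_intCast_le_one hv
  have hd : n = ∑ i ∈ s.1.support, s.1 i := hp.degree_eq_sum_deg_support s.2
  have h4 : ∏ i ∈ s.1.support, v (x i ^ s.1 i) ≤ (⨆ i, v (x i)) ^ n := by
    rw [hd, ← Finset.prod_pow_eq_pow_sum]
    refine Finset.prod_le_prod (fun i _ => v.nonneg _) fun i _ => ?_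
    rw [map_pow]
    exact pow_le_pow_left₀ (v.nonneg _) (Finite.le_ciSup (fun j => v (x j)) i) _
  calc v (m : E) * ∏ i ∈ s.1.support, v (x i ^ s.1 i)
      ≤ 1 * (⨆ i, v (x i)) ^ n :=
        mul_le_mul h3 h4 (Finset.prod_nonneg fun i _ => v.nonneg _) zero_le_one
    _ = (⨆ i, v (x i)) ^ n := one_mul _

/-- a common denominator of the coefficients of a finite family of rational polynomials. -/
theorem s17hac_exists_den {ι τ : Type*} [Fintype τ] (p : τ → MvPolynomial ι ℚ) :
    ∃ D : ℕ, D ≠ 0 ∧ ∀ t s, ∃ m : ℤ, (D : ℚ) * coeff s (p t) = m := by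
  classical
  refine ⟨∏ t, ∏ s ∈ (p t).support, (coeff s (p t)).den, ?_, fun t s => ?_⟩
  · exact Finset.prod_ne_zero_iff.mpr fun t _ =>
      Finset.prod_ne_zero_iff.mpr fun s _ => (coeff s (p t)).den_nz
  · by_cases hs : s ∈ (p t).support
    · have h1 : (coeff s (p t)).den ∣ ∏ t, ∏ s ∈ (p t).support, (coeff s (p t)).den :=
        (Finset.dvd_prod_of_mem _ hs).trans
          (Finset.dvd_prod_of_mem (fun t => ∏ s ∈ (p t).support, (coeff s (p t)).den)
            (Finset.mem_univ t))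
      obtain ⟨e, he⟩ := h1
      refine ⟨(e : ℤ) * (coeff s (p t)).num, ?_⟩
      rw [he]
      push_cast
      have h2 : ((coeff s (p t)).den : ℚ) * coeff s (p t) = (coeff s (p t)).num :=
        Rat.den_mul_eq_num _
      calc ((coeff s (p t)).den : ℚ) * (e : ℚ) * coeff s (p t)
          = (e : ℚ) * (((coeff s (p t)).den : ℚ) * coeff s (p t)) := by ring
        _ = (e : ℚ) * (coeff s (p t)).num := by rw [h2]
    · refine ⟨0, ?_⟩
      rw [notMem_support_iff.mp hs]
      simp

/-- an archimedean absolute value of a number field restricts to the usual one on `ℚ`. -/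
theorem s17hac_arch_rat {E : Type*} [Field E] [NumberField E] (v : AbsoluteValue E ℝ)
    (hv : v ∈ AdmissibleAbsValues.archAbsVal (K := E)) (c : ℚ) :
    v (algebraMap ℚ E c) = |(c : ℝ)| := by
  have h1 : NumberField.IsInfinitePlace v :=
    NumberField.mem_multisetInfinitePlace.mp hv
  let w : NumberField.InfinitePlace E := ⟨v, h1⟩
  have h2 := NumberField.InfinitePlace.map_ratCast w c
  have h3 : algebraMap ℚ E c = (c : E) := eq_ratCast _ c
  rw [h3]
  have h4 : w (c : E) = v (c : E) := rfl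
  rw [← h4, h2, ← Rat.norm_cast_real, Real.norm_eq_abs]

/-- **A-ABS / CERT: the certificate bound, uniform over all number fields.** -/
theorem s17hac_main {ι κ : Type*} [Fintype ι] [Fintype κ] (M : ℕ)
    (a : κ → Fin M → MvPolynomial ι ℚ)
    (ha : ∀ j k, (a j k).IsHomogeneous ((k : ℕ) + 1)) :
    ∃ C : ℝ, 1 ≤ C ∧ ∀ (E : Type*) [Field E] [NumberField E] (x : ι → E) (y : κ → E),
      (∀ j, y j ^ M + ∑ k : Fin M, aeval x (a j k) * y j ^ (M - 1 - (k : ℕ)) = 0) →
        mulHeight (Sum.elim x y) ≤ C ^ Module.finrank ℚ E * mulHeight x := by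
  classical
  obtain ⟨D, hD0, hD⟩ := s17hac_exists_den (fun t : κ × Fin M => a t.1 t.2)
  set A : κ → Fin M → ℝ :=
    fun j k => ∑ s ∈ (a j k).support, |((coeff s (a j k) : ℚ) : ℝ)| with hAdef
  have hA0 : ∀ j k, 0 ≤ A j k := fun j k => Finset.sum_nonneg fun s _ => abs_nonneg _
  set B : ℝ := 1 + ∑ j, ∑ k, A j k with hBdef
  have hsum0 : 0 ≤ ∑ j, ∑ k, A j k :=
    Finset.sum_nonneg fun j _ => Finset.sum_nonneg fun k _ => hA0 j k
  have hB1 : 1 ≤ B := by linarith
  have hB0 : 0 ≤ B := zero_le_one.trans hB1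
  have hBj : ∀ j, max 1 (∑ k, A j k) ≤ B := by
    intro j
    refine max_le hB1 ?_
    have h1 : ∑ k, A j k ≤ ∑ j, ∑ k, A j k :=
      Finset.single_le_sum (f := fun j => ∑ k, A j k)
        (fun j _ => Finset.sum_nonneg fun k _ => hA0 j k) (Finset.mem_univ j)
    linarith
  have hD1 : (1 : ℝ) ≤ (D : ℝ) := by
    exact_mod_cast Nat.one_le_iff_ne_zero.mpr hD0
  refine ⟨B * D, by nlinarith, ?_⟩
  intro E _ _ x y hxy
  have hC1 : 1 ≤ B * (D : ℝ) := by nlinarith
  by_cases hz : Sum.elim x y = 0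
  · rw [hz, mulHeight_zero]
    have h1 : (1 : ℝ) ≤ (B * D) ^ Module.finrank ℚ E := one_le_pow₀ hC1
    have h2 := one_le_mulHeight x
    nlinarith
  -- `x ≠ 0`
  have hx : x ≠ 0 := by
    rintro rfl
    apply hz
    obtain ⟨w⟩ : Nonempty (NumberField.InfinitePlace E) := inferInstance
    have hQ : ∀ c : ℚ, w.1 (algebraMap ℚ E c) = |(c : ℝ)| := by
      intro c
      have h2 := NumberField.InfinitePlace.map_ratCast w c
      have h3 : algebraMap ℚ E c = (c : E) := eq_ratCast _ c
      rw [h3]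
      have h4 : w (c : E) = w.1 (c : E) := rfl
      rw [← h4, h2, ← Rat.norm_cast_real, Real.norm_eq_abs]
    funext t
    rcases t with i | j
    · rfl
    · have hS : (⨆ i : ι, w.1 ((0 : ι → E) i)) = 0 := by
        simp
      have h1 := s17hac_root_arch w.1 (y j) (fun k => aeval (0 : ι → E) (a j k)) (hxy j)
        (A j) (hA0 j) (⨆ i : ι, w.1 ((0 : ι → E) i)) (by rw [hS])
        (fun k => s17hac_eval_arch w.1 hQ (a j k) _ (ha j k) 0)
      rw [hS, mul_zero] at h1
      have h2 : w.1 (y j) = 0 := le_antisymm h1 (w.1.nonneg _)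
      exact (map_eq_zero w.1).mp h2
  have hDE : (D : E) ≠ 0 := by exact_mod_cast hD0
  have key := s17hac_local_global x (Sum.elim x y) hx hz B hB0 (D : E) hDE ?_ ?_
  · -- the constants
    have h1 : totalWeight E = Module.finrank ℚ E := NumberField.totalWeight_eq_finrank E
    have h2 : ((AdmissibleAbsValues.archAbsVal (K := E)).map (fun v => v (D : E))).prod
        = (D : ℝ) ^ Module.finrank ℚ E := by
      rw [NumberField.prod_archAbsVal_eq (fun v => v (D : E))]
      have h3 : ∀ w : NumberField.InfinitePlace E, w.1 (D : E) = (D : ℝ) := by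
        intro w
        have h4 := NumberField.InfinitePlace.map_ratCast w (D : ℚ)
        have h5 : ((D : ℚ) : E) = (D : E) := by simp
        rw [h5] at h4
        have h6 : w (D : E) = w.1 (D : E) := rfl
        rw [← h6, h4]
        have h7 : ‖(D : ℚ)‖ = (D : ℝ) := by
          rw [← Rat.norm_cast_real, Real.norm_eq_abs]
          simp
        exact h7
      simp_rw [h3]
      rw [Finset.prod_pow_eq_pow_sum, NumberField.InfinitePlace.sum_mult_eq]
    rw [h1, h2, ← mul_pow] at key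
    exact key
  · -- archimedean places
    intro v hv
    have hQ := s17hac_arch_rat v hv
    have hS0 : 0 ≤ ⨆ i, v (x i) := Real.iSup_nonneg_of_nonnegHomClass v _
    refine Real.iSup_le (fun t => ?_) (mul_nonneg hB0 hS0)
    rcases t with i | j
    · have h1 : v (x i) ≤ ⨆ i, v (x i) := Finite.le_ciSup (fun i => v (x i)) i
      have h2 : (⨆ i, v (x i)) ≤ B * ⨆ i, v (x i) := by nlinarith
      exact h1.trans h2
    · have h1 := s17hac_root_arch v (y j) (fun k => aeval x (a j k)) (hxy j)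
        (A j) (hA0 j) (⨆ i, v (x i)) hS0
        (fun k => s17hac_eval_arch v hQ (a j k) _ (ha j k) x)
      exact h1.trans (mul_le_mul_of_nonneg_right (hBj j) hS0)
  · -- non-archimedean places
    intro v hv
    have hv' : IsNonarchimedean v := AdmissibleAbsValues.isNonarchimedean v hv
    have hS0 : 0 ≤ ⨆ i, v (x i) := Real.iSup_nonneg_of_nonnegHomClass v _
    have hvD1 : v (D : E) ≤ 1 := IsNonarchimedean.apply_natCast_le_one hv'
    have hvD0 : 0 < v (D : E) := v.pos hDE
    have hinv : 1 ≤ (v (D : E))⁻¹ := (one_le_inv₀ hvD0).mpr hvD1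
    have h0 : ⨆ t, v (Sum.elim x y t) ≤ (v (D : E))⁻¹ * ⨆ i, v (x i) := by
      refine Real.iSup_le (fun t => ?_) (mul_nonneg (inv_nonneg.mpr hvD0.le) hS0)
      rcases t with i | j
      · have h1 : v (x i) ≤ ⨆ i, v (x i) := Finite.le_ciSup (fun i => v (x i)) i
        have h2 : (⨆ i, v (x i)) ≤ (v (D : E))⁻¹ * ⨆ i, v (x i) := by nlinarith
        exact h1.trans h2
      · refine s17hac_root_nonarch v hv' (y j) (fun k => aeval x (a j k)) (hxy j)
          (v (D : E))⁻¹ hinv (⨆ i, v (x i)) hS0 fun k => ?_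
        have h3 := s17hac_eval_nonarch v hv' (a j k) _ (ha j k) D
          (fun s => hD (j, k) s) x
        rw [le_inv_mul_iff₀ hvD0]
        exact h3
    calc v (D : E) * ⨆ t, v (Sum.elim x y t)
        ≤ v (D : E) * ((v (D : E))⁻¹ * ⨆ i, v (x i)) :=
          mul_le_mul_of_nonneg_left h0 hvD0.le
      _ = ⨆ i, v (x i) := by
          rw [← mul_assoc, mul_inv_cancel₀ hvD0.ne', one_mul]

/-- logarithmic form: `logHeight (x, y) ≤ [E : ℚ] * log C + logHeight x`. -/
theorem s17hac_main_log {ι κ : Type*} [Fintype ι] [Fintype κ] (M : ℕ)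
    (a : κ → Fin M → MvPolynomial ι ℚ)
    (ha : ∀ j k, (a j k).IsHomogeneous ((k : ℕ) + 1)) :
    ∃ c : ℝ, 0 ≤ c ∧ ∀ (E : Type*) [Field E] [NumberField E] (x : ι → E) (y : κ → E),
      (∀ j, y j ^ M + ∑ k : Fin M, aeval x (a j k) * y j ^ (M - 1 - (k : ℕ)) = 0) →
        logHeight (Sum.elim x y) ≤ Module.finrank ℚ E * c + logHeight x := by
  obtain ⟨C, hC, H⟩ := s17hac_main M a ha
  have hC0 : 0 < C := zero_lt_one.trans_le hC
  refine ⟨Real.log C, Real.log_nonneg hC, fun E _ _ x y hxy => ?_⟩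
  have h := H E x y hxy
  rw [logHeight_eq_log_mulHeight, logHeight_eq_log_mulHeight, ← Real.log_pow,
    ← Real.log_mul (pow_ne_zero _ hC0.ne') (mulHeight_ne_zero x)]
  exact Real.log_le_log (mulHeight_pos _) h

end Fermat.Agent.S17
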