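/-
S17 sprint, layer H, support for U3 / CHOW (helper14): **the height only sees the absolute values
of the coordinates** — in particular it is invariant under COORDINATEWISE signs (the Chow
coefficients are `(-1)^j e_j`) and under coordinatewise multiplication by roots of unity.
Mathlib + `S17/HtAbsBasic.lean`.

* `s17hsg_mulHeight_congr` : `(∀ v i, v (x i) = v (y i)) → mulHeight x = mulHeight y`
                             (any field with admissible absolute values);
* `s17hsg_logHeight_congr` : the logarithmic form;
* `s17hsg_mulHeight_sign`, `s17hsg_logHeight_sign` : `y i = ε i * x i`, `ε i ^ n = 1` (`n ≠ 0`);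
* `s17hsg_absQ_unit`       : `s17haAbsQ (fun i => ε i * x i) = s17haAbsQ x` if every `ε i` is a
                             root of unity of `ℚ̄` (`ε i ^ n = 1`, `n ≠ 0`);
* `s17hsg_absQ_sign`       : the case of signs `ε : ι → ℤˣ`;
* `s17hsg_absQ_negOnePow`  : the case `ε i = (-1) ^ (k i)` (`k : ι → ℕ`), e.g. the coefficients of
                             `∏ (X − r_i)` against the elementary symmetric functions.
-/
import Fermat.Agent.S17.HtAbsBasic

set_option autoImplicit false
set_option linter.unusedSectionVars false
set_option linter.style.haveILetI false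

noncomputable section

namespace Fermat.Agent.S17

open NumberField Height

section general

variable {K : Type*} [Field K] [AdmissibleAbsValues K] {ι : Type*}

/-- the multiplicative height only sees the absolute values of the coordinates. -/
theorem s17hsg_mulHeight_congr (x y : ι → K)
    (h : ∀ (v : AbsoluteValue K ℝ) (i : ι), v (x i) = v (y i)) : mulHeight x = mulHeight y := by
  have h0 : ∀ i, x i = 0 ↔ y i = 0 := by
    intro i
    -- the trivial absolute value separates `0`
    classical
    have := h (AbsoluteValue.trivial (R := K) (S := ℝ)) i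
    constructor
    · intro hx
      by_contra hy
      rw [hx, map_zero, AbsoluteValue.trivial_apply hy] at this
      exact zero_ne_one this
    · intro hy
      by_contra hx
      rw [hy, map_zero, AbsoluteValue.trivial_apply hx] at this
      exact one_ne_zero this
  by_cases hx : x = 0
  · have hy : y = 0 := by
      funext i
      exact (h0 i).1 (congrFun hx i)
    rw [hx, hy]
  · have hy : y ≠ 0 := by
      intro hy
      apply hx
      funext i
      exact (h0 i).2 (congrFun hy i)
    rw [mulHeight_eq hx, mulHeight_eq hy]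
    simp only [h]

theorem s17hsg_logHeight_congr (x y : ι → K)
    (h : ∀ (v : AbsoluteValue K ℝ) (i : ι), v (x i) = v (y i)) : logHeight x = logHeight y := by
  rw [logHeight_eq_log_mulHeight, logHeight_eq_log_mulHeight, s17hsg_mulHeight_congr x y h]

/-- an absolute value is `1` on roots of unity. -/
theorem s17hsg_abv_root (v : AbsoluteValue K ℝ) {ε : K} {n : ℕ} (hn : n ≠ 0) (hε : ε ^ n = 1) :
    v ε = 1 := by
  have h1 : v ε ^ n = 1 := by rw [← map_pow, hε, map_one]
  exact (pow_eq_one_iff_of_nonneg (v.nonneg ε) hn).1 h1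

theorem s17hsg_mulHeight_sign (x : ι → K) (ε : ι → K) {n : ℕ} (hn : n ≠ 0)
    (hε : ∀ i, ε i ^ n = 1) : mulHeight (fun i => ε i * x i) = mulHeight x :=
  s17hsg_mulHeight_congr _ _ fun v i => by
    rw [map_mul, s17hsg_abv_root v hn (hε i), one_mul]

theorem s17hsg_logHeight_sign (x : ι → K) (ε : ι → K) {n : ℕ} (hn : n ≠ 0)
    (hε : ∀ i, ε i ^ n = 1) : logHeight (fun i => ε i * x i) = logHeight x := by
  rw [logHeight_eq_log_mulHeight, logHeight_eq_log_mulHeight, s17hsg_mulHeight_sign x ε hn hε]

end general

variable {ι : Type*} [Finite ι]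

/-- **the absolute height is invariant under coordinatewise multiplication by roots of unity.** -/
theorem s17hsg_absQ_unit (x : ι → AlgebraicClosure ℚ) (ε : ι → AlgebraicClosure ℚ) {n : ℕ}
    (hn : n ≠ 0) (hε : ∀ i, ε i ^ n = 1) :
    s17haAbsQ (fun i => ε i * x i) = s17haAbsQ x := by
  obtain ⟨E, _, _, j, x', ε', hx, hε'⟩ := s17hab_exists_common x ε
  have hroot : ∀ i, ε' i ^ n = 1 := fun i => j.injective (by rw [map_pow, hε', hε, map_one])
  rw [s17haAbsQ_eq E j (fun i => ε' i * x' i) (fun i => ε i * x i)
      (fun i => by rw [map_mul, hx, hε']),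
    s17haAbsQ_eq E j x' x hx, s17hsg_logHeight_sign x' ε' hn hroot]

/-- **coordinatewise signs.** -/
theorem s17hsg_absQ_sign (x : ι → AlgebraicClosure ℚ) (ε : ι → ℤˣ) :
    s17haAbsQ (fun i => ((ε i : ℤ) : AlgebraicClosure ℚ) * x i) = s17haAbsQ x := by
  refine s17hsg_absQ_unit x _ (n := 2) two_ne_zero fun i => ?_
  have h : ((ε i : ℤ)) ^ 2 = 1 := by
    rcases Int.units_eq_one_or (ε i) with h | h <;> simp [h]
  exact_mod_cast congrArg (fun z : ℤ => (z : AlgebraicClosure ℚ)) h

/-- **signs `(-1)^k`.** -/
theorem s17hsg_absQ_negOnePow (x : ι → AlgebraicClosure ℚ) (k : ι → ℕ) :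
    s17haAbsQ (fun i => (-1 : AlgebraicClosure ℚ) ^ k i * x i) = s17haAbsQ x := by
  refine s17hsg_absQ_unit x _ (n := 2) two_ne_zero fun i => ?_
  rw [← pow_mul, mul_comm, pow_mul, neg_one_sq, one_pow]

end Fermat.Agent.S17
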