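/-
S17 sprint, leaf **H6c** (helper97): relative height = power of the `ℚ`-height.

For a number field `K` and a nonzero tuple `x : ι → ℚ` of rational numbers

  `mulHeight (algebraMap ℚ K ∘ x) = mulHeight x ^ [K : ℚ]`,
  `logHeight (algebraMap ℚ K ∘ x) = [K : ℚ] * logHeight x`.

So a height bound proved over a number field `K` containing the coefficients of a certificate
(H0, H1) gives the same bound (exponent / factor `[K : ℚ]`) for the `ℚ`-height of rational points.

Proof: both sides are invariant under scaling, so `x` may be taken to be a primitive integer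
vector; then every finite place of `K` contributes `1` (Bezout), and an infinite place `w`
contributes `(max |x_i|) ^ mult w`; `∑ mult w = [K : ℚ]`.

* `s17he_iSup_finitePlace`   : the finite places at a primitive integer vector;
* `s17he_mulHeight_int`      : `mulHeight` over `K` of a primitive integer vector;
* `s17he_exists_primitive`   : every nonzero rational tuple is a multiple of a primitive one;
* `s17he_mulHeight_algebraMap`, `s17he_logHeight_algebraMap` : the two statements above;
* `s17he_mulHeight_le_of_le` : transfer of a bound `H_K(y) ≤ C · H_K(x)^d` to the `ℚ`-heights.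
-/
import Mathlib.NumberTheory.Height.NumberField

set_option autoImplicit false
set_option linter.unusedSectionVars false

namespace Fermat.Agent.S17

open NumberField Height

section primitive

variable (K : Type*) [Field K] [NumberField K] {ι : Type*} [Fintype ι] [Nonempty ι]

/-- every finite place of `K` takes the value `1` at a primitive integer vector. -/
theorem s17he_iSup_finitePlace (v : FinitePlace K) {x : ι → ℤ}
    (hx : Finset.univ.gcd x = 1) : ⨆ i, v ((x i : ℤ) : K) = 1 := by
  have hv : IsNonarchimedean (v ·) := FinitePlace.add_le v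
  have H (n : ℤ) : v (n : K) ≤ 1 := IsNonarchimedean.apply_intCast_le_one hv
  obtain ⟨f, hf⟩ := Finset.gcd_eq_sum_mul .univ x
  have hf1 : (1 : K) = ∑ i, ((x i : ℤ) : K) * ((f i : ℤ) : K) := by
    have h0 := congrArg (Int.cast : ℤ → K) hf
    rw [hx] at h0
    push_cast at h0
    exact h0
  have hf2 : (1 : ℝ) ≤ ⨆ i, v (((x i : ℤ) : K) * ((f i : ℤ) : K)) := by
    have h1 : v (1 : K) = 1 := map_one _
    rw [← h1, hf1]
    exact hv.apply_sum_univ_le
  obtain ⟨i, hi⟩ := exists_eq_ciSup_of_finite (f := fun i ↦ v (((x i : ℤ) : K) * ((f i : ℤ) : K)))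
  rw [← hi, map_mul] at hf2
  have hf3 : 1 ≤ v ((x i : ℤ) : K) :=
    hf2.trans <| mul_le_of_le_one_right (apply_nonneg v _) (H _)
  exact le_antisymm (ciSup_le fun j => H (x j)) <| Finite.le_ciSup_of_le i hf3

/-- the value of an infinite place of `K` at an integer. -/
theorem s17he_infinitePlace_int (w : InfinitePlace K) (n : ℤ) :
    w ((n : ℤ) : K) = |(n : ℝ)| := by
  have h1 := InfinitePlace.map_ratCast w (n : ℚ)
  rw [Rat.cast_intCast] at h1
  rw [h1, ← Rat.norm_cast_real, Real.norm_eq_abs, Rat.cast_intCast]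

/-- **the height over `K` of a primitive integer vector**. -/
theorem s17he_mulHeight_int {x : ι → ℤ} (hx : Finset.univ.gcd x = 1) :
    mulHeight (fun i => ((x i : ℤ) : K)) =
      (⨆ i, |((x i : ℤ) : ℝ)|) ^ Module.finrank ℚ K := by
  have hx₀ : (fun i => ((x i : ℤ) : K)) ≠ 0 := by
    intro h0
    have h1 : ∀ i, x i = 0 := fun i => by
      have := congrFun h0 i
      simpa using this
    have h2 : Finset.univ.gcd x = 0 := Finset.gcd_eq_zero_iff.mpr fun i _ => h1 i
    rw [h2] at hx
    exact zero_ne_one hx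
  rw [NumberField.mulHeight_eq hx₀,
    finprod_eq_one_of_forall_eq_one (fun v => s17he_iSup_finitePlace K v hx), mul_one]
  simp_rw [s17he_infinitePlace_int]
  rw [Finset.prod_pow_eq_pow_sum, InfinitePlace.sum_mult_eq]

/-- the same, compared with the height over `ℚ`. -/
theorem s17he_mulHeight_int_eq {x : ι → ℤ} (hx : Finset.univ.gcd x = 1) :
    mulHeight (fun i => ((x i : ℤ) : K)) =
      mulHeight (fun i => ((x i : ℤ) : ℚ)) ^ Module.finrank ℚ K := by
  rw [s17he_mulHeight_int K hx]
  have h1 := s17he_mulHeight_int ℚ hx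
  rw [Module.finrank_self, pow_one] at h1
  rw [h1]

end primitive

section general

variable {ι : Type*} [Fintype ι]

/-- every nonzero rational tuple is a nonzero multiple of a primitive integer vector. -/
theorem s17he_exists_primitive (x : ι → ℚ) (hx : x ≠ 0) :
    ∃ (c : ℚ) (y : ι → ℤ), c ≠ 0 ∧ Finset.univ.gcd y = 1 ∧ ∀ i, x i = c * (y i : ℚ) := by
  classical
  -- a common denominator
  set d : ℕ := ∏ j, (x j).den with hd
  have hd0 : d ≠ 0 := Finset.prod_ne_zero_iff.mpr fun j _ => (x j).den_nz
  have hdvd : ∀ i, (x i).den ∣ d := fun i => Finset.dvd_prod_of_mem _ (Finset.mem_univ i)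
  set z : ι → ℤ := fun i => (x i).num * ((d / (x i).den : ℕ) : ℤ) with hz
  have hzx : ∀ i, ((z i : ℤ) : ℚ) = x i * (d : ℚ) := by
    intro i
    obtain ⟨e, he⟩ := hdvd i
    have hden : ((x i).den : ℚ) ≠ 0 := by exact_mod_cast (x i).den_nz
    have h1 : d / (x i).den = e := by
      rw [he]
      exact Nat.mul_div_cancel_left e (Nat.pos_of_ne_zero (x i).den_nz)
    have h2 : (d : ℚ) = ((x i).den : ℚ) * (e : ℚ) := by rw [he]; push_cast; ring
    have h3 : x i * ((x i).den : ℚ) = ((x i).num : ℚ) := Rat.mul_den_eq_num (x i)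
    simp only [hz, h1]
    push_cast
    rw [h2, ← mul_assoc, h3]
  -- `z ≠ 0`
  obtain ⟨i₀, hi₀⟩ : ∃ i, x i ≠ 0 := by
    by_contra hcon
    exact hx (funext fun i => by
      by_contra hi
      exact hcon ⟨i, hi⟩)
  have hz0 : z i₀ ≠ 0 := by
    intro h0
    have h1 := hzx i₀
    rw [h0, Int.cast_zero] at h1
    have hdq : (d : ℚ) ≠ 0 := by exact_mod_cast hd0
    rcases mul_eq_zero.1 h1.symm with h2 | h2
    · exact hi₀ h2
    · exact hdq h2
  have hg0 : Finset.univ.gcd z ≠ 0 := by
    intro h0
    exact hz0 ((Finset.gcd_eq_zero_iff.mp h0) i₀ (Finset.mem_univ i₀))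
  obtain ⟨y, hy1, hy2⟩ := Finset.extract_gcd z (Finset.univ_nonempty_iff.mpr ⟨i₀⟩)
  refine ⟨((Finset.univ.gcd z : ℤ) : ℚ) / (d : ℚ), y, ?_, hy2, fun i => ?_⟩
  · have hdq : (d : ℚ) ≠ 0 := by exact_mod_cast hd0
    have hgq : ((Finset.univ.gcd z : ℤ) : ℚ) ≠ 0 := by exact_mod_cast hg0
    exact div_ne_zero hgq hdq
  · have hdq : (d : ℚ) ≠ 0 := by exact_mod_cast hd0
    have h1 : ((z i : ℤ) : ℚ) = ((Finset.univ.gcd z : ℤ) : ℚ) * ((y i : ℤ) : ℚ) := by
      have := hy1 i (Finset.mem_univ i)
      exact_mod_cast this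
    have h2 := hzx i
    rw [h1] at h2
    field_simp
    rw [← h2]

variable (K : Type*) [Field K] [NumberField K]

/-- **H6c: relative height = power of the `ℚ`-height**, multiplicative form. -/
theorem s17he_mulHeight_algebraMap (x : ι → ℚ) (hx : x ≠ 0) :
    mulHeight (fun i => algebraMap ℚ K (x i)) = mulHeight x ^ Module.finrank ℚ K := by
  have hne : Nonempty ι := by
    by_contra hcon
    rw [not_nonempty_iff] at hcon
    exact hx (Subsingleton.elim _ _)
  obtain ⟨c, y, hc, hy, hxy⟩ := s17he_exists_primitive x hx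
  have h1 : x = c • (fun i => ((y i : ℤ) : ℚ)) := by
    funext i
    simp [hxy i]
  have h2 : (fun i => algebraMap ℚ K (x i)) =
      (algebraMap ℚ K c) • (fun i => ((y i : ℤ) : K)) := by
    funext i
    simp [hxy i]
  have hcK : algebraMap ℚ K c ≠ 0 := by
    rw [Ne, map_eq_zero_iff _ (algebraMap ℚ K).injective]
    exact hc
  rw [h2, mulHeight_smul_eq_mulHeight _ hcK, h1, mulHeight_smul_eq_mulHeight _ hc]
  exact s17he_mulHeight_int_eq K hy

/-- **H6c**, logarithmic form. -/
theorem s17he_logHeight_algebraMap (x : ι → ℚ) (hx : x ≠ 0) :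
    logHeight (fun i => algebraMap ℚ K (x i)) = Module.finrank ℚ K * logHeight x := by
  rw [logHeight_eq_log_mulHeight, logHeight_eq_log_mulHeight, s17he_mulHeight_algebraMap K x hx,
    Real.log_pow]

/-- **transfer of a height bound**: if `H_K(y) ≤ C · H_K(x) ^ d` over `K` for rational tuples `x`,
`y`, then `H_ℚ(y) ≤ C^{1/[K:ℚ]} · H_ℚ(x) ^ d`; here in the logarithmic form
`h_ℚ(y) ≤ d · h_ℚ(x) + log C / [K : ℚ]`. -/
theorem s17he_logHeight_le_of_le {κ : Type*} [Fintype κ] (x : ι → ℚ) (hx : x ≠ 0)
    (y : κ → ℚ) (hy : y ≠ 0) (d : ℝ) (c : ℝ)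
    (h : logHeight (fun j => algebraMap ℚ K (y j)) ≤
      d * logHeight (fun i => algebraMap ℚ K (x i)) + c) :
    logHeight y ≤ d * logHeight x + c / Module.finrank ℚ K := by
  rw [s17he_logHeight_algebraMap K x hx, s17he_logHeight_algebraMap K y hy] at h
  have hn : (0 : ℝ) < Module.finrank ℚ K := by
    exact_mod_cast Module.finrank_pos
  have h1 : (Module.finrank ℚ K : ℝ) * logHeight y ≤
      (Module.finrank ℚ K : ℝ) * (d * logHeight x + c / Module.finrank ℚ K) := by
    rw [mul_add, mul_div_cancel₀ c hn.ne']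
    linarith [h]
  exact le_of_mul_le_mul_left h1 hn

end general

end Fermat.Agent.S17
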