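/-
S17 sprint, leaf **H-ABS / tower formula, infinite half** (helper40).

For number fields `E ⊆ E'` and a tuple `x : ι → E`:

  `∏_{w ∈ InfPl E'} (⨆ i, w (x i)) ^ mult w = (∏_{v ∈ InfPl E} (⨆ i, v (x i)) ^ mult v) ^ [E' : E]`.

Proof: a product over infinite places with multiplicities is a product over complex embeddings
(`s17hti_prod_embeddings`); the restriction map `(E' →+* ℂ) → (E →+* ℂ)` has fibres of
cardinality `[E' : E]` (`s17hti_card_fiber`, from `AlgHom.card`).
-/
import Mathlib.NumberTheory.Height.NumberField

set_option autoImplicit false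

namespace Fermat.Agent.S17

open NumberField

section embeddings

variable {K : Type*} [Field K] [NumberField K]

/-- a product over the infinite places, with multiplicities, is a product over the complex
embeddings. -/
theorem s17hti_prod_embeddings {M : Type*} [CommMonoid M] (f : InfinitePlace K → M) :
    ∏ w : InfinitePlace K, f w ^ w.mult = ∏ φ : K →+* ℂ, f (InfinitePlace.mk φ) := by
  classical
  rw [← Finset.univ.prod_fiberwise (fun φ : K →+* ℂ => InfinitePlace.mk φ)
    (fun φ => f (InfinitePlace.mk φ))]
  refine Finset.prod_congr rfl fun w _ => ?_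
  rw [Finset.prod_congr rfl (g := fun _ => f w)
    (fun φ hφ => by rw [(Finset.mem_filter.mp hφ).2]), Finset.prod_const,
    InfinitePlace.card_filter_mk_eq]

end embeddings

section tower

variable {E E' : Type*} [Field E] [Field E'] [NumberField E] [NumberField E'] [Algebra E E']

/-- the fibres of the restriction of complex embeddings have `[E' : E]` elements. -/
theorem s17hti_card_fiber [DecidableEq (E →+* ℂ)] (φ : E →+* ℂ) :
    (Finset.univ.filter fun ψ : E' →+* ℂ => ψ.comp (algebraMap E E') = φ).card
      = Module.finrank E E' := by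
  let _ : Algebra E ℂ := φ.toAlgebra
  have : FiniteDimensional E E' := Module.Finite.of_restrictScalars_finite ℚ E E'
  have : Algebra.IsSeparable E E' := inferInstance
  rw [← AlgHom.card E E' ℂ]
  refine Finset.card_eq_of_equiv_fintype ?_
  refine
    { toFun := fun ψ => { (ψ.1 : E' →+* ℂ) with
        commutes' := fun r => by
          have h := (Finset.mem_filter.mp ψ.2).2
          exact congrArg (fun g : E →+* ℂ => g r) h }
      invFun := fun f => ⟨f.toRingHom, Finset.mem_filter.mpr ⟨Finset.mem_univ _, by
        ext r
        exact f.commutes r⟩⟩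
      left_inv := fun ψ => by
        apply Subtype.ext
        rfl
      right_inv := fun f => by
        ext r
        rfl }

/-- **tower formula, infinite half.** -/
theorem s17hti_tower {ι : Type*} (x : ι → E) :
    ∏ w : InfinitePlace E', (⨆ i, w (algebraMap E E' (x i))) ^ w.mult
      = (∏ v : InfinitePlace E, (⨆ i, v (x i)) ^ v.mult) ^ Module.finrank E E' := by
  classical
  rw [s17hti_prod_embeddings (fun w : InfinitePlace E' => ⨆ i, w (algebraMap E E' (x i))),
    s17hti_prod_embeddings (fun v : InfinitePlace E => ⨆ i, v (x i)), ← Finset.prod_pow,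
    ← Finset.univ.prod_fiberwise (fun ψ : E' →+* ℂ => ψ.comp (algebraMap E E'))]
  refine Finset.prod_congr rfl fun φ _ => ?_
  rw [Finset.prod_congr rfl (g := fun _ => ⨆ i, (InfinitePlace.mk φ) (x i)) ?_,
    Finset.prod_const]
  · congr 1
    convert s17hti_card_fiber (E' := E') φ
  intro ψ hψ
  have h := (Finset.mem_filter.mp hψ).2
  subst h
  rfl

/-- the same for a general function of the restricted place. -/
theorem s17hti_tower_fun {M : Type*} [CommMonoid M] (g : InfinitePlace E → M) :
    ∏ w : InfinitePlace E', g (w.comap (algebraMap E E')) ^ w.mult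
      = (∏ v : InfinitePlace E, g v ^ v.mult) ^ Module.finrank E E' := by
  classical
  rw [s17hti_prod_embeddings (fun w : InfinitePlace E' => g (w.comap (algebraMap E E'))),
    s17hti_prod_embeddings g, ← Finset.prod_pow,
    ← Finset.univ.prod_fiberwise (fun ψ : E' →+* ℂ => ψ.comp (algebraMap E E'))]
  refine Finset.prod_congr rfl fun φ _ => ?_
  rw [Finset.prod_congr rfl (g := fun _ => g (InfinitePlace.mk φ)) ?_,
    Finset.prod_const]
  · congr 1
    convert s17hti_card_fiber (E' := E') φ
  intro ψ hψ
  have h := (Finset.mem_filter.mp hψ).2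
  subst h
  rfl

end tower

end Fermat.Agent.S17
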