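/-
S17 sprint, layer H — leaf **(hy) LITERAL** (helper95; input (hy) of helper77's S17/AsmMT.lean):
on the closed stage of S27-B the LIFTED local equation

  `b_L W = s17pmtB (s27indB ψ β 1) W = ι (B 1 (W ∩ 𝔉))`,   `β = s27beta (G₀ + Ao)`,

IS (literally, not only up to a unit) a class-indexed local equation of `Θ_{Ao}` at the generic
class `η` along EVERY valuation subring `W ⊇ K` of `L`:

  `s27ftIdx hx Ao W η (b_L W)`      (`= S27icIdx hld hgen hx Ao W η (b_L W)`).

* `s17il_beta_idx` : `ι (β (W ∩ 𝔉))` is a local equation at the tautological tuple along `W`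
                     (the spec of `β` on `Ω` + naturality `s27pt_idx_nat` of local equations);
* `s17il_indB_one` : `B 1 = β` when `ψ 1 = id`;
* **`s17il_hy`**   : the statement above.
-/
import Fermat.Agent.S17.PlMCube
import Fermat.Agent.S17.PlMTop
import Fermat.Agent.S17.MoveUp

set_option autoImplicit false
set_option linter.unusedVariables false
set_option linter.unusedSectionVars false
set_option linter.style.haveILetI false

noncomputable section

namespace Fermat.Agent.S17

open AlgebraicCurve Module TensorProduct IntermediateField Fermat.Agent.S26 Fermat.Agent.S27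

universe u v w'

section Model

variable {K : Type u} {F : Type v} [Field K] [IsAlgClosed K] [Field F] [Algebra K F] {g : ℕ}
variable {L : Type w'} [Field L] [Algebra K L] [Algebra (s27gfOm K F g) L]
  [IsScalarTower K (s27gfOm K F g) L]

/-- `ι (β (W ∩ 𝔉))` is LITERALLY a local equation at the tautological tuple along `W ⊆ L`. -/
theorem s17il_beta_idx (A' : Divisor K F)
    (β : ValuationSubring (s27gfSym K F g) → s27gfSym K F g)
    (hΩ : ∀ W : ValuationSubring (s27gfOm K F g), (∀ a : K, algebraMap K (s27gfOm K F g) a ∈ W) →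
      S27ptIsIdx W (fun i => (s27gfIota i : F →ₐ[K] s27gfOm K F g)) A'
        (algebraMap (s27gfSym K F g) (s27gfOm K F g)
          (β (W.comap (algebraMap (s27gfSym K F g) (s27gfOm K F g))))))
    (W : ValuationSubring L) (hW : S27IsKValU K W) :
    S27ptIsIdx W (s27pnTaut (K := K) (F := F) (g := g) (L := L)) A'
      (algebraMap (s27gfSym K F g) L (β (W.comap (algebraMap (s27gfSym K F g) L)))) := by
  have hK : ∀ a : K, algebraMap K (s27gfOm K F g) a ∈
      W.comap (algebraMap (s27gfOm K F g) L) := by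
    intro a
    rw [ValuationSubring.mem_comap, ← IsScalarTower.algebraMap_apply K (s27gfOm K F g) L]
    exact hW a
  have h1 := hΩ (W.comap (algebraMap (s27gfOm K F g) L)) hK
  have h2 := s27pt_idx_nat (IsScalarTower.toAlgHom K (s27gfOm K F g) L) W h1
  have h3 : (W.comap (algebraMap (s27gfOm K F g) L)).comap
      (algebraMap (s27gfSym K F g) (s27gfOm K F g)) =
      W.comap (algebraMap (s27gfSym K F g) L) := by
    ext s
    simp only [ValuationSubring.mem_comap]
    rfl
  rw [h3] at h2
  exact h2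

end Model

section Ind

variable {K : Type u} [Field K] {𝔉 : Type v} [Field 𝔉] [Algebra K 𝔉]

/-- `B 1 = β` when `ψ 1 = id`. -/
theorem s17il_indB_one (ψ : ℤ → (𝔉 →ₐ[K] 𝔉)) (β : ValuationSubring 𝔉 → 𝔉)
    (h1 : ∀ s, ψ 1 s = s) (V : ValuationSubring 𝔉) : s27indB ψ β 1 V = β V := by
  have hV : V.comap ((ψ 1 : 𝔉 →ₐ[K] 𝔉) : 𝔉 →+* 𝔉) = V := by
    ext a
    rw [ValuationSubring.mem_comap]
    have : ((ψ 1 : 𝔉 →ₐ[K] 𝔉) : 𝔉 →+* 𝔉) a = a := h1 a
    rw [this]
  unfold s27indB
  rw [if_neg one_ne_zero, hV, h1]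

end Ind

section Stage

variable {K : Type u} {F : Type v} [Field K] [Field F] [Algebra K F] [IsAlgClosed K] [CharZero K]
  [IsCurveOver K F] [Algebra.EssFiniteType K F]

/-- **(hy), literal**: the lifted `B 1` is a class-indexed local equation of `Θ_{Ao}` at `η` along
every `W ⊇ K` of `L`, on the closed stage. -/
theorem s17il_hy {x : F} {G₀ : Divisor K F} {O : Place K F} (hc : S27cstIsConst x G₀ O)
    (hg : 0 < genusFF K F) :
    haveI := hc.fin
    haveI := hc.sep
    ∀ (q : ℤ → Fin (genusFF K F) → F →ₐ[K] s27mtL K F)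
      (hq : S27pfFam (s27ftPkg hc.trans G₀ hc.deg) q)
      (W : ValuationSubring (s27mtL K F)), S27IsKValU K W →
      s27ftIdx hc.trans (s27cstAo G₀ O) W (s27ftEta hc.trans G₀ hc.deg)
        (s17pmtB (L := s27mtL K F)
          (s27indB (s27pfPsi (s27ftPkg hc.trans G₀ hc.deg) (s27dcl_halg (x := x)) hq)
            (s27beta (g := genusFF K F) (G₀ + s27cstAo G₀ O)) 1) W) := by
  haveI := hc.fin
  haveI := hc.sep
  intro q hq W hW
  have hx := hc.trans
  have hl := hc.l_A
  have hpos : 0 < Module.finrank K ↥(riemannRochSpace (G₀ + s27cstAo G₀ O)) := by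
    rw [hl]; exact hg
  haveI : Module.Finite K ↥(riemannRochSpace (G₀ + s27cstAo G₀ O)) :=
    Module.finite_of_finrank_pos hpos
  let f₀ : Module.Basis (Fin (genusFF K F)) K ↥(riemannRochSpace (G₀ + s27cstAo G₀ O)) :=
    Module.finBasisOfFinrankEq K _ hl
  have hlat := s27flx_latEx K F hx (G₀ + s27cstAo G₀ O)
  have hidx : S27ptIsIdx W
      (s27pnTaut (K := K) (F := F) (g := genusFF K F) (L := s27mtL K F))
      (G₀ + s27cstAo G₀ O)
      (algebraMap (s27gfSym K F (genusFF K F)) (s27mtL K F)
        (s27beta (g := genusFF K F) (G₀ + s27cstAo G₀ O)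
          (W.comap (algebraMap (s27gfSym K F (genusFF K F)) (s27mtL K F))))) :=
    s17il_beta_idx (G₀ + s27cstAo G₀ O) _
      (fun W' hW' => s27beta_spec s27betac_conj (G₀ + s27cstAo G₀ O) f₀ hlat W' hW') W hW
  have hB1 := s17il_indB_one
    (s27pfPsi (s27ftPkg hx G₀ hc.deg) (s27dcl_halg (x := x)) hq)
    (s27beta (g := genusFF K F) (G₀ + s27cstAo G₀ O)) (s17pmc_one hc q hq)
    (W.comap (algebraMap (s27gfSym K F (genusFF K F)) (s27mtL K F)))
  have hR : Function.Injective
      (s27pfTaut (K := K) (F := F) (g := genusFF K F) (L := s27mtL K F)) :=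
    s27ic_generic_injective (x := x)
      (s27mp_taut_generic (K := K) (F := F) (L := s27mtL K F) hx)
  have hfin := s27ica_idx (FL := s27mtFL K F) (s27stg_hld K F (s27mtL K F))
    (s27stg_hgen K F (s27mtL K F)) hx (s27cstAo G₀ O) W hR hc.deg
    (c := s27ftEta hx G₀ hc.deg) rfl hidx
  unfold s17pmtB
  rw [hB1]
  exact hfin

end Stage

end Fermat.Agent.S17

end
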