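/-
S17 sprint, layer H, leaf PlM, sub-leaf PlM-BPF — **NORM-BPF** (helper89): descent of
base-point-freeness along a normal algebraic extension, WITHOUT any semi-invariance of the family.

`K ⊆ 𝔉 ⊆ 𝔏` fields, `K` infinite, `𝔏 / 𝔉` normal, `ι = algebraMap 𝔉 𝔏`, `b V` local equations along
the valuation subrings `V` of `𝔉`, `Φ : A → 𝔏` a FINITE family which is base-point-free of level `m`
w.r.t. the LIFTED local equations `W ↦ ι (b (W ∩ 𝔉))`.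

For `l : A → K` put `Φ_l = Σ_a l_a Φ_a`, `e_l = deg minpoly_𝔉 Φ_l`, `f_l = N(Φ_l) = ∏ conjugates`
(`s27nmPhi`), and with `d ≥ e_l` for all `l` (`d = [𝔉(Φ_a : a) : 𝔉]`)

  `s17nbpF Φ d l = f_l ^ (d! / e_l) ∈ 𝔉`.

* `s17nbp_norm_mem`, `s17nbp_norm_unit` : `N(Ψ) · y ^ (m e)` is in `V = W ∩ 𝔉` (a unit of `V`) as soon
   as `σ Ψ · y ^ m` is in `W` (a unit of `W`) for all `σ ∈ Aut(𝔏 / 𝔉)`;
* `s17nbp_exists_generic` : finitely many tuples `τ` with `τ_a c ∈ W`, one of them a unit for each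
   `τ` ⇒ ONE `l : A → K` with `(Σ_a l_a τ_a) c` a unit of `W` for all `τ` (a vector space over an
   infinite field is not a finite union of proper subspaces);
* `s17nbp_deg_le`   : `e_l ≤ d` for all `l`;
* **`s17nbp_at`**   : pointwise at `W ⊇ K`: if `Φ` is bpf at all conjugates `σ⁻¹ W` then
   `(s17nbpF Φ d l)_l` is bpf of level `m · d!` at `V = W ∩ 𝔉`;
* **`s17nbp_main`** : `S17muBpf K (lifted b) m Φ ⇒ ∃ N > 0, ∃ f : (A → K) → 𝔉, S17muBpf K b (m N) f`;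
* `s17nbp_pred`     : the same for classes of valuation subrings (e.g. `K`-places only).
-/
import Fermat.Agent.S17.Bpf
import Fermat.Agent.S27.Norm
import Mathlib.GroupTheory.CosetCover

set_option autoImplicit false
set_option linter.unusedVariables false
set_option linter.unusedSectionVars false
set_option linter.style.haveILetI false

noncomputable section

namespace Fermat.Agent.S17

open Fermat.Agent.S27 Polynomial

universe u w w' x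

section Core

variable {K : Type u} [Field K] {𝔉 : Type w} [Field 𝔉] [Algebra K 𝔉]
  {𝔏 : Type w'} [Field 𝔏] [Algebra 𝔉 𝔏] [Algebra K 𝔏] [IsScalarTower K 𝔉 𝔏]

/-- the `K`-linear combination `Σ_a l_a Φ_a`. -/
def s17nbpLin {A : Type x} [Fintype A] (Φ : A → 𝔏) (l : A → K) : 𝔏 :=
  ∑ a, algebraMap K 𝔏 (l a) * Φ a

/-- conjugation of a membership. -/
theorem s17nbp_conj_mem (W : ValuationSubring 𝔏) (σ : 𝔏 ≃ₐ[𝔉] 𝔏) {z : 𝔏}
    (h : z ∈ W.comap ((σ : 𝔏 →ₐ[𝔉] 𝔏) : 𝔏 →+* 𝔏)) : σ z ∈ W := h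

/-- conjugation of a unit. -/
theorem s17nbp_conj_unit (W : ValuationSubring 𝔏) (σ : 𝔏 ≃ₐ[𝔉] 𝔏) {z : 𝔏}
    (h : S27IsUnitIn (W.comap ((σ : 𝔏 →ₐ[𝔉] 𝔏) : 𝔏 →+* 𝔏)) z) : S27IsUnitIn W (σ z) := by
  obtain ⟨h0, h1, h2⟩ := h
  refine ⟨fun h => h0 ((map_eq_zero _).1 h), h1, ?_⟩
  have h3 : σ z⁻¹ ∈ W := h2
  rwa [map_inv₀] at h3

theorem s17nbp_multiset_mem (W : ValuationSubring 𝔏) (c : 𝔏) (s : Multiset 𝔏)
    (h : ∀ r ∈ s, r * c ∈ W) : s.prod * c ^ Multiset.card s ∈ W := by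
  induction s using Multiset.induction_on with
  | empty => simp [W.one_mem]
  | cons a s ih =>
    have h1 := ih (fun r hr => h r (Multiset.mem_cons_of_mem hr))
    have h2 := h a (Multiset.mem_cons_self a s)
    have e : (a ::ₘ s).prod * c ^ Multiset.card (a ::ₘ s) =
        (a * c) * (s.prod * c ^ Multiset.card s) := by
      rw [Multiset.card_cons, Multiset.prod_cons, pow_succ]
      ring
    rw [e]
    exact W.mul_mem _ _ h2 h1

theorem s17nbp_multiset_unit (W : ValuationSubring 𝔏) (c : 𝔏) (s : Multiset 𝔏)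
    (h : ∀ r ∈ s, S27IsUnitIn W (r * c)) : S27IsUnitIn W (s.prod * c ^ Multiset.card s) := by
  induction s using Multiset.induction_on with
  | empty => simpa using s27nm_unit_one W
  | cons a s ih =>
    have h1 := ih (fun r hr => h r (Multiset.mem_cons_of_mem hr))
    have h2 := h a (Multiset.mem_cons_self a s)
    have e : (a ::ₘ s).prod * c ^ Multiset.card (a ::ₘ s) =
        (a * c) * (s.prod * c ^ Multiset.card s) := by
      rw [Multiset.card_cons, Multiset.prod_cons, pow_succ]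
      ring
    rw [e]
    exact s27nm_unit_mul W h2 h1

/-- every root of the minimal polynomial is a conjugate. -/
theorem s17nbp_root_conj [Normal 𝔉 𝔏] (Ψ : 𝔏) (r : 𝔏)
    (hr : r ∈ ((minpoly 𝔉 Ψ).map (algebraMap 𝔉 𝔏)).roots) : ∃ σ : 𝔏 ≃ₐ[𝔉] 𝔏, σ Ψ = r := by
  have hint : IsIntegral 𝔉 Ψ := Normal.isIntegral inferInstance Ψ
  have hev : aeval r (minpoly 𝔉 Ψ) = 0 := by
    have := (mem_roots'.1 hr).2
    rwa [IsRoot.def, eval_map_algebraMap] at this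
  exact minpoly.exists_algEquiv_of_root' hint.isAlgebraic hev

theorem s17nbp_norm_eq [Normal 𝔉 𝔏] (Ψ : 𝔏) (y : 𝔉) (m : ℕ) :
    algebraMap 𝔉 𝔏 (s27nmPhi 𝔉 Ψ * y ^ (m * s27nmE 𝔉 Ψ)) =
      ((minpoly 𝔉 Ψ).map (algebraMap 𝔉 𝔏)).roots.prod *
        (algebraMap 𝔉 𝔏 y ^ m) ^ Multiset.card ((minpoly 𝔉 Ψ).map (algebraMap 𝔉 𝔏)).roots := by
  obtain ⟨hcard, hprod⟩ := s27nm_roots (𝔉 := 𝔉) Ψ
  rw [hcard, hprod, map_mul, map_pow, pow_mul]

/-- **the norm of a function integral at all conjugates.** -/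
theorem s17nbp_norm_mem [Normal 𝔉 𝔏] (W : ValuationSubring 𝔏) (y : 𝔉) (m : ℕ) (Ψ : 𝔏)
    (h : ∀ σ : 𝔏 ≃ₐ[𝔉] 𝔏, σ Ψ * algebraMap 𝔉 𝔏 y ^ m ∈ W) :
    s27nmPhi 𝔉 Ψ * y ^ (m * s27nmE 𝔉 Ψ) ∈ W.comap (algebraMap 𝔉 𝔏) := by
  rw [ValuationSubring.mem_comap, s17nbp_norm_eq]
  refine s17nbp_multiset_mem W _ _ fun r hr => ?_
  obtain ⟨σ, rfl⟩ := s17nbp_root_conj Ψ r hr
  exact h σ

/-- **the norm of a function which is a unit at all conjugates.** -/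
theorem s17nbp_norm_unit [Normal 𝔉 𝔏] (W : ValuationSubring 𝔏) (y : 𝔉) (m : ℕ) (Ψ : 𝔏)
    (h : ∀ σ : 𝔏 ≃ₐ[𝔉] 𝔏, S27IsUnitIn W (σ Ψ * algebraMap 𝔉 𝔏 y ^ m)) :
    S27IsUnitIn (W.comap (algebraMap 𝔉 𝔏)) (s27nmPhi 𝔉 Ψ * y ^ (m * s27nmE 𝔉 Ψ)) := by
  rw [s27nm_unit_comap, s17nbp_norm_eq]
  refine s17nbp_multiset_unit W _ _ fun r hr => ?_
  obtain ⟨σ, rfl⟩ := s17nbp_root_conj Ψ r hr
  exact h σ

/-- the subspace of the `l` for which `(Σ_a l_a τ_a) c` is not a unit of `W`. -/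
def s17nbpSub {A : Type x} [Fintype A] (W : ValuationSubring 𝔏) (hW : S27IsKValU K W)
    (τ : A → 𝔏) (c : 𝔏) : Submodule K (A → K) where
  carrier := {l | W.valuation ((∑ a, algebraMap K 𝔏 (l a) * τ a) * c) < 1}
  zero_mem' := by
    show W.valuation ((∑ a, algebraMap K 𝔏 ((0 : A → K) a) * τ a) * c) < 1
    simp
  add_mem' := fun {l l'} hl hl' => by
    show W.valuation ((∑ a, algebraMap K 𝔏 ((l + l') a) * τ a) * c) < 1
    have e : (∑ a, algebraMap K 𝔏 ((l + l') a) * τ a) * c =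
        (∑ a, algebraMap K 𝔏 (l a) * τ a) * c + (∑ a, algebraMap K 𝔏 (l' a) * τ a) * c := by
      rw [← add_mul, ← Finset.sum_add_distrib]
      congr 1
      refine Finset.sum_congr rfl fun a _ => ?_
      rw [Pi.add_apply, map_add, add_mul]
    rw [e]
    exact Valuation.map_add_lt _ hl hl'
  smul_mem' := fun k l hl => by
    show W.valuation ((∑ a, algebraMap K 𝔏 ((k • l) a) * τ a) * c) < 1
    have e : (∑ a, algebraMap K 𝔏 ((k • l) a) * τ a) * c =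
        algebraMap K 𝔏 k * ((∑ a, algebraMap K 𝔏 (l a) * τ a) * c) := by
      rw [← mul_assoc, Finset.mul_sum]
      congr 1
      refine Finset.sum_congr rfl fun a _ => ?_
      rw [Pi.smul_apply, smul_eq_mul, map_mul, mul_assoc]
    rw [e, map_mul]
    have hk : W.valuation (algebraMap K 𝔏 k) ≤ 1 := (W.valuation_le_one_iff _).2 (hW k)
    have hl1 : W.valuation ((∑ a, algebraMap K 𝔏 (l a) * τ a) * c) < 1 := hl
    calc W.valuation (algebraMap K 𝔏 k) * W.valuation ((∑ a, algebraMap K 𝔏 (l a) * τ a) * c)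
        ≤ 1 * W.valuation ((∑ a, algebraMap K 𝔏 (l a) * τ a) * c) := mul_le_mul_left hk _
      _ = W.valuation ((∑ a, algebraMap K 𝔏 (l a) * τ a) * c) := one_mul _
      _ < 1 := hl1

theorem s17nbp_mem_sub {A : Type x} [Fintype A] (W : ValuationSubring 𝔏) (hW : S27IsKValU K W)
    (τ : A → 𝔏) (c : 𝔏) (l : A → K) :
    l ∈ s17nbpSub W hW τ c ↔ W.valuation ((∑ a, algebraMap K 𝔏 (l a) * τ a) * c) < 1 :=
  Iff.rfl

/-- **a generic `K`-linear combination is a unit at finitely many tuples at once.** -/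
theorem s17nbp_exists_generic [Infinite K] {A : Type x} [Fintype A] (W : ValuationSubring 𝔏)
    (hW : S27IsKValU K W) (T : Set (A → 𝔏)) (hT : T.Finite) (c : 𝔏)
    (hmem : ∀ τ ∈ T, ∀ a, τ a * c ∈ W) (hunit : ∀ τ ∈ T, ∃ a, S27IsUnitIn W (τ a * c)) :
    ∃ l : A → K, ∀ τ ∈ T, S27IsUnitIn W ((∑ a, algebraMap K 𝔏 (l a) * τ a) * c) := by
  classical
  have htop : (⊤ : Submodule K (A → K)) ∉
      hT.toFinset.image (fun τ => s17nbpSub W hW τ c) := by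
    intro h
    obtain ⟨τ, hτ, hτe⟩ := Finset.mem_image.1 h
    have hτT : τ ∈ T := hT.mem_toFinset.1 hτ
    obtain ⟨a, ha⟩ := hunit τ hτT
    have hmemtop : (Pi.single a (1 : K) : A → K) ∈ s17nbpSub W hW τ c := by
      rw [hτe]
      exact Submodule.mem_top
    rw [s17nbp_mem_sub] at hmemtop
    have e : (∑ a', algebraMap K 𝔏 ((Pi.single a (1 : K) : A → K) a') * τ a') = τ a := by
      rw [Finset.sum_eq_single a]
      · rw [Pi.single_eq_same, map_one, one_mul]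
      · intro a' _ hne
        rw [Pi.single_eq_of_ne hne, map_zero, zero_mul]
      · intro h
        exact absurd (Finset.mem_univ a) h
    rw [e, (s17bp_unit_iff W _).1 ha] at hmemtop
    exact lt_irrefl _ hmemtop
  have hne := Subspace.biUnion_ne_univ_of_top_notMem htop
  obtain ⟨l, hl⟩ := (Set.ne_univ_iff_exists_notMem _).1 hne
  refine ⟨l, fun τ hτ => ?_⟩
  have hl' : l ∉ s17nbpSub W hW τ c := by
    intro hmem'
    apply hl
    simp only [Set.mem_iUnion]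
    exact ⟨s17nbpSub W hW τ c, Finset.mem_image.2 ⟨τ, hT.mem_toFinset.2 hτ, rfl⟩, hmem'⟩
  have hin : (∑ a, algebraMap K 𝔏 (l a) * τ a) * c ∈ W := by
    rw [Finset.sum_mul]
    refine sum_mem fun a _ => ?_
    rw [mul_assoc]
    exact W.mul_mem _ _ (hW (l a)) (hmem τ hτ a)
  by_contra hnu
  exact hl' ((s17nbp_mem_sub W hW τ c l).2 (s17bp_val_lt W hin hnu))

/-- the degrees of the `K`-linear combinations are bounded. -/
theorem s17nbp_deg_le [Normal 𝔉 𝔏] {A : Type x} [Fintype A] (Φ : A → 𝔏) :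
    ∃ d : ℕ, ∀ l : A → K, s27nmE 𝔉 (s17nbpLin Φ l) ≤ d := by
  classical
  haveI : FiniteDimensional 𝔉 (IntermediateField.adjoin 𝔉 (Set.range Φ)) :=
    IntermediateField.finiteDimensional_adjoin (fun x _ => Normal.isIntegral inferInstance x)
  refine ⟨Module.finrank 𝔉 (IntermediateField.adjoin 𝔉 (Set.range Φ)), fun l => ?_⟩
  have hmem : s17nbpLin Φ l ∈ IntermediateField.adjoin 𝔉 (Set.range Φ) := by
    unfold s17nbpLin
    refine sum_mem fun a _ => mul_mem ?_ (IntermediateField.subset_adjoin _ _ ⟨a, rfl⟩)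
    rw [IsScalarTower.algebraMap_apply K 𝔉 𝔏]
    exact IntermediateField.algebraMap_mem _ _
  have h1 := minpoly.natDegree_le (A := 𝔉)
    (⟨s17nbpLin Φ l, hmem⟩ : IntermediateField.adjoin 𝔉 (Set.range Φ))
  rw [IntermediateField.minpoly_eq] at h1
  exact h1

/-- **the descended family**: `f_l = N(Σ_a l_a Φ_a) ^ (d! / e_l)`. -/
def s17nbpF {A : Type x} [Fintype A] (𝔉 : Type w) [Field 𝔉] [Algebra K 𝔉] [Algebra 𝔉 𝔏]
    [IsScalarTower K 𝔉 𝔏] (Φ : A → 𝔏) (d : ℕ) (l : A → K) : 𝔉 :=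
  s27nmPhi 𝔉 (s17nbpLin Φ l) ^ (d.factorial / s27nmE 𝔉 (s17nbpLin Φ l))

theorem s17nbp_F_eq [Normal 𝔉 𝔏] {A : Type x} [Fintype A] (Φ : A → 𝔏) (d : ℕ)
    (hd : ∀ l : A → K, s27nmE 𝔉 (s17nbpLin Φ l) ≤ d) (l : A → K) (y : 𝔉) (m : ℕ) :
    s17nbpF 𝔉 Φ d l * y ^ (m * d.factorial) =
      (s27nmPhi 𝔉 (s17nbpLin Φ l) * y ^ (m * s27nmE 𝔉 (s17nbpLin Φ l))) ^
        (d.factorial / s27nmE 𝔉 (s17nbpLin Φ l)) := by
  have hdvd : s27nmE 𝔉 (s17nbpLin Φ l) ∣ d.factorial :=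
    Nat.dvd_factorial (s27nmE_pos _) (hd l)
  unfold s17nbpF
  rw [mul_pow, ← pow_mul, mul_assoc, Nat.mul_div_cancel' hdvd]

/-- a conjugate of a `K`-linear combination. -/
theorem s17nbp_lin_conj {A : Type x} [Fintype A] (Φ : A → 𝔏) (l : A → K) (σ : 𝔏 ≃ₐ[𝔉] 𝔏) :
    σ (s17nbpLin Φ l) = ∑ a, algebraMap K 𝔏 (l a) * σ (Φ a) := by
  unfold s17nbpLin
  rw [map_sum]
  refine Finset.sum_congr rfl fun a _ => ?_
  rw [map_mul, IsScalarTower.algebraMap_apply K 𝔉 𝔏, σ.commutes]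

/-- the conjugate tuples of a finite family are finitely many. -/
theorem s17nbp_conj_finite [Normal 𝔉 𝔏] {A : Type x} [Fintype A] (Φ : A → 𝔏) :
    (Set.range (fun σ : 𝔏 ≃ₐ[𝔉] 𝔏 => fun a => σ (Φ a))).Finite := by
  have h : (Set.pi Set.univ (fun a => (minpoly 𝔉 (Φ a)).rootSet 𝔏)).Finite :=
    Set.Finite.pi fun a => Polynomial.rootSet_finite _ _
  refine h.subset ?_
  rintro τ ⟨σ, rfl⟩ a -
  have hint : IsIntegral 𝔉 (Φ a) := Normal.isIntegral inferInstance (Φ a)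
  rw [Polynomial.mem_rootSet]
  exact ⟨minpoly.ne_zero hint, minpoly.aeval_algHom 𝔉 (σ : 𝔏 →ₐ[𝔉] 𝔏) (Φ a)⟩

/-- **NORM-BPF, pointwise**: if the finite family `Φ` is base-point-free (w.r.t. the local
equation `ι y`, `y = b (W ∩ 𝔉)`) at all conjugates `σ⁻¹ W` of `W ⊇ K`, then the descended family is
base-point-free at `V = W ∩ 𝔉`. -/
theorem s17nbp_at [Infinite K] [Normal 𝔉 𝔏] {A : Type x} [Fintype A]
    (b : ValuationSubring 𝔉 → 𝔉) (m : ℕ) (Φ : A → 𝔏) (d : ℕ)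
    (hd : ∀ l : A → K, s27nmE 𝔉 (s17nbpLin Φ l) ≤ d)
    (W : ValuationSubring 𝔏) (hW : S27IsKValU K W)
    (h : ∀ σ : 𝔏 ≃ₐ[𝔉] 𝔏,
      (∀ a, Φ a * algebraMap 𝔉 𝔏 (b (W.comap (algebraMap 𝔉 𝔏))) ^ m ∈
        W.comap ((σ : 𝔏 →ₐ[𝔉] 𝔏) : 𝔏 →+* 𝔏)) ∧
      ∃ a, S27IsUnitIn (W.comap ((σ : 𝔏 →ₐ[𝔉] 𝔏) : 𝔏 →+* 𝔏))
        (Φ a * algebraMap 𝔉 𝔏 (b (W.comap (algebraMap 𝔉 𝔏))) ^ m)) :
    (∀ l : A → K, s17nbpF 𝔉 Φ d l * b (W.comap (algebraMap 𝔉 𝔏)) ^ (m * d.factorial) ∈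
        W.comap (algebraMap 𝔉 𝔏)) ∧
      ∃ l : A → K, S27IsUnitIn (W.comap (algebraMap 𝔉 𝔏))
        (s17nbpF 𝔉 Φ d l * b (W.comap (algebraMap 𝔉 𝔏)) ^ (m * d.factorial)) := by
  set y := b (W.comap (algebraMap 𝔉 𝔏)) with hy
  have hc : ∀ (σ : 𝔏 ≃ₐ[𝔉] 𝔏) (z : 𝔏),
      σ (z * algebraMap 𝔉 𝔏 y ^ m) = σ z * algebraMap 𝔉 𝔏 y ^ m := fun σ z => by
    rw [map_mul, map_pow, σ.commutes]
  have key1 : ∀ (σ : 𝔏 ≃ₐ[𝔉] 𝔏) (a : A), σ (Φ a) * algebraMap 𝔉 𝔏 y ^ m ∈ W := fun σ a => by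
    rw [← hc]
    exact s17nbp_conj_mem W σ ((h σ).1 a)
  have key2 : ∀ σ : 𝔏 ≃ₐ[𝔉] 𝔏, ∃ a, S27IsUnitIn W (σ (Φ a) * algebraMap 𝔉 𝔏 y ^ m) := fun σ => by
    obtain ⟨a, ha⟩ := (h σ).2
    refine ⟨a, ?_⟩
    rw [← hc]
    exact s17nbp_conj_unit W σ ha
  constructor
  · intro l
    rw [s17nbp_F_eq Φ d hd l y m]
    refine pow_mem (s17nbp_norm_mem W y m _ fun σ => ?_) _
    rw [s17nbp_lin_conj, Finset.sum_mul]
    refine sum_mem fun a _ => ?_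
    rw [mul_assoc]
    exact W.mul_mem _ _ (hW (l a)) (key1 σ a)
  · obtain ⟨l, hl⟩ := s17nbp_exists_generic W hW _ (s17nbp_conj_finite (𝔉 := 𝔉) Φ)
      (algebraMap 𝔉 𝔏 y ^ m)
      (by rintro τ ⟨σ, rfl⟩ a; exact key1 σ a)
      (by rintro τ ⟨σ, rfl⟩; exact key2 σ)
    refine ⟨l, ?_⟩
    rw [s17nbp_F_eq Φ d hd l y m]
    refine s17mu_unit_pow (s17nbp_norm_unit W y m _ fun σ => ?_) _
    rw [s17nbp_lin_conj]
    exact hl _ ⟨σ, rfl⟩

/-- **NORM-BPF for classes of valuation subrings** (`PL` upstairs, stable under conjugation;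
`PF` downstairs, every member the trace of a member of `PL` over `K`). -/
theorem s17nbp_pred [Infinite K] [Normal 𝔉 𝔏] {A : Type x} [Finite A]
    (PL : ValuationSubring 𝔏 → Prop) (PF : ValuationSubring 𝔉 → Prop)
    (hconj : ∀ (W : ValuationSubring 𝔏) (σ : 𝔏 ≃ₐ[𝔉] 𝔏), PL W →
      PL (W.comap ((σ : 𝔏 →ₐ[𝔉] 𝔏) : 𝔏 →+* 𝔏)))
    (hext : ∀ V : ValuationSubring 𝔉, PF V →
      ∃ W : ValuationSubring 𝔏, PL W ∧ S27IsKValU K W ∧ W.comap (algebraMap 𝔉 𝔏) = V)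
    {b : ValuationSubring 𝔉 → 𝔉} {m : ℕ} {Φ : A → 𝔏}
    (hΦ : ∀ W : ValuationSubring 𝔏, PL W → S27IsKValU K W →
      (∀ a, Φ a * algebraMap 𝔉 𝔏 (b (W.comap (algebraMap 𝔉 𝔏))) ^ m ∈ W) ∧
        ∃ a, S27IsUnitIn W (Φ a * algebraMap 𝔉 𝔏 (b (W.comap (algebraMap 𝔉 𝔏))) ^ m)) :
    ∃ N : ℕ, 0 < N ∧ ∃ f : (A → K) → 𝔉, ∀ V : ValuationSubring 𝔉, PF V →
      (∀ l, f l * b V ^ (m * N) ∈ V) ∧ ∃ l, S27IsUnitIn V (f l * b V ^ (m * N)) := by
  classical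
  letI : Fintype A := Fintype.ofFinite A
  obtain ⟨d, hd⟩ := s17nbp_deg_le (K := K) (𝔉 := 𝔉) Φ
  refine ⟨d.factorial, Nat.factorial_pos d, s17nbpF 𝔉 Φ d, fun V hV => ?_⟩
  obtain ⟨W, hPL, hW, rfl⟩ := hext V hV
  refine s17nbp_at b m Φ d hd W hW fun σ => ?_
  have h := hΦ _ (hconj W σ hPL) (s27nm_kval_conj hW σ)
  rw [s27nm_comap_conj W σ] at h
  exact h

/-- **NORM-BPF**: a finite family of `𝔏`, base-point-free of level `m` w.r.t. the lifted local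
equations, descends to a base-point-free family of `𝔉` of level `m · N`. -/
theorem s17nbp_main [Infinite K] [Normal 𝔉 𝔏] {A : Type x} [Finite A]
    {b : ValuationSubring 𝔉 → 𝔉} {m : ℕ} {Φ : A → 𝔏}
    (hΦ : S17muBpf K
      (fun W : ValuationSubring 𝔏 => algebraMap 𝔉 𝔏 (b (W.comap (algebraMap 𝔉 𝔏)))) m Φ) :
    ∃ N : ℕ, 0 < N ∧ ∃ f : (A → K) → 𝔉, S17muBpf K b (m * N) f := by
  obtain ⟨N, hN, f, hf⟩ := s17nbp_pred (K := K) (𝔉 := 𝔉) (𝔏 := 𝔏) (fun _ => True)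
    (fun V => S27IsKValU K V) (fun _ _ _ => trivial)
    (fun V hV => by
      obtain ⟨W, rfl⟩ := s27nm_exists_ext (𝔏 := 𝔏) V
      exact ⟨W, trivial, s27nm_kval_ext hV, rfl⟩)
    (b := b) (m := m) (Φ := Φ) (fun W _ hW => hΦ W hW)
  exact ⟨N, hN, f, fun V hV => hf V hV⟩

end Core

end Fermat.Agent.S17

end
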