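/-
S17 sprint, layer H — **MODEL-BPF** (helper11, PlM sub-integrator): the base-point-free input of
PlM / PlT is CLOSED on the closed stage, at the `𝔉`-level, and for the tuple of the model
(S17/ModelH.lean: `s17mdS N m` = a `ℚ̄`-basis of `L(m Θ)`, `b = B(+1)`).

Chain: BPF-NAT (`s17bpn_main`, helper95: finite pool + theorem of the square, `L`-level, level `2`)
  + PSI-NAT at `j = 1` (`s27mc_nat`) + (BETA) (`s17hv_beta`)
  ⇒ `S17muBpf ℚ̄ (s17pmtB (B 1)) 2 s`, `s : T → L` finite            (`s17mbf_bpfL`)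
  ⇒ NORM-BPF (`s17nbp_main`, helper89) : `S17muBpf ℚ̄ (B 1) m₀ f` at the `𝔉`-level (`s17mbf_bpfF`)
  ⇒ powers (`s17bp_pow`) + bases (`s17bp_basis`) + FIN (`s17md_fin`):
     `S17muBpf ℚ̄ (s17mdb N) (d m₀) (s17mdS N (d m₀))` for every `d > 0`   (`s17mbf_model`)
  ⇒ PlM `(3, 6)` (`s17pmf_plM_three`) and PlT `a = 4` (`s17ttp_plT`, helper18) for the height
     `s17mdHm N (d m₀)` of the model                                  (`s17mbf_plM`, `s17mbf_plT`).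
-/
import Fermat.Agent.S17.PlMFinal
import Fermat.Agent.S17.BpfNat
import Fermat.Agent.S17.NormBpf
import Fermat.Agent.S17.Bpf
import Fermat.Agent.S17.HVis
import Fermat.Agent.S17.TranslTop
import Fermat.Agent.S17.ModelFin

set_option autoImplicit false
set_option linter.unusedVariables false
set_option linter.unusedSectionVars false
set_option linter.style.haveILetI false
set_option linter.style.longLine false

noncomputable section

namespace Fermat.Agent.S17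

open ModularCurve AlgebraicCurve Module TensorProduct IntermediateField
open Fermat.Agent.S24 Fermat.Agent.S26 Fermat.Agent.S27 Fermat.Agent.DEU

section Stage

variable (N : ℕ) [NeZero N] [IsCurveOver Kb (FF N)] [Algebra.EssFiniteType Kb (FF N)]
variable {x : FF N} (hx : Transcendental Kb x)
  [FiniteDimensional ↥(IntermediateField.adjoin Kb {x}) (FF N)]
  [Algebra.IsSeparable ↥(IntermediateField.adjoin Kb {x}) (FF N)]
  (G₀ : Divisor Kb (FF N)) (hG₀ : Divisor.degree G₀ = (genusFF Kb (FF N) : ℤ))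

/-- (PSI-NAT) at `j = 1` on the closed stage, for the concrete `S27icIdx`. -/
theorem s17mbf_nat (hg : 0 < genusFF Kb (FF N)) (O : Place Kb (FF N))
    (hc : S27cstIsConst x G₀ O)
    (q : ℤ → Fin (genusFF Kb (FF N)) → FF N →ₐ[Kb] s27mtL Kb (FF N))
    (hq : S27pfFam (s27ftPkg hx G₀ hG₀) q) :
    S27ckNat Kb (s27pfPsi (s27ftPkg hx G₀ hG₀) (s27dcl_halg (x := x)) hq)
      (s27beta (g := genusFF Kb (FF N)) (G₀ + s27cstAo G₀ O))
      (S27icIdx (FL := s27mtFL Kb (FF N)) (s27stg_hld Kb (FF N) (s27mtL Kb (FF N)))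
        (s27stg_hgen Kb (FF N) (s27mtL Kb (FF N))) hx (s27cstAo G₀ O))
      (s27pfCl (s27dclPkg (FL := s27mtFL Kb (FF N)) (s27stg_hld Kb (FF N) (s27mtL Kb (FF N)))
          (s27stg_hgen Kb (FF N) (s27mtL Kb (FF N))) hx G₀ hG₀)
        (s27pfTaut (K := Kb) (F := FF N) (g := genusFF Kb (FF N)) (L := s27mtL Kb (FF N)))) 1 :=
  s27mc_nat (s27ftPkg hx G₀ hG₀) (s27dcl_halg (x := x)) hq (G₀ + s27cstAo G₀ O)
    (s27beta (g := genusFF Kb (FF N)) (G₀ + s27cstAo G₀ O)) (s17hv_beta hc hg) _ _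
    (fun k hk W hW y hy => s27ic_hIdx (FL := s27mtFL Kb (FF N))
      (s27stg_hld Kb (FF N) (s27mtL Kb (FF N))) (s27stg_hgen Kb (FF N) (s27mtL Kb (FF N)))
      hx G₀ hG₀ hq (s27cstAo G₀ O) k hk W hW y hy) 1 one_ne_zero

/-- **BPF at the `L`-level, closed**: a finite family `s : T → L`, base-point-free of level `2`
w.r.t. the lifted local equations `b_L = s17pmtB (B 1)`, along every `W ⊇ ℚ̄`. -/
theorem s17mbf_bpfL (hg : 0 < genusFF Kb (FF N)) (O : Place Kb (FF N))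
    (hc : S27cstIsConst x G₀ O)
    (q : ℤ → Fin (genusFF Kb (FF N)) → FF N →ₐ[Kb] s27mtL Kb (FF N))
    (hq : S27pfFam (s27ftPkg hx G₀ hG₀) q) :
    ∃ (T : Finset (Divisor.degZero (K := Kb) (F := FF N))) (s : T → s27mtL Kb (FF N)),
      T.Nonempty ∧ (∀ D, s D ≠ 0) ∧
      S17muBpf Kb (s17pmtB (L := s27mtL Kb (FF N))
        (s27indB (s27pfPsi (s27ftPkg hx G₀ hG₀) (s27dcl_halg (x := x)) hq)
          (s27beta (g := genusFF Kb (FF N)) (G₀ + s27cstAo G₀ O)) 1)) 2 s := by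
  obtain ⟨T, s, hT, hs0, hs, -⟩ := s17bpn_main (FL := s27mtFL Kb (FF N))
    (s27stg_hld Kb (FF N) (s27mtL Kb (FF N))) (s27stg_hgen Kb (FF N) (s27mtL Kb (FF N)))
    hx G₀ hG₀ hg hc.nonneg (s27cstAo G₀ O) hc.bot hc.deg_Ao O
    (s27pfPsi (s27ftPkg hx G₀ hG₀) (s27dcl_halg (x := x)) hq)
    (s27beta (g := genusFF Kb (FF N)) (G₀ + s27cstAo G₀ O))
    (s17mbf_nat N hx G₀ hG₀ hg O hc q hq)
  exact ⟨T, s, hT, hs0, hs⟩

/-- **PlM, CLOSED at the `L`-level**: the pool family gives `S17hyPlM … 3 6` with no hypothesis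
left. -/
theorem s17mbf_plM_L (hg : 0 < genusFF Kb (FF N)) (O : Place Kb (FF N))
    (hc : S27cstIsConst x G₀ O)
    (q : ℤ → Fin (genusFF Kb (FF N)) → FF N →ₐ[Kb] s27mtL Kb (FF N))
    (hq : S27pfFam (s27ftPkg hx G₀ hG₀) q) :
    ∃ (T : Finset (Divisor.degZero (K := Kb) (F := FF N))) (s : T → s27mtL Kb (FF N)),
      T.Nonempty ∧ (∀ D, s D ≠ 0) ∧
      S17muBpf Kb (s17pmtB (L := s27mtL Kb (FF N))
        (s27indB (s27pfPsi (s27ftPkg hx G₀ hG₀) (s27dcl_halg (x := x)) hq)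
          (s27beta (g := genusFF Kb (FF N)) (G₀ + s27cstAo G₀ O)) 1)) 2 s ∧
      S17hyPlM (s17sxCl N (L := s27mtL Kb (FF N)) (FL := s27mtFL Kb (FF N))
        (s27stg_hld Kb (FF N) (s27mtL Kb (FF N))) (s27stg_hgen Kb (FF N) (s27mtL Kb (FF N)))
        hx G₀ hG₀) (s17sxHt s) 3 6 := by
  obtain ⟨T, s, hT, hs0, hs⟩ := s17mbf_bpfL N hx G₀ hG₀ hg O hc q hq
  obtain ⟨D, hD⟩ := hT
  refine ⟨T, s, ⟨D, hD⟩, hs0, hs, ?_⟩
  exact s17pmf_plM_three N hx G₀ hG₀ hg O hc q hq 2 s (s17pmk_bpf_of hs)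
    (fun h0 => hs0 ⟨D, hD⟩ (congrFun h0 ⟨D, hD⟩))

/-- **BPF at the `𝔉`-level, closed** (NORM-BPF): some level `m₀ > 0` and a family of `𝔉`,
base-point-free of level `m₀` w.r.t. `b = B 1`. -/
theorem s17mbf_bpfF (hg : 0 < genusFF Kb (FF N)) (O : Place Kb (FF N))
    (hc : S27cstIsConst x G₀ O)
    (q : ℤ → Fin (genusFF Kb (FF N)) → FF N →ₐ[Kb] s27mtL Kb (FF N))
    (hq : S27pfFam (s27ftPkg hx G₀ hG₀) q) :
    ∃ m₀ : ℕ, 0 < m₀ ∧ ∃ (A : Type) (f : A → s27gfSym Kb (FF N) (genusFF Kb (FF N))),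
      S17muBpf Kb (s27indB (s27pfPsi (s27ftPkg hx G₀ hG₀) (s27dcl_halg (x := x)) hq)
        (s27beta (g := genusFF Kb (FF N)) (G₀ + s27cstAo G₀ O)) 1) m₀ f := by
  obtain ⟨T, s, hT, hs0, hs⟩ := s17mbf_bpfL N hx G₀ hG₀ hg O hc q hq
  obtain ⟨N₁, hN₁, f, hf⟩ := s17nbp_main (K := Kb)
    (𝔉 := s27gfSym Kb (FF N) (genusFF Kb (FF N))) (𝔏 := s27mtL Kb (FF N))
    (b := s27indB (s27pfPsi (s27ftPkg hx G₀ hG₀) (s27dcl_halg (x := x)) hq)
      (s27beta (g := genusFF Kb (FF N)) (G₀ + s27cstAo G₀ O)) 1) (m := 2) (Φ := s) hs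
  exact ⟨2 * N₁, Nat.mul_pos (by norm_num) hN₁, _, f, hf⟩

end Stage

section Model

variable (N : ℕ) [NeZero N]

/-- **MODEL-BPF**: for some `m₀ > 0` and every `d > 0` the basis `s17mdS N (d m₀)` of
`L(d m₀ Θ)` is base-point-free. -/
theorem s17mbf_model (hg : 0 < genusFF Kb (FF N)) :
    ∃ m₀ : ℕ, 0 < m₀ ∧ ∀ d : ℕ, 0 < d →
      S17muBpf Kb (s17mdb N) (d * m₀) (s17mdS N (d * m₀)) := by
  haveI := s17to_isCurveOver N
  haveI := s17to_essFiniteType N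
  haveI := (s17md_const N).fin
  haveI := (s17md_const N).sep
  obtain ⟨m₀, hm₀, A, f, hf⟩ := s17mbf_bpfF N (s17md_const N).trans (s17mdG0 N)
    (s17md_const N).deg hg (s17mdO N) (s17md_const N) (s17mdQ N) (s17md_hq N)
  refine ⟨m₀, hm₀, fun d hd => ?_⟩
  have hf' : S17muBpf Kb (s17mdb N) m₀ f := hf
  have h1 := s17bp_pow hf' d
  haveI := s17md_fin N hg (d * m₀)
  have h2 := s17bp_basis h1 (Module.finBasis Kb (s17mdLU N (d * m₀)))
  have h3 : s17mdS N (d * m₀) = fun i =>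
      ((Module.finBasis Kb (s17mdLU N (d * m₀)) i : s17mdLU N (d * m₀)) : s17mdSym N) :=
    funext fun i => s17mdS_eq N (d * m₀) i
  rw [h3]
  exact h2

/-- the lifted model tuple is base-point-free at the `ℚ̄`-places of `L`. -/
theorem s17mbf_model_L (hg : 0 < genusFF Kb (FF N)) :
    ∃ m₀ : ℕ, 0 < m₀ ∧ ∀ d : ℕ, 0 < d →
      S17muBpf Kb (s17pmtB (L := s17mdL N) (s17mdb N)) (d * m₀) (s17mdSL N (d * m₀)) := by
  obtain ⟨m₀, hm₀, h⟩ := s17mbf_model N hg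
  exact ⟨m₀, hm₀, fun d hd => s17pmt_bpf (L := s17mdL N) (h d hd)⟩

/-- **PlM `(3, 6)` and PlT `a = 4` for the height of the model**, level `d m₀`, every `d > 0`. -/
theorem s17mbf_plMT (hg : 0 < genusFF Kb (FF N)) :
    ∃ m₀ : ℕ, 0 < m₀ ∧ ∀ d : ℕ, 0 < d →
      S17hyPlM (s17mdCl N) (s17mdHm N (d * m₀)) 3 6 ∧
      S17hyPlT (s17mdCl N) (s17mdHm N (d * m₀)) 4 := by
  haveI := s17to_isCurveOver N
  haveI := s17to_essFiniteType N
  haveI := (s17md_const N).fin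
  haveI := (s17md_const N).sep
  obtain ⟨m₀, hm₀, h⟩ := s17mbf_model N hg
  refine ⟨m₀, hm₀, fun d hd => ⟨?_, ?_⟩⟩
  · exact s17pmf_plM_three N (s17md_const N).trans (s17mdG0 N) (s17md_const N).deg hg
      (s17mdO N) (s17md_const N) (s17mdQ N) (s17md_hq N) (d * m₀) (s17mdSL N (d * m₀))
      (s17pmk_bpf_of (s17pmt_bpf (L := s17mdL N) (h d hd))) (s17mdSL_ne_zero N hg (d * m₀))
  · exact s17ttp_plT N (s17md_const N).trans (s17mdG0 N) (s17md_const N).deg hg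
      (s17mdO N) (s17md_const N) (s17mdQ N) (s17md_hq N) (d * m₀) (s17mdS N (d * m₀)) (h d hd)

theorem s17mbf_plM (hg : 0 < genusFF Kb (FF N)) :
    ∃ m₀ : ℕ, 0 < m₀ ∧ ∀ d : ℕ, 0 < d → S17hyPlM (s17mdCl N) (s17mdHm N (d * m₀)) 3 6 := by
  obtain ⟨m₀, hm₀, h⟩ := s17mbf_plMT N hg
  exact ⟨m₀, hm₀, fun d hd => (h d hd).1⟩

theorem s17mbf_plT (hg : 0 < genusFF Kb (FF N)) :
    ∃ m₀ : ℕ, 0 < m₀ ∧ ∀ d : ℕ, 0 < d → S17hyPlT (s17mdCl N) (s17mdHm N (d * m₀)) 4 := by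
  obtain ⟨m₀, hm₀, h⟩ := s17mbf_plMT N hg
  exact ⟨m₀, hm₀, fun d hd => (h d hd).2⟩

end Model

end Fermat.Agent.S17

end
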