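/-
S17 sprint, layer H — **THE MODEL, CLOSED** (helper24): the three place statements for the height
of the model at `(n, a, b) = (7, 4, 28)`, with NO hypothesis beyond `0 < genus` and `2 ≤ N`, and
the captain's statement `S17sxStmt 7 4 28` (S17/StageTop.lean).

Constants of the model (S17/Model.lean, S17/ModelH.lean): `x = jF N`, `G₀ = s17mdG0 N`,
`O = cuspInf N`, `q = s17mdQ N`, `b = B (+1)` (ruling (A)), `cl = s17mdCl N`,
`H = s17mdHm N m` = the absolute height of the place-value of a basis of `L(m Θ)`.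

* `s17mdz_open`     : (open) `S17luOpen N` (from `S15.selfl_exists_field'`);
* `s17mdz_int`      : the lifted local equation `y = s17pmtB (s17mdb N)` is integral at the places;
* `s17mdz_plM7`     : PlM `(7, 28)` for `H`, `m = d m₀`   (MODEL-BPF of helper11 + PlM-FINAL);
* `s17mdz_plN`      : PlN for `H` from (T) at any `a ≥ 0`  (PlN TOP of helper74 + (L1) CHOW SECTIONS
                      `s17chs_sec_place` + (L2) U1 `s17hvu_hunit_stage` + T-EXISTS `s17rf_exists_ord`);
* **`s17mdz_ok`**   : `∃ m, S17mdOkP N 7 4 28 m`;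
* **`s17mdz_stmt`** : `S17sxStmt 7 4 28`  (feed `s17sz_result_7428`, S17/StageTopClosed.lean).
-/
import Fermat.Agent.S17.ModelTop
import Fermat.Agent.S17.ModelBpf
import Fermat.Agent.S17.PlNTop
import Fermat.Agent.S17.ChowSec
import Fermat.Agent.S17.HVisU
import Fermat.Agent.S17.RatFn
import Fermat.Agent.S15.SelFL

set_option autoImplicit false
set_option linter.style.haveILetI false
set_option linter.unusedVariables false
set_option linter.unusedSectionVars false
set_option linter.style.longLine false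

noncomputable section

namespace Fermat.Agent.S17

open ModularCurve AlgebraicCurve IntermediateField Module
open Fermat.Agent.S24 Fermat.Agent.S26 Fermat.Agent.S27 Fermat.Agent.S15

section Stage

variable (N : ℕ) [NeZero N]

/-- (open): every class is fixed by an open subgroup of `G_ℚ`. -/
theorem s17mdz_open : S17luOpen N := by
  intro y
  obtain ⟨E, hE, hfix⟩ := Fermat.Agent.S15.selfl_exists_field' N y
  refine ⟨E, hE, fun σ hσ => hfix σ (fun a ha => ?_)⟩
  exact (IntermediateField.mem_fixingSubgroup_iff E σ).1 hσ a ha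

/-- the lifted local equation is integral at the places. -/
theorem s17mdz_int (hg : 0 < genusFF Kb (FF N)) (P : s17mdP N) :
    s17pmtB (L := s17mdL N) (s17mdb N) P.W ∈ P.W := by
  have h := s17md_b_mem N hg (P.W.comap (algebraMap (s17mdSym N) (s17mdL N)))
    (s17pmt_isKVal P.hKW)
  exact h

/-- **PlM `(7, 28)` for the height of the model**, level `d m₀`. -/
theorem s17mdz_plM7 (hg : 0 < genusFF Kb (FF N)) (m : ℕ)
    (hb : S17muBpf Kb (s17pmtB (L := s17mdL N) (s17mdb N)) m (s17mdSL N m)) :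
    S17hyPlM (s17mdCl N) (s17mdHm N m) 7 28 := by
  haveI := s17to_isCurveOver N
  haveI := s17to_essFiniteType N
  haveI := (s17md_const N).fin
  haveI := (s17md_const N).sep
  have h := s17pmf_plM N (s17md_const N).trans (s17mdG0 N) (s17md_const N).deg hg
    (s17mdO N) (s17md_const N) (s17mdQ N) (s17md_hq N) 7 (by norm_num) m (s17mdSL N m)
    (s17pmk_bpf_of hb) (s17mdSL_ne_zero N hg m)
  have e : ((s27indTri 7 : ℕ) : ℝ) = 28 := by
    rw [show s27indTri 7 = 28 from rfl]
    norm_num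
  rw [e] at h
  exact h

/-- **PlN for the height of the model** from (T) at any constant `a ≥ 0`. -/
theorem s17mdz_plN (hN2 : 2 ≤ N) (hg : 0 < genusFF Kb (FF N)) (m : ℕ) (hm : 0 < m)
    (hb : S17muBpf Kb (s17pmtB (L := s17mdL N) (s17mdb N)) m (s17mdSL N m))
    (a : ℝ) (ha : 0 ≤ a) (hT : S17hyPlT (s17mdCl N) (s17mdHm N m) a) :
    S17hxPlN (s17mdCl N) (s17mdHm N m) := by
  haveI := s17to_isCurveOver N
  haveI := s17to_essFiniteType N
  haveI := (s17md_const N).fin
  haveI := (s17md_const N).sep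
  obtain ⟨t, htΓ, ht, htneg, httr⟩ := s17rf_exists_ord N hN2
  have hnc : ∀ c : Kb, t ≠ algebraMap Kb (FF N) c := by
    intro c hc
    rw [hc] at httr
    exact httr (isAlgebraic_algebraMap c)
  have htO : -(((-(Fermat.Agent.S15.cuspInf N).ord t).toNat : ℕ) : ℤ) ≤
      (s17mdO N).ord t := by
    have h0 : (0 : ℤ) ≤ -(Fermat.Agent.S15.cuspInf N).ord t := by omega
    rw [Int.toNat_of_nonneg h0, neg_neg]
    exact le_refl _
  exact s17pnt_plN N (FL := s17mdFL N) (s27stg_hld Kb (FF N) (s17mdL N))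
    (s27stg_hgen Kb (FF N) (s17mdL N)) (s17md_const N).trans (s17mdG0 N) (s17md_const N).deg
    (s17mdQ N (-1)) ((s17md_hq N (-1) (by norm_num)).2)
    (s17pmtB (L := s17mdL N) (s17mdb N)) (fun P => s17mdz_int N hg P) m hm (s17mdSL N m)
    (s17pmk_bpf_of hb) t hnc htΓ ht ((-(Fermat.Agent.S15.cuspInf N).ord t).toNat)
    (fun P n => s17chs_sec_place (s17md_const N).trans (s17mdG0 N) (s17md_const N).deg
      (s17mdO N) (s17md_const N) hg (s17mdQ N) (s17md_hq N) t _ htO
      (fun Q hQ => ht Q hQ) P n)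
    (fun P hgood => s17hvu_hunit_stage N (s17md_const N) hg (s17mdQ N) (s17md_hq N) P hgood)
    (s17mdz_open N) a ha hT

/-- **the three place statements for the height of the model**, `(n, a, b) = (7, 4, 28)`. -/
theorem s17mdz_ok (hN2 : 2 ≤ N) (hg : 0 < genusFF Kb (FF N)) : ∃ m, S17mdOkP N 7 4 28 m := by
  obtain ⟨m₀, hm₀, hb⟩ := s17mbf_model_L N hg
  obtain ⟨m₁, hm₁, hMT⟩ := s17mbf_plMT N hg
  -- the common level `m₀ m₁ = m₁ • m₀ = m₀ • m₁`
  have hb' := hb m₁ hm₁
  have hMT' := hMT m₀ hm₀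
  have e : m₀ * m₁ = m₁ * m₀ := Nat.mul_comm _ _
  rw [e] at hMT'
  exact ⟨m₁ * m₀, s17mdz_plM7 N hg _ hb', hMT'.2,
    s17mdz_plN N hN2 hg _ (Nat.mul_pos hm₁ hm₀) hb' 4 (by norm_num) hMT'.2⟩

/-- the captain's statement at one level. -/
theorem s17mdz_stmtAt (hN2 : 2 ≤ N) (hg : 0 < genusFF Kb (FF N)) : S17sxStmtAt N 7 4 28 :=
  s17mdt_stmtAt N 7 4 28 (s17mdz_ok N hN2 hg)

end Stage

/-- **THE ONE OPEN STATEMENT OF LAYER H, CLOSED**: `S17sxStmt 7 4 28`. -/
theorem s17mdz_stmt : S17sxStmt 7 4 28 :=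
  fun N _ hN hN5 hg => s17mdz_stmtAt N (le_trans (by norm_num) hN5) hg

end Fermat.Agent.S17

end
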