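/-
S17 sprint, layer H — **THE MODEL, CLOSED, EVERY MULTIPLIER** (helper24): the captain's statement
`S17sxStmt n 4 (s27indTri n)` for EVERY multiplier `n > 0` (S17/StageTop.lean), with NO
hypothesis, on the model (S17/ModelClosed.lean); in particular

* **`s17mdy_stmt_243`** : `S17sxStmt 2 4 3`   (the input of the PT/TW-free tops, S17/WeakTwo*.lean);
* `s17mdy_stmt_346`     : `S17sxStmt 3 4 6`   (the input of S17/StageTopNine.lean);
* `s17mdy_stmt_7428`    : `S17sxStmt 7 4 28`  (`= s17mdz_stmt`).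

The H-closure of this file is the closure of S17/ModelClosed.lean (no PT, no TW, no INJ).
-/
import Fermat.Agent.S17.ModelClosed

set_option autoImplicit false
set_option linter.style.haveILetI false
set_option linter.unusedVariables false
set_option linter.unusedSectionVars false
set_option linter.style.longLine false

noncomputable section

namespace Fermat.Agent.S17

open ModularCurve AlgebraicCurve IntermediateField Module
open Fermat.Agent.S24 Fermat.Agent.S26 Fermat.Agent.S27 Fermat.Agent.S15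

section Stage

variable (N : ℕ) [NeZero N]

/-- **PlM `(n, n (n + 1) / 2)` for the height of the model**, every multiplier `n > 0`. -/
theorem s17mdy_plM (hg : 0 < genusFF Kb (FF N)) (n : ℕ) (hn : 0 < n) (m : ℕ)
    (hb : S17muBpf Kb (s17pmtB (L := s17mdL N) (s17mdb N)) m (s17mdSL N m)) :
    S17hyPlM (s17mdCl N) (s17mdHm N m) n ((s27indTri n : ℕ) : ℝ) := by
  haveI := s17to_isCurveOver N
  haveI := s17to_essFiniteType N
  haveI := (s17md_const N).fin
  haveI := (s17md_const N).sep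
  exact s17pmf_plM N (s17md_const N).trans (s17mdG0 N) (s17md_const N).deg hg
    (s17mdO N) (s17md_const N) (s17mdQ N) (s17md_hq N) n hn m (s17mdSL N m)
    (s17pmk_bpf_of hb) (s17mdSL_ne_zero N hg m)

/-- **the three place statements for the height of the model**, every multiplier `n > 0`. -/
theorem s17mdy_ok (hN2 : 2 ≤ N) (hg : 0 < genusFF Kb (FF N)) (n : ℕ) (hn : 0 < n) :
    ∃ m, S17mdOkP N n 4 ((s27indTri n : ℕ) : ℝ) m := by
  obtain ⟨m₀, hm₀, hb⟩ := s17mbf_model_L N hg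
  obtain ⟨m₁, hm₁, hMT⟩ := s17mbf_plMT N hg
  have hb' := hb m₁ hm₁
  have hMT' := hMT m₀ hm₀
  have e : m₀ * m₁ = m₁ * m₀ := Nat.mul_comm _ _
  rw [e] at hMT'
  exact ⟨m₁ * m₀, s17mdy_plM N hg n hn _ hb', hMT'.2,
    s17mdz_plN N hN2 hg _ (Nat.mul_pos hm₁ hm₀) hb' 4 (by norm_num) hMT'.2⟩

theorem s17mdy_stmtAt (hN2 : 2 ≤ N) (hg : 0 < genusFF Kb (FF N)) (n : ℕ) (hn : 0 < n) :
    S17sxStmtAt N n 4 ((s27indTri n : ℕ) : ℝ) :=
  s17mdt_stmtAt N n 4 _ (s17mdy_ok N hN2 hg n hn)

end Stage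

/-- **LAYER H, CLOSED, every multiplier `n > 0`**. -/
theorem s17mdy_stmt (n : ℕ) (hn : 0 < n) : S17sxStmt n 4 ((s27indTri n : ℕ) : ℝ) :=
  fun N _ hN hN5 hg => s17mdy_stmtAt N (le_trans (by norm_num) hN5) hg n hn

/-- `(n, a, b) = (2, 4, 3)`: the input of the PT/TW-free tops. -/
theorem s17mdy_stmt_243 : S17sxStmt 2 4 3 := by
  have h := s17mdy_stmt 2 (by norm_num)
  have e : ((s27indTri 2 : ℕ) : ℝ) = 3 := by
    rw [show s27indTri 2 = 3 from rfl]
    norm_num
  rw [e] at h
  exact h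

/-- `(n, a, b) = (3, 4, 6)`. -/
theorem s17mdy_stmt_346 : S17sxStmt 3 4 6 := by
  have h := s17mdy_stmt 3 (by norm_num)
  have e : ((s27indTri 3 : ℕ) : ℝ) = 6 := by
    rw [show s27indTri 3 = 6 from rfl]
    norm_num
  rw [e] at h
  exact h

/-- `(n, a, b) = (7, 4, 28)`. -/
theorem s17mdy_stmt_7428 : S17sxStmt 7 4 28 := s17mdz_stmt

end Fermat.Agent.S17

end
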