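/-
S17 sprint, layer H — leaf **HMOVE-ALL** (helper26): the MOVING lemma `hmove` at EVERY valuation
subring `V ⊇ K` of `L` — the literal form needed by `s17bp_of_square` (S17/Bpf.lean).

Stage as in S17/MoveUp.lean (helper8).  Inputs: helper8's `s17mup_hmove` (`K`-places) and
IDX-GEN (S17/IdxGen.lean): a local equation at a `K`-place `V₀ ≤ V` is a local equation at `V`,
and every `V ⊇ K` contains a `K`-place.

* `s17mal_transfer` : `V₀ ≤ V`, `R` an injective tuple of class `c` (origin `B`): if every local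
                      equation of `Θ_{Ao}` at `c` along `V₀` is a unit of `V₀`, every local equation
                      at `c` along `V` is a unit of `V`;
* **`s17mal_hmove`** : for EVERY valuation subring `V ⊇ K` of `L` and every finite set `T` of
                      places there is a constant divisor `D` of degree `0` (off `T`) with
                      `L_K(Ao − D) = L_K(Ao + D) = 0` such that every local equation of `Θ_{Ao}` at
                      `η + β[D]` and at `η − β[D]` along `V` is a unit of `V`.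
-/
import Fermat.Agent.S17.MoveUp
import Fermat.Agent.S17.IdxGen

set_option autoImplicit false
set_option linter.style.haveILetI false
set_option linter.unusedSectionVars false
set_option linter.unusedVariables false

noncomputable section

namespace Fermat.Agent.S17

open AlgebraicCurve Module TensorProduct IntermediateField Fermat.Agent.S26 Fermat.Agent.S27

universe u v y

section Stage

variable {K : Type u} {F : Type v} [Field K] [IsAlgClosed K] [CharZero K] [Field F] [Algebra K F]
  [IsCurveOver K F] [Algebra.EssFiniteType K F]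
  {L : Type (max u v)} [Field L] [Algebra K L]
  [Algebra (s27gfOm K F (genusFF K F)) L] [IsScalarTower K (s27gfOm K F (genusFF K F)) L]
  [IsAlgClosed L] [Algebra.IsAlgebraic (s27gfOm K F (genusFF K F)) L]
  {FL : Type y} [Field FL] [Algebra K FL] [Algebra F FL] [Algebra L FL]
  [IsScalarTower K F FL] [IsScalarTower K L FL]
  (hld : Function.Injective (s26gspMu K F L FL)) (hgen : S26gspGen K F L FL)
  {x : F} (hx : Transcendental K x)
  [FiniteDimensional ↥(IntermediateField.adjoin K {x}) F]
  [Algebra.IsSeparable ↥(IntermediateField.adjoin K {x}) F]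
  [IsGalois (s27gfSym K F (genusFF K F)) L]

/-- **units generalise**, class form. -/
theorem s17mal_transfer (Ao : Divisor K F) (hAo : riemannRochSpace Ao = ⊥)
    (hAod : Divisor.degree Ao = (genusFF K F : ℤ) - 1)
    {V₀ V : ValuationSubring L} (hle : V₀ ≤ V) (hK : S27IsKValU K V₀)
    {N : ℕ} (R : Fin N → F →ₐ[K] L) (hR : Function.Injective R)
    (B : Divisor K F) (hB : Divisor.degree B = (N : ℤ))
    (f : Module.Basis (Fin N) K ↥(riemannRochSpace (B + Ao)))
    (c : Pic0 L FL) (hc : s27icCl hld hgen hx R B hB = c)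
    (h₀ : ∀ z : L, S27icIdx hld hgen hx Ao V₀ c z → S27IsUnitIn V₀ z)
    (z : L) (hz : S27icIdx hld hgen hx Ao V c z) : S27IsUnitIn V z := by
  have hV : S27IsKValU K V := fun a => hle (hK a)
  have hLE := s27le5_ckLE (FL := FL) hld hgen hx Ao hAod hAo
  obtain ⟨φ, hφ⟩ := s27eil_exists V₀ hK R hR (B + Ao)
  have hy₀ : S27ptIsIdx V₀ R (B + Ao) ((s27ptValB R f).det / (s27ptVal R φ).det) :=
    ⟨f, φ, hφ, rfl⟩
  have hu₀ : S27IsUnitIn V₀ ((s27ptValB R f).det / (s27ptVal R φ).det) :=
    h₀ _ (s27ica_idx hld hgen hx Ao V₀ hR hB hc hy₀)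
  have hyV : S27ptIsIdx V R (B + Ao) ((s27ptValB R f).det / (s27ptVal R φ).det) :=
    s17ig_idx hle hK R (B + Ao) hy₀
  have hidxV : S27icIdx hld hgen hx Ao V c ((s27ptValB R f).det / (s27ptVal R φ).det) :=
    s27ica_idx hld hgen hx Ao V hR hB hc hyV
  obtain ⟨u, hu, hzu⟩ := (hLE V hV).2 c z _ hz hidxV
  rw [hzu]
  exact s17su_unit_mul hu ⟨hu₀.1, hle hu₀.2.1, hle hu₀.2.2⟩

variable (G₀ : Divisor K F) (hG₀ : Divisor.degree G₀ = (genusFF K F : ℤ))

/-- **HMOVE-ALL**: the moving lemma at EVERY valuation subring `V ⊇ K`, in class form. -/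
theorem s17mal_hmove (hG0 : 0 ≤ G₀) (Ao : Divisor K F) (hAo : riemannRochSpace Ao = ⊥)
    (hAod : Divisor.degree Ao = (genusFF K F : ℤ) - 1)
    (V : ValuationSubring L) (hV : S27IsKValU K V) (T : Finset (Place K F)) :
    ∃ D : Divisor.degZero (K := K) (F := F), (∀ v ∈ T, (D : Divisor K F) v = 0) ∧
      riemannRochSpace (Ao - (D : Divisor K F)) = ⊥ ∧
      riemannRochSpace (Ao + (D : Divisor K F)) = ⊥ ∧
      (∀ z : L, S27icIdx hld hgen hx Ao V
        (s27pfCl (s27dclPkg hld hgen hx G₀ hG₀)
          (s27pfTaut (K := K) (F := F) (g := genusFF K F) (L := L)) +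
          s27bcBeta hld hgen (s26gspf_hall hx) (Pic0.mk D)) z → S27IsUnitIn V z) ∧
      (∀ z : L, S27icIdx hld hgen hx Ao V
        (s27pfCl (s27dclPkg hld hgen hx G₀ hG₀)
          (s27pfTaut (K := K) (F := F) (g := genusFF K F) (L := L)) -
          s27bcBeta hld hgen (s26gspf_hall hx) (Pic0.mk D)) z → S27IsUnitIn V z) := by
  classical
  obtain ⟨V₀, hle, hK, hres⟩ := s17ig_exists_place (K := K) V hV
  obtain ⟨D, hT, h1, h2, hp, hm⟩ := s17mup_hmove hld hgen hx G₀ hG₀ hG0 Ao hAo hAod V₀ hK hres T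
  set R : Fin (genusFF K F) → F →ₐ[K] L :=
    s27pfTaut (K := K) (F := F) (g := genusFF K F) (L := L) with hRdef
  have hR : Function.Injective R :=
    s27ic_generic_injective (x := x) (s27mp_taut_generic (K := K) (F := F) (L := L) hx)
  have hcl0 : s27icCl hld hgen hx R G₀ hG₀ =
      s27pfCl (s27dclPkg hld hgen hx G₀ hG₀) R := rfl
  refine ⟨D, hT, h1, h2, ?_, ?_⟩
  · intro z hz
    have hB := s17su_deg_add (-D) hG₀
    have hcl : s27icCl hld hgen hx R
        (G₀ + ((-D : Divisor.degZero (K := K) (F := F)) : Divisor K F)) hB =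
        s27pfCl (s27dclPkg hld hgen hx G₀ hG₀) R +
          s27bcBeta hld hgen (s26gspf_hall hx) (Pic0.mk D) := by
      rw [s17su_cl_shift hld hgen hx R G₀ (-D) hG₀ hB, s17su_beta_neg hld hgen hx D, sub_neg_eq_add,
        hcl0]
    have h10 : finrank K ↥(riemannRochSpace (Ao - (D : Divisor K F))) = 0 := by
      rw [h1]
      exact finrank_bot K F
    obtain ⟨f'⟩ := s27rd_exists_basis x hx (Ao - (D : Divisor K F))
      (s17su_deg_sub Ao D hAod) h10 G₀ hG0 hG₀
    have e : G₀ + (Ao - (D : Divisor K F)) =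
        G₀ + ((-D : Divisor.degZero (K := K) (F := F)) : Divisor K F) + Ao := by
      rw [NegMemClass.coe_neg]
      abel
    rw [e] at f'
    exact s17mal_transfer hld hgen hx Ao hAo hAod hle hK R hR _ hB f' _ hcl hp z hz
  · intro z hz
    have hB := s17su_deg_add D hG₀
    have hcl : s27icCl hld hgen hx R (G₀ + (D : Divisor K F)) hB =
        s27pfCl (s27dclPkg hld hgen hx G₀ hG₀) R -
          s27bcBeta hld hgen (s26gspf_hall hx) (Pic0.mk D) := by
      rw [s17su_cl_shift hld hgen hx R G₀ D hG₀ hB, hcl0]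
    have h20 : finrank K ↥(riemannRochSpace (Ao + (D : Divisor K F))) = 0 := by
      rw [h2]
      exact finrank_bot K F
    obtain ⟨f'⟩ := s27rd_exists_basis x hx (Ao + (D : Divisor K F))
      (s17su_deg_add' Ao D hAod) h20 G₀ hG0 hG₀
    have e : G₀ + (Ao + (D : Divisor K F)) = G₀ + (D : Divisor K F) + Ao := by abel
    rw [e] at f'
    exact s17mal_transfer hld hgen hx Ao hAo hAod hle hK R hR _ hB f' _ hcl hm z hz

/-- **`hmove` in the shape of `s17bp_of_square`** (S17/Bpf.lean): for ANY family of constant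
divisors `Dv a` containing all `D` with `L_K(Ao ∓ D) = 0` and ANY choice `yp a V`, `ym a V` of local
equations of `Θ_{Ao}` at `η ± β[Dv a]`, every `V ⊇ K` has an index `a` at which both are units. -/
theorem s17mal_hmove_family (hG0 : 0 ≤ G₀) (Ao : Divisor K F) (hAo : riemannRochSpace Ao = ⊥)
    (hAod : Divisor.degree Ao = (genusFF K F : ℤ) - 1)
    {A : Type*} (Dv : A → Divisor.degZero (K := K) (F := F))
    (hsurj : ∀ D : Divisor.degZero (K := K) (F := F),
      riemannRochSpace (Ao - (D : Divisor K F)) = ⊥ →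
      riemannRochSpace (Ao + (D : Divisor K F)) = ⊥ → ∃ a, Dv a = D)
    (yp ym : A → ValuationSubring L → L)
    (hyp : ∀ a V, S27IsKValU K V → S27icIdx hld hgen hx Ao V
      (s27pfCl (s27dclPkg hld hgen hx G₀ hG₀)
        (s27pfTaut (K := K) (F := F) (g := genusFF K F) (L := L)) +
        s27bcBeta hld hgen (s26gspf_hall hx) (Pic0.mk (Dv a))) (yp a V))
    (hym : ∀ a V, S27IsKValU K V → S27icIdx hld hgen hx Ao V
      (s27pfCl (s27dclPkg hld hgen hx G₀ hG₀)
        (s27pfTaut (K := K) (F := F) (g := genusFF K F) (L := L)) -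
        s27bcBeta hld hgen (s26gspf_hall hx) (Pic0.mk (Dv a))) (ym a V)) :
    ∀ V, S27IsKValU K V → ∃ a, S27IsUnitIn V (yp a V) ∧ S27IsUnitIn V (ym a V) := by
  intro V hV
  obtain ⟨D, -, h1, h2, hp, hm⟩ := s17mal_hmove hld hgen hx G₀ hG₀ hG0 Ao hAo hAod V hV ∅
  obtain ⟨a, rfl⟩ := hsurj D h1 h2
  exact ⟨a, hp _ (hyp a V hV), hm _ (hym a V hV)⟩

end Stage

end Fermat.Agent.S17

end
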