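/-
S17 sprint, layer H, leaf **N-c** (helper97): the MOVING lemma in class form.

`F / K` a function field with the prelude's places, all of degree one (`hres`), infinitely many
of them, Riemann's theorem in the two forms (RI), (RE) of `S27/NonSpec.lean`, `g` the genus.

For every divisor `T` of degree `0` and every finite set `S₀` of places there are `g` distinct
places `Q ∈ S`, none of them in `S₀`, such that BOTH

  `ℓ(T + Σ_{Q ∈ S} Q) = 1`        (the class `x + a + g·O` is NON-special) and
  `ℓ(T + 2g·O − Σ_{Q ∈ S} Q) = 1`  (the class `x − a + g·O` is NON-special),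

where `x = [T]` and `a = [Σ_{Q ∈ S} Q − g·O]`.  So every class `x` can be moved off the special
locus by `± a` simultaneously (general position, pointwise form of the moving lemma).

* `s17mvn_basepoints_finite` : a nonzero `L(D)` has finitely many base points;
* `s17mvn_down_finite`       : for all but finitely many `Q`: `ℓ(D − Q) + 1 = ℓ(D)` (if `ℓ(D) > 0`);
* `s17mvn_up_finite`         : for all but finitely many `Q`: `ℓ(D + Q) = max (ℓ(D)) (deg D + 2 − g)`;
* `s17mvn_exists_aux`        : the simultaneous chain of length `n`;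
* `s17mvn_exists`            : the statement above.
-/
import Fermat.Agent.S27.NonSpec
import Fermat.Agent.S17.NorthChow

set_option autoImplicit false
set_option linter.unusedSectionVars false
set_option linter.unusedVariables false
set_option linter.style.haveILetI false
set_option linter.deprecated false

open AlgebraicCurve Module

namespace Fermat.Agent.S17

open Fermat.Agent.S24 Fermat.Agent.ES.R Fermat.Agent.S27

variable {K F : Type*} [Field K] [Field F] [Algebra K F]

/-- `D − Q ≤ D`. -/
theorem s17mvn_sub_single_le (D : Divisor K F) (Q : Place K F) :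
    D - Finsupp.single Q (1 : ℤ) ≤ D := by
  have h := s27ns_le_add_single (D - Finsupp.single Q (1 : ℤ)) Q
  rwa [sub_add_cancel] at h

/-- **a nonzero `L(D)` has finitely many base points.** -/
theorem s17mvn_basepoints_finite [HasPrincipalDivisors K F]
    (hres : ∀ v : Place K F, Function.Bijective (algebraMap K v.ResidueField))
    (D : Divisor K F) (h : 0 < finrank K ↥(riemannRochSpace D)) :
    {Q : Place K F | finrank K ↥(riemannRochSpace (D - Finsupp.single Q 1)) =
      finrank K ↥(riemannRochSpace D)}.Finite := by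
  classical
  obtain ⟨x, hx⟩ : ∃ x : ↥(riemannRochSpace D), x ≠ 0 := by
    by_contra hcon
    have h0 : ∀ x : ↥(riemannRochSpace D), x = 0 := fun x => by
      by_contra hx
      exact hcon ⟨x, hx⟩
    haveI : Subsingleton ↥(riemannRochSpace D) := ⟨fun a b => by rw [h0 a, h0 b]⟩
    have := finrank_zero_of_subsingleton (R := K) (M := ↥(riemannRochSpace D))
    omega
  have hf0 : (x : F) ≠ 0 := fun h0 => hx (Subtype.ext h0)
  have hfin := (s17nc_ord_ne_zero_finite (K := K) (x : F) hf0).union D.support.finite_toSet
  refine hfin.subset ?_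
  intro Q hQ
  have hle : riemannRochSpace (D - Finsupp.single Q 1) ≤ riemannRochSpace D :=
    rr_mono (s17mvn_sub_single_le D Q)
  haveI := rr_finite Q hres D
  have heq : riemannRochSpace (D - Finsupp.single Q 1) = riemannRochSpace D :=
    Submodule.eq_of_le_of_finrank_eq hle hQ
  have hfm : (x : F) ∈ riemannRochSpace (D - Finsupp.single Q 1) := by
    rw [heq]
    exact x.2
  rw [mem_riemannRochSpace_iff] at hfm
  have h1 := (hfm Q).resolve_left hf0
  rw [Finsupp.sub_apply, Finsupp.single_eq_same] at h1
  by_contra hcon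
  rw [Set.mem_union, not_or] at hcon
  have h2 : Q.ord (x : F) = 0 := by
    by_contra h3
    exact hcon.1 h3
  have h3 : D Q = 0 := by
    by_contra h4
    exact hcon.2 (Finset.mem_coe.mpr (Finsupp.mem_support_iff.mpr h4))
  omega

/-- **one step down**: for all but finitely many `Q`, `ℓ(D − Q) + 1 = ℓ(D)`. -/
theorem s17mvn_down_finite [HasPrincipalDivisors K F]
    (hres : ∀ v : Place K F, Function.Bijective (algebraMap K v.ResidueField))
    (D : Divisor K F) (h : 0 < finrank K ↥(riemannRochSpace D)) :
    {Q : Place K F | finrank K ↥(riemannRochSpace (D - Finsupp.single Q 1)) + 1 ≠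
      finrank K ↥(riemannRochSpace D)}.Finite := by
  refine (s17mvn_basepoints_finite hres D h).subset ?_
  intro Q hQ
  have hle : riemannRochSpace (D - Finsupp.single Q 1) ≤ riemannRochSpace D :=
    rr_mono (s17mvn_sub_single_le D Q)
  haveI := rr_finite Q hres D
  have h1 := Submodule.finrank_mono hle
  have h2 := rr_finrank_add_single_le hres (D - Finsupp.single Q 1) Q
  rw [sub_add_cancel] at h2
  show finrank K ↥(riemannRochSpace (D - Finsupp.single Q 1)) = finrank K ↥(riemannRochSpace D)
  have h3 : finrank K ↥(riemannRochSpace (D - Finsupp.single Q 1)) + 1 ≠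
      finrank K ↥(riemannRochSpace D) := hQ
  omega

/-- the degree of `D + Q`. -/
theorem s17mvn_degree_add_single
    (hres : ∀ v : Place K F, Function.Bijective (algebraMap K v.ResidueField))
    (D : Divisor K F) (Q : Place K F) :
    Divisor.degree (D + Finsupp.single Q (1 : ℤ)) = Divisor.degree D + 1 := by
  rw [map_add, Divisor.degree_single, place_deg_eq_one Q (hres Q)]
  norm_num

/-- **one step up**: for all but finitely many `Q`, `ℓ(D + Q) = max (ℓ(D)) (deg D + 2 − g)`. -/
theorem s17mvn_up_finite [HasPrincipalDivisors K F]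
    (hres : ∀ v : Place K F, Function.Bijective (algebraMap K v.ResidueField))
    (g N₀ : ℤ)
    (hRI : ∀ D : Divisor K F,
      Divisor.degree D + 1 - g ≤ (finrank K ↥(riemannRochSpace D) : ℤ))
    (hRE : ∀ D : Divisor K F, N₀ ≤ Divisor.degree D →
      (finrank K ↥(riemannRochSpace D) : ℤ) = Divisor.degree D + 1 - g)
    (D : Divisor K F) :
    {Q : Place K F | (finrank K ↥(riemannRochSpace (D + Finsupp.single Q 1)) : ℤ) ≠
      max (finrank K ↥(riemannRochSpace D) : ℤ) (Divisor.degree D + 2 - g)}.Finite := by
  by_cases hsp : Divisor.degree D + 1 - g < (finrank K ↥(riemannRochSpace D) : ℤ)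
  · refine (s27ns_finite hres g N₀ hRE D hsp).subset ?_
    intro Q hQ
    have hle : riemannRochSpace D ≤ riemannRochSpace (D + Finsupp.single Q 1) :=
      rr_mono (s27ns_le_add_single D Q)
    haveI := rr_finite Q hres (D + Finsupp.single Q 1)
    have h1 := Submodule.finrank_mono hle
    have h2 := rr_finrank_add_single_le hres D Q
    show finrank K ↥(riemannRochSpace (D + Finsupp.single Q 1)) =
      finrank K ↥(riemannRochSpace D) + 1
    have h3 : (finrank K ↥(riemannRochSpace (D + Finsupp.single Q 1)) : ℤ) ≠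
      max (finrank K ↥(riemannRochSpace D) : ℤ) (Divisor.degree D + 2 - g) := hQ
    have h4 : max (finrank K ↥(riemannRochSpace D) : ℤ) (Divisor.degree D + 2 - g) =
        (finrank K ↥(riemannRochSpace D) : ℤ) := max_eq_left (by omega)
    rw [h4] at h3
    have h5 : finrank K ↥(riemannRochSpace (D + Finsupp.single Q 1)) ≠
        finrank K ↥(riemannRochSpace D) := fun h => h3 (by exact_mod_cast h)
    omega
  · have hempty : {Q : Place K F |
        (finrank K ↥(riemannRochSpace (D + Finsupp.single Q 1)) : ℤ) ≠
        max (finrank K ↥(riemannRochSpace D) : ℤ) (Divisor.degree D + 2 - g)} = ∅ := by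
      rw [Set.eq_empty_iff_forall_notMem]
      intro Q hQ
      apply hQ
      have h1 := hRI (D + Finsupp.single Q 1)
      rw [s17mvn_degree_add_single hres D Q] at h1
      have h2 : (finrank K ↥(riemannRochSpace (D + Finsupp.single Q 1)) : ℤ) ≤
          (finrank K ↥(riemannRochSpace D) : ℤ) + 1 := by
        exact_mod_cast rr_finrank_add_single_le hres D Q
      have h3 := hRI D
      rw [not_lt] at hsp
      rw [max_eq_right (by omega)]
      omega
    rw [hempty]
    exact Set.finite_empty

/-- **the simultaneous chain**: `n` distinct places off `S₀`, generic for the up-chain of `T`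
and for the down-chain of `B`. -/
theorem s17mvn_exists_aux [HasPrincipalDivisors K F] [Infinite (Place K F)]
    (hres : ∀ v : Place K F, Function.Bijective (algebraMap K v.ResidueField))
    (g N₀ : ℤ)
    (hRI : ∀ D : Divisor K F,
      Divisor.degree D + 1 - g ≤ (finrank K ↥(riemannRochSpace D) : ℤ))
    (hRE : ∀ D : Divisor K F, N₀ ≤ Divisor.degree D →
      (finrank K ↥(riemannRochSpace D) : ℤ) = Divisor.degree D + 1 - g)
    (T B : Divisor K F) (hT : Divisor.degree T = 0) (S₀ : Finset (Place K F)) :
    ∀ n : ℕ, n < finrank K ↥(riemannRochSpace B) →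
      ∃ S : Finset (Place K F), S.card = n ∧ (∀ Q ∈ S, Q ∉ S₀) ∧
        (finrank K ↥(riemannRochSpace (T + ∑ Q ∈ S, Finsupp.single Q (1 : ℤ))) : ℤ) =
          max (finrank K ↥(riemannRochSpace T) : ℤ) ((n : ℤ) + 1 - g) ∧
        finrank K ↥(riemannRochSpace (B - ∑ Q ∈ S, Finsupp.single Q (1 : ℤ))) + n =
          finrank K ↥(riemannRochSpace B) := by
  classical
  intro n
  induction n with
  | zero =>
    intro _
    refine ⟨∅, rfl, fun Q hQ => absurd hQ (Finset.notMem_empty Q), ?_, ?_⟩
    · rw [Finset.sum_empty, add_zero]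
      have h1 := hRI T
      rw [hT] at h1
      push_cast
      rw [max_eq_left (by omega)]
    · rw [Finset.sum_empty, sub_zero, add_zero]
  | succ n ih =>
    intro hn
    obtain ⟨S, hcard, hS₀, hup, hdown⟩ := ih (by omega)
    set D : Divisor K F := T + ∑ Q ∈ S, Finsupp.single Q (1 : ℤ) with hD
    set B' : Divisor K F := B - ∑ Q ∈ S, Finsupp.single Q (1 : ℤ) with hB'
    have hdegD : Divisor.degree D = n := by
      rw [hD, s27ns_degree_add_sum hres T S, hT, hcard, zero_add]
    have hB'pos : 0 < finrank K ↥(riemannRochSpace B') := by omega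
    have hfin1 := s17mvn_up_finite hres g N₀ hRI hRE D
    have hfin2 := s17mvn_down_finite hres B' hB'pos
    obtain ⟨Q, hQ⟩ := Infinite.exists_notMem_finset
      (S₀ ∪ S ∪ hfin1.toFinset ∪ hfin2.toFinset)
    simp only [Finset.mem_union, not_or, Set.Finite.mem_toFinset, Set.mem_setOf_eq,
      not_not] at hQ
    obtain ⟨⟨⟨hQS₀, hQS⟩, hQ1⟩, hQ2⟩ := hQ
    refine ⟨insert Q S, ?_, ?_, ?_, ?_⟩
    · rw [Finset.card_insert_of_notMem hQS, hcard]
    · intro Q' hQ'
      rcases Finset.mem_insert.mp hQ' with rfl | h
      · exact hQS₀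
      · exact hS₀ Q' h
    · rw [Finset.sum_insert hQS]
      have e1 : T + (Finsupp.single Q (1 : ℤ) + ∑ Q ∈ S, Finsupp.single Q (1 : ℤ)) =
          D + Finsupp.single Q 1 := by rw [hD]; abel
      rw [e1, hQ1, hup, hdegD]
      push_cast
      rw [max_assoc]
      congr 1
      rw [max_eq_right (by omega)]
      ring
    · rw [Finset.sum_insert hQS]
      have e1 : B - (Finsupp.single Q (1 : ℤ) + ∑ Q ∈ S, Finsupp.single Q (1 : ℤ)) =
          B' - Finsupp.single Q 1 := by rw [hB']; abel
      rw [e1]
      omega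

/-- **N-c, the MOVING lemma in class form**: every class of degree `0` can be moved off the
special locus by `± a` simultaneously, `a = [Σ_{Q ∈ S} Q − g·O]`, with the `g` distinct places of
`S` chosen outside any given finite set. -/
theorem s17mvn_exists [HasPrincipalDivisors K F] [Infinite (Place K F)]
    (hres : ∀ v : Place K F, Function.Bijective (algebraMap K v.ResidueField))
    (g : ℕ) (N₀ : ℤ)
    (hRI : ∀ D : Divisor K F,
      Divisor.degree D + 1 - g ≤ (finrank K ↥(riemannRochSpace D) : ℤ))
    (hRE : ∀ D : Divisor K F, N₀ ≤ Divisor.degree D →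
      (finrank K ↥(riemannRochSpace D) : ℤ) = Divisor.degree D + 1 - g)
    (hN₀ : N₀ ≤ 2 * (g : ℤ)) (O : Place K F)
    (T : Divisor K F) (hT : Divisor.degree T = 0) (S₀ : Finset (Place K F)) :
    ∃ S : Finset (Place K F), S.card = g ∧ (∀ Q ∈ S, Q ∉ S₀) ∧
      finrank K ↥(riemannRochSpace (T + ∑ Q ∈ S, Finsupp.single Q (1 : ℤ))) = 1 ∧
      finrank K ↥(riemannRochSpace
        (T + (2 * (g : ℤ)) • Finsupp.single O (1 : ℤ) - ∑ Q ∈ S, Finsupp.single Q (1 : ℤ))) = 1 := by
  classical
  set B : Divisor K F := T + (2 * (g : ℤ)) • Finsupp.single O (1 : ℤ) with hB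
  have hdegB : Divisor.degree B = 2 * (g : ℤ) := by
    rw [hB, map_add, map_zsmul, Divisor.degree_single, place_deg_eq_one O (hres O), hT]
    simp
  have hlB : (finrank K ↥(riemannRochSpace B) : ℤ) = (g : ℤ) + 1 := by
    rw [hRE B (by rw [hdegB]; exact hN₀), hdegB]
    ring
  have hlT : (finrank K ↥(riemannRochSpace T) : ℤ) ≤ 1 := by
    have hneg : Divisor.degree (T - Finsupp.single O (1 : ℤ)) < 0 := by
      rw [map_sub, Divisor.degree_single, place_deg_eq_one O (hres O), hT]
      norm_num
    have h0 : riemannRochSpace (T - Finsupp.single O (1 : ℤ)) = ⊥ :=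
      rr_eq_bot_of_degree_neg hneg
    have h1 := rr_finrank_add_single_le hres (T - Finsupp.single O (1 : ℤ)) O
    rw [sub_add_cancel, h0, finrank_bot] at h1
    exact_mod_cast h1
  obtain ⟨S, hcard, hS₀, hup, hdown⟩ :=
    s17mvn_exists_aux hres g N₀ hRI hRE T B hT S₀ g (by exact_mod_cast (by omega :
      (g : ℤ) < (finrank K ↥(riemannRochSpace B) : ℤ)))
  refine ⟨S, hcard, hS₀, ?_, ?_⟩
  · have h1 : ((g : ℤ) + 1 - (g : ℤ)) = 1 := by ring
    rw [h1] at hup
    have h2 : (finrank K ↥(riemannRochSpace (T + ∑ Q ∈ S, Finsupp.single Q (1 : ℤ))) : ℤ) = 1 := by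
      rw [hup]
      exact max_eq_right hlT
    exact_mod_cast h2
  · have h2 : (finrank K ↥(riemannRochSpace (B - ∑ Q ∈ S, Finsupp.single Q (1 : ℤ))) : ℤ) + g =
        (g : ℤ) + 1 := by
      rw [← hlB]
      exact_mod_cast hdown
    have h3 : (finrank K ↥(riemannRochSpace (B - ∑ Q ∈ S, Finsupp.single Q (1 : ℤ))) : ℤ) = 1 := by
      linarith
    exact_mod_cast h3

end Fermat.Agent.S17
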