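/-
S17 sprint, layer H — **HMOVE-UP with a FINITE POOL** (helper94): the moving lemma upstairs at the
`K`-places of the stage, with the translation taken from ONE FINITE set `T` (independent of the
place): the input of "the finite family `(Φ_D⁻¹)_{D ∈ T}` is base-point-free" (helper33's route (B),
no NORM descent).

* **`s17mupp_hmove`** : `∃ T : Finset degZero, (∀ D ∈ T, L_K(Ao − D) = L_K(Ao + D) = 0) ∧
                        ∀ K-place W, ∃ D ∈ T,` EVERY local equation of `Θ_{Ao}` at `η + β[D]` and at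
                        `η − β[D]` along `W` is a unit of `W`.
  Proof: helper8's `s17mup_hmove` (S17/MoveUp.lean) with the two-sided finite pool `s17cv2_pool`
  (S17/CoverTwo.lean) in the place of the moving lemma `s17mvc_exists`.
-/
import Fermat.Agent.S17.MoveUp
import Fermat.Agent.S17.CoverTwo

set_option autoImplicit false
set_option linter.style.haveILetI false
set_option linter.unusedSectionVars false
set_option linter.unusedVariables false

noncomputable section

namespace Fermat.Agent.S17

open AlgebraicCurve Module TensorProduct IntermediateField Fermat.Agent.S26 Fermat.Agent.S27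

universe u v y

section Stage

variable {K : Type u} {F : Type v} [Field K] [IsAlgClosed K] [CharZero K] [Field F] [Algebra K F]
  [IsCurveOver K F] [Algebra.EssFiniteType K F]
  {L : Type (max u v)} [Field L] [Algebra K L]
  [Algebra (s27gfOm K F (genusFF K F)) L] [IsScalarTower K (s27gfOm K F (genusFF K F)) L]
  [IsAlgClosed L] [Algebra.IsAlgebraic (s27gfOm K F (genusFF K F)) L]
  {FL : Type y} [Field FL] [Algebra K FL] [Algebra F FL] [Algebra L FL]
  [IsScalarTower K F FL] [IsScalarTower K L FL]
  (hld : Function.Injective (s26gspMu K F L FL)) (hgen : S26gspGen K F L FL)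
  {x : F} (hx : Transcendental K x)
  [FiniteDimensional ↥(IntermediateField.adjoin K {x}) F]
  [Algebra.IsSeparable ↥(IntermediateField.adjoin K {x}) F]
  [IsGalois (s27gfSym K F (genusFF K F)) L]
  (G₀ : Divisor K F) (hG₀ : Divisor.degree G₀ = (genusFF K F : ℤ))
  (PoolMem : Divisor.degZero (K := K) (F := F) → Prop)

/-- **HMOVE-UP at a place, for a translation with the four off-conditions** (the second half of
helper8's `s17mup_hmove`). -/
theorem s17mupp_hmove_at (hG0 : 0 ≤ G₀) (Ao : Divisor K F) (hAo : riemannRochSpace Ao = ⊥)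
    (hAod : Divisor.degree Ao = (genusFF K F : ℤ) - 1)
    (pool : ∀ c : Pic0 K F, ∃ D : Divisor.degZero (K := K) (F := F),
      PoolMem D ∧ riemannRochSpace (Ao - (D : Divisor K F)) = ⊥ ∧
      riemannRochSpace (Ao + (D : Divisor K F)) = ⊥ ∧
      S17mvcOff Ao (c + Pic0.mk D) ∧ S17mvcOff Ao (c - Pic0.mk D))
    (W : ValuationSubring L) (hW : S27IsKValU K W)
    (hres : ∀ w ∈ W, ∃ c : K, w - algebraMap K L c ∈ W.nonunits) :
    ∃ D : Divisor.degZero (K := K) (F := F), PoolMem D ∧
      (∀ z : L, S27icIdx hld hgen hx Ao W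
        (s27pfCl (s27dclPkg hld hgen hx G₀ hG₀)
          (s27pfTaut (K := K) (F := F) (g := genusFF K F) (L := L)) +
          s27bcBeta hld hgen (s26gspf_hall hx) (Pic0.mk D)) z → S27IsUnitIn W z) ∧
      (∀ z : L, S27icIdx hld hgen hx Ao W
        (s27pfCl (s27dclPkg hld hgen hx G₀ hG₀)
          (s27pfTaut (K := K) (F := F) (g := genusFF K F) (L := L)) -
          s27bcBeta hld hgen (s26gspf_hall hx) (Pic0.mk D)) z → S27IsUnitIn W z) := by
  classical
  set R : Fin (genusFF K F) → F →ₐ[K] L :=
    s27pfTaut (K := K) (F := F) (g := genusFF K F) (L := L) with hRdef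
  have hR : Function.Injective R :=
    s27ic_generic_injective (x := x) (s27mp_taut_generic (K := K) (F := F) (L := L) hx)
  choose Q hQ using fun i => s17mup_closed hx W hW hres (R i)
  -- the centre class
  have hX₀ : s17unsDiv Q - G₀ ∈ Divisor.degZero (K := K) (F := F) := by
    rw [Divisor.mem_degZero, map_sub, s17mup_centre_deg hx Q, hG₀, sub_self]
  set X₀ : Divisor.degZero (K := K) (F := F) := ⟨s17unsDiv Q - G₀, hX₀⟩ with hX₀def
  obtain ⟨D, hDT, h1, h2, hp, hm⟩ := pool (Pic0.mk X₀)
  have hcl0 : s27icCl hld hgen hx R G₀ hG₀ =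
      s27pfCl (s27dclPkg hld hgen hx G₀ hG₀) R := rfl
  refine ⟨D, hDT, ?_, ?_⟩
  · intro z hz
    have hB := s17su_deg_add (-D) hG₀
    have hcl : s27icCl hld hgen hx R
        (G₀ + ((-D : Divisor.degZero (K := K) (F := F)) : Divisor K F)) hB =
        s27pfCl (s27dclPkg hld hgen hx G₀ hG₀) R +
          s27bcBeta hld hgen (s26gspf_hall hx) (Pic0.mk D) := by
      rw [s17su_cl_shift hld hgen hx R G₀ (-D) hG₀ hB, s17su_beta_neg hld hgen hx D, sub_neg_eq_add,
        hcl0]
    have h10 : finrank K ↥(riemannRochSpace (Ao - (D : Divisor K F))) = 0 := by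
      rw [h1]
      exact finrank_bot K F
    obtain ⟨f'⟩ := s27rd_exists_basis x hx (Ao - (D : Divisor K F))
      (s17su_deg_sub Ao D hAod) h10 G₀ hG0 hG₀
    have e : G₀ + (Ao - (D : Divisor K F)) =
        G₀ + ((-D : Divisor.degZero (K := K) (F := F)) : Divisor K F) + Ao := by
      rw [NegMemClass.coe_neg]
      abel
    rw [e] at f'
    have hoff : riemannRochSpace
        (G₀ + ((-D : Divisor.degZero (K := K) (F := F)) : Divisor K F) + Ao - s17unsDiv Q) =
        ⊥ := by
      have h3 := hp (X₀ + D) (Pic0.mk_add X₀ D)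
      have e' : G₀ + ((-D : Divisor.degZero (K := K) (F := F)) : Divisor K F) + Ao -
          s17unsDiv Q = Ao - ((X₀ + D : Divisor.degZero (K := K) (F := F)) : Divisor K F) := by
        rw [NegMemClass.coe_neg, AddSubgroup.coe_add]
        show G₀ + -(D : Divisor K F) + Ao - s17unsDiv Q =
          Ao - ((s17unsDiv Q - G₀) + (D : Divisor K F))
        abel
      rw [e']
      exact h3
    exact s17mup_unit_of_off hld hgen hx Ao hAo hAod W hW hres R hR _ hB f' Q hQ hoff _ hcl
      z hz
  · intro z hz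
    have hB := s17su_deg_add D hG₀
    have hcl : s27icCl hld hgen hx R (G₀ + (D : Divisor K F)) hB =
        s27pfCl (s27dclPkg hld hgen hx G₀ hG₀) R -
          s27bcBeta hld hgen (s26gspf_hall hx) (Pic0.mk D) := by
      rw [s17su_cl_shift hld hgen hx R G₀ D hG₀ hB, hcl0]
    have h20 : finrank K ↥(riemannRochSpace (Ao + (D : Divisor K F))) = 0 := by
      rw [h2]
      exact finrank_bot K F
    obtain ⟨f'⟩ := s27rd_exists_basis x hx (Ao + (D : Divisor K F))
      (s17su_deg_add' Ao D hAod) h20 G₀ hG0 hG₀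
    have e : G₀ + (Ao + (D : Divisor K F)) = G₀ + (D : Divisor K F) + Ao := by abel
    rw [e] at f'
    have hoff : riemannRochSpace (G₀ + (D : Divisor K F) + Ao - s17unsDiv Q) = ⊥ := by
      have h3 := hm (X₀ - D) rfl
      have e' : G₀ + (D : Divisor K F) + Ao - s17unsDiv Q =
          Ao - ((X₀ - D : Divisor.degZero (K := K) (F := F)) : Divisor K F) := by
        rw [AddSubgroup.coe_sub]
        show G₀ + (D : Divisor K F) + Ao - s17unsDiv Q =
          Ao - ((s17unsDiv Q - G₀) - (D : Divisor K F))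
        abel
      rw [e']
      exact h3
    exact s17mup_unit_of_off hld hgen hx Ao hAo hAod W hW hres R hR _ hB f' Q hQ hoff _ hcl
      z hz


/-- **HMOVE-UP with a finite pool.** -/
theorem s17mupp_hmove (hG0 : 0 ≤ G₀) (Ao : Divisor K F) (hAo : riemannRochSpace Ao = ⊥)
    (hAod : Divisor.degree Ao = (genusFF K F : ℤ) - 1) :
    ∃ T : Finset (Divisor.degZero (K := K) (F := F)),
      (∀ D ∈ T, riemannRochSpace (Ao - (D : Divisor K F)) = ⊥ ∧
        riemannRochSpace (Ao + (D : Divisor K F)) = ⊥) ∧
      ∀ (W : ValuationSubring L), S27IsKValU K W →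
        (∀ w ∈ W, ∃ c : K, w - algebraMap K L c ∈ W.nonunits) →
        ∃ D ∈ T,
          (∀ z : L, S27icIdx hld hgen hx Ao W
            (s27pfCl (s27dclPkg hld hgen hx G₀ hG₀)
              (s27pfTaut (K := K) (F := F) (g := genusFF K F) (L := L)) +
              s27bcBeta hld hgen (s26gspf_hall hx) (Pic0.mk D)) z → S27IsUnitIn W z) ∧
          (∀ z : L, S27icIdx hld hgen hx Ao W
            (s27pfCl (s27dclPkg hld hgen hx G₀ hG₀)
              (s27pfTaut (K := K) (F := F) (g := genusFF K F) (L := L)) -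
              s27bcBeta hld hgen (s26gspf_hall hx) (Pic0.mk D)) z → S27IsUnitIn W z) := by
  obtain ⟨T, hT, hpool⟩ := s17cv2_pool x hx Ao hAod
  refine ⟨T, hT, fun W hW hres => ?_⟩
  obtain ⟨D, hDT, hu⟩ := s17mupp_hmove_at hld hgen hx G₀ hG₀ (fun D => D ∈ T) hG0 Ao hAo hAod
    (fun c => by
      obtain ⟨D, hD, h⟩ := hpool c
      exact ⟨D, hD, (hT D hD).1, (hT D hD).2, h.1, h.2⟩) W hW hres
  exact ⟨D, hDT, hu⟩

end Stage

end Fermat.Agent.S17

end
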