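/-
S17 sprint, design A v2, leaf **A-M** (helper11): the multiplication bound (M) at the level of
PLACE-VALUES.

Stage: `K ⊆ L` fields, `φ : L →ₐ[K] L` (`= ψ_n`), `b V` local equations of `D`, `H ∈ L`,
CRUX `S27IsCrux K φ b H n` (`φ (b (V ∘ φ)) ≐ H · b V ^ (n²)`), `s : ι → L` a base-point-free family
of `L(m₀ D)` (`S17muBpf K b m₀ s`), `P : S17plPlace K L` a `K`-place of `L` (S17/Place.lean).

* `s17mhComap P φ`    : the pulled-back place `P ∘ φ` (valuation ring `P.W.comap φ`, residue map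
                        `P.res ∘ φ`);
* `s17mh_isMin_comap` : `β` is a minimal index of `s` at `P ∘ φ` iff it is one of `φ ∘ s` at `P`;
* `s17mh_val_comap`   : `[s]_{P ∘ φ} = [φ ∘ s]_P`;
* `s17mh_isMin_mono`, `s17mh_val_mono` : the monomials of degree `d` in `s` have the minimal index
                        `const α` and the value `∏ j, [s]_P (κ j)` (VERONESE of the value);
* **`s17mh_combined`** : the COMBINED place-value of `(monomials of degree n² in s, H^m₀ · φ ∘ s)`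
                        at `P`, chart `inl (const α)`, is `(Veronese_{n²} [s]_P , c · [s]_{P ∘ φ})`
                        with ONE scalar `c ≠ 0`, `c = res (H^m₀ φ(s β) / s α ^ n²)`
                        (design-independent: feed it to ANY certificate-to-height lemma);
* `s17mh_logHeight_mono` : `logHeight (Veronese_d x) = d · logHeight x`;
* **`s17mh_main`**     : RATIONAL places: `∃ C, ∀ P …, |logHeight y₀ − n² · logHeight x₀| ≤ C` for
                        rational representatives `x₀` of `[s]_P`, `y₀` of `[s]_{P ∘ φ}`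
                        (= (M) with `b = n²`, BOTH inequalities, constant uniform in the place).
-/
import Fermat.Agent.S17.BpfEquiv

set_option autoImplicit false
set_option linter.unusedVariables false
set_option linter.unusedSectionVars false

noncomputable section

namespace Fermat.Agent.S17

open Fermat.Agent.S27 Height

universe u u₀ w x

section Comap

variable {K : Type u} {L : Type w} [Field K] [Field L] [Algebra K L] {ι : Type x}

/-- the pulled-back place `P ∘ φ`. -/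
def s17mhComap (P : S17plPlace K L) (φ : L →ₐ[K] L) : S17plPlace K L where
  W := P.W.comap (φ : L →+* L)
  hKW := fun c => by
    show (φ : L →+* L) (algebraMap K L c) ∈ P.W
    have h : (φ : L →+* L) (algebraMap K L c) = algebraMap K L c := φ.commutes c
    rw [h]
    exact P.hKW c
  res := P.res.comp ((φ : L →+* L).restrict (P.W.comap (φ : L →+* L)) P.W fun x hx => hx)
  hres := fun c => by
    have h : (φ : L →+* L) (algebraMap K L c) = algebraMap K L c := φ.commutes c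
    have h2 : ((φ : L →+* L).restrict (P.W.comap (φ : L →+* L)) P.W fun x hx => hx)
        ⟨algebraMap K L c, by
          show (φ : L →+* L) (algebraMap K L c) ∈ P.W
          rw [h]
          exact P.hKW c⟩ = ⟨algebraMap K L c, P.hKW c⟩ := Subtype.ext h
    rw [RingHom.comp_apply, h2]
    exact P.hres c

theorem s17mhComap_W (P : S17plPlace K L) (φ : L →ₐ[K] L) :
    (s17mhComap P φ).W = P.W.comap (φ : L →+* L) := rfl

theorem s17mhComap_res (P : S17plPlace K L) (φ : L →ₐ[K] L) (z : L)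
    (hz : z ∈ (s17mhComap P φ).W) (hz' : φ z ∈ P.W) :
    (s17mhComap P φ).res ⟨z, hz⟩ = P.res ⟨φ z, hz'⟩ := rfl

/-- `β` is a minimal index of `s` at `P ∘ φ` iff it is one of `φ ∘ s` at `P`. -/
theorem s17mh_isMin_comap (P : S17plPlace K L) (φ : L →ₐ[K] L) (s : ι → L) (β : ι) :
    S17plIsMin (s17mhComap P φ).W s β ↔ S17plIsMin P.W (fun i => φ (s i)) β := by
  unfold S17plIsMin
  have key : ∀ i, (s i / s β ∈ (s17mhComap P φ).W) ↔ (φ (s i) / φ (s β) ∈ P.W) := by
    intro i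
    rw [← map_div₀]
    exact Iff.rfl
  constructor
  · rintro ⟨h0, h⟩
    exact ⟨(map_ne_zero φ).2 h0, fun i => (key i).1 (h i)⟩
  · rintro ⟨h0, h⟩
    exact ⟨(map_ne_zero φ).1 h0, fun i => (key i).2 (h i)⟩

/-- `[s]_{P ∘ φ} = [φ ∘ s]_P`. -/
theorem s17mh_val_comap (P : S17plPlace K L) (φ : L →ₐ[K] L) (s : ι → L) (β : ι)
    (hβ : S17plIsMin (s17mhComap P φ).W s β) (hβ' : S17plIsMin P.W (fun i => φ (s i)) β) :
    s17plVal (s17mhComap P φ) s β hβ = s17plVal P (fun i => φ (s i)) β hβ' := by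
  funext i
  rw [s17pl_val_apply, s17pl_val_apply]
  have hz : φ (s i / s β) ∈ P.W := hβ.2 i
  rw [s17mhComap_res P φ _ _ hz]
  congr 1
  apply Subtype.ext
  exact map_div₀ φ _ _

/-- the monomials of degree `d` have the minimal index `const α`. -/
theorem s17mh_isMin_mono (W : ValuationSubring L) (s : ι → L) (α : ι) (hα : S17plIsMin W s α)
    (d : ℕ) : S17plIsMin W (fun κ : Fin d → ι => ∏ j, s (κ j)) (fun _ => α) := by
  refine ⟨Finset.prod_ne_zero_iff.2 fun _ _ => hα.1, fun κ => ?_⟩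
  show (∏ j, s (κ j)) / (∏ _j : Fin d, s α) ∈ W
  rw [← Finset.prod_div_distrib]
  exact W.toSubring.prod_mem fun j _ => hα.2 (κ j)

/-- the value of the monomials is the VERONESE of the value. -/
theorem s17mh_val_mono (P : S17plPlace K L) (s : ι → L) (α : ι) (hα : S17plIsMin P.W s α)
    (d : ℕ) (h : S17plIsMin P.W (fun κ : Fin d → ι => ∏ j, s (κ j)) (fun _ => α))
    (κ : Fin d → ι) :
    s17plVal P (fun κ : Fin d → ι => ∏ j, s (κ j)) (fun _ => α) h κ =
      ∏ j, s17plVal P s α hα (κ j) := by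
  rw [s17pl_val_apply]
  simp only [s17pl_val_apply]
  rw [← map_prod]
  congr 1
  apply Subtype.ext
  show (∏ j, s (κ j)) / (∏ _j : Fin d, s α) = _
  rw [← Finset.prod_div_distrib, SubmonoidClass.coe_finsetProd]

end Comap

section Combined

theorem s17mh_tele {L : Type w} [Field L] (a c p q : L) (hc : c ≠ 0) (hp : p ≠ 0) (hq : q ≠ 0) :
    a / c = a / p * (p / q) * (q / c) := by
  field_simp

theorem s17mh_two {L : Type w} [Field L] (a c p : L) (hc : c ≠ 0) (hp : p ≠ 0) :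
    a / c = p / c * (a / p) := by
  field_simp

theorem s17mh_three {L : Type w} [Field L] (h a c p : L) (hc : c ≠ 0) (hp : p ≠ 0) :
    h * a / c = h * p / c * (a / p) := by
  field_simp

theorem s17mh_tele_inv {L : Type w} [Field L] (a c p q : L) (ha : a ≠ 0) (hc : c ≠ 0)
    (hp : p ≠ 0) (hq : q ≠ 0) :
    (a / c)⁻¹ = c / q * (q / p) * (p / a) := by
  field_simp

variable {K : Type u} {L : Type w} [Field K] [Field L] [Algebra K L] {ι : Type x}
  {φ : L →ₐ[K] L} {b : ValuationSubring L → L} {H : L} {n : ℕ}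

/-- **the combined place-value of (monomials of degree `n²` in `s`, `H^m₀ · φ ∘ s`).** -/
theorem s17mh_combined (hC : S27IsCrux K φ b H n) {m₀ : ℕ} {s : ι → L}
    (hs : S17muBpf K b m₀ s) (P : S17plPlace K L) (α β : ι) (hα : S17plIsMin P.W s α)
    (hβ : S17plIsMin (s17mhComap P φ).W s β) :
    ∃ (hγ : S17plIsMin P.W (Sum.elim (fun κ : Fin (n ^ 2) → ι => ∏ j, s (κ j))
        (fun i => H ^ m₀ * φ (s i))) (Sum.inl fun _ => α))
      (hc : H ^ m₀ * φ (s β) / s α ^ (n ^ 2) ∈ P.W),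
      P.res ⟨_, hc⟩ ≠ 0 ∧
      (∀ κ, s17plVal P _ _ hγ (Sum.inl κ) = ∏ j, s17plVal P s α hα (κ j)) ∧
      (∀ i, s17plVal P _ _ hγ (Sum.inr i) =
        P.res ⟨_, hc⟩ * s17plVal (s17mhComap P φ) s β hβ i) := by
  classical
  have hKW : S27IsKValU K P.W := P.hKW
  obtain ⟨α₁, β₁, hFα₁, hGβ₁, hF1, hG1, hGF, hFG⟩ := s17be_mult hC hs P.W hKW
  have hFmin := s17mh_isMin_mono P.W s α hα (n ^ 2)
  have hH0 : H ^ m₀ ≠ 0 := pow_ne_zero _ hC.H_ne
  have hβ' : S17plIsMin P.W (fun i => φ (s i)) β := (s17mh_isMin_comap P φ s β).1 hβ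
  have hGmin : S17plIsMin P.W (fun i => H ^ m₀ * φ (s i)) β :=
    (s17pl_isMin_scale P.W _ β hH0).2 hβ'
  have hFc : (∏ _j : Fin (n ^ 2), s α) = s α ^ (n ^ 2) := by
    rw [Finset.prod_const, Finset.card_univ, Fintype.card_fin]
  have hsα : s α ^ (n ^ 2) ≠ 0 := pow_ne_zero _ hα.1
  have hGβ : H ^ m₀ * φ (s β) ≠ 0 := hGmin.1
  -- `G β / F (const α) ∈ W`
  have hc : H ^ m₀ * φ (s β) / s α ^ (n ^ 2) ∈ P.W := by
    have e : H ^ m₀ * φ (s β) / s α ^ (n ^ 2) =
        (H ^ m₀ * φ (s β) / (H ^ m₀ * φ (s β₁))) *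
          ((H ^ m₀ * φ (s β₁)) / (∏ j, s (α₁ j))) *
            ((∏ j, s (α₁ j)) / (∏ _j : Fin (n ^ 2), s α)) := by
      rw [hFc]
      exact s17mh_tele _ _ _ _ hsα hGβ₁ hFα₁
    rw [e]
    exact P.W.mul_mem _ _ (P.W.mul_mem _ _ (hG1 β) hGF) (hFmin.2 α₁)
  -- and its inverse
  have hc' : (H ^ m₀ * φ (s β) / s α ^ (n ^ 2))⁻¹ ∈ P.W := by
    have e : (H ^ m₀ * φ (s β) / s α ^ (n ^ 2))⁻¹ =
        ((∏ _j : Fin (n ^ 2), s α) / (∏ j, s (α₁ j))) *
          ((∏ j, s (α₁ j)) / (H ^ m₀ * φ (s β₁))) *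
            ((H ^ m₀ * φ (s β₁)) / (H ^ m₀ * φ (s β))) := by
      rw [hFc]
      exact s17mh_tele_inv _ _ _ _ hGβ hsα hGβ₁ hFα₁
    rw [e]
    exact P.W.mul_mem _ _ (P.W.mul_mem _ _ (hF1 _) hFG) (hGmin.2 β₁)
  have hG' : ∀ i, (H ^ m₀ * φ (s i)) / (∏ _j : Fin (n ^ 2), s α) ∈ P.W := by
    intro i
    have e : (H ^ m₀ * φ (s i)) / (∏ _j : Fin (n ^ 2), s α) =
        (H ^ m₀ * φ (s β) / s α ^ (n ^ 2)) * ((H ^ m₀ * φ (s i)) / (H ^ m₀ * φ (s β))) := by
      rw [hFc]
      exact s17mh_two _ _ _ hsα hGβ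
    rw [e]
    exact P.W.mul_mem _ _ hc (hGmin.2 i)
  refine ⟨s17pl_isMin_elim hFmin hG', hc,
    s17pl_res_ne_zero P (div_ne_zero hGβ hsα) hc hc', fun κ => ?_, fun i => ?_⟩
  · have h1 := congrFun (s17pl_val_elim P _ _ hFmin (fun i => H ^ m₀ * φ (s i)) hG') (Sum.inl κ)
    rw [h1]
    exact s17mh_val_mono P s α hα (n ^ 2) hFmin κ
  · have h1 := congrFun (s17pl_val_elim P _ _ hFmin (fun i => H ^ m₀ * φ (s i)) hG') (Sum.inr i)
    rw [h1, s17mh_val_comap P φ s β hβ hβ', s17pl_val_apply, ← map_mul]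
    show P.res ⟨(H ^ m₀ * φ (s i)) / (∏ _j : Fin (n ^ 2), s α), hG' i⟩ = _
    congr 1
    apply Subtype.ext
    show (H ^ m₀ * φ (s i)) / (∏ _j : Fin (n ^ 2), s α) =
      (H ^ m₀ * φ (s β) / s α ^ (n ^ 2)) * (φ (s i) / φ (s β))
    rw [hFc]
    have hφβ : φ (s β) ≠ 0 := hβ'.1
    exact s17mh_three _ _ _ _ hsα hφβ

end Combined

section Height

variable {K₀ : Type u₀} {K : Type u} {L : Type w} [Field K₀] [AdmissibleAbsValues K₀] [Field K]
  [Field L] [Algebra K₀ K] [Algebra K L] [Algebra K₀ L] [IsScalarTower K₀ K L]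
  [Algebra.IsAlgebraic K₀ K] {ι : Type x} [Fintype ι]

/-- `logHeight (Veronese_d x) = d · logHeight x`. -/
theorem s17mh_logHeight_mono (x : ι → K₀) (hx : x ≠ 0) (d : ℕ) :
    logHeight (fun κ : Fin d → ι => ∏ j, x (κ j)) = d * logHeight x := by
  have h := logHeight_fun_prod_eq (K := K₀) (α := Fin d) (ι := fun _ => ι)
    (x := fun _ => x) (fun _ => hx)
  rw [h, Finset.sum_const, Finset.card_univ, Fintype.card_fin, nsmul_eq_mul]

/-- **(M) at the level of rational place-values**, both inequalities, uniformly in the place. -/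
theorem s17mh_main [DecidableEq ι] {φ : L →ₐ[K] L} {b : ValuationSubring L → L} {H : L}
    {n : ℕ} (hC : S27IsCrux K φ b H n) {m₀ : ℕ} {s : ι → L} (hs : S17muBpf K b m₀ s) :
    ∃ C : ℝ, ∀ (P : S17plPlace K L) (α β : ι) (hα : S17plIsMin P.W s α)
      (hβ : S17plIsMin (s17mhComap P φ).W s β) (x₀ y₀ : ι → K₀) (t t' : K),
      (∀ i, s17plVal P s α hα i = t * algebraMap K₀ K (x₀ i)) →
      (∀ i, s17plVal (s17mhComap P φ) s β hβ i = t' * algebraMap K₀ K (y₀ i)) →
      (∀ hc : H ^ m₀ * φ (s β) / s α ^ (n ^ 2) ∈ P.W,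
        ∃ r : K₀, P.res ⟨_, hc⟩ * t' = t ^ (n ^ 2) * algebraMap K₀ K r) →
      |logHeight y₀ - ((n ^ 2 : ℕ) : ℝ) * logHeight x₀| ≤ C := by
  obtain ⟨C, hCb⟩ := s17be_height_mult (K₀ := K₀) hC hs
  refine ⟨C, fun P α β hα hβ x₀ y₀ t t' hx hy hr => ?_⟩
  obtain ⟨hγ, hc, hc0, hinl, hinr⟩ := s17mh_combined hC hs P α β hα hβ
  obtain ⟨r, hrr⟩ := hr hc
  -- nonvanishing
  have ht : t ≠ 0 := by
    intro h0
    have := hx α
    rw [s17pl_val_self, h0, zero_mul] at this
    exact one_ne_zero this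
  have ht' : t' ≠ 0 := by
    intro h0
    have := hy β
    rw [s17pl_val_self, h0, zero_mul] at this
    exact one_ne_zero this
  have hx0 : x₀ ≠ 0 := by
    intro h0
    have := hx α
    rw [s17pl_val_self, h0, Pi.zero_apply, map_zero, mul_zero] at this
    exact one_ne_zero this
  have hr0 : r ≠ 0 := by
    intro h0
    rw [h0, map_zero, mul_zero] at hrr
    exact (mul_ne_zero hc0 ht') hrr
  have h1 := hCb P (Sum.inl fun _ => α) hγ (fun κ : Fin (n ^ 2) → ι => ∏ j, x₀ (κ j))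
    (fun i => r * y₀ i) (t ^ (n ^ 2)) (fun κ => ?_) (fun i => ?_)
  · rw [s17mh_logHeight_mono x₀ hx0 (n ^ 2)] at h1
    have h2 : logHeight (fun i => r * y₀ i) = logHeight y₀ :=
      logHeight_smul_eq_logHeight y₀ hr0
    rw [h2, abs_sub_comm] at h1
    exact h1
  · rw [hinl κ]
    simp only [hx]
    rw [Finset.prod_mul_distrib, Finset.prod_const, Finset.card_univ, Fintype.card_fin,
      map_prod]
  · rw [hinr i, hy i, ← mul_assoc, hrr, map_mul]
    ring

end Height

end Fermat.Agent.S17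

end
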