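/-
S17 sprint, layer H, PlN leaf **N4 — NonSpecU, the valuative core** (helper41).

`W ⊇ K` a valuation subring of `𝔏`, `q i : F →ₐ[K] 𝔏` points with closed centres `Q i`
(`S27ptIsCentre W (q i) (Q i)`), `D = Σ_i Q i` the CENTRE DIVISOR, `A'` a divisor of `F / K`.

* `s17nu_exists_param` : weak approximation: `s` with `ord_{Q i} s = 1`, `ord_{Q j} s = 0` at the
                         other centres;
* `s17nu_val_mem`      : **(A)** a function `ψ` with `div ψ ≥ −A' + D` at the centres has its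
                         vector of values in `𝔪_W · M_W(q, A')`: `q i ψ = Σ_j q i (φ j) c_j`,
                         `v_W(c_j) < 1`, for every lattice basis `φ`;
* `s17nu_not_unit`     : **(B)** if `L_K(A' − D) ≠ 0` (a nonzero `ψ ∈ L_K(A')` with
                         `div ψ ≥ −A' + D` at the centres), then NO local equation
                         `x` of the theta divisor (`S27ptIsIdx W q A' x`) is a unit of `W`;
* `s17nu_reduced`      : contrapositive: a UNIT local equation ⇒ `L_K(A' − D) = 0` in the form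
                         "every `ψ ∈ L_K(A')` with `div ψ ≥ −A' + D` at the centres is `0`".
-/
import Fermat.Agent.S27.PtDef
import Fermat.Agent.S27.AdExWA
import Fermat.Agent.ES.RiemannGeneric
import Fermat.Agent.S26.ERRGaussCon

set_option autoImplicit false
set_option linter.unusedVariables false
set_option linter.unusedSectionVars false
set_option linter.style.haveILetI false

noncomputable section

namespace Fermat.Agent.S17

open AlgebraicCurve WithZero Module Fermat.Agent.S26 Fermat.Agent.S27 Fermat.Agent.S24 Fermat.Agent.ES.R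

universe u v w

variable {K : Type u} {F : Type v} [Field K] [Field F] [Algebra K F]

/-- `ord` of a finite product of nonzero functions. -/
theorem s17nu_ord_prod (P : Place K F) {ι : Type*} (S : Finset ι) (s : ι → F)
    (hs : ∀ i ∈ S, s i ≠ 0) : P.ord (∏ i ∈ S, s i) = ∑ i ∈ S, P.ord (s i) := by
  classical
  induction S using Finset.induction_on with
  | empty => simp [Place.ord_one]
  | insert a S ha ih =>
    rw [Finset.prod_insert ha, Finset.sum_insert ha,
      P.ord_mul (hs a (Finset.mem_insert_self a S))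
        (Finset.prod_ne_zero_iff.2 fun i hi => hs i (Finset.mem_insert_of_mem hi)),
      ih fun i hi => hs i (Finset.mem_insert_of_mem hi)]

/-- a function with `ord = 1` at a place. -/
theorem s17nu_exists_unif (P : Place K F) : ∃ π : F, π ≠ 0 ∧ P.ord π = 1 := by
  obtain ⟨π, hπ⟩ := IsDiscreteValuationRing.exists_irreducible P.toValuationSubring
  refine ⟨(π : F), ?_, P.ord_coe_irreducible hπ⟩
  intro h0
  have := P.ord_coe_irreducible hπ
  rw [h0, Place.ord_zero] at this
  exact zero_ne_one this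

/-- **weak approximation**: a uniformiser at `Q i` which is a unit at the other `Q j`. -/
theorem s17nu_exists_param {N : ℕ} (Q : Fin N → Place K F) (i : Fin N) :
    ∃ s : F, s ≠ 0 ∧ (Q i).ord s = 1 ∧ ∀ j, Q j ≠ Q i → (Q j).ord s = 0 := by
  classical
  obtain ⟨π, hπ0, hπ⟩ := s17nu_exists_unif (Q i)
  let T : Finset (Place K F) := Finset.univ.image Q
  let y : {P // P ∈ T} → F := fun P => if P.1 = Q i then π else 1
  obtain ⟨x, hx⟩ := s27adex_approx (fun P : {P // P ∈ T} => P.1) Subtype.val_injective y 2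
  have key : ∀ j, (Q j).ord x = (Q j).ord (y ⟨Q j, Finset.mem_image_of_mem Q (Finset.mem_univ j)⟩) := by
    intro j
    set P : {P // P ∈ T} := ⟨Q j, Finset.mem_image_of_mem Q (Finset.mem_univ j)⟩ with hP
    have hy0 : y P ≠ 0 := by
      show (if P.1 = Q i then π else 1) ≠ 0
      split_ifs
      · exact hπ0
      · exact one_ne_zero
    have hyord : (Q j).ord (y P) ≤ 1 := by
      show (Q j).ord (if P.1 = Q i then π else 1) ≤ 1
      split_ifs with h
      · have h' : Q j = Q i := h
        rw [h', hπ]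
      · rw [Place.ord_one]; norm_num
    rcases eq_or_ne (x - y P) 0 with h0 | h0
    · rw [sub_eq_zero.1 h0]
    · have h2 : 2 ≤ (Q j).ord (x - y P) := by
        have h := hx P
        rw [PlaceAux.adicValuation_eq_exp_neg_ord (Q j) h0, WithZero.exp_le_exp] at h
        have h' : (-(Q j).ord (x - y P)) ≤ -((2 : ℕ) : ℤ) := h
        push_cast at h'
        omega
      have h3 := PlaceAux.ord_add_eq_of_lt (Q j) hy0 h0 (by omega)
      rw [add_sub_cancel] at h3
      exact h3
  have hxi : (Q i).ord x = 1 := by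
    rw [key i]
    show (Q i).ord (if Q i = Q i then π else 1) = 1
    rw [if_pos rfl, hπ]
  refine ⟨x, ?_, hxi, fun j hj => ?_⟩
  · intro h0
    rw [h0, Place.ord_zero] at hxi
    exact zero_ne_one hxi
  · rw [key j]
    show (Q j).ord (if Q j = Q i then π else 1) = 0
    rw [if_neg hj, Place.ord_one]

/-! ### (A): functions vanishing on the centre divisor have values in `𝔪_W · M_W` -/

section A

variable {𝔏 : Type w} [Field 𝔏] [Algebra K 𝔏]

/-- the centre divisor `Σ_i Q i`. -/
def s17nuD {N : ℕ} (Q : Fin N → Place K F) : Divisor K F := ∑ k, Finsupp.single (Q k) (1 : ℤ)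

open Classical in
theorem s17nuD_apply {N : ℕ} (Q : Fin N → Place K F) (P : Place K F) :
    s17nuD Q P = ∑ k, if Q k = P then (1 : ℤ) else 0 := by
  unfold s17nuD
  rw [Finsupp.finsetSum_apply]
  refine Finset.sum_congr rfl fun k _ => ?_
  rw [Finsupp.single_apply]

theorem s17nuD_nonneg {N : ℕ} (Q : Fin N → Place K F) (P : Place K F) : 0 ≤ s17nuD Q P := by
  classical
  rw [s17nuD_apply]
  exact Finset.sum_nonneg fun k _ => by split_ifs <;> norm_num

/-- a product over a nonempty set of elements of `𝔪_W` lies in `𝔪_W`. -/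
theorem s17nu_prod_lt (W : ValuationSubring 𝔏) {ι : Type*} (S : Finset ι) (hS : S.Nonempty)
    (a : ι → 𝔏) (ha : ∀ i ∈ S, W.valuation (a i) < 1) : W.valuation (∏ i ∈ S, a i) < 1 := by
  classical
  obtain ⟨i₀, hi₀⟩ := hS
  rw [← Finset.mul_prod_erase S a hi₀, map_mul]
  have h1 : W.valuation (∏ i ∈ S.erase i₀, a i) ≤ 1 := by
    rw [map_prod]
    exact Finset.prod_le_one' fun i hi => (ha i (Finset.mem_of_mem_erase hi)).le
  calc W.valuation (a i₀) * W.valuation (∏ i ∈ S.erase i₀, a i)
      ≤ W.valuation (a i₀) * 1 := mul_le_mul' le_rfl h1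
    _ = W.valuation (a i₀) := mul_one _
    _ < 1 := ha i₀ hi₀

/-- the value of a uniformiser of the centre lies in `𝔪_W`. -/
theorem s17nu_val_lt (W : ValuationSubring 𝔏) (q : F →ₐ[K] 𝔏) (Q : Place K F)
    (hQ : S27ptIsCentre W q Q) {s : F} (hs : 0 < Q.ord s) : W.valuation (q s) < 1 := by
  have hs0 : s ≠ 0 := by
    rintro rfl
    rw [Place.ord_zero] at hs
    exact lt_irrefl _ hs
  obtain ⟨h1, h2⟩ := (PlaceAux.ord_pos_iff Q hs0).1 hs
  unfold S27ptIsCentre at hQ
  rw [← hQ, ValuationSubring.mem_comap] at h1 h2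
  have h1' : W.valuation (q s) ≤ 1 := (ValuationSubring.valuation_le_one_iff W _).2 h1
  refine lt_of_le_of_ne h1' fun h => h2 ?_
  have h3 : (q : F →+* 𝔏) s⁻¹ = (q s)⁻¹ := map_inv₀ q s
  rw [h3, ← ValuationSubring.valuation_le_one_iff, map_inv₀, h, inv_one]

/-- **(A)**: a function with `div ψ ≥ −A' + D` at the centres (`D = Σ_i Q i` the centre divisor)
has its vector of values in `𝔪_W · M_W(q, A')`. -/
theorem s17nu_val_mem {N : ℕ} (W : ValuationSubring 𝔏) (q : Fin N → F →ₐ[K] 𝔏)
    (Q : Fin N → Place K F) (hQ : ∀ i, S27ptIsCentre W (q i) (Q i)) (A' : Divisor K F)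
    {φ : Fin N → F} (hφ : S27ptIsLatBasis W q A' φ) (ψ : F)
    (hψ' : ψ = 0 ∨ ∀ i, s17nuD Q (Q i) - A' (Q i) ≤ (Q i).ord ψ) :
    ∃ c : Fin N → 𝔏, (∀ j, W.valuation (c j) < 1) ∧ ∀ i, q i ψ = ∑ j, q i (φ j) * c j := by
  classical
  rcases eq_or_ne ψ 0 with rfl | hψ0
  · exact ⟨fun _ => 0, fun _ => by simp, fun i => by simp⟩
  have hψ : ∀ i, s17nuD Q (Q i) - A' (Q i) ≤ (Q i).ord ψ := hψ'.resolve_left hψ0
  choose s hs0 hs1 hsoth using fun i => s17nu_exists_param Q i
  -- the orders of the parameters at the centres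
  have hord : ∀ i k, (Q i).ord (s k) = if Q k = Q i then (1 : ℤ) else 0 := by
    intro i k
    split_ifs with h
    · rw [← h]; exact hs1 k
    · exact hsoth k i (fun h' => h h'.symm)
  have hordnn : ∀ i k, 0 ≤ (Q i).ord (s k) := fun i k => by
    rw [hord]; split_ifs <;> norm_num
  set e : Finset (Fin N) → F := fun t => ∏ i ∈ t, s i with he
  have he0 : ∀ t, e t ≠ 0 := fun t => Finset.prod_ne_zero_iff.2 fun i _ => hs0 i
  set h : F := ψ / e Finset.univ with hh
  have hh0 : h ≠ 0 := div_ne_zero hψ0 (he0 _)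
  have heh : e Finset.univ * h = ψ := by rw [hh, mul_div_cancel₀ _ (he0 _)]
  -- `e t * h ∈ 𝓕`
  have hmem : ∀ t : Finset (Fin N), e t * h ∈ s27ptF W q A' := by
    intro t P i hP
    have hPQ : P = Q i := by
      apply Place.ext
      rw [← hP, hQ i]
    subst hPQ
    have hne : e t * h ≠ 0 := mul_ne_zero (he0 t) hh0
    rw [PlaceAux.adicValuation_eq_exp_neg_ord _ hne, WithZero.exp_le_exp]
    have h1 : (Q i).ord (e t * h) = (Q i).ord (e t) + (Q i).ord h := (Q i).ord_mul (he0 t) hh0
    have h2 : (Q i).ord h = (Q i).ord ψ - (Q i).ord (e Finset.univ) := by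
      have := (Q i).ord_mul (he0 Finset.univ) hh0
      rw [heh] at this
      omega
    have h3 : (Q i).ord (e Finset.univ) = s17nuD Q (Q i) := by
      rw [he, s17nu_ord_prod _ _ _ (fun k _ => hs0 k), s17nuD_apply]
      exact Finset.sum_congr rfl fun k _ => hord i k
    have h4 : 0 ≤ (Q i).ord (e t) := by
      rw [he, s17nu_ord_prod _ _ _ (fun k _ => hs0 k)]
      exact Finset.sum_nonneg fun k _ => hordnn i k
    have h5 := hψ i
    omega
  choose c hcW hc using fun t => hφ.span (e t * h) (hmem t)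
  -- the values of the parameters
  set a : Fin N → 𝔏 := fun i => q i (s i) with ha
  have hav : ∀ i, W.valuation (-a i) < 1 := fun i => by
    rw [Valuation.map_neg]
    exact s17nu_val_lt W (q i) (Q i) (hQ i) (by rw [hs1]; norm_num)
  set κ : Finset (Fin N) → 𝔏 := fun t => ∏ i ∈ Finset.univ \ t, (-a i) with hκ
  have hκv : ∀ t, t ≠ Finset.univ → W.valuation (κ t) < 1 := by
    intro t ht
    refine s17nu_prod_lt W _ ?_ _ fun i _ => hav i
    rw [Finset.nonempty_iff_ne_empty]
    intro h0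
    apply ht
    rw [Finset.sdiff_eq_empty_iff_subset] at h0
    exact Finset.eq_univ_of_forall fun x => h0 (Finset.mem_univ x)
  have hκ1 : κ Finset.univ = 1 := by
    rw [hκ]
    simp
  -- the identity
  have hzero : ∀ j, ∑ t ∈ (Finset.univ : Finset (Fin N)).powerset, κ t * q j (e t * h) = 0 := by
    intro j
    have h1 : ∏ i : Fin N, (q j (s i) + (-a i)) = 0 := by
      refine Finset.prod_eq_zero (Finset.mem_univ j) ?_
      rw [ha]
      ring
    rw [Finset.prod_add] at h1
    have h2 : ∑ t ∈ (Finset.univ : Finset (Fin N)).powerset, κ t * q j (e t * h) =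
        (∑ t ∈ (Finset.univ : Finset (Fin N)).powerset,
          (∏ i ∈ t, q j (s i)) * ∏ i ∈ Finset.univ \ t, (-a i)) * q j h := by
      rw [Finset.sum_mul]
      refine Finset.sum_congr rfl fun t _ => ?_
      rw [map_mul, he, map_prod, hκ]
      ring
    rw [h2, h1, zero_mul]
  refine ⟨fun m => -∑ t ∈ (Finset.univ : Finset (Fin N)).powerset.erase Finset.univ,
    κ t * c t m, fun m => ?_, fun j => ?_⟩
  · rw [Valuation.map_neg]
    refine Valuation.map_sum_lt _ one_ne_zero fun t ht => ?_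
    rw [map_mul]
    have h1 := hκv t (Finset.ne_of_mem_erase ht)
    have h2 : W.valuation (c t m) ≤ 1 := (ValuationSubring.valuation_le_one_iff W _).2 (hcW t m)
    calc W.valuation (κ t) * W.valuation (c t m) ≤ W.valuation (κ t) * 1 :=
          mul_le_mul' le_rfl h2
      _ = W.valuation (κ t) := mul_one _
      _ < 1 := h1
  · have h1 := hzero j
    rw [← Finset.add_sum_erase _ _ (Finset.mem_powerset_self _), hκ1, one_mul, heh] at h1
    have h2 : q j ψ = -∑ t ∈ (Finset.univ : Finset (Fin N)).powerset.erase Finset.univ,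
        κ t * q j (e t * h) := eq_neg_of_add_eq_zero_left h1
    rw [h2]
    have h3 : ∀ t, κ t * q j (e t * h) = ∑ m, q j (φ m) * (κ t * c t m) := by
      intro t
      rw [hc t j, Finset.mul_sum]
      refine Finset.sum_congr rfl fun m _ => ?_
      ring
    simp only [h3]
    rw [Finset.sum_comm, ← Finset.sum_neg_distrib]
    refine Finset.sum_congr rfl fun m _ => ?_
    rw [mul_neg, Finset.mul_sum]

end A

/-! ### (C): `𝓕(A') = L_K(A') + 𝓕(A' − D)` when `L_K(A' − D) = 0` and `ℓ(A') = deg D` -/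

section C

variable {𝔏 : Type w} [Field 𝔏] [Algebra K 𝔏]

theorem s17nuD_degree [HasPrincipalDivisors K F]
    (hres : ∀ v : Place K F, Function.Bijective (algebraMap K v.ResidueField))
    {N : ℕ} (Q : Fin N → Place K F) : Divisor.degree (s17nuD Q) = (N : ℤ) := by
  unfold s17nuD
  rw [map_sum]
  have h1 : ∀ k : Fin N, Divisor.degree (Finsupp.single (Q k) (1 : ℤ)) = 1 := fun k => by
    rw [Divisor.degree_single, s26gspc_deg_eq_one (Q k) (hres (Q k)).2]
    norm_num
  rw [Finset.sum_congr rfl fun k _ => h1 k]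
  simp

/-- **(C)**: the decomposition. -/
theorem s17nu_decomp [HasPrincipalDivisors K F]
    (hres : ∀ v : Place K F, Function.Bijective (algebraMap K v.ResidueField))
    (hfin : ∀ D : Divisor K F, Module.Finite K ↥(riemannRochSpace D))
    {N : ℕ} (W : ValuationSubring 𝔏) (q : Fin N → F →ₐ[K] 𝔏)
    (Q : Fin N → Place K F) (hQ : ∀ i, S27ptIsCentre W (q i) (Q i)) (A' : Divisor K F)
    (f : Module.Basis (Fin N) K ↥(riemannRochSpace A'))
    (hnsp : ∀ ψ ∈ riemannRochSpace A', (∀ i, s17nuD Q (Q i) - A' (Q i) ≤ (Q i).ord ψ) → ψ = 0)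
    (ψ : F) (hψ : ψ ∈ s27ptF W q A') :
    ∃ (b : Fin N → K) (ρ : F), ψ = ∑ l, b l • ((f l : ↥(riemannRochSpace A')) : F) + ρ ∧
      (ρ = 0 ∨ ∀ i, s17nuD Q (Q i) - A' (Q i) ≤ (Q i).ord ρ) := by
  classical
  rcases eq_or_ne ψ 0 with rfl | hψ0
  · exact ⟨fun _ => 0, 0, by simp, Or.inl rfl⟩
  obtain ⟨Dψ, hDψ, -⟩ := HasPrincipalDivisors.exists_divisor (K := K) ψ hψ0
  let G : Divisor K F := Finsupp.onFinset (A'.support ∪ Dψ.support)
    (fun v => if ∃ i, Q i = v then 0 else max 0 (-A' v - Dψ v)) (by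
      intro v hv
      by_contra hmem
      rw [Finset.mem_union, not_or, Finsupp.mem_support_iff, Finsupp.mem_support_iff,
        not_not, not_not] at hmem
      apply hv
      split_ifs
      · rfl
      · rw [hmem.1, hmem.2]; simp)
  have hGapp : ∀ v, G v = if ∃ i, Q i = v then 0 else max 0 (-A' v - Dψ v) := fun v => rfl
  have hGQ : ∀ i, G (Q i) = 0 := fun i => by
    rw [hGapp, if_pos ⟨i, rfl⟩]
  have hG0 : 0 ≤ G := by
    rw [Finsupp.le_def]
    intro v
    rw [hGapp]
    split_ifs
    · exact le_rfl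
    · exact le_max_left _ _
  have hD0 : 0 ≤ s17nuD Q := by
    rw [Finsupp.le_def]
    intro v
    exact s17nuD_nonneg Q v
  -- `ψ ∈ L(A' + G)`
  have hψG : ψ ∈ riemannRochSpace (A' + G) := by
    rw [mem_riemannRochSpace_iff]
    intro v
    right
    rw [Finsupp.add_apply, hGapp]
    split_ifs with hc
    · obtain ⟨i, rfl⟩ := hc
      have h1 := (Place.adicValuation_le_exp_iff (Q i)).1 (hψ (Q i) i (hQ i))
      have h2 := h1.resolve_left hψ0
      omega
    · have h1 := le_max_right 0 (-A' v - Dψ v)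
      have h2 := le_max_left 0 (-A' v - Dψ v)
      rw [hDψ v] at h1 ⊢
      rcases le_total 0 (-A' v - v.ord ψ) with h3 | h3
      · rw [max_eq_right h3]; omega
      · rw [max_eq_left h3]; omega
  haveI := hfin A'
  haveI := hfin (A' + G - s17nuD Q)
  haveI := hfin (A' + G)
  have hle1 : riemannRochSpace A' ≤ riemannRochSpace (A' + G) :=
    rr_mono (le_add_of_nonneg_right hG0)
  have hAB : A' + G - s17nuD Q ≤ A' + G := sub_le_self _ hD0
  have hle2 : riemannRochSpace (A' + G - s17nuD Q) ≤ riemannRochSpace (A' + G) := rr_mono hAB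
  have hbound : ∀ x ∈ riemannRochSpace (A' + G - s17nuD Q), x ≠ 0 →
      ∀ i, s17nuD Q (Q i) - A' (Q i) ≤ (Q i).ord x := by
    intro x hx hx0 i
    rw [mem_riemannRochSpace_iff] at hx
    have h1 := (hx (Q i)).resolve_left hx0
    rw [Finsupp.sub_apply, Finsupp.add_apply, hGQ i] at h1
    omega
  have hinf : riemannRochSpace A' ⊓ riemannRochSpace (A' + G - s17nuD Q) = ⊥ := by
    rw [eq_bot_iff]
    rintro x ⟨h1, h2⟩
    rw [Submodule.mem_bot]
    by_contra hx0
    exact hx0 (hnsp x h1 (hbound x h2 hx0))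
  have h1 := Submodule.finrank_sup_add_finrank_inf_eq (riemannRochSpace A')
    (riemannRochSpace (A' + G - s17nuD Q))
  rw [hinf, finrank_bot, add_zero] at h1
  have h2 : finrank K ↥(riemannRochSpace A') = N := by
    rw [Module.finrank_eq_card_basis f, Fintype.card_fin]
  have h3 := rr_finrank_le hres hAB
  have h4 : Divisor.degree (A' + G) - Divisor.degree (A' + G - s17nuD Q) = (N : ℤ) := by
    rw [map_sub, s17nuD_degree hres Q]
    ring
  rw [h4] at h3
  have hsup : riemannRochSpace A' ⊔ riemannRochSpace (A' + G - s17nuD Q) =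
      riemannRochSpace (A' + G) := by
    refine Submodule.eq_of_le_of_finrank_le (sup_le hle1 hle2) ?_
    rw [h1, h2]
    have : (finrank K ↥(riemannRochSpace (A' + G)) : ℤ) ≤
        ((N + finrank K ↥(riemannRochSpace (A' + G - s17nuD Q)) : ℕ) : ℤ) := by
      push_cast
      linarith
    exact_mod_cast this
  rw [← hsup, Submodule.mem_sup] at hψG
  obtain ⟨v₁, hv₁, v₂, hv₂, hsum⟩ := hψG
  refine ⟨fun l => f.repr ⟨v₁, hv₁⟩ l, v₂, ?_, ?_⟩
  · rw [← hsum]
    congr 1
    have h5 : ((∑ i, (f.repr ⟨v₁, hv₁⟩) i • f i : ↥(riemannRochSpace A')) : F) = v₁ :=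
      congrArg (Subtype.val) (f.sum_repr ⟨v₁, hv₁⟩)
    rw [Submodule.coe_sum] at h5
    simp only [Submodule.coe_smul] at h5
    exact h5.symm
  · by_cases hv0 : v₂ = 0
    · exact Or.inl hv0
    · exact Or.inr (hbound v₂ hv₂ hv0)

end C

/-! ### (U1): `L_K(A' − D) = 0` ⇒ the local equations are units -/

section U

variable {𝔏 : Type w} [Field 𝔏] [Algebra K 𝔏]

/-- a matrix which is `≡ 1 mod 𝔪_W` has a unit determinant. -/
theorem s17nu_det_unit (W : ValuationSubring 𝔏) {N : ℕ} (M : Matrix (Fin N) (Fin N) 𝔏)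
    (hM : ∀ i j, W.valuation (M i j - (1 : Matrix (Fin N) (Fin N) 𝔏) i j) < 1) :
    M.det ≠ 0 ∧ M.det ∈ W ∧ (M.det)⁻¹ ∈ W := by
  classical
  have h1mem : ∀ i j, (1 : Matrix (Fin N) (Fin N) 𝔏) i j ∈ W := fun i j => by
    rw [Matrix.one_apply]
    split_ifs
    · exact W.one_mem
    · exact W.zero_mem
  have hdiff : ∀ i j, M i j - (1 : Matrix (Fin N) (Fin N) 𝔏) i j ∈ W := fun i j =>
    (ValuationSubring.valuation_le_one_iff W _).1 (hM i j).le
  have hmem : ∀ i j, M i j ∈ W := fun i j => by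
    have := W.add_mem _ _ (hdiff i j) (h1mem i j)
    rwa [sub_add_cancel] at this
  let M' : Matrix (Fin N) (Fin N) W := fun i j => ⟨M i j, hmem i j⟩
  have hres : M'.map (IsLocalRing.residue W) = 1 := by
    ext i j
    rw [Matrix.map_apply]
    have h2 : M' i j - (1 : Matrix (Fin N) (Fin N) W) i j ∈ IsLocalRing.maximalIdeal W := by
      rw [ValuationSubring.valuation_lt_one_iff]
      have h3 : ((M' i j - (1 : Matrix (Fin N) (Fin N) W) i j : W) : 𝔏) =
          M i j - (1 : Matrix (Fin N) (Fin N) 𝔏) i j := by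
        rw [Matrix.one_apply, Matrix.one_apply]
        split_ifs <;> simp [M']
      rw [h3]
      exact hM i j
    have h4 := (IsLocalRing.residue_eq_zero_iff _).2 h2
    rw [map_sub, sub_eq_zero] at h4
    rw [h4, Matrix.one_apply, Matrix.one_apply]
    split_ifs <;> simp
  have hdet : IsLocalRing.residue W M'.det = 1 := by
    rw [RingHom.map_det, RingHom.mapMatrix_apply, hres, Matrix.det_one]
  have hunit : IsUnit M'.det := by
    by_contra hnu
    have : M'.det ∈ IsLocalRing.maximalIdeal W := (IsLocalRing.mem_maximalIdeal _).2 hnu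
    rw [← IsLocalRing.residue_eq_zero_iff, hdet] at this
    exact one_ne_zero this
  have hcoe : (M'.det : 𝔏) = M.det := by
    have := RingHom.map_det W.subtype M'
    rw [RingHom.mapMatrix_apply] at this
    have hm : M'.map W.subtype = M := by
      ext i j
      rfl
    rw [hm] at this
    exact this
  obtain ⟨u, hu⟩ := hunit
  have hmul : (M'.det : 𝔏) * ((u⁻¹ : Wˣ) : W) = 1 := by
    rw [← hu]
    exact_mod_cast congrArg Subtype.val u.mul_inv
  rw [hcoe] at hmul
  have hne : M.det ≠ 0 := fun h0 => by rw [h0, zero_mul] at hmul; exact zero_ne_one hmul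
  refine ⟨hne, hcoe ▸ (M'.det).2, ?_⟩
  rw [← eq_inv_of_mul_eq_one_right hmul]
  exact Subtype.mem _

/-- **(U1), valuative core.**  If `L_K(A' − D) = 0`, `D = Σ_i Q i` the centre divisor of the
points `q i` along `W` (and `ℓ(A') = N`, the number of points), then EVERY local equation of the
theta divisor of `A'` at `Σ q i` along `W` is a UNIT of `W`. -/
theorem s17nu_unit [HasPrincipalDivisors K F]
    (hres : ∀ v : Place K F, Function.Bijective (algebraMap K v.ResidueField))
    (hfin : ∀ D : Divisor K F, Module.Finite K ↥(riemannRochSpace D))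
    {N : ℕ} (W : ValuationSubring 𝔏) (hKW : ∀ a : K, algebraMap K 𝔏 a ∈ W)
    (q : Fin N → F →ₐ[K] 𝔏)
    (Q : Fin N → Place K F) (hQ : ∀ i, S27ptIsCentre W (q i) (Q i)) (A' : Divisor K F)
    (hnsp : ∀ ψ ∈ riemannRochSpace A', (∀ i, s17nuD Q (Q i) - A' (Q i) ≤ (Q i).ord ψ) → ψ = 0)
    (x : 𝔏) (hx : S27ptIsIdx W q A' x) : x ≠ 0 ∧ x ∈ W ∧ x⁻¹ ∈ W := by
  classical
  obtain ⟨f, φ, hφ, rfl⟩ := hx
  obtain ⟨C, hC, hval⟩ := s27pt_exists_coeff hφ (fun l => ((f l : ↥(riemannRochSpace A')) : F))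
    (fun l => s27pt_rr_le W q A' (f l).2)
  choose b ρ hdec hρ using fun j =>
    s17nu_decomp hres hfin W q Q hQ A' f hnsp (φ j) (hφ.mem j)
  choose c hcv hc using fun j => s17nu_val_mem W q Q hQ A' hφ (ρ j) (hρ j)
  set B : Matrix (Fin N) (Fin N) 𝔏 := Matrix.of fun l j => algebraMap K 𝔏 (b j l) with hB
  set C' : Matrix (Fin N) (Fin N) 𝔏 := Matrix.of fun m j => c j m with hC'
  have hkey : s27ptVal q φ * (C * B + C') = s27ptVal q φ * 1 := by
    rw [mul_one, mul_add, ← mul_assoc, ← hval]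
    ext i j
    rw [Matrix.add_apply, Matrix.mul_apply, Matrix.mul_apply, s27ptVal_apply]
    have e1 : ∑ m, s27ptVal q φ i m * C' m j = q i (ρ j) := (hc j i).symm
    have e2 : ∑ l, s27ptVal q (fun l => ((f l : ↥(riemannRochSpace A')) : F)) i l * B l j =
        q i (∑ l, b j l • ((f l : ↥(riemannRochSpace A')) : F)) := by
      rw [map_sum]
      refine Finset.sum_congr rfl fun l _ => ?_
      rw [s27ptVal_apply, hB, Matrix.of_apply, map_smul, Algebra.smul_def, mul_comm]
    rw [e1, e2, ← map_add, ← hdec j]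
  have hΦ : IsUnit (s27ptVal q φ) :=
    (Matrix.isUnit_iff_isUnit_det _).2 (IsUnit.mk0 _ hφ.det_ne)
  have hone : C * B + C' = 1 := hΦ.mul_left_cancel hkey
  have hCB : C * B = 1 - C' := eq_sub_of_add_eq hone
  obtain ⟨hu0, huW, huinv⟩ := s17nu_det_unit W (1 - C') (fun i j => by
    rw [Matrix.sub_apply, sub_sub_cancel_left, Valuation.map_neg, hC', Matrix.of_apply]
    exact hcv j i)
  rw [← hCB, Matrix.det_mul] at hu0 huW huinv
  have hBW : B.det ∈ W := s27pt_det_mem B fun l j => by
    rw [hB, Matrix.of_apply]; exact hKW _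
  have hCW : C.det ∈ W := s27pt_det_mem C hC
  have hC0 : C.det ≠ 0 := left_ne_zero_of_mul hu0
  have hxC : (s27ptValB q f).det / (s27ptVal q φ).det = C.det := by
    unfold s27ptValB
    rw [hval, Matrix.det_mul, mul_comm, mul_div_assoc, div_self hφ.det_ne, mul_one]
  rw [hxC]
  refine ⟨hC0, hCW, ?_⟩
  have h1 : (C.det)⁻¹ = B.det * (C.det * B.det)⁻¹ := by
    rw [mul_inv, mul_comm (C.det)⁻¹, ← mul_assoc, mul_inv_cancel₀ (right_ne_zero_of_mul hu0),
      one_mul]
  rw [h1]
  exact W.mul_mem _ _ hBW huinv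

end U

end Fermat.Agent.S17
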