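/-
S17 sprint, layer H, leaf **PlN / N5 (hnorth)** (helper37): NORTHCOTT for the ABSOLUTE height of
the Chow forms that are rational over a fixed number field `E ⊂ ℚ̄`
(the input `hnorth` of `s17nas_plN_of_pl`, S17/NorthAsm.lean, in the frame of helper74's plan).

`Kb = AlgebraicClosure ℚ`, `X := Kb[X]`:
* `s17naHt g d`        : the absolute logarithmic height of the coefficient vector
                         `(d.coeff 0, …, d.coeff g)` (`s17haAbsQ (s17cnCoeff g d)`);
* `S17naRat E g d`     : `∃ q : E[X], q.Monic ∧ q.natDegree ≤ g ∧ q.map (algebraMap E Kb) = d`;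
* `s17na_ht_map`       : `s17naHt g (q.map _) = logHeight (s17cnCoeff g q) / [E : ℚ]`;
* `s17na_ht_nonneg`;
* **`s17na_northcott`** : `{d | S17naRat E g d ∧ s17naHt g d ≤ B}` is finite;
* `s17na_rat_mono`     : `E ≤ E'` ⇒ `S17naRat E g d → S17naRat E' g d`.
-/
import Fermat.Agent.S17.ChowNorth
import Fermat.Agent.S17.HtAbsBasic

set_option autoImplicit false
set_option linter.unusedSectionVars false
set_option linter.style.haveILetI false

noncomputable section

namespace Fermat.Agent.S17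

open Polynomial Height NumberField

/-- the absolute logarithmic height of a polynomial over `ℚ̄`, as a point
`(d.coeff 0 : … : d.coeff g)`. -/
def s17naHt (g : ℕ) (d : (AlgebraicClosure ℚ)[X]) : ℝ :=
  s17haAbsQ (s17cnCoeff g d)

theorem s17na_ht_nonneg (g : ℕ) (d : (AlgebraicClosure ℚ)[X]) : 0 ≤ s17naHt g d :=
  s17haAbsQ_nonneg _

/-- `d` is (the image of) a monic polynomial of degree `≤ g` over `E`. -/
def S17naRat (E : IntermediateField ℚ (AlgebraicClosure ℚ)) (g : ℕ)
    (d : (AlgebraicClosure ℚ)[X]) : Prop :=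
  ∃ q : (↥E)[X], q.Monic ∧ q.natDegree ≤ g ∧ q.map (algebraMap ↥E (AlgebraicClosure ℚ)) = d

theorem s17na_rat_mono {E E' : IntermediateField ℚ (AlgebraicClosure ℚ)} (h : E ≤ E') (g : ℕ)
    {d : (AlgebraicClosure ℚ)[X]} (hd : S17naRat E g d) : S17naRat E' g d := by
  obtain ⟨q, hm, hdeg, rfl⟩ := hd
  refine ⟨q.map (IntermediateField.inclusion h).toRingHom, hm.map _, ?_, ?_⟩
  · exact (natDegree_map_le).trans hdeg
  · rw [Polynomial.map_map]
    rfl

section nf

variable (E : IntermediateField ℚ (AlgebraicClosure ℚ)) [NumberField ↥E]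

/-- the absolute height of an `E`-rational polynomial is its normalised height over `E`. -/
theorem s17na_ht_map (g : ℕ) (q : (↥E)[X]) :
    s17naHt g (q.map (algebraMap ↥E (AlgebraicClosure ℚ))) =
      logHeight (s17cnCoeff g q) / (Module.finrank ℚ ↥E : ℝ) := by
  rw [s17naHt]
  exact s17haAbsQ_eq (↥E) (algebraMap ↥E (AlgebraicClosure ℚ)) (s17cnCoeff g q) _
    (fun j => by simp [s17cnCoeff, coeff_map])

/-- **NORTHCOTT for the absolute height of `E`-rational Chow forms.** -/
theorem s17na_northcott (g : ℕ) (B : ℝ) :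
    {d : (AlgebraicClosure ℚ)[X] | S17naRat E g d ∧ s17naHt g d ≤ B}.Finite := by
  have hfin := s17cn_northcott_poly_le (K₀ := ↥E) g
    (Real.exp (B * (Module.finrank ℚ ↥E : ℝ)))
  refine (hfin.image (Polynomial.map (algebraMap ↥E (AlgebraicClosure ℚ)))).subset ?_
  rintro d ⟨⟨q, hm, hdeg, rfl⟩, hB⟩
  refine ⟨q, ⟨hm, hdeg, ?_⟩, rfl⟩
  rw [s17na_ht_map E g q] at hB
  have hpos : (0 : ℝ) < (Module.finrank ℚ ↥E : ℝ) := by
    exact_mod_cast (Module.finrank_pos : 0 < Module.finrank ℚ ↥E)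
  have h1 : logHeight (s17cnCoeff g q) ≤ B * (Module.finrank ℚ ↥E : ℝ) :=
    (div_le_iff₀ hpos).1 hB
  rw [logHeight_eq_log_mulHeight] at h1
  exact (Real.log_le_iff_le_exp (mulHeight_pos _)).1 h1

end nf

end Fermat.Agent.S17
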