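/-
S17 sprint, layer H — **A-N ASSEMBLY** (helper17): NORTHCOTT for the infimum height of design A v2
by TRANSLATES + UNIQUE DIVISOR, with NO well-definedness of place-values and NO Galois-stable
places (paper proofs: helper61, helper74, helper32, helper10, helper97, 06:45Z–06:58Z 09-28).

Abstract frame: `J` an additive group, `G ≤ J` (the rational classes), `P` the places with the class
of the centre `cl : P → J` and the height `H : P → ℝ` of the place-value; `X` the Chow forms with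
their (absolute) height `hX`; `IsDiv d y` : "`d` is the Chow form of an effective divisor of the
class `y`"; `Rat d` : "`d` has coefficients in the number field `E`"; `pool` : the finite
translation pool; `Good p` : "the local equation of `Θ⁻` is a unit at `p`".

* `s17nas_main`       : the assembly from (MOVT) + (U) + (RAT) + (NORTH) + (FIB);
* `s17nas_movT_of_cl` : (MOVT) from a CLASS-level pool (helper10's POOL) and the place form (T);
* `s17nas_movT_of_pl` : (MOVT) from a PLACE-level cover (helper74's spanning subfamily) and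
                        translation maps of places;
* `s17nas_of_cl`, `s17nas_of_pl` : the two assembled forms;
* `s17nas_plN_of_cl`, `s17nas_plN_of_pl` : the same for `J = JZero N`, with conclusion
                        `S17hxPlN cl H` (the target A-N of `S17/HTop.lean`).
-/
import Fermat.Agent.S17.HTop

set_option autoImplicit false
set_option linter.style.haveILetI false

namespace Fermat.Agent.S17

open ModularCurve AlgebraicCurve

section Abstract

variable {J : Type*} [AddCommGroup J] (G : AddSubgroup J) {P : Type*} (cl : P → J) (H : P → ℝ)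
  {X : Type*} (hX : X → ℝ) (Good : P → Prop) (IsDiv : X → J → Prop) (Rat : X → Prop)
  (pool : Finset J)

/-- **A-N assembly.**
(MOVT) every place over a rational class has a translate by a pool element which is GOOD and whose
height is at most `2 H p + c`; (U) at a good place the Chow form of the centre divisor has height
`≤ H p + C`; (RAT) over a rational class translated by a pool element the Chow form at a good place
is rational over `E`; (NORTH) Northcott for the rational Chow forms; (FIB) a Chow form belongs to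
finitely many classes. Then finitely many rational classes are centres of places of height `≤ B`. -/
theorem s17nas_main
    (hmovT : ∃ c : ℝ, ∀ (x : G) (p : P), cl p = (x : J) →
      ∃ γ ∈ pool, ∃ p₁ : P, cl p₁ = (x : J) + γ ∧ Good p₁ ∧ H p₁ ≤ 2 * H p + c)
    (hU : ∃ C : ℝ, ∀ p : P, Good p → ∃ d : X, IsDiv d (cl p) ∧ hX d ≤ H p + C ∧
      ∀ (x : G), ∀ γ ∈ pool, cl p = (x : J) + γ → Rat d)
    (hnorth : ∀ B : ℝ, {d : X | Rat d ∧ hX d ≤ B}.Finite)
    (hfib : ∀ d : X, {y : J | IsDiv d y}.Finite)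
    (B : ℝ) : {x : G | ∃ p : P, cl p = (x : J) ∧ H p ≤ B}.Finite := by
  obtain ⟨c, hc⟩ := hmovT
  obtain ⟨C, hC⟩ := hU
  -- the finite set of rational Chow forms of bounded height
  have hD : {d : X | Rat d ∧ hX d ≤ 2 * B + c + C}.Finite := hnorth _
  -- the finite set of classes carrying one of them
  have hY : (⋃ d ∈ {d : X | Rat d ∧ hX d ≤ 2 * B + c + C}, {y : J | IsDiv d y}).Finite :=
    hD.biUnion fun d _ => hfib d
  -- the finite set of their translates by the pool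
  have hZ : (⋃ γ ∈ (pool : Set J),
      (fun y : J => y - γ) '' (⋃ d ∈ {d : X | Rat d ∧ hX d ≤ 2 * B + c + C},
        {y : J | IsDiv d y})).Finite :=
    pool.finite_toSet.biUnion fun γ _ => hY.image _
  refine Set.Finite.of_finite_image (f := fun x : G => (x : J)) (hZ.subset ?_)
    (Subtype.val_injective.injOn)
  rintro _ ⟨x, ⟨p, hp, hB⟩, rfl⟩
  obtain ⟨γ, hγ, p₁, hp₁, hgood, hH₁⟩ := hc x p hp
  obtain ⟨d, hd, hdX, hrat⟩ := hC p₁ hgood
  simp only [Set.mem_iUnion, Set.mem_image, Set.mem_setOf_eq, Finset.mem_coe, exists_prop]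
  refine ⟨γ, hγ, (x : J) + γ, ⟨d, ⟨hrat x γ hγ hp₁, by linarith⟩, ?_⟩, by abel⟩
  rw [← hp₁]
  exact hd

/-- (MOVT) from a CLASS-level pool and the place form of (T). -/
theorem s17nas_movT_of_cl (GoodCl : J → Prop)
    (hpool : ∀ x : G, ∃ γ ∈ pool, GoodCl ((x : J) + γ))
    (hT : ∀ g : J, ∃ c : ℝ, ∀ p : P, ∃ p₁ : P, g + cl p₁ = cl p ∧ H p₁ ≤ 2 * H p + c) :
    ∃ c : ℝ, ∀ (x : G) (p : P), cl p = (x : J) →
      ∃ γ ∈ pool, ∃ p₁ : P, cl p₁ = (x : J) + γ ∧ GoodCl (cl p₁) ∧ H p₁ ≤ 2 * H p + c := by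
  choose cT hcT using hT
  obtain ⟨M, hM⟩ := (pool.finite_toSet.image fun γ => cT (-γ)).bddAbove
  refine ⟨M, fun x p hp => ?_⟩
  obtain ⟨γ, hγ, hgood⟩ := hpool x
  obtain ⟨p₁, h1, h2⟩ := hcT (-γ) p
  have h3 : cl p₁ = (x : J) + γ := by
    rw [← hp, ← h1]
    abel
  have h4 : cT (-γ) ≤ M := hM ⟨γ, hγ, rfl⟩
  exact ⟨γ, hγ, p₁, h3, by rw [h3]; exact hgood, by linarith⟩

/-- (MOVT) from a PLACE-level cover and translation maps of places. -/
theorem s17nas_movT_of_pl (tr : J → P → P)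
    (htr_cl : ∀ γ ∈ pool, ∀ p : P, cl (tr γ p) = cl p + γ)
    (htr_H : ∀ γ ∈ pool, ∃ c : ℝ, ∀ p : P, H (tr γ p) ≤ 2 * H p + c)
    (hmov : ∀ p : P, ∃ γ ∈ pool, Good (tr γ p)) :
    ∃ c : ℝ, ∀ (x : G) (p : P), cl p = (x : J) →
      ∃ γ ∈ pool, ∃ p₁ : P, cl p₁ = (x : J) + γ ∧ Good p₁ ∧ H p₁ ≤ 2 * H p + c := by
  classical
  have hex : ∀ γ : J, ∃ c : ℝ, γ ∈ pool → ∀ p : P, H (tr γ p) ≤ 2 * H p + c := by
    intro γ
    by_cases hγ : γ ∈ pool
    · obtain ⟨c, hc⟩ := htr_H γ hγ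
      exact ⟨c, fun _ => hc⟩
    · exact ⟨0, fun h => absurd h hγ⟩
  choose cT hcT using hex
  obtain ⟨M, hM⟩ := (pool.finite_toSet.image cT).bddAbove
  refine ⟨M, fun x p hp => ?_⟩
  obtain ⟨γ, hγ, hgood⟩ := hmov p
  have h4 : cT γ ≤ M := hM ⟨γ, hγ, rfl⟩
  have h5 := hcT γ hγ p
  exact ⟨γ, hγ, tr γ p, by rw [htr_cl γ hγ p, hp], hgood, by linarith⟩

/-- **A-N from a class-level pool** (helper10's POOL + (T) + (U) + (RAT) + (NORTH) + (FIB)). -/
theorem s17nas_of_cl (GoodCl : J → Prop)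
    (hpool : ∀ x : G, ∃ γ ∈ pool, GoodCl ((x : J) + γ))
    (hT : ∀ g : J, ∃ c : ℝ, ∀ p : P, ∃ p₁ : P, g + cl p₁ = cl p ∧ H p₁ ≤ 2 * H p + c)
    (hU : ∃ C : ℝ, ∀ p : P, GoodCl (cl p) → ∃ d : X, IsDiv d (cl p) ∧ hX d ≤ H p + C ∧
      ∀ (x : G), ∀ γ ∈ pool, cl p = (x : J) + γ → Rat d)
    (hnorth : ∀ B : ℝ, {d : X | Rat d ∧ hX d ≤ B}.Finite)
    (hfib : ∀ d : X, {y : J | IsDiv d y}.Finite)
    (B : ℝ) : {x : G | ∃ p : P, cl p = (x : J) ∧ H p ≤ B}.Finite :=
  s17nas_main G cl H hX (fun p => GoodCl (cl p)) IsDiv Rat pool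
    (s17nas_movT_of_cl G cl H pool GoodCl hpool hT) hU hnorth hfib B

/-- **A-N from a place-level cover** (helper74's spanning subfamily + translations of places). -/
theorem s17nas_of_pl (tr : J → P → P)
    (htr_cl : ∀ γ ∈ pool, ∀ p : P, cl (tr γ p) = cl p + γ)
    (htr_H : ∀ γ ∈ pool, ∃ c : ℝ, ∀ p : P, H (tr γ p) ≤ 2 * H p + c)
    (hmov : ∀ p : P, ∃ γ ∈ pool, Good (tr γ p))
    (hU : ∃ C : ℝ, ∀ p : P, Good p → ∃ d : X, IsDiv d (cl p) ∧ hX d ≤ H p + C ∧
      ∀ (x : G), ∀ γ ∈ pool, cl p = (x : J) + γ → Rat d)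
    (hnorth : ∀ B : ℝ, {d : X | Rat d ∧ hX d ≤ B}.Finite)
    (hfib : ∀ d : X, {y : J | IsDiv d y}.Finite)
    (B : ℝ) : {x : G | ∃ p : P, cl p = (x : J) ∧ H p ≤ B}.Finite :=
  s17nas_main G cl H hX Good IsDiv Rat pool
    (s17nas_movT_of_pl G cl H Good pool tr htr_cl htr_H hmov) hU hnorth hfib B

end Abstract

section JZero

variable {N : ℕ} [NeZero N] {P : Type*} (cl : P → JZero N) (H : P → ℝ)
  {X : Type*} (hX : X → ℝ) (IsDiv : X → JZero N → Prop) (Rat : X → Prop)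
  (pool : Finset (JZero N))

/-- **A-N for `J₀(N)`, class-level pool**: the target `S17hxPlN cl H` of `S17/HTop.lean` from
POOL + (T) (`S17hxPlT cl H`) + (U) + (RAT) + (NORTH) + (FIB). -/
theorem s17nas_plN_of_cl (GoodCl : JZero N → Prop)
    (hpool : ∀ x : s17MW N, ∃ γ ∈ pool, GoodCl ((x : JZero N) + γ))
    (hT : S17hxPlT cl H)
    (hU : ∃ C : ℝ, ∀ p : P, GoodCl (cl p) → ∃ d : X, IsDiv d (cl p) ∧ hX d ≤ H p + C ∧
      ∀ (x : s17MW N), ∀ γ ∈ pool, cl p = (x : JZero N) + γ → Rat d)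
    (hnorth : ∀ B : ℝ, {d : X | Rat d ∧ hX d ≤ B}.Finite)
    (hfib : ∀ d : X, {y : JZero N | IsDiv d y}.Finite) : S17hxPlN cl H := fun B =>
  s17nas_of_cl
    (FixedPoints.addSubgroup ((AlgebraicClosure ℚ) ≃ₐ[ℚ] (AlgebraicClosure ℚ)) (JZero N))
    cl H hX IsDiv Rat pool GoodCl hpool hT hU hnorth hfib B

/-- **A-N for `J₀(N)`, place-level cover.** -/
theorem s17nas_plN_of_pl (Good : P → Prop) (tr : JZero N → P → P)
    (htr_cl : ∀ γ ∈ pool, ∀ p : P, cl (tr γ p) = cl p + γ)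
    (htr_H : ∀ γ ∈ pool, ∃ c : ℝ, ∀ p : P, H (tr γ p) ≤ 2 * H p + c)
    (hmov : ∀ p : P, ∃ γ ∈ pool, Good (tr γ p))
    (hU : ∃ C : ℝ, ∀ p : P, Good p → ∃ d : X, IsDiv d (cl p) ∧ hX d ≤ H p + C ∧
      ∀ (x : s17MW N), ∀ γ ∈ pool, cl p = (x : JZero N) + γ → Rat d)
    (hnorth : ∀ B : ℝ, {d : X | Rat d ∧ hX d ≤ B}.Finite)
    (hfib : ∀ d : X, {y : JZero N | IsDiv d y}.Finite) : S17hxPlN cl H := fun B =>
  s17nas_of_pl
    (FixedPoints.addSubgroup ((AlgebraicClosure ℚ) ≃ₐ[ℚ] (AlgebraicClosure ℚ)) (JZero N))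
    cl H hX Good IsDiv Rat pool tr htr_cl htr_H hmov hU hnorth hfib B

end JZero

end Fermat.Agent.S17
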