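/-
S17 sprint, layer H, leaf A-N, FORMAL GLUE (helper94): **Northcott on places from a finite cover
by Chow blocks** (the shape of helper74's / helper31's proof of (N) without (WD), after the
ruling "ONE theta divisor").

`P` = places, `cl : P → J₀(N)(ℚ̄)` the class of the centre, `H : P → ℝ` the height of the
place-value of `s`.  A finite family of blocks `k : ι` (the translates `γ_k`):

* `good p k`           : block `k` is visible at `p` (`Φ_{γ_k} · b^{2N}` is a unit at `p`);
* `hcov`               : every place has a visible block (finite cover: SPAN-BPF / FinGood);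
* `hC k : J → ℝ`       : the Chow height of THE effective divisor of the class `x + γ_k`;
* `hle`                : `good p k → hC k (cl p) ≤ a * H p + C k`   (linear projection, defined at `p`);
* `hfin`               : Northcott for every `hC k` on the rational classes (ChowNorth).

Then `S17hxPlN cl H` (the input (N) of `s17hx_fg_places`, `S17/HTop.lean`).

* `s17ng_plN`          : the statement above;
* `s17ng_plN_val`      : the same with the block values `val k p` in an arbitrary type `Y k`,
                         rational values in `R k`, Northcott on `R k` and finite fibres;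
* `s17ng_plN_rat`      : variant where `hle` is only asked at places with RATIONAL centre.
-/
import Fermat.Agent.S17.HTop

set_option autoImplicit false
set_option linter.unusedVariables false
set_option linter.style.longLine false

namespace Fermat.Agent.S17

open ModularCurve AlgebraicCurve

/-- **Northcott on places**, from a finite cover by blocks with Northcott heights; `hle` is asked
only at the places with rational centre. -/
theorem s17ng_plN_rat {N : ℕ} [NeZero N] {P : Type*} (cl : P → JZero N) (H : P → ℝ)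
    {ι : Type*} [Finite ι] (good : P → ι → Prop)
    (hcov : ∀ p : P, (∃ x : s17MW N, cl p = (x : JZero N)) → ∃ k, good p k)
    (hC : ι → JZero N → ℝ) (a : ℝ) (ha : 0 ≤ a) (C : ι → ℝ)
    (hle : ∀ (p : P) (k : ι), good p k → (∃ x : s17MW N, cl p = (x : JZero N)) →
      hC k (cl p) ≤ a * H p + C k)
    (hfin : ∀ (k : ι) (B : ℝ), {x : s17MW N | hC k (x : JZero N) ≤ B}.Finite) :
    S17hxPlN cl H := by
  intro B
  have hunion : (⋃ k : ι, {x : s17MW N | hC k (x : JZero N) ≤ a * B + C k}).Finite :=
    Set.finite_iUnion fun k => hfin k (a * B + C k)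
  refine hunion.subset ?_
  rintro x ⟨p, hp, hB⟩
  obtain ⟨k, hk⟩ := hcov p ⟨x, hp⟩
  refine Set.mem_iUnion.2 ⟨k, ?_⟩
  have h1 := hle p k hk ⟨x, hp⟩
  rw [hp] at h1
  have h2 : a * H p ≤ a * B := mul_le_mul_of_nonneg_left hB ha
  show hC k (x : JZero N) ≤ a * B + C k
  linarith

/-- **Northcott on places**, from a finite cover by blocks with Northcott heights. -/
theorem s17ng_plN {N : ℕ} [NeZero N] {P : Type*} (cl : P → JZero N) (H : P → ℝ)
    {ι : Type*} [Finite ι] (good : P → ι → Prop) (hcov : ∀ p : P, ∃ k, good p k)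
    (hC : ι → JZero N → ℝ) (a : ℝ) (ha : 0 ≤ a) (C : ι → ℝ)
    (hle : ∀ (p : P) (k : ι), good p k → hC k (cl p) ≤ a * H p + C k)
    (hfin : ∀ (k : ι) (B : ℝ), {x : s17MW N | hC k (x : JZero N) ≤ B}.Finite) :
    S17hxPlN cl H :=
  s17ng_plN_rat cl H good (fun p _ => hcov p) hC a ha C (fun p k hk _ => hle p k hk) hfin

/-- **Northcott on places**, value form: block values `val k p : Y k`, rational values in `R k`
(for places with rational centre), Northcott on `R k`, and finitely many classes for a given block
value. -/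
theorem s17ng_plN_val {N : ℕ} [NeZero N] {P : Type*} (cl : P → JZero N) (H : P → ℝ)
    {ι : Type*} [Finite ι] (good : P → ι → Prop)
    (hcov : ∀ p : P, (∃ x : s17MW N, cl p = (x : JZero N)) → ∃ k, good p k)
    {Y : ι → Type*} (val : ∀ k, P → Y k) (ht : ∀ k, Y k → ℝ) (a : ℝ) (ha : 0 ≤ a) (C : ι → ℝ)
    (hle : ∀ (p : P) (k : ι), good p k → (∃ x : s17MW N, cl p = (x : JZero N)) →
      ht k (val k p) ≤ a * H p + C k)
    (R : ∀ k, Set (Y k))
    (hrat : ∀ (p : P) (k : ι), good p k → (∃ x : s17MW N, cl p = (x : JZero N)) → val k p ∈ R k)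
    (hnorth : ∀ (k : ι) (B : ℝ), {y : Y k | y ∈ R k ∧ ht k y ≤ B}.Finite)
    (hfib : ∀ (k : ι) (y : Y k),
      {x : s17MW N | ∃ p : P, good p k ∧ cl p = (x : JZero N) ∧ val k p = y}.Finite) :
    S17hxPlN cl H := by
  intro B
  have hfinK : ∀ k : ι, (⋃ y ∈ {y : Y k | y ∈ R k ∧ ht k y ≤ a * B + C k},
      {x : s17MW N | ∃ p : P, good p k ∧ cl p = (x : JZero N) ∧ val k p = y}).Finite :=
    fun k => (hnorth k (a * B + C k)).biUnion fun y _ => hfib k y
  have hunion := Set.finite_iUnion hfinK
  refine hunion.subset ?_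
  rintro x ⟨p, hp, hB⟩
  obtain ⟨k, hk⟩ := hcov p ⟨x, hp⟩
  refine Set.mem_iUnion.2 ⟨k, Set.mem_iUnion₂.2 ⟨val k p, ⟨hrat p k hk ⟨x, hp⟩, ?_⟩, p, hk, hp, rfl⟩⟩
  have h1 := hle p k hk ⟨x, hp⟩
  have h2 : a * H p ≤ a * B := mul_le_mul_of_nonneg_left hB ha
  linarith

end Fermat.Agent.S17
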