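/-
S17 sprint, leaf H7a (helper61): **NORTHCOTT ON PROJECTIVE SPACE** (Mathlib only).

Mathlib has the Northcott property for `Height.mulHeight₁` on a number field (elements), and a TODO
for projectivizations.  Here, for every field `K` with admissible absolute values and the Northcott
property for `mulHeight₁` (every number field: `NumberField` instances of Mathlib), `ι` finite:

* `s17np_coord_le`       : `mulHeight₁ (x j) ≤ mulHeight x` if `x i₀ = 1`;
* `s17np_finite_affine`  : `{x : ι → K | x i₀ = 1 ∧ mulHeight x ≤ B}` is finite;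
* `s17np_finite_proj`    : `{x : ℙ(ι → K) | mulHeight x ≤ B}` is finite;
* `s17np_finite_proj_log`: the same for `logHeight`;
* `s17np_finite_image`   : a set of nonzero tuples of bounded height has finitely many classes, in
                           the form used by H7: a map `φ : X → (ι → K)` into nonzero tuples with
                           finite fibres up to scaling (`hfib`) and `mulHeight (φ x) ≤ B` on `S`
                           ⇒ `S` finite.
-/
import Mathlib.NumberTheory.Height.NumberField
import Mathlib.NumberTheory.Height.Northcott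
import Mathlib.NumberTheory.Height.Projectivization

set_option autoImplicit false

namespace Fermat.Agent.S17

open Height

variable {K : Type*} [Field K] [AdmissibleAbsValues K] {ι : Type*} [Finite ι]

/-- a coordinate of a tuple normalised at `i₀` has height at most the height of the tuple. -/
theorem s17np_coord_le (x : ι → K) (i₀ : ι) (h1 : x i₀ = 1) (j : ι) :
    mulHeight₁ (x j) ≤ mulHeight x := by
  have h : (![x j, 1] : Fin 2 → K) = x ∘ ![j, i₀] := by
    funext k
    fin_cases k
    · rfl
    · simp [h1]
  rw [mulHeight₁_eq_mulHeight, h]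
  exact mulHeight_comp_le _ x

variable [Northcott (mulHeight₁ (K := K))]

/-- **Northcott, affine form**: finitely many tuples of bounded height with `x i₀ = 1`. -/
theorem s17np_finite_affine (i₀ : ι) (B : ℝ) :
    {x : ι → K | x i₀ = 1 ∧ mulHeight x ≤ B}.Finite := by
  have hS : {a : K | mulHeight₁ a ≤ B}.Finite := Northcott.finite_le B
  have hpi : {f : ι → K | ∀ i, f i ∈ {a : K | mulHeight₁ a ≤ B}}.Finite :=
    Set.Finite.pi' fun _ => hS
  refine hpi.subset ?_
  rintro x ⟨h1, hB⟩ j
  exact (s17np_coord_le x i₀ h1 j).trans hB

/-- **Northcott on projective space.** -/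
theorem s17np_finite_proj (B : ℝ) :
    {x : Projectivization K (ι → K) | Projectivization.mulHeight x ≤ B}.Finite := by
  classical
  have hU : (⋃ i₀ : ι, (fun x : {x : ι → K // x ≠ 0} => Projectivization.mk K x.1 x.2) ''
      {x | x.1 i₀ = 1 ∧ mulHeight x.1 ≤ B}).Finite := by
    refine Set.finite_iUnion fun i₀ => Set.Finite.image _ ?_
    have := s17np_finite_affine (K := K) (ι := ι) i₀ B
    exact Set.Finite.preimage (Subtype.val_injective.injOn) this
  refine hU.subset ?_
  intro p hp
  induction p using Projectivization.ind with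
  | h v hv =>
    rw [Set.mem_ofPred_eq, Projectivization.mulHeight_mk] at hp
    obtain ⟨i₀, hi₀⟩ : ∃ i₀, v i₀ ≠ 0 := by
      by_contra hcon
      push Not at hcon
      exact hv (funext hcon)
    have hw : (v i₀)⁻¹ • v ≠ 0 := smul_ne_zero (inv_ne_zero hi₀) hv
    refine Set.mem_iUnion.2 ⟨i₀, ⟨⟨(v i₀)⁻¹ • v, hw⟩, ⟨?_, ?_⟩, ?_⟩⟩
    · simp [hi₀]
    · show mulHeight ((v i₀)⁻¹ • v) ≤ B
      rw [mulHeight_smul_eq_mulHeight _ (inv_ne_zero hi₀)]
      exact hp
    · exact (Projectivization.mk_eq_mk_iff' K _ _ hw hv).2 ⟨(v i₀)⁻¹, rfl⟩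

/-- **Northcott on projective space**, logarithmic height. -/
theorem s17np_finite_proj_log (B : ℝ) :
    {x : Projectivization K (ι → K) | Projectivization.logHeight x ≤ B}.Finite := by
  refine (s17np_finite_proj (K := K) (ι := ι) (Real.exp B)).subset ?_
  intro p hp
  rw [Set.mem_ofPred_eq, Projectivization.logHeight_eq_log_mulHeight] at hp
  exact (Real.log_le_iff_le_exp (Projectivization.mulHeight_pos p)).1 hp

/-- **Northcott for a parametrised family**: if `φ : X → (ι → K)` takes nonzero values, has finite
fibres up to scaling and bounded height on `S`, then `S` is finite. -/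
theorem s17np_finite_image {X : Type*} (φ : X → ι → K) (hφ : ∀ x, φ x ≠ 0)
    (hfib : ∀ p : Projectivization K (ι → K),
      {x : X | Projectivization.mk K (φ x) (hφ x) = p}.Finite)
    (S : Set X) (B : ℝ) (hS : ∀ x ∈ S, mulHeight (φ x) ≤ B) : S.Finite := by
  have h1 := s17np_finite_proj (K := K) (ι := ι) B
  have h2 : (⋃ p ∈ {p : Projectivization K (ι → K) | Projectivization.mulHeight p ≤ B},
      {x : X | Projectivization.mk K (φ x) (hφ x) = p}).Finite :=
    Set.Finite.biUnion h1 fun p _ => hfib p
  refine h2.subset fun x hx => ?_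
  refine Set.mem_biUnion (x := Projectivization.mk K (φ x) (hφ x)) ?_ rfl
  rw [Set.mem_ofPred_eq, Projectivization.mulHeight_mk]
  exact hS x hx

/-- the same with the logarithmic height. -/
theorem s17np_finite_image_log {X : Type*} (φ : X → ι → K) (hφ : ∀ x, φ x ≠ 0)
    (hfib : ∀ p : Projectivization K (ι → K),
      {x : X | Projectivization.mk K (φ x) (hφ x) = p}.Finite)
    (S : Set X) (B : ℝ) (hS : ∀ x ∈ S, logHeight (φ x) ≤ B) : S.Finite := by
  refine s17np_finite_image φ hφ hfib S (Real.exp B) fun x hx => ?_
  have h := hS x hx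
  rw [logHeight_eq_log_mulHeight] at h
  exact (Real.log_le_iff_le_exp (mulHeight_pos _)).1 h

/-- instance check: every number field has the hypotheses. -/
example (K : Type*) [Field K] [NumberField K] (n : ℕ) (B : ℝ) :
    {x : Projectivization K (Fin n → K) | Projectivization.mulHeight x ≤ B}.Finite :=
  s17np_finite_proj B

end Fermat.Agent.S17
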