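/-
S17 sprint, layer H, wall A-N (Northcott), formal leaves **N-d** and **N-e** (helper30).

Setting of S17/Bpf.lean (helper11): `K ⊆ 𝔉` fields, `b V` local equations of a divisor `D` along the
valuation subrings `V ⊇ K`, `S17muBpf K b m s` = "`s ⊆ L(m D)` has no common zero".

**N-d (finite list; finite dimension replaces quasi-compactness of the space of valuations).**
* `s17ns_exists_finset`   : a family whose `K`-span is finitely generated has a finite sub-family
                            with the same span;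
* `s17ns_finite_bpf`      : a base-point-free family with finitely generated span contains a FINITE
                            base-point-free sub-family;
* `s17ns_fg_of_finite`    : the span of a family of `L(m D)` is finitely generated as soon as
                            `L(m D)` is finite-dimensional;
* `s17ns_unit_of_mul`     : `p, q ∈ V`, `p q ∈ Vˣ` ⇒ `p ∈ Vˣ`;
* `s17ns_cover`           : SQUARE + pointwise MOVING + finite dimension ⇒ FINITE COVER: a finite
                            set `t` of translation parameters such that for EVERY valuation subring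
                            `V ⊇ K` some `a ∈ t` has `y₊ a V, y₋ a V ∈ Vˣ`;
* `s17ns_cover_of_finite` : the same from `Module.Finite K L(2 D)`.

**N-e (Segre projection).**
* `s17ns_segre_le`, `s17ns_segre_le'` : `H(x) ≤ H(x ⊗ y)` and `H(y) ≤ H(x ⊗ y)` for `x, y ≠ 0`;
* `s17ns_proj_le`         : `H(x ∘ e) ≤ H(x)` for a sub-tuple (coordinate projection);
* `s17ns_segre_proj_le`   : if the Segre tuple `x ⊗ y` is a sub-tuple of `z`, then `H(x) ≤ H(z)`.
-/
import Fermat.Agent.S17.Bpf
import Mathlib.NumberTheory.Height.Basic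

set_option autoImplicit false
set_option linter.unusedVariables false
set_option linter.unusedSectionVars false

noncomputable section

namespace Fermat.Agent.S17

open Fermat.Agent.S27

universe u w x

section Finite

variable {K : Type u} [Field K] {𝔉 : Type w} [Field 𝔉] [Algebra K 𝔉]

/-- a family with finitely generated span has a finite sub-family with the same span. -/
theorem s17ns_exists_finset {A : Type x} (f : A → 𝔉)
    (hfin : (Submodule.span K (Set.range f)).FG) :
    ∃ t : Finset A, Submodule.span K (Set.range f) = Submodule.span K (f '' (t : Set A)) := by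
  classical
  obtain ⟨s', hs', hspan⟩ := (Submodule.fg_span_iff_fg_span_finset_subset (R := K)
    (Set.range f)).1 hfin
  have hch : ∀ z : (s' : Set 𝔉), ∃ a : A, f a = z.1 := fun z => hs' z.2
  choose g hg using hch
  refine ⟨Finset.univ.image g, ?_⟩
  rw [hspan]
  refine le_antisymm ?_ ?_
  · refine Submodule.span_mono ?_
    intro z hz
    refine ⟨g ⟨z, hz⟩, ?_, hg ⟨z, hz⟩⟩
    rw [Finset.coe_image]
    exact ⟨⟨z, hz⟩, by simp, rfl⟩
  · refine Submodule.span_mono ?_
    rintro _ ⟨a, ha, rfl⟩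
    rw [Finset.coe_image] at ha
    obtain ⟨z, -, rfl⟩ := ha
    rw [hg z]
    exact z.2

/-- **N-d**: a base-point-free family with finitely generated span contains a FINITE
base-point-free sub-family. -/
theorem s17ns_finite_bpf {A : Type x} {b : ValuationSubring 𝔉 → 𝔉} {m : ℕ} {f : A → 𝔉}
    (hf : S17muBpf K b m f) (hfin : (Submodule.span K (Set.range f)).FG) :
    ∃ t : Finset A, S17muBpf K b m (fun a : (t : Set A) => f a.1) := by
  obtain ⟨t, ht⟩ := s17ns_exists_finset (K := K) f hfin
  refine ⟨t, s17bp_span hf (fun i => s17bp_mem_LU hf i.1) fun a => ?_⟩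
  have h1 : f a ∈ Submodule.span K (Set.range f) := Submodule.subset_span ⟨a, rfl⟩
  rw [ht] at h1
  have h2 : f '' (t : Set A) = Set.range (fun a : (t : Set A) => f a.1) := by
    ext z
    constructor
    · rintro ⟨a, ha, rfl⟩
      exact ⟨⟨a, ha⟩, rfl⟩
    · rintro ⟨a, rfl⟩
      exact ⟨a.1, a.2, rfl⟩
  rw [h2] at h1
  exact h1

/-- the span of a family of `L(m D)` is finitely generated if `L(m D)` is finite-dimensional. -/
theorem s17ns_fg_of_finite {A : Type x} {b : ValuationSubring 𝔉 → 𝔉} {m : ℕ} {f : A → 𝔉}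
    (hf : ∀ a, f a ∈ s27LU K b m) [Module.Finite K ↥(s27LU K b m)] :
    (Submodule.span K (Set.range f)).FG := by
  have hle : Submodule.span K (Set.range f) ≤ s27LU K b m := by
    rw [Submodule.span_le]
    rintro _ ⟨a, rfl⟩
    exact hf a
  have hN : IsNoetherian K ↥(s27LU K b m) := inferInstance
  have h1 : ((Submodule.span K (Set.range f)).comap (s27LU K b m).subtype).FG :=
    IsNoetherian.noetherian _
  have h2 := h1.map (s27LU K b m).subtype
  rw [Submodule.map_comap_subtype, inf_eq_right.2 hle] at h2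
  exact h2

/-- `p, q ∈ V`, `p q ∈ Vˣ` ⇒ `p ∈ Vˣ`. -/
theorem s17ns_unit_of_mul {V : ValuationSubring 𝔉} {p q : 𝔉} (hp : p ∈ V) (hq : q ∈ V)
    (h : S27IsUnitIn V (p * q)) : S27IsUnitIn V p := by
  obtain ⟨h0, -, h2⟩ := h
  have hp0 : p ≠ 0 := left_ne_zero_of_mul h0
  have hq0 : q ≠ 0 := right_ne_zero_of_mul h0
  refine ⟨hp0, hp, ?_⟩
  have e : p⁻¹ = q * (p * q)⁻¹ := by
    field_simp
  rw [e]
  exact V.mul_mem _ _ hq h2

/-- **FINITE COVER** from the valuative SQUARE, the pointwise MOVING lemma and finite generation of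
the span of the square sections. -/
theorem s17ns_cover {A : Type x} (b : ValuationSubring 𝔉 → 𝔉) (f : A → 𝔉)
    (yp ym : A → ValuationSubring 𝔉 → 𝔉)
    (hmem : ∀ a V, S27IsKValU K V → yp a V ∈ V ∧ ym a V ∈ V)
    (hsq : ∀ a V, S27IsKValU K V → ∃ u : 𝔉, S27IsUnitIn V u ∧
      f a * b V ^ 2 = u * yp a V * ym a V)
    (hmove : ∀ V, S27IsKValU K V → ∃ a, S27IsUnitIn V (yp a V) ∧ S27IsUnitIn V (ym a V))
    (hfin : (Submodule.span K (Set.range f)).FG) :
    ∃ t : Finset A, ∀ V, S27IsKValU K V →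
      ∃ a ∈ t, S27IsUnitIn V (yp a V) ∧ S27IsUnitIn V (ym a V) := by
  have hf : S17muBpf K b 2 f := s17bp_of_square b f yp ym hmem hsq hmove
  obtain ⟨t, ht⟩ := s17ns_finite_bpf hf hfin
  refine ⟨t, fun V hV => ?_⟩
  obtain ⟨-, ⟨a, hat⟩, ha⟩ := ht V hV
  obtain ⟨u, hu, h⟩ := hsq a V hV
  have ha' : S27IsUnitIn V (f a * b V ^ 2) := ha
  rw [h] at ha'
  -- `yp * ym` is a unit
  have hpm : S27IsUnitIn V (yp a V * ym a V) := by
    have h1 : yp a V * ym a V = u⁻¹ * (u * yp a V * ym a V) := by
      have hu0 : u ≠ 0 := hu.1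
      field_simp
    rw [h1]
    exact s17mu_unit_mul (s17mu_unit_inv hu) ha'
  refine ⟨a, hat, s17ns_unit_of_mul (hmem a V hV).1 (hmem a V hV).2 hpm, ?_⟩
  rw [mul_comm] at hpm
  exact s17ns_unit_of_mul (hmem a V hV).2 (hmem a V hV).1 hpm

/-- **FINITE COVER**, from the finite-dimensionality of `L(2 D)`. -/
theorem s17ns_cover_of_finite {A : Type x} (b : ValuationSubring 𝔉 → 𝔉) (f : A → 𝔉)
    (yp ym : A → ValuationSubring 𝔉 → 𝔉)
    (hmem : ∀ a V, S27IsKValU K V → yp a V ∈ V ∧ ym a V ∈ V)
    (hsq : ∀ a V, S27IsKValU K V → ∃ u : 𝔉, S27IsUnitIn V u ∧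
      f a * b V ^ 2 = u * yp a V * ym a V)
    (hmove : ∀ V, S27IsKValU K V → ∃ a, S27IsUnitIn V (yp a V) ∧ S27IsUnitIn V (ym a V))
    [Module.Finite K ↥(s27LU K b 2)] :
    ∃ t : Finset A, ∀ V, S27IsKValU K V →
      ∃ a ∈ t, S27IsUnitIn V (yp a V) ∧ S27IsUnitIn V (ym a V) :=
  s17ns_cover b f yp ym hmem hsq hmove
    (s17ns_fg_of_finite (fun a => s17bp_mem_LU (s17bp_of_square b f yp ym hmem hsq hmove) a))

end Finite

section Segre

open Height

variable {E : Type*} [Field E] [AdmissibleAbsValues E]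

/-- `H(x) ≤ H(x ⊗ y)` for `y ≠ 0`. -/
theorem s17ns_segre_le {ι ι' : Type*} [Finite ι] [Finite ι'] (x : ι → E) {y : ι' → E}
    (hy : y ≠ 0) : mulHeight x ≤ mulHeight (fun a : ι × ι' => x a.1 * y a.2) := by
  by_cases hx : x = 0
  · rw [hx, mulHeight_zero]
    exact one_le_mulHeight _
  · rw [mulHeight_fun_mul_eq hx hy]
    exact le_mul_of_one_le_right (mulHeight_pos x).le (one_le_mulHeight y)

/-- `H(y) ≤ H(x ⊗ y)` for `x ≠ 0`. -/
theorem s17ns_segre_le' {ι ι' : Type*} [Finite ι] [Finite ι'] {x : ι → E} (hx : x ≠ 0)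
    (y : ι' → E) : mulHeight y ≤ mulHeight (fun a : ι × ι' => x a.1 * y a.2) := by
  by_cases hy : y = 0
  · rw [hy, mulHeight_zero]
    exact one_le_mulHeight _
  · rw [mulHeight_fun_mul_eq hx hy]
    exact le_mul_of_one_le_left (mulHeight_pos y).le (one_le_mulHeight x)

/-- `H(x ∘ e) ≤ H(x)`: a coordinate projection does not increase the height. -/
theorem s17ns_proj_le {ι κ : Type*} [Finite ι] [Finite κ] (e : ι → κ) (x : κ → E) :
    mulHeight (fun i => x (e i)) ≤ mulHeight x :=
  mulHeight_comp_le e x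

/-- **N-e**: if the Segre tuple `x ⊗ y` (`y ≠ 0`) is a sub-tuple of `z`, then `H(x) ≤ H(z)`. -/
theorem s17ns_segre_proj_le {ι ι' κ : Type*} [Finite ι] [Finite ι'] [Finite κ]
    (x : ι → E) {y : ι' → E} (hy : y ≠ 0) (z : κ → E) (e : ι × ι' → κ)
    (h : ∀ a : ι × ι', z (e a) = x a.1 * y a.2) : mulHeight x ≤ mulHeight z := by
  refine (s17ns_segre_le x hy).trans ?_
  have h1 : (fun a : ι × ι' => x a.1 * y a.2) = fun a => z (e a) := by
    funext a
    exact (h a).symm
  rw [h1]
  exact s17ns_proj_le e z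

end Segre

end Fermat.Agent.S17

end
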