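/-
S17 sprint, layer H, leaf A-N (formal part; helper70): **the TRANSLATE-SUM height** — Northcott is
needed only on a "good" set of classes (e.g. the non-special ones), Mathlib only.

Setting: `J` an additive commutative group (`J₀(N)(ℚ̄)`), `G ≤ J` (`J₀(N)(ℚ)`), `h : J → ℝ`, `0 ≤ h`,

  (T)  `h x ≤ 2 * h (g + x) + c g`        for all `g, x : J`;
  (M)  `b * h x - C ≤ h (m • x)`          for all `x : J`         (the output of `s17ti_mult`);

`T` a finite nonempty set of translations, `NS ⊆ J` the good classes with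

  (cov)  every `x ∈ G` has a translate `x + t ∈ NS`, `t ∈ T`;
  (N)    for every `t ∈ T` and `B`, only finitely many `x ∈ G` have `x + t ∈ NS` and `h (x + t) ≤ B`.

Then `h′ x := ∑ t ∈ T, h (x + t)` satisfies (T) with `a = 2`, (M) with `b / 4` and Northcott on `G`;
so `8 < b` and weak Mordell–Weil at `m` give `AddGroup.FG G`.

* `s17tsSum`            : the translate-sum height `h′`;
* `s17ts_nonneg`, `s17ts_term_le` : `0 ≤ h′`, every term is `≤ h′`;
* `s17ts_transl`        : (T) for `h′`, constant `#T * c g`;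
* `s17ts_le`            : `h′ x ≤ 2 * #T * h x + ∑ c (-t)`;
* `s17ts_ge`            : `#T / 2 * h y - ∑ c t / 2 ≤ h′ y`;
* `s17ts_mult`          : (M) for `h′` with the factor `b / 4`;
* `s17ts_northcott`     : (cov) + (N) ⇒ Northcott for `h′` on `G`;
* `s17ts_fg`            : the descent.
-/
import Mathlib.GroupTheory.Descent
import Mathlib.Algebra.BigOperators.Group.Finset.Basic
import Mathlib.Algebra.Order.BigOperators.Group.Finset
import Mathlib.Tactic.Linarith
import Mathlib.Tactic.Abel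

set_option autoImplicit false

namespace Fermat.Agent.S17

open Finset

variable {J : Type*} [AddCommGroup J]

/-- the translate-sum height `h′ x = ∑ t ∈ T, h (x + t)`. -/
noncomputable def s17tsSum (T : Finset J) (h : J → ℝ) (x : J) : ℝ := ∑ t ∈ T, h (x + t)

theorem s17ts_nonneg (T : Finset J) {h : J → ℝ} (h0 : ∀ x, 0 ≤ h x) (x : J) :
    0 ≤ s17tsSum T h x :=
  Finset.sum_nonneg fun t _ => h0 (x + t)

/-- every term of the sum is bounded by the sum. -/
theorem s17ts_term_le (T : Finset J) {h : J → ℝ} (h0 : ∀ x, 0 ≤ h x) (x : J) {t : J}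
    (ht : t ∈ T) : h (x + t) ≤ s17tsSum T h x :=
  Finset.single_le_sum (f := fun t => h (x + t)) (fun t _ => h0 (x + t)) ht

/-- (T) for the translate-sum height. -/
theorem s17ts_transl (T : Finset J) {h : J → ℝ} {c : J → ℝ}
    (hT : ∀ g x : J, h x ≤ 2 * h (g + x) + c g) (g x : J) :
    s17tsSum T h x ≤ 2 * s17tsSum T h (g + x) + (T.card : ℝ) * c g := by
  unfold s17tsSum
  have h1 : ∑ t ∈ T, h (x + t) ≤ ∑ t ∈ T, (2 * h (g + x + t) + c g) := by
    refine Finset.sum_le_sum fun t _ => ?_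
    have := hT g (x + t)
    rwa [← add_assoc] at this
  have h2 : ∑ t ∈ T, (2 * h (g + x + t) + c g)
      = 2 * ∑ t ∈ T, h (g + x + t) + (T.card : ℝ) * c g := by
    rw [Finset.sum_add_distrib, ← Finset.mul_sum, Finset.sum_const, nsmul_eq_mul]
  linarith

/-- upper bound of `h′` by `h`. -/
theorem s17ts_le (T : Finset J) {h : J → ℝ} {c : J → ℝ}
    (hT : ∀ g x : J, h x ≤ 2 * h (g + x) + c g) (x : J) :
    s17tsSum T h x ≤ 2 * (T.card : ℝ) * h x + ∑ t ∈ T, c (-t) := by
  unfold s17tsSum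
  have h1 : ∑ t ∈ T, h (x + t) ≤ ∑ t ∈ T, (2 * h x + c (-t)) := by
    refine Finset.sum_le_sum fun t _ => ?_
    have := hT (-t) (x + t)
    have e : -t + (x + t) = x := by abel
    rwa [e] at this
  have h2 : ∑ t ∈ T, (2 * h x + c (-t)) = 2 * (T.card : ℝ) * h x + ∑ t ∈ T, c (-t) := by
    rw [Finset.sum_add_distrib, Finset.sum_const, nsmul_eq_mul]
    ring
  linarith

/-- lower bound of `h′` by `h`. -/
theorem s17ts_ge (T : Finset J) {h : J → ℝ} {c : J → ℝ}
    (hT : ∀ g x : J, h x ≤ 2 * h (g + x) + c g) (y : J) :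
    (T.card : ℝ) / 2 * h y - (∑ t ∈ T, c t) / 2 ≤ s17tsSum T h y := by
  unfold s17tsSum
  have h1 : ∑ t ∈ T, (h y - c t) ≤ ∑ t ∈ T, 2 * h (y + t) := by
    refine Finset.sum_le_sum fun t _ => ?_
    have := hT t y
    rw [add_comm t y] at this
    linarith
  have h2 : ∑ t ∈ T, (h y - c t) = (T.card : ℝ) * h y - ∑ t ∈ T, c t := by
    rw [Finset.sum_sub_distrib, Finset.sum_const, nsmul_eq_mul]
  have h3 : ∑ t ∈ T, 2 * h (y + t) = 2 * ∑ t ∈ T, h (y + t) := by
    rw [Finset.mul_sum]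
  linarith

/-- (M) for the translate-sum height, with the factor `b / 4`. -/
theorem s17ts_mult (T : Finset J) (m : ℕ) {h : J → ℝ} {c : J → ℝ} {b C : ℝ}
    (hb : 0 ≤ b)
    (hT : ∀ g x : J, h x ≤ 2 * h (g + x) + c g)
    (hM : ∀ x : J, b * h x - C ≤ h (m • x)) :
    ∃ C' : ℝ, ∀ x : J, b / 4 * s17tsSum T h x - C' ≤ s17tsSum T h (m • x) := by
  refine ⟨b / 4 * (∑ t ∈ T, c (-t)) + (T.card : ℝ) / 2 * C + (∑ t ∈ T, c t) / 2, fun x => ?_⟩
  have h1 := s17ts_ge T hT (m • x)
  have h2 := s17ts_le T hT x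
  have h3 := hM x
  have hn : (0 : ℝ) ≤ (T.card : ℝ) / 2 := by positivity
  have h4 : (T.card : ℝ) / 2 * (b * h x - C) ≤ (T.card : ℝ) / 2 * h (m • x) :=
    mul_le_mul_of_nonneg_left h3 hn
  have h5 : b / 4 * s17tsSum T h x ≤ b / 4 * (2 * (T.card : ℝ) * h x + ∑ t ∈ T, c (-t)) :=
    mul_le_mul_of_nonneg_left h2 (by positivity)
  have h6 : b / 4 * (2 * (T.card : ℝ) * h x + ∑ t ∈ T, c (-t))
      = (T.card : ℝ) / 2 * (b * h x) + b / 4 * (∑ t ∈ T, c (-t)) := by ring
  have h7 : (T.card : ℝ) / 2 * (b * h x - C)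
      = (T.card : ℝ) / 2 * (b * h x) - (T.card : ℝ) / 2 * C := by ring
  linarith

/-- **Northcott for the translate-sum height** on a subgroup `G`, from Northcott on the good
classes and the covering property. -/
theorem s17ts_northcott (G : AddSubgroup J) (T : Finset J) {h : J → ℝ} (h0 : ∀ x, 0 ≤ h x)
    (NS : Set J) (hcov : ∀ x ∈ G, ∃ t ∈ T, x + t ∈ NS)
    (hN : ∀ t ∈ T, ∀ B : ℝ, {x : G | (x : J) + t ∈ NS ∧ h ((x : J) + t) ≤ B}.Finite)
    (B : ℝ) : {x : G | s17tsSum T h (x : J) ≤ B}.Finite := by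
  have hfin : (⋃ t ∈ T, {x : G | (x : J) + t ∈ NS ∧ h ((x : J) + t) ≤ B}).Finite :=
    Set.Finite.biUnion T.finite_toSet fun t ht => hN t ht B
  refine hfin.subset fun x hx => ?_
  obtain ⟨t, ht, hNS⟩ := hcov (x : J) x.2
  refine Set.mem_iUnion₂.2 ⟨t, ht, hNS, ?_⟩
  exact le_trans (s17ts_term_le T h0 (x : J) ht) hx

/-- **the descent with the translate-sum height**: (T) with `a = 2`, (M) with `8 < b` on `J`,
Northcott only on the good classes, a finite cover by translates, and weak Mordell–Weil at `m`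
⇒ `G` is finitely generated. -/
theorem s17ts_fg (G : AddSubgroup J) (m : ℕ) (h : J → ℝ) (c : J → ℝ) (b C : ℝ)
    (h0 : ∀ x, 0 ≤ h x) (hb : 8 < b)
    (hT : ∀ g x : J, h x ≤ 2 * h (g + x) + c g)
    (hM : ∀ x : J, b * h x - C ≤ h (m • x))
    (T : Finset J) (NS : Set J) (hcov : ∀ x ∈ G, ∃ t ∈ T, x + t ∈ NS)
    (hN : ∀ t ∈ T, ∀ B : ℝ, {x : G | (x : J) + t ∈ NS ∧ h ((x : J) + t) ≤ B}.Finite)
    (hw : (nsmulAddMonoidHom (α := G) m).range.FiniteIndex) :
    AddGroup.FG G := by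
  obtain ⟨C', hC'⟩ := s17ts_mult T m (by linarith) hT hM
  have : Northcott (fun x : G => s17tsSum T h (x : J)) :=
    ⟨fun B => s17ts_northcott G T h0 NS hcov hN B⟩
  refine AddCommGroup.fg_of_descent (h := fun x : G => s17tsSum T h (x : J)) (a := 2)
    (b := b / 4) (c₀ := C') (c := fun g : G => (T.card : ℝ) * c (g : J)) (by norm_num)
    (by linarith) hw (fun g x => ?_) (fun x => ?_)
  · have := s17ts_transl T hT (g : J) (x : J)
    simpa using this
  · have := hC' (x : J)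
    simpa using this

end Fermat.Agent.S17
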