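/-
S17 sprint, layer H, sub-integrator PlM (helper11), sub-leaf **PlM-CPOS** (helper29):
positivity of the uniform exponent `c = ∏_{0 < |k| < n} e k` for the exponents `e k = s27nmE 𝔉 (Φ' k)`
of NORM (degrees of minimal polynomials over `𝔉`).

* `s17pcp_pos`       : `0 < s27indbC (fun k => s27nmE 𝔉 (Φ' k)) n` for every `n`;
* `s17pcp_pos_three` : the case `n = 3` (the `hc` of `s17pm_hM` for the multiplier `3`);
* `s17pcp_pos_of`    : the same for ANY exponents `e` that are positive on the range;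
* `s17pcp_cast_pos`  : the real-number form `(0 : ℝ) < c`.
-/
import Fermat.Agent.S27.Norm
import Fermat.Agent.S27.IndB

set_option autoImplicit false

namespace Fermat.Agent.S17

open Fermat.Agent.S27

universe w w'

/-- positivity of the uniform exponent for ANY exponents positive on the range. -/
theorem s17pcp_pos_of (e : ℤ → ℕ) (n : ℕ) (he : ∀ k ∈ s27indbRange n, 0 < e k) :
    0 < s27indbC e n :=
  Finset.prod_pos he

variable {𝔉 : Type w} [Field 𝔉] {𝔏 : Type w'} [Field 𝔏] [Algebra 𝔉 𝔏] [Normal 𝔉 𝔏]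

/-- **PlM-CPOS**: the uniform exponent of the NORM exponents is positive. -/
theorem s17pcp_pos (Φ' : ℤ → 𝔏) (n : ℕ) : 0 < s27indbC (fun k => s27nmE 𝔉 (Φ' k)) n :=
  s17pcp_pos_of _ n fun k _ => s27nmE_pos (Φ' k)

/-- **PlM-CPOS** at `n = 3`. -/
theorem s17pcp_pos_three (Φ' : ℤ → 𝔏) : 0 < s27indbC (fun k => s27nmE 𝔉 (Φ' k)) 3 :=
  s17pcp_pos Φ' 3

/-- the real form. -/
theorem s17pcp_cast_pos (Φ' : ℤ → 𝔏) (n : ℕ) :
    (0 : ℝ) < ((s27indbC (fun k => s27nmE 𝔉 (Φ' k)) n : ℕ) : ℝ) :=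
  Nat.cast_pos.2 (s17pcp_pos Φ' n)

end Fermat.Agent.S17
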