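/-
S17 sprint, design A v2, **PlM-TOP at `K`-PLACES ONLY** (helper36): the `K`-place twin of
S17/PlMTop.lean (helper11), through S17/PlMK.lean.

* **`s17pmkt_plM`**      : L-LEVEL top.  `ρ τ : L →ₐ[ℚ̄] L`, `b : ValuationSubring L → L`,
    `S17pmkTele ℚ̄ ρ τ b Ψ c p q` and `S17pmkBpf ℚ̄ b N s` (both at the `ℚ̄`-places of `L` only),
    `cl (P ∘ ρ) = m • cl P`  ⇒  the literal body of `S17hyPlM cl H m p`, `H = s17plmH s17haAbsQ s`.
    (This is the shape for a family `s : ι → L` which does NOT come from `𝔉`, e.g. the sections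
    `Φ_D⁻¹` of the theorem of the square on the stage field.)
* `s17pmkt_tele`, `s17pmkt_bpf` : LIFT of the `K`-place hypotheses from `𝔉` to `L`
    (`b_L W = ι (b (W ∩ 𝔉))`, `s17pmtB`);
* **`s17pmkt_plM_lift`** : the twin of `s17pmt_plM`: hypotheses at the `ℚ̄`-places of `𝔉` only.
-/
import Fermat.Agent.S17.PlMK
import Fermat.Agent.S17.PlMTop

set_option autoImplicit false
set_option linter.unusedVariables false
set_option linter.unusedSectionVars false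

noncomputable section

namespace Fermat.Agent.S17

open Fermat.Agent.S27 Height

universe u w w' x y

section Lift

variable {K : Type u} [Field K] {𝔉 : Type w} [Field 𝔉] [Algebra K 𝔉]
  {L : Type w'} [Field L] [Algebra K L] [Algebra 𝔉 L] [IsScalarTower K 𝔉 L]

/-- the trace on `𝔉` of a `K`-place of `L`. -/
def s17pmktTr (P : S17plPlace K L) : S17plPlace K 𝔉 :=
  s17pxComap (IsScalarTower.toAlgHom K 𝔉 L) P

theorem s17pmktTr_W (P : S17plPlace K L) :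
    (s17pmktTr (𝔉 := 𝔉) P).W = P.W.comap (algebraMap 𝔉 L) := rfl

/-- **LIFT of the telescoped cube at the `K`-places** from `𝔉` to `L`. -/
theorem s17pmkt_tele {ψ σ₀ : 𝔉 →ₐ[K] 𝔉} {ρ τ : L →ₐ[K] L}
    (hρ : ∀ x, ρ (algebraMap 𝔉 L x) = algebraMap 𝔉 L (ψ x))
    (hτ : ∀ x, τ (algebraMap 𝔉 L x) = algebraMap 𝔉 L (σ₀ x))
    {b : ValuationSubring 𝔉 → 𝔉} {Ψ : 𝔉} {c p q : ℕ} (hT : S17pmkTele K ψ σ₀ b Ψ c p q) :
    S17pmkTele K ρ τ (s17pmtB (L := L) b) (algebraMap 𝔉 L Ψ) c p q := by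
  intro P
  obtain ⟨u, hu, h⟩ := hT (s17pmktTr P)
  rw [s17pmktTr_W] at hu h
  refine ⟨algebraMap 𝔉 L u, s17pmt_unit hu, ?_⟩
  rw [s17pmt_B_map ψ ρ hρ b P.W, s17pmt_B_map σ₀ τ hτ b P.W, ← map_pow, h]
  unfold s17pmtB
  simp only [map_mul, map_pow]

/-- **LIFT of base-point-freeness at the `K`-places** from `𝔉` to `L`. -/
theorem s17pmkt_bpf {ι : Type x} {b : ValuationSubring 𝔉 → 𝔉} {N : ℕ} {s₀ : ι → 𝔉}
    (hs : S17pmkBpf K b N s₀) :
    S17pmkBpf K (s17pmtB (L := L) b) N (fun i => algebraMap 𝔉 L (s₀ i)) := by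
  intro P
  obtain ⟨hmem, i₀, hi₀⟩ := hs (s17pmktTr P)
  rw [s17pmktTr_W] at hmem hi₀
  have key : ∀ i, algebraMap 𝔉 L (s₀ i) * s17pmtB b P.W ^ N =
      algebraMap 𝔉 L (s₀ i * b (P.W.comap (algebraMap 𝔉 L)) ^ N) := by
    intro i
    unfold s17pmtB
    rw [map_mul, map_pow]
  refine ⟨fun i => ?_, i₀, ?_⟩
  · rw [key i]
    exact hmem i
  · rw [key i₀]
    exact s17pmt_unit hi₀

end Lift

section Top

variable {L : Type w'} [Field L] [Algebra (AlgebraicClosure ℚ) L]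
  {ι : Type x} [Fintype ι] {J : Type y} [AddCommGroup J]

/-- **PlM-TOP at `ℚ̄`-places, L-level**: the literal body of `S17hyPlM cl H m p` for
`H = s17plmH s17haAbsQ s`, `s : ι → L` ANY finite family which is base-point-free at the
`ℚ̄`-places of `L`. -/
theorem s17pmkt_plM {ρ τ : L →ₐ[AlgebraicClosure ℚ] L}
    (hfin : Module.Finite ρ.fieldRange L)
    {b : ValuationSubring L → L} {Ψ : L} {c p q N : ℕ}
    (hT : S17pmkTele (AlgebraicClosure ℚ) ρ τ b Ψ c p q) (hc : 0 < c)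
    {s : ι → L} (hs : S17pmkBpf (AlgebraicClosure ℚ) b N s) (hs0 : s ≠ 0)
    (cl : S17plPlace (AlgebraicClosure ℚ) L → J) (m : ℕ)
    (hcl : ∀ P : S17plPlace (AlgebraicClosure ℚ) L, cl (s17pxComap ρ P) = m • cl P) :
    ∃ C : ℝ, ∀ p'' : S17plPlace (AlgebraicClosure ℚ) L,
      ∃ p' : S17plPlace (AlgebraicClosure ℚ) L, m • cl p' = cl p'' ∧
        (p : ℝ) * s17plmH s17haAbsQ s p' - C ≤ s17plmH s17haAbsQ s p'' :=
  s17plm_plM ρ hfin cl m hcl s17haAbsQ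
    (fun c v hc => s17haAbsQ_smul v hc) s hs0 (p : ℝ) (s17pmk_hM hT hc hs)

variable {𝔉 : Type w} [Field 𝔉] [Algebra (AlgebraicClosure ℚ) 𝔉] [Algebra 𝔉 L]
  [IsScalarTower (AlgebraicClosure ℚ) 𝔉 L]

/-- **PlM-TOP at `ℚ̄`-places, lifted from `𝔉`**: the twin of `s17pmt_plM` with the telescoped cube
and base-point-freeness at the `ℚ̄`-places of `𝔉` only. -/
theorem s17pmkt_plM_lift {ψ σ₀ : 𝔉 →ₐ[AlgebraicClosure ℚ] 𝔉}
    {ρ τ : L →ₐ[AlgebraicClosure ℚ] L}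
    (hρ : ∀ x, ρ (algebraMap 𝔉 L x) = algebraMap 𝔉 L (ψ x))
    (hτ : ∀ x, τ (algebraMap 𝔉 L x) = algebraMap 𝔉 L (σ₀ x))
    (hfin : Module.Finite ρ.fieldRange L)
    {b : ValuationSubring 𝔉 → 𝔉} {Ψ : 𝔉} {c p q N : ℕ}
    (hT : S17pmkTele (AlgebraicClosure ℚ) ψ σ₀ b Ψ c p q) (hc : 0 < c)
    {s₀ : ι → 𝔉} (hs : S17pmkBpf (AlgebraicClosure ℚ) b N s₀) (hs0 : s₀ ≠ 0)
    (cl : S17plPlace (AlgebraicClosure ℚ) L → J) (m : ℕ)
    (hcl : ∀ P : S17plPlace (AlgebraicClosure ℚ) L, cl (s17pxComap ρ P) = m • cl P) :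
    ∃ C : ℝ, ∀ p'' : S17plPlace (AlgebraicClosure ℚ) L,
      ∃ p' : S17plPlace (AlgebraicClosure ℚ) L, m • cl p' = cl p'' ∧
        (p : ℝ) * s17plmH s17haAbsQ (fun i => algebraMap 𝔉 L (s₀ i)) p' - C ≤
          s17plmH s17haAbsQ (fun i => algebraMap 𝔉 L (s₀ i)) p'' := by
  have hsL : (fun i => algebraMap 𝔉 L (s₀ i)) ≠ 0 := by
    intro h0
    apply hs0
    funext i
    have := congrFun h0 i
    exact (map_eq_zero (algebraMap 𝔉 L)).1 this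
  exact s17pmkt_plM hfin (s17pmkt_tele hρ hτ hT) hc (s17pmkt_bpf hs) hsL cl m hcl

end Top

end Fermat.Agent.S17
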