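/-
S17 sprint, layer H, leaf PlM, sub-leaf **PlM-LIFT** (helper89): transfer of the valuative
certificates of S27-B from the model field `𝔉` to an extension `L ⊇ 𝔉` (in the application: `L` an
algebraic closure of `Ω_g ⊇ 𝔉`, the ONE field of `s17pm_hM`).

`K ⊆ 𝔉 ⊆ L` fields, `ι = algebraMap 𝔉 L`, `b V` local equations along the valuation subrings `V` of
`𝔉`.  The LIFTED local equations along the valuation subrings `W` of `L` are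

  `s17pmlB b W = ι (b (W.comap ι))`.

* `s17pml_comap_isKVal`  : `W ⊇ K ⇒ W.comap ι ⊇ K`;
* `s17pml_unit`          : `a` a unit of `W.comap ι ⇒ ι a` a unit of `W`;
* **`s17pml_bpf`**       : `S17muBpf K b N s ⇒ S17muBpf K (s17pmlB b) N (ι ∘ s)`;
* `s17pml_comap_comm`    : `ρ ∘ ι = ι ∘ ψ ⇒ (W.comap ρ).comap ι = (W.comap ι).comap ψ`;
* `s17pml_B_comap`       : `ρ (s17pmlB b (W.comap ρ)) = ι (ψ (b ((W.comap ι).comap ψ)))`;
* **`s17pml_tele`**      : `S17mvTele K ψ₃ ψm b Ψ c p q ⇒ S17mvTele K ρ₃ ρm (s17pmlB b) (ι Ψ) c p q`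
                           for `ρ₃ ρm : L →ₐ[K] L` with `ρ ∘ ι = ι ∘ ψ`;
* `s17pml_tele_equiv`    : the same for automorphisms `ρ₃ ρm : L ≃ₐ[K] L`;
* `s17pml_LU`            : `s ∈ s27LU K b m ⇒ ι s ∈ s27LU K (s17pmlB b) m`;
* **`s17pml_hM`**        : (`K = ℚ̄`) the literal `hM` of `s17plm_plM` from the certificates over
                           `𝔉`: `∃ C, ∀ P α β …, p · habs [ι ∘ s]_P − C ≤ habs [ρ₃ ∘ ι ∘ s]_P`.
-/
import Fermat.Agent.S17.PlM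

set_option autoImplicit false
set_option linter.unusedVariables false
set_option linter.unusedSectionVars false

noncomputable section

namespace Fermat.Agent.S17

open Fermat.Agent.S27 Height

universe u w w' x

section Lift

variable {K : Type u} [Field K] {𝔉 : Type w} [Field 𝔉] [Algebra K 𝔉]
  {L : Type w'} [Field L] [Algebra K L] [Algebra 𝔉 L] [IsScalarTower K 𝔉 L]

/-- the lifted local equations: `W ↦ ι (b (W ∩ 𝔉))`. -/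
def s17pmlB (b : ValuationSubring 𝔉 → 𝔉) (W : ValuationSubring L) : L :=
  algebraMap 𝔉 L (b (W.comap (algebraMap 𝔉 L)))

theorem s17pmlB_apply (b : ValuationSubring 𝔉 → 𝔉) (W : ValuationSubring L) :
    s17pmlB b W = algebraMap 𝔉 L (b (W.comap (algebraMap 𝔉 L))) := rfl

/-- `W ⊇ K ⇒ W ∩ 𝔉 ⊇ K`. -/
theorem s17pml_comap_isKVal {W : ValuationSubring L} (hW : S27IsKValU K W) :
    S27IsKValU K (W.comap (algebraMap 𝔉 L)) := by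
  intro a
  rw [ValuationSubring.mem_comap, ← IsScalarTower.algebraMap_apply K 𝔉 L]
  exact hW a

/-- a unit of `W ∩ 𝔉` is a unit of `W`. -/
theorem s17pml_unit {W : ValuationSubring L} {a : 𝔉}
    (ha : S27IsUnitIn (W.comap (algebraMap 𝔉 L)) a) : S27IsUnitIn W (algebraMap 𝔉 L a) := by
  obtain ⟨h0, h1, h2⟩ := ha
  refine ⟨(map_ne_zero (algebraMap 𝔉 L)).2 h0, h1, ?_⟩
  have h3 : algebraMap 𝔉 L a⁻¹ ∈ W := h2
  rwa [map_inv₀] at h3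

/-- conversely, an element of `𝔉` which is a unit of `W` is a unit of `W ∩ 𝔉`. -/
theorem s17pml_unit_iff {W : ValuationSubring L} {a : 𝔉} :
    S27IsUnitIn (W.comap (algebraMap 𝔉 L)) a ↔ S27IsUnitIn W (algebraMap 𝔉 L a) := by
  refine ⟨s17pml_unit, fun ha => ?_⟩
  obtain ⟨h0, h1, h2⟩ := ha
  refine ⟨(map_ne_zero (algebraMap 𝔉 L)).1 h0, h1, ?_⟩
  show algebraMap 𝔉 L a⁻¹ ∈ W
  rwa [map_inv₀]

/-- **LIFT of a base-point-free family.** -/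
theorem s17pml_bpf {ι : Type x} {b : ValuationSubring 𝔉 → 𝔉} {N : ℕ} {s : ι → 𝔉}
    (hs : S17muBpf K b N s) :
    S17muBpf K (s17pmlB (L := L) b) N (fun i => algebraMap 𝔉 L (s i)) := by
  intro W hW
  obtain ⟨hmem, i₀, hi₀⟩ := hs (W.comap (algebraMap 𝔉 L)) (s17pml_comap_isKVal hW)
  have key : ∀ i, algebraMap 𝔉 L (s i) * s17pmlB (L := L) b W ^ N =
      algebraMap 𝔉 L (s i * b (W.comap (algebraMap 𝔉 L)) ^ N) := by
    intro i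
    rw [map_mul, map_pow, s17pmlB_apply]
  refine ⟨fun i => ?_, i₀, ?_⟩
  · rw [key i]
    exact hmem i
  · rw [key i₀]
    exact s17pml_unit hi₀

/-- the converse of `s17pml_bpf` when every valuation subring of `𝔉` over `K` extends to `L`. -/
theorem s17pml_bpf_iff_of_ext {ι : Type x} {b : ValuationSubring 𝔉 → 𝔉} {N : ℕ} {s : ι → 𝔉}
    (hext : ∀ V : ValuationSubring 𝔉, S27IsKValU K V →
      ∃ W : ValuationSubring L, S27IsKValU K W ∧ W.comap (algebraMap 𝔉 L) = V) :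
    S17muBpf K (s17pmlB (L := L) b) N (fun i => algebraMap 𝔉 L (s i)) ↔ S17muBpf K b N s := by
  refine ⟨fun h V hV => ?_, s17pml_bpf⟩
  obtain ⟨W, hW, rfl⟩ := hext V hV
  obtain ⟨hmem, i₀, hi₀⟩ := h W hW
  have key : ∀ i, algebraMap 𝔉 L (s i) * s17pmlB (L := L) b W ^ N =
      algebraMap 𝔉 L (s i * b (W.comap (algebraMap 𝔉 L)) ^ N) := by
    intro i
    rw [map_mul, map_pow, s17pmlB_apply]
  refine ⟨fun i => ?_, i₀, ?_⟩
  · have := hmem i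
    rw [key i] at this
    exact this
  · rw [key i₀] at hi₀
    exact s17pml_unit_iff.2 hi₀

/-- `L(m D)` lifts. -/
theorem s17pml_LU {b : ValuationSubring 𝔉 → 𝔉} {m : ℕ} {s : 𝔉} (hs : s ∈ s27LU K b m) :
    algebraMap 𝔉 L s ∈ s27LU K (s17pmlB (L := L) b) m := by
  intro W hW
  have h := hs (W.comap (algebraMap 𝔉 L)) (s17pml_comap_isKVal hW)
  have key : algebraMap 𝔉 L s * s17pmlB (L := L) b W ^ m =
      algebraMap 𝔉 L (s * b (W.comap (algebraMap 𝔉 L)) ^ m) := by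
    rw [map_mul, map_pow, s17pmlB_apply]
  rw [key]
  exact h

/-- `ρ ∘ ι = ι ∘ ψ ⇒ (W.comap ρ) ∩ 𝔉 = (W ∩ 𝔉).comap ψ`. -/
theorem s17pml_comap_comm {ψ : 𝔉 →ₐ[K] 𝔉} {ρ : L →ₐ[K] L}
    (hρ : ∀ a : 𝔉, ρ (algebraMap 𝔉 L a) = algebraMap 𝔉 L (ψ a)) (W : ValuationSubring L) :
    (W.comap (ρ : L →+* L)).comap (algebraMap 𝔉 L) =
      (W.comap (algebraMap 𝔉 L)).comap (ψ : 𝔉 →+* 𝔉) := by
  ext a
  simp only [ValuationSubring.mem_comap]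
  show ρ (algebraMap 𝔉 L a) ∈ W ↔ algebraMap 𝔉 L (ψ a) ∈ W
  rw [hρ a]

/-- `ρ (b_L (W.comap ρ)) = ι (ψ (b ((W ∩ 𝔉).comap ψ)))`. -/
theorem s17pml_B_comap {ψ : 𝔉 →ₐ[K] 𝔉} {ρ : L →ₐ[K] L}
    (hρ : ∀ a : 𝔉, ρ (algebraMap 𝔉 L a) = algebraMap 𝔉 L (ψ a))
    (b : ValuationSubring 𝔉 → 𝔉) (W : ValuationSubring L) :
    ρ (s17pmlB (L := L) b (W.comap (ρ : L →+* L))) =
      algebraMap 𝔉 L (ψ (b ((W.comap (algebraMap 𝔉 L)).comap (ψ : 𝔉 →+* 𝔉)))) := by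
  rw [s17pmlB_apply, s17pml_comap_comm hρ W, hρ]

/-- **LIFT of the telescoped cube.** -/
theorem s17pml_tele {ψ₃ ψm : 𝔉 →ₐ[K] 𝔉} {ρ₃ ρm : L →ₐ[K] L}
    (hρ₃ : ∀ a : 𝔉, ρ₃ (algebraMap 𝔉 L a) = algebraMap 𝔉 L (ψ₃ a))
    (hρm : ∀ a : 𝔉, ρm (algebraMap 𝔉 L a) = algebraMap 𝔉 L (ψm a))
    {b : ValuationSubring 𝔉 → 𝔉} {Ψ : 𝔉} {c p q : ℕ}
    (hT : S17mvTele K ψ₃ ψm b Ψ c p q) :
    S17mvTele K ρ₃ ρm (s17pmlB (L := L) b) (algebraMap 𝔉 L Ψ) c p q := by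
  intro W hW
  obtain ⟨u, hu, hcube⟩ := hT (W.comap (algebraMap 𝔉 L)) (s17pml_comap_isKVal hW)
  refine ⟨algebraMap 𝔉 L u, s17pml_unit hu, ?_⟩
  rw [s17pml_B_comap hρ₃ b W, s17pml_B_comap hρm b W, s17pmlB_apply, ← map_pow, hcube]
  simp only [map_mul, map_pow]

/-- **LIFT of the telescoped cube**, automorphisms of `L`. -/
theorem s17pml_tele_equiv {ψ₃ ψm : 𝔉 →ₐ[K] 𝔉} {ρ₃ ρm : L ≃ₐ[K] L}
    (hρ₃ : ∀ a : 𝔉, ρ₃ (algebraMap 𝔉 L a) = algebraMap 𝔉 L (ψ₃ a))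
    (hρm : ∀ a : 𝔉, ρm (algebraMap 𝔉 L a) = algebraMap 𝔉 L (ψm a))
    {b : ValuationSubring 𝔉 → 𝔉} {Ψ : 𝔉} {c p q : ℕ}
    (hT : S17mvTele K ψ₃ ψm b Ψ c p q) :
    S17mvTele K (ρ₃ : L →ₐ[K] L) (ρm : L →ₐ[K] L) (s17pmlB (L := L) b)
      (algebraMap 𝔉 L Ψ) c p q :=
  s17pml_tele (ρ₃ := (ρ₃ : L →ₐ[K] L)) (ρm := (ρm : L →ₐ[K] L)) hρ₃ hρm hT

end Lift

section Height

variable {𝔉 : Type w} [Field 𝔉] [Algebra (AlgebraicClosure ℚ) 𝔉]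
  {L : Type w'} [Field L] [Algebra (AlgebraicClosure ℚ) L] [Algebra 𝔉 L]
  [IsScalarTower (AlgebraicClosure ℚ) 𝔉 L] {ι : Type x} [Fintype ι]

/-- **PlM-LIFT, END form**: the literal `hM` of `s17plm_plM` for the lifted family `ι ∘ s`, from the
telescoped cube and ONE base-point-free family over `𝔉`. -/
theorem s17pml_hM {ψ₃ ψm : 𝔉 →ₐ[AlgebraicClosure ℚ] 𝔉} {ρ₃ ρm : L →ₐ[AlgebraicClosure ℚ] L}
    (hρ₃ : ∀ a : 𝔉, ρ₃ (algebraMap 𝔉 L a) = algebraMap 𝔉 L (ψ₃ a))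
    (hρm : ∀ a : 𝔉, ρm (algebraMap 𝔉 L a) = algebraMap 𝔉 L (ψm a))
    {b : ValuationSubring 𝔉 → 𝔉} {Ψ : 𝔉} {c p q N : ℕ}
    (hT : S17mvTele (AlgebraicClosure ℚ) ψ₃ ψm b Ψ c p q) (hc : 0 < c)
    {s : ι → 𝔉} (hs : S17muBpf (AlgebraicClosure ℚ) b N s) :
    ∃ C : ℝ, ∀ (P : S17plPlace (AlgebraicClosure ℚ) L) (α β : ι)
      (hα : S17plIsMin P.W (fun i => algebraMap 𝔉 L (s i)) α)
      (hβ : S17plIsMin P.W (fun i => ρ₃ (algebraMap 𝔉 L (s i))) β),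
      (p : ℝ) * s17haAbsQ (s17plVal P (fun i => algebraMap 𝔉 L (s i)) α hα) - C ≤
        s17haAbsQ (s17plVal P (fun i => ρ₃ (algebraMap 𝔉 L (s i))) β hβ) :=
  s17pm_hM (s17pml_tele hρ₃ hρm hT) hc (s17pml_bpf hs)

end Height

end Fermat.Agent.S17

end
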