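/-
S17 sprint, design A v2, [PlM] leaf **PlM-RHO, twin B** (helper58; the original `S17/PlMRho.lean` is helper86's).

On the model of S27-B (`𝔉 = s27gfSym K F g ⊂ L`, `L` algebraically closed, algebraic over `Ω`):
the affine family `T k c : 𝔉 →ₐ[K] 𝔉` of `S17/Affine.lean` (`T k 0 = ψ_k`) EXTENDS to
automorphisms of `L`:

* `s17pr3_exists_aut`     : `∃ ρ : L ≃ₐ[K] L`, `actC ρ η = k • η + κ c` and
                            `ρ (ι s) = ι (T k c s)` for all `s : 𝔉` (`ι = algebraMap 𝔉 L`);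
* `s17pr3_exists_aut_psi` : the same for `ψ_k = s27pfPsi pkg halg hq' k`: `actC ρ η = k • η`,
                            `ρ ∘ ι = ι ∘ ψ_k`;
* `s17pr3_model`          : on the model, with the centre `cl = s17ch2Centre` of `S17/CentreHom.lean`:
                            `∃ ρ : L ≃ₐ[K] L, (∀ s, ρ (ι s) = ι (ψ_k s)) ∧
                               ∀ P, cl (s17pxComap ρ P) = k • cl P`         (`k ≠ 0`; `k = 3`, `k = −1`);
* `s17pr3_model_nat`      : the case `k = n : ℕ`, `n ≠ 0`, with `n • cl P` the `ℕ`-multiple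
                            (the literal `hcl` of `s17plm_plM`);
* `s17pr3_model_transl`   : translations: `∃ ρ, (∀ s, ρ (ι s) = ι (T 1 c s)) ∧ ∀ P, cl (P ∘ ρ) = cl P + c`.
-/
import Fermat.Agent.S17.CentreHom

set_option autoImplicit false
set_option linter.unusedVariables false
set_option linter.unusedSectionVars false
set_option linter.style.haveILetI false
set_option linter.style.longLine false

noncomputable section

namespace Fermat.Agent.S17

open AlgebraicCurve TensorProduct IntermediateField Fermat.Agent.S27 Fermat.Agent.S26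
  Fermat.Agent.S24

universe u v x y z

section Abs

variable {K : Type u} {F : Type v} [Field K] [IsAlgClosed K] [Field F] [Algebra K F] {g : ℕ}
variable {L : Type (max u v)} [Field L] [Algebra K L] [Algebra (s27gfOm K F g) L]
  [IsScalarTower K (s27gfOm K F g) L]
variable {t : F} {Pl : Type x} {P : Type y} [AddCommGroup P] (pkg : S27DegPkg K F L t g Pl P)
variable {C : Type z} [AddCommGroup C] (κ : C →+ P)
variable [IsGalois (s27gfSym K F g) L]

/-- **the affine map `T k c` extends to an automorphism of `L`** with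
`actC ρ η = k • η + κ c`. -/
theorem s17pr3_exists_aut (hκ : S17afInv pkg κ)
    (halg : ∀ f : F, IsAlgebraic (IntermediateField.adjoin K {t}) f)
    (hX1 : ∀ σ : s27gfSym K F g →ₐ[K] L, ∃ ê : L ≃ₐ[K] L,
      ∀ s : s27gfSym K F g, ê (algebraMap (s27gfOm K F g) L (s : s27gfOm K F g)) = σ s)
    {q : ℤ → C → Fin g → F →ₐ[K] L} (hq : S17afFam pkg κ q) (k : ℤ) (hk : k ≠ 0) (c : C) :
    ∃ ρ : L ≃ₐ[K] L,
      pkg.actC ρ (s27pfCl pkg (s27pfTaut (K := K) (F := F) (g := g) (L := L))) =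
        k • s27pfCl pkg (s27pfTaut (K := K) (F := F) (g := g) (L := L)) + κ c ∧
      ∀ s : s27gfSym K F g, ρ (algebraMap (s27gfSym K F g) L s) =
        algebraMap (s27gfSym K F g) L (s17afT pkg κ hκ halg hq k c s) := by
  have hpt := s17af_fam_pt pkg κ hκ halg hq k hk c
  obtain ⟨ê, hê⟩ := hX1 (s27psiEv (q k c) hpt.inj)
  have hh : ∀ s : s27gfSym K F g, ê (algebraMap (s27gfSym K F g) L s) =
      s27psiEv (q k c) hpt.inj s := fun s => by
    rw [← hê s]
    rfl
  refine ⟨ê, ?_, fun s => ?_⟩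
  · rw [s27pf_cl_of_ext pkg (q k c) hpt.inj ê hh, (hq k hk c).2]
  · rw [hh s, s17afT_of_ne pkg κ hκ halg hq k hk c, s27psi_spec']

/-- **`ψ_k` extends to an automorphism of `L`** with `actC ρ η = k • η`. -/
theorem s17pr3_exists_aut_psi (hκ : S17afInv pkg κ)
    (halg : ∀ f : F, IsAlgebraic (IntermediateField.adjoin K {t}) f)
    (hX1 : ∀ σ : s27gfSym K F g →ₐ[K] L, ∃ ê : L ≃ₐ[K] L,
      ∀ s : s27gfSym K F g, ê (algebraMap (s27gfOm K F g) L (s : s27gfOm K F g)) = σ s)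
    {q : ℤ → C → Fin g → F →ₐ[K] L} (hq : S17afFam pkg κ q)
    {q' : ℤ → Fin g → F →ₐ[K] L} (hq' : S27pfFam pkg q') (k : ℤ) (hk : k ≠ 0) :
    ∃ ρ : L ≃ₐ[K] L,
      pkg.actC ρ (s27pfCl pkg (s27pfTaut (K := K) (F := F) (g := g) (L := L))) =
        k • s27pfCl pkg (s27pfTaut (K := K) (F := F) (g := g) (L := L)) ∧
      ∀ s : s27gfSym K F g, ρ (algebraMap (s27gfSym K F g) L s) =
        algebraMap (s27gfSym K F g) L (s27pfPsi pkg halg hq' k s) := by
  obtain ⟨ρ, h1, h2⟩ := s17pr3_exists_aut pkg κ hκ halg hX1 hq k hk 0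
  refine ⟨ρ, ?_, fun s => ?_⟩
  · rw [h1, map_zero, add_zero]
  · rw [h2 s, s17afT_zero_eq_psi pkg κ hκ halg hq hq' k hk]

end Abs

section Model

variable {K : Type u} {F : Type v} [Field K] [IsAlgClosed K] [CharZero K] [Field F] [Algebra K F]
  [IsCurveOver K F] [Algebra.EssFiniteType K F]
  {L : Type (max u v)} [Field L] [Algebra K L]
  [Algebra (s27gfOm K F (genusFF K F)) L] [IsScalarTower K (s27gfOm K F (genusFF K F)) L]
  [IsAlgClosed L] [Algebra.IsAlgebraic (s27gfOm K F (genusFF K F)) L]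
  {FL : Type y} [Field FL] [Algebra K FL] [Algebra F FL] [Algebra L FL]
  [IsScalarTower K F FL] [IsScalarTower K L FL]
  (hld : Function.Injective (s26gspMu K F L FL)) (hgen : S26gspGen K F L FL)
  {x : F} (hx : Transcendental K x)
  [FiniteDimensional ↥(IntermediateField.adjoin K {x}) F]
  [Algebra.IsSeparable ↥(IntermediateField.adjoin K {x}) F]
  (G₀ : Divisor K F) (hG₀ : Divisor.degree G₀ = (genusFF K F : ℤ))
  [IsGalois (s27gfSym K F (genusFF K F)) L]

/-- **PlM-RHO on the model**: `ψ_k` (`k ≠ 0`) extends to an automorphism `ρ` of `L` and the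
centre of `P ∘ ρ` is `k • centre P`. -/
theorem s17pr3_model {q' : ℤ → Fin (genusFF K F) → F →ₐ[K] L}
    (hq' : S27pfFam (s27dclPkg hld hgen hx G₀ hG₀) q') (k : ℤ) (hk : k ≠ 0) :
    ∃ ρ : L ≃ₐ[K] L,
      (∀ s : s27gfSym K F (genusFF K F), ρ (algebraMap (s27gfSym K F (genusFF K F)) L s) =
        algebraMap (s27gfSym K F (genusFF K F)) L
          (s27pfPsi (s27dclPkg hld hgen hx G₀ hG₀) (s27dcl_halg (x := x)) hq' k s)) ∧
      ∀ P : S17plPlace K L, s17ch2Centre hx G₀ hG₀ (s17pxComap (ρ : L →ₐ[K] L) P) =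
        k • s17ch2Centre hx G₀ hG₀ P := by
  obtain ⟨q, hq⟩ := s17af_exists_fam (L := L) hld hgen hx G₀ hG₀
  obtain ⟨ρ, h1, h2⟩ := s17pr3_exists_aut_psi (s27dclPkg hld hgen hx G₀ hG₀)
    (s27bcBeta hld hgen (s26gspf_hall hx)) (s17af_inv hld hgen hx G₀ hG₀)
    (s27dcl_halg (x := x))
    (fun σ => s27dgx_X1 (s27dclFld (L := L) hx) (s27dcl_halg (x := x)) σ) hq hq' k hk
  exact ⟨ρ, h2, fun P => s17ch2_centre_mul hld hgen hx G₀ hG₀ P ρ k h1⟩

/-- **PlM-RHO, `ℕ`-multiples**: the literal `hcl` of `s17plm_plM` (`m = n`). -/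
theorem s17pr3_model_nat {q' : ℤ → Fin (genusFF K F) → F →ₐ[K] L}
    (hq' : S27pfFam (s27dclPkg hld hgen hx G₀ hG₀) q') (n : ℕ) (hn : n ≠ 0) :
    ∃ ρ : L ≃ₐ[K] L,
      (∀ s : s27gfSym K F (genusFF K F), ρ (algebraMap (s27gfSym K F (genusFF K F)) L s) =
        algebraMap (s27gfSym K F (genusFF K F)) L
          (s27pfPsi (s27dclPkg hld hgen hx G₀ hG₀) (s27dcl_halg (x := x)) hq' (n : ℤ) s)) ∧
      ∀ P : S17plPlace K L, s17ch2Centre hx G₀ hG₀ (s17pxComap (ρ : L →ₐ[K] L) P) =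
        n • s17ch2Centre hx G₀ hG₀ P := by
  have hn0 : (n : ℤ) ≠ 0 := by exact_mod_cast hn
  obtain ⟨ρ, h1, h2⟩ := s17pr3_model hld hgen hx G₀ hG₀ hq' (n : ℤ) hn0
  refine ⟨ρ, h1, fun P => ?_⟩
  rw [h2 P, natCast_zsmul]

/-- **translations on the model**: `T 1 c` extends to an automorphism `ρ` of `L` and the centre
of `P ∘ ρ` is `centre P + c`. -/
theorem s17pr3_model_transl
    {q : ℤ → Pic0 K F → Fin (genusFF K F) → F →ₐ[K] L}
    (hq : S17afFam (s27dclPkg hld hgen hx G₀ hG₀) (s27bcBeta hld hgen (s26gspf_hall hx)) q)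
    (c : Pic0 K F) :
    ∃ ρ : L ≃ₐ[K] L,
      (∀ s : s27gfSym K F (genusFF K F), ρ (algebraMap (s27gfSym K F (genusFF K F)) L s) =
        algebraMap (s27gfSym K F (genusFF K F)) L
          (s17afT (s27dclPkg hld hgen hx G₀ hG₀) (s27bcBeta hld hgen (s26gspf_hall hx))
            (s17af_inv hld hgen hx G₀ hG₀) (s27dcl_halg (x := x)) hq 1 c s)) ∧
      ∀ P : S17plPlace K L, s17ch2Centre hx G₀ hG₀ (s17pxComap (ρ : L →ₐ[K] L) P) =
        s17ch2Centre hx G₀ hG₀ P + c := by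
  obtain ⟨ρ, h1, h2⟩ := s17pr3_exists_aut (s27dclPkg hld hgen hx G₀ hG₀)
    (s27bcBeta hld hgen (s26gspf_hall hx)) (s17af_inv hld hgen hx G₀ hG₀)
    (s27dcl_halg (x := x))
    (fun σ => s27dgx_X1 (s27dclFld (L := L) hx) (s27dcl_halg (x := x)) σ) hq 1 one_ne_zero c
  refine ⟨ρ, h2, fun P => s17ch2_centre_add hld hgen hx G₀ hG₀ P ρ c ?_⟩
  rw [h1, one_smul]

end Model

end Fermat.Agent.S17
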