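/-
S17 sprint, design A v2 (ONE theta divisor), sub-integrator file **PlM-STAGE** (helper11):
the place form (M′) on the CLOSED S27-B stage over `K = ℚ̄`, for EVERY multiplier `n > 0` and EVERY
base-point-free family `s₀ : ι → 𝔉` of `L(N₀ Θ)` (`𝔉 = s27gfSym K F g`, local equations
`b = B 1 = s27indB ψ β 1`, `β = s27beta (G₀ + Ao)`, `ψ = s27pfPsi`):

  `∃ C, ∀ p″, ∃ p′, n • cl p′ = cl p″ ∧ (n(n+1)/2) · H p′ − C ≤ H p″`,
  `cl = s17coCl`, `H = s17plmH s17haAbsQ (ι ∘ s₀)`.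

Inputs (all on main): CUBE `s17pmd_tele` (helper13; twin `s17pmc_tele` helper28), RHO `s17prh_mul_nat`, `s17prh_neg`
(helper86/58), TOP `s17pmt_plM` (LIFT + `s17pm_hM` + `s17plm_plM`).
The ONLY remaining input of PlM is the base-point-free family (PlM-BPF).

* `s17pms_plM`        : the body of `S17hyPlM`, `F` any curve over `ℚ̄`;
* `s17pms_plM_seven`  : `n = 7`, `b = 28`.
-/
import Fermat.Agent.S17.PlMTop
import Fermat.Agent.S17.PlMCubeB
import Fermat.Agent.S17.PlMRho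

set_option autoImplicit false
set_option linter.unusedVariables false
set_option linter.unusedSectionVars false
set_option linter.style.haveILetI false
set_option linter.style.longLine false

noncomputable section

namespace Fermat.Agent.S17

open AlgebraicCurve Module TensorProduct IntermediateField Fermat.Agent.S26 Fermat.Agent.S27

universe x

section Stage

variable {F : Type} [Field F] [Algebra (AlgebraicClosure ℚ) F]
  [IsCurveOver (AlgebraicClosure ℚ) F] [Algebra.EssFiniteType (AlgebraicClosure ℚ) F]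
variable {x : F} (hx : Transcendental (AlgebraicClosure ℚ) x)
  [FiniteDimensional ↥(IntermediateField.adjoin (AlgebraicClosure ℚ) {x}) F]
  [Algebra.IsSeparable ↥(IntermediateField.adjoin (AlgebraicClosure ℚ) {x}) F]
  (G₀ : Divisor (AlgebraicClosure ℚ) F)
  (hG₀ : Divisor.degree G₀ = (genusFF (AlgebraicClosure ℚ) F : ℤ))

/-- **PlM on the closed stage**, every multiplier `n > 0`, every base-point-free family. -/
theorem s17pms_plM (hg : 0 < genusFF (AlgebraicClosure ℚ) F)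
    (O : Place (AlgebraicClosure ℚ) F) (hc : S27cstIsConst x G₀ O)
    (q : ℤ → Fin (genusFF (AlgebraicClosure ℚ) F) → F →ₐ[AlgebraicClosure ℚ]
      s27mtL (AlgebraicClosure ℚ) F)
    (hq : S27pfFam (s27ftPkg hx G₀ hG₀) q) (n : ℕ) (hn : 0 < n)
    {ι : Type x} [Fintype ι] (N₀ : ℕ)
    (s₀ : ι → s27gfSym (AlgebraicClosure ℚ) F (genusFF (AlgebraicClosure ℚ) F))
    (hs : S17muBpf (AlgebraicClosure ℚ)
      (s27indB (s27pfPsi (s27ftPkg hx G₀ hG₀) (s27dcl_halg (x := x)) hq)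
        (s27beta (g := genusFF (AlgebraicClosure ℚ) F) (G₀ + s27cstAo G₀ O)) 1) N₀ s₀)
    (hs0 : s₀ ≠ 0) :
    ∃ C : ℝ, ∀ p'' : S17plPlace (AlgebraicClosure ℚ) (s27mtL (AlgebraicClosure ℚ) F),
      ∃ p' : S17plPlace (AlgebraicClosure ℚ) (s27mtL (AlgebraicClosure ℚ) F),
        n • s17coCl (FL := s27mtFL (AlgebraicClosure ℚ) F)
            (s27stg_hld (AlgebraicClosure ℚ) F (s27mtL (AlgebraicClosure ℚ) F))
            (s27stg_hgen (AlgebraicClosure ℚ) F (s27mtL (AlgebraicClosure ℚ) F)) hx G₀ hG₀ p' =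
          s17coCl (FL := s27mtFL (AlgebraicClosure ℚ) F)
            (s27stg_hld (AlgebraicClosure ℚ) F (s27mtL (AlgebraicClosure ℚ) F))
            (s27stg_hgen (AlgebraicClosure ℚ) F (s27mtL (AlgebraicClosure ℚ) F)) hx G₀ hG₀ p'' ∧
        ((s27indTri n : ℕ) : ℝ) * s17plmH s17haAbsQ
            (fun i => algebraMap (s27gfSym (AlgebraicClosure ℚ) F
              (genusFF (AlgebraicClosure ℚ) F)) (s27mtL (AlgebraicClosure ℚ) F) (s₀ i)) p' - C ≤
          s17plmH s17haAbsQ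
            (fun i => algebraMap (s27gfSym (AlgebraicClosure ℚ) F
              (genusFF (AlgebraicClosure ℚ) F)) (s27mtL (AlgebraicClosure ℚ) F) (s₀ i)) p'' := by
  obtain ⟨Ψ, c, hcpos, hT⟩ := s17pmd_tele hx G₀ hG₀ hg O hc q hq n hn
  obtain ⟨ρ, hρ, hcl, hfin⟩ := s17prh_mul_nat (FL := s27mtFL (AlgebraicClosure ℚ) F)
    (s27stg_hld (AlgebraicClosure ℚ) F (s27mtL (AlgebraicClosure ℚ) F))
    (s27stg_hgen (AlgebraicClosure ℚ) F (s27mtL (AlgebraicClosure ℚ) F)) hx G₀ hG₀ hq n hn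
  obtain ⟨τ, hτ, -⟩ := s17prh_neg (FL := s27mtFL (AlgebraicClosure ℚ) F)
    (s27stg_hld (AlgebraicClosure ℚ) F (s27mtL (AlgebraicClosure ℚ) F))
    (s27stg_hgen (AlgebraicClosure ℚ) F (s27mtL (AlgebraicClosure ℚ) F)) hx G₀ hG₀ hq
  exact s17pmt_plM (ρ := (ρ : s27mtL (AlgebraicClosure ℚ) F →ₐ[AlgebraicClosure ℚ]
      s27mtL (AlgebraicClosure ℚ) F))
    (τ := (τ : s27mtL (AlgebraicClosure ℚ) F →ₐ[AlgebraicClosure ℚ]
      s27mtL (AlgebraicClosure ℚ) F))
    (fun s => hρ s) (fun s => hτ s) hfin hT hcpos hs hs0 _ n hcl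

/-- `n = 7`, `b = 28`. -/
theorem s17pms_plM_seven (hg : 0 < genusFF (AlgebraicClosure ℚ) F)
    (O : Place (AlgebraicClosure ℚ) F) (hc : S27cstIsConst x G₀ O)
    (q : ℤ → Fin (genusFF (AlgebraicClosure ℚ) F) → F →ₐ[AlgebraicClosure ℚ]
      s27mtL (AlgebraicClosure ℚ) F)
    (hq : S27pfFam (s27ftPkg hx G₀ hG₀) q)
    {ι : Type x} [Fintype ι] (N₀ : ℕ)
    (s₀ : ι → s27gfSym (AlgebraicClosure ℚ) F (genusFF (AlgebraicClosure ℚ) F))
    (hs : S17muBpf (AlgebraicClosure ℚ)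
      (s27indB (s27pfPsi (s27ftPkg hx G₀ hG₀) (s27dcl_halg (x := x)) hq)
        (s27beta (g := genusFF (AlgebraicClosure ℚ) F) (G₀ + s27cstAo G₀ O)) 1) N₀ s₀)
    (hs0 : s₀ ≠ 0) :
    ∃ C : ℝ, ∀ p'' : S17plPlace (AlgebraicClosure ℚ) (s27mtL (AlgebraicClosure ℚ) F),
      ∃ p' : S17plPlace (AlgebraicClosure ℚ) (s27mtL (AlgebraicClosure ℚ) F),
        7 • s17coCl (FL := s27mtFL (AlgebraicClosure ℚ) F)
            (s27stg_hld (AlgebraicClosure ℚ) F (s27mtL (AlgebraicClosure ℚ) F))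
            (s27stg_hgen (AlgebraicClosure ℚ) F (s27mtL (AlgebraicClosure ℚ) F)) hx G₀ hG₀ p' =
          s17coCl (FL := s27mtFL (AlgebraicClosure ℚ) F)
            (s27stg_hld (AlgebraicClosure ℚ) F (s27mtL (AlgebraicClosure ℚ) F))
            (s27stg_hgen (AlgebraicClosure ℚ) F (s27mtL (AlgebraicClosure ℚ) F)) hx G₀ hG₀ p'' ∧
        (28 : ℝ) * s17plmH s17haAbsQ
            (fun i => algebraMap (s27gfSym (AlgebraicClosure ℚ) F
              (genusFF (AlgebraicClosure ℚ) F)) (s27mtL (AlgebraicClosure ℚ) F) (s₀ i)) p' - C ≤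
          s17plmH s17haAbsQ
            (fun i => algebraMap (s27gfSym (AlgebraicClosure ℚ) F
              (genusFF (AlgebraicClosure ℚ) F)) (s27mtL (AlgebraicClosure ℚ) F) (s₀ i)) p'' := by
  have h := s17pms_plM hx G₀ hG₀ hg O hc q hq 7 (by norm_num) N₀ s₀ hs hs0
  have e : ((s27indTri 7 : ℕ) : ℝ) = 28 := by
    rw [s17pmd_tri_seven]
    norm_num
  rw [e] at h
  exact h

end Stage

end Fermat.Agent.S17

end
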