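/-
S17 sprint, design A v2 (ONE theta divisor), leaf **PlM-STAGE-MINUS** (helper13): the literal twin
of helper11's S17/PlMStage.lean for the MODEL's theta divisor `Θ⁻`, i.e. for the local equations
`b = B (−1) = s27indB ψ β (−1)` (S17/ModelH.lean `s17mdb`):

  for EVERY multiplier `n > 0` and EVERY base-point-free family `s₀ : ι → 𝔉` of `L(N₀ Θ⁻)`
  (`S17muBpf K (s27indB ψ β (−1)) N₀ s₀`):
  `∃ C, ∀ p″, ∃ p′, n • cl p′ = cl p″ ∧ (n(n+1)/2) · H p′ − C ≤ H p″`,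
  `cl = s17coCl`, `H = s17plmH s17haAbsQ (ι ∘ s₀)`.

Inputs: the telescoped cube for `Θ⁻` (`s17pmm_tele_stage`, S17/PlMMinus.lean), RHO
(`s17prh_mul_nat`, `s17prh_neg`, helper86/58), TOP (`s17pmt_plM`, helper11).
The ONLY remaining input is the base-point-free family; a bpf family for `Θ` gives one for `Θ⁻`
by `s17pmm_bpf_ind` (`s₀ ↦ ψ (−1) ∘ s₀`).

* `s17pmn_plM`        : the body of `S17hyPlM`, `F` any curve over `ℚ̄`;
* `s17pmn_plM_seven`  : `n = 7`, `b = 28`.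
-/
import Fermat.Agent.S17.PlMTop
import Fermat.Agent.S17.PlMMinus
import Fermat.Agent.S17.PlMRho

set_option autoImplicit false
set_option linter.unusedVariables false
set_option linter.unusedSectionVars false
set_option linter.style.haveILetI false
set_option linter.style.longLine false

noncomputable section

namespace Fermat.Agent.S17

open AlgebraicCurve Module TensorProduct IntermediateField Fermat.Agent.S26 Fermat.Agent.S27

universe x

section Stage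

variable {F : Type} [Field F] [Algebra (AlgebraicClosure ℚ) F]
  [IsCurveOver (AlgebraicClosure ℚ) F] [Algebra.EssFiniteType (AlgebraicClosure ℚ) F]
variable {x : F} (hx : Transcendental (AlgebraicClosure ℚ) x)
  [FiniteDimensional ↥(IntermediateField.adjoin (AlgebraicClosure ℚ) {x}) F]
  [Algebra.IsSeparable ↥(IntermediateField.adjoin (AlgebraicClosure ℚ) {x}) F]
  (G₀ : Divisor (AlgebraicClosure ℚ) F)
  (hG₀ : Divisor.degree G₀ = (genusFF (AlgebraicClosure ℚ) F : ℤ))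

/-- **PlM on the closed stage for `Θ⁻`** (`b = B (−1)`), every multiplier `n > 0`, every
base-point-free family of `L(N₀ Θ⁻)`. -/
theorem s17pmn_plM (hg : 0 < genusFF (AlgebraicClosure ℚ) F)
    (O : Place (AlgebraicClosure ℚ) F) (hc : S27cstIsConst x G₀ O)
    (q : ℤ → Fin (genusFF (AlgebraicClosure ℚ) F) → F →ₐ[AlgebraicClosure ℚ]
      s27mtL (AlgebraicClosure ℚ) F)
    (hq : S27pfFam (s27ftPkg hx G₀ hG₀) q) (n : ℕ) (hn : 0 < n)
    {ι : Type x} [Fintype ι] (N₀ : ℕ)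
    (s₀ : ι → s27gfSym (AlgebraicClosure ℚ) F (genusFF (AlgebraicClosure ℚ) F))
    (hs : S17muBpf (AlgebraicClosure ℚ)
      (s27indB (s27pfPsi (s27ftPkg hx G₀ hG₀) (s27dcl_halg (x := x)) hq)
        (s27beta (g := genusFF (AlgebraicClosure ℚ) F) (G₀ + s27cstAo G₀ O)) (-1)) N₀ s₀)
    (hs0 : s₀ ≠ 0) :
    ∃ C : ℝ, ∀ p'' : S17plPlace (AlgebraicClosure ℚ) (s27mtL (AlgebraicClosure ℚ) F),
      ∃ p' : S17plPlace (AlgebraicClosure ℚ) (s27mtL (AlgebraicClosure ℚ) F),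
        n • s17coCl (FL := s27mtFL (AlgebraicClosure ℚ) F)
            (s27stg_hld (AlgebraicClosure ℚ) F (s27mtL (AlgebraicClosure ℚ) F))
            (s27stg_hgen (AlgebraicClosure ℚ) F (s27mtL (AlgebraicClosure ℚ) F)) hx G₀ hG₀ p' =
          s17coCl (FL := s27mtFL (AlgebraicClosure ℚ) F)
            (s27stg_hld (AlgebraicClosure ℚ) F (s27mtL (AlgebraicClosure ℚ) F))
            (s27stg_hgen (AlgebraicClosure ℚ) F (s27mtL (AlgebraicClosure ℚ) F)) hx G₀ hG₀ p'' ∧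
        ((s27indTri n : ℕ) : ℝ) * s17plmH s17haAbsQ
            (fun i => algebraMap (s27gfSym (AlgebraicClosure ℚ) F
              (genusFF (AlgebraicClosure ℚ) F)) (s27mtL (AlgebraicClosure ℚ) F) (s₀ i)) p' - C ≤
          s17plmH s17haAbsQ
            (fun i => algebraMap (s27gfSym (AlgebraicClosure ℚ) F
              (genusFF (AlgebraicClosure ℚ) F)) (s27mtL (AlgebraicClosure ℚ) F) (s₀ i)) p'' := by
  obtain ⟨Ψ, c, hcpos, hT⟩ := s17pmm_tele_stage hx G₀ hG₀ hg O hc q hq n hn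
  obtain ⟨ρ, hρ, hcl, hfin⟩ := s17prh_mul_nat (FL := s27mtFL (AlgebraicClosure ℚ) F)
    (s27stg_hld (AlgebraicClosure ℚ) F (s27mtL (AlgebraicClosure ℚ) F))
    (s27stg_hgen (AlgebraicClosure ℚ) F (s27mtL (AlgebraicClosure ℚ) F)) hx G₀ hG₀ hq n hn
  obtain ⟨τ, hτ, -⟩ := s17prh_neg (FL := s27mtFL (AlgebraicClosure ℚ) F)
    (s27stg_hld (AlgebraicClosure ℚ) F (s27mtL (AlgebraicClosure ℚ) F))
    (s27stg_hgen (AlgebraicClosure ℚ) F (s27mtL (AlgebraicClosure ℚ) F)) hx G₀ hG₀ hq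
  exact s17pmt_plM (ρ := (ρ : s27mtL (AlgebraicClosure ℚ) F →ₐ[AlgebraicClosure ℚ]
      s27mtL (AlgebraicClosure ℚ) F))
    (τ := (τ : s27mtL (AlgebraicClosure ℚ) F →ₐ[AlgebraicClosure ℚ]
      s27mtL (AlgebraicClosure ℚ) F))
    (fun s => hρ s) (fun s => hτ s) hfin hT hcpos hs hs0 _ n hcl

/-- `n = 7`, `b = 28`. -/
theorem s17pmn_plM_seven (hg : 0 < genusFF (AlgebraicClosure ℚ) F)
    (O : Place (AlgebraicClosure ℚ) F) (hc : S27cstIsConst x G₀ O)
    (q : ℤ → Fin (genusFF (AlgebraicClosure ℚ) F) → F →ₐ[AlgebraicClosure ℚ]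
      s27mtL (AlgebraicClosure ℚ) F)
    (hq : S27pfFam (s27ftPkg hx G₀ hG₀) q)
    {ι : Type x} [Fintype ι] (N₀ : ℕ)
    (s₀ : ι → s27gfSym (AlgebraicClosure ℚ) F (genusFF (AlgebraicClosure ℚ) F))
    (hs : S17muBpf (AlgebraicClosure ℚ)
      (s27indB (s27pfPsi (s27ftPkg hx G₀ hG₀) (s27dcl_halg (x := x)) hq)
        (s27beta (g := genusFF (AlgebraicClosure ℚ) F) (G₀ + s27cstAo G₀ O)) (-1)) N₀ s₀)
    (hs0 : s₀ ≠ 0) :
    ∃ C : ℝ, ∀ p'' : S17plPlace (AlgebraicClosure ℚ) (s27mtL (AlgebraicClosure ℚ) F),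
      ∃ p' : S17plPlace (AlgebraicClosure ℚ) (s27mtL (AlgebraicClosure ℚ) F),
        7 • s17coCl (FL := s27mtFL (AlgebraicClosure ℚ) F)
            (s27stg_hld (AlgebraicClosure ℚ) F (s27mtL (AlgebraicClosure ℚ) F))
            (s27stg_hgen (AlgebraicClosure ℚ) F (s27mtL (AlgebraicClosure ℚ) F)) hx G₀ hG₀ p' =
          s17coCl (FL := s27mtFL (AlgebraicClosure ℚ) F)
            (s27stg_hld (AlgebraicClosure ℚ) F (s27mtL (AlgebraicClosure ℚ) F))
            (s27stg_hgen (AlgebraicClosure ℚ) F (s27mtL (AlgebraicClosure ℚ) F)) hx G₀ hG₀ p'' ∧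
        (28 : ℝ) * s17plmH s17haAbsQ
            (fun i => algebraMap (s27gfSym (AlgebraicClosure ℚ) F
              (genusFF (AlgebraicClosure ℚ) F)) (s27mtL (AlgebraicClosure ℚ) F) (s₀ i)) p' - C ≤
          s17plmH s17haAbsQ
            (fun i => algebraMap (s27gfSym (AlgebraicClosure ℚ) F
              (genusFF (AlgebraicClosure ℚ) F)) (s27mtL (AlgebraicClosure ℚ) F) (s₀ i)) p'' := by
  have h := s17pmn_plM hx G₀ hG₀ hg O hc q hq 7 (by norm_num) N₀ s₀ hs hs0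
  have e : ((s27indTri 7 : ℕ) : ℝ) = 28 := by
    rw [s17pmd_tri_seven]
    norm_num
  rw [e] at h
  exact h

end Stage

end Fermat.Agent.S17

end
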