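/-
S17 sprint, layer H — **PlN-GOOD with a FREE constant in (T)** (helper97; twin of helper99's
`s17png_plN`, S17/PlNGood.lean).

After the repair of S17/TopNine.lean the place form of (T) for ALL translations is available with
the constant `a = 4` only (`S17hyPlT cl H 4`, from (T) on the non-special translations with
`a = 2`).  Northcott does not care about the constant:

* `s17pna_plN`     : `S17hyPlT cl H a` (`0 ≤ a`) + (U) ⇒ `S17hxPlN cl H`;
* `s17pna_plN_on`  : (T) on `NS` with the constant `a` + `hdec` + (U) ⇒ `S17hxPlN cl H`;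
* `s17pna_plN'`, `s17pna_plN_on'` : the same with the function `t` of S17/RatFn.lean chosen.
-/
import Fermat.Agent.S17.PlNGood
import Fermat.Agent.S17.TopNine

set_option autoImplicit false
set_option linter.unusedSectionVars false
set_option linter.style.haveILetI false

noncomputable section

namespace Fermat.Agent.S17

open ModularCurve AlgebraicCurve Polynomial Height
open Fermat.Agent.S24 Fermat.Agent.ES.M Fermat.Agent.ES.H Fermat.Agent.S15 Fermat.Agent.S26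
  Fermat.Agent.S27

variable (N : ℕ) [NeZero N]

/-- **PlT (any constant) + (U) ⇒ PlN.** -/
theorem s17pna_plN {P : Type*} (cl : P → JZero N) (H : P → ℝ) (t : FF N)
    (hnc : ∀ c : Kb, t ≠ algebraMap Kb (FF N) c)
    (htΓ : ∀ σ : Kb ≃ₐ[ℚ] Kb, galAct N σ • t = t)
    (ht : ∀ v : Place Kb (FF N), v ≠ cuspInf N → 0 ≤ v.ord t)
    (a : ℝ) (ha : 0 ≤ a) (hT : S17hyPlT cl H a)
    (hU : ∃ C : ℝ, ∀ p : P, S17poGood N (cl p) →
      s17haAbsQ (s17ppChow N t (cl p)) ≤ H p + C) :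
    S17hxPlN cl H := by
  classical
  obtain ⟨𝒞, h𝒞⟩ := s17po_exists_pool N
  obtain ⟨E, hEfin, hE⟩ := s17png_exists_field N 𝒞
  haveI : NumberField ↥E := { to_charZero := inferInstance, to_finiteDimensional := hEfin }
  obtain ⟨C, hC⟩ := hU
  set b : Fin 𝒞.card → JZero N := fun k => ((𝒞.equivFin.symm k : 𝒞) : JZero N) with hb
  have hbmem : ∀ k, b k ∈ 𝒞 := fun k => (𝒞.equivFin.symm k).2
  choose c' hc' using fun k : Fin 𝒞.card => hT (-(b k))
  set C' : ℝ := ∑ k, |c' k| with hC'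
  have hcle : ∀ k, c' k ≤ C' := fun k =>
    (le_abs_self _).trans (Finset.single_le_sum (f := fun k => |c' k|)
      (fun _ _ => abs_nonneg _) (Finset.mem_univ k))
  refine s17pp_plN N cl H E t hnc htΓ ht b (fun k σ hσ => hE _ (hbmem k) σ hσ) a (C' + C)
    ha ?_
  intro p _
  obtain ⟨c, hc𝒞, hgood⟩ := h𝒞 (cl p)
  set k : Fin 𝒞.card := 𝒞.equivFin ⟨c, hc𝒞⟩ with hk
  have hbk : b k = c := by
    rw [hb]
    simp [hk]
  obtain ⟨p₁, hp₁, hH⟩ := hc' k p
  have hcl : cl p₁ = cl p + b k := by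
    have : cl p₁ = cl p - -(b k) := eq_sub_of_add_eq' hp₁
    rw [this, sub_neg_eq_add]
  refine ⟨k, ?_⟩
  rw [← hcl]
  have hg : S17poGood N (cl p₁) := by rw [hcl, hbk]; exact hgood
  have h1 := hC p₁ hg
  have h2 := hcle k
  linarith

/-- **(T) on `NS` + `hdec` + (U) ⇒ PlN.** -/
theorem s17pna_plN_on {P : Type*} (cl : P → JZero N) (H : P → ℝ) (t : FF N)
    (hnc : ∀ c : Kb, t ≠ algebraMap Kb (FF N) c)
    (htΓ : ∀ σ : Kb ≃ₐ[ℚ] Kb, galAct N σ • t = t)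
    (ht : ∀ v : Place Kb (FF N), v ≠ cuspInf N → 0 ≤ v.ord t)
    (a : ℝ) (ha : 0 ≤ a) (NS : Set (JZero N))
    (hdec : ∀ g : JZero N, ∃ u ∈ NS, ∃ v ∈ NS, u + v = g)
    (hT : S17t9PlTOn cl H a NS)
    (hU : ∃ C : ℝ, ∀ p : P, S17poGood N (cl p) →
      s17haAbsQ (s17ppChow N t (cl p)) ≤ H p + C) :
    S17hxPlN cl H :=
  s17pna_plN N cl H t hnc htΓ ht (a ^ 2) (sq_nonneg a) (s17t9_plT_comp ha NS hT hdec) hU

/-- **PlT (any constant) + (U) ⇒ PlN**, with the function `t` of `S17/RatFn.lean`. -/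
theorem s17pna_plN' (hN : 2 ≤ N) {P : Type*} (cl : P → JZero N) (H : P → ℝ)
    (a : ℝ) (ha : 0 ≤ a) (hT : S17hyPlT cl H a)
    (hU : ∀ t : FF N, (∀ σ : Kb ≃ₐ[ℚ] Kb, galAct N σ • t = t) →
      (∀ v : Place Kb (FF N), v ≠ cuspInf N → 0 ≤ v.ord t) →
      (∀ c : Kb, t ≠ algebraMap Kb (FF N) c) →
      ∃ C : ℝ, ∀ p : P, S17poGood N (cl p) →
        s17haAbsQ (s17ppChow N t (cl p)) ≤ H p + C) :
    S17hxPlN cl H := by
  obtain ⟨t, htΓ, ht, hinf, -⟩ := s17rf_exists_ord N hN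
  have hnc : ∀ c : Kb, t ≠ algebraMap Kb (FF N) c := by
    intro c hc
    rw [hc, PlaceAux.ord_algebraMap] at hinf
    exact lt_irrefl _ hinf
  exact s17pna_plN N cl H t hnc htΓ ht a ha hT (hU t htΓ ht hnc)

/-- **(T) on `NS` + `hdec` + (U) ⇒ PlN**, with the function `t` of `S17/RatFn.lean`. -/
theorem s17pna_plN_on' (hN : 2 ≤ N) {P : Type*} (cl : P → JZero N) (H : P → ℝ)
    (a : ℝ) (ha : 0 ≤ a) (NS : Set (JZero N))
    (hdec : ∀ g : JZero N, ∃ u ∈ NS, ∃ v ∈ NS, u + v = g)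
    (hT : S17t9PlTOn cl H a NS)
    (hU : ∀ t : FF N, (∀ σ : Kb ≃ₐ[ℚ] Kb, galAct N σ • t = t) →
      (∀ v : Place Kb (FF N), v ≠ cuspInf N → 0 ≤ v.ord t) →
      (∀ c : Kb, t ≠ algebraMap Kb (FF N) c) →
      ∃ C : ℝ, ∀ p : P, S17poGood N (cl p) →
        s17haAbsQ (s17ppChow N t (cl p)) ≤ H p + C) :
    S17hxPlN cl H :=
  s17pna_plN' N hN cl H (a ^ 2) (sq_nonneg a) (s17t9_plT_comp ha NS hT hdec) hU

end Fermat.Agent.S17

end
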