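/-
S17 sprint, layer H — **PlN AT THE STAGE LEVEL, AFFINE FORM, ANY CONSTANT `a`** (helper40).

The twin of S17/PlNAffine.lean with (T) in the free-constant shape `S17hyPlT cl H a`, `0 ≤ a`
(helper31's test 07:37Z: PlT for ALL `g` is landed with `a = 4`, `s17twr_plT4`).  Inside:
`s17pna_plN` (S17/PlNGoodA.lean) + `s17pnu_U` (S17/PlNU.lean) instead of `s17pnu_plN`.

* **`s17pnx_plN_neg`** : tuple `e` of class `(−1) • η + β c₀`, CHOW BLOCK `hG` and VISIBILITY `hvis`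
                         for `e`, (T) with ANY `a ≥ 0` ⇒ `S17hxPlN (s17sxCl …) (s17sxHt s)`;
* **`s17pnx_plN_pos`** : the same for class `η + β c₀`;
* `s17pnx_plN_taut`    : the tautological tuple (`k = 1`, `c₀ = 0`).
-/
import Fermat.Agent.S17.PlNAffine
import Fermat.Agent.S17.PlNGoodA

set_option autoImplicit false
set_option linter.unusedVariables false
set_option linter.unusedSectionVars false
set_option linter.style.haveILetI false
set_option linter.style.longLine false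

noncomputable section

namespace Fermat.Agent.S17

open ModularCurve AlgebraicCurve Module TensorProduct IntermediateField
open Fermat.Agent.S24 Fermat.Agent.ES.M Fermat.Agent.ES.H Fermat.Agent.S15 Fermat.Agent.S26
  Fermat.Agent.S27 Fermat.Agent.DEU

universe y

variable (N : ℕ) [NeZero N] [IsCurveOver Kb (FF N)] [Algebra.EssFiniteType Kb (FF N)]
  {L : Type} [Field L] [Algebra Kb L]
  [Algebra (s27gfOm Kb (FF N) (genusFF Kb (FF N))) L]
  [IsScalarTower Kb (s27gfOm Kb (FF N) (genusFF Kb (FF N))) L]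
  [IsAlgClosed L] [Algebra.IsAlgebraic (s27gfOm Kb (FF N) (genusFF Kb (FF N))) L]
  {FL : Type y} [Field FL] [Algebra Kb FL] [Algebra (FF N) FL] [Algebra L FL]
  [IsScalarTower Kb (FF N) FL] [IsScalarTower Kb L FL]
  (hld : Function.Injective (s26gspMu Kb (FF N) L FL)) (hgen : S26gspGen Kb (FF N) L FL)
  {x : FF N} (hx : Transcendental Kb x)
  [FiniteDimensional ↥(IntermediateField.adjoin Kb {x}) (FF N)]
  [Algebra.IsSeparable ↥(IntermediateField.adjoin Kb {x}) (FF N)]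
  (G₀ : Divisor Kb (FF N)) (hG₀ : Divisor.degree G₀ = (genusFF Kb (FF N) : ℤ))

variable {ι : Type*} [Fintype ι]

/-- **PlN at the stage level, tuple of class `−η + β c₀`.** -/
theorem s17pnx_plN_neg (c₀ : JZero N) (e : Fin (genusFF Kb (FF N)) → FF N →ₐ[Kb] L)
    (he : (s27dclPkg hld hgen hx G₀ hG₀).cl
        (fun i => (s27dclPkg hld hgen hx G₀ hG₀).pt (e i)) =
      (-1 : ℤ) • ((s27dclPkg hld hgen hx G₀ hG₀).cl
        (fun i => (s27dclPkg hld hgen hx G₀ hG₀).pt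
          (s27pfTaut (K := Kb) (F := FF N) (g := genusFF Kb (FF N)) (L := L) i)))
        + s27bcBeta hld hgen (s26gspf_hall hx) c₀)
    (s : ι → L) (hs : s ≠ 0) (t : FF N)
    (hnc : ∀ c : Kb, t ≠ algebraMap Kb (FF N) c)
    (htΓ : ∀ σ : Kb ≃ₐ[ℚ] Kb, galAct N σ • t = t)
    (ht : ∀ v : Place Kb (FF N), v ≠ cuspInf N → 0 ≤ v.ord t)
    (c : Fin (genusFF Kb (FF N) + 1) → ι → Kb) (Φ : L) (hΦ : Φ ≠ 0)
    (hG : ∀ n, s17pvLin c s n = Φ * s17cvChow (fun i => e i t) n)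
    (hvis : ∀ (P : S17plPlace Kb L) (α : ι) (hα : S17plIsMin P.W s α)
      (Q : Fin (genusFF Kb (FF N)) → Place Kb (FF N)),
      (∀ i, S27ptIsCentre P.W (e i) (Q i)) →
      S17poGood N (s17pnuCl N Q) → ∃ j₀, s17pvLinK c (s17plVal P s α hα) j₀ ≠ 0)
    (a : ℝ) (ha : 0 ≤ a)
    (hT : S17hyPlT (s17sxCl N (L := L) hld hgen hx G₀ hG₀) (s17sxHt s) a) :
    S17hxPlN (s17sxCl N (L := L) hld hgen hx G₀ hG₀) (s17sxHt s) := by
  classical
  choose Q hQ using s17pnf_exists_centre N (L := L) hx e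
  choose α hα using fun P : S17plPlace Kb L => s17pl_exists_min P.W hs
  have hH : (fun P : S17plPlace Kb L => s17haAbsQ (s17plVal P s (α P) (hα P))) = s17sxHt s := by
    funext P
    exact (s17sxHt_eq s P (α P) (hα P)).symm
  -- `[Σ Q − g∞] = −cl + (c₀ + δ)`
  have hcl : ∀ P : S17plPlace Kb L, s17pnuCl N (Q P) =
      (fun p => -s17sxCl N (L := L) hld hgen hx G₀ hG₀ p) P + (c₀ + s17obDelta N G₀) := by
    intro P
    rw [s17pnf_cl N hld hgen hx G₀ hG₀ (-1) c₀ e he P (Q P) (hQ P)]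
    simp
  -- (T) for `−cl`, then for the shifted centre
  have hTn : S17hyPlT (fun p => -s17sxCl N (L := L) hld hgen hx G₀ hG₀ p) (s17sxHt s) a :=
    s17nn_plT_neg hT
  have hT' : S17hyPlT (fun P : S17plPlace Kb L => s17pnuCl N (Q P))
      (fun P : S17plPlace Kb L => s17haAbsQ (s17plVal P s (α P) (hα P))) a := by
    rw [hH]
    exact s17nsh_plT _ _ (s17sxHt s) a (c₀ + s17obDelta N G₀) hcl hTn
  have hN' := s17pna_plN N (fun P : S17plPlace Kb L => s17pnuCl N (Q P))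
    (fun P : S17plPlace Kb L => s17haAbsQ (s17plVal P s (α P) (hα P))) t hnc htΓ ht a ha hT'
    (s17pnu_U N s e t ht c Φ hΦ hG (fun P : S17plPlace Kb L => P) α hα Q hQ
      (fun P hgood => hvis P (α P) (hα P) (Q P) (hQ P) hgood))
  rw [hH] at hN' hT'
  have hNn : S17hxPlN (fun p => -s17sxCl N (L := L) hld hgen hx G₀ hG₀ p) (s17sxHt s) :=
    s17nsh_plN_sub (fun P : S17plPlace Kb L => s17pnuCl N (Q P)) _ (s17sxHt s) a
      ha (c₀ + s17obDelta N G₀) hcl hT' hN'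
  exact s17nn_plN_of_neg hNn

/-- **PlN at the stage level, tuple of class `η + β c₀`.** -/
theorem s17pnx_plN_pos (c₀ : JZero N) (e : Fin (genusFF Kb (FF N)) → FF N →ₐ[Kb] L)
    (he : (s27dclPkg hld hgen hx G₀ hG₀).cl
        (fun i => (s27dclPkg hld hgen hx G₀ hG₀).pt (e i)) =
      (1 : ℤ) • ((s27dclPkg hld hgen hx G₀ hG₀).cl
        (fun i => (s27dclPkg hld hgen hx G₀ hG₀).pt
          (s27pfTaut (K := Kb) (F := FF N) (g := genusFF Kb (FF N)) (L := L) i)))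
        + s27bcBeta hld hgen (s26gspf_hall hx) c₀)
    (s : ι → L) (hs : s ≠ 0) (t : FF N)
    (hnc : ∀ c : Kb, t ≠ algebraMap Kb (FF N) c)
    (htΓ : ∀ σ : Kb ≃ₐ[ℚ] Kb, galAct N σ • t = t)
    (ht : ∀ v : Place Kb (FF N), v ≠ cuspInf N → 0 ≤ v.ord t)
    (c : Fin (genusFF Kb (FF N) + 1) → ι → Kb) (Φ : L) (hΦ : Φ ≠ 0)
    (hG : ∀ n, s17pvLin c s n = Φ * s17cvChow (fun i => e i t) n)
    (hvis : ∀ (P : S17plPlace Kb L) (α : ι) (hα : S17plIsMin P.W s α)
      (Q : Fin (genusFF Kb (FF N)) → Place Kb (FF N)),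
      (∀ i, S27ptIsCentre P.W (e i) (Q i)) →
      S17poGood N (s17pnuCl N Q) → ∃ j₀, s17pvLinK c (s17plVal P s α hα) j₀ ≠ 0)
    (a : ℝ) (ha : 0 ≤ a)
    (hT : S17hyPlT (s17sxCl N (L := L) hld hgen hx G₀ hG₀) (s17sxHt s) a) :
    S17hxPlN (s17sxCl N (L := L) hld hgen hx G₀ hG₀) (s17sxHt s) := by
  classical
  choose Q hQ using s17pnf_exists_centre N (L := L) hx e
  choose α hα using fun P : S17plPlace Kb L => s17pl_exists_min P.W hs
  have hH : (fun P : S17plPlace Kb L => s17haAbsQ (s17plVal P s (α P) (hα P))) = s17sxHt s := by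
    funext P
    exact (s17sxHt_eq s P (α P) (hα P)).symm
  have hcl : ∀ P : S17plPlace Kb L, s17pnuCl N (Q P) =
      s17sxCl N (L := L) hld hgen hx G₀ hG₀ P + (c₀ + s17obDelta N G₀) := by
    intro P
    rw [s17pnf_cl N hld hgen hx G₀ hG₀ 1 c₀ e he P (Q P) (hQ P)]
    simp
  have hT' : S17hyPlT (fun P : S17plPlace Kb L => s17pnuCl N (Q P))
      (fun P : S17plPlace Kb L => s17haAbsQ (s17plVal P s (α P) (hα P))) a := by
    rw [hH]
    exact s17nsh_plT _ _ (s17sxHt s) a (c₀ + s17obDelta N G₀) hcl hT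
  have hN' := s17pna_plN N (fun P : S17plPlace Kb L => s17pnuCl N (Q P))
    (fun P : S17plPlace Kb L => s17haAbsQ (s17plVal P s (α P) (hα P))) t hnc htΓ ht a ha hT'
    (s17pnu_U N s e t ht c Φ hΦ hG (fun P : S17plPlace Kb L => P) α hα Q hQ
      (fun P hgood => hvis P (α P) (hα P) (Q P) (hQ P) hgood))
  rw [hH] at hN' hT'
  exact s17nsh_plN_sub (fun P : S17plPlace Kb L => s17pnuCl N (Q P)) _ (s17sxHt s) a
    ha (c₀ + s17obDelta N G₀) hcl hT' hN'

/-- **PlN at the stage level, tautological tuple, any constant `a`.** -/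
theorem s17pnx_plN_taut (s : ι → L) (hs : s ≠ 0) (t : FF N)
    (hnc : ∀ c : Kb, t ≠ algebraMap Kb (FF N) c)
    (htΓ : ∀ σ : Kb ≃ₐ[ℚ] Kb, galAct N σ • t = t)
    (ht : ∀ v : Place Kb (FF N), v ≠ cuspInf N → 0 ≤ v.ord t)
    (c : Fin (genusFF Kb (FF N) + 1) → ι → Kb) (Φ : L) (hΦ : Φ ≠ 0)
    (hG : ∀ n, s17pvLin c s n = Φ * s17cvChow
      (fun i => s27pfTaut (K := Kb) (F := FF N) (g := genusFF Kb (FF N)) (L := L) i t) n)
    (hvis : ∀ (P : S17plPlace Kb L) (α : ι) (hα : S17plIsMin P.W s α)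
      (Q : Fin (genusFF Kb (FF N)) → Place Kb (FF N)),
      (∀ i, S27ptIsCentre P.W
        (s27pfTaut (K := Kb) (F := FF N) (g := genusFF Kb (FF N)) (L := L) i) (Q i)) →
      S17poGood N (s17pnuCl N Q) → ∃ j₀, s17pvLinK c (s17plVal P s α hα) j₀ ≠ 0)
    (a : ℝ) (ha : 0 ≤ a)
    (hT : S17hyPlT (s17sxCl N (L := L) hld hgen hx G₀ hG₀) (s17sxHt s) a) :
    S17hxPlN (s17sxCl N (L := L) hld hgen hx G₀ hG₀) (s17sxHt s) :=
  s17pnx_plN_pos N hld hgen hx G₀ hG₀ 0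
    (fun i => s27pfTaut (K := Kb) (F := FF N) (g := genusFF Kb (FF N)) (L := L) i)
    (by rw [one_smul, map_zero, add_zero]) s hs t hnc htΓ ht c Φ hΦ hG hvis a ha hT

end Fermat.Agent.S17

end
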