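/-
S17 sprint, sub-integration **[PlN]**, **PlN-FINAL, L-level, `ℚ̄`-places only** (helper32): (N) on
the CLOSED stage in the LITERAL input shape of PlM-FINAL (S17/PlMFinal.lean) and PlT-FINAL-K
(S17/PlTFinalK.lean): for the SAME finite tuple `Fam : ι → L`, base-point-free at the `ℚ̄`-places
w.r.t. the lifted local equations `b_L = s17pmtB (s27indB ψ β 1)` (ruling (A)),

  `S17hxPlN (s17sxCl N hld hgen hx G₀ hG₀) (s17sxHt Fam)`

from the TWO open leaves of `s17pnt_plN` (S17/PlNTop.lean, helper74) only: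
  (L1) `hsec`  : CHOW SECTIONS of the opposite tuple `q (−1)`;
  (L2) `hunit` : U1, the local equation is a unit at the places with `−x_P + δ` GOOD.
Everything else of `s17pnt_plN` is plugged in here:
  `hint` (the local equations are integral: `s27pt_idx_mem`), `hq` (`q (−1)` has class `−η`:
  `S27pfFam`), `hFam` (`= hF`, or `hF` after a change of the local equations by units) and
  (T) (`s17ptk_plT`, `a = 4`).

* `s17pnk_idx_mem`  : a class-indexed local equation lies in `W`;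
* `s17pnk_hint`     : `b_L P.W ∈ P.W` at every `ℚ̄`-place;
* `s17pnk_hq`       : `cl (q (−1)) = −η`;
* **`s17pnk_plN`**   : (N) from (L1), (L2) for `y = b_L`;
* **`s17pnk_plN_y`** : (N) from (L1), (L2) for ANY `y` with `b_L W = u · y W` (`u ∈ Wˣ`) and
                       `y P.W ∈ P.W`;
* **`s17pnk_plMTN`** : the three conjuncts (M) (3, 6), (T) (4), (N) for `(s17sxCl, s17sxHt Fam)`.
-/
import Fermat.Agent.S17.PlTFinalK
import Fermat.Agent.S17.PlNTop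

set_option autoImplicit false
set_option linter.unusedVariables false
set_option linter.unusedSectionVars false
set_option linter.style.haveILetI false
set_option linter.style.longLine false

noncomputable section

namespace Fermat.Agent.S17

open ModularCurve AlgebraicCurve Polynomial Height Module TensorProduct IntermediateField
open Fermat.Agent.S24 Fermat.Agent.ES.M Fermat.Agent.ES.H Fermat.Agent.S15 Fermat.Agent.S26
  Fermat.Agent.S27 Fermat.Agent.DEU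

/-! ### formal -/

section Formal

variable {𝔏 : Type*} [Field 𝔏] [Algebra Kb 𝔏]

/-- base-point-freeness at the `ℚ̄`-places does not depend on the choice of the local
equations (`S17pmkBpf` form). -/
theorem s17pnk_bpf_congr {ι : Type*} {y y' : ValuationSubring 𝔏 → 𝔏} {M : ℕ} {X : ι → 𝔏}
    (hX : S17pmkBpf Kb y' M X)
    (hyy : ∀ P : S17plPlace Kb 𝔏, ∃ u, S27IsUnitIn P.W u ∧ y' P.W = u * y P.W) :
    S17pmkBpf Kb y M X := by
  intro P
  obtain ⟨hmem, i₀, hi₀⟩ := hX P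
  obtain ⟨u, hu, hyu⟩ := hyy P
  have hui : S27IsUnitIn P.W u⁻¹ := ⟨inv_ne_zero hu.1, hu.2.2, by rw [inv_inv]; exact hu.2.1⟩
  have key : ∀ i, X i * y P.W ^ M = (X i * y' P.W ^ M) * (u⁻¹) ^ M := by
    intro i
    rw [hyu, mul_pow, mul_assoc, mul_comm (u ^ M * y P.W ^ M), ← mul_assoc ((u⁻¹) ^ M),
      ← mul_pow, inv_mul_cancel₀ hu.1, one_pow, one_mul]
  refine ⟨fun i => ?_, i₀, ?_⟩
  · rw [key i]
    exact P.W.mul_mem _ _ (hmem i) (pow_mem hui.2.1 M)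
  · rw [key i₀]
    exact s17tr_unit_mul hi₀ (s17tr_unit_pow hui M)

end Formal

/-! ### the stage: a class-indexed local equation is integral -/

section Idx

universe u v y

variable {K : Type u} {F : Type v} [Field K] [IsAlgClosed K] [CharZero K] [Field F] [Algebra K F]
  [IsCurveOver K F] [Algebra.EssFiniteType K F]
  {L : Type (max u v)} [Field L] [Algebra K L]
  [Algebra (s27gfOm K F (genusFF K F)) L] [IsScalarTower K (s27gfOm K F (genusFF K F)) L]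
  [IsAlgClosed L] [Algebra.IsAlgebraic (s27gfOm K F (genusFF K F)) L]
  {FL : Type y} [Field FL] [Algebra K FL] [Algebra F FL] [Algebra L FL]
  [IsScalarTower K F FL] [IsScalarTower K L FL]
  (hld : Function.Injective (s26gspMu K F L FL)) (hgen : S26gspGen K F L FL)
  {x : F} (hx : Transcendental K x)
  [FiniteDimensional ↥(IntermediateField.adjoin K {x}) F]
  [Algebra.IsSeparable ↥(IntermediateField.adjoin K {x}) F]

/-- **EFF, class form**: a class-indexed local equation lies in `W`. -/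
theorem s17pnk_idx_mem (Ao : Divisor K F) (W : ValuationSubring L) (c : Pic0 L FL) (y : L)
    (hy : S27icIdx hld hgen hx Ao W c y) : y ∈ W := by
  rcases hy with ⟨-, hu⟩ | ⟨n, R, B, hB, -, -, hidx⟩
  · exact hu.2.1
  · exact s27pt_idx_mem hidx

end Idx

/-! ### the closed stage -/

section Stage

variable (N : ℕ) [NeZero N] [IsCurveOver Kb (FF N)] [Algebra.EssFiniteType Kb (FF N)]
variable {x : FF N} (hx : Transcendental Kb x)
  [FiniteDimensional ↥(IntermediateField.adjoin Kb {x}) (FF N)]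
  [Algebra.IsSeparable ↥(IntermediateField.adjoin Kb {x}) (FF N)]
  (G₀ : Divisor Kb (FF N)) (hG₀ : Divisor.degree G₀ = (genusFF Kb (FF N) : ℤ))

/-- **`hint`**: the lifted local equations `b_L` are integral at the `ℚ̄`-places. -/
theorem s17pnk_hint (hg : 0 < genusFF Kb (FF N)) (O : Place Kb (FF N))
    (hc : S27cstIsConst x G₀ O)
    (q : ℤ → Fin (genusFF Kb (FF N)) → FF N →ₐ[Kb] s27mtL Kb (FF N))
    (hq : S27pfFam (s27ftPkg hx G₀ hG₀) q)
    (P : S17plPlace Kb (s27mtL Kb (FF N))) :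
    s17pmtB (L := s27mtL Kb (FF N))
      (s27indB (s27pfPsi (s27ftPkg hx G₀ hG₀) (s27dcl_halg (x := x)) hq)
        (s27beta (g := genusFF Kb (FF N)) (G₀ + s27cstAo G₀ O)) 1) P.W ∈ P.W := by
  obtain ⟨y, hy, hyu⟩ := s17ttp_eq_exists N hx G₀ hG₀ hg O hc q hq
  obtain ⟨u, hu, he⟩ := hyu P.W P.hKW
  rw [he]
  exact P.W.mul_mem _ _ hu.2.1 (s17pnk_idx_mem _ _ hx _ P.W _ _ (hy P.W P.hKW))

/-- **`hq`**: the tuple `q (−1)` of the family has class `−η`. -/
theorem s17pnk_hq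
    (q : ℤ → Fin (genusFF Kb (FF N)) → FF N →ₐ[Kb] s27mtL Kb (FF N))
    (hq : S27pfFam (s27ftPkg hx G₀ hG₀) q) :
    s27pfCl (s27dclPkg (FL := s27mtFL Kb (FF N)) (s27stg_hld Kb (FF N) (s27mtL Kb (FF N)))
        (s27stg_hgen Kb (FF N) (s27mtL Kb (FF N))) hx G₀ hG₀) (q (-1)) =
      (-1 : ℤ) • s27pfCl (s27dclPkg (FL := s27mtFL Kb (FF N))
        (s27stg_hld Kb (FF N) (s27mtL Kb (FF N)))
        (s27stg_hgen Kb (FF N) (s27mtL Kb (FF N))) hx G₀ hG₀)
        (s27pfTaut (K := Kb) (F := FF N) (g := genusFF Kb (FF N)) (L := s27mtL Kb (FF N))) :=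
  (hq (-1) (by norm_num)).2

/-- **[PlN] on the closed stage, for ANY local equations `y`** equal to the lifted `b_L` up to
units and integral at the `ℚ̄`-places: (N) from (L1) `hsec` and (L2) `hunit` for `y`. -/
theorem s17pnk_plN_y (hg : 0 < genusFF Kb (FF N)) (O : Place Kb (FF N))
    (hc : S27cstIsConst x G₀ O)
    (q : ℤ → Fin (genusFF Kb (FF N)) → FF N →ₐ[Kb] s27mtL Kb (FF N))
    (hq : S27pfFam (s27ftPkg hx G₀ hG₀) q)
    {ι : Type} [Fintype ι] (N₀ : ℕ) (hN₀ : 0 < N₀) (Fam : ι → s27mtL Kb (FF N))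
    (hF : S17pmkBpf Kb
      (s17pmtB (L := s27mtL Kb (FF N))
        (s27indB (s27pfPsi (s27ftPkg hx G₀ hG₀) (s27dcl_halg (x := x)) hq)
          (s27beta (g := genusFF Kb (FF N)) (G₀ + s27cstAo G₀ O)) 1)) N₀ Fam)
    (y : ValuationSubring (s27mtL Kb (FF N)) → s27mtL Kb (FF N))
    (hyu : ∀ P : S17plPlace Kb (s27mtL Kb (FF N)), ∃ u, S27IsUnitIn P.W u ∧
      s17pmtB (L := s27mtL Kb (FF N))
        (s27indB (s27pfPsi (s27ftPkg hx G₀ hG₀) (s27dcl_halg (x := x)) hq)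
          (s27beta (g := genusFF Kb (FF N)) (G₀ + s27cstAo G₀ O)) 1) P.W = u * y P.W)
    (hint : ∀ P : S17plPlace Kb (s27mtL Kb (FF N)), y P.W ∈ P.W)
    (t : FF N)
    (hnc : ∀ c : Kb, t ≠ algebraMap Kb (FF N) c)
    (htΓ : ∀ σ : Kb ≃ₐ[ℚ] Kb, galAct N σ • t = t)
    (ht : ∀ v : Place Kb (FF N), v ≠ cuspInf N → 0 ≤ v.ord t)
    (M : ℕ)
    (hsec : ∀ (P : S17plPlace Kb (s27mtL Kb (FF N))) (n : Fin (genusFF Kb (FF N) + 1)),
      s17cvChow (fun i => q (-1) i t) n * y P.W ^ M ∈ P.W)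
    (hunit : ∀ (P : S17plPlace Kb (s27mtL Kb (FF N))),
      S17poGood N (-s17coCl (L := s27mtL Kb (FF N)) (FL := s27mtFL Kb (FF N))
        (s27stg_hld Kb (FF N) (s27mtL Kb (FF N))) (s27stg_hgen Kb (FF N) (s27mtL Kb (FF N)))
        hx G₀ hG₀ P + s17pnoShift N G₀) →
      S27IsUnitIn P.W (y P.W))
    (hopen : S17luOpen N) :
    S17hxPlN (s17sxCl N (L := s27mtL Kb (FF N)) (FL := s27mtFL Kb (FF N))
        (s27stg_hld Kb (FF N) (s27mtL Kb (FF N))) (s27stg_hgen Kb (FF N) (s27mtL Kb (FF N)))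
        hx G₀ hG₀) (s17sxHt Fam) :=
  s17pnt_plN N (FL := s27mtFL Kb (FF N)) (s27stg_hld Kb (FF N) (s27mtL Kb (FF N)))
    (s27stg_hgen Kb (FF N) (s27mtL Kb (FF N))) hx G₀ hG₀ (q (-1)) (s17pnk_hq N hx G₀ hG₀ q hq)
    y hint N₀ hN₀ Fam (s17pnk_bpf_congr hF hyu) t hnc htΓ ht M hsec hunit hopen 4 (by norm_num)
    (s17ptk_plT N hx G₀ hG₀ hg O hc q hq N₀ Fam hF)

/-- **[PlN] on the closed stage**, PlM-FINAL's input shape: (N) from (L1) `hsec` and (L2) `hunit`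
for the lifted local equations `b_L` themselves. -/
theorem s17pnk_plN (hg : 0 < genusFF Kb (FF N)) (O : Place Kb (FF N))
    (hc : S27cstIsConst x G₀ O)
    (q : ℤ → Fin (genusFF Kb (FF N)) → FF N →ₐ[Kb] s27mtL Kb (FF N))
    (hq : S27pfFam (s27ftPkg hx G₀ hG₀) q)
    {ι : Type} [Fintype ι] (N₀ : ℕ) (hN₀ : 0 < N₀) (Fam : ι → s27mtL Kb (FF N))
    (hF : S17pmkBpf Kb
      (s17pmtB (L := s27mtL Kb (FF N))
        (s27indB (s27pfPsi (s27ftPkg hx G₀ hG₀) (s27dcl_halg (x := x)) hq)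
          (s27beta (g := genusFF Kb (FF N)) (G₀ + s27cstAo G₀ O)) 1)) N₀ Fam)
    (t : FF N)
    (hnc : ∀ c : Kb, t ≠ algebraMap Kb (FF N) c)
    (htΓ : ∀ σ : Kb ≃ₐ[ℚ] Kb, galAct N σ • t = t)
    (ht : ∀ v : Place Kb (FF N), v ≠ cuspInf N → 0 ≤ v.ord t)
    (M : ℕ)
    (hsec : ∀ (P : S17plPlace Kb (s27mtL Kb (FF N))) (n : Fin (genusFF Kb (FF N) + 1)),
      s17cvChow (fun i => q (-1) i t) n *
        s17pmtB (L := s27mtL Kb (FF N))
          (s27indB (s27pfPsi (s27ftPkg hx G₀ hG₀) (s27dcl_halg (x := x)) hq)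
            (s27beta (g := genusFF Kb (FF N)) (G₀ + s27cstAo G₀ O)) 1) P.W ^ M ∈ P.W)
    (hunit : ∀ (P : S17plPlace Kb (s27mtL Kb (FF N))),
      S17poGood N (-s17coCl (L := s27mtL Kb (FF N)) (FL := s27mtFL Kb (FF N))
        (s27stg_hld Kb (FF N) (s27mtL Kb (FF N))) (s27stg_hgen Kb (FF N) (s27mtL Kb (FF N)))
        hx G₀ hG₀ P + s17pnoShift N G₀) →
      S27IsUnitIn P.W
        (s17pmtB (L := s27mtL Kb (FF N))
          (s27indB (s27pfPsi (s27ftPkg hx G₀ hG₀) (s27dcl_halg (x := x)) hq)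
            (s27beta (g := genusFF Kb (FF N)) (G₀ + s27cstAo G₀ O)) 1) P.W))
    (hopen : S17luOpen N) :
    S17hxPlN (s17sxCl N (L := s27mtL Kb (FF N)) (FL := s27mtFL Kb (FF N))
        (s27stg_hld Kb (FF N) (s27mtL Kb (FF N))) (s27stg_hgen Kb (FF N) (s27mtL Kb (FF N)))
        hx G₀ hG₀) (s17sxHt Fam) :=
  s17pnk_plN_y N hx G₀ hG₀ hg O hc q hq N₀ hN₀ Fam hF _
    (fun P => ⟨1, ⟨one_ne_zero, P.W.one_mem, by rw [inv_one]; exact P.W.one_mem⟩,
      (one_mul _).symm⟩)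
    (fun P => s17pnk_hint N hx G₀ hG₀ hg O hc q hq P) t hnc htΓ ht M hsec hunit hopen

/-- **(M) (3, 6), (T) (4) and (N) together**, for the ONE base-point-free tuple `Fam`: the three
conjuncts of `S17sxStmtAt N 3 4 6`, from `hF` and the two leaves (L1), (L2) of PlN. -/
theorem s17pnk_plMTN (hg : 0 < genusFF Kb (FF N)) (O : Place Kb (FF N))
    (hc : S27cstIsConst x G₀ O)
    (q : ℤ → Fin (genusFF Kb (FF N)) → FF N →ₐ[Kb] s27mtL Kb (FF N))
    (hq : S27pfFam (s27ftPkg hx G₀ hG₀) q)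
    {ι : Type} [Fintype ι] (N₀ : ℕ) (hN₀ : 0 < N₀) (Fam : ι → s27mtL Kb (FF N))
    (hF : S17pmkBpf Kb
      (s17pmtB (L := s27mtL Kb (FF N))
        (s27indB (s27pfPsi (s27ftPkg hx G₀ hG₀) (s27dcl_halg (x := x)) hq)
          (s27beta (g := genusFF Kb (FF N)) (G₀ + s27cstAo G₀ O)) 1)) N₀ Fam)
    (hF0 : Fam ≠ 0)
    (t : FF N)
    (hnc : ∀ c : Kb, t ≠ algebraMap Kb (FF N) c)
    (htΓ : ∀ σ : Kb ≃ₐ[ℚ] Kb, galAct N σ • t = t)
    (ht : ∀ v : Place Kb (FF N), v ≠ cuspInf N → 0 ≤ v.ord t)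
    (M : ℕ)
    (hsec : ∀ (P : S17plPlace Kb (s27mtL Kb (FF N))) (n : Fin (genusFF Kb (FF N) + 1)),
      s17cvChow (fun i => q (-1) i t) n *
        s17pmtB (L := s27mtL Kb (FF N))
          (s27indB (s27pfPsi (s27ftPkg hx G₀ hG₀) (s27dcl_halg (x := x)) hq)
            (s27beta (g := genusFF Kb (FF N)) (G₀ + s27cstAo G₀ O)) 1) P.W ^ M ∈ P.W)
    (hunit : ∀ (P : S17plPlace Kb (s27mtL Kb (FF N))),
      S17poGood N (-s17coCl (L := s27mtL Kb (FF N)) (FL := s27mtFL Kb (FF N))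
        (s27stg_hld Kb (FF N) (s27mtL Kb (FF N))) (s27stg_hgen Kb (FF N) (s27mtL Kb (FF N)))
        hx G₀ hG₀ P + s17pnoShift N G₀) →
      S27IsUnitIn P.W
        (s17pmtB (L := s27mtL Kb (FF N))
          (s27indB (s27pfPsi (s27ftPkg hx G₀ hG₀) (s27dcl_halg (x := x)) hq)
            (s27beta (g := genusFF Kb (FF N)) (G₀ + s27cstAo G₀ O)) 1) P.W))
    (hopen : S17luOpen N) :
    S17hyPlM (s17sxCl N (L := s27mtL Kb (FF N)) (FL := s27mtFL Kb (FF N))
        (s27stg_hld Kb (FF N) (s27mtL Kb (FF N))) (s27stg_hgen Kb (FF N) (s27mtL Kb (FF N)))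
        hx G₀ hG₀) (s17sxHt Fam) 3 6 ∧
    S17hyPlT (s17sxCl N (L := s27mtL Kb (FF N)) (FL := s27mtFL Kb (FF N))
        (s27stg_hld Kb (FF N) (s27mtL Kb (FF N))) (s27stg_hgen Kb (FF N) (s27mtL Kb (FF N)))
        hx G₀ hG₀) (s17sxHt Fam) 4 ∧
    S17hxPlN (s17sxCl N (L := s27mtL Kb (FF N)) (FL := s27mtFL Kb (FF N))
        (s27stg_hld Kb (FF N) (s27mtL Kb (FF N))) (s27stg_hgen Kb (FF N) (s27mtL Kb (FF N)))
        hx G₀ hG₀) (s17sxHt Fam) :=
  ⟨s17pmf_plM_three N hx G₀ hG₀ hg O hc q hq N₀ Fam hF hF0,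
    s17ptk_plT N hx G₀ hG₀ hg O hc q hq N₀ Fam hF,
    s17pnk_plN N hx G₀ hG₀ hg O hc q hq N₀ hN₀ Fam hF t hnc htΓ ht M hsec hunit hopen⟩

end Stage

end Fermat.Agent.S17

end
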