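/-
S17 sprint, layer H — **PlN ON THE MODEL** (helper40): helper99's `s17pnu_plN` (S17/PlNU.lean,
centre `[Σ Q i − g·∞]`, height in a given chart) transported to the MODEL of S17/Model.lean
(centre `s17mdCl N P = sp_P η = [Σ Q i − G₀]`, height `s17mdHS s P`), by the origin bridge
(S17/OriginBridge.lean) and the origin shift (S17/NorthShift.lean).

* `s17pnm_exists_centre` : every place of the model has centres on the tautological points;
* `s17pnm_plN`           : for a finite tuple `s ≠ 0` of `L`: CHOW BLOCK `hG` + VISIBILITY `hvis` at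
                           good places + (T) for `(s17mdCl N, s17mdHS s)` ⇒
                           **`S17hxPlN (s17mdCl N) (s17mdHS s)`**;
* `s17pnm_plN_y`         : the same with (T) in the free-constant shape `S17hyPlT … 2`.
-/
import Fermat.Agent.S17.OriginBridge
import Fermat.Agent.S17.NorthShift
import Fermat.Agent.S17.CentreHom
import Fermat.Agent.S17.NorthDiv

set_option autoImplicit false
set_option linter.unusedVariables false
set_option linter.unusedSectionVars false
set_option linter.style.haveILetI false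

noncomputable section

namespace Fermat.Agent.S17

open ModularCurve AlgebraicCurve IntermediateField
open Fermat.Agent.S24 Fermat.Agent.ES.M Fermat.Agent.ES.H Fermat.Agent.S15 Fermat.Agent.S26
  Fermat.Agent.S27

variable (N : ℕ) [NeZero N]

/-- every place of the model has centres on the tautological points. -/
theorem s17pnm_exists_centre (P : s17mdP N) :
    ∃ Q : Fin (genusFF Kb (FF N)) → Place Kb (FF N), ∀ i, S27ptIsCentre P.W
      (s27pfTaut (K := Kb) (F := FF N) (g := genusFF Kb (FF N)) (L := s17mdL N) i) (Q i) := by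
  haveI := (s17md_const N).fin
  have h : ∀ i, ∃ Q : Place Kb (FF N), S27ptIsCentre P.W
      (s27pfTaut (K := Kb) (F := FF N) (g := genusFF Kb (FF N)) (L := s17mdL N) i) Q :=
    fun i => s17ch2_exists_centre P (s17md_hx N) _
  exact ⟨fun i => Classical.choose (h i), fun i => Classical.choose_spec (h i)⟩

variable {ι : Type*} [Fintype ι]

/-- **PlN on the model.** -/
theorem s17pnm_plN (s : ι → s17mdL N) (hs : s ≠ 0) (t : FF N)
    (hnc : ∀ c : Kb, t ≠ algebraMap Kb (FF N) c)
    (htΓ : ∀ σ : Kb ≃ₐ[ℚ] Kb, galAct N σ • t = t)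
    (ht : ∀ v : Place Kb (FF N), v ≠ cuspInf N → 0 ≤ v.ord t)
    (c : Fin (genusFF Kb (FF N) + 1) → ι → Kb) (Φ : s17mdL N) (hΦ : Φ ≠ 0)
    (hG : ∀ n, s17pvLin c s n = Φ * s17cvChow
      (fun i => s27pfTaut (K := Kb) (F := FF N) (g := genusFF Kb (FF N)) (L := s17mdL N) i t) n)
    (hvis : ∀ (P : s17mdP N) (α : ι) (hα : S17plIsMin P.W s α)
      (Q : Fin (genusFF Kb (FF N)) → Place Kb (FF N)),
      (∀ i, S27ptIsCentre P.W
        (s27pfTaut (K := Kb) (F := FF N) (g := genusFF Kb (FF N)) (L := s17mdL N) i) (Q i)) →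
      S17poGood N (s17pnuCl N Q) → ∃ j₀, s17pvLinK c (s17plVal P s α hα) j₀ ≠ 0)
    (hT : S17hxPlT (s17mdCl N) (s17mdHS s)) :
    S17hxPlN (s17mdCl N) (s17mdHS s) := by
  classical
  have hdeg : ∀ w : Place Kb (FF N), w.deg = 1 := fun w => s17nd_deg_one w
  choose Q hQ using s17pnm_exists_centre N
  choose α hα using fun P : s17mdP N => s17pl_exists_min P.W hs
  -- the two heights agree
  have hH : (fun P : s17mdP N => s17haAbsQ (s17plVal P s (α P) (hα P))) = s17mdHS s := by
    funext P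
    exact (s17mdHS_eq s P (α P) (hα P)).symm
  -- the two centres differ by `δ`
  have hcl : ∀ P : s17mdP N, s17pnuCl N (Q P) = s17mdCl N P + s17obDeltaMd N :=
    fun P => (s17ob_model N hdeg P (Q P) (hQ P)).symm
  -- (T) for the shifted centre
  have hT' : S17hxPlT (fun P : s17mdP N => s17pnuCl N (Q P))
      (fun P : s17mdP N => s17haAbsQ (s17plVal P s (α P) (hα P))) := by
    rw [hH]
    exact s17nsh_plT_x (s17mdCl N) _ (s17mdHS s) (s17obDeltaMd N) hcl hT
  -- (N) for the shifted centre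
  have hN' := s17pnu_plN N s
    (fun i => s27pfTaut (K := Kb) (F := FF N) (g := genusFF Kb (FF N)) (L := s17mdL N) i)
    t hnc htΓ ht c Φ hΦ hG (fun P : s17mdP N => P) α hα Q hQ
    (fun P hgood => hvis P (α P) (hα P) (Q P) (hQ P) hgood) hT'
  rw [hH] at hN' hT'
  -- back to the model's centre
  exact s17nsh_plN_sub (fun P : s17mdP N => s17pnuCl N (Q P)) (s17mdCl N) (s17mdHS s) 2
    (by norm_num) (s17obDeltaMd N) hcl hT' hN'

/-- **PlN on the model**, (T) in the free-constant shape. -/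
theorem s17pnm_plN_y (s : ι → s17mdL N) (hs : s ≠ 0) (t : FF N)
    (hnc : ∀ c : Kb, t ≠ algebraMap Kb (FF N) c)
    (htΓ : ∀ σ : Kb ≃ₐ[ℚ] Kb, galAct N σ • t = t)
    (ht : ∀ v : Place Kb (FF N), v ≠ cuspInf N → 0 ≤ v.ord t)
    (c : Fin (genusFF Kb (FF N) + 1) → ι → Kb) (Φ : s17mdL N) (hΦ : Φ ≠ 0)
    (hG : ∀ n, s17pvLin c s n = Φ * s17cvChow
      (fun i => s27pfTaut (K := Kb) (F := FF N) (g := genusFF Kb (FF N)) (L := s17mdL N) i t) n)
    (hvis : ∀ (P : s17mdP N) (α : ι) (hα : S17plIsMin P.W s α)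
      (Q : Fin (genusFF Kb (FF N)) → Place Kb (FF N)),
      (∀ i, S27ptIsCentre P.W
        (s27pfTaut (K := Kb) (F := FF N) (g := genusFF Kb (FF N)) (L := s17mdL N) i) (Q i)) →
      S17poGood N (s17pnuCl N Q) → ∃ j₀, s17pvLinK c (s17plVal P s α hα) j₀ ≠ 0)
    (hT : S17hyPlT (s17mdCl N) (s17mdHS s) 2) :
    S17hxPlN (s17mdCl N) (s17mdHS s) :=
  s17pnm_plN N s hs t hnc htΓ ht c Φ hΦ hG hvis hT

end Fermat.Agent.S17

end
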