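/-
S17 sprint, layer H — **PlN AT THE STAGE LEVEL THROUGH THE OPPOSITE TUPLE** (helper99).

Captain's ruling (A): the local equation is `b = B(+1) = β` everywhere.  Then the Chow
coordinates in `L(N·Θ)` and the unit locus of `b` see the OPPOSITE class `−cl P`: the functions are
the Chow coordinates of a tuple `e` with class `cl e = −η (+ β c₀)`.  This file is the twin of
helper40's `s17pns_plN` (S17/PlNStage.lean) for such a tuple `e`:

* `s17psn_exists_centre` : every `ℚ̄`-place of `L` has centres on the points of ANY tuple `e`;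
* `s17psn_cl`            : `cl e = −η + β c₀` ⇒ `[Σ Q' i − g·∞] = −s17sxCl P + (c₀ + δ)` for the
                           centres `Q'` of `e` along `P`  (`δ = s17obDelta N G₀ = [G₀ − g·∞]`);
* **`s17psn_plN`**       : CHOW BLOCK `hG` for `e` + VISIBILITY `hvis` at the places where the class
                           of the centres of `e` is good + (T) for `(s17sxCl, s17sxHt s)` ⇒
                           `S17hxPlN (s17sxCl …) (s17sxHt s)` = conjunct (N) of `S17sxStmtAt`;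
* `s17psn_plN_y`         : the same with (T) in the free-constant shape `S17hyPlT … 2`;
* `s17psn_plN_a`         : the same with (T) for any constant `a ≥ 0`.

Inside: `s17pnu_plN` (S17/PlNU.lean, general tuple `e`), `s17coSp_cl` (the specialisation of the
class of a tuple is the class of its centres), the origin shift (S17/NorthShift.lean) and
helper77's negation glue (S17/PlNNeg.lean).
-/
import Fermat.Agent.S17.PlNStage
import Fermat.Agent.S17.PlNNeg
import Fermat.Agent.S17.PlNGoodA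

set_option autoImplicit false
set_option linter.unusedVariables false
set_option linter.unusedSectionVars false
set_option linter.style.haveILetI false
set_option linter.style.longLine false

noncomputable section

namespace Fermat.Agent.S17

open ModularCurve AlgebraicCurve Module TensorProduct IntermediateField
open Fermat.Agent.S24 Fermat.Agent.ES.M Fermat.Agent.ES.H Fermat.Agent.S15 Fermat.Agent.S26
  Fermat.Agent.S27 Fermat.Agent.DEU

universe y

variable (N : ℕ) [NeZero N] [IsCurveOver Kb (FF N)] [Algebra.EssFiniteType Kb (FF N)]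
  {L : Type} [Field L] [Algebra Kb L]
  [Algebra (s27gfOm Kb (FF N) (genusFF Kb (FF N))) L]
  [IsScalarTower Kb (s27gfOm Kb (FF N) (genusFF Kb (FF N))) L]
  [IsAlgClosed L] [Algebra.IsAlgebraic (s27gfOm Kb (FF N) (genusFF Kb (FF N))) L]
  {FL : Type y} [Field FL] [Algebra Kb FL] [Algebra (FF N) FL] [Algebra L FL]
  [IsScalarTower Kb (FF N) FL] [IsScalarTower Kb L FL]
  (hld : Function.Injective (s26gspMu Kb (FF N) L FL)) (hgen : S26gspGen Kb (FF N) L FL)
  {x : FF N} (hx : Transcendental Kb x)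
  [FiniteDimensional ↥(IntermediateField.adjoin Kb {x}) (FF N)]
  [Algebra.IsSeparable ↥(IntermediateField.adjoin Kb {x}) (FF N)]
  (G₀ : Divisor Kb (FF N)) (hG₀ : Divisor.degree G₀ = (genusFF Kb (FF N) : ℤ))

include hx in
/-- every `ℚ̄`-place of `L` has centres on the points of any tuple. -/
theorem s17psn_exists_centre (e : Fin (genusFF Kb (FF N)) → FF N →ₐ[Kb] L)
    (P : S17plPlace Kb L) :
    ∃ Q : Fin (genusFF Kb (FF N)) → Place Kb (FF N), ∀ i, S27ptIsCentre P.W (e i) (Q i) := by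
  have h : ∀ i, ∃ Q : Place Kb (FF N), S27ptIsCentre P.W (e i) Q :=
    fun i => s17ch2_exists_centre P hx _
  exact ⟨fun i => Classical.choose (h i), fun i => Classical.choose_spec (h i)⟩

/-- **the class of the centres of an opposite tuple**: `cl e = −η + β c₀` ⇒
`[Σ Q' i − g·∞] = −cl P + (c₀ + δ)`. -/
theorem s17psn_cl (e : Fin (genusFF Kb (FF N)) → FF N →ₐ[Kb] L) (c₀ : Pic0 Kb (FF N))
    (he : (s27dclPkg hld hgen hx G₀ hG₀).cl
        (fun i => (s27dclPkg hld hgen hx G₀ hG₀).pt (e i)) =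
      -(s27dclPkg hld hgen hx G₀ hG₀).cl
        (fun i => (s27dclPkg hld hgen hx G₀ hG₀).pt
          (s27pfTaut (K := Kb) (F := FF N) (g := genusFF Kb (FF N)) (L := L) i)) +
        s27bcBeta hld hgen (s26gspf_hall hx) c₀)
    (P : S17plPlace Kb L) (Q : Fin (genusFF Kb (FF N)) → Place Kb (FF N))
    (hQ : ∀ i, S27ptIsCentre P.W (e i) (Q i)) :
    s17pnuCl N Q =
      -s17sxCl N (L := L) hld hgen hx G₀ hG₀ P + ((c₀ : JZero N) + s17obDelta N G₀) := by
  have h1 := s17coSp_cl hld hgen hx G₀ hG₀ P e Q hQ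
  rw [he, map_add, map_neg, s17coSp_beta] at h1
  have h2 := s17ob_cl N (s17ds_hdegK (s26gspf_hall hx)) G₀ hG₀ Q
  rw [← h2, ← h1]
  unfold s17sxCl s17coCl
  abel

variable {ι : Type*} [Fintype ι]

/-- **PlN at the stage level through an opposite tuple**, (T) with any constant `a ≥ 0`. -/
theorem s17psn_plN_a (s : ι → L) (hs : s ≠ 0) (t : FF N)
    (hnc : ∀ c : Kb, t ≠ algebraMap Kb (FF N) c)
    (htΓ : ∀ σ : Kb ≃ₐ[ℚ] Kb, galAct N σ • t = t)
    (ht : ∀ v : Place Kb (FF N), v ≠ cuspInf N → 0 ≤ v.ord t)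
    (e : Fin (genusFF Kb (FF N)) → FF N →ₐ[Kb] L) (c₀ : Pic0 Kb (FF N))
    (he : (s27dclPkg hld hgen hx G₀ hG₀).cl
        (fun i => (s27dclPkg hld hgen hx G₀ hG₀).pt (e i)) =
      -(s27dclPkg hld hgen hx G₀ hG₀).cl
        (fun i => (s27dclPkg hld hgen hx G₀ hG₀).pt
          (s27pfTaut (K := Kb) (F := FF N) (g := genusFF Kb (FF N)) (L := L) i)) +
        s27bcBeta hld hgen (s26gspf_hall hx) c₀)
    (c : Fin (genusFF Kb (FF N) + 1) → ι → Kb) (Φ : L) (hΦ : Φ ≠ 0)
    (hG : ∀ n, s17pvLin c s n = Φ * s17cvChow (fun i => e i t) n)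
    (hvis : ∀ (P : S17plPlace Kb L) (α : ι) (hα : S17plIsMin P.W s α)
      (Q : Fin (genusFF Kb (FF N)) → Place Kb (FF N)),
      (∀ i, S27ptIsCentre P.W (e i) (Q i)) →
      S17poGood N (s17pnuCl N Q) → ∃ j₀, s17pvLinK c (s17plVal P s α hα) j₀ ≠ 0)
    (a : ℝ) (ha : 0 ≤ a)
    (hT : S17hyPlT (s17sxCl N (L := L) hld hgen hx G₀ hG₀) (s17sxHt s) a) :
    S17hxPlN (s17sxCl N (L := L) hld hgen hx G₀ hG₀) (s17sxHt s) := by
  classical
  choose Q hQ using s17psn_exists_centre N (L := L) hx e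
  choose α hα using fun P : S17plPlace Kb L => s17pl_exists_min P.W hs
  -- the two heights agree
  have hH : (fun P : S17plPlace Kb L => s17haAbsQ (s17plVal P s (α P) (hα P))) = s17sxHt s := by
    funext P
    exact (s17sxHt_eq s P (α P) (hα P)).symm
  -- the class of the centres of `e` is `−cl P + (c₀ + δ)`
  have hcl : ∀ P : S17plPlace Kb L,
      s17pnuCl N (Q P) =
        (fun P => -s17sxCl N (L := L) hld hgen hx G₀ hG₀ P) P +
          ((c₀ : JZero N) + s17obDelta N G₀) :=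
    fun P => s17psn_cl N hld hgen hx G₀ hG₀ e c₀ he P (Q P) (hQ P)
  -- (T) for `−cl`, then for the shifted centre
  have hTn : S17hyPlT (fun P => -s17sxCl N (L := L) hld hgen hx G₀ hG₀ P) (s17sxHt s) a :=
    s17nn_plT_neg hT
  have hT' : S17hyPlT (fun P : S17plPlace Kb L => s17pnuCl N (Q P)) (s17sxHt s) a :=
    s17nsh_plT (fun P => -s17sxCl N (L := L) hld hgen hx G₀ hG₀ P) _ (s17sxHt s) a
      ((c₀ : JZero N) + s17obDelta N G₀) hcl hTn
  -- (U) for the centres of `e`, then (N) by the pool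
  have hU : ∃ C : ℝ, ∀ p : S17plPlace Kb L, S17poGood N (s17pnuCl N (Q p)) →
      s17haAbsQ (s17ppChow N t (s17pnuCl N (Q p))) ≤ s17sxHt s p + C := by
    obtain ⟨C, hC⟩ := s17pnu_U N s e t ht c Φ hΦ hG (fun P : S17plPlace Kb L => P) α hα Q hQ
      (fun P hgood => hvis P (α P) (hα P) (Q P) (hQ P) hgood)
    refine ⟨C, fun p hgood => ?_⟩
    rw [s17sxHt_eq s p (α p) (hα p)]
    exact hC p hgood
  have hN' : S17hxPlN (fun P : S17plPlace Kb L => s17pnuCl N (Q P)) (s17sxHt s) :=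
    s17pna_plN N _ _ t hnc htΓ ht a ha hT' hU
  -- back to `−cl`, then to `cl`
  have hNn : S17hxPlN (fun P => -s17sxCl N (L := L) hld hgen hx G₀ hG₀ P) (s17sxHt s) :=
    s17nsh_plN_sub (fun P : S17plPlace Kb L => s17pnuCl N (Q P))
      (fun P => -s17sxCl N (L := L) hld hgen hx G₀ hG₀ P) (s17sxHt s) a ha
      ((c₀ : JZero N) + s17obDelta N G₀) hcl hT' hN'
  exact s17nn_plN_of_neg hNn

/-- **PlN at the stage level through an opposite tuple**, (T) in the free-constant shape. -/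
theorem s17psn_plN_y (s : ι → L) (hs : s ≠ 0) (t : FF N)
    (hnc : ∀ c : Kb, t ≠ algebraMap Kb (FF N) c)
    (htΓ : ∀ σ : Kb ≃ₐ[ℚ] Kb, galAct N σ • t = t)
    (ht : ∀ v : Place Kb (FF N), v ≠ cuspInf N → 0 ≤ v.ord t)
    (e : Fin (genusFF Kb (FF N)) → FF N →ₐ[Kb] L) (c₀ : Pic0 Kb (FF N))
    (he : (s27dclPkg hld hgen hx G₀ hG₀).cl
        (fun i => (s27dclPkg hld hgen hx G₀ hG₀).pt (e i)) =
      -(s27dclPkg hld hgen hx G₀ hG₀).cl
        (fun i => (s27dclPkg hld hgen hx G₀ hG₀).pt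
          (s27pfTaut (K := Kb) (F := FF N) (g := genusFF Kb (FF N)) (L := L) i)) +
        s27bcBeta hld hgen (s26gspf_hall hx) c₀)
    (c : Fin (genusFF Kb (FF N) + 1) → ι → Kb) (Φ : L) (hΦ : Φ ≠ 0)
    (hG : ∀ n, s17pvLin c s n = Φ * s17cvChow (fun i => e i t) n)
    (hvis : ∀ (P : S17plPlace Kb L) (α : ι) (hα : S17plIsMin P.W s α)
      (Q : Fin (genusFF Kb (FF N)) → Place Kb (FF N)),
      (∀ i, S27ptIsCentre P.W (e i) (Q i)) →
      S17poGood N (s17pnuCl N Q) → ∃ j₀, s17pvLinK c (s17plVal P s α hα) j₀ ≠ 0)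
    (hT : S17hyPlT (s17sxCl N (L := L) hld hgen hx G₀ hG₀) (s17sxHt s) 2) :
    S17hxPlN (s17sxCl N (L := L) hld hgen hx G₀ hG₀) (s17sxHt s) :=
  s17psn_plN_a N hld hgen hx G₀ hG₀ s hs t hnc htΓ ht e c₀ he c Φ hΦ hG hvis 2 (by norm_num) hT

/-- **PlN at the stage level through an opposite tuple**, (T) in the shape of S17/HTop.lean. -/
theorem s17psn_plN (s : ι → L) (hs : s ≠ 0) (t : FF N)
    (hnc : ∀ c : Kb, t ≠ algebraMap Kb (FF N) c)
    (htΓ : ∀ σ : Kb ≃ₐ[ℚ] Kb, galAct N σ • t = t)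
    (ht : ∀ v : Place Kb (FF N), v ≠ cuspInf N → 0 ≤ v.ord t)
    (e : Fin (genusFF Kb (FF N)) → FF N →ₐ[Kb] L) (c₀ : Pic0 Kb (FF N))
    (he : (s27dclPkg hld hgen hx G₀ hG₀).cl
        (fun i => (s27dclPkg hld hgen hx G₀ hG₀).pt (e i)) =
      -(s27dclPkg hld hgen hx G₀ hG₀).cl
        (fun i => (s27dclPkg hld hgen hx G₀ hG₀).pt
          (s27pfTaut (K := Kb) (F := FF N) (g := genusFF Kb (FF N)) (L := L) i)) +
        s27bcBeta hld hgen (s26gspf_hall hx) c₀)
    (c : Fin (genusFF Kb (FF N) + 1) → ι → Kb) (Φ : L) (hΦ : Φ ≠ 0)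
    (hG : ∀ n, s17pvLin c s n = Φ * s17cvChow (fun i => e i t) n)
    (hvis : ∀ (P : S17plPlace Kb L) (α : ι) (hα : S17plIsMin P.W s α)
      (Q : Fin (genusFF Kb (FF N)) → Place Kb (FF N)),
      (∀ i, S27ptIsCentre P.W (e i) (Q i)) →
      S17poGood N (s17pnuCl N Q) → ∃ j₀, s17pvLinK c (s17plVal P s α hα) j₀ ≠ 0)
    (hT : S17hxPlT (s17sxCl N (L := L) hld hgen hx G₀ hG₀) (s17sxHt s)) :
    S17hxPlN (s17sxCl N (L := L) hld hgen hx G₀ hG₀) (s17sxHt s) :=
  s17psn_plN_y N hld hgen hx G₀ hG₀ s hs t hnc htΓ ht e c₀ he c Φ hΦ hG hvis hT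

end Fermat.Agent.S17

end
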