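/-
S17 sprint, layer H — **PlN with a FREE constant in (T)** at the place, stage and model level
(helper31): twins of `s17pnu_plN` (S17/PlNU.lean), `s17pns_plN` (S17/PlNStage.lean) and
`s17pnm_plN` (S17/PlNModel.lean), which take (T) in the shape `S17hxPlT` (constant `2`).
The place form of (T) for ALL translations is on main with the constant `4` only
(`s17twr_plT4`); Northcott does not care about the constant (`s17pna_plN`, S17/PlNGoodA.lean).

* `s17pnv_plN`        : CHOW BLOCK + VISIBILITY at good places + `S17hyPlT cl H a` (`0 ≤ a`)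
                        ⇒ `S17hxPlN cl H`, in the `S17plPlace` frame;
* `s17pnv_plN_stage`  : the same for `(s17sxCl, s17sxHt s)` (the conjunct (N) of `S17sxStmtAt`);
* `s17pnv_plN_model`  : the same for `(s17mdCl N, s17mdHS s)`.
-/
import Fermat.Agent.S17.PlNU
import Fermat.Agent.S17.PlNGoodA
import Fermat.Agent.S17.PlNStage
import Fermat.Agent.S17.PlNModel

set_option autoImplicit false
set_option linter.unusedVariables false
set_option linter.unusedSectionVars false
set_option linter.style.haveILetI false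
set_option linter.style.longLine false

noncomputable section

namespace Fermat.Agent.S17

open ModularCurve AlgebraicCurve Module TensorProduct IntermediateField
open Fermat.Agent.S24 Fermat.Agent.ES.M Fermat.Agent.ES.H Fermat.Agent.S15 Fermat.Agent.S26
  Fermat.Agent.S27 Fermat.Agent.DEU

universe y

section Frame

variable (N : ℕ) [NeZero N] {L : Type*} [Field L] [Algebra Kb L] {ι : Type*} [Fintype ι]

/-- **PlN in the `S17plPlace` frame, free constant**: (T) with any constant `a ≥ 0` + Chow block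
+ visibility at good places ⇒ (N). -/
theorem s17pnv_plN (s : ι → L) (e : Fin (genusFF Kb (FF N)) → FF N →ₐ[Kb] L) (t : FF N)
    (hnc : ∀ c : Kb, t ≠ algebraMap Kb (FF N) c)
    (htΓ : ∀ σ : Kb ≃ₐ[ℚ] Kb, galAct N σ • t = t)
    (ht : ∀ v : Place Kb (FF N), v ≠ cuspInf N → 0 ≤ v.ord t)
    (c : Fin (genusFF Kb (FF N) + 1) → ι → Kb) (Φ : L) (hΦ : Φ ≠ 0)
    (hG : ∀ n, s17pvLin c s n = Φ * s17cvChow (fun i => e i t) n)
    {P : Type*} (pl : P → S17plPlace Kb L) (α : P → ι)
    (hα : ∀ p, S17plIsMin (pl p).W s (α p))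
    (Q : P → Fin (genusFF Kb (FF N)) → Place Kb (FF N))
    (hQ : ∀ p i, S27ptIsCentre (pl p).W (e i) (Q p i))
    (hvis : ∀ p, S17poGood N (s17pnuCl N (Q p)) →
      ∃ j₀, s17pvLinK c (s17plVal (pl p) s (α p) (hα p)) j₀ ≠ 0)
    (a : ℝ) (ha : 0 ≤ a)
    (hT : S17hyPlT (fun p => s17pnuCl N (Q p))
      (fun p => s17haAbsQ (s17plVal (pl p) s (α p) (hα p))) a) :
    S17hxPlN (fun p => s17pnuCl N (Q p))
      (fun p => s17haAbsQ (s17plVal (pl p) s (α p) (hα p))) :=
  s17pna_plN N _ _ t hnc htΓ ht a ha hT (s17pnu_U N s e t ht c Φ hΦ hG pl α hα Q hQ hvis)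

end Frame

section Stage

variable (N : ℕ) [NeZero N] [IsCurveOver Kb (FF N)] [Algebra.EssFiniteType Kb (FF N)]
  {L : Type} [Field L] [Algebra Kb L]
  [Algebra (s27gfOm Kb (FF N) (genusFF Kb (FF N))) L]
  [IsScalarTower Kb (s27gfOm Kb (FF N) (genusFF Kb (FF N))) L]
  [IsAlgClosed L] [Algebra.IsAlgebraic (s27gfOm Kb (FF N) (genusFF Kb (FF N))) L]
  {FL : Type y} [Field FL] [Algebra Kb FL] [Algebra (FF N) FL] [Algebra L FL]
  [IsScalarTower Kb (FF N) FL] [IsScalarTower Kb L FL]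
  (hld : Function.Injective (s26gspMu Kb (FF N) L FL)) (hgen : S26gspGen Kb (FF N) L FL)
  {x : FF N} (hx : Transcendental Kb x)
  [FiniteDimensional ↥(IntermediateField.adjoin Kb {x}) (FF N)]
  [Algebra.IsSeparable ↥(IntermediateField.adjoin Kb {x}) (FF N)]
  (G₀ : Divisor Kb (FF N)) (hG₀ : Divisor.degree G₀ = (genusFF Kb (FF N) : ℤ))

variable {ι : Type*} [Fintype ι]

/-- **PlN at the stage level, free constant in (T).** -/
theorem s17pnv_plN_stage (s : ι → L) (hs : s ≠ 0) (t : FF N)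
    (hnc : ∀ c : Kb, t ≠ algebraMap Kb (FF N) c)
    (htΓ : ∀ σ : Kb ≃ₐ[ℚ] Kb, galAct N σ • t = t)
    (ht : ∀ v : Place Kb (FF N), v ≠ cuspInf N → 0 ≤ v.ord t)
    (c : Fin (genusFF Kb (FF N) + 1) → ι → Kb) (Φ : L) (hΦ : Φ ≠ 0)
    (hG : ∀ n, s17pvLin c s n = Φ * s17cvChow
      (fun i => s27pfTaut (K := Kb) (F := FF N) (g := genusFF Kb (FF N)) (L := L) i t) n)
    (hvis : ∀ (P : S17plPlace Kb L) (α : ι) (hα : S17plIsMin P.W s α)
      (Q : Fin (genusFF Kb (FF N)) → Place Kb (FF N)),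
      (∀ i, S27ptIsCentre P.W
        (s27pfTaut (K := Kb) (F := FF N) (g := genusFF Kb (FF N)) (L := L) i) (Q i)) →
      S17poGood N (s17pnuCl N Q) → ∃ j₀, s17pvLinK c (s17plVal P s α hα) j₀ ≠ 0)
    (a : ℝ) (ha : 0 ≤ a)
    (hT : S17hyPlT (s17sxCl N (L := L) hld hgen hx G₀ hG₀) (s17sxHt s) a) :
    S17hxPlN (s17sxCl N (L := L) hld hgen hx G₀ hG₀) (s17sxHt s) := by
  classical
  choose Q hQ using s17pns_exists_centre N (L := L) hx
  choose α hα using fun P : S17plPlace Kb L => s17pl_exists_min P.W hs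
  -- the two heights agree
  have hH : (fun P : S17plPlace Kb L => s17haAbsQ (s17plVal P s (α P) (hα P))) = s17sxHt s := by
    funext P
    exact (s17sxHt_eq s P (α P) (hα P)).symm
  -- the two centres differ by `δ`
  have hcl : ∀ P : S17plPlace Kb L,
      s17pnuCl N (Q P) = s17sxCl N (L := L) hld hgen hx G₀ hG₀ P + s17obDelta N G₀ :=
    fun P => (s17pns_cl N hld hgen hx G₀ hG₀ P (Q P) (hQ P)).symm
  -- (T) for the shifted centre
  have hT' : S17hyPlT (fun P : S17plPlace Kb L => s17pnuCl N (Q P))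
      (fun P : S17plPlace Kb L => s17haAbsQ (s17plVal P s (α P) (hα P))) a := by
    rw [hH]
    exact s17nsh_plT (s17sxCl N (L := L) hld hgen hx G₀ hG₀) _ (s17sxHt s) a
      (s17obDelta N G₀) hcl hT
  -- (N) for the shifted centre
  have hN' := s17pnv_plN N s
    (fun i => s27pfTaut (K := Kb) (F := FF N) (g := genusFF Kb (FF N)) (L := L) i)
    t hnc htΓ ht c Φ hΦ hG (fun P : S17plPlace Kb L => P) α hα Q hQ
    (fun P hgood => hvis P (α P) (hα P) (Q P) (hQ P) hgood) a ha hT'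
  rw [hH] at hN' hT'
  -- back to the centre of the stage
  exact s17nsh_plN_sub (fun P : S17plPlace Kb L => s17pnuCl N (Q P))
    (s17sxCl N (L := L) hld hgen hx G₀ hG₀) (s17sxHt s) a ha (s17obDelta N G₀)
    hcl hT' hN'

end Stage

section Model

variable (N : ℕ) [NeZero N] {ι : Type*} [Fintype ι]

/-- **PlN on the model, free constant in (T).** -/
theorem s17pnv_plN_model (s : ι → s17mdL N) (hs : s ≠ 0) (t : FF N)
    (hnc : ∀ c : Kb, t ≠ algebraMap Kb (FF N) c)
    (htΓ : ∀ σ : Kb ≃ₐ[ℚ] Kb, galAct N σ • t = t)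
    (ht : ∀ v : Place Kb (FF N), v ≠ cuspInf N → 0 ≤ v.ord t)
    (c : Fin (genusFF Kb (FF N) + 1) → ι → Kb) (Φ : s17mdL N) (hΦ : Φ ≠ 0)
    (hG : ∀ n, s17pvLin c s n = Φ * s17cvChow
      (fun i => s27pfTaut (K := Kb) (F := FF N) (g := genusFF Kb (FF N)) (L := s17mdL N) i t) n)
    (hvis : ∀ (P : s17mdP N) (α : ι) (hα : S17plIsMin P.W s α)
      (Q : Fin (genusFF Kb (FF N)) → Place Kb (FF N)),
      (∀ i, S27ptIsCentre P.W
        (s27pfTaut (K := Kb) (F := FF N) (g := genusFF Kb (FF N)) (L := s17mdL N) i) (Q i)) →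
      S17poGood N (s17pnuCl N Q) → ∃ j₀, s17pvLinK c (s17plVal P s α hα) j₀ ≠ 0)
    (a : ℝ) (ha : 0 ≤ a)
    (hT : S17hyPlT (s17mdCl N) (s17mdHS s) a) :
    S17hxPlN (s17mdCl N) (s17mdHS s) := by
  classical
  have hdeg : ∀ w : Place Kb (FF N), w.deg = 1 := fun w => s17nd_deg_one w
  choose Q hQ using s17pnm_exists_centre N
  choose α hα using fun P : s17mdP N => s17pl_exists_min P.W hs
  have hH : (fun P : s17mdP N => s17haAbsQ (s17plVal P s (α P) (hα P))) = s17mdHS s := by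
    funext P
    exact (s17mdHS_eq s P (α P) (hα P)).symm
  have hcl : ∀ P : s17mdP N, s17pnuCl N (Q P) = s17mdCl N P + s17obDeltaMd N :=
    fun P => (s17ob_model N hdeg P (Q P) (hQ P)).symm
  have hT' : S17hyPlT (fun P : s17mdP N => s17pnuCl N (Q P))
      (fun P : s17mdP N => s17haAbsQ (s17plVal P s (α P) (hα P))) a := by
    rw [hH]
    exact s17nsh_plT (s17mdCl N) _ (s17mdHS s) a (s17obDeltaMd N) hcl hT
  have hN' := s17pnv_plN N s
    (fun i => s27pfTaut (K := Kb) (F := FF N) (g := genusFF Kb (FF N)) (L := s17mdL N) i)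
    t hnc htΓ ht c Φ hΦ hG (fun P : s17mdP N => P) α hα Q hQ
    (fun P hgood => hvis P (α P) (hα P) (Q P) (hQ P) hgood) a ha hT'
  rw [hH] at hN' hT'
  exact s17nsh_plN_sub (fun P : s17mdP N => s17pnuCl N (Q P)) (s17mdCl N) (s17mdHS s) a
    ha (s17obDeltaMd N) hcl hT' hN'

end Model

end Fermat.Agent.S17

end
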