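import Fermat.Agent.S17.Place
import Fermat.Agent.S17.ValCrit

/-!
# S17 leaf H2, part 4 — valuative equivalence ⇒ certificates at ALL places, for ANY height
(helper21)

`K₀ ⊆ K ⊆ L` fields (`K₀ = ℚ`, `K = Qb`), `F : ι → L`, `G : κ → L` valuatively equivalent over
`K₀` (hypothesis of `s17vc_equiv`).  No height is imported: the result is the certificate
statement which any two-sided H0 bound (relative `s17hc_two`, absolute `HtAbsCert`) consumes.

* `s17pla_exists_cert` : **∃ certificates `a`, `b` over `K₀`** (independent of the place) such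
  that for EVERY place `P` and all minimal indices `α`, `β` the place-values `x = [F]_P` and
  `y = c • [G]_P` (some `c ≠ 0`) satisfy the certificates in both directions (in `K`, `aeval`
  form).
* `s17pla_main` : hence for any two functions `hx`, `hy` on tuples (`hy` scaling-invariant) with
  the two-sided H0 bound `|hx x − hy y| ≤ C` for certified pairs, `|hx [F]_P − hy [G]_P| ≤ C` for
  all places `P` and all charts.
* `s17pla_le` : the one-sided version (`hy y ≤ hx x + C`).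
-/

namespace Fermat.Agent.S17

open MvPolynomial

variable {K₀ K L : Type*} [Field K₀] [Field K] [Field L]
  [Algebra K₀ K] [Algebra K L] [Algebra K₀ L] [IsScalarTower K₀ K L]
  {ι κ : Type*} [Fintype ι] [Fintype κ]

/-- **valuative equivalence ⇒ uniform certificates at all places.** -/
theorem s17pla_exists_cert (F : ι → L) (G : κ → L)
    (hW : ∀ W : ValuationSubring L, (∀ c : K₀, algebraMap K₀ L c ∈ W) →
      ∃ α β, F α ≠ 0 ∧ G β ≠ 0 ∧ (∀ α', F α' / F α ∈ W) ∧ (∀ β', G β' / G β ∈ W) ∧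
        G β / F α ∈ W ∧ F α / G β ∈ W) :
    ∃ (M : ℕ) (a : κ → Fin M → MvPolynomial ι K₀) (M' : ℕ)
      (b : ι → Fin M' → MvPolynomial κ K₀),
      1 ≤ M ∧ 1 ≤ M' ∧ (∀ j k, (a j k).IsHomogeneous ((k : ℕ) + 1)) ∧
      (∀ i k, (b i k).IsHomogeneous ((k : ℕ) + 1)) ∧
      ∀ (P : S17plPlace K L) (α : ι) (hα : S17plIsMin P.W F α) (β : κ)
        (hβ : S17plIsMin P.W G β),
        ∃ (y : κ → K) (c : K), c ≠ 0 ∧ (∀ j, y j = c * s17plVal P G β hβ j) ∧
          (∀ j, y j ^ M + ∑ k : Fin M,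
            aeval (s17plVal P F α hα) (a j k) * y j ^ (M - 1 - (k : ℕ)) = 0) ∧
          (∀ i, s17plVal P F α hα i ^ M' + ∑ k : Fin M',
            aeval y (b i k) * s17plVal P F α hα i ^ (M' - 1 - (k : ℕ)) = 0) := by
  obtain ⟨⟨M, a, hM, ha, hca⟩, ⟨M', b, hM', hb, hcb⟩⟩ := s17vc_equiv F G hW
  exact ⟨M, a, M', b, hM, hM', ha, hb, fun P α hα β hβ =>
    s17pl_main_tower P F G ha hca hb hcb α hα β hβ⟩

omit [Fintype ι] [Fintype κ] in
/-- **any two-sided H0 bound passes to place-values**, uniformly in the place. -/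
theorem s17pla_main (F : ι → L) (G : κ → L) {M : ℕ}
    {a : κ → Fin M → MvPolynomial ι K₀} (ha : ∀ j k, (a j k).IsHomogeneous ((k : ℕ) + 1))
    (hca : ∀ j, G j ^ M + ∑ k : Fin M, aeval F (a j k) * G j ^ (M - 1 - (k : ℕ)) = 0)
    {M' : ℕ} {b : ι → Fin M' → MvPolynomial κ K₀}
    (hb : ∀ i k, (b i k).IsHomogeneous ((k : ℕ) + 1))
    (hcb : ∀ i, F i ^ M' + ∑ k : Fin M', aeval G (b i k) * F i ^ (M' - 1 - (k : ℕ)) = 0)
    (hx : (ι → K) → ℝ) (hy : (κ → K) → ℝ)
    (hsmul : ∀ (y : κ → K) (c : K), c ≠ 0 → hy (fun j => c * y j) = hy y) (C : ℝ)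
    (hcert : ∀ (x : ι → K) (y : κ → K),
      (∀ j, y j ^ M + ∑ k : Fin M, aeval x (a j k) * y j ^ (M - 1 - (k : ℕ)) = 0) →
      (∀ i, x i ^ M' + ∑ k : Fin M', aeval y (b i k) * x i ^ (M' - 1 - (k : ℕ)) = 0) →
        |hx x - hy y| ≤ C)
    (P : S17plPlace K L) (α : ι) (hα : S17plIsMin P.W F α) (β : κ)
    (hβ : S17plIsMin P.W G β) :
    |hx (s17plVal P F α hα) - hy (s17plVal P G β hβ)| ≤ C := by
  obtain ⟨y, c, hc0, hyc, h1, h2⟩ := s17pl_main_tower P F G ha hca hb hcb α hα β hβ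
  have h3 := hcert (s17plVal P F α hα) y h1 h2
  have h4 : y = fun j => c * s17plVal P G β hβ j := funext hyc
  rw [h4, hsmul _ c hc0] at h3
  exact h3

omit [Fintype ι] [Fintype κ] in
/-- the one-sided version: certificates of `G` over `F` and of `F α` over `G` suffice for
`hy [G]_P ≤ hx [F]_P + C`. -/
theorem s17pla_le (F : ι → L) (G : κ → L) {M : ℕ}
    {a : κ → Fin M → MvPolynomial ι K₀} (ha : ∀ j k, (a j k).IsHomogeneous ((k : ℕ) + 1))
    (hca : ∀ j, G j ^ M + ∑ k : Fin M, aeval F (a j k) * G j ^ (M - 1 - (k : ℕ)) = 0)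
    {M' : ℕ} {b : ι → Fin M' → MvPolynomial κ K₀}
    (hb : ∀ i k, (b i k).IsHomogeneous ((k : ℕ) + 1))
    (hcb : ∀ i, F i ^ M' + ∑ k : Fin M', aeval G (b i k) * F i ^ (M' - 1 - (k : ℕ)) = 0)
    (hx : (ι → K) → ℝ) (hy : (κ → K) → ℝ)
    (hsmul : ∀ (y : κ → K) (c : K), c ≠ 0 → hy (fun j => c * y j) = hy y) (C : ℝ)
    (hcert : ∀ (x : ι → K) (y : κ → K),
      (∀ j, y j ^ M + ∑ k : Fin M, aeval x (a j k) * y j ^ (M - 1 - (k : ℕ)) = 0) →
        hy y ≤ hx x + C)
    (P : S17plPlace K L) (α : ι) (hα : S17plIsMin P.W F α) (β : κ)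
    (hβ : S17plIsMin P.W G β) :
    hy (s17plVal P G β hβ) ≤ hx (s17plVal P F α hα) + C := by
  obtain ⟨y, c, hc0, hyc, h1, -⟩ := s17pl_main_tower P F G ha hca hb hcb α hα β hβ
  have h3 := hcert (s17plVal P F α hα) y h1
  have h4 : y = fun j => c * s17plVal P G β hβ j := funext hyc
  rw [h4, hsmul _ c hc0] at h3
  exact h3

end Fermat.Agent.S17
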