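/-
S17 sprint, leaf **H6d — PLACE-GAL** (helper96): the Galois transport of a place and the
rationality of the place-values of Galois-invariant tuples.   Imports `S17/Place.lean` (helper21)
and `S17/ProjRat.lean` (helper14) only.

Frame: `K ⊆ L` fields, `σ : K ≃+* K`, `ρ : L ≃+* L` SEMILINEAR over `σ`
(`S17pgSemi σ ρ : ρ (algebraMap c) = algebraMap (σ c)`).

* `s17pgMap h P`       : the transported place `σ·P = (ρ(W), σ ∘ res ∘ ρ⁻¹)` of `P = (W, res)`;
* `s17pg_mem`          : `x ∈ (σ·P).W ↔ ρ⁻¹ x ∈ P.W`;   `s17pg_res` : the formula for the residue;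
* `s17pg_isMin`, `s17pg_isMin_iff` : `α` minimal for `F` at `P` ⇔ `α` minimal for `ρ ∘ F` at `σ·P`;
* `s17pg_val`          : `[ρ ∘ F]_{σ·P} = σ ∘ [F]_P`   (same chart `α`);
* `s17pg_val_fixed`    : for a `ρ`-invariant tuple `F`:  `[F]_{σ·P} = σ ∘ [F]_P`;
* `s17pg_isRat`        : `K = ℚ̄`, `Γ = Gal(ℚ̄/ℚ)` acting on `L` by `ρ`, `F` a `Γ`-invariant tuple and
                         `P` a place such that `[F]_{σ·P} ∼ [F]_P` for every `σ` (the output of
                         (PT)(c) at a `Γ`-fixed centre): then `[F]_P` is proportional to a RATIONAL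
                         tuple (`S17prIsRat`), so `s17prHt [F]_P` is the `ℚ`-height of that point;
* `s17pg_isRat_of_eq`  : the same when `σ·P = P` as places (`W` stable, `res` equivariant).
-/
import Fermat.Agent.S17.Place
import Fermat.Agent.S17.ProjRat

set_option autoImplicit false
set_option linter.unusedSectionVars false
set_option linter.unusedVariables false

noncomputable section

namespace Fermat.Agent.S17

variable {K L : Type*} [Field K] [Field L] [Algebra K L] {ι : Type*}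

/-- `ρ` is semilinear over `σ`. -/
structure S17pgSemi (σ : K ≃+* K) (ρ : L ≃+* L) : Prop where
  comm : ∀ c : K, ρ (algebraMap K L c) = algebraMap K L (σ c)

theorem s17pg_symm_comm {σ : K ≃+* K} {ρ : L ≃+* L} (h : S17pgSemi σ ρ) (c : K) :
    ρ.symm (algebraMap K L c) = algebraMap K L (σ.symm c) := by
  apply ρ.injective
  rw [RingEquiv.apply_symm_apply, h.comm, RingEquiv.apply_symm_apply]

/-- the inverse is semilinear over the inverse. -/
theorem s17pg_symm {σ : K ≃+* K} {ρ : L ≃+* L} (h : S17pgSemi σ ρ) :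
    S17pgSemi σ.symm ρ.symm :=
  ⟨s17pg_symm_comm h⟩

/-- the identity is semilinear over the identity. -/
theorem s17pg_refl : S17pgSemi (RingEquiv.refl K) (RingEquiv.refl L) :=
  ⟨fun _ => rfl⟩

/-- composition. -/
theorem s17pg_trans {σ τ : K ≃+* K} {ρ π : L ≃+* L} (h : S17pgSemi σ ρ) (h' : S17pgSemi τ π) :
    S17pgSemi (σ.trans τ) (ρ.trans π) :=
  ⟨fun c => by
    show π (ρ (algebraMap K L c)) = algebraMap K L (τ (σ c))
    rw [h.comm, h'.comm]⟩

/-- the pull-back `ρ(W) → W`, `x ↦ ρ⁻¹ x`. -/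
def s17pgBack (ρ : L ≃+* L) (W : ValuationSubring L) :
    ↥(W.comap (ρ.symm : L →+* L)) →+* ↥W :=
  RingHom.codRestrict
    ((ρ.symm : L →+* L).comp (W.comap (ρ.symm : L →+* L)).subtype) W (fun x => x.2)

@[simp] theorem s17pgBack_coe (ρ : L ≃+* L) (W : ValuationSubring L)
    (x : ↥(W.comap (ρ.symm : L →+* L))) :
    ((s17pgBack ρ W x : ↥W) : L) = ρ.symm (x : L) := rfl

/-- **the transported place** `σ·P`. -/
def s17pgMap {σ : K ≃+* K} {ρ : L ≃+* L} (h : S17pgSemi σ ρ) (P : S17plPlace K L) :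
    S17plPlace K L where
  W := P.W.comap (ρ.symm : L →+* L)
  hKW c := by
    show ρ.symm (algebraMap K L c) ∈ P.W
    rw [s17pg_symm_comm h]
    exact P.hKW _
  res := (σ : K →+* K).comp (P.res.comp (s17pgBack ρ P.W))
  hres c := by
    show σ (P.res (s17pgBack ρ P.W ⟨algebraMap K L c, _⟩)) = c
    have h1 : s17pgBack ρ P.W ⟨algebraMap K L c, by
        show ρ.symm (algebraMap K L c) ∈ P.W
        rw [s17pg_symm_comm h]
        exact P.hKW _⟩ = ⟨algebraMap K L (σ.symm c), P.hKW _⟩ := by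
      apply Subtype.ext
      rw [s17pgBack_coe]
      exact s17pg_symm_comm h c
    rw [h1, P.hres, RingEquiv.apply_symm_apply]

theorem s17pg_mem {σ : K ≃+* K} {ρ : L ≃+* L} (h : S17pgSemi σ ρ) (P : S17plPlace K L) (x : L) :
    x ∈ (s17pgMap h P).W ↔ ρ.symm x ∈ P.W := Iff.rfl

theorem s17pg_apply_mem {σ : K ≃+* K} {ρ : L ≃+* L} (h : S17pgSemi σ ρ) (P : S17plPlace K L)
    {x : L} (hx : x ∈ P.W) : ρ x ∈ (s17pgMap h P).W := by
  rw [s17pg_mem, RingEquiv.symm_apply_apply]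
  exact hx

theorem s17pg_apply_mem_iff {σ : K ≃+* K} {ρ : L ≃+* L} (h : S17pgSemi σ ρ)
    (P : S17plPlace K L) (x : L) : ρ x ∈ (s17pgMap h P).W ↔ x ∈ P.W := by
  rw [s17pg_mem, RingEquiv.symm_apply_apply]

/-- the residue map of the transported place. -/
theorem s17pg_res {σ : K ≃+* K} {ρ : L ≃+* L} (h : S17pgSemi σ ρ) (P : S17plPlace K L)
    {x : L} (hx : x ∈ P.W) :
    (s17pgMap h P).res ⟨ρ x, s17pg_apply_mem h P hx⟩ = σ (P.res ⟨x, hx⟩) := by
  show σ (P.res (s17pgBack ρ P.W ⟨ρ x, _⟩)) = σ (P.res ⟨x, hx⟩)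
  congr 2
  apply Subtype.ext
  rw [s17pgBack_coe]
  exact RingEquiv.symm_apply_apply ρ x

/-- minimal indices are transported. -/
theorem s17pg_isMin {σ : K ≃+* K} {ρ : L ≃+* L} (h : S17pgSemi σ ρ) (P : S17plPlace K L)
    (F : ι → L) (α : ι) (hα : S17plIsMin P.W F α) :
    S17plIsMin (s17pgMap h P).W (fun i => ρ (F i)) α := by
  refine ⟨fun h0 => hα.1 ((map_eq_zero_iff ρ ρ.injective).1 h0), fun β => ?_⟩
  show ρ (F β) / ρ (F α) ∈ (s17pgMap h P).W
  rw [← map_div₀]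
  exact s17pg_apply_mem h P (hα.2 β)

theorem s17pg_isMin_iff {σ : K ≃+* K} {ρ : L ≃+* L} (h : S17pgSemi σ ρ) (P : S17plPlace K L)
    (F : ι → L) (α : ι) :
    S17plIsMin (s17pgMap h P).W (fun i => ρ (F i)) α ↔ S17plIsMin P.W F α := by
  refine ⟨fun hα => ⟨fun h0 => hα.1 ?_, fun β => ?_⟩, s17pg_isMin h P F α⟩
  · show ρ (F α) = 0
    rw [h0, map_zero]
  · have := hα.2 β
    change ρ (F β) / ρ (F α) ∈ (s17pgMap h P).W at this
    rw [← map_div₀] at this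
    exact (s17pg_apply_mem_iff h P _).1 this

/-- **EQUIVARIANCE of place-values**: `[ρ ∘ F]_{σ·P} = σ ∘ [F]_P`. -/
theorem s17pg_val {σ : K ≃+* K} {ρ : L ≃+* L} (h : S17pgSemi σ ρ) (P : S17plPlace K L)
    (F : ι → L) (α : ι) (hα : S17plIsMin P.W F α)
    (hα' : S17plIsMin (s17pgMap h P).W (fun i => ρ (F i)) α) :
    s17plVal (s17pgMap h P) (fun i => ρ (F i)) α hα' = fun i => σ (s17plVal P F α hα i) := by
  funext β
  rw [s17pl_val_apply, s17pl_val_apply, ← s17pg_res h P (hα.2 β)]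
  congr 1
  apply Subtype.ext
  show ρ (F β) / ρ (F α) = ρ (F β / F α)
  rw [map_div₀]

/-- for a `ρ`-invariant tuple: `[F]_{σ·P} = σ ∘ [F]_P`. -/
theorem s17pg_isMin_fixed {σ : K ≃+* K} {ρ : L ≃+* L} (h : S17pgSemi σ ρ) (P : S17plPlace K L)
    (F : ι → L) (hF : ∀ i, ρ (F i) = F i) (α : ι) (hα : S17plIsMin P.W F α) :
    S17plIsMin (s17pgMap h P).W F α := by
  have h1 := s17pg_isMin h P F α hα
  have h2 : (fun i => ρ (F i)) = F := funext hF
  rwa [h2] at h1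

theorem s17pg_val_fixed {σ : K ≃+* K} {ρ : L ≃+* L} (h : S17pgSemi σ ρ) (P : S17plPlace K L)
    (F : ι → L) (hF : ∀ i, ρ (F i) = F i) (α : ι) (hα : S17plIsMin P.W F α)
    (hα' : S17plIsMin (s17pgMap h P).W F α) :
    s17plVal (s17pgMap h P) F α hα' = fun i => σ (s17plVal P F α hα i) := by
  have h2 : (fun i => ρ (F i)) = F := funext hF
  rw [← s17pg_val h P F α hα (s17pg_isMin h P F α hα)]
  exact s17pl_val_congr _ h2.symm α _ _

/-! ## rationality of the place-values at Galois-stable places (`K = ℚ̄`) -/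

section Rat

variable {L : Type*} [Field L] [Algebra (AlgebraicClosure ℚ) L] {ι : Type*}

/-- **RAT, formal half.** `Γ = Gal(ℚ̄/ℚ)` acts semilinearly on `L` by `ρ`; `F` is a `Γ`-invariant
tuple; `P` is a place whose Galois translates give the same projective value of `F`
(the output of (PT)(c) at a centre fixed by `Γ`). Then `[F]_P` is a rational point. -/
theorem s17pg_isRat
    (ρ : (AlgebraicClosure ℚ ≃ₐ[ℚ] AlgebraicClosure ℚ) → L ≃+* L)
    (hρ : ∀ σ : AlgebraicClosure ℚ ≃ₐ[ℚ] AlgebraicClosure ℚ,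
      S17pgSemi (K := AlgebraicClosure ℚ) σ.toRingEquiv (ρ σ))
    (P : S17plPlace (AlgebraicClosure ℚ) L) (F : ι → L)
    (hF : ∀ (σ : AlgebraicClosure ℚ ≃ₐ[ℚ] AlgebraicClosure ℚ) (i : ι), ρ σ (F i) = F i)
    (α : ι) (hα : S17plIsMin P.W F α)
    (hPT : ∀ σ : AlgebraicClosure ℚ ≃ₐ[ℚ] AlgebraicClosure ℚ, ∃ c : AlgebraicClosure ℚ,
      s17plVal (s17pgMap (hρ σ) P) F α (s17pg_isMin_fixed (hρ σ) P F (hF σ) α hα) =
        c • s17plVal P F α hα) :
    S17prIsRat (s17plVal P F α hα) := by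
  apply s17pr_isRat_of_fixed
  intro σ
  obtain ⟨c, hc⟩ := hPT σ
  refine ⟨c, ?_⟩
  rw [← hc, s17pg_val_fixed (hρ σ) P F (hF σ) α hα]
  rfl

/-- the same with an arbitrary chart at the translated place. -/
theorem s17pg_isRat'
    (ρ : (AlgebraicClosure ℚ ≃ₐ[ℚ] AlgebraicClosure ℚ) → L ≃+* L)
    (hρ : ∀ σ : AlgebraicClosure ℚ ≃ₐ[ℚ] AlgebraicClosure ℚ,
      S17pgSemi (K := AlgebraicClosure ℚ) σ.toRingEquiv (ρ σ))
    (P : S17plPlace (AlgebraicClosure ℚ) L) (F : ι → L)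
    (hF : ∀ (σ : AlgebraicClosure ℚ ≃ₐ[ℚ] AlgebraicClosure ℚ) (i : ι), ρ σ (F i) = F i)
    (α : ι) (hα : S17plIsMin P.W F α)
    (hPT : ∀ σ : AlgebraicClosure ℚ ≃ₐ[ℚ] AlgebraicClosure ℚ, ∃ (β : ι) (hβ : S17plIsMin (s17pgMap (hρ σ) P).W F β) (c : AlgebraicClosure ℚ),
      s17plVal (s17pgMap (hρ σ) P) F β hβ = c • s17plVal P F α hα) :
    S17prIsRat (s17plVal P F α hα) := by
  apply s17pg_isRat ρ hρ P F hF α hα
  intro σ
  obtain ⟨β, hβ, c, hc⟩ := hPT σ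
  obtain ⟨d, -, hd⟩ := s17pl_val_change (s17pgMap (hρ σ) P) F β α hβ
    (s17pg_isMin_fixed (hρ σ) P F (hF σ) α hα)
  refine ⟨d * c, ?_⟩
  funext i
  rw [hd i, hc]
  simp only [Pi.smul_apply, smul_eq_mul]
  ring

/-- the case of a place fixed by the Galois action: `W` is stable and `res` is equivariant. -/
theorem s17pg_isRat_of_eq
    (ρ : (AlgebraicClosure ℚ ≃ₐ[ℚ] AlgebraicClosure ℚ) → L ≃+* L)
    (hρ : ∀ σ : AlgebraicClosure ℚ ≃ₐ[ℚ] AlgebraicClosure ℚ,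
      S17pgSemi (K := AlgebraicClosure ℚ) σ.toRingEquiv (ρ σ))
    (P : S17plPlace (AlgebraicClosure ℚ) L) (F : ι → L)
    (hF : ∀ (σ : AlgebraicClosure ℚ ≃ₐ[ℚ] AlgebraicClosure ℚ) (i : ι), ρ σ (F i) = F i)
    (α : ι) (hα : S17plIsMin P.W F α)
    (hW : ∀ σ : AlgebraicClosure ℚ ≃ₐ[ℚ] AlgebraicClosure ℚ, ∀ x ∈ P.W, ρ σ x ∈ P.W)
    (hres : ∀ (σ : AlgebraicClosure ℚ ≃ₐ[ℚ] AlgebraicClosure ℚ) (x : L) (hx : x ∈ P.W), P.res ⟨ρ σ x, hW σ x hx⟩ = σ (P.res ⟨x, hx⟩)) :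
    S17prIsRat (s17plVal P F α hα) := by
  apply s17pr_isRat_of_fixed
  intro σ
  refine ⟨1, ?_⟩
  rw [one_smul]
  funext i
  rw [s17pl_val_apply, ← hres σ _ (hα.2 i)]
  congr 1
  apply Subtype.ext
  show ρ σ (F i / F α) = F i / F α
  rw [map_div₀, hF σ i, hF σ α]

end Rat

end Fermat.Agent.S17
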