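/-
S17 sprint (helper84): ADAPTER PLACE-K ⇒ H-COMP.

`S17cpPlaceExt K L` (S17/CompPlace.lean, helper89) holds for every algebraically closed `K`
(`s17pk_exists'`, S17/PlaceK.lean), hence the composite `K`-place `s17cp_main` is UNCONDITIONAL:

* `s17pke_placeExt` : `S17cpPlaceExt K L`;
* `s17pke_comp`     : two `K`-places `W₁`, `W₂` of linearly disjoint fields `Ω₁`, `Ω₂ ⊆ L` are induced
                      by one `K`-place of `L`;
* `s17pke_isKPlace` : the valuation rings produced by PLACE-K (algebra form) are `K`-places in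
                      the sense of `S17cpIsKPlace`.
-/
import Fermat.Agent.S17.CompPlace
import Fermat.Agent.S17.PlaceK

set_option autoImplicit false

namespace Fermat.Agent.S17

open scoped TensorProduct

/-- **PLACE-K** in the packaged form of S17/CompPlace.lean. -/
theorem s17pke_placeExt (K L : Type*) [Field K] [IsAlgClosed K] [Field L] : S17cpPlaceExt K L :=
  fun R φ => s17pk_exists' R φ

section Comp

variable {K Ω₁ Ω₂ L : Type*} [Field K] [IsAlgClosed K] [Field Ω₁] [Field Ω₂] [Field L]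
  [Algebra K Ω₁] [Algebra K Ω₂] [Algebra K L]

/-- **H-COMP, unconditional**: the composite `K`-place. -/
theorem s17pke_comp (i₁ : Ω₁ →ₐ[K] L) (i₂ : Ω₂ →ₐ[K] L)
    {W₁ : ValuationSubring Ω₁} {W₂ : ValuationSubring Ω₂}
    (hW₁ : S17cpIsKPlace K W₁) (hW₂ : S17cpIsKPlace K W₂)
    (hinj : Function.Injective (Algebra.TensorProduct.productMap i₁ i₂)) :
    ∃ W : ValuationSubring L, S17cpIsKPlace K W ∧
      W.comap (i₁ : Ω₁ →+* L) = W₁ ∧ W.comap (i₂ : Ω₂ →+* L) = W₂ :=
  s17cp_main i₁ i₂ hW₁ hW₂ (s17pke_placeExt K L) hinj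

/-- a `K`-algebra homomorphism on a subalgebra of `L` extends to a `K`-place (in the sense of
`S17cpIsKPlace`) whose residue map restricts to it. -/
theorem s17pke_isKPlace (A : Subalgebra K L) (φ : A →ₐ[K] K) :
    ∃ (W : ValuationSubring L) (_ : S17cpIsKPlace K W) (_ : ∀ a : A, (a : L) ∈ W),
      ∀ a : A, (a : L) - algebraMap K L (φ a) ∈ W.nonunits := by
  obtain ⟨W, hKW, res, hAW, h1, h2, h3⟩ := s17pk_exists_alg A φ
  have hsub : ∀ (x : L) (hx : x ∈ W), x - algebraMap K L (res ⟨x, hx⟩) ∈ W.nonunits := by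
    intro x hx
    have hmem : x - algebraMap K L (res ⟨x, hx⟩) ∈ W := W.sub_mem hx (hKW _)
    have h0 : res ⟨x - algebraMap K L (res ⟨x, hx⟩), hmem⟩ = 0 := by
      have e : (⟨x - algebraMap K L (res ⟨x, hx⟩), hmem⟩ : ↥W) =
          ⟨x, hx⟩ - ⟨algebraMap K L (res ⟨x, hx⟩), hKW _⟩ := rfl
      rw [e, map_sub, h1, sub_self]
    exact (h3 ⟨_, hmem⟩).mp h0
  refine ⟨W, ⟨hKW, fun x hx => ⟨res ⟨x, hx⟩, hsub x hx⟩⟩, hAW, fun a => ?_⟩
  have := hsub (a : L) (hAW a)
  rwa [h2 a] at this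

end Comp

end Fermat.Agent.S17
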