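/-
S17 sprint, layer H, leaf **PLACE-LE** (helper36): EVERY valuation subring `W ⊇ K` of a field
`L ⊇ K` (`K` algebraically closed) CONTAINS a `K`-rational place.

* `s17ple_exists`      : `∃ P : S17plPlace K L, P.W ≤ W ∧ ∀ x ∈ W.nonunits, x ∈ P.W.nonunits`
                         (`P` is a SPECIALISATION of `W`: `W` is a localisation of `P.W`);
* `s17ple_unit_of_le`  : a unit of `W₀ ≤ W` is a unit of `W` (`S27IsUnitIn`-free form);
* `s17ple_mem_of_le`   : `x ∈ W₀ ≤ W ⇒ x ∈ W`.

Proof: `s17vk_exists_place` (S17/ValCritK.lean) applied to the family of ALL non-units of `W`.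

USE (with IDX-GEN, S17/IdxGen.lean): a statement "`z` is a unit of `W`" for all valuation subrings
`W ⊇ K` follows from the same statement at the `K`-places, as soon as the element `z = z(W)` may
be taken to be `z(P.W)` for `P.W ≤ W`.
-/
import Fermat.Agent.S17.ValCritK

set_option autoImplicit false
set_option linter.unusedVariables false
set_option linter.unusedSectionVars false

noncomputable section

namespace Fermat.Agent.S17

variable {K L : Type*} [Field K] [IsAlgClosed K] [Field L] [Algebra K L]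

/-- **PLACE-LE**: every valuation subring `W ⊇ K` contains a `K`-rational place `P`, and the
maximal ideal of `W` lies in the maximal ideal of `P`. -/
theorem s17ple_exists (W : ValuationSubring L) (hKW : ∀ c : K, algebraMap K L c ∈ W) :
    ∃ P : S17plPlace K L, P.W ≤ W ∧ ∀ x ∈ W.nonunits, x ∈ P.W.nonunits := by
  obtain ⟨P, hP⟩ := s17vk_exists_place (K := K) W hKW
    (fun x : {x : L // x ∈ W.nonunits} => (x : L)) (fun x => x.2)
  have hnu : ∀ x ∈ W.nonunits, x ∈ P.W.nonunits := fun x hx => hP ⟨x, hx⟩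
  refine ⟨P, fun x hx => ?_, hnu⟩
  by_contra hxW
  -- `x ∉ W`: then `x⁻¹ ∈ 𝔪_W ⊆ 𝔪_P`, but `x ∈ P.W`
  have h1 : 1 < W.valuation x := not_le.1 fun h => hxW ((W.valuation_le_one_iff _).1 h)
  have hpos : 0 < W.valuation x := lt_trans zero_lt_one h1
  have hinv : x⁻¹ ∈ W.nonunits := by
    show W.valuation x⁻¹ < 1
    rw [map_inv₀]
    exact (inv_lt_one₀ hpos).2 h1
  have h2 : P.W.valuation x⁻¹ < 1 := hnu _ hinv
  have h3 : P.W.valuation x ≤ 1 := (P.W.valuation_le_one_iff _).2 hx
  have hx0 : x ≠ 0 := by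
    rintro rfl
    exact hxW W.zero_mem
  have h4 : P.W.valuation (x * x⁻¹) < 1 := by
    rw [map_mul]
    calc P.W.valuation x * P.W.valuation x⁻¹
        ≤ 1 * P.W.valuation x⁻¹ := mul_le_mul' h3 le_rfl
      _ = P.W.valuation x⁻¹ := one_mul _
      _ < 1 := h2
  rw [mul_inv_cancel₀ hx0, map_one] at h4
  exact lt_irrefl _ h4

omit [IsAlgClosed K] [Algebra K L] in
/-- membership passes to the bigger valuation subring. -/
theorem s17ple_mem_of_le {W₀ W : ValuationSubring L} (h : W₀ ≤ W) {x : L} (hx : x ∈ W₀) :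
    x ∈ W := h hx

omit [IsAlgClosed K] [Algebra K L] in
/-- a unit of `W₀ ≤ W` is a unit of `W`. -/
theorem s17ple_unit_of_le {W₀ W : ValuationSubring L} (h : W₀ ≤ W) {x : L}
    (hx0 : x ≠ 0) (hx : x ∈ W₀) (hxi : x⁻¹ ∈ W₀) : x ≠ 0 ∧ x ∈ W ∧ x⁻¹ ∈ W :=
  ⟨hx0, h hx, h hxi⟩

/-- a statement about ALL valuation subrings `W ⊇ K` which is inherited by bigger valuation
subrings follows from the `K`-places. -/
theorem s17ple_forall {p : ValuationSubring L → Prop}
    (hmono : ∀ W₀ W : ValuationSubring L, W₀ ≤ W → p W₀ → p W)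
    (hP : ∀ P : S17plPlace K L, p P.W)
    (W : ValuationSubring L) (hKW : ∀ c : K, algebraMap K L c ∈ W) : p W := by
  obtain ⟨P, hle, -⟩ := s17ple_exists (K := K) W hKW
  exact hmono P.W W hle (hP P)

end Fermat.Agent.S17
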