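/-
S17 sprint, layer H (helper60): CRAMER VECTORS — a nonzero vector in the kernel of a matrix of
full row rank whose height is at most the height of the tuple of maximal minors (the PLÜCKER
coordinates).  This replaces Siegel's lemma / Minkowski in the Northcott step of helper30
(`∃ s ∈ L(kO − D′) ∖ 0` with `h(s) ≤ h_Plücker(V_{D′})`, constant `1`), and it is pure algebra.

* `s17plkCross B`            : for `B : n × (n+1)`, the vector `i ↦ (−1)^i · det (B without column i)`;
* `s17plk_mulVec_cross`      : `B *ᵥ s17plkCross B = 0` (Laplace expansion of a determinant with a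
                               repeated row);
* `s17plkKer A c`            : for `A : n × ι` and `n+1` columns `c`, the Cramer vector of the columns
                               `c`, extended by `0`;
* `s17plk_mulVec_ker`        : `A *ᵥ s17plkKer A c = 0` for injective `c`;
* `s17plk_ker_map_perm`      : a ring endomorphism that permutes the ROWS of `A` multiplies the
                               Cramer vector by the sign of the permutation (so the projective point
                               is Galois invariant when the rows are the conjugate points);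
* `s17plk_mulHeight_ker_le`  : `mulHeight (s17plkKer A c) ≤ mulHeight (all maximal minors of A)`;
* `s17plk_main`, `s17plk_main_card`, `s17plk_main_log` : existence of a nonzero kernel vector of
                               height `≤` the Plücker height.

Only Mathlib is used.
-/
import Mathlib

set_option autoImplicit false

namespace Fermat.Agent.S17

open Matrix Height

section Cross

variable {R : Type*} [CommRing R]

/-- The CRAMER vector of an `n × (n+1)` matrix: the signed maximal minors. -/
def s17plkCross {n : ℕ} (B : Matrix (Fin n) (Fin (n + 1)) R) : Fin (n + 1) → R :=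
  fun i => (-1) ^ (i : ℕ) * (B.submatrix id i.succAbove).det

theorem s17plk_cross_apply {n : ℕ} (B : Matrix (Fin n) (Fin (n + 1)) R) (i : Fin (n + 1)) :
    s17plkCross B i = (-1) ^ (i : ℕ) * (B.submatrix id i.succAbove).det := rfl

/-- The Cramer vector lies in the kernel. -/
theorem s17plk_mulVec_cross {n : ℕ} (B : Matrix (Fin n) (Fin (n + 1)) R) :
    B.mulVec (s17plkCross B) = 0 := by
  funext k
  -- the square matrix with the row `k` repeated on top
  let C : Matrix (Fin (n + 1)) (Fin (n + 1)) R :=
    Matrix.of (Fin.cons (B k) B : Fin (n + 1) → Fin (n + 1) → R)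
  have hC0 : C 0 = B k := by
    funext j
    simp [C]
  have hCs : ∀ a : Fin n, C a.succ = B a := by
    intro a
    funext j
    simp [C]
  have hC : C.det = 0 :=
    Matrix.det_zero_of_row_eq (i := 0) (j := k.succ) (Fin.succ_ne_zero k).symm
      (by rw [hC0, hCs])
  rw [Matrix.det_succ_row_zero] at hC
  have hsub : ∀ j : Fin (n + 1),
      C.submatrix Fin.succ j.succAbove = B.submatrix id j.succAbove := by
    intro j
    ext a b
    simp only [Matrix.submatrix_apply, id]
    rw [hCs]
  simp only [hsub, hC0] at hC
  simp only [Matrix.mulVec, dotProduct, s17plkCross, Pi.zero_apply]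
  rw [← hC]
  refine Finset.sum_congr rfl fun j _ => ?_
  ring

/-- A ring homomorphism that permutes the rows multiplies the Cramer vector by the sign. -/
theorem s17plk_cross_map_perm {n : ℕ} (B : Matrix (Fin n) (Fin (n + 1)) R) (σ : R →+* R)
    (π : Equiv.Perm (Fin n)) (h : ∀ k j, σ (B k j) = B (π k) j) (i : Fin (n + 1)) :
    σ (s17plkCross B i) = (Equiv.Perm.sign π : ℤ) * s17plkCross B i := by
  have h1 : (B.submatrix id i.succAbove).map σ = (B.submatrix id i.succAbove).submatrix π id := by
    ext a b
    simp [h]
  have h2 : σ ((B.submatrix id i.succAbove).det) =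
      (Equiv.Perm.sign π : ℤ) * (B.submatrix id i.succAbove).det := by
    rw [RingHom.map_det, RingHom.mapMatrix_apply, h1, Matrix.det_permute]
  rw [s17plk_cross_apply, map_mul, map_pow, map_neg, map_one, h2]
  ring

end Cross

section Ker

variable {R : Type*} [CommRing R] {ι : Type*}

/-- The Cramer vector of the columns `c` of `A`, extended by zero. -/
noncomputable def s17plkKer {n : ℕ} (A : Matrix (Fin n) ι R) (c : Fin (n + 1) → ι) : ι → R :=
  Function.extend c (s17plkCross (A.submatrix id c)) 0

theorem s17plk_ker_apply {n : ℕ} (A : Matrix (Fin n) ι R) {c : Fin (n + 1) → ι}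
    (hc : Function.Injective c) (i : Fin (n + 1)) :
    s17plkKer A c (c i) = (-1) ^ (i : ℕ) * (A.submatrix id (c ∘ i.succAbove)).det := by
  rw [s17plkKer, hc.extend_apply, s17plk_cross_apply]
  rfl

theorem s17plk_ker_apply_of_notMem {n : ℕ} (A : Matrix (Fin n) ι R) (c : Fin (n + 1) → ι)
    {j : ι} (hj : ¬ ∃ i, c i = j) : s17plkKer A c j = 0 := by
  rw [s17plkKer, Function.extend_apply' _ _ _ hj]
  rfl

/-- The Cramer vector of `n + 1` distinct columns lies in the kernel of `A`. -/
theorem s17plk_mulVec_ker [Fintype ι] {n : ℕ} (A : Matrix (Fin n) ι R) {c : Fin (n + 1) → ι}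
    (hc : Function.Injective c) : A.mulVec (s17plkKer A c) = 0 := by
  classical
  funext k
  have h := congrFun (s17plk_mulVec_cross (A.submatrix id c)) k
  simp only [Matrix.mulVec, dotProduct, Pi.zero_apply] at h ⊢
  rw [← h, ← Finset.sum_subset (Finset.subset_univ (Finset.univ.map ⟨c, hc⟩))]
  · rw [Finset.sum_map]
    refine Finset.sum_congr rfl fun i _ => ?_
    simp only [Function.Embedding.coeFn_mk, Matrix.submatrix_apply, id]
    rw [s17plkKer, hc.extend_apply]
  · intro j _ hj
    have hj' : ¬ ∃ i, c i = j := by
      simpa using hj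
    rw [s17plk_ker_apply_of_notMem A c hj', mul_zero]

/-- A ring homomorphism that permutes the rows of `A` multiplies the Cramer vector by the sign of
the permutation: the projective point `[s17plkKer A c]` is invariant. -/
theorem s17plk_ker_map_perm {n : ℕ} (A : Matrix (Fin n) ι R) (c : Fin (n + 1) → ι)
    (hc : Function.Injective c) (σ : R →+* R) (π : Equiv.Perm (Fin n))
    (h : ∀ k j, σ (A k j) = A (π k) j) (j : ι) :
    σ (s17plkKer A c j) = (Equiv.Perm.sign π : ℤ) * s17plkKer A c j := by
  by_cases hj : ∃ i, c i = j
  · obtain ⟨i, rfl⟩ := hj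
    rw [s17plkKer, hc.extend_apply]
    exact s17plk_cross_map_perm (A.submatrix id c) σ π (fun k j => h k (c j)) i
  · rw [s17plk_ker_apply_of_notMem A c hj, map_zero, mul_zero]

end Ker

section Height

variable {K : Type*} [Field K] [AdmissibleAbsValues K] {ι : Type*}

/-- A tuple of signs has height `1`. -/
theorem s17plk_mulHeight_sign [Finite ι] (ε : ι → K) (hε : ∀ i, ε i * ε i = 1) :
    mulHeight ε = 1 := by
  have h2 : ε ^ 2 = 1 := by
    funext i
    simp [pow_two, hε i]
  have h3 : mulHeight ε ^ 2 = 1 := by
    rw [← mulHeight_pow, h2, mulHeight_one]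
  have h4 : 1 ≤ mulHeight ε := one_le_mulHeight ε
  nlinarith

/-- The PLÜCKER tuple of `A`: all maximal minors. -/
noncomputable def s17plkMinors {n : ℕ} (A : Matrix (Fin n) ι K) : (Fin n → ι) → K :=
  fun d => (A.submatrix id d).det

/-- The height of a Cramer vector is at most the height of the Plücker tuple. -/
theorem s17plk_mulHeight_ker_le [Fintype ι] {n : ℕ} (A : Matrix (Fin n) ι K)
    {c : Fin (n + 1) → ι} (hc : Function.Injective c) :
    mulHeight (s17plkKer A c) ≤ mulHeight (s17plkMinors A) := by
  classical
  -- the Plücker tuple with one extra zero coordinate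
  let y : ((Fin n → ι) ⊕ Unit) → K := Sum.elim (s17plkMinors A) (0 : Unit → K)
  let g : ι → ((Fin n → ι) ⊕ Unit) := fun j =>
    if h : ∃ i, c i = j then Sum.inl (c ∘ (Classical.choose h).succAbove) else Sum.inr ()
  let ε : ι → K := fun j =>
    if h : ∃ i, c i = j then (-1) ^ ((Classical.choose h : Fin (n + 1)) : ℕ) else 1
  have hε : ∀ j, ε j * ε j = 1 := by
    intro j
    by_cases h : ∃ i, c i = j
    · simp only [ε, dif_pos h]
      rw [← mul_pow]
      simp
    · simp only [ε, dif_neg h, mul_one]
  have hw : s17plkKer A c = ε * (y ∘ g) := by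
    funext j
    by_cases h : ∃ i, c i = j
    · have hch : c (Classical.choose h) = j := Classical.choose_spec h
      simp only [Pi.mul_apply, Function.comp_apply, ε, g, dif_pos h, y, Sum.elim_inl]
      conv_lhs => rw [← hch]
      rw [s17plk_ker_apply A hc]
      rfl
    · simp only [Pi.mul_apply, Function.comp_apply, ε, g, dif_neg h, y, Sum.elim_inr,
        Pi.zero_apply, mul_zero]
      exact s17plk_ker_apply_of_notMem A c h
  calc mulHeight (s17plkKer A c) = mulHeight (ε * (y ∘ g)) := by rw [hw]
    _ ≤ mulHeight ε * mulHeight (y ∘ g) := mulHeight_mul_le _ _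
    _ = mulHeight (y ∘ g) := by rw [s17plk_mulHeight_sign ε hε, one_mul]
    _ ≤ mulHeight y := mulHeight_comp_le g y
    _ = mulHeight (s17plkMinors A) := mulHeight_sumElim_zero_eq _

/-- **CRAMER instead of SIEGEL.**  If some maximal minor of `A` (columns `d`) is nonzero and there
is one more column `i₀`, then the kernel of `A` contains a nonzero vector whose height is at most
the height of the Plücker tuple of `A`. -/
theorem s17plk_main [Fintype ι] {n : ℕ} (A : Matrix (Fin n) ι K) (d : Fin n → ι)
    (hd : (A.submatrix id d).det ≠ 0) (i₀ : ι) (hi₀ : i₀ ∉ Set.range d) :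
    ∃ w : ι → K, w ≠ 0 ∧ A.mulVec w = 0 ∧ mulHeight w ≤ mulHeight (s17plkMinors A) := by
  classical
  have hdinj : Function.Injective d := by
    intro a b hab
    by_contra hne
    exact hd (Matrix.det_zero_of_column_eq hne (fun k => by simp [hab]))
  have hc : Function.Injective (Fin.cons i₀ d : Fin (n + 1) → ι) :=
    Fin.cons_injective_iff.2 ⟨hi₀, hdinj⟩
  refine ⟨s17plkKer A (Fin.cons i₀ d), ?_, s17plk_mulVec_ker A hc, s17plk_mulHeight_ker_le A hc⟩
  intro h0
  have h1 := s17plk_ker_apply A hc 0
  rw [h0] at h1
  simp only [Pi.zero_apply, Fin.val_zero, pow_zero, one_mul] at h1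
  apply hd
  rw [h1]
  congr 1

/-- The same with the hypothesis `n < #columns`. -/
theorem s17plk_main_card [Fintype ι] {n : ℕ} (A : Matrix (Fin n) ι K)
    (hA : ∃ d : Fin n → ι, (A.submatrix id d).det ≠ 0) (hn : n < Fintype.card ι) :
    ∃ w : ι → K, w ≠ 0 ∧ A.mulVec w = 0 ∧ mulHeight w ≤ mulHeight (s17plkMinors A) := by
  obtain ⟨d, hd⟩ := hA
  obtain ⟨i₀, hi₀⟩ : ∃ i₀, i₀ ∉ Set.range d := by
    by_contra hcon
    push Not at hcon
    have hs : Function.Surjective d := fun j => hcon j
    have := Fintype.card_le_of_surjective d hs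
    simp at this
    omega
  exact s17plk_main A d hd i₀ hi₀

/-- Logarithmic form. -/
theorem s17plk_main_log [Fintype ι] {n : ℕ} (A : Matrix (Fin n) ι K)
    (hA : ∃ d : Fin n → ι, (A.submatrix id d).det ≠ 0) (hn : n < Fintype.card ι) :
    ∃ w : ι → K, w ≠ 0 ∧ A.mulVec w = 0 ∧ logHeight w ≤ logHeight (s17plkMinors A) := by
  obtain ⟨w, hw0, hw1, hw2⟩ := s17plk_main_card A hA hn
  refine ⟨w, hw0, hw1, ?_⟩
  simp only [logHeight_eq_log_mulHeight]
  exact Real.log_le_log (mulHeight_pos _) hw2

end Height

end Fermat.Agent.S17

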