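/-
S17 sprint (helper47, captain): a QUADRATIC height certificate works at EVERY multiplier `m ≥ 2`.

Mathlib's `AddCommGroup.fg_of_descent'` uses the quasi-parallelogram law only with `m = 2`; weak
Mordell–Weil is available at the odd primes (`TW.G.stmtLevFin`, helper4).  Here:

`s17qm_transl` : quasi-parallelogram law + `0 ≤ h` ⇒ `h x ≤ 2 * h (g + x) + (2 * h g + C)`;
`s17qm_mul`    : quasi-parallelogram law + `0 ≤ h` ⇒ `m² * h x - ((m+1) * h 0 + m² * C) ≤ h (m • x)`;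
`s17qm_isHeight` : `S17IsQuad N h` ⇒ `S17IsHeight N m h` for `2 ≤ m` (with `a = 2`, `b = m²`);
`s17qm_top`    : WEAK at `m ≥ 2` + QUAD ⇒ `AddGroup.FG (s17MW N)`.
-/
import Fermat.Agent.S17.Top

set_option autoImplicit false

namespace Fermat.Agent.S17

open ModularCurve AlgebraicCurve

section abstract

variable {G : Type*} [AddCommGroup G]

/-- the translation bound (T) with `a = 2` from the quasi-parallelogram law. -/
theorem s17qm_transl (h : G → ℝ) (C : ℝ)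
    (hq : ∀ x y : G, |h (x + y) + h (x - y) - 2 * (h x + h y)| ≤ C) (h0 : ∀ x : G, 0 ≤ h x)
    (g x : G) : h x ≤ 2 * h (g + x) + (2 * h g + C) := by
  have h1 := hq (g + x) g
  have e1 : g + x - g = x := by abel
  rw [e1] at h1
  have h2 := (abs_le.1 h1).2
  have h3 := h0 (g + x + g)
  linarith

/-- auxiliary: the first and second differences of `k ↦ h (k • x) - k² h x` are bounded. -/
theorem s17qm_aux (h : G → ℝ) (C : ℝ)
    (hq : ∀ x y : G, |h (x + y) + h (x - y) - 2 * (h x + h y)| ≤ C) (h0 : ∀ x : G, 0 ≤ h x)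
    (x : G) (k : ℕ) :
    |h (k • x) - (k : ℝ) ^ 2 * h x| ≤ ((k : ℝ) + 1) * h 0 + (k : ℝ) ^ 2 * C ∧
    |(h ((k + 1) • x) - ((k : ℝ) + 1) ^ 2 * h x) - (h (k • x) - (k : ℝ) ^ 2 * h x)| ≤
      h 0 + (k : ℝ) * C := by
  have hC : 0 ≤ C := le_trans (abs_nonneg _) (hq 0 0)
  have hh0 : 0 ≤ h 0 := h0 0
  induction k with
  | zero =>
    refine ⟨?_, ?_⟩
    · simp only [zero_smul, Nat.cast_zero, zero_add, one_mul]
      rw [show h 0 - (0 : ℝ) ^ 2 * h x = h 0 by ring, abs_of_nonneg hh0]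
      nlinarith
    · simp only [zero_smul, Nat.cast_zero, zero_add, one_smul, zero_mul, add_zero]
      rw [show h x - (1 : ℝ) ^ 2 * h x - (h 0 - (0 : ℝ) ^ 2 * h x) = -h 0 by ring, abs_neg,
        abs_of_nonneg hh0]
  | succ k ih =>
    obtain ⟨ih1, ih2⟩ := ih
    have hkk : (0 : ℝ) ≤ (k : ℝ) := Nat.cast_nonneg k
    have hlaw := hq ((k + 1) • x) x
    have e1 : (k + 1) • x + x = (k + 1 + 1) • x := by
      rw [add_smul (k + 1) 1 x, one_smul]
    have e2 : (k + 1) • x - x = k • x := by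
      rw [add_smul k 1 x, one_smul]; abel
    rw [e1, e2] at hlaw
    have hl := abs_le.1 hlaw
    have i1 := abs_le.1 ih1
    have i2 := abs_le.1 ih2
    push_cast
    refine ⟨abs_le.2 ⟨?_, ?_⟩, abs_le.2 ⟨?_, ?_⟩⟩
    · nlinarith [i1.1, i2.1, mul_nonneg hkk hC]
    · nlinarith [i1.2, i2.2, mul_nonneg hkk hC]
    · nlinarith [hl.1, i2.1]
    · nlinarith [hl.2, i2.2]

/-- the multiplication bound (M) with `b = m²` from the quasi-parallelogram law. -/
theorem s17qm_mul (h : G → ℝ) (C : ℝ)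
    (hq : ∀ x y : G, |h (x + y) + h (x - y) - 2 * (h x + h y)| ≤ C) (h0 : ∀ x : G, 0 ≤ h x)
    (m : ℕ) (x : G) :
    (m : ℝ) ^ 2 * h x - (((m : ℝ) + 1) * h 0 + (m : ℝ) ^ 2 * C) ≤ h (m • x) := by
  have h1 := (abs_le.1 (s17qm_aux h C hq h0 x m).1).1
  linarith

end abstract

/-- a QUADRATIC height certificate is a HEIGHT certificate at every multiplier `m ≥ 2`. -/
theorem s17qm_isHeight (N : ℕ) [NeZero N] (m : ℕ) (hm : 2 ≤ m) (h : s17MW N → ℝ)
    (hh : S17IsQuad N h) : S17IsHeight N m h := by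
  obtain ⟨C, hC⟩ := hh.quad
  refine ⟨hh.northcott, 2, (m : ℝ) ^ 2, ((m : ℝ) + 1) * h 0 + (m : ℝ) ^ 2 * C,
    fun g => 2 * h g + C, by norm_num, ?_, ?_, ?_⟩
  · have h2 : (2 : ℝ) ≤ (m : ℝ) := by exact_mod_cast hm
    nlinarith
  · intro g x
    exact s17qm_transl h C hC hh.nonneg g x
  · intro x
    exact s17qm_mul h C hC hh.nonneg m x

/-- WEAK at `m ≥ 2` + QUAD ⇒ finitely generated. -/
theorem s17qm_top (N : ℕ) [NeZero N] (m : ℕ) (hm : 2 ≤ m) (h : s17MW N → ℝ)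
    (hw : S17IsWeak N m) (hh : S17IsQuad N h) : AddGroup.FG (s17MW N) :=
  s17_top N m h hw (s17qm_isHeight N m hm h hh)

end Fermat.Agent.S17
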