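/-
S17 sprint (item 17), W2 route B, **KUM-2** (helper33): RAM (S17/Ram.lean) + SEL-FIN
(S17/SelReps.lean) ⇒ ONE number field contains all inertia-fixed square roots.

`Qb = AlgebraicClosure ℚ`, `E₀ ⊂ Qb` a number field, `S` a finite set of rational primes.

* **`s17rs_field`** : there is a finite extension `E ⊇ E₀` inside `Qb` such that every `z ∈ Qb` with
  `z² ∈ E₀` which is fixed by the inertia groups of ALL valuation subrings of `Qb` over ALL primes
  `ℓ ∉ S` lies in `E`;
* `s17rs_fixing`    : the same in Galois form: every `σ` fixing `E` pointwise fixes all such `z`.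
-/
import Fermat.Agent.S17.Ram
import Fermat.Agent.S17.SelReps

set_option autoImplicit false
set_option linter.unusedSectionVars false
set_option linter.unusedVariables false
set_option linter.style.longLine false
set_option linter.style.haveILetI false

noncomputable section

namespace Fermat.Agent.S17

open IsDedekindDomain NumberField

/-- `ℚ̄` -/
local notation "Qb" => AlgebraicClosure ℚ

/-- **KUM-2**: one number field contains all the square roots of elements of `E₀` that are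
fixed by all inertia groups outside `S`. -/
theorem s17rs_field (E₀ : IntermediateField ℚ Qb) [FiniteDimensional ℚ E₀] (S : Finset ℕ) :
    ∃ E : IntermediateField ℚ Qb, FiniteDimensional ℚ E ∧ E₀ ≤ E ∧
      ∀ z : Qb, z ^ 2 ∈ E₀ →
        (∀ ℓ : ℕ, ℓ.Prime → ℓ ∉ S → ∀ A : ValuationSubring Qb, A.LiesOverPrime ℓ →
          ∀ σ ∈ A.inertiaSubgroupIn ℚ, σ z = z) → z ∈ E := by
  classical
  haveI : NumberField ↥E₀ := { to_charZero := inferInstance, to_finiteDimensional := inferInstance }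
  obtain ⟨T, hT, hrep⟩ := s17sr_selmer_reps (↥E₀) 2 (by norm_num) (s17rmS (↥E₀) S)
    (s17rm_S_finite (↥E₀) S)
  have hroot : ∀ t : (↥E₀)ˣ, ∃ r : Qb, r ^ 2 = (((t : ↥E₀)) : Qb) := fun t =>
    IsAlgClosed.exists_pow_nat_eq _ (by norm_num)
  choose r hr using hroot
  haveI : Finite (r '' T) := (hT.image r).to_subtype
  haveI : Algebra.IsAlgebraic ℚ Qb := AlgebraicClosure.isAlgebraic ℚ
  haveI h1 : FiniteDimensional ℚ ↥(IntermediateField.adjoin ℚ (r '' T)) :=
    IntermediateField.finiteDimensional_adjoin fun x _ =>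
      (Algebra.IsAlgebraic.isAlgebraic (R := ℚ) x).isIntegral
  refine ⟨E₀ ⊔ IntermediateField.adjoin ℚ (r '' T), IntermediateField.finiteDimensional_sup _ _,
    le_sup_left, ?_⟩
  intro z hz hfix
  by_cases hz0 : z = 0
  · rw [hz0]
    exact zero_mem _
  have ha0 : (⟨z ^ 2, hz⟩ : ↥E₀) ≠ 0 := by
    intro h
    have := congrArg (fun x : ↥E₀ => (x : Qb)) h
    exact hz0 (pow_eq_zero_iff (by norm_num) |>.mp this)
  have hmem := s17rm_mem_selmer (↥E₀) S (Units.mk0 _ ha0) z rfl hfix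
  obtain ⟨t, ht, y, hy⟩ := hrep _ hmem
  have hy' : z ^ 2 = (((t : ↥E₀)) : Qb) * (((y : ↥E₀)) : Qb) ^ 2 := by
    have := congrArg (fun x : (↥E₀)ˣ => (((x : ↥E₀)) : Qb)) hy
    simpa using this
  have hsq : z ^ 2 = (r t * (((y : ↥E₀)) : Qb)) ^ 2 := by
    rw [mul_pow, hr t, hy']
  have hrt : r t ∈ E₀ ⊔ IntermediateField.adjoin ℚ (r '' T) :=
    (le_sup_right : IntermediateField.adjoin ℚ (r '' T) ≤ _)
      (IntermediateField.subset_adjoin ℚ _ ⟨t, ht, rfl⟩)
  have hyE : (((y : ↥E₀)) : Qb) ∈ E₀ ⊔ IntermediateField.adjoin ℚ (r '' T) :=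
    (le_sup_left : E₀ ≤ _) (y : ↥E₀).2
  rcases sq_eq_sq_iff_eq_or_eq_neg.mp hsq with h | h
  · rw [h]
    exact mul_mem hrt hyE
  · rw [h]
    exact neg_mem (mul_mem hrt hyE)

/-- **KUM-2, Galois form**: every automorphism fixing `E` pointwise fixes every inertia-fixed
square root of an element of `E₀`. -/
theorem s17rs_fixing (E₀ : IntermediateField ℚ Qb) [FiniteDimensional ℚ E₀] (S : Finset ℕ) :
    ∃ E : IntermediateField ℚ Qb, FiniteDimensional ℚ E ∧ E₀ ≤ E ∧
      ∀ z : Qb, z ^ 2 ∈ E₀ →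
        (∀ ℓ : ℕ, ℓ.Prime → ℓ ∉ S → ∀ A : ValuationSubring Qb, A.LiesOverPrime ℓ →
          ∀ σ ∈ A.inertiaSubgroupIn ℚ, σ z = z) →
        ∀ σ ∈ E.fixingSubgroup, σ z = z := by
  obtain ⟨E, hE, hle, h⟩ := s17rs_field E₀ S
  refine ⟨E, hE, hle, fun z hz hfix σ hσ => ?_⟩
  exact (IntermediateField.mem_fixingSubgroup_iff E σ).mp hσ z (h z hz hfix)

end Fermat.Agent.S17
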