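/-
S17 sprint, layer H — leaf **PT-a-rat(2): CONSTANT-FIELD EXTENSION OF A RATIONAL PLACE** (helper80).

Frame: fields `k ⊆ K ⊆ L` (think `k = ℚ`, `K = ℚ̄`, `L = ℚ̄(J)`), a subfield `L₀ ⊆ L` containing `k`
(think `L₀ = ℚ(J) = L^Γ`) with `L = K · L₀` (`S17ruGen`: every element of `L` is a finite sum
`∑ aᵢ fᵢ`, `aᵢ ∈ K`, `fᵢ ∈ L₀`), and a valuation subring `W ⊇ K` of `L` whose trace on `L₀` has residue
field `k` (`S17ruFrame`: every `f ∈ W ∩ L₀` is `≡ q mod 𝔪_W` for some `q ∈ k`).

* `s17ru_crit`     : for `c : ι → K` linearly independent over `k` and `fᵢ ∈ L₀`: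
                     `∑ cᵢ fᵢ ∈ W ↔ ∀ i, fᵢ ∈ W`;
* `s17ru_red`      : every `∑ aᵢ fᵢ` can be rewritten with `k`-independent coefficients;
* `s17ru_le`, `s17ru_unique` : `W` is the ONLY valuation subring of `L` containing `K` with the given
                     trace on `L₀`;
* `s17ru_stable`   : hence `W` is stable under every ring automorphism `ρ` of `L` which fixes `L₀`
                     pointwise and maps `K` into `W` (every `σ ∈ Γ = Gal(K/k)` acting on `L`);
* `s17ru_res`, `s17ru_res_unique` : the residue field of `W` is `K`;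
* `s17ruPlace`     : the place `(W, res) : S17plPlace K L` (S17/Place.lean), `s17ruPlace_spec`;
* `s17ru_res_rat`  : `res f ∈ k` for `f ∈ W ∩ L₀` (rational functions have rational values);
* `s17ru_res_equiv`: `res (ρ x) = σ (res x)` for `ρ` semilinear over `σ`, `ρ = id` on `L₀`;
* `s17ru_exists`   : EXISTENCE — a valuation subring `W₀ ⊇ k` of `L₀` with residue field `k` is the
                     trace of such a `W` when `K / k` is algebraic (Chevalley, S26/ERAbs).

So: `Γ`-stable `K`-places of `L` ⟷ `k`-rational places of `L₀`; a `Γ`-stable place of class `x`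
exists as soon as ONE `k`-rational place of `L₀` centred at `x` exists.
-/
import Fermat.Agent.S17.Place
import Fermat.Agent.S17.ValQ
import Fermat.Agent.S26.ERAbs

set_option autoImplicit false
set_option linter.unusedSectionVars false
set_option linter.unusedVariables false

noncomputable section

namespace Fermat.Agent.S17

/-- the frame: `W ⊇ K` and the trace of `W` on `L₀` has residue field `k`. -/
structure S17ruFrame (k K : Type*) {L : Type*} [Field k] [Field K] [Field L] [Algebra K L]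
    [Algebra k L] (L₀ : Subfield L) (W : ValuationSubring L) : Prop where
  hK : ∀ c : K, algebraMap K L c ∈ W
  rat : ∀ f : L, f ∈ L₀ → f ∈ W → ∃ q : k, f - algebraMap k L q ∈ W.nonunits

/-- `L = K · L₀`. -/
def S17ruGen (K : Type*) {L : Type*} [Field K] [Field L] [Algebra K L] (L₀ : Subfield L) : Prop :=
  ∀ x : L, ∃ (n : ℕ) (a : Fin n → K) (f : Fin n → L),
    (∀ i, f i ∈ L₀) ∧ x = ∑ i, algebraMap K L (a i) * f i

section Basic

variable {L : Type*} [Field L]

theorem s17ru_mul_mem_nonunits {W : ValuationSubring L} {w m : L} (hw : w ∈ W)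
    (hm : m ∈ W.nonunits) : w * m ∈ W.nonunits := by
  rw [ValuationSubring.mem_nonunits_iff_exists_mem_maximalIdeal] at hm ⊢
  obtain ⟨hmW, hm'⟩ := hm
  exact ⟨W.mul_mem _ _ hw hmW, Ideal.mul_mem_left _ (⟨w, hw⟩ : W) hm'⟩

theorem s17ru_one_not_mem_nonunits (W : ValuationSubring L) : (1 : L) ∉ W.nonunits := by
  intro h
  rw [ValuationSubring.mem_nonunits_iff_or] at h
  rcases h with h | h
  · exact one_ne_zero h
  · exact h (by rw [inv_one]; exact W.one_mem)

theorem s17ru_const_eq_zero {K : Type*} [Field K] [Algebra K L] {W : ValuationSubring L}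
    (hK : ∀ c : K, algebraMap K L c ∈ W) {a : K} (ha : algebraMap K L a ∈ W.nonunits) :
    a = 0 := by
  by_contra h
  rw [ValuationSubring.mem_nonunits_iff_or] at ha
  rcases ha with h0 | h1
  · exact h ((map_eq_zero (algebraMap K L)).1 h0)
  · apply h1
    rw [← map_inv₀]
    exact hK _

/-- the non-units of `W` inside a subfield `L₀` depend only on `W ∩ L₀`. -/
theorem s17ru_nonunits_iff {L₀ : Subfield L} {W W' : ValuationSubring L}
    (h : ∀ f : L, f ∈ L₀ → (f ∈ W ↔ f ∈ W')) {y : L} (hy : y ∈ L₀) :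
    y ∈ W.nonunits ↔ y ∈ W'.nonunits := by
  rw [ValuationSubring.mem_nonunits_iff_or, ValuationSubring.mem_nonunits_iff_or,
    h _ (L₀.inv_mem hy)]

end Basic

section Main

variable {k K L : Type*} [Field k] [Field K] [Field L] [Algebra k K] [Algebra K L] [Algebra k L]
  [IsScalarTower k K L]

/-- **the criterion**: a `K`-combination of elements of `L₀` with `k`-independent coefficients lies
in `W` iff every term does. -/
theorem s17ru_crit {L₀ : Subfield L} {W : ValuationSubring L} (hW : S17ruFrame k K L₀ W)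
    {ι : Type*} [Fintype ι] {c : ι → K} (hc : LinearIndependent k c) {f : ι → L}
    (hf : ∀ i, f i ∈ L₀) :
    (∑ i, algebraMap K L (c i) * f i) ∈ W ↔ ∀ i, f i ∈ W := by
  constructor
  · intro hS
    by_contra hnot
    obtain ⟨i₀, hi₀⟩ := not_forall.1 hnot
    have hf0 : f ≠ 0 := by
      intro h0
      apply hi₀
      rw [h0]
      exact W.zero_mem
    obtain ⟨α, hα0, hα⟩ := s17pl_exists_min W hf0
    have hαW : f α ∉ W := by
      intro h
      apply hi₀
      have := W.mul_mem _ _ (hα i₀) h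
      rwa [div_mul_cancel₀ _ hα0] at this
    have hinv : (f α)⁻¹ ∈ W.nonunits := (ValuationSubring.inv_mem_nonunits_iff W).2 (Or.inr hαW)
    have hq : ∀ i, ∃ q : k, f i / f α - algebraMap k L q ∈ W.nonunits := fun i =>
      hW.rat _ (L₀.div_mem (hf i) (hf α)) (hα i)
    choose q hq using hq
    have h1 : (∑ i, algebraMap K L (c i) * (f i / f α)) ∈ W.nonunits := by
      have : (∑ i, algebraMap K L (c i) * (f i / f α))
          = (∑ i, algebraMap K L (c i) * f i) * (f α)⁻¹ := by
        rw [Finset.sum_mul]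
        refine Finset.sum_congr rfl fun i _ => ?_
        rw [div_eq_mul_inv, mul_assoc]
      rw [this]
      exact s17ru_mul_mem_nonunits hS hinv
    have h2 : (∑ i, algebraMap K L (c i) * (f i / f α - algebraMap k L (q i))) ∈ W.nonunits :=
      sum_mem fun i _ => s17ru_mul_mem_nonunits (hW.hK _) (hq i)
    have h3 : algebraMap K L (∑ i, q i • c i) ∈ W.nonunits := by
      have : algebraMap K L (∑ i, q i • c i) = (∑ i, algebraMap K L (c i) * (f i / f α))
          - ∑ i, algebraMap K L (c i) * (f i / f α - algebraMap k L (q i)) := by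
        rw [map_sum, ← Finset.sum_sub_distrib]
        refine Finset.sum_congr rfl fun i _ => ?_
        rw [Algebra.smul_def, map_mul, ← IsScalarTower.algebraMap_apply]
        ring
      rw [this]
      exact sub_mem h1 h2
    have h4 : ∑ i, q i • c i = 0 := s17ru_const_eq_zero hW.hK h3
    have h5 : q α = 0 := (Fintype.linearIndependent_iff.1 hc) q h4 α
    have h6 := hq α
    rw [h5, map_zero, sub_zero, div_self hα0] at h6
    exact s17ru_one_not_mem_nonunits W h6
  · intro h
    exact sum_mem fun i _ => W.mul_mem _ _ (hW.hK _) (h i)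

/-- **reduction to independent coefficients**. -/
theorem s17ru_red {L₀ : Subfield L} (hk : ∀ q : k, algebraMap k L q ∈ L₀) {n : ℕ}
    (a : Fin n → K) (f : Fin n → L) (hf : ∀ i, f i ∈ L₀) :
    ∃ (m : ℕ) (c : Fin m → K) (f' : Fin m → L), LinearIndependent k c ∧ (∀ j, f' j ∈ L₀) ∧
      ∑ i, algebraMap K L (a i) * f i = ∑ j, algebraMap K L (c j) * f' j := by
  classical
  let V : Submodule k K := Submodule.span k (Set.range a)
  have : Module.Finite k V := Module.Finite.span_of_finite k (Set.finite_range a)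
  let b := Module.finBasis k V
  have haV : ∀ i, a i ∈ V := fun i => Submodule.subset_span ⟨i, rfl⟩
  refine ⟨Module.finrank k V, fun j => (b j : K),
    fun j => ∑ i, algebraMap k L (b.repr ⟨a i, haV i⟩ j) * f i, ?_, ?_, ?_⟩
  · exact b.linearIndependent.map' V.subtype (Submodule.ker_subtype V)
  · intro j
    exact sum_mem fun i _ => L₀.mul_mem (hk _) (hf i)
  · have hai : ∀ i, a i = ∑ j, b.repr ⟨a i, haV i⟩ j • (b j : K) := by
      intro i
      have h := congrArg (V.subtype) (b.sum_repr ⟨a i, haV i⟩)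
      rw [map_sum] at h
      simpa using h.symm
    calc ∑ i, algebraMap K L (a i) * f i
        = ∑ i, ∑ j, algebraMap K L (b j : K)
            * (algebraMap k L (b.repr ⟨a i, haV i⟩ j) * f i) := by
          refine Finset.sum_congr rfl fun i _ => ?_
          conv_lhs => rw [hai i]
          rw [map_sum, Finset.sum_mul]
          refine Finset.sum_congr rfl fun j _ => ?_
          rw [Algebra.smul_def, map_mul, ← IsScalarTower.algebraMap_apply]
          ring
      _ = ∑ j, ∑ i, algebraMap K L (b j : K)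
            * (algebraMap k L (b.repr ⟨a i, haV i⟩ j) * f i) := Finset.sum_comm
      _ = ∑ j, algebraMap K L (b j : K)
            * ∑ i, algebraMap k L (b.repr ⟨a i, haV i⟩ j) * f i := by
          refine Finset.sum_congr rfl fun j _ => ?_
          rw [Finset.mul_sum]

/-- every element of `L = K · L₀` is a combination with `k`-independent coefficients. -/
theorem s17ru_decomp {L₀ : Subfield L} (hk : ∀ q : k, algebraMap k L q ∈ L₀)
    (hgen : S17ruGen K L₀) (x : L) :
    ∃ (m : ℕ) (c : Fin m → K) (f : Fin m → L), LinearIndependent k c ∧ (∀ j, f j ∈ L₀) ∧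
      x = ∑ j, algebraMap K L (c j) * f j := by
  obtain ⟨n, a, f, hf, rfl⟩ := hgen x
  exact s17ru_red hk a f hf

/-- `S17ruGen` from "the `K`-span of `L₀` is everything". -/
theorem s17ru_gen_of_span {L₀ : Subfield L}
    (h : Submodule.span K ((L₀ : Set L)) = ⊤) : S17ruGen K L₀ := by
  intro x
  have hx : x ∈ Submodule.span K ((L₀ : Set L)) := by rw [h]; trivial
  obtain ⟨n, a, g, hg⟩ := (Submodule.mem_span_set').1 hx
  refine ⟨n, a, fun i => (g i : L), fun i => (g i).2, ?_⟩
  rw [← hg]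
  refine Finset.sum_congr rfl fun i _ => ?_
  rw [Algebra.smul_def]

/-- **monotonicity**: a valuation subring `W' ⊇ K` containing `W ∩ L₀` contains `W`. -/
theorem s17ru_le {L₀ : Subfield L} {W W' : ValuationSubring L} (hW : S17ruFrame k K L₀ W)
    (hk : ∀ q : k, algebraMap k L q ∈ L₀) (hgen : S17ruGen K L₀)
    (hK' : ∀ c : K, algebraMap K L c ∈ W')
    (h : ∀ f : L, f ∈ L₀ → f ∈ W → f ∈ W') : W ≤ W' := by
  intro x hx
  obtain ⟨m, c, f, hc, hf, rfl⟩ := s17ru_decomp (k := k) hk hgen x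
  have h1 := (s17ru_crit hW hc hf).1 hx
  exact sum_mem fun i _ => W'.mul_mem _ _ (hK' _) (h _ (hf i) (h1 i))

/-- the frame passes to any `W' ⊇ K` with the same trace on `L₀`. -/
theorem s17ru_frame_of_iff {L₀ : Subfield L} {W W' : ValuationSubring L}
    (hW : S17ruFrame k K L₀ W) (hK' : ∀ c : K, algebraMap K L c ∈ W')
    (h : ∀ f : L, f ∈ L₀ → (f ∈ W ↔ f ∈ W')) (hk : ∀ q : k, algebraMap k L q ∈ L₀) :
    S17ruFrame k K L₀ W' := by
  refine ⟨hK', fun f hf hfW' => ?_⟩
  obtain ⟨q, hq⟩ := hW.rat f hf ((h f hf).2 hfW')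
  exact ⟨q, (s17ru_nonunits_iff h (L₀.sub_mem hf (hk q))).1 hq⟩

/-- **UNIQUENESS**: `W` is the only valuation subring of `L` over `K` with its trace on `L₀`. -/
theorem s17ru_unique {L₀ : Subfield L} {W W' : ValuationSubring L} (hW : S17ruFrame k K L₀ W)
    (hk : ∀ q : k, algebraMap k L q ∈ L₀) (hgen : S17ruGen K L₀)
    (hK' : ∀ c : K, algebraMap K L c ∈ W')
    (h : ∀ f : L, f ∈ L₀ → (f ∈ W ↔ f ∈ W')) : W = W' :=
  le_antisymm (s17ru_le hW hk hgen hK' fun f hf => (h f hf).1)
    (s17ru_le (s17ru_frame_of_iff hW hK' h hk) hk hgen hW.hK fun f hf => (h f hf).2)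

/-- **STABILITY**: `W` is stable under every automorphism of `L` which is the identity on `L₀`
and maps `K` into `W`. -/
theorem s17ru_stable {L₀ : Subfield L} {W : ValuationSubring L} (hW : S17ruFrame k K L₀ W)
    (hk : ∀ q : k, algebraMap k L q ∈ L₀) (hgen : S17ruGen K L₀) (ρ : L ≃+* L)
    (hρK : ∀ c : K, ρ (algebraMap K L c) ∈ W) (hρ : ∀ f : L, f ∈ L₀ → ρ f = f) (x : L) :
    ρ x ∈ W ↔ x ∈ W := by
  have h := s17ru_unique (W' := W.comap (ρ : L →+* L)) hW hk hgen hρK
    (fun f hf => by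
      rw [ValuationSubring.mem_comap]
      show f ∈ W ↔ ρ f ∈ W
      rw [hρ f hf])
  constructor
  · intro hx
    rw [h]
    exact hx
  · intro hx
    rw [h] at hx
    exact hx

/-- the residue field of `W` is `K`. -/
theorem s17ru_res {L₀ : Subfield L} {W : ValuationSubring L} (hW : S17ruFrame k K L₀ W)
    (hk : ∀ q : k, algebraMap k L q ∈ L₀) (hgen : S17ruGen K L₀) {x : L} (hx : x ∈ W) :
    ∃ a : K, x - algebraMap K L a ∈ W.nonunits := by
  obtain ⟨m, c, f, hc, hf, rfl⟩ := s17ru_decomp (k := k) hk hgen x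
  have h1 := (s17ru_crit hW hc hf).1 hx
  have hq : ∀ i, ∃ q : k, f i - algebraMap k L q ∈ W.nonunits := fun i =>
    hW.rat _ (hf i) (h1 i)
  choose q hq using hq
  refine ⟨∑ i, q i • c i, ?_⟩
  have : (∑ i, algebraMap K L (c i) * f i) - algebraMap K L (∑ i, q i • c i)
      = ∑ i, algebraMap K L (c i) * (f i - algebraMap k L (q i)) := by
    rw [map_sum, ← Finset.sum_sub_distrib]
    refine Finset.sum_congr rfl fun i _ => ?_
    rw [Algebra.smul_def, map_mul, ← IsScalarTower.algebraMap_apply]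
    ring
  rw [this]
  exact sum_mem fun i _ => s17ru_mul_mem_nonunits (hW.hK _) (hq i)

/-- the residue is unique. -/
theorem s17ru_res_unique {W : ValuationSubring L} (hK : ∀ c : K, algebraMap K L c ∈ W)
    {x : L} {a a' : K} (ha : x - algebraMap K L a ∈ W.nonunits)
    (ha' : x - algebraMap K L a' ∈ W.nonunits) : a = a' := by
  have h : algebraMap K L (a - a') ∈ W.nonunits := by
    have : algebraMap K L (a - a') = (x - algebraMap K L a') - (x - algebraMap K L a) := by
      rw [map_sub]; ring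
    rw [this]
    exact sub_mem ha' ha
  exact sub_eq_zero.1 (s17ru_const_eq_zero hK h)

end Main

section PlaceOf

variable {k K L : Type*} [Field k] [Field K] [Field L] [Algebra k K] [Algebra K L] [Algebra k L]
  [IsScalarTower k K L]

/-- the residue of `x ∈ W`, as a function. -/
def s17ruResFun {L₀ : Subfield L} {W : ValuationSubring L} (hW : S17ruFrame k K L₀ W)
    (hk : ∀ q : k, algebraMap k L q ∈ L₀) (hgen : S17ruGen K L₀) (x : ↥W) : K :=
  Classical.choose (s17ru_res hW hk hgen x.2)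

theorem s17ruResFun_spec {L₀ : Subfield L} {W : ValuationSubring L} (hW : S17ruFrame k K L₀ W)
    (hk : ∀ q : k, algebraMap k L q ∈ L₀) (hgen : S17ruGen K L₀) (x : ↥W) :
    (x : L) - algebraMap K L (s17ruResFun hW hk hgen x) ∈ W.nonunits :=
  Classical.choose_spec (s17ru_res hW hk hgen x.2)

theorem s17ruResFun_eq {L₀ : Subfield L} {W : ValuationSubring L} (hW : S17ruFrame k K L₀ W)
    (hk : ∀ q : k, algebraMap k L q ∈ L₀) (hgen : S17ruGen K L₀) {x : ↥W} {a : K}
    (h : (x : L) - algebraMap K L a ∈ W.nonunits) : s17ruResFun hW hk hgen x = a :=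
  s17ru_res_unique hW.hK (s17ruResFun_spec hW hk hgen x) h

/-- the residue map `W → K`, a ring homomorphism. -/
def s17ruResHom {L₀ : Subfield L} {W : ValuationSubring L} (hW : S17ruFrame k K L₀ W)
    (hk : ∀ q : k, algebraMap k L q ∈ L₀) (hgen : S17ruGen K L₀) : ↥W →+* K where
  toFun := s17ruResFun hW hk hgen
  map_one' := s17ruResFun_eq hW hk hgen (by
    show (1 : L) - algebraMap K L 1 ∈ W.nonunits
    rw [map_one, sub_self]
    exact zero_mem _)
  map_zero' := s17ruResFun_eq hW hk hgen (by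
    show (0 : L) - algebraMap K L 0 ∈ W.nonunits
    rw [map_zero, sub_self]
    exact zero_mem _)
  map_mul' x y := s17ruResFun_eq hW hk hgen (by
    show (x : L) * (y : L) - algebraMap K L (s17ruResFun hW hk hgen x * s17ruResFun hW hk hgen y)
      ∈ W.nonunits
    have hx := s17ruResFun_spec hW hk hgen x
    have hy := s17ruResFun_spec hW hk hgen y
    have : (x : L) * (y : L)
        - algebraMap K L (s17ruResFun hW hk hgen x * s17ruResFun hW hk hgen y)
        = (y : L) * ((x : L) - algebraMap K L (s17ruResFun hW hk hgen x))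
          + algebraMap K L (s17ruResFun hW hk hgen x)
            * ((y : L) - algebraMap K L (s17ruResFun hW hk hgen y)) := by
      rw [map_mul]; ring
    rw [this]
    exact add_mem (s17ru_mul_mem_nonunits y.2 hx) (s17ru_mul_mem_nonunits (hW.hK _) hy))
  map_add' x y := s17ruResFun_eq hW hk hgen (by
    show (x : L) + (y : L) - algebraMap K L (s17ruResFun hW hk hgen x + s17ruResFun hW hk hgen y)
      ∈ W.nonunits
    have hx := s17ruResFun_spec hW hk hgen x
    have hy := s17ruResFun_spec hW hk hgen y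
    have : (x : L) + (y : L)
        - algebraMap K L (s17ruResFun hW hk hgen x + s17ruResFun hW hk hgen y)
        = ((x : L) - algebraMap K L (s17ruResFun hW hk hgen x))
          + ((y : L) - algebraMap K L (s17ruResFun hW hk hgen y)) := by
      rw [map_add]; ring
    rw [this]
    exact add_mem hx hy)

/-- **the place** `(W, res)` of `L` over `K`. -/
def s17ruPlace {L₀ : Subfield L} {W : ValuationSubring L} (hW : S17ruFrame k K L₀ W)
    (hk : ∀ q : k, algebraMap k L q ∈ L₀) (hgen : S17ruGen K L₀) : S17plPlace K L where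
  W := W
  hKW := hW.hK
  res := s17ruResHom hW hk hgen
  hres c := s17ruResFun_eq hW hk hgen (by
    show algebraMap K L c - algebraMap K L c ∈ W.nonunits
    rw [sub_self]
    exact zero_mem _)

@[simp] theorem s17ruPlace_W {L₀ : Subfield L} {W : ValuationSubring L}
    (hW : S17ruFrame k K L₀ W) (hk : ∀ q : k, algebraMap k L q ∈ L₀) (hgen : S17ruGen K L₀) :
    (s17ruPlace hW hk hgen).W = W := rfl

/-- the residue is characterised by `x − res x ∈ 𝔪_W`. -/
theorem s17ruPlace_spec {L₀ : Subfield L} {W : ValuationSubring L} (hW : S17ruFrame k K L₀ W)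
    (hk : ∀ q : k, algebraMap k L q ∈ L₀) (hgen : S17ruGen K L₀) {x : L} (hx : x ∈ W) :
    x - algebraMap K L ((s17ruPlace hW hk hgen).res ⟨x, hx⟩) ∈ W.nonunits :=
  s17ruResFun_spec hW hk hgen ⟨x, hx⟩

theorem s17ruPlace_res_eq {L₀ : Subfield L} {W : ValuationSubring L} (hW : S17ruFrame k K L₀ W)
    (hk : ∀ q : k, algebraMap k L q ∈ L₀) (hgen : S17ruGen K L₀) {x : L} (hx : x ∈ W) {a : K}
    (h : x - algebraMap K L a ∈ W.nonunits) : (s17ruPlace hW hk hgen).res ⟨x, hx⟩ = a :=
  s17ruResFun_eq hW hk hgen (x := ⟨x, hx⟩) h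

/-- **rational functions have rational values**: `res f ∈ k` for `f ∈ W ∩ L₀`. -/
theorem s17ru_res_rat {L₀ : Subfield L} {W : ValuationSubring L} (hW : S17ruFrame k K L₀ W)
    (hk : ∀ q : k, algebraMap k L q ∈ L₀) (hgen : S17ruGen K L₀) {f : L} (hf0 : f ∈ L₀)
    (hf : f ∈ W) : ∃ q : k, (s17ruPlace hW hk hgen).res ⟨f, hf⟩ = algebraMap k K q := by
  obtain ⟨q, hq⟩ := hW.rat f hf0 hf
  refine ⟨q, s17ruPlace_res_eq hW hk hgen hf ?_⟩
  rw [← IsScalarTower.algebraMap_apply]
  exact hq

/-- **the place-values of a tuple of `L₀` are `k`-rational**. -/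
theorem s17ru_val_rat {L₀ : Subfield L} {W : ValuationSubring L} (hW : S17ruFrame k K L₀ W)
    (hk : ∀ q : k, algebraMap k L q ∈ L₀) (hgen : S17ruGen K L₀) {ι : Type*} (F : ι → L)
    (hF : ∀ i, F i ∈ L₀) (α : ι) (hα : S17plIsMin (s17ruPlace hW hk hgen).W F α) :
    ∃ y : ι → k, s17plVal (s17ruPlace hW hk hgen) F α hα = fun i => algebraMap k K (y i) := by
  have h : ∀ i, ∃ q : k, s17plVal (s17ruPlace hW hk hgen) F α hα i = algebraMap k K q := by
    intro i
    rw [s17pl_val_apply]
    exact s17ru_res_rat hW hk hgen (L₀.div_mem (hF i) (hF α)) (hα.2 i)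
  choose y hy using h
  exact ⟨y, funext hy⟩

/-- an automorphism stabilising `W` maps non-units to non-units. -/
theorem s17ru_map_nonunits {W : ValuationSubring L} (ρ : L ≃+* L)
    (hρW : ∀ x : L, ρ x ∈ W ↔ x ∈ W) {y : L} (hy : y ∈ W.nonunits) : ρ y ∈ W.nonunits := by
  rw [ValuationSubring.mem_nonunits_iff_or] at hy ⊢
  rcases hy with h | h
  · left
    rw [h, map_zero]
  · right
    rw [← map_inv₀, hρW]
    exact h

/-- **EQUIVARIANCE** of the residue: `res (ρ x) = σ (res x)` for `ρ` semilinear over `σ` and equal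
to the identity on `L₀`. -/
theorem s17ru_res_equiv {L₀ : Subfield L} {W : ValuationSubring L} (hW : S17ruFrame k K L₀ W)
    (hk : ∀ q : k, algebraMap k L q ∈ L₀) (hgen : S17ruGen K L₀) (ρ : L ≃+* L) (σ : K → K)
    (hσ : ∀ c : K, ρ (algebraMap K L c) = algebraMap K L (σ c))
    (hρ : ∀ f : L, f ∈ L₀ → ρ f = f) {x : L} (hx : x ∈ W) (hρx : ρ x ∈ W) :
    (s17ruPlace hW hk hgen).res ⟨ρ x, hρx⟩ = σ ((s17ruPlace hW hk hgen).res ⟨x, hx⟩) := by
  have hst : ∀ x : L, ρ x ∈ W ↔ x ∈ W :=
    s17ru_stable hW hk hgen ρ (fun c => by rw [hσ]; exact hW.hK _) hρ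
  apply s17ruPlace_res_eq hW hk hgen hρx
  have h := s17ru_map_nonunits ρ hst (s17ruPlace_spec hW hk hgen hx)
  rwa [map_sub, hσ] at h

/-- stability in the form used by `s17pg_isRat_of_eq` (S17/PlaceGal.lean). -/
theorem s17ru_stable_mem {L₀ : Subfield L} {W : ValuationSubring L} (hW : S17ruFrame k K L₀ W)
    (hk : ∀ q : k, algebraMap k L q ∈ L₀) (hgen : S17ruGen K L₀) (ρ : L ≃+* L) (σ : K → K)
    (hσ : ∀ c : K, ρ (algebraMap K L c) = algebraMap K L (σ c))
    (hρ : ∀ f : L, f ∈ L₀ → ρ f = f) {x : L} (hx : x ∈ (s17ruPlace hW hk hgen).W) :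
    ρ x ∈ (s17ruPlace hW hk hgen).W :=
  (s17ru_stable hW hk hgen ρ (fun c => by rw [hσ]; exact hW.hK _) hρ x).2 hx

end PlaceOf

section Exists

variable {k K L : Type*} [Field k] [Field K] [Field L] [Algebra k K] [Algebra K L] [Algebra k L]
  [IsScalarTower k K L]

/-- non-units of the trace. -/
theorem s17ru_nonunits_comap {L₀ : Subfield L} {W : ValuationSubring L}
    {W₀ : ValuationSubring ↥L₀} (h : ∀ f : ↥L₀, (f : L) ∈ W ↔ f ∈ W₀) (y : ↥L₀) :
    (y : L) ∈ W.nonunits ↔ y ∈ W₀.nonunits := by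
  rw [ValuationSubring.mem_nonunits_iff_or, ValuationSubring.mem_nonunits_iff_or, ← h]
  simp only [Subfield.coe_inv, ZeroMemClass.coe_eq_zero]

/-- **EXISTENCE**: a `k`-rational place `W₀` of `L₀` is the trace of a valuation subring `W ⊇ K`
of `L` (which is then unique, stable, with residue field `K`). -/
theorem s17ru_exists [Algebra.IsAlgebraic k K] {L₀ : Subfield L} (W₀ : ValuationSubring ↥L₀)
    (hk : ∀ q : k, algebraMap k L q ∈ L₀)
    (hk0 : ∀ q : k, (⟨algebraMap k L q, hk q⟩ : ↥L₀) ∈ W₀)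
    (hrat : ∀ f : ↥L₀, f ∈ W₀ → ∃ q : k, f - ⟨algebraMap k L q, hk q⟩ ∈ W₀.nonunits) :
    ∃ W : ValuationSubring L, S17ruFrame k K L₀ W ∧ ∀ f : ↥L₀, (f : L) ∈ W ↔ f ∈ W₀ := by
  obtain ⟨W, hWc⟩ := Fermat.Agent.S26.s26er_exists_comap_eq (Ω := ↥L₀) (Ω' := L) W₀
  have hmem : ∀ f : ↥L₀, (f : L) ∈ W ↔ f ∈ W₀ := by
    intro f
    rw [← hWc, ValuationSubring.mem_comap]
    rfl
  have hkW : ∀ q : k, algebraMap k L q ∈ W := fun q =>
    (hmem ⟨algebraMap k L q, hk q⟩).2 (hk0 q)
  refine ⟨W, ⟨fun c => s17vq_algebraMap_mem (K₀ := k) W hkW c, fun f hf hfW => ?_⟩, hmem⟩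
  obtain ⟨q, hq⟩ := hrat ⟨f, hf⟩ ((hmem ⟨f, hf⟩).1 hfW)
  refine ⟨q, ?_⟩
  have := (s17ru_nonunits_comap hmem _).2 hq
  simpa using this

/-- **THE PACKAGE**: for `K / k` algebraic and `L = K · L₀`, every `k`-rational place `W₀` of `L₀`
extends to a place `P` of `L` over `K` such that: `P.W ∩ L₀ = W₀`; `P.W` is the unique valuation
subring over `K` with this trace; `res` is `k`-valued on `L₀`; and for every automorphism `ρ` of
`L`, semilinear over `σ : K → K` and trivial on `L₀`, `P.W` is `ρ`-stable and `res ∘ ρ = σ ∘ res`. -/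
theorem s17ru_package [Algebra.IsAlgebraic k K] {L₀ : Subfield L} (hgen : S17ruGen K L₀)
    (W₀ : ValuationSubring ↥L₀) (hk : ∀ q : k, algebraMap k L q ∈ L₀)
    (hk0 : ∀ q : k, (⟨algebraMap k L q, hk q⟩ : ↥L₀) ∈ W₀)
    (hrat : ∀ f : ↥L₀, f ∈ W₀ → ∃ q : k, f - ⟨algebraMap k L q, hk q⟩ ∈ W₀.nonunits) :
    ∃ P : S17plPlace K L,
      (∀ f : ↥L₀, (f : L) ∈ P.W ↔ f ∈ W₀) ∧
      (∀ W' : ValuationSubring L, (∀ c : K, algebraMap K L c ∈ W') →
        (∀ f : ↥L₀, (f : L) ∈ W' ↔ f ∈ W₀) → W' = P.W) ∧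
      (∀ (f : L) (hf0 : f ∈ L₀) (hf : f ∈ P.W), ∃ q : k, P.res ⟨f, hf⟩ = algebraMap k K q) ∧
      (∀ (ρ : L ≃+* L) (σ : K → K), (∀ c : K, ρ (algebraMap K L c) = algebraMap K L (σ c)) →
        (∀ f : L, f ∈ L₀ → ρ f = f) →
        ∃ hst : ∀ x : L, x ∈ P.W → ρ x ∈ P.W,
          ∀ (x : L) (hx : x ∈ P.W), P.res ⟨ρ x, hst x hx⟩ = σ (P.res ⟨x, hx⟩)) := by
  obtain ⟨W, hW, hmem⟩ := s17ru_exists (K := K) W₀ hk hk0 hrat
  refine ⟨s17ruPlace hW hk hgen, hmem, ?_, ?_, ?_⟩
  · intro W' hK' h'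
    exact (s17ru_unique hW hk hgen hK' fun f hf =>
      ((hmem ⟨f, hf⟩).trans (h' ⟨f, hf⟩).symm)).symm
  · intro f hf0 hf
    exact s17ru_res_rat hW hk hgen hf0 hf
  · intro ρ σ hσ hρ
    refine ⟨fun x hx => s17ru_stable_mem hW hk hgen ρ σ hσ hρ hx, fun x hx => ?_⟩
    exact s17ru_res_equiv hW hk hgen ρ σ hσ hρ hx _

end Exists

end Fermat.Agent.S17
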