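/-
S17 sprint, layer H — leaf SPAN-BPF (helper74): **a base-point-free family in a finite-dimensional
`L(m D)` has a FINITE base-point-free subfamily** (linear algebra; no compactness of the
Riemann–Zariski space, no dimension count).

Use (NOTE "S17-H: (WD) not needed for Northcott"): the square functions `Φ_γ` (`γ` a constant class)
form a base-point-free family of `L(2N)` by the moving lemma at each single `V`; finitely many
`γ_1, …, γ_n` suffice, so that the linear projections of the place-value `[s]_W` to the Chow blocks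
have UNIFORMLY bounded height constants and ONE number field of definition.

* `s17sb_exists_finset`  : `S17muBpf K b m f`, `L(m D)` finite-dimensional ⇒ `∃ A₀ : Finset A`,
                           `S17muBpf K b m (f ∘ Subtype.val : A₀ → 𝔉)`;
* `s17sb_exists_unit`    : the same, unfolded: `∀ V ⊇ K, ∃ a ∈ A₀, f a · b V ^ m ∈ Vˣ`;
* `s17sb_exists_fin`     : the same with an enumeration `γ : Fin n → A`.
-/
import Fermat.Agent.S17.Bpf

set_option autoImplicit false
set_option linter.unusedVariables false
set_option linter.unusedSectionVars false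

noncomputable section

namespace Fermat.Agent.S17

open Fermat.Agent.S27

universe u w x

variable {K : Type u} [Field K] {𝔉 : Type w} [Field 𝔉] [Algebra K 𝔉]

/-- **finite base-point-free subfamily.** -/
theorem s17sb_exists_finset {A : Type x} {b : ValuationSubring 𝔉 → 𝔉} {m : ℕ} {f : A → 𝔉}
    (hf : S17muBpf K b m f) (hfin : Module.Finite K (s27LU K b m)) :
    ∃ A₀ : Finset A, S17muBpf K b m (fun a : A₀ => f (a : A)) := by
  classical
  have hle : Submodule.span K (Set.range f) ≤ s27LU K b m :=
    Submodule.span_le.2 (by rintro _ ⟨a, rfl⟩; exact s17bp_mem_LU hf a)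
  have : FiniteDimensional K ↥(s27LU K b m) := hfin
  have hfd : FiniteDimensional K ↥(Submodule.span K (Set.range f)) :=
    Submodule.finiteDimensional_of_le hle
  have hfg : (Submodule.span K (Set.range f)).FG := Module.Finite.iff_fg.1 hfd
  obtain ⟨t, ht, hspan⟩ := (Submodule.fg_span_iff_fg_span_finset_subset (Set.range f)).1 hfg
  -- lift `t ⊆ range f` to a finset of indices
  have hch : ∀ y : ↥t, ∃ a : A, f a = (y : 𝔉) := fun y => ht y.2
  choose g hg using hch
  refine ⟨Finset.univ.image g, ?_⟩
  refine s17bp_span hf (fun a => s17bp_mem_LU hf (a : A)) fun a => ?_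
  have h1 : f a ∈ Submodule.span K (Set.range f) := Submodule.subset_span ⟨a, rfl⟩
  rw [hspan] at h1
  refine Submodule.span_mono ?_ h1
  intro y hy
  refine ⟨⟨g ⟨y, hy⟩, Finset.mem_image.2 ⟨⟨y, hy⟩, Finset.mem_univ _, rfl⟩⟩, ?_⟩
  exact hg ⟨y, hy⟩

/-- the unfolded form: finitely many indices give a generator at EVERY `V ⊇ K`. -/
theorem s17sb_exists_unit {A : Type x} {b : ValuationSubring 𝔉 → 𝔉} {m : ℕ} {f : A → 𝔉}
    (hf : S17muBpf K b m f) (hfin : Module.Finite K (s27LU K b m)) :
    ∃ A₀ : Finset A, ∀ V : ValuationSubring 𝔉, S27IsKValU K V →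
      ∃ a ∈ A₀, S27IsUnitIn V (f a * b V ^ m) := by
  obtain ⟨A₀, h⟩ := s17sb_exists_finset hf hfin
  refine ⟨A₀, fun V hV => ?_⟩
  obtain ⟨-, a, ha⟩ := h V hV
  exact ⟨a, a.2, ha⟩

/-- the same with an enumeration of the finitely many indices. -/
theorem s17sb_exists_fin {A : Type x} {b : ValuationSubring 𝔉 → 𝔉} {m : ℕ} {f : A → 𝔉}
    (hf : S17muBpf K b m f) (hfin : Module.Finite K (s27LU K b m)) :
    ∃ (n : ℕ) (γ : Fin n → A), S17muBpf K b m (fun k => f (γ k)) := by
  classical
  obtain ⟨A₀, h⟩ := s17sb_exists_finset hf hfin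
  refine ⟨A₀.card, fun k => ((A₀.equivFin.symm k : A₀) : A), ?_⟩
  intro V hV
  obtain ⟨hmem, a, ha⟩ := h V hV
  refine ⟨fun k => hmem (A₀.equivFin.symm k), A₀.equivFin a, ?_⟩
  simpa using ha

end Fermat.Agent.S17
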