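/-
S17 sprint, glue **SQUARE ∘ AFFINE** (helper86): the theorem of the square of helper18
(`s17sq_square`, S17/Square.lean) with the translation brick (`s17af_exists_translate`,
S17/Affine.lean) plugged in: NO tuple hypotheses are left.

* `s17sqa_tuple`  : for every constant class `c` a generic tuple `e` of class `η + β c`, in the
                    shape consumed by `s17sq_square` (`e` injective, `s27gfLiftR e` injective,
                    class written with `s27icCl`);
* **`s17sqa_square`** : `L_K(Ao) = 0`, `deg Ao = g − 1`, `L_K(Ao ± D) = 0` ⇒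
                    `∃ Φ ≠ 0, S27ckCP K (S27icIdx … Ao) η (β [D]) Φ`.
-/
import Fermat.Agent.S17.Square
import Fermat.Agent.S17.Affine

set_option autoImplicit false
set_option linter.style.haveILetI false
set_option linter.unusedSectionVars false
set_option linter.unusedVariables false

noncomputable section

namespace Fermat.Agent.S17

open AlgebraicCurve Module TensorProduct IntermediateField Fermat.Agent.S26 Fermat.Agent.S27

universe u v y

section Stage

variable {K : Type u} {F : Type v} [Field K] [IsAlgClosed K] [CharZero K] [Field F] [Algebra K F]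
  [IsCurveOver K F] [Algebra.EssFiniteType K F]
  {L : Type (max u v)} [Field L] [Algebra K L]
  [Algebra (s27gfOm K F (genusFF K F)) L] [IsScalarTower K (s27gfOm K F (genusFF K F)) L]
  [IsAlgClosed L] [Algebra.IsAlgebraic (s27gfOm K F (genusFF K F)) L]
  {FL : Type y} [Field FL] [Algebra K FL] [Algebra F FL] [Algebra L FL]
  [IsScalarTower K F FL] [IsScalarTower K L FL]
  (hld : Function.Injective (s26gspMu K F L FL)) (hgen : S26gspGen K F L FL)
  {x : F} (hx : Transcendental K x)
  [FiniteDimensional ↥(IntermediateField.adjoin K {x}) F]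
  [Algebra.IsSeparable ↥(IntermediateField.adjoin K {x}) F]

/-- the translation brick in the shape of `s17sq_square`. -/
theorem s17sqa_tuple (G₀ : Divisor K F) (hG₀ : Divisor.degree G₀ = (genusFF K F : ℤ))
    (c : Pic0 K F) :
    ∃ e : Fin (genusFF K F) → F →ₐ[K] L, S27dgGeneric K x e ∧ Function.Injective e ∧
      Function.Injective (s27gfLiftR e) ∧
      s27icCl hld hgen hx e G₀ hG₀ =
        s27pfCl (s27dclPkg hld hgen hx G₀ hG₀)
            (s27pfTaut (K := K) (F := F) (g := genusFF K F) (L := L)) +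
          s27bcBeta hld hgen (s26gspf_hall hx) c := by
  obtain ⟨e, he, hcl⟩ := s17af_exists_translate hld hgen hx G₀ hG₀ c
  exact ⟨e, he, s27ic_generic_injective he,
    s27dgx_liftR_injective' e x (s27dcl_halg (x := x)) he, hcl⟩

variable [IsGalois (s27gfSym K F (genusFF K F)) L]

/-- **THE SQUARE, closed**: `τ_γ^*Θ + τ_{−γ}^*Θ − 2Θ = div Φ_γ` in valuative form, at the generic
class `η` and the constant class `β [D]`. -/
theorem s17sqa_square (hg : 0 < genusFF K F) (G₀ : Divisor K F)
    (hG₀ : Divisor.degree G₀ = (genusFF K F : ℤ))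
    {q : ℤ → Fin (genusFF K F) → F →ₐ[K] L}
    (hq : S27pfFam (s27dclPkg hld hgen hx G₀ hG₀) q)
    (Ao : Divisor K F) (hAo : riemannRochSpace Ao = ⊥)
    (hAod : Divisor.degree Ao = (genusFF K F : ℤ) - 1) (O : Place K F)
    (f₀ : Module.Basis (Fin (genusFF K F)) K ↥(riemannRochSpace (G₀ + Ao)))
    (D : Divisor.degZero (K := K) (F := F))
    (hDm : riemannRochSpace (Ao - (D : Divisor K F)) = ⊥)
    (hDp : riemannRochSpace (Ao + (D : Divisor K F)) = ⊥) :
    ∃ Φ : L, Φ ≠ 0 ∧ S27ckCP K (S27icIdx hld hgen hx Ao)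
      (s27pfCl (s27dclPkg hld hgen hx G₀ hG₀)
        (s27pfTaut (K := K) (F := F) (g := genusFF K F) (L := L)))
      (s27bcBeta hld hgen (s26gspf_hall hx) (Pic0.mk D)) Φ := by
  obtain ⟨ep, -, hep, hepl, hcp⟩ := s17sqa_tuple hld hgen hx G₀ hG₀ (Pic0.mk D)
  obtain ⟨em, -, hem, heml, hcm⟩ := s17sqa_tuple hld hgen hx G₀ hG₀ (-Pic0.mk D)
  rw [map_neg, ← sub_eq_add_neg] at hcm
  exact s17sq_square hld hgen hx hg G₀ hG₀ hq Ao hAo hAod O f₀ D hDm hDp ep em hep hepl hem heml
    hcp hcm

end Stage

end Fermat.Agent.S17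

end
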