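/-
S17 sprint, layer H — **STAGE TOP at the powers of `2`, closed WITHOUT class field theory**
(helper53): S17/StageTop.lean (`s17sx_result`, any multiplier) with TORS (`s17w2_tors_pow`) and
WEAK (`s17w2_weak_pow`, S17/WeakTwo.lean: Kummer theory at `2`) plugged in.

The import closure of this file does NOT contain `TW.G.LevFin` (Poitou–Tate / Taylor–Wiles, about
400 modules): a root built on it is about one third cheaper to build than one built on
S17/StageTopClosed.lean or S17/StageTopNine.lean.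

* `s17st2_stmt_sq`     : `S17sxStmt m a b → S17sxStmt (m ^ 2) a (b ^ 2)` (`s17t9_plM_sq`);
* `s17st2_stmt_a`      : `S17sxStmt m a b → S17sxStmt m a' b` for `a ≤ a'`;
* `s17st2_result`      : `a ^ 2 < b`, `S17sxStmt (2 ^ k) a b` ⇒ the frozen type of S17;
* `s17st2_result_243`  : from `S17sxStmt 2 4 3`   (through `m = 16`, `b = 81`);
* `s17st2_result_223`  : from `S17sxStmt 2 2 3`   (through `m = 4`,  `b = 9`);
* `s17st2_result_4410` : from `S17sxStmt 4 4 10`  (through `m = 16`, `b = 100`);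
* `s17st2_result_8436` : from `S17sxStmt 8 4 36`  (directly).
-/
import Fermat.Agent.S17.StageTop
import Fermat.Agent.S17.TopNine
import Fermat.Agent.S17.WeakTwo

set_option autoImplicit false
set_option linter.unusedVariables false
set_option linter.unusedSectionVars false
set_option linter.style.haveILetI false
set_option linter.style.longLine false

noncomputable section

namespace Fermat.Agent.S17

open ModularCurve AlgebraicCurve Module TensorProduct IntermediateField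
open Fermat.Agent.S24 Fermat.Agent.S26 Fermat.Agent.S27 Fermat.Agent.DEU

/-- the stage statement at `m` gives the stage statement at `m ^ 2`, one level. -/
theorem s17st2_stmtAt_sq (N : ℕ) [NeZero N] {m : ℕ} {a b : ℝ} (hb : 0 ≤ b)
    (H : S17sxStmtAt N m a b) : S17sxStmtAt N (m ^ 2) a (b ^ 2) := by
  intro h1 h2
  obtain ⟨x, G₀, O, hc, ι, hι, s, hM, hT, hN⟩ := H h1 h2
  exact ⟨x, G₀, O, hc, ι, hι, s, s17t9_plM_sq hb hM, hT, hN⟩

/-- the stage statement at `m` gives the stage statement at `m ^ 2`. -/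
theorem s17st2_stmt_sq {m : ℕ} {a b : ℝ} (hb : 0 ≤ b) (H : S17sxStmt m a b) :
    S17sxStmt (m ^ 2) a (b ^ 2) :=
  fun N _ hN hN5 hg => s17st2_stmtAt_sq N hb (H N hN hN5 hg)

/-- the frozen type of S17 from the stage statement at a power of `2`. -/
theorem s17st2_result (k : ℕ) (a b : ℝ) (ha : 0 < a) (hab : a ^ 2 < b)
    (H : S17sxStmt (2 ^ k) a b)
    (N : ℕ) [NeZero N] (hN : N.Prime) (hN5 : 5 ≤ N) :
    AddGroup.FG ↥(FixedPoints.addSubgroup ((AlgebraicClosure ℚ) ≃ₐ[ℚ] (AlgebraicClosure ℚ))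
      (JZero N)) :=
  s17sx_result (2 ^ k) a b ha hab H (fun N _ => s17w2_tors_pow N k)
    (fun N _ => s17w2_weak_pow N k) N hN hN5

/-- from `(m, a, b) = (8, 4, 36)`. -/
theorem s17st2_result_8436 (H : S17sxStmt 8 4 36)
    (N : ℕ) [NeZero N] (hN : N.Prime) (hN5 : 5 ≤ N) :
    AddGroup.FG ↥(FixedPoints.addSubgroup ((AlgebraicClosure ℚ) ≃ₐ[ℚ] (AlgebraicClosure ℚ))
      (JZero N)) := by
  have H' : S17sxStmt (2 ^ 3) 4 36 := by
    have e : (2 : ℕ) ^ 3 = 8 := by norm_num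
    rw [e]
    exact H
  exact s17st2_result 3 4 36 (by norm_num) (by norm_num) H' N hN hN5

/-- from `(m, a, b) = (4, 4, 10)`, through `m = 16`, `b = 100`. -/
theorem s17st2_result_4410 (H : S17sxStmt 4 4 10)
    (N : ℕ) [NeZero N] (hN : N.Prime) (hN5 : 5 ≤ N) :
    AddGroup.FG ↥(FixedPoints.addSubgroup ((AlgebraicClosure ℚ) ≃ₐ[ℚ] (AlgebraicClosure ℚ))
      (JZero N)) := by
  have H16 : S17sxStmt (2 ^ 4) 4 ((10 : ℝ) ^ 2) := by
    have h := s17st2_stmt_sq (m := 4) (a := 4) (b := 10) (by norm_num) H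
    have e : (4 : ℕ) ^ 2 = 2 ^ 4 := by norm_num
    rw [e] at h
    exact h
  exact s17st2_result 4 4 ((10 : ℝ) ^ 2) (by norm_num) (by norm_num) H16 N hN hN5

/-- from `(m, a, b) = (2, 2, 3)`, through `m = 4`, `b = 9`. -/
theorem s17st2_result_223 (H : S17sxStmt 2 2 3)
    (N : ℕ) [NeZero N] (hN : N.Prime) (hN5 : 5 ≤ N) :
    AddGroup.FG ↥(FixedPoints.addSubgroup ((AlgebraicClosure ℚ) ≃ₐ[ℚ] (AlgebraicClosure ℚ))
      (JZero N)) := by
  have H4 : S17sxStmt (2 ^ 2) 2 ((3 : ℝ) ^ 2) :=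
    s17st2_stmt_sq (m := 2) (a := 2) (b := 3) (by norm_num) H
  exact s17st2_result 2 2 ((3 : ℝ) ^ 2) (by norm_num) (by norm_num) H4 N hN hN5

/-- from `(m, a, b) = (2, 4, 3)`, through `m = 16`, `b = 81`. -/
theorem s17st2_result_243 (H : S17sxStmt 2 4 3)
    (N : ℕ) [NeZero N] (hN : N.Prime) (hN5 : 5 ≤ N) :
    AddGroup.FG ↥(FixedPoints.addSubgroup ((AlgebraicClosure ℚ) ≃ₐ[ℚ] (AlgebraicClosure ℚ))
      (JZero N)) := by
  have H4 : S17sxStmt (2 ^ 2) 4 ((3 : ℝ) ^ 2) :=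
    s17st2_stmt_sq (m := 2) (a := 4) (b := 3) (by norm_num) H
  have H16 : S17sxStmt (2 ^ 4) 4 (((3 : ℝ) ^ 2) ^ 2) := by
    have h := s17st2_stmt_sq (m := 2 ^ 2) (a := 4) (b := (3 : ℝ) ^ 2) (by norm_num) H4
    have e : ((2 : ℕ) ^ 2) ^ 2 = 2 ^ 4 := by norm_num
    rw [e] at h
    exact h
  exact s17st2_result 4 4 (((3 : ℝ) ^ 2) ^ 2) (by norm_num) (by norm_num) H16 N hN hN5

end Fermat.Agent.S17

end
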