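/-
S17 sprint — **TOP, closed** (helper45): `S17sxStmt 7 4 28` with NO hypothesis, and the frozen
type of S17 from it.

On the concrete stage of `X₀(N)` over `ℚ̄` (`N ≥ 2`, genus `> 0`):
* constants `x := t`, `G₀`, `O := cuspInf N` and the Galois-fixed non-constant `t`, regular off
  `∞`: `s17kc_exists` (S17/ConstInf.lean);
* the family `q` of S27-B: `s27mp_exists_fam` (S27/ModelPsi.lean);
* (L1) Chow sections: `s17psc_hsec` (S17/PlNSec.lean, helper28);
* (L2) units at the good places: `s17ut_hunit_stage` (S17/UnitTwin.lean, helper66);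
* (open): `s17wz_open` (S17/WeakClosed.lean);
* (M′) + (T) + (N) for the pool family: `s17apn_stmtAt_7` (S17/AsmPlN.lean).

* `s17ta45_stmtAt` : `S17sxStmtAt N 7 4 28`;
* `s17ta45_stmt`   : `S17sxStmt 7 4 28`;
* **`s17ta45_result`** : Mordell–Weil for `J₀(N)`, `N ≥ 5` prime (the frozen type of S17).
-/
import Fermat.Agent.S17.AsmPlN
import Fermat.Agent.S17.PlNSec
import Fermat.Agent.S17.UnitTwin
import Fermat.Agent.S17.ConstInf
import Fermat.Agent.S17.StageTopClosed
import Fermat.Agent.S27.ModelPsi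

set_option autoImplicit false
set_option linter.unusedVariables false
set_option linter.unusedSectionVars false
set_option linter.style.haveILetI false
set_option linter.style.longLine false

noncomputable section

namespace Fermat.Agent.S17

open ModularCurve AlgebraicCurve Polynomial Height Module TensorProduct IntermediateField
open Fermat.Agent.S24 Fermat.Agent.ES.M Fermat.Agent.ES.H Fermat.Agent.S15 Fermat.Agent.S26
  Fermat.Agent.S27 Fermat.Agent.DEU

/-- **the model statement at one level**, closed. -/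
theorem s17ta45_stmtAt (N : ℕ) [NeZero N] (hN2 : 2 ≤ N) (hg : 0 < genusFF Kb (FF N)) :
    S17sxStmtAt N 7 4 28 := by
  intro h1 h2
  obtain ⟨t, G₀, hc0, htΓ, ht, -, hnc, -, -⟩ := s17kc_exists N hN2
  have hc : S27cstIsConst t G₀ (cuspInf N) := hc0 h1 h2
  haveI := hc.fin
  haveI := hc.sep
  obtain ⟨q, hq⟩ := s27mp_exists_fam (L := s27mtL Kb (FF N)) (FL := s27mtFL Kb (FF N))
    (s27stg_hld Kb (FF N) (s27mtL Kb (FF N))) (s27stg_hgen Kb (FF N) (s27mtL Kb (FF N)))
    hc.trans G₀ hc.deg
  obtain ⟨M, hsec⟩ := s17psc_hsec hc hg q hq t ht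
  have hunit := s17ut_hunit_stage N hc hg q hq
  obtain ⟨ι, hι, s, hM, hT, hNn⟩ := s17apn_stmtAt_7 N hc.trans G₀ hc.deg hg (cuspInf N) hc q hq
    t hnc htΓ ht M hsec hunit (s17wz_open N)
  exact ⟨t, G₀, cuspInf N, hc, ι, hι, s, hM, hT, hNn⟩

/-- **the model statement**, closed. -/
theorem s17ta45_stmt : S17sxStmt 7 4 28 :=
  fun N _ hN hN5 hg => s17ta45_stmtAt N (by omega) hg

/-- **Mordell–Weil for `J₀(N)`, `N ≥ 5` prime** (the frozen type of S17). -/
theorem s17ta45_result (N : ℕ) [NeZero N] (hN : N.Prime) (hN5 : 5 ≤ N) :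
    AddGroup.FG ↥(FixedPoints.addSubgroup ((AlgebraicClosure ℚ) ≃ₐ[ℚ] (AlgebraicClosure ℚ))
      (JZero N)) :=
  s17sz_result_7428 s17ta45_stmt N hN hN5

end Fermat.Agent.S17

end
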