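/-
S17 sprint, ROOT twin (helper32): THE DESCENT WITH FINITELY MANY REPRESENTATIVES.

Mathlib's `AddGroup.fg_of_descent` needs the translation bound (T) `h x ≤ a * h (g + x) + c` only for
`g` in a FINITE set `s` of representatives of `G / m G` (which the prover may choose), whereas
`AddCommGroup.fg_of_descent` (used in `S17/Top.lean`) asks for it for all `g`.

* `s17tf_fg_of_reps`  : abstract descent, (T) on a finite covering set `s`;
* `s17tf_T_add`       : (T) for `g₁` and `g₂` with the factor `a` ⇒ (T) for `g₁ + g₂` with `a * a`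
                        (so with `m = 3`, `b = 9` two theorems of the square in a row are allowed);
* `s17tf_fg_of_good`  : WEAK + Northcott + (M) + (T) for every GOOD `g`, when every coset of `m G`
                        contains a good element ⇒ finitely generated;
* `S17IsHeightFin`, `s17tf_top`, `s17tf_top_good`, `s17tf_Stmt`, `s17tf_result` : the same on the
  Mordell–Weil group `s17MW N` and the frozen type of S17.
-/
import Fermat.Agent.S17.Top

set_option autoImplicit false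

namespace Fermat.Agent.S17

open ModularCurve AlgebraicCurve
open scoped Pointwise

section Abstract

variable {G : Type*} [AddCommGroup G]

/-- **descent with representatives**: (T) is asked only on a finite set `s` meeting every coset
of `m G`. -/
theorem s17tf_fg_of_reps {m : ℕ} {h : G → ℝ} {a b c : ℝ}
    (hN : ∀ B : ℝ, {x : G | h x ≤ B}.Finite) (ha : 0 ≤ a) (hab : a < b)
    (s : Set G) (hs : s.Finite) (hcov : ∀ x : G, ∃ g ∈ s, ∃ z : G, x = g + m • z)
    (hT : ∀ g ∈ s, ∀ x, h x ≤ a * h (g + x) + c)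
    (hM : ∀ x, b * h x - c ≤ h (m • x)) : AddGroup.FG G := by
  have : Northcott h := ⟨hN⟩
  refine AddGroup.fg_of_descent (f := nsmulAddMonoidHom (α := G) m) (fun U u hu => ?_) ha hab hs
    ?_ hT (fun x => hM x)
  · obtain ⟨u', hu', rfl⟩ := AddSubgroup.mem_map.mp hu
    exact U.nsmul_mem hu' m
  · refine Set.eq_univ_iff_forall.mpr fun x => ?_
    obtain ⟨g, hg, z, rfl⟩ := hcov x
    exact Set.add_mem_add hg ⟨z, rfl⟩

/-- (T) for `g₁` and for `g₂` gives (T) for `g₁ + g₂` with the square of the factor. -/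
theorem s17tf_T_add {h : G → ℝ} {a c₁ c₂ : ℝ} (ha : 0 ≤ a) {g₁ g₂ : G}
    (h1 : ∀ x, h x ≤ a * h (g₁ + x) + c₁) (h2 : ∀ x, h x ≤ a * h (g₂ + x) + c₂) :
    ∀ x, h x ≤ (a * a) * h ((g₁ + g₂) + x) + (a * c₂ + c₁) := by
  intro x
  have e : g₂ + (g₁ + x) = (g₁ + g₂) + x := by abel
  have h3 := h2 (g₁ + x)
  rw [e] at h3
  have h4 : a * h (g₁ + x) ≤ a * (a * h ((g₁ + g₂) + x) + c₂) := mul_le_mul_of_nonneg_left h3 ha
  have h5 := h1 x
  nlinarith [h4, h5]

/-- **descent with a good locus**: WEAK, Northcott, (M), and (T) for every good `g`, when every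
coset of `m G` contains a good element. -/
theorem s17tf_fg_of_good {m : ℕ} {h : G → ℝ} {a b c₀ : ℝ}
    (hN : ∀ B : ℝ, {x : G | h x ≤ B}.Finite) (ha : 0 ≤ a) (hab : a < b)
    (hw : (nsmulAddMonoidHom (α := G) m).range.FiniteIndex)
    (Good : G → Prop) (hgood : ∀ x : G, ∃ z : G, Good (x + m • z))
    (hT : ∀ g, Good g → ∃ c : ℝ, ∀ x, h x ≤ a * h (g + x) + c)
    (hM : ∀ x, b * h x - c₀ ≤ h (m • x)) : AddGroup.FG G := by
  classical
  set H : AddSubgroup G := (nsmulAddMonoidHom (α := G) m).range with hH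
  have : Finite (G ⧸ H) := AddSubgroup.finite_quotient_of_finiteIndex
  -- representatives
  let r : G ⧸ H → G := Function.surjInv (QuotientAddGroup.mk_surjective (s := H))
  have hr : ∀ q, (QuotientAddGroup.mk (r q) : G ⧸ H) = q :=
    Function.surjInv_eq (QuotientAddGroup.mk_surjective (s := H))
  choose z hz using fun q : G ⧸ H => hgood (r q)
  let gq : G ⧸ H → G := fun q => r q + m • z q
  choose cq hcq using fun q : G ⧸ H => hT (gq q) (hz q)
  have hfin : (Set.range gq).Finite := Set.finite_range gq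
  have hfinc : (Set.range cq).Finite := Set.finite_range cq
  obtain ⟨C, hC⟩ : ∃ C : ℝ, ∀ q, cq q ≤ C := by
    obtain ⟨C, hC⟩ := hfinc.bddAbove
    exact ⟨C, fun q => hC ⟨q, rfl⟩⟩
  set c : ℝ := max c₀ (max C 0) with hc
  have hcC : C ≤ c := le_trans (le_max_left _ _) (le_max_right _ _)
  have hc0 : c₀ ≤ c := le_max_left _ _
  refine s17tf_fg_of_reps (m := m) (c := c) hN ha hab (Set.range gq) hfin ?_ ?_ ?_
  · intro x
    refine ⟨gq (QuotientAddGroup.mk x), ⟨_, rfl⟩, ?_⟩
    have h1 : (QuotientAddGroup.mk (r (QuotientAddGroup.mk x)) : G ⧸ H) = QuotientAddGroup.mk x :=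
      hr _
    have h2 : -(r (QuotientAddGroup.mk x)) + x ∈ H := QuotientAddGroup.eq.mp h1
    obtain ⟨w, hw'⟩ := h2
    refine ⟨w - z (QuotientAddGroup.mk x), ?_⟩
    have h3 : m • w = -(r (QuotientAddGroup.mk x)) + x := hw'
    show x = r (QuotientAddGroup.mk x) + m • z (QuotientAddGroup.mk x)
      + m • (w - z (QuotientAddGroup.mk x))
    rw [smul_sub, h3]
    abel
  · rintro g ⟨q, rfl⟩ x
    have := hcq q x
    linarith [hC q]
  · intro x
    have := hM x
    linarith

end Abstract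

/-- **HEIGHT certificate with finitely many representatives**. -/
structure S17IsHeightFin (N : ℕ) [NeZero N] (m : ℕ) (h : s17MW N → ℝ) : Prop where
  northcott : ∀ B : ℝ, {x : s17MW N | h x ≤ B}.Finite
  bounds : ∃ (s : Set (s17MW N)) (a b c : ℝ), s.Finite ∧ 0 ≤ a ∧ a < b ∧
    (∀ x : s17MW N, ∃ g ∈ s, ∃ z : s17MW N, x = g + m • z) ∧
    (∀ g ∈ s, ∀ x : s17MW N, h x ≤ a * h (g + x) + c) ∧
    (∀ x : s17MW N, b * h x - c ≤ h (m • x))

/-- HEIGHT (finite form) ⇒ finitely generated (WEAK is contained in the covering set `s`). -/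
theorem s17tf_top (N : ℕ) [NeZero N] (m : ℕ) (h : s17MW N → ℝ) (hh : S17IsHeightFin N m h) :
    AddGroup.FG (s17MW N) := by
  obtain ⟨s, a, b, c, hs, ha, hab, hcov, hT, hM⟩ := hh.bounds
  exact s17tf_fg_of_reps hh.northcott ha hab s hs hcov hT hM

/-- WEAK + Northcott + (M) + (T) on a good locus meeting every coset ⇒ finitely generated. -/
theorem s17tf_top_good (N : ℕ) [NeZero N] (m : ℕ) (h : s17MW N → ℝ) (hw : S17IsWeak N m)
    (hN : ∀ B : ℝ, {x : s17MW N | h x ≤ B}.Finite) {a b c₀ : ℝ} (ha : 0 ≤ a) (hab : a < b)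
    (Good : s17MW N → Prop) (hgood : ∀ x : s17MW N, ∃ z : s17MW N, Good (x + m • z))
    (hT : ∀ g, Good g → ∃ c : ℝ, ∀ x, h x ≤ a * h (g + x) + c)
    (hM : ∀ x, b * h x - c₀ ≤ h (m • x)) : AddGroup.FG (s17MW N) :=
  s17tf_fg_of_good hN ha hab hw Good hgood hT hM

/-- the open statement of S17 in the finite form. -/
def s17tf_Stmt : Prop :=
  ∀ (N : ℕ) [NeZero N], N.Prime → 5 ≤ N →
    ∃ (m : ℕ) (h : s17MW N → ℝ), S17IsHeightFin N m h

/-- the frozen type of S17 from `s17tf_Stmt`. -/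
theorem s17tf_result (H : s17tf_Stmt) (N : ℕ) [NeZero N] (hN : N.Prime) (hN5 : 5 ≤ N) :
    AddGroup.FG ↥(FixedPoints.addSubgroup ((AlgebraicClosure ℚ) ≃ₐ[ℚ] (AlgebraicClosure ℚ))
      (JZero N)) := by
  obtain ⟨m, h, hh⟩ := H N hN hN5
  exact s17tf_top N m h hh

end Fermat.Agent.S17
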