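/-
S17 sprint, layer H, leaf PlT, sub-leaf **T9 AUT** (helper89): THE TRANSLATION AUTOMORPHISMS of the
model.

On the stage of `S17/Affine.lean`, `section Model` (`K` algebraically closed of characteristic `0`,
`F / K` a curve of genus `g`, `L` an algebraic closure of `Ω_g = s27gfOm K F g`,
`FL = Frac (F ⊗[K] L)`, `x ∈ F` transcendental with `F / K(x)` finite separable, `G₀` a divisor of
degree `g`), with `pkg = s27dclPkg hld hgen hx G₀ hG₀`, `η = cl taut` the tautological class and
`β = s27bcBeta` the constant field extension of classes `Pic0 K F → Pic0 L FL`: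

* `s17tau_exists`      : `∀ c, ∃ ρ : L ≃ₐ[K] L, actC ρ η = η + β c`;
* `s17tau_exists_perm` : the same with the permutation `π` and the generic tuple `q` of class
                         `η + β c` with `ρ ∘ taut_i = q (π i)`;
* `s17tau_exists_smul` : `∀ k ≠ 0, c, ∃ ρ, actC ρ η = k • η + β c`;
* `s17tau_exists_neg`  : `∃ ρ, actC ρ η = -η` (`k = -1`, `c = 0`);
* `s17tau_choose`, `s17tau_choose_spec` : a chosen family `c ↦ ρ_c`.

No Galois hypothesis on `L / 𝔉` is needed (the extension step is (X1), `s27dgx_X1`).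
-/
import Fermat.Agent.S17.Affine
import Fermat.Agent.S27.DegClosed

set_option autoImplicit false
set_option linter.unusedVariables false
set_option linter.unusedSectionVars false
set_option linter.style.haveILetI false

noncomputable section

namespace Fermat.Agent.S17

open AlgebraicCurve TensorProduct IntermediateField Fermat.Agent.S27 Fermat.Agent.S26
  Fermat.Agent.S24

universe u v y

section Model

variable {K : Type u} {F : Type v} [Field K] [IsAlgClosed K] [CharZero K] [Field F] [Algebra K F]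
  [IsCurveOver K F] [Algebra.EssFiniteType K F]
  {L : Type (max u v)} [Field L] [Algebra K L]
  [Algebra (s27gfOm K F (genusFF K F)) L] [IsScalarTower K (s27gfOm K F (genusFF K F)) L]
  [IsAlgClosed L] [Algebra.IsAlgebraic (s27gfOm K F (genusFF K F)) L]
  {FL : Type y} [Field FL] [Algebra K FL] [Algebra F FL] [Algebra L FL]
  [IsScalarTower K F FL] [IsScalarTower K L FL]
  (hld : Function.Injective (s26gspMu K F L FL)) (hgen : S26gspGen K F L FL)
  {x : F} (hx : Transcendental K x)
  [FiniteDimensional ↥(IntermediateField.adjoin K {x}) F]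
  [Algebra.IsSeparable ↥(IntermediateField.adjoin K {x}) F]
  (G₀ : Divisor K F) (hG₀ : Divisor.degree G₀ = (genusFF K F : ℤ))

/-- **the affine automorphisms**: for `k ≠ 0` and a constant class `c`, an automorphism `ρ` of
`L / K` with `actC ρ η = k • η + β c`, together with the generic tuple `q` of that class and the
permutation `π` with `ρ ∘ taut_i = q (π i)`. -/
theorem s17tau_exists_smul_perm (k : ℤ) (hk : k ≠ 0) (c : Pic0 K F) :
    ∃ (ρ : L ≃ₐ[K] L) (q : Fin (genusFF K F) → F →ₐ[K] L) (π : Equiv.Perm (Fin (genusFF K F))),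
      (s27dclPkg hld hgen hx G₀ hG₀).actC ρ
          (s27pfCl (s27dclPkg hld hgen hx G₀ hG₀)
            (s27pfTaut (K := K) (F := F) (g := genusFF K F) (L := L))) =
        k • s27pfCl (s27dclPkg hld hgen hx G₀ hG₀)
            (s27pfTaut (K := K) (F := F) (g := genusFF K F) (L := L)) +
          s27bcBeta hld hgen (s26gspf_hall hx) c ∧
      S27dgGeneric K x q ∧
      s27pfCl (s27dclPkg hld hgen hx G₀ hG₀) q =
        k • s27pfCl (s27dclPkg hld hgen hx G₀ hG₀)
            (s27pfTaut (K := K) (F := F) (g := genusFF K F) (L := L)) +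
          s27bcBeta hld hgen (s26gspf_hall hx) c ∧
      ∀ i, (ρ : L →ₐ[K] L).comp
        (s27pfTaut (K := K) (F := F) (g := genusFF K F) (L := L) i) = q (π i) := by
  obtain ⟨q, hq⟩ := s17af_exists_fam (L := L) hld hgen hx G₀ hG₀
  obtain ⟨ρ, hρ, π, hπ⟩ := s17af_exists_aut (s27dclPkg hld hgen hx G₀ hG₀)
    (s27bcBeta hld hgen (s26gspf_hall hx)) (s17af_inv hld hgen hx G₀ hG₀)
    (s27dcl_halg (x := x))
    (fun σ => s27dgx_X1 (s27dclFld (L := L) hx) (s27dcl_halg (x := x)) σ)
    hq k hk c
  exact ⟨ρ, q k c, π, hρ, (hq k hk c).1, (hq k hk c).2, hπ⟩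

/-- **the affine automorphisms**: `∀ k ≠ 0, c, ∃ ρ, actC ρ η = k • η + β c`. -/
theorem s17tau_exists_smul (k : ℤ) (hk : k ≠ 0) (c : Pic0 K F) :
    ∃ ρ : L ≃ₐ[K] L,
      (s27dclPkg hld hgen hx G₀ hG₀).actC ρ
          (s27pfCl (s27dclPkg hld hgen hx G₀ hG₀)
            (s27pfTaut (K := K) (F := F) (g := genusFF K F) (L := L))) =
        k • s27pfCl (s27dclPkg hld hgen hx G₀ hG₀)
            (s27pfTaut (K := K) (F := F) (g := genusFF K F) (L := L)) +
          s27bcBeta hld hgen (s26gspf_hall hx) c := by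
  obtain ⟨ρ, -, -, hρ, -⟩ := s17tau_exists_smul_perm (L := L) hld hgen hx G₀ hG₀ k hk c
  exact ⟨ρ, hρ⟩

/-- **T9 AUT, with the tuple**: for every constant class `c` an automorphism `ρ` of `L / K` with
`actC ρ η = η + β c`, a generic tuple `q` of class `η + β c` and a permutation `π` with
`ρ ∘ taut_i = q (π i)`. -/
theorem s17tau_exists_perm (c : Pic0 K F) :
    ∃ (ρ : L ≃ₐ[K] L) (q : Fin (genusFF K F) → F →ₐ[K] L) (π : Equiv.Perm (Fin (genusFF K F))),
      (s27dclPkg hld hgen hx G₀ hG₀).actC ρ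
          (s27pfCl (s27dclPkg hld hgen hx G₀ hG₀)
            (s27pfTaut (K := K) (F := F) (g := genusFF K F) (L := L))) =
        s27pfCl (s27dclPkg hld hgen hx G₀ hG₀)
            (s27pfTaut (K := K) (F := F) (g := genusFF K F) (L := L)) +
          s27bcBeta hld hgen (s26gspf_hall hx) c ∧
      S27dgGeneric K x q ∧
      s27pfCl (s27dclPkg hld hgen hx G₀ hG₀) q =
        s27pfCl (s27dclPkg hld hgen hx G₀ hG₀)
            (s27pfTaut (K := K) (F := F) (g := genusFF K F) (L := L)) +
          s27bcBeta hld hgen (s26gspf_hall hx) c ∧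
      ∀ i, (ρ : L →ₐ[K] L).comp
        (s27pfTaut (K := K) (F := F) (g := genusFF K F) (L := L) i) = q (π i) := by
  obtain ⟨ρ, q, π, h1, h2, h3, h4⟩ :=
    s17tau_exists_smul_perm (L := L) hld hgen hx G₀ hG₀ 1 one_ne_zero c
  rw [one_smul] at h1 h3
  exact ⟨ρ, q, π, h1, h2, h3, h4⟩

/-- **T9 AUT**: for every constant class `c ∈ Pic0 K F` there is an automorphism `ρ` of `L / K`
with `actC ρ η = η + β c` (`η` the tautological class, `β` the constant field extension). -/
theorem s17tau_exists (c : Pic0 K F) :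
    ∃ ρ : L ≃ₐ[K] L,
      (s27dclPkg hld hgen hx G₀ hG₀).actC ρ
          (s27pfCl (s27dclPkg hld hgen hx G₀ hG₀)
            (s27pfTaut (K := K) (F := F) (g := genusFF K F) (L := L))) =
        s27pfCl (s27dclPkg hld hgen hx G₀ hG₀)
            (s27pfTaut (K := K) (F := F) (g := genusFF K F) (L := L)) +
          s27bcBeta hld hgen (s26gspf_hall hx) c := by
  obtain ⟨ρ, -, -, hρ, -⟩ := s17tau_exists_perm (L := L) hld hgen hx G₀ hG₀ c
  exact ⟨ρ, hρ⟩

/-- the inversion automorphism: `∃ ρ, actC ρ η = -η`. -/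
theorem s17tau_exists_neg :
    ∃ ρ : L ≃ₐ[K] L,
      (s27dclPkg hld hgen hx G₀ hG₀).actC ρ
          (s27pfCl (s27dclPkg hld hgen hx G₀ hG₀)
            (s27pfTaut (K := K) (F := F) (g := genusFF K F) (L := L))) =
        -s27pfCl (s27dclPkg hld hgen hx G₀ hG₀)
            (s27pfTaut (K := K) (F := F) (g := genusFF K F) (L := L)) := by
  obtain ⟨ρ, hρ⟩ := s17tau_exists_smul (L := L) hld hgen hx G₀ hG₀ (-1) (by norm_num) 0
  refine ⟨ρ, ?_⟩
  rw [hρ, map_zero, add_zero, neg_one_smul]

/-- a chosen family of translation automorphisms `c ↦ ρ_c`. -/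
def s17tauChoose (c : Pic0 K F) : L ≃ₐ[K] L :=
  (s17tau_exists (L := L) hld hgen hx G₀ hG₀ c).choose

theorem s17tau_choose_spec (c : Pic0 K F) :
    (s27dclPkg hld hgen hx G₀ hG₀).actC (s17tauChoose (L := L) hld hgen hx G₀ hG₀ c)
        (s27pfCl (s27dclPkg hld hgen hx G₀ hG₀)
          (s27pfTaut (K := K) (F := F) (g := genusFF K F) (L := L))) =
      s27pfCl (s27dclPkg hld hgen hx G₀ hG₀)
          (s27pfTaut (K := K) (F := F) (g := genusFF K F) (L := L)) +
        s27bcBeta hld hgen (s26gspf_hall hx) c :=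
  (s17tau_exists (L := L) hld hgen hx G₀ hG₀ c).choose_spec

end Model

end Fermat.Agent.S17

end
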