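/-
S17 sprint, layer H, [PlT] leaf **T6 SPECIAL-g, FORMAL** (helper50): the two-sided translation
estimate for NON-SPECIAL shifts implies it for ALL shifts.

Abstract setting: a group `G` (automorphisms of `L / K`) acting on the RIGHT on a type `P` (the
`K`-rational places: `p ∘ a`), an additive commutative group `J` (the classes), a relation
`rel a x` ("`a` is a translation by `x`": `actC a η = η + β x`), compatible with products and
inverses, `H : P → ℝ`.

  `S17tspE act rel H g := ∃ C, ∀ a b, rel a g → rel b (−g) → ∀ p, |H (p∘a) + H (p∘b) − 2 H p| ≤ C`.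

* `s17tsp_H_eq`, `s17tsp_E_of_one` : if the automorphisms of shift `0` do not change `H`, then
                  `H (p∘a)` depends only on the shift of `a`, and the estimate for ONE pair of
                  translations by `g`, `−g` is `E g`;
* `s17tsp_main` : `E` on a set `NS` of shifts + every `g` is `u + v` with `u, v, u − v ∈ NS` +
                  every shift has a translation ⇒ `E g` for ALL `g`;
* `s17tsp_upper` : `E g` and `0 ≤ H` ⇒ `∃ C, ∀ a, rel a g → ∀ p, H (p∘a) ≤ 2 H p + C`
                   (needs one translation by `−g`);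
* `s17tsp_plT`  : the place form (T): `∀ g, ∃ c, ∀ p, ∃ p₁, cl p₁ = cl p − g ∧ H p₁ ≤ 2 H p + c`
                  from `E` for all `g` and `cl (p∘a) = cl p + x` for `rel a x`.
Pure Mathlib.
-/
import Mathlib

set_option autoImplicit false
set_option linter.unusedVariables false
set_option linter.unusedSectionVars false
set_option linter.style.longLine false

namespace Fermat.Agent.S17

section Formal

variable {G P J : Type*} [Group G] [AddCommGroup J]

/-- the two-sided translation estimate at the shift `g`. -/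
def S17tspE (act : P → G → P) (rel : G → J → Prop) (H : P → ℝ) (g : J) : Prop :=
  ∃ C : ℝ, ∀ a b : G, rel a g → rel b (-g) → ∀ p : P, |H (act p a) + H (act p b) - 2 * H p| ≤ C

/-- translations with the same shift give the same height, if the automorphisms of shift `0`
do not change `H`. -/
theorem s17tsp_H_eq (act : P → G → P) (rel : G → J → Prop) (H : P → ℝ)
    (hact : ∀ (p : P) (a b : G), act (act p a) b = act p (a * b))
    (hmul : ∀ (a b : G) (x y : J), rel a x → rel b y → rel (a * b) (x + y))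
    (hinv : ∀ (a : G) (x : J), rel a x → rel a⁻¹ (-x))
    (hfix : ∀ s : G, rel s 0 → ∀ p : P, H (act p s) = H p)
    (g : J) (a a' : G) (ha : rel a g) (ha' : rel a' g) (p : P) :
    H (act p a') = H (act p a) := by
  have h0 : rel (a⁻¹ * a') 0 := by
    have := hmul a⁻¹ a' (-g) g (hinv a g ha) ha'
    rwa [neg_add_cancel] at this
  have := hfix (a⁻¹ * a') h0 (act p a)
  rwa [hact, mul_inv_cancel_left] at this

/-- the estimate for ONE pair of translations by `g`, `-g` is the estimate for all pairs, if the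
automorphisms of shift `0` do not change `H`. -/
theorem s17tsp_E_of_one (act : P → G → P) (rel : G → J → Prop) (H : P → ℝ)
    (hact : ∀ (p : P) (a b : G), act (act p a) b = act p (a * b))
    (hmul : ∀ (a b : G) (x y : J), rel a x → rel b y → rel (a * b) (x + y))
    (hinv : ∀ (a : G) (x : J), rel a x → rel a⁻¹ (-x))
    (hfix : ∀ s : G, rel s 0 → ∀ p : P, H (act p s) = H p)
    (g : J) (a b : G) (ha : rel a g) (hb : rel b (-g)) (C : ℝ)
    (hC : ∀ p : P, |H (act p a) + H (act p b) - 2 * H p| ≤ C) :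
    S17tspE act rel H g := by
  refine ⟨C, fun a' b' ha' hb' p => ?_⟩
  rw [s17tsp_H_eq act rel H hact hmul hinv hfix g a a' ha ha' p,
    s17tsp_H_eq act rel H hact hmul hinv hfix (-g) b b' hb hb' p]
  exact hC p

/-- **T6**: the estimate for non-special shifts implies the estimate for all shifts. -/
theorem s17tsp_main (act : P → G → P) (rel : G → J → Prop) (H : P → ℝ)
    (hact : ∀ (p : P) (a b : G), act (act p a) b = act p (a * b))
    (hmul : ∀ (a b : G) (x y : J), rel a x → rel b y → rel (a * b) (x + y))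
    (hinv : ∀ (a : G) (x : J), rel a x → rel a⁻¹ (-x))
    (hex : ∀ x : J, ∃ a : G, rel a x)
    (NS : J → Prop) (hNS : ∀ g, NS g → S17tspE act rel H g)
    (hsplit : ∀ g : J, ∃ u v : J, u + v = g ∧ NS u ∧ NS v ∧ NS (u - v))
    (g : J) : S17tspE act rel H g := by
  obtain ⟨u, v, huv, hu, hv, ht⟩ := hsplit g
  obtain ⟨Cu, hCu⟩ := hNS u hu
  obtain ⟨Cv, hCv⟩ := hNS v hv
  obtain ⟨Ct, hCt⟩ := hNS (u - v) ht
  obtain ⟨au, hau⟩ := hex u
  obtain ⟨c, hc⟩ := hex (u - v)
  refine ⟨2 * Cv + Ct + 2 * Cu, fun a b ha hb p => ?_⟩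
  have hau' : rel au⁻¹ (-u) := hinv au u hau
  have hc' : rel c⁻¹ (-(u - v)) := hinv c _ hc
  -- (1): `E v` at `p ∘ au` with the translations `au⁻¹ * a` (by `v`) and `au⁻¹ * c` (by `-v`)
  have r1 : rel (au⁻¹ * a) v := by
    have := hmul au⁻¹ a (-u) g hau' ha
    have e : -u + g = v := by rw [← huv]; abel
    rwa [e] at this
  have r1' : rel (au⁻¹ * c) (-v) := by
    have := hmul au⁻¹ c (-u) (u - v) hau' hc
    have e : -u + (u - v) = -v := by abel
    rwa [e] at this
  have h1 := hCv (au⁻¹ * a) (au⁻¹ * c) r1 r1' (act p au)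
  rw [hact, hact, mul_inv_cancel_left, mul_inv_cancel_left] at h1
  -- (2): `E v` at `p ∘ au⁻¹` with the translations `au * c⁻¹` (by `v`) and `au * b` (by `-v`)
  have r2 : rel (au * c⁻¹) v := by
    have := hmul au c⁻¹ u (-(u - v)) hau hc'
    have e : u + -(u - v) = v := by abel
    rwa [e] at this
  have r2' : rel (au * b) (-v) := by
    have := hmul au b u (-g) hau hb
    have e : u + -g = -v := by rw [← huv]; abel
    rwa [e] at this
  have h2 := hCv (au * c⁻¹) (au * b) r2 r2' (act p au⁻¹)
  rw [hact, hact, inv_mul_cancel_left, inv_mul_cancel_left] at h2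
  -- (3): `E (u - v)` at `p`, (4): `E u` at `p`
  have h3 := hCt c c⁻¹ hc hc' p
  have h4 := hCu au au⁻¹ hau hau' p
  rw [abs_le] at h1 h2 h3 h4 ⊢
  constructor <;> linarith [h1.1, h1.2, h2.1, h2.2, h3.1, h3.2, h4.1, h4.2]

/-- the upper bound `H (p ∘ a) ≤ 2 H p + C` from the two-sided estimate and `0 ≤ H`. -/
theorem s17tsp_upper (act : P → G → P) (rel : G → J → Prop) (H : P → ℝ)
    (hH : ∀ p, 0 ≤ H p) (g : J) (hb : ∃ b : G, rel b (-g)) (hE : S17tspE act rel H g) :
    ∃ C : ℝ, ∀ a : G, rel a g → ∀ p : P, H (act p a) ≤ 2 * H p + C := by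
  obtain ⟨C, hC⟩ := hE
  obtain ⟨b, hb⟩ := hb
  refine ⟨C, fun a ha p => ?_⟩
  have h := hC a b ha hb p
  rw [abs_le] at h
  have := hH (act p b)
  linarith [h.2]

/-- **the place form of (T)** from the two-sided estimate for all shifts. -/
theorem s17tsp_plT (act : P → G → P) (rel : G → J → Prop) (H : P → ℝ) (cl : P → J)
    (hH : ∀ p, 0 ≤ H p)
    (hex : ∀ x : J, ∃ a : G, rel a x)
    (hcl : ∀ (p : P) (a : G) (x : J), rel a x → cl (act p a) = cl p + x)
    (hE : ∀ g, S17tspE act rel H g) :
    ∀ g : J, ∃ c : ℝ, ∀ p : P, ∃ p₁ : P, g + cl p₁ = cl p ∧ H p₁ ≤ 2 * H p + c := by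
  intro g
  obtain ⟨C, hC⟩ := s17tsp_upper act rel H hH (-g) (by rw [neg_neg]; exact hex g) (hE (-g))
  obtain ⟨a, ha⟩ := hex (-g)
  refine ⟨C, fun p => ⟨act p a, ?_, hC a ha p⟩⟩
  rw [hcl p a (-g) ha]
  abel

end Formal

end Fermat.Agent.S17
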