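/-
S17 sprint, layer H, [PlT] leaf **T6 WITHOUT MOVE-2** (helper94): the two-sided translation
estimate for NON-SPECIAL shifts implies it for ALL shifts, with NO doubling in the moving lemma.

helper50's T6 (`s17tsp_main`, S17/TranslSpec.lean) asks for `g = u + v` with `u`, `v`, `u − v`
non-special; `u − v = 2u − g`, so the moving lemma would have to control `L(Ao ∓ (2M − G))`
(helper38's doubt, 07:08Z).  The TWO-STEP chain below avoids this: with
`Δ_x(p) := H (p ∘ ρ_x) + H (p ∘ ρ_{−x}) − 2 H p`,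

  STEP  : `E v`, `E w` ⇒ `Δ_{v+w} + Δ_{w−v} = O(1)`      (the quadruple estimate `S17tsxQ`),
  CHAIN : choose `n ∈ NS`, then `s` with `s + s = g − n` (2-DIVISIBILITY of `J`), then `v` with
          `v`, `g − v`, `s − v`, `g − s − v ∈ NS` (four TRANSLATES of `Θ`: the moving lemma on main,
          `s17mvc_exists_fin` with the classes `±g`, `±s`, `±(g − s)`); with `t := g − 2v`:
          `Δ_g + Δ_t = O(1)`  (STEP at `v`, `g − v`),
          `Δ_t + Δ_n = O(1)`  (STEP at `s − v`, `g − s − v`:  sum `= t`, difference `= g − 2s = n`),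
          `Δ_n = O(1)`        (`n ∈ NS`)      ⇒ `Δ_g = O(1)`.

* `S17tsxQ`       : the quadruple estimate;
* `s17tsx_step`   : STEP;
* `s17tsx_chain`  : `Q x y`, `Q y z`, `E z` ⇒ `E x`;
* `s17tsx_main`   : **T6 from `hNS` + 2-divisibility + the moving lemma for three classes**;
* `s17tsx_all`    : the same for all `g`;
* `s17tsx_upper`  : `∀ g, ∃ C, ∀ a, rel a g → ∀ p, H (p ∘ a) ≤ 2 H p + C` (the export for PlN, N1);
* `s17tsx_plT`    : the place form (T) with `a = 2` (`∀ g, ∃ c, ∀ p, ∃ p₁, g + cl p₁ = cl p ∧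
                    H p₁ ≤ 2 * H p + c`).
Mathlib + S17/TranslSpec only.
-/
import Fermat.Agent.S17.TranslSpec

set_option autoImplicit false
set_option linter.unusedVariables false
set_option linter.unusedSectionVars false
set_option linter.style.longLine false

namespace Fermat.Agent.S17

section Chain

variable {G P J : Type*} [Group G] [AddCommGroup J]

/-- the quadruple estimate: `Δ_x + Δ_y` is bounded. -/
def S17tsxQ (act : P → G → P) (rel : G → J → Prop) (H : P → ℝ) (x y : J) : Prop :=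
  ∃ C : ℝ, ∀ a b c d : G, rel a x → rel b (-x) → rel c y → rel d (-y) → ∀ p : P,
    |H (act p a) + H (act p b) + H (act p c) + H (act p d) - 4 * H p| ≤ C

/-- **STEP**: `E v` and `E w` give the quadruple estimate at `(v + w, w − v)`. -/
theorem s17tsx_step (act : P → G → P) (rel : G → J → Prop) (H : P → ℝ)
    (hact : ∀ (p : P) (a b : G), act (act p a) b = act p (a * b))
    (hmul : ∀ (a b : G) (x y : J), rel a x → rel b y → rel (a * b) (x + y))
    (hinv : ∀ (a : G) (x : J), rel a x → rel a⁻¹ (-x))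
    (hex : ∀ x : J, ∃ a : G, rel a x)
    (v w : J) (hv : S17tspE act rel H v) (hw : S17tspE act rel H w) :
    S17tsxQ act rel H (v + w) (w - v) := by
  obtain ⟨Cv, hCv⟩ := hv
  obtain ⟨Cw, hCw⟩ := hw
  obtain ⟨aw, haw⟩ := hex w
  have haw' : rel aw⁻¹ (-w) := hinv aw w haw
  refine ⟨2 * Cv + 2 * Cw, fun a b c d ha hb hc hd p => ?_⟩
  -- (1): `E v` at `p ∘ aw` with the translations `aw⁻¹ * a` (by `v`) and `aw⁻¹ * c` (by `-v`)
  have r1 : rel (aw⁻¹ * a) v := by
    have := hmul aw⁻¹ a (-w) (v + w) haw' ha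
    have e : -w + (v + w) = v := by abel
    rwa [e] at this
  have r1' : rel (aw⁻¹ * c) (-v) := by
    have := hmul aw⁻¹ c (-w) (w - v) haw' hc
    have e : -w + (w - v) = -v := by abel
    rwa [e] at this
  have h1 := hCv (aw⁻¹ * a) (aw⁻¹ * c) r1 r1' (act p aw)
  rw [hact, hact, mul_inv_cancel_left, mul_inv_cancel_left] at h1
  -- (2): `E v` at `p ∘ aw⁻¹` with the translations `aw * d` (by `v`) and `aw * b` (by `-v`)
  have r2 : rel (aw * d) v := by
    have := hmul aw d w (-(w - v)) haw hd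
    have e : w + -(w - v) = v := by abel
    rwa [e] at this
  have r2' : rel (aw * b) (-v) := by
    have := hmul aw b w (-(v + w)) haw hb
    have e : w + -(v + w) = -v := by abel
    rwa [e] at this
  have h2 := hCv (aw * d) (aw * b) r2 r2' (act p aw⁻¹)
  rw [hact, hact, inv_mul_cancel_left, inv_mul_cancel_left] at h2
  -- (3): `E w` at `p`
  have h3 := hCw aw aw⁻¹ haw haw' p
  rw [abs_le] at h1 h2 h3 ⊢
  constructor <;> linarith [h1.1, h1.2, h2.1, h2.2, h3.1, h3.2]

/-- **CHAIN**: `Q x y`, `Q y z` and `E z` give `E x`. -/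
theorem s17tsx_chain (act : P → G → P) (rel : G → J → Prop) (H : P → ℝ)
    (hinv : ∀ (a : G) (x : J), rel a x → rel a⁻¹ (-x))
    (hex : ∀ x : J, ∃ a : G, rel a x)
    (x y z : J) (h1 : S17tsxQ act rel H x y) (h2 : S17tsxQ act rel H y z)
    (h3 : S17tspE act rel H z) : S17tspE act rel H x := by
  obtain ⟨C1, hC1⟩ := h1
  obtain ⟨C2, hC2⟩ := h2
  obtain ⟨C3, hC3⟩ := h3
  obtain ⟨c, hc⟩ := hex y
  obtain ⟨e, he⟩ := hex z
  have hc' : rel c⁻¹ (-y) := hinv c y hc
  have he' : rel e⁻¹ (-z) := hinv e z he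
  refine ⟨C1 + C2 + C3, fun a b ha hb p => ?_⟩
  have k1 := hC1 a b c c⁻¹ ha hb hc hc' p
  have k2 := hC2 c c⁻¹ e e⁻¹ hc hc' he he' p
  have k3 := hC3 e e⁻¹ he he' p
  rw [abs_le] at k1 k2 k3 ⊢
  constructor <;> linarith [k1.1, k1.2, k2.1, k2.2, k3.1, k3.2]

/-- **T6 without MOVE-2**: the estimate for non-special shifts implies the estimate for all
shifts, from 2-divisibility of `J` and the moving lemma for TRANSLATES only. -/
theorem s17tsx_main (act : P → G → P) (rel : G → J → Prop) (H : P → ℝ)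
    (hact : ∀ (p : P) (a b : G), act (act p a) b = act p (a * b))
    (hmul : ∀ (a b : G) (x y : J), rel a x → rel b y → rel (a * b) (x + y))
    (hinv : ∀ (a : G) (x : J), rel a x → rel a⁻¹ (-x))
    (hex : ∀ x : J, ∃ a : G, rel a x)
    (NS : J → Prop) (hNS : ∀ g, NS g → S17tspE act rel H g)
    (hdiv : ∀ x : J, ∃ s : J, s + s = x)
    (hmov : ∀ a b c : J, ∃ v : J, NS v ∧ NS (a - v) ∧ NS (b - v) ∧ NS (c - v))
    (g : J) : S17tspE act rel H g := by
  obtain ⟨n, hn, -⟩ := hmov 0 0 0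
  obtain ⟨s, hs⟩ := hdiv (g - n)
  obtain ⟨v, hv, hgv, hsv, hgsv⟩ := hmov g s (g - s)
  -- first step: `(v, g − v)`: sum `g`, difference `t = g − v − v`
  have q1 := s17tsx_step act rel H hact hmul hinv hex v (g - v) (hNS v hv) (hNS _ hgv)
  have e1 : v + (g - v) = g := by abel
  rw [e1] at q1
  -- second step: `(s − v, g − s − v)`: sum `t`, difference `n`
  have q2 := s17tsx_step act rel H hact hmul hinv hex (s - v) (g - s - v) (hNS _ hsv)
    (hNS _ hgsv)
  have e2 : s - v + (g - s - v) = g - v - v := by abel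
  have e3 : g - s - v - (s - v) = n := by
    have : g - s - v - (s - v) = g - (s + s) := by abel
    rw [this, hs]
    abel
  rw [e2, e3] at q2
  exact s17tsx_chain act rel H hinv hex g (g - v - v) n q1 q2 (hNS n hn)

/-- the same for all shifts. -/
theorem s17tsx_all (act : P → G → P) (rel : G → J → Prop) (H : P → ℝ)
    (hact : ∀ (p : P) (a b : G), act (act p a) b = act p (a * b))
    (hmul : ∀ (a b : G) (x y : J), rel a x → rel b y → rel (a * b) (x + y))
    (hinv : ∀ (a : G) (x : J), rel a x → rel a⁻¹ (-x))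
    (hex : ∀ x : J, ∃ a : G, rel a x)
    (NS : J → Prop) (hNS : ∀ g, NS g → S17tspE act rel H g)
    (hdiv : ∀ x : J, ∃ s : J, s + s = x)
    (hmov : ∀ a b c : J, ∃ v : J, NS v ∧ NS (a - v) ∧ NS (b - v) ∧ NS (c - v)) :
    ∀ g : J, S17tspE act rel H g :=
  fun g => s17tsx_main act rel H hact hmul hinv hex NS hNS hdiv hmov g

/-- **the upper bound for every translation** (`a = 2`): the export for PlN, N1. -/
theorem s17tsx_upper (act : P → G → P) (rel : G → J → Prop) (H : P → ℝ)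
    (hH : ∀ p, 0 ≤ H p)
    (hact : ∀ (p : P) (a b : G), act (act p a) b = act p (a * b))
    (hmul : ∀ (a b : G) (x y : J), rel a x → rel b y → rel (a * b) (x + y))
    (hinv : ∀ (a : G) (x : J), rel a x → rel a⁻¹ (-x))
    (hex : ∀ x : J, ∃ a : G, rel a x)
    (NS : J → Prop) (hNS : ∀ g, NS g → S17tspE act rel H g)
    (hdiv : ∀ x : J, ∃ s : J, s + s = x)
    (hmov : ∀ a b c : J, ∃ v : J, NS v ∧ NS (a - v) ∧ NS (b - v) ∧ NS (c - v))
    (g : J) : ∃ C : ℝ, ∀ a : G, rel a g → ∀ p : P, H (act p a) ≤ 2 * H p + C :=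
  s17tsp_upper act rel H hH g (hex (-g))
    (s17tsx_main act rel H hact hmul hinv hex NS hNS hdiv hmov g)

/-- **the place form of (T)**, `a = 2`, for ALL shifts, without MOVE-2. -/
theorem s17tsx_plT (act : P → G → P) (rel : G → J → Prop) (H : P → ℝ) (cl : P → J)
    (hH : ∀ p, 0 ≤ H p)
    (hact : ∀ (p : P) (a b : G), act (act p a) b = act p (a * b))
    (hmul : ∀ (a b : G) (x y : J), rel a x → rel b y → rel (a * b) (x + y))
    (hinv : ∀ (a : G) (x : J), rel a x → rel a⁻¹ (-x))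
    (hex : ∀ x : J, ∃ a : G, rel a x)
    (hcl : ∀ (p : P) (a : G) (x : J), rel a x → cl (act p a) = cl p + x)
    (NS : J → Prop) (hNS : ∀ g, NS g → S17tspE act rel H g)
    (hdiv : ∀ x : J, ∃ s : J, s + s = x)
    (hmov : ∀ a b c : J, ∃ v : J, NS v ∧ NS (a - v) ∧ NS (b - v) ∧ NS (c - v)) :
    ∀ g : J, ∃ c : ℝ, ∀ p : P, ∃ p₁ : P, g + cl p₁ = cl p ∧ H p₁ ≤ 2 * H p + c :=
  s17tsp_plT act rel H cl hH hex hcl
    (s17tsx_all act rel H hact hmul hinv hex NS hNS hdiv hmov)

end Chain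

end Fermat.Agent.S17
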