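/-
S17 sprint, sub-integration **[PlT]**, **PlT-STAGE, `L`-level family** (helper18): the place form
of (T) on the CLOSED S27-B stage of the modular function field for ANY finite family
`s : ι → L = s27mtL Kb (FF N)` which is base-point-free w.r.t. EVERY choice of local equations of
`Θ_{Ao}` at the generic class `η` — the output shape of BPF-POOL (S17/BpfPool.lean `s17bpl_bpf`,
helper95: `∀ y, (∀ W ⊇ K, S27icIdx … Ao W η (y W)) → S17muBpf K y 2 s`).

* `s17ttl_eq_exists` : local equations of `Θ_{Ao}` at `η` exist along every `W ⊇ K`;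
* **`s17ttl_plT_on`** : `S17t9PlTOn cl H 2 (S17t9NS Ao)`;
* **`s17ttl_plT`**    : `S17hyPlT cl H 4`   (`S17sxStmt 3 4 6`, StageTopNine);
  `cl = s17sxCl N hld hgen hx G₀ hG₀`, `H = s17sxHt s` (S17/StageTop.lean).
-/
import Fermat.Agent.S17.TranslTop

set_option autoImplicit false
set_option linter.unusedVariables false
set_option linter.unusedSectionVars false
set_option linter.style.haveILetI false
set_option linter.style.longLine false

noncomputable section

namespace Fermat.Agent.S17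

open ModularCurve AlgebraicCurve Module TensorProduct IntermediateField
open Fermat.Agent.S24 Fermat.Agent.S26 Fermat.Agent.S27 Fermat.Agent.DEU

section Stage

variable (N : ℕ) [NeZero N] [IsCurveOver Kb (FF N)] [Algebra.EssFiniteType Kb (FF N)]
variable {x : FF N} (hx : Transcendental Kb x)
  [FiniteDimensional ↥(IntermediateField.adjoin Kb {x}) (FF N)]
  [Algebra.IsSeparable ↥(IntermediateField.adjoin Kb {x}) (FF N)]
  (G₀ : Divisor Kb (FF N)) (hG₀ : Divisor.degree G₀ = (genusFF Kb (FF N) : ℤ))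

/-- local equations of `Θ_{Ao}` at `η` exist along every `W ⊇ K` (closed stage). -/
theorem s17ttl_eq_exists (hg : 0 < genusFF Kb (FF N)) (O : Place Kb (FF N))
    (hc : S27cstIsConst x G₀ O) :
    ∃ y : ValuationSubring (s27mtL Kb (FF N)) → s27mtL Kb (FF N),
      ∀ W : ValuationSubring (s27mtL Kb (FF N)), S27IsKValU Kb W →
        S27icIdx (FL := s27mtFL Kb (FF N)) (s27stg_hld Kb (FF N) (s27mtL Kb (FF N)))
          (s27stg_hgen Kb (FF N) (s27mtL Kb (FF N))) hx (s27cstAo G₀ O) W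
          (s27pfCl (s27dclPkg (FL := s27mtFL Kb (FF N))
              (s27stg_hld Kb (FF N) (s27mtL Kb (FF N)))
              (s27stg_hgen Kb (FF N) (s27mtL Kb (FF N))) hx G₀ hG₀)
            (s27pfTaut (K := Kb) (F := FF N) (g := genusFF Kb (FF N))
              (L := s27mtL Kb (FF N)))) (y W) := by
  obtain ⟨q, hq⟩ := s27mp_exists_fam (FL := s27mtFL Kb (FF N))
    (s27stg_hld Kb (FF N) (s27mtL Kb (FF N))) (s27stg_hgen Kb (FF N) (s27mtL Kb (FF N)))
    hx G₀ hG₀
  obtain ⟨y, hy, -⟩ := s17ttp_eq_exists N hx G₀ hG₀ hg O hc q hq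
  exact ⟨y, hy⟩

/-- **[PlT], `L`-level family, non-special translations, `a = 2`.** -/
theorem s17ttl_plT_on (hg : 0 < genusFF Kb (FF N)) (O : Place Kb (FF N))
    (hc : S27cstIsConst x G₀ O)
    {ι : Type} [Fintype ι] (M : ℕ) (s : ι → s27mtL Kb (FF N))
    (hs : ∀ y : ValuationSubring (s27mtL Kb (FF N)) → s27mtL Kb (FF N),
      (∀ W : ValuationSubring (s27mtL Kb (FF N)), S27IsKValU Kb W →
        S27icIdx (FL := s27mtFL Kb (FF N)) (s27stg_hld Kb (FF N) (s27mtL Kb (FF N)))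
          (s27stg_hgen Kb (FF N) (s27mtL Kb (FF N))) hx (s27cstAo G₀ O) W
          (s27pfCl (s27dclPkg (FL := s27mtFL Kb (FF N))
              (s27stg_hld Kb (FF N) (s27mtL Kb (FF N)))
              (s27stg_hgen Kb (FF N) (s27mtL Kb (FF N))) hx G₀ hG₀)
            (s27pfTaut (K := Kb) (F := FF N) (g := genusFF Kb (FF N))
              (L := s27mtL Kb (FF N)))) (y W)) →
      S17muBpf Kb y M s) :
    S17t9PlTOn (s17sxCl N (L := s27mtL Kb (FF N)) (FL := s27mtFL Kb (FF N))
        (s27stg_hld Kb (FF N) (s27mtL Kb (FF N))) (s27stg_hgen Kb (FF N) (s27mtL Kb (FF N)))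
        hx G₀ hG₀)
      (s17sxHt s) 2 (S17t9NS (s27cstAo G₀ O)) := by
  obtain ⟨f₀⟩ := s17ttp_exists_basis hg hc
  obtain ⟨y, hy⟩ := s17ttl_eq_exists N hx G₀ hG₀ hg O hc
  have hX : S17trBpf Kb y M s := fun W hW => hs y hy W hW
  exact s17twr_plT_on N (FL := s27mtFL Kb (FF N)) (s27stg_hld Kb (FF N) (s27mtL Kb (FF N)))
    (s27stg_hgen Kb (FF N) (s27mtL Kb (FF N))) hx G₀ hG₀ hg (s27cstAo G₀ O) hc.bot hc.deg_Ao O f₀
    y hy s M hX _ (fun _ => rfl) _ (fun P α hα => s17sxHt_eq s P α hα)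

/-- **[PlT], `L`-level family, ALL translations, `a = 4`** (`S17sxStmt 3 4 6`). -/
theorem s17ttl_plT (hg : 0 < genusFF Kb (FF N)) (O : Place Kb (FF N))
    (hc : S27cstIsConst x G₀ O)
    {ι : Type} [Fintype ι] (M : ℕ) (s : ι → s27mtL Kb (FF N))
    (hs : ∀ y : ValuationSubring (s27mtL Kb (FF N)) → s27mtL Kb (FF N),
      (∀ W : ValuationSubring (s27mtL Kb (FF N)), S27IsKValU Kb W →
        S27icIdx (FL := s27mtFL Kb (FF N)) (s27stg_hld Kb (FF N) (s27mtL Kb (FF N)))
          (s27stg_hgen Kb (FF N) (s27mtL Kb (FF N))) hx (s27cstAo G₀ O) W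
          (s27pfCl (s27dclPkg (FL := s27mtFL Kb (FF N))
              (s27stg_hld Kb (FF N) (s27mtL Kb (FF N)))
              (s27stg_hgen Kb (FF N) (s27mtL Kb (FF N))) hx G₀ hG₀)
            (s27pfTaut (K := Kb) (F := FF N) (g := genusFF Kb (FF N))
              (L := s27mtL Kb (FF N)))) (y W)) →
      S17muBpf Kb y M s) :
    S17hyPlT (s17sxCl N (L := s27mtL Kb (FF N)) (FL := s27mtFL Kb (FF N))
        (s27stg_hld Kb (FF N) (s27mtL Kb (FF N))) (s27stg_hgen Kb (FF N) (s27mtL Kb (FF N)))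
        hx G₀ hG₀)
      (s17sxHt s) 4 := by
  have h := s17t9_plT_comp (a := 2) (by norm_num) (S17t9NS (s27cstAo G₀ O))
    (s17ttl_plT_on N hx G₀ hG₀ hg O hc M s hs)
    (fun g => s17t9_dec x hx (s27cstAo G₀ O) hc.deg_Ao g)
  have e : ((2 : ℝ) ^ 2) = 4 := by norm_num
  rw [e] at h
  exact h

end Stage

end Fermat.Agent.S17

end
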