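/-
S17 sprint, sub-integration **[PlT]** — **CLOSED** (helper18): on the closed S27-B stage of the
modular function field, the FINITE base-point-free pool family `s : T → L` of PlM-BPF
(S17/CoverBpf.lean `s17cpm_bpf`, helper90; S17/BpfPool.lean, helper95) satisfies the place form of
(T) with `a = 4` — NO hypothesis left.

* **`s17tcz_plT_of_bpf`** : for every finite family `s` with the bpf property of `s17cpm_bpf`,
                            `S17hyPlT cl (s17sxHt s) 4`  (`= s17ttl_plT`, `M = 2`);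
* **`s17tcz_plT`**        : `∃ T s, (∀ D, s D ≠ 0) ∧ (bpf of s, every choice of local equations)
                            ∧ S17hyPlT cl (s17sxHt s) 4 ∧ S17t9PlTOn cl (s17sxHt s) 2 NS`.
-/
import Fermat.Agent.S17.TranslTopL
import Fermat.Agent.S17.CoverBpf

set_option autoImplicit false
set_option linter.unusedVariables false
set_option linter.unusedSectionVars false
set_option linter.style.haveILetI false
set_option linter.style.longLine false

noncomputable section

namespace Fermat.Agent.S17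

open ModularCurve AlgebraicCurve Module TensorProduct IntermediateField
open Fermat.Agent.S24 Fermat.Agent.S26 Fermat.Agent.S27 Fermat.Agent.DEU

section Stage

variable (N : ℕ) [NeZero N] [IsCurveOver Kb (FF N)] [Algebra.EssFiniteType Kb (FF N)]
variable {x : FF N} (hx : Transcendental Kb x)
  [FiniteDimensional ↥(IntermediateField.adjoin Kb {x}) (FF N)]
  [Algebra.IsSeparable ↥(IntermediateField.adjoin Kb {x}) (FF N)]
  (G₀ : Divisor Kb (FF N)) (hG₀ : Divisor.degree G₀ = (genusFF Kb (FF N) : ℤ))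

/-- **[PlT], CLOSED**: the pool family of PlM-BPF satisfies (T) with `a = 4` (and `a = 2` on the
non-special translations). -/
theorem s17tcz_plT (hg : 0 < genusFF Kb (FF N)) (O : Place Kb (FF N))
    (hc : S27cstIsConst x G₀ O) :
    ∃ (T : Finset (Divisor.degZero (K := Kb) (F := FF N))) (s : T → s27mtL Kb (FF N)),
      (∀ D, s D ≠ 0) ∧
      (∀ y : ValuationSubring (s27mtL Kb (FF N)) → s27mtL Kb (FF N),
        (∀ W : ValuationSubring (s27mtL Kb (FF N)), S27IsKValU Kb W →
          S27icIdx (FL := s27mtFL Kb (FF N)) (s27stg_hld Kb (FF N) (s27mtL Kb (FF N)))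
            (s27stg_hgen Kb (FF N) (s27mtL Kb (FF N))) hx (s27cstAo G₀ O) W
            (s27pfCl (s27dclPkg (FL := s27mtFL Kb (FF N))
                (s27stg_hld Kb (FF N) (s27mtL Kb (FF N)))
                (s27stg_hgen Kb (FF N) (s27mtL Kb (FF N))) hx G₀ hG₀)
              (s27pfTaut (K := Kb) (F := FF N) (g := genusFF Kb (FF N))
                (L := s27mtL Kb (FF N)))) (y W)) →
        S17muBpf Kb y 2 s) ∧
      S17hyPlT (s17sxCl N (L := s27mtL Kb (FF N)) (FL := s27mtFL Kb (FF N))
          (s27stg_hld Kb (FF N) (s27mtL Kb (FF N))) (s27stg_hgen Kb (FF N) (s27mtL Kb (FF N)))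
          hx G₀ hG₀) (s17sxHt s) 4 ∧
      S17t9PlTOn (s17sxCl N (L := s27mtL Kb (FF N)) (FL := s27mtFL Kb (FF N))
          (s27stg_hld Kb (FF N) (s27mtL Kb (FF N))) (s27stg_hgen Kb (FF N) (s27mtL Kb (FF N)))
          hx G₀ hG₀) (s17sxHt s) 2 (S17t9NS (s27cstAo G₀ O)) := by
  obtain ⟨T, s, hs0, -, -, hs⟩ := s17cpm_bpf (L := s27mtL Kb (FF N)) (FL := s27mtFL Kb (FF N))
    (s27stg_hld Kb (FF N) (s27mtL Kb (FF N))) (s27stg_hgen Kb (FF N) (s27mtL Kb (FF N)))
    hx G₀ hG₀ hg hc.nonneg (s27cstAo G₀ O) hc.bot hc.deg_Ao O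
  exact ⟨T, s, hs0, hs, s17ttl_plT N hx G₀ hG₀ hg O hc 2 s hs,
    s17ttl_plT_on N hx G₀ hG₀ hg O hc 2 s hs⟩

end Stage

end Fermat.Agent.S17

end
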