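/-
S17 sprint, layer H, [PlT] — **HFIX** (helper50): the stabiliser of the generic class.

Stage of S27-B (`K` algebraically closed of characteristic `0`, `F / K` a curve of genus `g`,
`L` an algebraic closure of `Ω_g = s27gfOm K F g`, `𝔉 = s27gfSym K F g` the field of symmetric
functions), `pkg = s27dclPkg hld hgen hx G₀ hG₀`, `η = cl taut` the generic class,
`β = s27bcBeta` the constant classes.

* `s17tfx_act_affine`  : `actC ρ η = η ⇒ actC ρ (k • η + β c) = k • η + β c`;
* **`s17tfx_perm_gen`**: `actC ρ η = η` and `q` a GENERIC tuple of class `k • η + β c`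
                         ⇒ `∃ π, ∀ i, ρ ∘ q i = q (π i)`  (the tuples of the square are
                         permuted by the stabiliser of `η`: Galois-stable tuples, route (R1));
* `s17tfx_perm`        : the same for the tautological tuple;
* **`s17tfx_fix`**     : `actC ρ η = η ⇒ ρ` fixes the image of `𝔉` in `L`;
* **`s17tfx_stab`**    : `ρ` fixes the image of `𝔉` `⇒ actC ρ η = η`;
* `s17tfx_stab_iff`    : both;
* **`s17tfx_ht`**      : `ρ (s i) = c * s i` for all `i` (`c ≠ 0`) ⇒ the height of `s` at the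
                         place `P ∘ ρ` is the height at `P`;
* `s17tfx_ht_sym`      : `s i` in the image of `𝔉`, `actC ρ η = η` ⇒ the same;
* the formal hypotheses of T6 (`s17tsp_E_of_one`, `s17tsx_main`, `s17tmv_plT`) for
  `act P a := P ∘ a`, `rel a x := (actC a η = η + β x)` : `s17tfx_hact`, `s17tfx_hmul`,
  `s17tfx_hinv`, `s17tfx_hex`, `s17tfx_hcl`, **`s17tfx_hfix`**.
-/
import Fermat.Agent.S17.TranslAut
import Fermat.Agent.S17.CentreBridge
import Fermat.Agent.S17.PlMGlue
import Fermat.Agent.S17.TranslSpec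
import Fermat.Agent.S27.DegExt

set_option autoImplicit false
set_option linter.unusedVariables false
set_option linter.unusedSectionVars false
set_option linter.style.haveILetI false
set_option linter.style.longLine false

noncomputable section

namespace Fermat.Agent.S17

open AlgebraicCurve Module TensorProduct IntermediateField
open Fermat.Agent.S24 Fermat.Agent.S26 Fermat.Agent.S27 Fermat.Agent.DEU

universe u v y x'

section Stage

variable {K : Type u} {F : Type v} [Field K] [IsAlgClosed K] [CharZero K] [Field F] [Algebra K F]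
  [IsCurveOver K F] [Algebra.EssFiniteType K F]
  {L : Type (max u v)} [Field L] [Algebra K L]
  [Algebra (s27gfOm K F (genusFF K F)) L] [IsScalarTower K (s27gfOm K F (genusFF K F)) L]
  [IsAlgClosed L] [Algebra.IsAlgebraic (s27gfOm K F (genusFF K F)) L]
  {FL : Type y} [Field FL] [Algebra K FL] [Algebra F FL] [Algebra L FL]
  [IsScalarTower K F FL] [IsScalarTower K L FL]
  (hld : Function.Injective (s26gspMu K F L FL)) (hgen : S26gspGen K F L FL)
  {x : F} (hx : Transcendental K x)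
  [FiniteDimensional ↥(IntermediateField.adjoin K {x}) F]
  [Algebra.IsSeparable ↥(IntermediateField.adjoin K {x}) F]
  (G₀ : Divisor K F) (hG₀ : Divisor.degree G₀ = (genusFF K F : ℤ))

/-- the stabiliser of `η` fixes the affine classes `k • η + β c`. -/
theorem s17tfx_act_affine (ρ : L ≃ₐ[K] L)
    (hρ : (s27dclPkg hld hgen hx G₀ hG₀).actC ρ
        (s27pfCl (s27dclPkg hld hgen hx G₀ hG₀)
          (s27pfTaut (K := K) (F := F) (g := genusFF K F) (L := L))) =
      s27pfCl (s27dclPkg hld hgen hx G₀ hG₀)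
          (s27pfTaut (K := K) (F := F) (g := genusFF K F) (L := L)))
    (k : ℤ) (c : Pic0 K F) :
    (s27dclPkg hld hgen hx G₀ hG₀).actC ρ
        (k • s27pfCl (s27dclPkg hld hgen hx G₀ hG₀)
            (s27pfTaut (K := K) (F := F) (g := genusFF K F) (L := L)) +
          s27bcBeta hld hgen (s26gspf_hall hx) c) =
      k • s27pfCl (s27dclPkg hld hgen hx G₀ hG₀)
            (s27pfTaut (K := K) (F := F) (g := genusFF K F) (L := L)) +
          s27bcBeta hld hgen (s26gspf_hall hx) c := by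
  rw [map_add, map_zsmul, hρ, s17af_inv hld hgen hx G₀ hG₀ ρ c]

/-- **Galois-stable tuples**: the stabiliser of `η` permutes every generic tuple of class
`k • η + β c`. -/
theorem s17tfx_perm_gen (ρ : L ≃ₐ[K] L)
    (hρ : (s27dclPkg hld hgen hx G₀ hG₀).actC ρ
        (s27pfCl (s27dclPkg hld hgen hx G₀ hG₀)
          (s27pfTaut (K := K) (F := F) (g := genusFF K F) (L := L))) =
      s27pfCl (s27dclPkg hld hgen hx G₀ hG₀)
          (s27pfTaut (K := K) (F := F) (g := genusFF K F) (L := L)))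
    (k : ℤ) (c : Pic0 K F) (q : Fin (genusFF K F) → F →ₐ[K] L) (hq : S27dgGeneric K x q)
    (hcl : s27pfCl (s27dclPkg hld hgen hx G₀ hG₀) q =
      k • s27pfCl (s27dclPkg hld hgen hx G₀ hG₀)
            (s27pfTaut (K := K) (F := F) (g := genusFF K F) (L := L)) +
          s27bcBeta hld hgen (s26gspf_hall hx) c) :
    ∃ π : Equiv.Perm (Fin (genusFF K F)), ∀ i, (ρ : L →ₐ[K] L).comp (q i) = q (π i) := by
  have h1 : s27pfCl (s27dclPkg hld hgen hx G₀ hG₀) (fun i => (ρ : L →ₐ[K] L).comp (q i)) =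
      s27pfCl (s27dclPkg hld hgen hx G₀ hG₀) q := by
    rw [s27pf_cl_comp, hcl, s17tfx_act_affine hld hgen hx G₀ hG₀ ρ hρ k c]
  exact s27dgc_ns (s27dclPkg hld hgen hx G₀ hG₀) q hq _ h1

/-- the stabiliser of `η` permutes the tautological points. -/
theorem s17tfx_perm (ρ : L ≃ₐ[K] L)
    (hρ : (s27dclPkg hld hgen hx G₀ hG₀).actC ρ
        (s27pfCl (s27dclPkg hld hgen hx G₀ hG₀)
          (s27pfTaut (K := K) (F := F) (g := genusFF K F) (L := L))) =
      s27pfCl (s27dclPkg hld hgen hx G₀ hG₀)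
          (s27pfTaut (K := K) (F := F) (g := genusFF K F) (L := L))) :
    ∃ π : Equiv.Perm (Fin (genusFF K F)), ∀ i,
      (ρ : L →ₐ[K] L).comp (s27pfTaut (K := K) (F := F) (g := genusFF K F) (L := L) i) =
        s27pfTaut (K := K) (F := F) (g := genusFF K F) (L := L) (π i) := by
  have h1 : s27pfCl (s27dclPkg hld hgen hx G₀ hG₀)
      (fun i => (ρ : L →ₐ[K] L).comp
        (s27pfTaut (K := K) (F := F) (g := genusFF K F) (L := L) i)) =
      s27pfCl (s27dclPkg hld hgen hx G₀ hG₀)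
        (s27pfTaut (K := K) (F := F) (g := genusFF K F) (L := L)) := by
    rw [s27pf_cl_comp, hρ]
  exact s27dgc_ns (s27dclPkg hld hgen hx G₀ hG₀) _ (s27mp_taut_generic hx) _ h1

/-- **HFIX, field side**: the stabiliser of `η` fixes the image of `𝔉` in `L`. -/
theorem s17tfx_fix (ρ : L ≃ₐ[K] L)
    (hρ : (s27dclPkg hld hgen hx G₀ hG₀).actC ρ
        (s27pfCl (s27dclPkg hld hgen hx G₀ hG₀)
          (s27pfTaut (K := K) (F := F) (g := genusFF K F) (L := L))) =
      s27pfCl (s27dclPkg hld hgen hx G₀ hG₀)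
          (s27pfTaut (K := K) (F := F) (g := genusFF K F) (L := L)))
    (z : s27gfOm K F (genusFF K F)) (hz : z ∈ s27gfSym K F (genusFF K F)) :
    ρ (algebraMap (s27gfOm K F (genusFF K F)) L z) =
      algebraMap (s27gfOm K F (genusFF K F)) L z := by
  obtain ⟨π, hπ⟩ := s17tfx_perm hld hgen hx G₀ hG₀ ρ hρ
  have h3 : (ρ : L →ₐ[K] L).comp (IsScalarTower.toAlgHom K (s27gfOm K F (genusFF K F)) L) =
      (IsScalarTower.toAlgHom K (s27gfOm K F (genusFF K F)) L).comp
        ((s27gfPerm π : s27gfOm K F (genusFF K F) ≃ₐ[K] s27gfOm K F (genusFF K F)) :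
          s27gfOm K F (genusFF K F) →ₐ[K] s27gfOm K F (genusFF K F)) := by
    apply s27dgx_X3 (s27dclFld (K := K) (F := F) (L := L) hx)
    intro i u
    have h1 := congrArg (fun e : F →ₐ[K] L => e u) (hπ i)
    simp only [AlgHom.comp_apply, s27pfTaut_apply] at h1
    show ρ (algebraMap _ L (s27gfIota i u)) = algebraMap _ L (s27gfPerm π (s27gfIota i u))
    rw [s27gfPerm_iota]
    exact h1
  have h4 := congrArg (fun e : s27gfOm K F (genusFF K F) →ₐ[K] L => e z) h3
  simp only [AlgHom.comp_apply] at h4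
  refine h4.trans ?_
  show algebraMap _ L (s27gfPerm π z) = _
  rw [(s27gf_mem_sym.1 hz) π]

/-- **HFIX, converse**: an automorphism which fixes the image of `𝔉` fixes `η`. -/
theorem s17tfx_stab (ρ : L ≃ₐ[K] L)
    (hfix : ∀ z : s27gfOm K F (genusFF K F), z ∈ s27gfSym K F (genusFF K F) →
      ρ (algebraMap (s27gfOm K F (genusFF K F)) L z) =
        algebraMap (s27gfOm K F (genusFF K F)) L z) :
    (s27dclPkg hld hgen hx G₀ hG₀).actC ρ
        (s27pfCl (s27dclPkg hld hgen hx G₀ hG₀)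
          (s27pfTaut (K := K) (F := F) (g := genusFF K F) (L := L))) =
      s27pfCl (s27dclPkg hld hgen hx G₀ hG₀)
          (s27pfTaut (K := K) (F := F) (g := genusFF K F) (L := L)) := by
  obtain ⟨π, hπ⟩ := s27dgx_X2 (s27dclFld (K := K) (F := F) (L := L) hx)
    (IsScalarTower.toAlgHom K (s27gfOm K F (genusFF K F)) L)
    ((ρ : L →ₐ[K] L).comp (IsScalarTower.toAlgHom K (s27gfOm K F (genusFF K F)) L))
    (fun z => (hfix z.1 z.2).symm)
  rw [← s27pf_cl_comp]
  have h2 : (fun i => (ρ : L →ₐ[K] L).comp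
      (s27pfTaut (K := K) (F := F) (g := genusFF K F) (L := L) i)) =
      fun i => s27pfTaut (K := K) (F := F) (g := genusFF K F) (L := L) (π i) := by
    funext i
    apply AlgHom.ext
    intro u
    have h1 := hπ (s27gfIota i u)
    show ρ (algebraMap _ L (s27gfIota i u)) = algebraMap _ L (s27gfIota (π i) u)
    rw [← s27gfPerm_iota π i u]
    exact h1
  rw [h2]
  exact s27pf_cl_perm (s27dclPkg hld hgen hx G₀ hG₀) _ π


/-! ### the formal hypotheses of T6 on the stage -/

/-- **the translation relation**: `ρ` is a translation by the constant class `c`. -/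
def S17tfxRel (ρ : L ≃ₐ[K] L) (c : Pic0 K F) : Prop :=
  (s27dclPkg hld hgen hx G₀ hG₀).actC ρ
      (s27pfCl (s27dclPkg hld hgen hx G₀ hG₀)
        (s27pfTaut (K := K) (F := F) (g := genusFF K F) (L := L))) =
    s27pfCl (s27dclPkg hld hgen hx G₀ hG₀)
        (s27pfTaut (K := K) (F := F) (g := genusFF K F) (L := L)) +
      s27bcBeta hld hgen (s26gspf_hall hx) c

/-- the relation at `0` is the stabiliser of `η`. -/
theorem s17tfx_rel_zero (ρ : L ≃ₐ[K] L) (h : S17tfxRel hld hgen hx G₀ hG₀ ρ 0) :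
    (s27dclPkg hld hgen hx G₀ hG₀).actC ρ
        (s27pfCl (s27dclPkg hld hgen hx G₀ hG₀)
          (s27pfTaut (K := K) (F := F) (g := genusFF K F) (L := L))) =
      s27pfCl (s27dclPkg hld hgen hx G₀ hG₀)
          (s27pfTaut (K := K) (F := F) (g := genusFF K F) (L := L)) := by
  have h' := h
  unfold S17tfxRel at h'
  rw [map_zero, add_zero] at h'
  exact h'

/-- `hex` : every constant class is the shift of a translation. -/
theorem s17tfx_hex (c : Pic0 K F) : ∃ ρ : L ≃ₐ[K] L, S17tfxRel hld hgen hx G₀ hG₀ ρ c :=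
  s17tau_exists (L := L) hld hgen hx G₀ hG₀ c

/-- `hmul` : the shifts add up under composition. -/
theorem s17tfx_hmul (a b : L ≃ₐ[K] L) (c d : Pic0 K F)
    (ha : S17tfxRel hld hgen hx G₀ hG₀ a c) (hb : S17tfxRel hld hgen hx G₀ hG₀ b d) :
    S17tfxRel hld hgen hx G₀ hG₀ (a * b) (c + d) := by
  unfold S17tfxRel at ha hb ⊢
  have e : (fun i => (((a * b : L ≃ₐ[K] L)) : L →ₐ[K] L).comp
      (s27pfTaut (K := K) (F := F) (g := genusFF K F) (L := L) i)) =
      fun i => (a : L →ₐ[K] L).comp ((b : L →ₐ[K] L).comp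
        (s27pfTaut (K := K) (F := F) (g := genusFF K F) (L := L) i)) := by
    funext i
    apply AlgHom.ext
    intro u
    rfl
  rw [← s27pf_cl_comp, e,
    s27pf_cl_comp (s27dclPkg hld hgen hx G₀ hG₀) a
      (fun i => (b : L →ₐ[K] L).comp
        (s27pfTaut (K := K) (F := F) (g := genusFF K F) (L := L) i)),
    s27pf_cl_comp (s27dclPkg hld hgen hx G₀ hG₀) b, hb, map_add, ha,
    s17af_inv hld hgen hx G₀ hG₀ a d, map_add, add_assoc]

/-- `hinv` : the inverse of a translation by `c` is a translation by `-c`. -/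
theorem s17tfx_hinv (a : L ≃ₐ[K] L) (c : Pic0 K F)
    (ha : S17tfxRel hld hgen hx G₀ hG₀ a c) :
    S17tfxRel hld hgen hx G₀ hG₀ a⁻¹ (-c) := by
  obtain ⟨q, hq⟩ := s17af_exists_fam (L := L) hld hgen hx G₀ hG₀
  obtain ⟨hqg, hqc⟩ := hq 1 one_ne_zero (-c)
  rw [one_smul] at hqc
  unfold S17tfxRel at ha ⊢
  -- `a ∘ q` has class `η`
  have h1 : s27pfCl (s27dclPkg hld hgen hx G₀ hG₀) (fun i => (a : L →ₐ[K] L).comp (q 1 (-c) i)) =
      s27pfCl (s27dclPkg hld hgen hx G₀ hG₀)
        (s27pfTaut (K := K) (F := F) (g := genusFF K F) (L := L)) := by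
    rw [s27pf_cl_comp, hqc, map_add, ha, s17af_inv hld hgen hx G₀ hG₀ a (-c), map_neg]
    abel
  obtain ⟨π, hπ⟩ := s27dgc_ns (s27dclPkg hld hgen hx G₀ hG₀) _ (s27mp_taut_generic hx) _ h1
  -- hence `a⁻¹ ∘ taut ∘ π = q`
  have h2 : (fun i => ((a⁻¹ : L ≃ₐ[K] L) : L →ₐ[K] L).comp
      (s27pfTaut (K := K) (F := F) (g := genusFF K F) (L := L) (π i))) = q 1 (-c) := by
    funext i
    apply AlgHom.ext
    intro u
    have h3 := congrArg (fun e : F →ₐ[K] L => e u) (hπ i)
    simp only [AlgHom.comp_apply] at h3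
    show (a⁻¹ : L ≃ₐ[K] L) (s27pfTaut (K := K) (F := F) (g := genusFF K F) (L := L) (π i) u) = _
    rw [← h3]
    show a.symm (a (q 1 (-c) i u)) = _
    exact a.symm_apply_apply _
  rw [← s27pf_cl_comp,
    ← s27pf_cl_perm (s27dclPkg hld hgen hx G₀ hG₀)
      (fun i => ((a⁻¹ : L ≃ₐ[K] L) : L →ₐ[K] L).comp
        (s27pfTaut (K := K) (F := F) (g := genusFF K F) (L := L) i)) π, h2, hqc]

/-- `hact` : the trace is a right action. -/
theorem s17tfx_hact (P : S17plPlace K L) (a b : L ≃ₐ[K] L) :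
    s17pxComap (b : L →ₐ[K] L) (s17pxComap (a : L →ₐ[K] L) P) =
      s17pxComap ((a * b : L ≃ₐ[K] L) : L →ₐ[K] L) P :=
  s17plm_place_ext _ _ rfl (fun z hz hz' => rfl)

/-- `hcl` : the centre of the trace along a translation by `c`. -/
theorem s17tfx_hcl (P : S17plPlace K L) (a : L ≃ₐ[K] L) (c : Pic0 K F)
    (ha : S17tfxRel hld hgen hx G₀ hG₀ a c) :
    s17coCl hld hgen hx G₀ hG₀ (s17pxComap (a : L →ₐ[K] L) P) =
      s17coCl hld hgen hx G₀ hG₀ P + c :=
  s17cb_add hld hgen hx G₀ hG₀ P a c ha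

end Stage

/-! ### the height side -/

section Height

variable {K : Type u} {L : Type v} [Field K] [Field L] [Algebra K L] {ι : Type x'}

/-- the height of `s` at `P ∘ ρ` is the height at `P`, if `ρ` multiplies the tuple `s` by a
nonzero factor. -/
theorem s17tfx_ht (ht : (ι → K) → ℝ)
    (hsc : ∀ (c : K) (v : ι → K), c ≠ 0 → ht (fun i => c * v i) = ht v)
    (ρ : L →ₐ[K] L) (s : ι → L) (c : L) (hc : c ≠ 0) (hρs : ∀ i, ρ (s i) = c * s i)
    (P : S17plPlace K L) :
    s17plmH ht s (s17pxComap ρ P) = s17plmH ht s P := by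
  have e : (fun i => ρ (s i)) = fun i => c * s i := funext hρs
  by_cases hex : ∃ α, S17plIsMin P.W s α
  · obtain ⟨α, hα⟩ := hex
    have hα' : S17plIsMin P.W (fun i => c * s i) α := (s17pl_isMin_scale P.W s α hc).2 hα
    have hβ : S17plIsMin P.W (fun i => ρ (s i)) α := by rw [e]; exact hα'
    rw [s17plmH_comap ρ ht hsc s P α hβ, s17plmH_eq ht hsc s P α hα]
    congr 1
    have h1 : s17plVal P (fun i => ρ (s i)) α hβ = s17plVal P (fun i => c * s i) α hα' := by
      congr 1
    rw [h1, s17pl_val_scale P s α hc hα hα']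
  · have hex' : ¬ ∃ α, S17plIsMin (s17pxComap ρ P).W s α := by
      rintro ⟨α, hα⟩
      apply hex
      have h1 := (s17px_isMin_comap ρ P.W s α).1 hα
      rw [e] at h1
      exact ⟨α, (s17pl_isMin_scale P.W s α hc).1 h1⟩
    unfold s17plmH
    rw [dif_neg hex, dif_neg hex']

end Height

section Stage2

variable {K : Type u} {F : Type v} [Field K] [IsAlgClosed K] [CharZero K] [Field F] [Algebra K F]
  [IsCurveOver K F] [Algebra.EssFiniteType K F]
  {L : Type (max u v)} [Field L] [Algebra K L]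
  [Algebra (s27gfOm K F (genusFF K F)) L] [IsScalarTower K (s27gfOm K F (genusFF K F)) L]
  [IsAlgClosed L] [Algebra.IsAlgebraic (s27gfOm K F (genusFF K F)) L]
  {FL : Type y} [Field FL] [Algebra K FL] [Algebra F FL] [Algebra L FL]
  [IsScalarTower K F FL] [IsScalarTower K L FL]
  (hld : Function.Injective (s26gspMu K F L FL)) (hgen : S26gspGen K F L FL)
  {x : F} (hx : Transcendental K x)
  [FiniteDimensional ↥(IntermediateField.adjoin K {x}) F]
  [Algebra.IsSeparable ↥(IntermediateField.adjoin K {x}) F]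
  (G₀ : Divisor K F) (hG₀ : Divisor.degree G₀ = (genusFF K F : ℤ))
  {ι : Type x'}

/-- **HFIX**: the height of a tuple of SYMMETRIC functions does not change along the stabiliser
of `η`. -/
theorem s17tfx_ht_sym (ht : (ι → K) → ℝ)
    (hsc : ∀ (c : K) (v : ι → K), c ≠ 0 → ht (fun i => c * v i) = ht v)
    (s : ι → L)
    (hs : ∀ i, ∃ z : s27gfOm K F (genusFF K F), z ∈ s27gfSym K F (genusFF K F) ∧
      algebraMap (s27gfOm K F (genusFF K F)) L z = s i)
    (ρ : L ≃ₐ[K] L)
    (hρ : (s27dclPkg hld hgen hx G₀ hG₀).actC ρ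
        (s27pfCl (s27dclPkg hld hgen hx G₀ hG₀)
          (s27pfTaut (K := K) (F := F) (g := genusFF K F) (L := L))) =
      s27pfCl (s27dclPkg hld hgen hx G₀ hG₀)
          (s27pfTaut (K := K) (F := F) (g := genusFF K F) (L := L)))
    (P : S17plPlace K L) :
    s17plmH ht s (s17pxComap (ρ : L →ₐ[K] L) P) = s17plmH ht s P := by
  refine s17tfx_ht ht hsc (ρ : L →ₐ[K] L) s 1 one_ne_zero (fun i => ?_) P
  obtain ⟨z, hz, hzs⟩ := hs i
  rw [one_mul, ← hzs]
  exact s17tfx_fix hld hgen hx G₀ hG₀ ρ hρ z hz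

/-- **`hfix` of T6** (`s17tsp_E_of_one`) on the stage. -/
theorem s17tfx_hfix (ht : (ι → K) → ℝ)
    (hsc : ∀ (c : K) (v : ι → K), c ≠ 0 → ht (fun i => c * v i) = ht v)
    (s : ι → L)
    (hs : ∀ i, ∃ z : s27gfOm K F (genusFF K F), z ∈ s27gfSym K F (genusFF K F) ∧
      algebraMap (s27gfOm K F (genusFF K F)) L z = s i) :
    ∀ ρ : L ≃ₐ[K] L, S17tfxRel hld hgen hx G₀ hG₀ ρ 0 → ∀ P : S17plPlace K L,
      s17plmH ht s (s17pxComap (ρ : L →ₐ[K] L) P) = s17plmH ht s P :=
  fun ρ hρ P => s17tfx_ht_sym hld hgen hx G₀ hG₀ ht hsc s hs ρ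
    (s17tfx_rel_zero hld hgen hx G₀ hG₀ ρ hρ) P

/-- **T6 with HFIX**: the two-sided estimate for ONE pair of translations by `± g` is the
estimate `S17tspE` (all pairs). -/
theorem s17tfx_E_of_one (ht : (ι → K) → ℝ)
    (hsc : ∀ (c : K) (v : ι → K), c ≠ 0 → ht (fun i => c * v i) = ht v)
    (s : ι → L)
    (hs : ∀ i, ∃ z : s27gfOm K F (genusFF K F), z ∈ s27gfSym K F (genusFF K F) ∧
      algebraMap (s27gfOm K F (genusFF K F)) L z = s i)
    (g : Pic0 K F) (a b : L ≃ₐ[K] L)
    (ha : S17tfxRel hld hgen hx G₀ hG₀ a g) (hb : S17tfxRel hld hgen hx G₀ hG₀ b (-g))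
    (C : ℝ)
    (hC : ∀ P : S17plPlace K L,
      |s17plmH ht s (s17pxComap (a : L →ₐ[K] L) P) + s17plmH ht s (s17pxComap (b : L →ₐ[K] L) P)
        - 2 * s17plmH ht s P| ≤ C) :
    S17tspE (fun (P : S17plPlace K L) (ρ : L ≃ₐ[K] L) => s17pxComap (ρ : L →ₐ[K] L) P)
      (S17tfxRel hld hgen hx G₀ hG₀) (s17plmH ht s) g :=
  s17tsp_E_of_one _ _ _
    (fun P a b => s17tfx_hact P a b)
    (fun a b c d ha hb => s17tfx_hmul hld hgen hx G₀ hG₀ a b c d ha hb)
    (fun a c ha => s17tfx_hinv hld hgen hx G₀ hG₀ a c ha)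
    (s17tfx_hfix hld hgen hx G₀ hG₀ ht hsc s hs)
    g a b ha hb C hC

end Stage2

end Fermat.Agent.S17

end
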