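/-
S17 sprint, layer H, [PlT] — **the moving hypothesis `hmov` of T6-without-MOVE-2** (helper94).

`K` algebraically closed, `F / K` a function field of one variable, `Ao` a divisor of degree
`g − 1`.  `S17tmvNS Ao x` : the class `x` is NON-SPECIAL for the square: `x` and `−x` are off
`Θ_{Ao}` (`L(Ao − X) = L(Ao + X) = 0` for the representatives `X` of `x`).

* `s17tmv_ns_iff`  : `S17tmvNS Ao [D] ↔ L(Ao − D) = ⊥ ∧ L(Ao + D) = ⊥`;
* `s17tmv_ns_neg`  : `NS` is symmetric;
* `s17tmv_hmov`    : **`∀ a b c, ∃ v, NS v ∧ NS (a − v) ∧ NS (b − v) ∧ NS (c − v)`** — the hypothesis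
                     `hmov` of `s17tsx_main` (S17/TranslChain.lean), from the moving lemma
                     `s17mvc_exists_fin` (S17/MoveCls.lean) for the six classes `±a`, `±b`, `±c`;
* `s17tmv_hmov_fin`: the same for finitely many classes;
* `s17tmv_main`    : T6 on `Pic0 K F` from the square at the non-special classes and
                     2-divisibility;
* `s17tmv_plT`     : the place form (T), `a = 2`.
-/
import Fermat.Agent.S17.MoveCls
import Fermat.Agent.S17.TranslChain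

set_option autoImplicit false
set_option linter.unusedVariables false
set_option linter.unusedSectionVars false
set_option linter.style.haveILetI false

noncomputable section

namespace Fermat.Agent.S17

open AlgebraicCurve Module IntermediateField Fermat.Agent.S26 Fermat.Agent.S27

variable {K : Type*} {F : Type*} [Field K] [Field F] [Algebra K F]

/-- the class `x` is non-special for the square: `x` and `-x` are off `Θ_{Ao}`. -/
def S17tmvNS (Ao : Divisor K F) (x : Pic0 K F) : Prop :=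
  S17mvcOff Ao x ∧ S17mvcOff Ao (-x)

theorem s17tmv_ns_neg (Ao : Divisor K F) (x : Pic0 K F) (h : S17tmvNS Ao x) :
    S17tmvNS Ao (-x) :=
  ⟨h.2, by rw [neg_neg]; exact h.1⟩

theorem s17tmv_ns_iff (Ao : Divisor K F) (D : Divisor.degZero (K := K) (F := F)) :
    S17tmvNS Ao (Pic0.mk D) ↔
      riemannRochSpace (Ao - (D : Divisor K F)) = ⊥ ∧
        riemannRochSpace (Ao + (D : Divisor K F)) = ⊥ := by
  have hneg : -(Pic0.mk D : Pic0 K F) = Pic0.mk (-D) := rfl
  have e : Ao - ((-D : Divisor.degZero (K := K) (F := F)) : Divisor K F) =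
      Ao + (D : Divisor K F) := by
    rw [AddSubgroup.coe_neg]
    abel
  unfold S17tmvNS
  rw [hneg, s17mvc_off_iff, s17mvc_off_iff, e]

section AlgClosed

variable [IsAlgClosed K] (x : F) (hx : Transcendental K x) [FiniteDimensional K⟮x⟯ F]

include hx

/-- **the moving hypothesis, finitely many classes.** -/
theorem s17tmv_hmov_fin {ι : Type*} [Fintype ι] (Ao : Divisor K F)
    (hAo : Divisor.degree Ao = (genusFF K F : ℤ) - 1) (c : ι → Pic0 K F) :
    ∃ v : Pic0 K F, S17tmvNS Ao v ∧ ∀ i, S17tmvNS Ao (c i - v) := by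
  obtain ⟨D, -, h1, h2, h⟩ := s17mvc_exists_fin x hx Ao hAo
    (fun o : ι ⊕ ι => Sum.elim c (fun i => -c i) o) ∅
  refine ⟨Pic0.mk D, (s17tmv_ns_iff Ao D).2 ⟨h1, h2⟩, fun i => ⟨?_, ?_⟩⟩
  · exact (h (Sum.inl i)).2
  · have := (h (Sum.inr i)).1
    simp only [Sum.elim_inr] at this
    have e : -(c i - Pic0.mk D) = -c i + Pic0.mk D := by abel
    rw [e]
    exact this

/-- **the moving hypothesis `hmov` of `s17tsx_main`.** -/
theorem s17tmv_hmov (Ao : Divisor K F)
    (hAo : Divisor.degree Ao = (genusFF K F : ℤ) - 1) (a b c : Pic0 K F) :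
    ∃ v : Pic0 K F, S17tmvNS Ao v ∧ S17tmvNS Ao (a - v) ∧ S17tmvNS Ao (b - v) ∧
      S17tmvNS Ao (c - v) := by
  obtain ⟨v, hv, h⟩ := s17tmv_hmov_fin x hx Ao hAo (fun i : Fin 3 => ![a, b, c] i)
  exact ⟨v, hv, h 0, h 1, h 2⟩

/-- **T6 on `Pic0 K F`**: the two-sided estimate at the non-special classes + 2-divisibility
give the two-sided estimate at ALL classes. -/
theorem s17tmv_main {G P : Type*} [Group G] (Ao : Divisor K F)
    (hAo : Divisor.degree Ao = (genusFF K F : ℤ) - 1)
    (act : P → G → P) (rel : G → Pic0 K F → Prop) (H : P → ℝ)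
    (hact : ∀ (p : P) (a b : G), act (act p a) b = act p (a * b))
    (hmul : ∀ (a b : G) (y z : Pic0 K F), rel a y → rel b z → rel (a * b) (y + z))
    (hinv : ∀ (a : G) (y : Pic0 K F), rel a y → rel a⁻¹ (-y))
    (hex : ∀ y : Pic0 K F, ∃ a : G, rel a y)
    (hNS : ∀ g, S17tmvNS Ao g → S17tspE act rel H g)
    (hdiv : ∀ y : Pic0 K F, ∃ s : Pic0 K F, s + s = y)
    (g : Pic0 K F) : S17tspE act rel H g :=
  s17tsx_main act rel H hact hmul hinv hex (S17tmvNS Ao) hNS hdiv
    (s17tmv_hmov x hx Ao hAo) g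

/-- **the place form (T)**, `a = 2`, on `Pic0 K F`. -/
theorem s17tmv_plT {G P : Type*} [Group G] (Ao : Divisor K F)
    (hAo : Divisor.degree Ao = (genusFF K F : ℤ) - 1)
    (act : P → G → P) (rel : G → Pic0 K F → Prop) (H : P → ℝ) (cl : P → Pic0 K F)
    (hH : ∀ p, 0 ≤ H p)
    (hact : ∀ (p : P) (a b : G), act (act p a) b = act p (a * b))
    (hmul : ∀ (a b : G) (y z : Pic0 K F), rel a y → rel b z → rel (a * b) (y + z))
    (hinv : ∀ (a : G) (y : Pic0 K F), rel a y → rel a⁻¹ (-y))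
    (hex : ∀ y : Pic0 K F, ∃ a : G, rel a y)
    (hcl : ∀ (p : P) (a : G) (y : Pic0 K F), rel a y → cl (act p a) = cl p + y)
    (hNS : ∀ g, S17tmvNS Ao g → S17tspE act rel H g)
    (hdiv : ∀ y : Pic0 K F, ∃ s : Pic0 K F, s + s = y) :
    ∀ g : Pic0 K F, ∃ c : ℝ, ∀ p : P, ∃ p₁ : P, g + cl p₁ = cl p ∧ H p₁ ≤ 2 * H p + c :=
  s17tsx_plT act rel H cl hH hact hmul hinv hex hcl (S17tmvNS Ao) hNS hdiv
    (s17tmv_hmov x hx Ao hAo)

end AlgClosed

end Fermat.Agent.S17

end
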