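/-
S17 sprint, layer H, [PlT] — **crude (T) with `a = 4`, formal** (helper38).

Fallback for T6 (`S17/TranslSpec.lean`, helper50): `s17tsp_main` needs every shift `g` to be
`u + v` with `u`, `v` AND `u − v` non-special; `u − v = 2u − g` is a DOUBLING condition which the
moving lemmas on main (translates of `Θ` only) do not give.  Here only `g = u + v` with `u`, `v`
non-special is used (this is `s17mvc_exists_fin`), at the price of the constant `4` instead of `2`:

  `H (p ∘ a_u) ≤ 2 H p + C_u`,  `H (p ∘ a_u ∘ a_v) ≤ 2 H (p ∘ a_u) + C_v ≤ 4 H p + 2 C_u + C_v`.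

With `a = 4` the top `s17hy_fg_places N m 4 b` needs `16 < b`, e.g. `m = 7`, `b = 28`
(one theta divisor, `b = (m² + m) / 2`) or `m = 5`, `b = 25` (symmetric height).

* `s17tsq_upper4_of_upper` : from the ONE-SIDED upper bounds at non-special shifts;
* `s17tsq_upper4`          : from `S17tspE` at non-special shifts;
* `s17tsq_plT4_of_upper`, `s17tsq_plT4` : the place form (T) of `S17/HTopAB.lean` with `a = 4`.
Pure Mathlib (+ the definition `S17tspE`).
-/
import Fermat.Agent.S17.TranslSpec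

set_option autoImplicit false
set_option linter.unusedVariables false
set_option linter.unusedSectionVars false
set_option linter.style.longLine false

namespace Fermat.Agent.S17

section Formal4

variable {G P J : Type*} [Group G] [AddCommGroup J]

/-- crude (T), from one-sided upper bounds at the non-special shifts. -/
theorem s17tsq_upper4_of_upper (act : P → G → P) (rel : G → J → Prop) (H : P → ℝ)
    (hact : ∀ (p : P) (a b : G), act (act p a) b = act p (a * b))
    (hmul : ∀ (a b : G) (x y : J), rel a x → rel b y → rel (a * b) (x + y))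
    (NS : J → Prop)
    (hNS : ∀ g, NS g → ∃ (C : ℝ) (a : G), rel a g ∧ ∀ p : P, H (act p a) ≤ 2 * H p + C)
    (hsplit2 : ∀ g : J, ∃ u v : J, u + v = g ∧ NS u ∧ NS v)
    (g : J) : ∃ (C : ℝ) (a : G), rel a g ∧ ∀ p : P, H (act p a) ≤ 4 * H p + C := by
  obtain ⟨u, v, huv, hu, hv⟩ := hsplit2 g
  obtain ⟨Cu, au, hau, hCu⟩ := hNS u hu
  obtain ⟨Cv, av, hav, hCv⟩ := hNS v hv
  refine ⟨2 * Cu + Cv, au * av, ?_, fun p => ?_⟩
  · rw [← huv]
    exact hmul au av u v hau hav
  · have h1 := hCu p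
    have h2 := hCv (act p au)
    rw [hact] at h2
    linarith

/-- crude (T), from the two-sided estimate `S17tspE` at the non-special shifts. -/
theorem s17tsq_upper4 (act : P → G → P) (rel : G → J → Prop) (H : P → ℝ)
    (hH : ∀ p, 0 ≤ H p)
    (hact : ∀ (p : P) (a b : G), act (act p a) b = act p (a * b))
    (hmul : ∀ (a b : G) (x y : J), rel a x → rel b y → rel (a * b) (x + y))
    (hex : ∀ x : J, ∃ a : G, rel a x)
    (NS : J → Prop) (hNS : ∀ g, NS g → S17tspE act rel H g)
    (hsplit2 : ∀ g : J, ∃ u v : J, u + v = g ∧ NS u ∧ NS v)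
    (g : J) : ∃ (C : ℝ) (a : G), rel a g ∧ ∀ p : P, H (act p a) ≤ 4 * H p + C := by
  refine s17tsq_upper4_of_upper act rel H hact hmul NS (fun x hx => ?_) hsplit2 g
  obtain ⟨C, hC⟩ := s17tsp_upper act rel H hH x (hex (-x)) (hNS x hx)
  obtain ⟨a, ha⟩ := hex x
  exact ⟨C, a, ha, hC a ha⟩

/-- **the place form of (T) with `a = 4`**, from one-sided upper bounds at non-special shifts. -/
theorem s17tsq_plT4_of_upper (act : P → G → P) (rel : G → J → Prop) (H : P → ℝ) (cl : P → J)
    (hact : ∀ (p : P) (a b : G), act (act p a) b = act p (a * b))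
    (hmul : ∀ (a b : G) (x y : J), rel a x → rel b y → rel (a * b) (x + y))
    (hcl : ∀ (p : P) (a : G) (x : J), rel a x → cl (act p a) = cl p + x)
    (NS : J → Prop)
    (hNS : ∀ g, NS g → ∃ (C : ℝ) (a : G), rel a g ∧ ∀ p : P, H (act p a) ≤ 2 * H p + C)
    (hsplit2 : ∀ g : J, ∃ u v : J, u + v = g ∧ NS u ∧ NS v) :
    ∀ g : J, ∃ c : ℝ, ∀ p : P, ∃ p₁ : P, g + cl p₁ = cl p ∧ H p₁ ≤ 4 * H p + c := by
  intro g
  obtain ⟨C, a, ha, hC⟩ := s17tsq_upper4_of_upper act rel H hact hmul NS hNS hsplit2 (-g)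
  refine ⟨C, fun p => ⟨act p a, ?_, hC p⟩⟩
  rw [hcl p a (-g) ha]
  abel

/-- **the place form of (T) with `a = 4`**, from `S17tspE` at non-special shifts. -/
theorem s17tsq_plT4 (act : P → G → P) (rel : G → J → Prop) (H : P → ℝ) (cl : P → J)
    (hH : ∀ p, 0 ≤ H p)
    (hact : ∀ (p : P) (a b : G), act (act p a) b = act p (a * b))
    (hmul : ∀ (a b : G) (x y : J), rel a x → rel b y → rel (a * b) (x + y))
    (hex : ∀ x : J, ∃ a : G, rel a x)
    (hcl : ∀ (p : P) (a : G) (x : J), rel a x → cl (act p a) = cl p + x)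
    (NS : J → Prop) (hNS : ∀ g, NS g → S17tspE act rel H g)
    (hsplit2 : ∀ g : J, ∃ u v : J, u + v = g ∧ NS u ∧ NS v) :
    ∀ g : J, ∃ c : ℝ, ∀ p : P, ∃ p₁ : P, g + cl p₁ = cl p ∧ H p₁ ≤ 4 * H p + c := by
  intro g
  obtain ⟨C, a, ha, hC⟩ := s17tsq_upper4 act rel H hH hact hmul hex NS hNS hsplit2 (-g)
  refine ⟨C, fun p => ⟨act p a, ?_, hC p⟩⟩
  rw [hcl p a (-g) ha]
  abel

end Formal4

end Fermat.Agent.S17
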