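/-
S17 sprint, layer H, design A, [PlT] leaf **T6′ — SPECIAL `g`, LINEAR form** (helper58), formal
(reals only).  Variant of `S17/TranslSpec.lean`: the existence hypothesis is LINEAR in the auxiliary
class `a` (no doubling), so that it is literally of the MOVING-RR shape (`s17mrr_main`:
finitely many conditions `L(D_i + M) = ⊥`, `L(D_j − M) = ⊥`).

`J` an abelian group, `P` a type ("places"), `H : P → ℝ`, `tr : J → P → P` ("`tr g p = p ∘ ρ_g`").

  `S17tslE H tr g` : `∃ C, ∀ p, |H (tr g p) + H (tr (−g) p) − 2 · H p| ≤ C`     (the square at `g`).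

* `s17tsl_step` : `E(a)`, `E(g + a)`, `E(g − a)` + `H (tr b (tr a p)) = H (tr (a + b) p)` ⇒ `E(g)`;
* **`s17tsl_all`** : `E` on `NS` + (`∀ g, ∃ a, NS a ∧ NS (g + a) ∧ NS (g − a)`) ⇒ `E(g)` for ALL `g`;
* `s17tsl_le`   : `E(g)` and `0 ≤ H` ⇒ `∃ C, ∀ p, H (tr g p) ≤ 2 · H p + C`;
* **`s17tsl_plT`** : the shape of `S17hxPlT`: with `cl (tr γ p) = cl p + γ`,
                  `∀ g, ∃ c, ∀ p, ∃ p₁, g + cl p₁ = cl p ∧ H p₁ ≤ 2 * H p + c`.

Proof of the step (`H(x) := H (tr x p)`):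
  `E(a)` at the place `tr g p`    : `H(g + a) + H(g − a) = 2 H(g) ± C_a`,
  `E(a)` at the place `tr (−g) p` : `H(−g + a) + H(−g − a) = 2 H(−g) ± C_a`,
  `E(g + a)`, `E(g − a)` at `p`   : `H(g + a) + H(−g − a) = 2 H ± C₁`, `H(g − a) + H(−g + a) = 2 H ± C₂`,
  hence `2 (H(g) + H(−g)) = 4 H ± (C₁ + C₂ + 2 C_a)`.

Pure Mathlib.
-/
import Mathlib

set_option autoImplicit false
set_option linter.unusedVariables false
set_option linter.unusedSectionVars false

namespace Fermat.Agent.S17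

section SpecLin

variable {J P : Type*} [AddCommGroup J]

/-- **the square at `g`**: `|H (tr g p) + H (tr (−g) p) − 2 H p| ≤ C` for all places `p`. -/
def S17tslE (H : P → ℝ) (tr : J → P → P) (g : J) : Prop :=
  ∃ C : ℝ, ∀ p : P, |H (tr g p) + H (tr (-g) p) - 2 * H p| ≤ C

/-- **the step, linear form**: the squares at `a`, `g + a`, `g − a` give the square at `g`. -/
theorem s17tsl_step (H : P → ℝ) (tr : J → P → P)
    (hcomp : ∀ (a b : J) (p : P), H (tr b (tr a p)) = H (tr (a + b) p))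
    (g a : J) (ha : S17tslE H tr a) (h1 : S17tslE H tr (g + a))
    (h2 : S17tslE H tr (g - a)) : S17tslE H tr g := by
  obtain ⟨Ca, hCa⟩ := ha
  obtain ⟨C1, hC1⟩ := h1
  obtain ⟨C2, hC2⟩ := h2
  refine ⟨(C1 + C2 + 2 * Ca) / 2, fun p => ?_⟩
  -- the square at `a`, at the places `tr g p` and `tr (−g) p`
  have e1 := hCa (tr g p)
  have e2 := hCa (tr (-g) p)
  rw [hcomp, hcomp] at e1 e2
  have i1 : g + -a = g - a := by abel
  have i2 : -g + a = -(g - a) := by abel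
  have i3 : -g + -a = -(g + a) := by abel
  rw [i1] at e1
  rw [i2, i3] at e2
  have e3 := hC1 p
  have e4 := hC2 p
  rw [abs_le] at e1 e2 e3 e4 ⊢
  constructor <;> linarith [e1.1, e1.2, e2.1, e2.2, e3.1, e3.2, e4.1, e4.2]

/-- **T6′**: the square on the non-special classes gives the square at ALL classes, if every `g`
has an `a` with `a`, `g + a`, `g − a` non-special. -/
theorem s17tsl_all (H : P → ℝ) (tr : J → P → P)
    (hcomp : ∀ (a b : J) (p : P), H (tr b (tr a p)) = H (tr (a + b) p))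
    (NS : J → Prop) (hE : ∀ g, NS g → S17tslE H tr g)
    (hex : ∀ g : J, ∃ a : J, NS a ∧ NS (g + a) ∧ NS (g - a)) (g : J) :
    S17tslE H tr g := by
  obtain ⟨a, ha, h1, h2⟩ := hex g
  exact s17tsl_step H tr hcomp g a (hE a ha) (hE _ h1) (hE _ h2)

/-- the one-sided bound from the square (`0 ≤ H`). -/
theorem s17tsl_le (H : P → ℝ) (tr : J → P → P) (hH : ∀ p, 0 ≤ H p) (g : J)
    (h : S17tslE H tr g) : ∃ C : ℝ, ∀ p : P, H (tr g p) ≤ 2 * H p + C := by
  obtain ⟨C, hC⟩ := h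
  refine ⟨C, fun p => ?_⟩
  have h1 := (abs_le.1 (hC p)).2
  have h2 := hH (tr (-g) p)
  linarith

/-- **[PlT] in the shape of `S17hxPlT`** (`S17/HTop.lean`), linear existence hypothesis. -/
theorem s17tsl_plT (H : P → ℝ) (tr : J → P → P) (cl : P → J) (hH : ∀ p, 0 ≤ H p)
    (hcl : ∀ (γ : J) (p : P), cl (tr γ p) = cl p + γ)
    (hcomp : ∀ (a b : J) (p : P), H (tr b (tr a p)) = H (tr (a + b) p))
    (NS : J → Prop) (hE : ∀ g, NS g → S17tslE H tr g)
    (hex : ∀ g : J, ∃ a : J, NS a ∧ NS (g + a) ∧ NS (g - a)) :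
    ∀ g : J, ∃ c : ℝ, ∀ p : P, ∃ p₁ : P, g + cl p₁ = cl p ∧ H p₁ ≤ 2 * H p + c := by
  intro g
  obtain ⟨C, hC⟩ := s17tsl_le H tr hH (-g) (s17tsl_all H tr hcomp NS hE hex (-g))
  refine ⟨C, fun p => ⟨tr (-g) p, ?_, hC p⟩⟩
  rw [hcl]
  abel

/-- the same with the constant as a function of `g`. -/
theorem s17tsl_plT' (H : P → ℝ) (tr : J → P → P) (cl : P → J) (hH : ∀ p, 0 ≤ H p)
    (hcl : ∀ (γ : J) (p : P), cl (tr γ p) = cl p + γ)
    (hcomp : ∀ (a b : J) (p : P), H (tr b (tr a p)) = H (tr (a + b) p))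
    (NS : J → Prop) (hE : ∀ g, NS g → S17tslE H tr g)
    (hex : ∀ g : J, ∃ a : J, NS a ∧ NS (g + a) ∧ NS (g - a)) :
    ∃ c : J → ℝ, ∀ (g : J) (p : P), ∃ p₁ : P, g + cl p₁ = cl p ∧ H p₁ ≤ 2 * H p + c g := by
  have h := s17tsl_plT H tr cl hH hcl hcomp NS hE hex
  choose c hc using h
  exact ⟨c, hc⟩

/-- the weak form: only the UPPER half of the square on `NS` is not enough for the step, but the
upper bound at `g` needs the LOWER bounds at `g ± a` only through `E(a)`; we record the exact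
inequality used: `H(g) ≤ 2 H + C` from `E(a)` (two-sided) and the upper halves at `g ± a`. -/
theorem s17tsl_step_upper (H : P → ℝ) (tr : J → P → P) (hH : ∀ p, 0 ≤ H p)
    (hcomp : ∀ (a b : J) (p : P), H (tr b (tr a p)) = H (tr (a + b) p))
    (g a : J) (ha : S17tslE H tr a)
    (h1 : ∃ C, ∀ p, H (tr (g + a) p) ≤ 2 * H p + C)
    (h2 : ∃ C, ∀ p, H (tr (g - a) p) ≤ 2 * H p + C) :
    ∃ C : ℝ, ∀ p : P, H (tr g p) ≤ 2 * H p + C := by
  obtain ⟨Ca, hCa⟩ := ha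
  obtain ⟨C1, hC1⟩ := h1
  obtain ⟨C2, hC2⟩ := h2
  refine ⟨(C1 + C2 + Ca) / 2, fun p => ?_⟩
  have e1 := hCa (tr g p)
  rw [hcomp, hcomp] at e1
  have i1 : g + -a = g - a := by abel
  rw [i1] at e1
  rw [abs_le] at e1
  linarith [e1.1, e1.2, hC1 p, hC2 p]

end SpecLin

end Fermat.Agent.S17
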