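/-
S17 sprint, layer H, PlN leaf **U1, place side, RULING A** (helper65): `b = B(+1) = β`, the local
equation of `Θ_{Ao}` at `η`; Northcott is run for `−cl` (helper77's S17/PlNNeg.lean).

Stage with `K = ℚ̄`, `F = FF N`, constants `(x, G₀, O″ := ∞ = cuspInf N)`: `Ao = G₀ − ∞`,
`δ = [G₀ − g·∞] = s17u1Delta N G₀`, `cl P = s17coCl … P = sp_P η = s17ch2Centre … P`.

* `s17u1_coCl_eq`    : `s17coCl … P = s17ch2Centre … P` (the two centre maps agree);
* `s17u1_off_eta`    : `S17poGood N (−cl P + δ)` ⇒ `S17mvcOff Ao (s17ch2Centre … P)`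
                       (`x_P` is off `Θ_{Ao}`; K-side `s17u1_off`);
* **`s17u1_unit_eta`** : then EVERY local equation `z` of `Θ_{Ao}` at `η` along `P.W`
                       (`S27icIdx … Ao P.W η z`) is a UNIT of `P.W` (helper8's `s17mce_unit_eta`);
* **`s17u1_vis_eta`**  : hence every `a : L` with `a · z ^ m ∈ P.W` lies in `P.W`: the tuple `s`
                       (`S17trBpf Kb y m s` / `s27LU`) is REGULAR at the GOOD places, which is the
                       hypothesis `hα : s α ∈ P.W` of helper48's `s17n3_good` (S17/ChowGood.lean).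
-/
import Fermat.Agent.S17.UOne
import Fermat.Agent.S17.MoveCen
import Fermat.Agent.S17.CentreOnto

set_option autoImplicit false
set_option linter.unusedSectionVars false
set_option linter.unusedVariables false
set_option linter.style.haveILetI false
set_option linter.style.longLine false

noncomputable section

namespace Fermat.Agent.S17

open ModularCurve AlgebraicCurve Module TensorProduct IntermediateField
open Fermat.Agent.S24 Fermat.Agent.S26 Fermat.Agent.S27 Fermat.Agent.DEU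
open Fermat.Agent.ES.M Fermat.Agent.ES.H Fermat.Agent.S15 Fermat.Agent.ES.R

universe y

section Stage

variable (N : ℕ) [NeZero N] [IsCurveOver Kb (FF N)] [Algebra.EssFiniteType Kb (FF N)]
  {L : Type} [Field L] [Algebra Kb L]
  [Algebra (s27gfOm Kb (FF N) (genusFF Kb (FF N))) L]
  [IsScalarTower Kb (s27gfOm Kb (FF N) (genusFF Kb (FF N))) L]
  [IsAlgClosed L] [Algebra.IsAlgebraic (s27gfOm Kb (FF N) (genusFF Kb (FF N))) L]
  {FL : Type y} [Field FL] [Algebra Kb FL] [Algebra (FF N) FL] [Algebra L FL]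
  [IsScalarTower Kb (FF N) FL] [IsScalarTower Kb L FL]
  (hld : Function.Injective (s26gspMu Kb (FF N) L FL)) (hgen : S26gspGen Kb (FF N) L FL)
  {x : FF N} (hx : Transcendental Kb x)
  [FiniteDimensional ↥(IntermediateField.adjoin Kb {x}) (FF N)]
  [Algebra.IsSeparable ↥(IntermediateField.adjoin Kb {x}) (FF N)]
  [IsGalois (s27gfSym Kb (FF N) (genusFF Kb (FF N))) L]
  (G₀ : Divisor Kb (FF N)) (hG₀ : Divisor.degree G₀ = (genusFF Kb (FF N) : ℤ))

/-- the two centre maps agree. -/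
theorem s17u1_coCl_eq (P : S17plPlace Kb L) :
    s17coCl hld hgen hx G₀ hG₀ P = s17ch2Centre (L := L) hx G₀ hG₀ P :=
  s17coCl_eq hld hgen hx G₀ hG₀ P (s17ch2CentrePl hx P) (s17ch2CentrePl_spec hx P)

/-- GOOD ⇒ the centre is off `Θ_{Ao}`, `Ao = G₀ − ∞`. -/
theorem s17u1_off_eta (P : S17plPlace Kb L)
    (hgood : S17poGood N (-(s17coCl hld hgen hx G₀ hG₀ P) + s17u1Delta N G₀)) :
    S17mvcOff (s27cstAo G₀ (cuspInf N)) (s17ch2Centre (L := L) hx G₀ hG₀ P) := by
  have h := s17u1_off N G₀ hG₀ (-(s17coCl hld hgen hx G₀ hG₀ P)) hgood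
  rw [neg_neg, s17u1_coCl_eq N hld hgen hx G₀ hG₀ P] at h
  exact h

/-- **U1 (ruling A)**: at a place with `S17poGood N (−cl P + δ)` every local equation of
`Θ_{Ao}` at `η` along `P.W` is a UNIT of `P.W`. -/
theorem s17u1_unit_eta (hG0 : 0 ≤ G₀)
    (hAo : riemannRochSpace (s27cstAo G₀ (cuspInf N)) = ⊥)
    (hAod : Divisor.degree (s27cstAo G₀ (cuspInf N)) = (genusFF Kb (FF N) : ℤ) - 1)
    (P : S17plPlace Kb L)
    (hgood : S17poGood N (-(s17coCl hld hgen hx G₀ hG₀ P) + s17u1Delta N G₀))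
    (z : L)
    (hz : S27icIdx hld hgen hx (s27cstAo G₀ (cuspInf N)) P.W
      (s27pfCl (s27dclPkg hld hgen hx G₀ hG₀)
        (s27pfTaut (K := Kb) (F := FF N) (g := genusFF Kb (FF N)) (L := L))) z) :
    S27IsUnitIn P.W z :=
  s17mce_unit_eta hld hgen hx G₀ hG₀ hG0 (s27cstAo G₀ (cuspInf N)) hAo hAod P
    (s17u1_off_eta N hld hgen hx G₀ hG₀ P hgood) z hz

/-- the same from the stage constants `S27cstIsConst x G₀ ∞`. -/
theorem s17u1_unit_eta_const (hc : S27cstIsConst x G₀ (cuspInf N))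
    (P : S17plPlace Kb L)
    (hgood : S17poGood N (-(s17coCl hld hgen hx G₀ hG₀ P) + s17u1Delta N G₀))
    (z : L)
    (hz : S27icIdx hld hgen hx (s27cstAo G₀ (cuspInf N)) P.W
      (s27pfCl (s27dclPkg hld hgen hx G₀ hG₀)
        (s27pfTaut (K := Kb) (F := FF N) (g := genusFF Kb (FF N)) (L := L))) z) :
    S27IsUnitIn P.W z :=
  s17u1_unit_eta N hld hgen hx G₀ hG₀ hc.nonneg hc.bot hc.deg_Ao P hgood z hz

/-- **regularity at the GOOD places**: `a · z ^ m ∈ P.W` for a local equation `z` of `Θ_{Ao}` at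
`η` ⇒ `a ∈ P.W`. -/
theorem s17u1_vis_eta (hc : S27cstIsConst x G₀ (cuspInf N))
    (P : S17plPlace Kb L)
    (hgood : S17poGood N (-(s17coCl hld hgen hx G₀ hG₀ P) + s17u1Delta N G₀))
    (z : L)
    (hz : S27icIdx hld hgen hx (s27cstAo G₀ (cuspInf N)) P.W
      (s27pfCl (s27dclPkg hld hgen hx G₀ hG₀)
        (s27pfTaut (K := Kb) (F := FF N) (g := genusFF Kb (FF N)) (L := L))) z)
    (m : ℕ) (a : L) (ha : a * z ^ m ∈ P.W) : a ∈ P.W := by
  obtain ⟨hz0, -, hzinv⟩ := s17u1_unit_eta_const N hld hgen hx G₀ hG₀ hc P hgood z hz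
  have h1 : a = a * z ^ m * (z⁻¹) ^ m := by
    rw [mul_assoc, ← mul_pow, mul_inv_cancel₀ hz0, one_pow, mul_one]
  rw [h1]
  exact P.W.mul_mem _ _ ha (pow_mem hzinv m)

end Stage

end Fermat.Agent.S17

end
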