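/-
S17 sprint, layer H, PlN leaf **U1, place side** (helper65): at a `K`-place whose centre class
has a GOOD shift, the local equation of `Θ⁻` is a UNIT; hence `L(m·Θ⁻) ⊆ W`.

Stage with `K = ℚ̄`, `F = FF N`, constants `(x, G₀, O″ := ∞ = cuspInf N)`: `Ao = G₀ − ∞`,
`A' = G₀ + Ao`, `δ = [G₀ − g·∞] = s17u1Delta N G₀`, `cl P = s17coCl … P = sp_P η`.

* `s17u1_hnsp`     : the divisor form `L_K(A' − Σ Q') = ⊥` gives the hypothesis `hnsp` of
                     helper41's valuative core `s17nu_unit` (S17/NonSpecU.lean);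
* **`s17u1_unit`** : `qm` a tuple of points of class `−η` (the OPPOSITE tuple `q (−1)`),
                     `S17poGood N (cl P + δ)`, `y` a local equation of the theta divisor at `qm`
                     along `P.W` up to a unit (`S27pnIsEq P.W qm A' y`, S27/PsiNat.lean)
                     ⇒ `y` is a UNIT of `P.W`;
* `s17u1_unit_indB`: the same for `y = B(−1)(P.W ∩ 𝔉)` as soon as PSI-NAT (`s27pn_indB_of_lift`)
                     gives `S27pnIsEq`;
* `s17u1_mem`      : `z · b^m ∈ W`, `b` a unit of `W` ⇒ `z ∈ W`; `s17u1_LU_mem` : every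
                     `z ∈ s27LU K b m` lies in `P.W` at a GOOD place.
-/
import Fermat.Agent.S17.UOne
import Fermat.Agent.S17.NonSpecU
import Fermat.Agent.S17.CentreHom
import Fermat.Agent.S17.CentreOnto
import Fermat.Agent.S27.PsiNat
import Fermat.Agent.S27.LeDim

set_option autoImplicit false
set_option linter.unusedSectionVars false
set_option linter.unusedVariables false
set_option linter.style.haveILetI false
set_option linter.style.longLine false

noncomputable section

namespace Fermat.Agent.S17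

open ModularCurve AlgebraicCurve Module TensorProduct IntermediateField
open Fermat.Agent.S24 Fermat.Agent.S26 Fermat.Agent.S27 Fermat.Agent.DEU
open Fermat.Agent.ES.M Fermat.Agent.ES.H Fermat.Agent.S15 Fermat.Agent.ES.R

universe y

section KSide

variable {K : Type*} {F : Type*} [Field K] [Field F] [Algebra K F]

/-- the divisor form `L_K(A' − Σ Q) = ⊥` gives `hnsp` of `s17nu_unit`. -/
theorem s17u1_hnsp {n : ℕ} (Q : Fin n → Place K F) (A' : Divisor K F)
    (h : riemannRochSpace (A' - s27pkgSum Q) = ⊥) :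
    ∀ ψ ∈ riemannRochSpace A', (∀ i, s17nuD Q (Q i) - A' (Q i) ≤ (Q i).ord ψ) → ψ = 0 := by
  classical
  intro ψ hψ hord
  have hmem : ψ ∈ riemannRochSpace (A' - s27pkgSum Q) := by
    rw [mem_riemannRochSpace_iff] at hψ ⊢
    intro v
    rcases hψ v with h0 | h1
    · exact Or.inl h0
    · right
      by_cases hv : ∃ i, Q i = v
      · obtain ⟨i, rfl⟩ := hv
        have := hord i
        have e : s17nuD Q = s27pkgSum Q := rfl
        rw [e] at this
        simp only [Finsupp.coe_sub, Pi.sub_apply]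
        omega
      · have h0 : s27pkgSum Q v = 0 := by
          unfold s27pkgSum
          rw [Finsupp.finsetSum_apply]
          refine Finset.sum_eq_zero fun i _ => ?_
          exact Finsupp.single_eq_of_ne (fun hi => hv ⟨i, hi.symm⟩)
        simp only [Finsupp.coe_sub, Pi.sub_apply, h0]
        omega
  rw [h] at hmem
  exact (Submodule.mem_bot K).1 hmem

/-- `z · b ^ m ∈ W` and `b` a unit of `W` ⇒ `z ∈ W`. -/
theorem s17u1_mem {𝔏 : Type*} [Field 𝔏] (W : ValuationSubring 𝔏) {z b : 𝔏} (m : ℕ)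
    (hz : z * b ^ m ∈ W) (hb : S27IsUnitIn W b) : z ∈ W := by
  have h1 : z = z * b ^ m * (b⁻¹) ^ m := by
    rw [mul_assoc, ← mul_pow, mul_inv_cancel₀ hb.1, one_pow, mul_one]
  rw [h1]
  exact W.mul_mem _ _ hz (pow_mem hb.2.2 m)

end KSide

section Stage

variable (N : ℕ) [NeZero N] [IsCurveOver Kb (FF N)] [Algebra.EssFiniteType Kb (FF N)]
  {L : Type} [Field L] [Algebra Kb L]
  [Algebra (s27gfOm Kb (FF N) (genusFF Kb (FF N))) L]
  [IsScalarTower Kb (s27gfOm Kb (FF N) (genusFF Kb (FF N))) L]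
  [IsAlgClosed L] [Algebra.IsAlgebraic (s27gfOm Kb (FF N) (genusFF Kb (FF N))) L]
  {FL : Type y} [Field FL] [Algebra Kb FL] [Algebra (FF N) FL] [Algebra L FL]
  [IsScalarTower Kb (FF N) FL] [IsScalarTower Kb L FL]
  (hld : Function.Injective (s26gspMu Kb (FF N) L FL)) (hgen : S26gspGen Kb (FF N) L FL)
  {x : FF N} (hx : Transcendental Kb x)
  [FiniteDimensional ↥(IntermediateField.adjoin Kb {x}) (FF N)]
  [Algebra.IsSeparable ↥(IntermediateField.adjoin Kb {x}) (FF N)]
  (G₀ : Divisor Kb (FF N)) (hG₀ : Divisor.degree G₀ = (genusFF Kb (FF N) : ℤ))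

/-- **U1**: at a place `P` with `S17poGood N (cl P + δ)` every local equation (up to a unit) of
the theta divisor of `A' = G₀ + (G₀ − ∞)` at a tuple `qm` of class `−η` is a UNIT of `P.W`. -/
theorem s17u1_unit (P : S17plPlace Kb L)
    (hgood : S17poGood N (s17coCl hld hgen hx G₀ hG₀ P + s17u1Delta N G₀))
    (qm : Fin (genusFF Kb (FF N)) → FF N →ₐ[Kb] L)
    (hqm : (s27dclPkg hld hgen hx G₀ hG₀).cl
        (fun i => (s27dclPkg hld hgen hx G₀ hG₀).pt (qm i)) =
      (-1 : ℤ) • ((s27dclPkg hld hgen hx G₀ hG₀).cl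
        (fun i => (s27dclPkg hld hgen hx G₀ hG₀).pt
          (s27pfTaut (K := Kb) (F := FF N) (g := genusFF Kb (FF N)) (L := L) i))))
    (y : L) (hy : S27pnIsEq P.W qm (G₀ + s27cstAo G₀ (cuspInf N)) y) :
    S27IsUnitIn P.W y := by
  classical
  haveI := s26err_hasPrincipalDivisors (K := Kb) x hx
  -- the centres of the opposite tuple
  choose Q' hQ' using fun i => s17ch2_exists_centre P hx (qm i)
  -- their class is `−cl P`
  have hcl : s27pkgClO (s17ds_hdegK (s26gspf_hall hx)) G₀ hG₀ Q' =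
      (-1 : ℤ) • s17coCl hld hgen hx G₀ hG₀ P + 0 :=
    s17coCl_affine hld hgen hx G₀ hG₀ P (-1) 0 qm Q' hQ' (by rw [hqm, map_zero, add_zero])
  have hcl' : s27pkgClO (s17u1_hdeg N) G₀ hG₀ Q' = -(s17coCl hld hgen hx G₀ hG₀ P) := by
    have : s27pkgClO (s17u1_hdeg N) G₀ hG₀ Q' =
        s27pkgClO (s17ds_hdegK (s26gspf_hall hx)) G₀ hG₀ Q' := rfl
    rw [this, hcl, add_zero, neg_smul, one_smul]
  have hbot := s17u1_off_tuple N G₀ hG₀ (s17coCl hld hgen hx G₀ hG₀ P) hgood Q' hcl'
  have hnsp := s17u1_hnsp Q' (G₀ + s27cstAo G₀ (cuspInf N)) hbot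
  obtain ⟨x₀, hx₀, u, hu, rfl⟩ := hy
  have h := s17nu_unit (s27ldm_hres x hx) (s27ldm_finite x hx) P.W P.hKW qm Q' hQ'
    (G₀ + s27cstAo G₀ (cuspInf N)) hnsp x₀ hx₀
  exact s27pn_unit_mul hu h

/-- **U1 for `B(−1)`**: the local equation `b = s27indB ψ β (−1)` of `Θ⁻` is a unit of `P.W` at
a place with GOOD shifted centre class, as soon as PSI-NAT identifies it with a local equation at
a tuple `qm` of class `−η`. -/
theorem s17u1_unit_indB (P : S17plPlace Kb L)
    (hgood : S17poGood N (s17coCl hld hgen hx G₀ hG₀ P + s17u1Delta N G₀))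
    (qm : Fin (genusFF Kb (FF N)) → FF N →ₐ[Kb] L)
    (hqm : (s27dclPkg hld hgen hx G₀ hG₀).cl
        (fun i => (s27dclPkg hld hgen hx G₀ hG₀).pt (qm i)) =
      (-1 : ℤ) • ((s27dclPkg hld hgen hx G₀ hG₀).cl
        (fun i => (s27dclPkg hld hgen hx G₀ hG₀).pt
          (s27pfTaut (K := Kb) (F := FF N) (g := genusFF Kb (FF N)) (L := L) i))))
    (b : ValuationSubring (s27gfSym Kb (FF N) (genusFF Kb (FF N))) →
      s27gfSym Kb (FF N) (genusFF Kb (FF N)))
    (hnat : ∀ W : ValuationSubring L, S27IsKValU Kb W →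
      S27pnIsEq W qm (G₀ + s27cstAo G₀ (cuspInf N))
        (algebraMap (s27gfSym Kb (FF N) (genusFF Kb (FF N))) L
          (b (W.comap (algebraMap (s27gfSym Kb (FF N) (genusFF Kb (FF N))) L))))) :
    S27IsUnitIn P.W (algebraMap (s27gfSym Kb (FF N) (genusFF Kb (FF N))) L
      (b (P.W.comap (algebraMap (s27gfSym Kb (FF N) (genusFF Kb (FF N))) L)))) :=
  s17u1_unit N hld hgen hx G₀ hG₀ P hgood qm hqm _ (hnat P.W P.hKW)

/-- **visibility**: at a place with GOOD shifted centre class every element of `L(m·Θ⁻)`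
(`s27LU Kb b m`) lies in `P.W`. -/
theorem s17u1_LU_mem (P : S17plPlace Kb L)
    (hgood : S17poGood N (s17coCl hld hgen hx G₀ hG₀ P + s17u1Delta N G₀))
    (qm : Fin (genusFF Kb (FF N)) → FF N →ₐ[Kb] L)
    (hqm : (s27dclPkg hld hgen hx G₀ hG₀).cl
        (fun i => (s27dclPkg hld hgen hx G₀ hG₀).pt (qm i)) =
      (-1 : ℤ) • ((s27dclPkg hld hgen hx G₀ hG₀).cl
        (fun i => (s27dclPkg hld hgen hx G₀ hG₀).pt
          (s27pfTaut (K := Kb) (F := FF N) (g := genusFF Kb (FF N)) (L := L) i))))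
    (b : ValuationSubring (s27gfSym Kb (FF N) (genusFF Kb (FF N))) →
      s27gfSym Kb (FF N) (genusFF Kb (FF N)))
    (hnat : ∀ W : ValuationSubring L, S27IsKValU Kb W →
      S27pnIsEq W qm (G₀ + s27cstAo G₀ (cuspInf N))
        (algebraMap (s27gfSym Kb (FF N) (genusFF Kb (FF N))) L
          (b (W.comap (algebraMap (s27gfSym Kb (FF N) (genusFF Kb (FF N))) L)))))
    (m : ℕ) (z : s27gfSym Kb (FF N) (genusFF Kb (FF N))) (hz : z ∈ s27LU Kb b m) :
    algebraMap (s27gfSym Kb (FF N) (genusFF Kb (FF N))) L z ∈ P.W := by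
  have hu := s17u1_unit_indB N hld hgen hx G₀ hG₀ P hgood qm hqm b hnat
  have hV : S27IsKValU Kb (P.W.comap (algebraMap (s27gfSym Kb (FF N) (genusFF Kb (FF N))) L)) := by
    intro a
    rw [ValuationSubring.mem_comap]
    have : algebraMap (s27gfSym Kb (FF N) (genusFF Kb (FF N))) L
        (algebraMap Kb (s27gfSym Kb (FF N) (genusFF Kb (FF N))) a) = algebraMap Kb L a := by
      rw [← IsScalarTower.algebraMap_apply]
    rw [this]
    exact P.hKW a
  have h1 := (s27LU_mem (K := Kb)).1 hz _ hV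
  rw [ValuationSubring.mem_comap, map_mul, map_pow] at h1
  exact s17u1_mem P.W m h1 hu

end Stage

end Fermat.Agent.S17

end
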