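/-
S17 layer H, leaf UNIT-CONV (helper61): "GOOD ⇒ NON-SPECIAL", the converse of UNIT-CRIT
(S17/UnitCrit.lean, helper82), in the point formalism of S27/PtDef.lean.

`W ⊇ K` a valuation subring of `𝔏`, `R i : F →ₐ[K] 𝔏` points with pairwise DISTINCT closed centres
`Q i` along `W`, `A'` a divisor with `ℓ(A') = N`, `x` a local equation (`S27ptIsIdx W R A' x`):

* `s17ucv_main`     : `x` a unit of `W` ⇒ every `g ∈ L_K(A')` with `v_{Q i}(g) < exp (A' (Q i))` for
                      all `i` is `0`;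
* `s17ucv_bot`      : `x` a unit of `W` ⇒ `L_K(A' - Σ_i Q i) = ⊥`;
* `s17ucv_not_unit` : the contrapositive (special ⇒ the local equation is a non-unit);
* `s17ucv_main_le`  : `s17ucv_main` with `v_{Q i}(g) ≤ exp (A' (Q i) - 1)` (shape of `s17uc_unit_core`).

Proof: weak approximation (`s27adex_approx`) gives `ψ i ∈ 𝓕` with the leading term of `t i` at `Q i`
and higher order at the other centres, so the lattice of values is the product lattice
`∏ R i (t i) • W`; the normalised determinant of the values of a basis of `L_K(A')` is then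
`x · unit`, and a unit determinant has no kernel modulo the maximal ideal (adjugate).
Also: `s17ucv_isUnit_det`, `s17ucv_mem_of_mulVec` (linear algebra over a local ring),
`s17ucv_mem_iff`, `s17ucv_mem_max`, `s17ucv_centre_unique`, `s17ucv_const_mem`, `s17ucv_exists_exact`.
Imports: S27/PtDef + S27/AdExWA only.
-/
import Fermat.Agent.S27.PtDef
import Fermat.Agent.S27.AdExWA

set_option autoImplicit false

noncomputable section

namespace Fermat.Agent.S17

open AlgebraicCurve WithZero Fermat.Agent.S27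

universe u v w

variable {K : Type u} {F : Type v} [Field K] [Field F] [Algebra K F]
variable {𝔏 : Type w} [Field 𝔏] [Algebra K 𝔏]

/-! ### Linear algebra over a local ring -/

/-- a square matrix over a local ring which is the identity modulo the maximal ideal has a unit
determinant. -/
theorem s17ucv_isUnit_det {A : Type*} [CommRing A] [IsLocalRing A] {n : ℕ}
    (M : Matrix (Fin n) (Fin n) A)
    (hd : ∀ i, M i i - 1 ∈ IsLocalRing.maximalIdeal A)
    (ho : ∀ i j, i ≠ j → M i j ∈ IsLocalRing.maximalIdeal A) : IsUnit M.det := by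
  have h1 : (IsLocalRing.residue A).mapMatrix M = 1 := by
    ext i j
    rw [RingHom.mapMatrix_apply, Matrix.map_apply]
    by_cases hij : i = j
    · subst hij
      rw [Matrix.one_apply_eq]
      have := (IsLocalRing.residue_eq_zero_iff (M i i - 1)).mpr (hd i)
      rw [map_sub, map_one, sub_eq_zero] at this
      exact this
    · rw [Matrix.one_apply_ne hij]
      exact (IsLocalRing.residue_eq_zero_iff _).mpr (ho i j hij)
  have h2 : IsLocalRing.residue A M.det = 1 := by
    rw [RingHom.map_det, h1, Matrix.det_one]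
  by_contra hu
  have h3 : M.det ∈ IsLocalRing.maximalIdeal A := (IsLocalRing.mem_maximalIdeal _).mpr hu
  rw [(IsLocalRing.residue_eq_zero_iff _).mpr h3] at h2
  exact zero_ne_one h2

/-- if `M` has a unit determinant and `M *ᵥ a` has all entries in the ideal `I`, then `a` has all
entries in `I`. -/
theorem s17ucv_mem_of_mulVec {A : Type*} [CommRing A] {n : ℕ} (I : Ideal A)
    (M : Matrix (Fin n) (Fin n) A) (hM : IsUnit M.det) (a : Fin n → A)
    (h : ∀ i, (M.mulVec a) i ∈ I) (l : Fin n) : a l ∈ I := by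
  have h1 : M.det • a = M.adjugate.mulVec (M.mulVec a) := by
    rw [Matrix.mulVec_mulVec, Matrix.adjugate_mul, Matrix.smul_mulVec, Matrix.one_mulVec]
  have h2 : M.det * a l ∈ I := by
    have h3 : (M.det • a) l = M.det * a l := rfl
    rw [← h3, h1]
    change (∑ j, M.adjugate l j * (M.mulVec a) j) ∈ I
    exact I.sum_mem fun j _ => I.mul_mem_left _ (h j)
  obtain ⟨d, hd⟩ := hM
  have h4 : a l = (↑d⁻¹ : A) * (M.det * a l) := by
    rw [← mul_assoc, ← hd, Units.inv_mul, one_mul]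
  rw [h4]
  exact I.mul_mem_left _ h2

/-! ### The centre condition in valuation form -/

theorem s17ucv_mem_iff {W : ValuationSubring 𝔏} {R₀ : F →ₐ[K] 𝔏} {Q : Place K F}
    (hQ : S27ptIsCentre W R₀ Q) (y : F) : R₀ y ∈ W ↔ Q.adicValuation y ≤ 1 := by
  rw [← Fermat.Agent.S24.PlaceAux.mem_iff_adicValuation_le_one, ← hQ]
  rfl

theorem s17ucv_mem_of_le {W : ValuationSubring 𝔏} {R₀ : F →ₐ[K] 𝔏} {Q : Place K F}
    (hQ : S27ptIsCentre W R₀ Q) {y : F} (hy : Q.adicValuation y ≤ 1) : R₀ y ∈ W :=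
  (s17ucv_mem_iff hQ y).mpr hy

/-- a function vanishing at the centre has a value in the maximal ideal of `W`. -/
theorem s17ucv_mem_max {W : ValuationSubring 𝔏} {R₀ : F →ₐ[K] 𝔏} {Q : Place K F}
    (hQ : S27ptIsCentre W R₀ Q) {y : F} (hy : Q.adicValuation y < 1)
    (hm : R₀ y ∈ W) :
    (⟨R₀ y, hm⟩ : W) ∈ IsLocalRing.maximalIdeal W := by
  rw [IsLocalRing.mem_maximalIdeal, mem_nonunits_iff]
  intro hu
  obtain ⟨d, hd⟩ := hu
  have hy0 : y ≠ 0 := by
    rintro rfl
    have h0 : ((d : W) : 𝔏) = 0 := by rw [hd]; exact map_zero R₀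
    have h1 : (d : W) = 0 := Subtype.ext h0
    exact d.ne_zero h1
  have h2 : ((d : W) : 𝔏) * ((↑d⁻¹ : W) : 𝔏) = 1 := by
    rw [← MulMemClass.coe_mul, Units.mul_inv]
    rfl
  have h3 : ((↑d⁻¹ : W) : 𝔏) = R₀ y⁻¹ := by
    rw [hd] at h2
    change R₀ y * _ = 1 at h2
    rw [map_inv₀]
    exact (eq_inv_of_mul_eq_one_right h2)
  have h4 : R₀ y⁻¹ ∈ W := by rw [← h3]; exact (↑d⁻¹ : W).2
  have h5 := (s17ucv_mem_iff hQ y⁻¹).mp h4
  rw [map_inv₀] at h5
  have h6 : Q.adicValuation y ≠ 0 := Q.adicValuation_ne_zero hy0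
  have h7 : 1 ≤ Q.adicValuation y := by
    rwa [inv_le_one₀ (zero_lt_iff.mpr h6)] at h5
  exact absurd hy (not_lt.mpr h7)

/-- the centre of a point along `W` is unique. -/
theorem s17ucv_centre_unique {W : ValuationSubring 𝔏} {R₀ : F →ₐ[K] 𝔏} {Q Q' : Place K F}
    (hQ : S27ptIsCentre W R₀ Q) (hQ' : S27ptIsCentre W R₀ Q') : Q' = Q :=
  Place.ext (hQ'.symm.trans hQ)

/-- constants are in `W` as soon as some point has a closed centre along `W`. -/
theorem s17ucv_const_mem {W : ValuationSubring 𝔏} {R₀ : F →ₐ[K] 𝔏} {Q : Place K F}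
    (hQ : S27ptIsCentre W R₀ Q) (c : K) : algebraMap K 𝔏 c ∈ W := by
  have h1 : R₀ (algebraMap K F c) ∈ W := by
    have : algebraMap K F c ∈ W.comap (R₀ : F →+* 𝔏) := by
      rw [hQ]; exact Q.algebraMap_mem' c
    exact this
  rwa [AlgHom.commutes] at h1

/-- a function of exact order `-A' Q` at `Q`. -/
theorem s17ucv_exists_exact (Q : Place K F) (n : ℤ) :
    ∃ t : F, t ≠ 0 ∧ Q.adicValuation t = exp n := by
  obtain ⟨π, hπ0, hπ⟩ := s27adex_exists_unif Q
  refine ⟨π ^ (-n), zpow_ne_zero _ hπ0, ?_⟩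
  rw [map_zpow₀, Fermat.Agent.S24.PlaceAux.adicValuation_eq_exp_neg_ord Q hπ0, hπ,
    ← WithZero.exp_zsmul]
  congr 1
  simp

/-! ### UNIT ⇒ NON-SPECIAL -/

section Main

variable {N : ℕ} {W : ValuationSubring 𝔏} {R : Fin N → F →ₐ[K] 𝔏} {A' : Divisor K F}

/-- **UNIT-CONV** (converse of UNIT-CRIT): if the points `R i` have pairwise distinct closed centres
`Q i` along `W` and a local equation `x` of the theta divisor of `A'` at `(W, R)` is a unit of `W`,
then every `g ∈ L_K(A')` of order `> -A'(Q i)` at every centre is `0`, i.e.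
`L_K(A' - Σ Q i) = 0`. -/
theorem s17ucv_main (Q : Fin N → Place K F) (hQ : ∀ i, S27ptIsCentre W (R i) (Q i))
    (hinj : Function.Injective Q)
    {x : 𝔏} (hx : S27ptIsIdx W R A' x) (hx0 : x ≠ 0) (hxi : x⁻¹ ∈ W)
    {g : F} (hg : g ∈ riemannRochSpace A')
    (hgQ : ∀ i, (Q i).adicValuation g < exp (A' (Q i))) : g = 0 := by
  classical
  have hxW : x ∈ W := s27pt_idx_mem hx
  obtain ⟨f, φ, hφ, hxeq⟩ := hx
  -- functions of exact order
  choose t ht0 ht using fun i => s17ucv_exists_exact (Q i) (A' (Q i))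
  have hle : ∀ (i : Fin N) (y : F), (Q i).adicValuation y ≤ exp (A' (Q i)) →
      R i (y / t i) ∈ W := by
    intro i y hy
    apply s17ucv_mem_of_le (hQ i)
    rw [map_div₀, ht i]
    exact (div_le_one₀ WithZero.exp_pos).mpr hy
  have hlt : ∀ (i : Fin N) (y : F), (Q i).adicValuation y < exp (A' (Q i)) →
      (Q i).adicValuation (y / t i) < 1 := by
    intro i y hy
    rw [map_div₀, ht i]
    exact (div_lt_one₀ WithZero.exp_pos).mpr hy
  have hF : ∀ ψ ∈ s27ptF W R A', ∀ i, R i (ψ / t i) ∈ W := fun ψ hψ i =>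
    hle i ψ (hψ (Q i) i (hQ i))
  -- the normalised matrices of values, over `W`
  let Bw : (ψ : Fin N → F) → (∀ l, ψ l ∈ s27ptF W R A') → Matrix (Fin N) (Fin N) W :=
    fun ψ hψ => Matrix.of fun i l => ⟨R i (ψ l / t i), hF (ψ l) (hψ l) i⟩
  have hdet : ∀ (ψ : Fin N → F) (hψ : ∀ l, ψ l ∈ s27ptF W R A'),
      (s27ptVal R ψ).det = (∏ i, R i (t i)) * (((Bw ψ hψ).det : W) : 𝔏) := by
    intro ψ hψ
    have h1 : (((Bw ψ hψ).det : W) : 𝔏) = (W.subtype.mapMatrix (Bw ψ hψ)).det := by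
      rw [← RingHom.map_det]
      rfl
    rw [h1, ← Matrix.det_mul_column]
    congr 1
    ext i l
    change R i (ψ l) = R i (t i) * R i (ψ l / t i)
    rw [← map_mul, mul_div_cancel₀ _ (ht0 i)]
  have hD : (∏ i, R i (t i)) ≠ 0 :=
    Finset.prod_ne_zero_iff.mpr fun i _ => (map_ne_zero (R i)).mpr (ht0 i)
  -- the basis of `L_K(A')`
  have hfF : ∀ l, ((f l : ↥(riemannRochSpace A')) : F) ∈ s27ptF W R A' := fun l =>
    s27pt_rr_le W R A' (f l).2
  -- approximations of the `t i`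
  obtain ⟨n, hn⟩ : ∃ n : ℕ, ∀ i, exp (-(n : ℤ)) < exp (A' (Q i)) := by
    refine ⟨1 + ∑ i, (A' (Q i)).natAbs, fun i => ?_⟩
    rw [WithZero.exp_lt_exp]
    have h1 : (A' (Q i)).natAbs ≤ ∑ j, (A' (Q j)).natAbs :=
      Finset.single_le_sum (f := fun j => (A' (Q j)).natAbs) (fun _ _ => Nat.zero_le _)
        (Finset.mem_univ i)
    have h2 : ((1 + ∑ j, (A' (Q j)).natAbs : ℕ) : ℤ) = 1 + ((∑ j, (A' (Q j)).natAbs : ℕ) : ℤ) := by
      push_cast
      rfl
    rw [h2]
    omega
  choose ψ hψ using fun i => s27adex_approx Q hinj (fun j => if j = i then t i else 0) n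
  have hψd : ∀ i, (Q i).adicValuation (ψ i - t i) < exp (A' (Q i)) := fun i => by
    have h := hψ i i
    rw [if_pos rfl] at h
    exact lt_of_le_of_lt h (hn i)
  have hψo : ∀ i j, j ≠ i → (Q j).adicValuation (ψ i) < exp (A' (Q j)) := fun i j hji => by
    have h := hψ i j
    rw [if_neg hji, sub_zero] at h
    exact lt_of_le_of_lt h (hn j)
  have hψF : ∀ l, ψ l ∈ s27ptF W R A' := by
    intro l Q' k hk
    have hQ' : Q' = Q k := s17ucv_centre_unique (hQ k) hk
    rw [hQ']
    by_cases hkl : k = l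
    · subst hkl
      have h1 : ψ k = (ψ k - t k) + t k := by ring
      rw [h1]
      exact (Valuation.map_add _ _ _).trans (max_le (hψd k).le (ht k).le)
    · exact (hψo l k hkl).le
  -- the matrix of the approximations is the identity modulo the maximal ideal
  have hBψ : IsUnit (Bw ψ hψF).det := by
    apply s17ucv_isUnit_det
    · intro i
      have hm : R i ((ψ i - t i) / t i) ∈ W := hle i _ (hψd i).le
      have h1 : (Bw ψ hψF) i i - 1 = ⟨R i ((ψ i - t i) / t i), hm⟩ := by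
        apply Subtype.ext
        change R i (ψ i / t i) - 1 = R i ((ψ i - t i) / t i)
        rw [sub_div, div_self (ht0 i), map_sub, map_one]
      rw [h1]
      exact s17ucv_mem_max (hQ i) (hlt i _ (hψd i)) hm
    · intro i j hij
      exact s17ucv_mem_max (hQ i) (hlt i _ (hψo j i hij)) _
  -- hence the lattice basis has a unit normalised determinant
  obtain ⟨C, hC, hCeq⟩ := s27pt_exists_coeff hφ ψ hψF
  have hdC : C.det ∈ W := s27pt_det_mem C hC
  have hBφ : IsUnit (Bw φ hφ.mem).det := by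
    have h1 : (((Bw ψ hψF).det : W) : 𝔏) = (((Bw φ hφ.mem).det : W) : 𝔏) * C.det := by
      have h2 := hdet ψ hψF
      rw [hCeq, Matrix.det_mul, hdet φ hφ.mem, mul_assoc] at h2
      exact (mul_left_cancel₀ hD h2).symm
    have h3 : (Bw ψ hψF).det = (Bw φ hφ.mem).det * ⟨C.det, hdC⟩ := Subtype.ext h1
    rw [h3] at hBψ
    exact isUnit_of_mul_isUnit_left hBψ
  -- and so has the basis of `L_K(A')`, the local equation being a unit
  have hxu : IsUnit (⟨x, hxW⟩ : W) :=
    ⟨⟨⟨x, hxW⟩, ⟨x⁻¹, hxi⟩, Subtype.ext (mul_inv_cancel₀ hx0),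
      Subtype.ext (inv_mul_cancel₀ hx0)⟩, rfl⟩
  have hφ0 : (((Bw φ hφ.mem).det : W) : 𝔏) ≠ 0 := by
    intro h0
    have h1 : (Bw φ hφ.mem).det = 0 := Subtype.ext h0
    rw [h1] at hBφ
    exact not_isUnit_zero hBφ
  have hBf : IsUnit (Bw (fun l => ((f l : ↥(riemannRochSpace A')) : F)) hfF).det := by
    have h1 : (((Bw (fun l => ((f l : ↥(riemannRochSpace A')) : F)) hfF).det : W) : 𝔏) =
        x * (((Bw φ hφ.mem).det : W) : 𝔏) := by
      have h2 : (s27ptValB R f).det =
          (∏ i, R i (t i)) *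
            (((Bw (fun l => ((f l : ↥(riemannRochSpace A')) : F)) hfF).det : W) : 𝔏) :=
        hdet _ hfF
      rw [hxeq, h2, hdet φ hφ.mem, mul_div_mul_left _ _ hD, div_mul_cancel₀ _ hφ0]
    have h3 : (Bw (fun l => ((f l : ↥(riemannRochSpace A')) : F)) hfF).det =
        ⟨x, hxW⟩ * (Bw φ hφ.mem).det := Subtype.ext h1
    rw [h3]
    exact hxu.mul hBφ
  -- expand `g` in the basis
  have hgsum : g = ∑ l, f.repr ⟨g, hg⟩ l • ((f l : ↥(riemannRochSpace A')) : F) := by
    have h1 := congrArg (fun z : ↥(riemannRochSpace A') => (z : F)) (f.sum_repr ⟨g, hg⟩)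
    simp only [Submodule.coe_sum, Submodule.coe_smul] at h1
    exact h1.symm
  have hcW : ∀ (l : Fin N) (c : K), algebraMap K 𝔏 c ∈ W := fun l c =>
    s17ucv_const_mem (hQ l) c
  let a : Fin N → W := fun l => ⟨algebraMap K 𝔏 (f.repr ⟨g, hg⟩ l), hcW l _⟩
  have hmv : ∀ i, ((Bw (fun l => ((f l : ↥(riemannRochSpace A')) : F)) hfF).mulVec a) i ∈
      IsLocalRing.maximalIdeal W := by
    intro i
    have hm : R i (g / t i) ∈ W := hle i g (hgQ i).le
    have h1 : ((Bw (fun l => ((f l : ↥(riemannRochSpace A')) : F)) hfF).mulVec a) i =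
        ⟨R i (g / t i), hm⟩ := by
      apply Subtype.ext
      have e1 : ((Bw (fun l => ((f l : ↥(riemannRochSpace A')) : F)) hfF).mulVec a) i =
          ∑ l, (Bw (fun l => ((f l : ↥(riemannRochSpace A')) : F)) hfF) i l * a l := rfl
      rw [e1]
      have e2 : ((∑ l, (Bw (fun l => ((f l : ↥(riemannRochSpace A')) : F)) hfF) i l * a l : W)
          : 𝔏) = ∑ l, R i (((f l : ↥(riemannRochSpace A')) : F) / t i) *
            algebraMap K 𝔏 (f.repr ⟨g, hg⟩ l) := by
        have := map_sum W.subtype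
          (fun l => (Bw (fun l => ((f l : ↥(riemannRochSpace A')) : F)) hfF) i l * a l)
          Finset.univ
        exact this
      rw [e2]
      change _ = R i (g / t i)
      conv_rhs => rw [hgsum, Finset.sum_div, map_sum]
      refine Finset.sum_congr rfl fun l _ => ?_
      rw [Algebra.smul_def, mul_div_assoc, map_mul, AlgHom.commutes, mul_comm]
    rw [h1]
    exact s17ucv_mem_max (hQ i) (hlt i g (hgQ i)) hm
  have hal : ∀ l, a l ∈ IsLocalRing.maximalIdeal W :=
    s17ucv_mem_of_mulVec _ _ hBf a hmv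
  have hc0 : ∀ l, f.repr ⟨g, hg⟩ l = 0 := by
    intro l
    by_contra hne
    have hu : IsUnit (a l) :=
      ⟨⟨a l, ⟨algebraMap K 𝔏 (f.repr ⟨g, hg⟩ l)⁻¹, hcW l _⟩,
        Subtype.ext (by
          change algebraMap K 𝔏 _ * algebraMap K 𝔏 _ = 1
          rw [← map_mul, mul_inv_cancel₀ hne, map_one]),
        Subtype.ext (by
          change algebraMap K 𝔏 _ * algebraMap K 𝔏 _ = 1
          rw [← map_mul, inv_mul_cancel₀ hne, map_one])⟩, rfl⟩
    exact (IsLocalRing.mem_maximalIdeal _).mp (hal l) hu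
  rw [hgsum]
  exact Finset.sum_eq_zero fun l _ => by rw [hc0 l, zero_smul]

/-- **UNIT-CONV, divisor form**: `L_K(A' - Σ_i Q i) = 0` at a place `W` where a local equation
is a unit (pairwise distinct closed centres `Q i`). -/
theorem s17ucv_bot (Q : Fin N → Place K F) (hQ : ∀ i, S27ptIsCentre W (R i) (Q i))
    (hinj : Function.Injective Q)
    {x : 𝔏} (hx : S27ptIsIdx W R A' x) (hx0 : x ≠ 0) (hxi : x⁻¹ ∈ W) :
    riemannRochSpace (A' - ∑ i, Finsupp.single (Q i) (1 : ℤ)) = ⊥ := by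
  classical
  rw [eq_bot_iff]
  intro g hg
  rw [Submodule.mem_bot]
  have hcoef : ∀ v : Place K F, (∑ i, Finsupp.single (Q i) (1 : ℤ)) v =
      ∑ i, if Q i = v then (1 : ℤ) else 0 := by
    intro v
    rw [Finsupp.finsetSum_apply]
    refine Finset.sum_congr rfl fun i _ => ?_
    rw [Finsupp.single_apply]
  have hnn : ∀ v : Place K F, 0 ≤ (∑ i, Finsupp.single (Q i) (1 : ℤ)) v := by
    intro v
    rw [hcoef]
    exact Finset.sum_nonneg fun i _ => by split_ifs <;> norm_num
  have hone : ∀ i, 1 ≤ (∑ j, Finsupp.single (Q j) (1 : ℤ)) (Q i) := by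
    intro i
    rw [hcoef]
    have h1 : (if Q i = Q i then (1 : ℤ) else 0) ≤ ∑ j, if Q j = Q i then (1 : ℤ) else 0 :=
      Finset.single_le_sum (f := fun j => if Q j = Q i then (1 : ℤ) else 0)
        (fun j _ => by split_ifs <;> norm_num) (Finset.mem_univ i)
    rwa [if_pos rfl] at h1
  have hgA : g ∈ riemannRochSpace A' := by
    intro v
    refine (hg v).trans ?_
    rw [WithZero.exp_le_exp, Finsupp.sub_apply]
    linarith [hnn v]
  refine s17ucv_main Q hQ hinj hx hx0 hxi hgA fun i => ?_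
  refine lt_of_le_of_lt (hg (Q i)) ?_
  rw [WithZero.exp_lt_exp, Finsupp.sub_apply]
  linarith [hone i]

/-- **SPECIAL ⇒ NON-UNIT** (contrapositive): a nonzero `g ∈ L_K(A')` vanishing to order
`> -A'(Q i)` at all the (pairwise distinct, closed) centres forces every local equation to be a
non-unit of `W`. -/
theorem s17ucv_not_unit (Q : Fin N → Place K F) (hQ : ∀ i, S27ptIsCentre W (R i) (Q i))
    (hinj : Function.Injective Q)
    {x : 𝔏} (hx : S27ptIsIdx W R A' x) (hx0 : x ≠ 0)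
    {g : F} (hg : g ∈ riemannRochSpace A') (hg0 : g ≠ 0)
    (hgQ : ∀ i, (Q i).adicValuation g < exp (A' (Q i))) : x⁻¹ ∉ W := fun hxi =>
  hg0 (s17ucv_main Q hQ hinj hx hx0 hxi hg hgQ)

/-- `s17ucv_main` with the vanishing hypothesis in the shape of `s17uc_unit_core`
(S17/UnitCrit.lean): `v_{Q i}(g) ≤ exp (A' (Q i) - 1)`. -/
theorem s17ucv_main_le (Q : Fin N → Place K F) (hQ : ∀ i, S27ptIsCentre W (R i) (Q i))
    (hinj : Function.Injective Q)
    {x : 𝔏} (hx : S27ptIsIdx W R A' x) (hx0 : x ≠ 0) (hxi : x⁻¹ ∈ W)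
    {g : F} (hg : g ∈ riemannRochSpace A')
    (hgQ : ∀ i, (Q i).adicValuation g ≤ exp (A' (Q i) - 1)) : g = 0 :=
  s17ucv_main Q hQ hinj hx hx0 hxi hg fun i =>
    lt_of_le_of_lt (hgQ i) (WithZero.exp_lt_exp.mpr (by omega))

end Main

end Fermat.Agent.S17
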