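/-
S17 layer H, leaf UNIT-CONV-GEN (helper61): "GOOD ⇒ OFF THETA" for REPEATED centres.
Generalises S17/UnitConv.lean (pairwise distinct centres) to arbitrary closed centres, `K` infinite.

`W` a valuation subring of `𝔏`, `R i : F →ₐ[K] 𝔏` points with closed centres `Q i` along `W`
(repetitions allowed), `A'` a divisor with `ℓ(A') = N`, `x` a local equation (`S27ptIsIdx W R A' x`):

* `s17ucg_formal`     : `x` a unit, values of `g ∈ L_K(A')` = `Σ_k d_k · values of ψ_k`, `ψ_k ∈ 𝓕`,
                        `d_k ∈ 𝔪_W`  ⇒ `g = 0`  (no hypothesis on the centres);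
* `s17ucg_exists_pair`: weak approximation: `a` of exact order `-A'` at the centres, `t` regular,
                        constants `c j` with `t - c j` a uniformiser at `Q j`, a unit at the others;
* `s17ucg_main`       : `x` a unit ⇒ every `g ∈ L_K(A')` with `v_{Q i}(g) ≤ exp (A'(Q i) - m_i)`,
                        `m_i` the multiplicity of `Q i`, is `0`;
* `s17ucg_bot`        : `x` a unit ⇒ `L_K(A' - Σ_i Q i) = ⊥` (with multiplicity);
* `s17ucg_not_unit`   : the contrapositive.

Proof: `p = ∏_j (t - c j)`, `g = a · p · h` with `h` regular at the centres; the polynomials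
`P = ∏ (T - R j t)` and `P̄ = ∏ (T - c j)` over `W` agree modulo `𝔪_W` and `P (R i t) = 0`, so
`R i p = (P̄ - P)(R i t) = Σ_k d_k (R i t)^k` with `d_k ∈ 𝔪_W`: the values of `g` are
`Σ_k d_k · values of (a t^k h)`.  No jets, no divided differences.
-/
import Fermat.Agent.S17.UnitConv

set_option autoImplicit false

noncomputable section

namespace Fermat.Agent.S17

open AlgebraicCurve WithZero Fermat.Agent.S27

universe u v w

variable {K : Type u} {F : Type v} [Field K] [Field F] [Algebra K F]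
variable {𝔏 : Type w} [Field 𝔏] [Algebra K 𝔏]
variable {N : ℕ} {W : ValuationSubring 𝔏} {R : Fin N → F →ₐ[K] 𝔏} {A' : Divisor K F}

/-- **formal core**: if a local equation is a unit of `W` and the values of `g ∈ L_K(A')` are a
combination of values of functions of `𝓕` with coefficients in the maximal ideal of `W`, then
`g = 0`. -/
theorem s17ucg_formal (hKW : ∀ c : K, algebraMap K 𝔏 c ∈ W)
    {x : 𝔏} (hx : S27ptIsIdx W R A' x) (hx0 : x ≠ 0) (hxi : x⁻¹ ∈ W)
    {g : F} (hg : g ∈ riemannRochSpace A')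
    {n : ℕ} (ψ : Fin n → F) (hψ : ∀ k, ψ k ∈ s27ptF W R A')
    (d : Fin n → W) (hd : ∀ k, d k ∈ IsLocalRing.maximalIdeal W)
    (hval : ∀ i, R i g = ∑ k, (d k : 𝔏) * R i (ψ k)) : g = 0 := by
  classical
  have hxW : x ∈ W := s27pt_idx_mem hx
  obtain ⟨f, φ, hφ, hxeq⟩ := hx
  have hfF : ∀ l, ((f l : ↥(riemannRochSpace A')) : F) ∈ s27ptF W R A' := fun l =>
    s27pt_rr_le W R A' (f l).2
  obtain ⟨C, hC, hCeq⟩ := s27pt_exists_coeff hφ (fun l => ((f l : ↥(riemannRochSpace A')) : F)) hfF
  have hdetC : C.det = x := by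
    have h1 : (s27ptValB R f).det = (s27ptVal R φ).det * C.det := by
      unfold s27ptValB
      rw [hCeq, Matrix.det_mul]
    rw [hxeq, h1, mul_div_cancel_left₀ _ hφ.det_ne]
  let Cw : Matrix (Fin N) (Fin N) W := Matrix.of fun j l => ⟨C j l, hC j l⟩
  have hCw : W.subtype.mapMatrix Cw = C := by
    ext j l
    rfl
  have hdetCw : ((Cw.det : W) : 𝔏) = x := by
    rw [← hdetC, ← hCw, ← RingHom.map_det]
    rfl
  have hu : IsUnit Cw.det := by
    have h1 : Cw.det = ⟨x, hxW⟩ := Subtype.ext hdetCw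
    rw [h1]
    exact ⟨⟨⟨x, hxW⟩, ⟨x⁻¹, hxi⟩, Subtype.ext (mul_inv_cancel₀ hx0),
      Subtype.ext (inv_mul_cancel₀ hx0)⟩, rfl⟩
  choose e he1 he2 using fun k => hφ.span (ψ k) (hψ k)
  have hgsum : g = ∑ l, f.repr ⟨g, hg⟩ l • ((f l : ↥(riemannRochSpace A')) : F) := by
    have h1 := congrArg (fun z : ↥(riemannRochSpace A') => (z : F)) (f.sum_repr ⟨g, hg⟩)
    simp only [Submodule.coe_sum, Submodule.coe_smul] at h1
    exact h1.symm
  let a : Fin N → W := fun l => ⟨algebraMap K 𝔏 (f.repr ⟨g, hg⟩ l), hKW _⟩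
  let E : Fin N → W := fun j => ∑ k, d k * ⟨e k j, he1 k j⟩
  have hE : ∀ j, E j ∈ IsLocalRing.maximalIdeal W := fun j =>
    Ideal.sum_mem _ fun k _ => Ideal.mul_mem_right _ _ (hd k)
  have hcoeCa : ∀ j, (((Cw.mulVec a) j : W) : 𝔏) =
      ∑ l, C j l * algebraMap K 𝔏 (f.repr ⟨g, hg⟩ l) := by
    intro j
    have e1 : (Cw.mulVec a) j = ∑ l, Cw j l * a l := rfl
    rw [e1]
    exact map_sum W.subtype (fun l => Cw j l * a l) Finset.univ
  have hcoeE : ∀ j, ((E j : W) : 𝔏) = ∑ k, (d k : 𝔏) * e k j := by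
    intro j
    exact map_sum W.subtype (fun k => d k * (⟨e k j, he1 k j⟩ : W)) Finset.univ
  have hkey : Cw.mulVec a = E := by
    have h𝔏 : (s27ptVal R φ).mulVec
        (fun j => (((Cw.mulVec a) j : W) : 𝔏) - ((E j : W) : 𝔏)) = 0 := by
      ext i
      change ∑ j, s27ptVal R φ i j * ((((Cw.mulVec a) j : W) : 𝔏) - ((E j : W) : 𝔏)) = 0
      have s1 : ∑ j, s27ptVal R φ i j * (((Cw.mulVec a) j : W) : 𝔏) = R i g := by
        calc ∑ j, s27ptVal R φ i j * (((Cw.mulVec a) j : W) : 𝔏)
            = ∑ j, ∑ l, s27ptVal R φ i j * (C j l * algebraMap K 𝔏 (f.repr ⟨g, hg⟩ l)) := by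
              refine Finset.sum_congr rfl fun j _ => ?_
              rw [hcoeCa, Finset.mul_sum]
          _ = ∑ l, ∑ j, s27ptVal R φ i j * (C j l * algebraMap K 𝔏 (f.repr ⟨g, hg⟩ l)) :=
              Finset.sum_comm
          _ = ∑ l, (∑ j, s27ptVal R φ i j * C j l) * algebraMap K 𝔏 (f.repr ⟨g, hg⟩ l) := by
              refine Finset.sum_congr rfl fun l _ => ?_
              rw [Finset.sum_mul]
              refine Finset.sum_congr rfl fun j _ => ?_
              ring
          _ = ∑ l, R i ((f l : ↥(riemannRochSpace A')) : F) *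
                algebraMap K 𝔏 (f.repr ⟨g, hg⟩ l) := by
              refine Finset.sum_congr rfl fun l _ => ?_
              have h2 := congrFun (congrFun hCeq i) l
              rw [s27ptVal_apply, Matrix.mul_apply] at h2
              rw [← h2]
          _ = R i g := by
              conv_rhs => rw [hgsum, map_sum]
              refine Finset.sum_congr rfl fun l _ => ?_
              rw [Algebra.smul_def, map_mul, AlgHom.commutes, mul_comm]
      have s2 : ∑ j, s27ptVal R φ i j * ((E j : W) : 𝔏) = R i g := by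
        calc ∑ j, s27ptVal R φ i j * ((E j : W) : 𝔏)
            = ∑ j, ∑ k, s27ptVal R φ i j * ((d k : 𝔏) * e k j) := by
              refine Finset.sum_congr rfl fun j _ => ?_
              rw [hcoeE, Finset.mul_sum]
          _ = ∑ k, ∑ j, s27ptVal R φ i j * ((d k : 𝔏) * e k j) := Finset.sum_comm
          _ = ∑ k, (d k : 𝔏) * R i (ψ k) := by
              refine Finset.sum_congr rfl fun k _ => ?_
              rw [he2 k i, Finset.mul_sum]
              refine Finset.sum_congr rfl fun j _ => ?_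
              rw [s27ptVal_apply]
              ring
          _ = R i g := (hval i).symm
      simp only [mul_sub, Finset.sum_sub_distrib]
      rw [s1, s2, sub_self]
    have h0 := Matrix.eq_zero_of_mulVec_eq_zero hφ.det_ne h𝔏
    funext j
    apply Subtype.ext
    exact sub_eq_zero.mp (congrFun h0 j)
  have hal : ∀ l, a l ∈ IsLocalRing.maximalIdeal W :=
    s17ucv_mem_of_mulVec _ Cw hu a fun i => by rw [hkey]; exact hE i
  have hc0 : ∀ l, f.repr ⟨g, hg⟩ l = 0 := by
    intro l
    by_contra hne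
    have hu' : IsUnit (a l) :=
      ⟨⟨a l, ⟨algebraMap K 𝔏 (f.repr ⟨g, hg⟩ l)⁻¹, hKW _⟩,
        Subtype.ext (by
          change algebraMap K 𝔏 _ * algebraMap K 𝔏 _ = 1
          rw [← map_mul, mul_inv_cancel₀ hne, map_one]),
        Subtype.ext (by
          change algebraMap K 𝔏 _ * algebraMap K 𝔏 _ = 1
          rw [← map_mul, inv_mul_cancel₀ hne, map_one])⟩, rfl⟩
    exact (IsLocalRing.mem_maximalIdeal _).mp (hal l) hu'
  rw [hgsum]
  exact Finset.sum_eq_zero fun l _ => by rw [hc0 l, zero_smul]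

/-- a nonzero constant has valuation `1`. -/
theorem s17ucg_val_const (v : Place K F) {c : K} (hc : c ≠ 0) :
    v.adicValuation (algebraMap K F c) = 1 := by
  have h0 : algebraMap K F c ≠ 0 := (map_ne_zero (algebraMap K F)).mpr hc
  rw [Fermat.Agent.S24.PlaceAux.adicValuation_eq_exp_neg_ord v h0,
    Fermat.Agent.S24.PlaceAux.ord_algebraMap, neg_zero, WithZero.exp_zero]

/-- **adapted pair by weak approximation**: `a` of exact order `-A'` at the centres, `t` regular
at the centres, and constants `c j` with `t - c j` a uniformiser at `Q j` and a unit at the other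
centres. -/
theorem s17ucg_exists_pair [Infinite K] {N : ℕ} (Q : Fin N → Place K F) (A' : Divisor K F) :
    ∃ (t a : F) (c : Fin N → K),
      (∀ i, (Q i).adicValuation a = exp (A' (Q i))) ∧
      (∀ i, (Q i).adicValuation t ≤ 1) ∧
      (∀ i j, Q j = Q i → (Q i).adicValuation (t - algebraMap K F (c j)) = exp (-1 : ℤ)) ∧
      (∀ i j, Q j ≠ Q i → (Q i).adicValuation (t - algebraMap K F (c j)) = 1) := by
  classical
  let ι := ↥(Set.range Q)
  have hu : Function.Injective (fun v : ι => (v : Place K F)) := Subtype.val_injective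
  -- an injection of the set of centres into `K`
  let emb : ι → K := fun v => Infinite.natEmbedding K ((Finite.equivFin ι v : Fin _) : ℕ)
  have hemb : Function.Injective emb := by
    intro v w h
    have h1 := (Infinite.natEmbedding K).injective h
    exact (Finite.equivFin ι).injective (Fin.val_injective h1)
  choose π hπ0 hπ using fun v : ι => s27adex_exists_unif (v : Place K F)
  have hπv : ∀ v : ι, (v : Place K F).adicValuation (π v) = exp (-1 : ℤ) := fun v => by
    rw [Fermat.Agent.S24.PlaceAux.adicValuation_eq_exp_neg_ord _ (hπ0 v), hπ v]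
  obtain ⟨t, ht⟩ := s27adex_approx (fun v : ι => (v : Place K F)) hu
    (fun v => algebraMap K F (emb v) + π v) 2
  -- exact orders
  choose t₀ ht₀0 ht₀ using fun v : ι => s17ucv_exists_exact (v : Place K F) (A' (v : Place K F))
  obtain ⟨n, hn⟩ : ∃ n : ℕ, ∀ i, exp (-(n : ℤ)) < exp (A' (Q i)) := by
    refine ⟨1 + ∑ i, (A' (Q i)).natAbs, fun i => ?_⟩
    rw [WithZero.exp_lt_exp]
    have h1 : (A' (Q i)).natAbs ≤ ∑ j, (A' (Q j)).natAbs :=
      Finset.single_le_sum (f := fun j => (A' (Q j)).natAbs) (fun _ _ => Nat.zero_le _)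
        (Finset.mem_univ i)
    have h2 : ((1 + ∑ j, (A' (Q j)).natAbs : ℕ) : ℤ) = 1 + ((∑ j, (A' (Q j)).natAbs : ℕ) : ℤ) := by
      push_cast
      rfl
    rw [h2]
    omega
  obtain ⟨a, ha⟩ := s27adex_approx (fun v : ι => (v : Place K F)) hu t₀ n
  have h21 : exp (-((2 : ℕ) : ℤ)) < exp (-1 : ℤ) := by
    rw [WithZero.exp_lt_exp]
    norm_num
  have h10 : exp (-1 : ℤ) < (1 : ℤᵐ⁰) := by
    rw [← WithZero.exp_zero, WithZero.exp_lt_exp]
    norm_num
  -- the rest `t - c_v - π_v`
  have hrest : ∀ v : ι, (v : Place K F).adicValuation (t - (algebraMap K F (emb v) + π v)) <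
      exp (-1 : ℤ) := fun v => lt_of_le_of_lt (ht v) h21
  have huni : ∀ v : ι, (v : Place K F).adicValuation (t - algebraMap K F (emb v)) =
      exp (-1 : ℤ) := by
    intro v
    have e1 : t - algebraMap K F (emb v) = π v + (t - (algebraMap K F (emb v) + π v)) := by ring
    rw [e1, Valuation.map_add_eq_of_lt_left, hπv]
    rw [hπv]
    exact hrest v
  refine ⟨t, a, fun j => emb ⟨Q j, j, rfl⟩, fun i => ?_, fun i => ?_, fun i j hji => ?_,
    fun i j hji => ?_⟩
  · -- exact order of `a`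
    have hv := ha ⟨Q i, i, rfl⟩
    have h1 : (Q i).adicValuation (a - t₀ ⟨Q i, i, rfl⟩) < (Q i).adicValuation (t₀ ⟨Q i, i, rfl⟩) := by
      rw [ht₀ ⟨Q i, i, rfl⟩]
      exact lt_of_le_of_lt hv (hn i)
    have e1 : a = t₀ ⟨Q i, i, rfl⟩ + (a - t₀ ⟨Q i, i, rfl⟩) := by ring
    rw [e1, Valuation.map_add_eq_of_lt_left _ h1]
    exact ht₀ ⟨Q i, i, rfl⟩
  · -- `t` is regular
    have e1 : t = (t - algebraMap K F (emb ⟨Q i, i, rfl⟩)) + algebraMap K F (emb ⟨Q i, i, rfl⟩) := by
      ring
    rw [e1]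
    refine (Valuation.map_add _ _ _).trans (max_le ?_ ((Q i).adicValuation_algebraMap_le_one _))
    rw [huni ⟨Q i, i, rfl⟩]
    exact h10.le
  · have e1 : (⟨Q j, j, rfl⟩ : ι) = ⟨Q i, i, rfl⟩ := Subtype.ext hji
    change (Q i).adicValuation (t - algebraMap K F (emb ⟨Q j, j, rfl⟩)) = _
    rw [e1]
    exact huni ⟨Q i, i, rfl⟩
  · have hne : emb ⟨Q i, i, rfl⟩ - emb ⟨Q j, j, rfl⟩ ≠ 0 := by
      intro h0
      have h1 := hemb (sub_eq_zero.mp h0)
      exact hji (congrArg Subtype.val h1).symm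
    have e1 : t - algebraMap K F (emb ⟨Q j, j, rfl⟩) =
        algebraMap K F (emb ⟨Q i, i, rfl⟩ - emb ⟨Q j, j, rfl⟩) +
          (t - algebraMap K F (emb ⟨Q i, i, rfl⟩)) := by
      rw [map_sub]
      ring
    change (Q i).adicValuation (t - algebraMap K F (emb ⟨Q j, j, rfl⟩)) = _
    rw [e1, Valuation.map_add_eq_of_lt_left, s17ucg_val_const _ hne]
    rw [s17ucg_val_const _ hne, huni ⟨Q i, i, rfl⟩]
    exact h10

/-- `exp` turns sums into products. -/
theorem s17ucg_prod_exp {α : Type*} (s : Finset α) (f : α → ℤ) :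
    ∏ j ∈ s, (exp (f j) : ℤᵐ⁰) = exp (∑ j ∈ s, f j) := by
  classical
  induction s using Finset.induction_on with
  | empty => simp
  | insert b s hb ih =>
    rw [Finset.prod_insert hb, Finset.sum_insert hb, ih, WithZero.exp_add]

variable {𝔏 : Type w} [Field 𝔏] [Algebra K 𝔏]
variable {N : ℕ} {W : ValuationSubring 𝔏} {R : Fin N → F →ₐ[K] 𝔏} {A' : Divisor K F}

/-- **UNIT-CONV, repeated centres**: `K` infinite, closed centres `Q i` (with repetitions), a local
equation `x` a unit of `W`.  Every `g ∈ L_K(A')` vanishing at each centre to the order of its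
multiplicity (relative to `A'`) is `0`. -/
theorem s17ucg_main [Infinite K] (Q : Fin N → Place K F)
    (hQ : ∀ i, S27ptIsCentre W (R i) (Q i))
    {x : 𝔏} (hx : S27ptIsIdx W R A' x) (hx0 : x ≠ 0) (hxi : x⁻¹ ∈ W)
    {g : F} (hg : g ∈ riemannRochSpace A')
    (hgQ : ∀ i, (Q i).adicValuation g ≤
      exp (A' (Q i) - (∑ j, Finsupp.single (Q j) (1 : ℤ)) (Q i))) : g = 0 := by
  classical
  rcases isEmpty_or_nonempty (Fin N) with hN | ⟨⟨i₀⟩⟩
  · obtain ⟨f, φ, hφ, hxeq⟩ := hx
    have h1 := congrArg (fun z : ↥(riemannRochSpace A') => (z : F)) (f.sum_repr ⟨g, hg⟩)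
    simp only [Finset.univ_eq_empty, Finset.sum_empty] at h1
    exact h1.symm
  have hKW : ∀ c : K, algebraMap K 𝔏 c ∈ W := s17ucv_const_mem (hQ i₀)
  obtain ⟨t, a, c, ha, ht1, htc1, htc2⟩ := s17ucg_exists_pair Q A'
  have h10 : exp (-1 : ℤ) < (1 : ℤᵐ⁰) := by
    rw [← WithZero.exp_zero, WithZero.exp_lt_exp]
    norm_num
  -- multiplicities
  have hm : ∀ i, (∑ j, Finsupp.single (Q j) (1 : ℤ)) (Q i) =
      ∑ j, if Q j = Q i then (1 : ℤ) else 0 := by
    intro i
    rw [Finsupp.finsetSum_apply]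
    refine Finset.sum_congr rfl fun j _ => ?_
    rw [Finsupp.single_apply]
  have hpv : ∀ i, (Q i).adicValuation (∏ j, (t - algebraMap K F (c j))) =
      exp (-(∑ j, Finsupp.single (Q j) (1 : ℤ)) (Q i)) := by
    intro i
    rw [map_prod, hm, ← Finset.sum_neg_distrib, ← s17ucg_prod_exp]
    refine Finset.prod_congr rfl fun j _ => ?_
    by_cases hji : Q j = Q i
    · rw [if_pos hji, htc1 i j hji]
    · rw [if_neg hji, htc2 i j hji, neg_zero, WithZero.exp_zero]
  have ha0 : a ≠ 0 := by
    intro h0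
    have h1 := ha i₀
    rw [h0, map_zero] at h1
    exact WithZero.exp_ne_zero h1.symm
  have hp0 : (∏ j, (t - algebraMap K F (c j))) ≠ 0 := by
    intro h0
    have h1 := hpv i₀
    rw [h0, map_zero] at h1
    exact WithZero.exp_ne_zero h1.symm
  have hgaph : g = a * (∏ j, (t - algebraMap K F (c j))) *
      (g / (a * ∏ j, (t - algebraMap K F (c j)))) := by
    field_simp
  have hhv : ∀ i, (Q i).adicValuation (g / (a * ∏ j, (t - algebraMap K F (c j)))) ≤ 1 := by
    intro i
    rw [map_div₀, map_mul, ha i, hpv i, ← WithZero.exp_add]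
    refine (div_le_one₀ WithZero.exp_pos).mpr ?_
    have h1 := hgQ i
    rwa [sub_eq_add_neg] at h1
  -- polynomials over `W`
  have htW : ∀ j, R j t ∈ W := fun j => s17ucv_mem_of_le (hQ j) (ht1 j)
  let τ : Fin N → W := fun j => ⟨R j t, htW j⟩
  let γ : Fin N → W := fun j => ⟨algebraMap K 𝔏 (c j), hKW _⟩
  have hτγ : ∀ j, τ j - γ j ∈ IsLocalRing.maximalIdeal W := by
    intro j
    have hm' : R j (t - algebraMap K F (c j)) ∈ W := by
      rw [map_sub, AlgHom.commutes]
      exact sub_mem (htW j) (hKW _)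
    have e1 : τ j - γ j = ⟨R j (t - algebraMap K F (c j)), hm'⟩ := by
      apply Subtype.ext
      change R j t - algebraMap K 𝔏 (c j) = R j (t - algebraMap K F (c j))
      rw [map_sub, AlgHom.commutes]
    rw [e1]
    refine s17ucv_mem_max (hQ j) ?_ hm'
    rw [htc1 j j rfl]
    exact h10
  let P : Polynomial W := ∏ j, (Polynomial.X - Polynomial.C (τ j))
  let Pb : Polynomial W := ∏ j, (Polynomial.X - Polynomial.C (γ j))
  let D : Polynomial W := Pb - P
  have hDcoeff : ∀ k, D.coeff k ∈ IsLocalRing.maximalIdeal W := by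
    intro k
    have h1 : D.map (IsLocalRing.residue W) = 0 := by
      simp only [D, P, Pb, Polynomial.map_sub, Polynomial.map_prod, Polynomial.map_X,
        Polynomial.map_C]
      rw [sub_eq_zero]
      refine Finset.prod_congr rfl fun j _ => ?_
      have h2 : IsLocalRing.residue W (τ j) = IsLocalRing.residue W (γ j) := by
        rw [← sub_eq_zero, ← map_sub]
        exact (IsLocalRing.residue_eq_zero_iff _).mpr (hτγ j)
      rw [h2]
    have h2 := congrArg (fun q => Polynomial.coeff q k) h1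
    simp only [Polynomial.coeff_map, Polynomial.coeff_zero] at h2
    exact (IsLocalRing.residue_eq_zero_iff _).mp h2
  have hPeval : ∀ i, P.eval (τ i) = 0 := by
    intro i
    simp only [P, Polynomial.eval_prod, Polynomial.eval_sub, Polynomial.eval_X,
      Polynomial.eval_C]
    exact Finset.prod_eq_zero (Finset.mem_univ i) (sub_self _)
  have hRp : ∀ i, R i (∏ j, (t - algebraMap K F (c j))) = ((Pb.eval (τ i) : W) : 𝔏) := by
    intro i
    simp only [Pb, Polynomial.eval_prod, Polynomial.eval_sub, Polynomial.eval_X,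
      Polynomial.eval_C]
    rw [map_prod]
    have h1 := map_prod W.subtype (fun j => τ i - γ j) Finset.univ
    refine Eq.trans ?_ h1.symm
    refine Finset.prod_congr rfl fun j _ => ?_
    rw [map_sub, AlgHom.commutes]
    rfl
  have hRp2 : ∀ i, R i (∏ j, (t - algebraMap K F (c j))) =
      ∑ k : Fin (D.natDegree + 1), ((D.coeff k : W) : 𝔏) * (R i t) ^ (k : ℕ) := by
    intro i
    have h1 : Pb.eval (τ i) = D.eval (τ i) := by
      simp only [D, Polynomial.eval_sub, hPeval i, sub_zero]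
    rw [hRp i, h1, Polynomial.eval_eq_sum_range, Finset.sum_range]
    exact map_sum W.subtype (fun k : Fin (D.natDegree + 1) => D.coeff k * τ i ^ (k : ℕ))
      Finset.univ
  -- apply the formal core
  refine s17ucg_formal hKW hx hx0 hxi hg
    (fun k : Fin (D.natDegree + 1) =>
      a * t ^ (k : ℕ) * (g / (a * ∏ j, (t - algebraMap K F (c j))))) ?_
    (fun k => D.coeff k) (fun k => hDcoeff k) ?_
  · intro k Q' i hi
    have hQ' : Q' = Q i := s17ucv_centre_unique (hQ i) hi
    rw [hQ', map_mul, map_mul, map_pow, ha i]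
    calc exp (A' (Q i)) * (Q i).adicValuation t ^ (k : ℕ) *
          (Q i).adicValuation (g / (a * ∏ j, (t - algebraMap K F (c j))))
        ≤ exp (A' (Q i)) * 1 * 1 :=
          mul_le_mul' (mul_le_mul' le_rfl (pow_le_one' (ht1 i) _)) (hhv i)
      _ = exp (A' (Q i)) := by rw [mul_one, mul_one]
  · intro i
    conv_lhs => rw [hgaph, map_mul, map_mul, hRp2 i, Finset.mul_sum, Finset.sum_mul]
    refine Finset.sum_congr rfl fun k _ => ?_
    rw [map_mul, map_mul, map_pow]
    ring

/-- **UNIT-CONV, repeated centres, divisor form**: `L_K(A' - Σ_i Q i) = ⊥` (centres counted with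
multiplicity) at a place `W` where a local equation is a unit. -/
theorem s17ucg_bot [Infinite K] (Q : Fin N → Place K F)
    (hQ : ∀ i, S27ptIsCentre W (R i) (Q i))
    {x : 𝔏} (hx : S27ptIsIdx W R A' x) (hx0 : x ≠ 0) (hxi : x⁻¹ ∈ W) :
    riemannRochSpace (A' - ∑ i, Finsupp.single (Q i) (1 : ℤ)) = ⊥ := by
  classical
  rw [eq_bot_iff]
  intro g hg
  rw [Submodule.mem_bot]
  have hnn : ∀ v : Place K F, 0 ≤ (∑ i, Finsupp.single (Q i) (1 : ℤ)) v := by
    intro v
    rw [Finsupp.finsetSum_apply]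
    refine Finset.sum_nonneg fun i _ => ?_
    rw [Finsupp.single_apply]
    split_ifs <;> norm_num
  have hgA : g ∈ riemannRochSpace A' := by
    intro v
    refine (hg v).trans ?_
    rw [WithZero.exp_le_exp, Finsupp.sub_apply]
    linarith [hnn v]
  refine s17ucg_main Q hQ hx hx0 hxi hgA fun i => ?_
  have h1 := hg (Q i)
  rwa [Finsupp.sub_apply] at h1

/-- **SPECIAL ⇒ NON-UNIT**, repeated centres. -/
theorem s17ucg_not_unit [Infinite K] (Q : Fin N → Place K F)
    (hQ : ∀ i, S27ptIsCentre W (R i) (Q i))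
    {x : 𝔏} (hx : S27ptIsIdx W R A' x) (hx0 : x ≠ 0)
    {g : F} (hg : g ∈ riemannRochSpace (A' - ∑ i, Finsupp.single (Q i) (1 : ℤ))) (hg0 : g ≠ 0) :
    x⁻¹ ∉ W := fun hxi => by
  have h1 := s17ucg_bot Q hQ hx hx0 hxi
  rw [h1, Submodule.mem_bot] at hg
  exact hg0 hg

end Fermat.Agent.S17
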