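/-
S17 sprint, layer H — **UNIT-CRIT** (helper82): the unit criterion for the local equation of the
theta divisor along a valuation subring `W ⊇ K`, at a tuple of points with CLOSED centres.

Setting of `S27/PtDef.lean`: `R : Fin N → F →ₐ[K] 𝔏` a tuple of points, `Q i` the centre of `R i`
along `W` (`S27ptIsCentre W (R i) (Q i)`: `W.comap (R i) = 𝒪_{Q i}`), residue fields `= K`.

* `s17uc_exists_value` : `g ∈ 𝒪_Q` has a value `e ∈ K`: `v_Q (g − e) < 1`;
* `s17uc_val_lt_one`   : `R` maps the maximal ideal of the centre into the maximal ideal of `W`;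
* `s17uc_det_unit`     : a matrix over `𝔏` congruent (mod `𝔪_W`) to a matrix over `K` with
                         `det ≠ 0` has a determinant that is a unit of `W`;
* **`s17uc_unit_core`** : if no `g ≠ 0` of `L_K(A')` satisfies `v_{Q i}(g) ≤ exp (A'(Q i) − 1)`
                         for all `i`, then EVERY local equation `x` (`S27ptIsIdx W R A' x`) is a
                         unit of `W` (`S27IsUnitIn W x`);
* **`s17uc_unit`**      : the same for pairwise DISTINCT centres, hypothesis in divisor form
                         `L_K(A' − Σ_i Q i) = ⊥`.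
This is the link `MOVING-RR ⇒ hmove` (S17/Bpf.lean) at the places with distinct closed centres.
-/
import Fermat.Agent.S27.PtDef
import Fermat.Agent.S27.Plan
import Fermat.Agent.S24.PlaceBasic

set_option autoImplicit false
set_option linter.unusedVariables false
set_option linter.unusedSectionVars false

noncomputable section

namespace Fermat.Agent.S17

open AlgebraicCurve Fermat.Agent.S24 Fermat.Agent.S27

universe u v w

variable {K : Type u} {F : Type v} [Field K] [Field F] [Algebra K F]
variable {𝔏 : Type w} [Field 𝔏] [Algebra K 𝔏]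

/-- `v_Q h < 1` in terms of `ord`. -/
theorem s17uc_lt_one_iff (Q : Place K F) (h : F) :
    Q.adicValuation h < 1 ↔ h = 0 ∨ 0 < Q.ord h := by
  rcases eq_or_ne h 0 with rfl | h0
  · simp
  · rw [Q.adicValuation_eq_exp_neg_ord h0, ← WithZero.exp_zero, WithZero.exp_lt_exp]
    constructor
    · intro h1
      exact Or.inr (by omega)
    · rintro (h1 | h1)
      · exact absurd h1 h0
      · omega

/-- an element of `𝒪_Q` has a value in `K` (residue field `K`). -/
theorem s17uc_exists_value (Q : Place K F)
    (hall : Function.Surjective (algebraMap K Q.ResidueField)) {g : F}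
    (hg : g ∈ Q.toValuationSubring) :
    ∃ e : K, Q.adicValuation (g - algebraMap K F e) < 1 := by
  obtain ⟨e, he⟩ := hall (IsLocalRing.residue _ ⟨g, hg⟩)
  refine ⟨e, ?_⟩
  have h1 : (⟨g, hg⟩ - algebraMap K Q.toValuationSubring e : Q.toValuationSubring) ∈
      IsLocalRing.maximalIdeal Q.toValuationSubring := by
    rw [← IsLocalRing.residue_eq_zero_iff, map_sub, sub_eq_zero, ← he]
    rfl
  have h2 := Q.adicValuation_coe (⟨g, hg⟩ - algebraMap K Q.toValuationSubring e)
  have h3 : Q.heightOneSpectrum.intValuation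
      (⟨g, hg⟩ - algebraMap K Q.toValuationSubring e) < 1 := by
    rw [IsDedekindDomain.HeightOneSpectrum.intValuation_lt_one_iff_mem]
    exact h1
  have h4 : ((⟨g, hg⟩ - algebraMap K Q.toValuationSubring e : Q.toValuationSubring) : F)
      = g - algebraMap K F e := rfl
  rw [← h4, h2]
  exact h3

/-- a point maps the maximal ideal of its centre into the maximal ideal of `W`. -/
theorem s17uc_val_lt_one {W : ValuationSubring 𝔏} {R : F →ₐ[K] 𝔏} {Q : Place K F}
    (hQ : S27ptIsCentre W R Q) {h : F} (hh : Q.adicValuation h < 1) :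
    W.valuation (R h) < 1 := by
  rcases eq_or_ne h 0 with rfl | h0
  · rw [map_zero, map_zero]
    exact zero_lt_one
  · have hmem : h ∈ Q.toValuationSubring := (PlaceAux.mem_iff_adicValuation_le_one Q h).2 hh.le
    have hinv : h⁻¹ ∉ Q.toValuationSubring := by
      intro hc
      have h1 := (PlaceAux.mem_iff_adicValuation_le_one Q h⁻¹).1 hc
      rw [map_inv₀] at h1
      have hpos : 0 < Q.adicValuation h := zero_lt_iff.2 (Q.adicValuation_ne_zero h0)
      have h2 : 1 ≤ Q.adicValuation h := (inv_le_one₀ hpos).1 h1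
      exact absurd hh (not_lt.2 h2)
    have h1 : R h ∈ W := by
      have h2 : h ∈ W.comap (R : F →+* 𝔏) := by
        rw [hQ]
        exact hmem
      exact h2
    have h2 : (R h)⁻¹ ∉ W := by
      intro hc
      apply hinv
      rw [← hQ]
      show (R : F →+* 𝔏) h⁻¹ ∈ W
      rw [map_inv₀]
      exact hc
    have h3 : W.valuation (R h) ≤ 1 := (W.valuation_le_one_iff _).2 h1
    rcases lt_or_eq_of_le h3 with h4 | h4
    · exact h4
    · exfalso
      apply h2
      apply (W.valuation_le_one_iff _).1
      rw [map_inv₀, h4, inv_one]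

/-- a matrix over `𝔏` that is congruent modulo `𝔪_W` to a matrix over `K` with non-zero
determinant has a determinant which is a unit of `W`. -/
theorem s17uc_det_unit (W : ValuationSubring 𝔏) (hKW : ∀ a : K, algebraMap K 𝔏 a ∈ W)
    {N : ℕ} (M : Matrix (Fin N) (Fin N) 𝔏) (E : Matrix (Fin N) (Fin N) K)
    (hME : ∀ i l, W.valuation (M i l - algebraMap K 𝔏 (E i l)) < 1) (hE : E.det ≠ 0) :
    S27IsUnitIn W M.det := by
  classical
  have hM : ∀ i l, M i l ∈ W := fun i l => by
    have h1 : M i l - algebraMap K 𝔏 (E i l) ∈ W := (W.valuation_le_one_iff _).1 (hME i l).le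
    have h2 := W.add_mem _ _ h1 (hKW (E i l))
    simpa using h2
  let MW : Matrix (Fin N) (Fin N) W := Matrix.of fun i l => ⟨M i l, hM i l⟩
  let k : K →+* W := (algebraMap K 𝔏).codRestrict W.toSubring hKW
  let ρ : W →+* IsLocalRing.ResidueField W := IsLocalRing.residue W
  have hred : ρ.mapMatrix MW = (ρ.comp k).mapMatrix E := by
    ext i l
    show ρ ⟨M i l, hM i l⟩ = ρ (k (E i l))
    rw [← sub_eq_zero, ← map_sub]
    show IsLocalRing.residue W _ = 0
    rw [IsLocalRing.residue_eq_zero_iff, ValuationSubring.valuation_lt_one_iff]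
    exact hME i l
  have hdet : ρ MW.det = (ρ.comp k) E.det := by
    rw [RingHom.map_det, hred, ← RingHom.map_det]
  have hne : ρ MW.det ≠ 0 := by
    rw [hdet]
    exact (map_ne_zero (ρ.comp k)).2 hE
  have hunit : IsUnit MW.det := by
    by_contra hnu
    exact hne ((IsLocalRing.residue_eq_zero_iff _).2 ((IsLocalRing.mem_maximalIdeal _).2 hnu))
  have hcoe : (MW.det : 𝔏) = M.det := by
    have h1 := RingHom.map_det W.subtype MW
    have h2 : W.subtype.mapMatrix MW = M := by
      ext i l
      rfl
    rw [h2] at h1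
    exact h1
  obtain ⟨u, hu⟩ := hunit
  have hmul : M.det * ((u⁻¹ : Wˣ) : W) = 1 := by
    rw [← hcoe, ← hu]
    have h1 : ((u : W) * ((u⁻¹ : Wˣ) : W) : W) = 1 := by simp
    exact_mod_cast congrArg (Subtype.val) h1
  have hne0 : M.det ≠ 0 := by
    intro h0
    rw [h0, zero_mul] at hmul
    exact zero_ne_one hmul
  refine ⟨hne0, ?_, ?_⟩
  · rw [← hcoe]
    exact MW.det.2
  · have h1 : M.det⁻¹ = (((u⁻¹ : Wˣ) : W) : 𝔏) := by
      rw [inv_eq_iff_eq_inv]
      exact (eq_inv_of_mul_eq_one_left hmul)
    rw [h1]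
    exact ((u⁻¹ : Wˣ) : W).2

/-- a scaling element of prescribed order at `Q`. -/
theorem s17uc_exists_scale (Q : Place K F) (a : ℤ) : ∃ s : F, s ≠ 0 ∧ Q.ord s = a := by
  obtain ⟨π, hπ⟩ := IsDiscreteValuationRing.exists_irreducible Q.toValuationSubring
  have hπF : (π : F) ≠ 0 := by
    simpa [ne_eq, ZeroMemClass.coe_eq_zero] using hπ.ne_zero
  refine ⟨(π : F) ^ a, zpow_ne_zero a hπF, ?_⟩
  rw [Q.ord_zpow, Q.ord_coe_irreducible hπ, mul_one]

/-- **UNIT-CRIT, core**: if no non-zero function of `L_K(A')` vanishes to the order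
`> −A'(Q i)` at every centre `Q i`, then every local equation along `W` is a unit of `W`. -/
theorem s17uc_unit_core
    (hall : ∀ P : Place K F, Function.Surjective (algebraMap K P.ResidueField))
    (W : ValuationSubring 𝔏) (hKW : ∀ a : K, algebraMap K 𝔏 a ∈ W)
    {N : ℕ} (R : Fin N → F →ₐ[K] 𝔏) (A' : Divisor K F)
    (Q : Fin N → Place K F) (hQ : ∀ i, S27ptIsCentre W (R i) (Q i))
    (hbot : ∀ g ∈ riemannRochSpace A',
      (∀ i, (Q i).adicValuation g ≤ WithZero.exp (A' (Q i) - 1)) → g = 0)
    {x : 𝔏} (hx : S27ptIsIdx W R A' x) : S27IsUnitIn W x := by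
  classical
  have hxW : x ∈ W := s27pt_idx_mem hx
  obtain ⟨f, φ, hφ, rfl⟩ := hx
  choose s hs0 hsord using fun i => s17uc_exists_scale (Q i) (A' (Q i))
  have hsmem : ∀ ψ ∈ s27ptF W R A', ∀ i, s i * ψ ∈ (Q i).toValuationSubring := by
    intro ψ hψ i
    rw [PlaceAux.mem_iff_adicValuation_le_one, map_mul,
      (Q i).adicValuation_eq_exp_neg_ord (hs0 i), hsord i]
    calc WithZero.exp (-(A' (Q i))) * (Q i).adicValuation ψ
        ≤ WithZero.exp (-(A' (Q i))) * WithZero.exp (A' (Q i)) :=
          mul_le_mul_right (hψ (Q i) i (hQ i)) _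
      _ = 1 := by
          rw [← WithZero.exp_add, neg_add_cancel, WithZero.exp_zero]
  have hfF : ∀ l, ((f l : ↥(riemannRochSpace A')) : F) ∈ s27ptF W R A' := fun l =>
    s27pt_rr_le W R A' (f l).2
  choose E hE using fun (i : Fin N) (l : Fin N) =>
    s17uc_exists_value (Q i) (hall (Q i)) (hsmem _ (hfF l) i)
  have hEdet : (Matrix.of E).det ≠ 0 := by
    intro h0
    obtain ⟨c, hc0, hc⟩ := Matrix.exists_mulVec_eq_zero_iff.2 h0
    have hgmem : (∑ l, c l • ((f l : ↥(riemannRochSpace A')) : F)) ∈ riemannRochSpace A' :=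
      Submodule.sum_mem _ fun l _ => Submodule.smul_mem _ _ (f l).2
    have hg0 : (∑ l, c l • ((f l : ↥(riemannRochSpace A')) : F)) = 0 := by
      apply hbot _ hgmem
      intro i
      have h4 : ∑ l, E i l * c l = 0 := by
        have h5 := congrFun hc i
        simpa [Matrix.mulVec, dotProduct] using h5
      have h3 : ∑ l, c l • algebraMap K F (E i l) = 0 := by
        have h6 : ∑ l, c l • algebraMap K F (E i l) = algebraMap K F (∑ l, E i l * c l) := by
          rw [map_sum]
          refine Finset.sum_congr rfl fun l _ => ?_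
          rw [Algebra.smul_def, ← map_mul, mul_comm]
        rw [h6, h4, map_zero]
      have h2 : s i * (∑ l, c l • ((f l : ↥(riemannRochSpace A')) : F))
          = ∑ l, c l • (s i * ((f l : ↥(riemannRochSpace A')) : F) - algebraMap K F (E i l)) := by
        simp only [smul_sub, Finset.sum_sub_distrib]
        rw [h3, sub_zero, Finset.mul_sum]
        refine Finset.sum_congr rfl fun l _ => ?_
        rw [mul_smul_comm]
      have h1 : (Q i).adicValuation
          (s i * (∑ l, c l • ((f l : ↥(riemannRochSpace A')) : F))) < 1 := by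
        rw [h2]
        refine Valuation.map_sum_lt _ one_ne_zero fun l _ => ?_
        rw [Algebra.smul_def, map_mul]
        calc (Q i).adicValuation (algebraMap K F (c l)) *
              (Q i).adicValuation (s i * ((f l : ↥(riemannRochSpace A')) : F)
                - algebraMap K F (E i l))
            ≤ 1 * (Q i).adicValuation (s i * ((f l : ↥(riemannRochSpace A')) : F)
                - algebraMap K F (E i l)) :=
              mul_le_mul_left ((Q i).adicValuation_algebraMap_le_one (c l)) _
          _ = (Q i).adicValuation (s i * ((f l : ↥(riemannRochSpace A')) : F)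
                - algebraMap K F (E i l)) := one_mul _
          _ < 1 := hE i l
      rcases eq_or_ne (∑ l, c l • ((f l : ↥(riemannRochSpace A')) : F)) 0 with hz | hz
      · rw [hz, map_zero]
        exact zero_le
      · rw [(Q i).adicValuation_le_exp_iff]
        right
        rcases (s17uc_lt_one_iff (Q i) _).1 h1 with h5 | h5
        · exact absurd h5 (mul_ne_zero (hs0 i) hz)
        · rw [(Q i).ord_mul (hs0 i) hz, hsord i] at h5
          omega
    have hc : c = 0 := by
      have h6 : ∑ l, c l • f l = 0 := by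
        apply Subtype.ext
        rw [Submodule.coe_sum]
        simpa using hg0
      have h7 := Fintype.linearIndependent_iff.1 f.linearIndependent c h6
      funext l
      exact h7 l
    exact hc0 hc
  -- the scaled matrices
  have hscale : ∀ ψ : Fin N → F, (Matrix.of fun i l => R i (s i * ψ l)).det
      = (∏ i, R i (s i)) * (s27ptVal R ψ).det := by
    intro ψ
    rw [← Matrix.det_mul_column]
    congr 1
    ext i l
    simp [s27ptVal, map_mul]
  have hP : (∏ i, R i (s i)) ≠ 0 :=
    Finset.prod_ne_zero_iff.2 fun i _ => (map_ne_zero (R i)).2 (hs0 i)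
  have hUf : S27IsUnitIn W
      (Matrix.of fun i l => R i (s i * ((f l : ↥(riemannRochSpace A')) : F))).det := by
    refine s17uc_det_unit W hKW _ (Matrix.of E) (fun i l => ?_) hEdet
    have h1 := s17uc_val_lt_one (hQ i) (hE i l)
    rw [map_sub, AlgHom.commutes] at h1
    exact h1
  have hφW : (Matrix.of fun i l => R i (s i * φ l)).det ∈ W := by
    refine s27pt_det_mem _ fun i l => ?_
    have h1 : s i * φ l ∈ W.comap ((R i : F →ₐ[K] 𝔏) : F →+* 𝔏) := by
      rw [hQ i]
      exact hsmem _ (hφ.mem l) i
    exact h1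
  rw [hscale] at hUf hφW
  have hdf : (s27ptValB R f).det ≠ 0 := by
    intro h0
    apply hUf.1
    show (∏ i, R i (s i)) * (s27ptValB R f).det = 0
    rw [h0, mul_zero]
  have hxe : (s27ptValB R f).det / (s27ptVal R φ).det
      = ((∏ i, R i (s i)) * (s27ptValB R f).det) / ((∏ i, R i (s i)) * (s27ptVal R φ).det) := by
    rw [mul_div_mul_left _ _ hP]
  refine ⟨div_ne_zero hdf hφ.det_ne, hxW, ?_⟩
  rw [hxe, inv_div, div_eq_mul_inv]
  exact W.mul_mem _ _ hφW hUf.2.2

/-- the sum of the centres of a tuple with pairwise distinct centres, at a centre. -/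
theorem s17uc_sum_single_same {N : ℕ} (Q : Fin N → Place K F) (hQinj : Function.Injective Q)
    (i : Fin N) : (∑ j, Finsupp.single (Q j) (1 : ℤ)) (Q i) = 1 := by
  classical
  rw [Finsupp.finsetSum_apply, Finset.sum_eq_single i]
  · exact Finsupp.single_eq_same
  · intro j _ hj
    exact Finsupp.single_eq_of_ne (fun e => hj (hQinj e.symm))
  · intro hi
    exact absurd (Finset.mem_univ i) hi

/-- the sum of the centres of a tuple, off the centres. -/
theorem s17uc_sum_single_of_ne {N : ℕ} (Q : Fin N → Place K F) (v : Place K F)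
    (h : ∀ j, Q j ≠ v) : (∑ j, Finsupp.single (Q j) (1 : ℤ)) v = 0 := by
  classical
  rw [Finsupp.finsetSum_apply]
  refine Finset.sum_eq_zero fun j _ => ?_
  exact Finsupp.single_eq_of_ne (fun e => h j e.symm)

/-- **UNIT-CRIT** for pairwise DISTINCT closed centres: `L_K(A' − Σ_i Q i) = ⊥` ⇒ every local
equation of the theta divisor of `A'` at the tuple `R` along `W` is a unit of `W`. -/
theorem s17uc_unit
    (hall : ∀ P : Place K F, Function.Surjective (algebraMap K P.ResidueField))
    (W : ValuationSubring 𝔏) (hKW : ∀ a : K, algebraMap K 𝔏 a ∈ W)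
    {N : ℕ} (R : Fin N → F →ₐ[K] 𝔏) (A' : Divisor K F)
    (Q : Fin N → Place K F) (hQ : ∀ i, S27ptIsCentre W (R i) (Q i))
    (hQinj : Function.Injective Q)
    (hbot : riemannRochSpace (A' - ∑ i, Finsupp.single (Q i) (1 : ℤ)) = ⊥)
    {x : 𝔏} (hx : S27ptIsIdx W R A' x) : S27IsUnitIn W x := by
  classical
  refine s17uc_unit_core hall W hKW R A' Q hQ (fun g hg hgQ => ?_) hx
  have hmem : g ∈ riemannRochSpace (A' - ∑ i, Finsupp.single (Q i) (1 : ℤ)) := by
    intro v
    rw [Finsupp.sub_apply]
    by_cases h : ∃ i, Q i = v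
    · obtain ⟨i, rfl⟩ := h
      rw [s17uc_sum_single_same Q hQinj i]
      exact hgQ i
    · rw [s17uc_sum_single_of_ne Q v (fun j e => h ⟨j, e⟩), sub_zero]
      exact hg v
  rw [hbot] at hmem
  exact (Submodule.mem_bot K).1 hmem

end Fermat.Agent.S17
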