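/-
S17 sprint (item 17), layer H, leaf **H-EXT** (helper15) = price (b) of the Γ-stable inf-design
(helper61, note 06:45Z): **the number of extensions of a valuation subring to a finite field
extension is at most the degree.**  Pure Mathlib.

Setting: `L / K` a field extension, `V` a valuation subring of `K` containing an infinite field of
constants `k` (for S17: `k = ℚ̄` or `ℚ`, `V` a `K`-place of a function field).

* `s17ve_eq_of_le`   : (`L / K` algebraic) two extensions `W ≤ W'` of `V` are EQUAL
                        (extensions are pairwise incomparable);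
* `s17ve_exists_unit_nonunit` : distinct extensions `W ≠ W'` are separated by some `y`,
                        `v_W y = 1`, `v_W' y < 1`;
* `s17ve_exists_sep` : for finitely many valuation subrings `U ∈ s` containing the constants and
                        `y : L` there is `z = y / (1 + c y²)` (`c` a constant) with `v_U z = 1`
                        where `v_U y = 1` and `v_U z < 1` elsewhere (in particular `z ∈ ⋂ U`);
* `s17ve_card_le`    : (`L / K` finite) a finset of extensions of `V` has at most `[L : K]`
                        elements (the products `x_W = ∏_{W' ≠ W} z_{W,W'}` are `K`-linearly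
                        independent);
* `s17ve_finite`, `s17ve_ncard_le` : the set of all extensions is finite of cardinality
                        `≤ [L : K]`.
-/
import Mathlib

set_option autoImplicit false

namespace Fermat.Agent.S17

section Basic

variable {K L : Type*} [Field K] [Field L] [Algebra K L]

theorem s17ve_map_le_one_iff (V : ValuationSubring K) (W : ValuationSubring L)
    (h : W.comap (algebraMap K L) = V) (c : K) :
    W.valuation (algebraMap K L c) ≤ 1 ↔ V.valuation c ≤ 1 := by
  rw [W.valuation_le_one_iff, V.valuation_le_one_iff, ← h, ValuationSubring.mem_comap]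

theorem s17ve_map_lt_one_iff (V : ValuationSubring K) (W : ValuationSubring L)
    (h : W.comap (algebraMap K L) = V) (c : K) :
    W.valuation (algebraMap K L c) < 1 ↔ V.valuation c < 1 := by
  rw [← ValuationSubring.mem_nonunits_iff, ← ValuationSubring.mem_nonunits_iff,
    ValuationSubring.mem_nonunits_iff_or, ValuationSubring.mem_nonunits_iff_or, ← h,
    ValuationSubring.mem_comap, map_inv₀]
  constructor
  · rintro (h0 | h1)
    · left
      exact (map_eq_zero_iff _ (algebraMap K L).injective).1 h0
    · right; exact h1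
  · rintro (h0 | h1)
    · left; rw [h0, map_zero]
    · right; exact h1

theorem s17ve_map_eq_one_iff (V : ValuationSubring K) (W : ValuationSubring L)
    (h : W.comap (algebraMap K L) = V) (c : K) :
    W.valuation (algebraMap K L c) = 1 ↔ V.valuation c = 1 := by
  have h1 := s17ve_map_le_one_iff V W h c
  have h2 := s17ve_map_lt_one_iff V W h c
  constructor
  · intro e
    have a1 : V.valuation c ≤ 1 := h1.1 e.le
    have a2 : ¬ V.valuation c < 1 := fun hlt => (h2.2 hlt).ne e
    exact le_antisymm a1 (not_lt.1 a2)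
  · intro e
    have a1 : W.valuation (algebraMap K L c) ≤ 1 := h1.2 e.le
    have a2 : ¬ W.valuation (algebraMap K L c) < 1 := fun hlt => (h2.1 hlt).ne e
    exact le_antisymm a1 (not_lt.1 a2)

theorem s17ve_lt_one_of_le {W W' : ValuationSubring L} (hWW : W ≤ W') {z : L}
    (hz : W'.valuation z < 1) : W.valuation z < 1 := by
  rw [← ValuationSubring.mem_nonunits_iff, ValuationSubring.mem_nonunits_iff_or] at hz ⊢
  rcases hz with h0 | h1
  · left; exact h0
  · right; exact fun h => h1 (hWW h)

/-- **extensions of a valuation subring to an algebraic extension are incomparable** -/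
theorem s17ve_eq_of_le [Algebra.IsAlgebraic K L] (V : ValuationSubring K)
    {W W' : ValuationSubring L} (hW : W.comap (algebraMap K L) = V)
    (hW' : W'.comap (algebraMap K L) = V) (hWW : W ≤ W') : W = W' := by
  refine le_antisymm hWW fun x hx => ?_
  by_contra hxW
  have hx0 : x ≠ 0 := fun h => hxW (h ▸ W.zero_mem)
  -- valuations of `x`
  have hw1 : 1 < W.valuation x := by
    rw [← not_le, W.valuation_le_one_iff]; exact hxW
  have hwx0 : W.valuation x ≠ 0 := (zero_lt_one.trans hw1).ne'
  have hw'x : W'.valuation x = 1 := by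
    have h1 : W'.valuation x ≤ 1 := (W'.valuation_le_one_iff x).2 hx
    have h2 : x⁻¹ ∈ W := (W.mem_or_inv_mem x).resolve_left hxW
    have h3 : W'.valuation x⁻¹ ≤ 1 := (W'.valuation_le_one_iff _).2 (hWW h2)
    rw [map_inv₀] at h3
    have h4 : W'.valuation x ≠ 0 := by
      rw [Ne, map_eq_zero]; exact hx0
    have h5 : 1 ≤ W'.valuation x := by
      rwa [inv_le_one₀ (zero_lt_iff.2 h4)] at h3
    exact le_antisymm h1 h5
  -- an algebraic relation
  obtain ⟨p, hp0, hp⟩ := (Algebra.IsAlgebraic.isAlgebraic (R := K) x)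
  rw [Polynomial.aeval_eq_sum_range] at hp
  set S := Finset.range (p.natDegree + 1) with hS
  have hSne : S.Nonempty := ⟨0, by simp [hS]⟩
  obtain ⟨i₁, hi₁, hmax⟩ := Finset.exists_max_image S (fun i => V.valuation (p.coeff i)) hSne
  have hc0 : p.coeff i₁ ≠ 0 := by
    intro h0
    apply hp0
    ext i
    rw [Polynomial.coeff_zero]
    by_cases hi : i ∈ S
    · have := hmax i hi
      rw [h0, map_zero] at this
      exact (map_eq_zero _).1 (le_antisymm this zero_le)
    · apply Polynomial.coeff_eq_zero_of_natDegree_lt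
      rw [hS, Finset.mem_range] at hi
      omega
  have hvc0 : V.valuation (p.coeff i₁) ≠ 0 := by rw [Ne, map_eq_zero]; exact hc0
  set a : ℕ → K := fun i => p.coeff i / p.coeff i₁ with ha
  have hale : ∀ i ∈ S, V.valuation (a i) ≤ 1 := by
    intro i hi
    rw [ha]
    simp only
    rw [map_div₀, div_le_one₀ (zero_lt_iff.2 hvc0)]
    exact hmax i hi
  have ha1 : V.valuation (a i₁) = 1 := by
    rw [ha]; simp only
    rw [div_self hc0, map_one]
  have hrel : ∑ i ∈ S, algebraMap K L (a i) * x ^ i = 0 := by
    have h1 : ∑ i ∈ S, algebraMap K L (a i) * x ^ i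
        = (algebraMap K L (p.coeff i₁))⁻¹ * ∑ i ∈ S, p.coeff i • x ^ i := by
      rw [Finset.mul_sum]
      refine Finset.sum_congr rfl fun i _ => ?_
      rw [ha]; simp only
      rw [map_div₀, Algebra.smul_def]
      ring
    rw [h1, hp, mul_zero]
  -- the largest unit index
  set Fs := S.filter (fun i => V.valuation (a i) = 1) with hFs
  have hFne : Fs.Nonempty := ⟨i₁, by rw [hFs, Finset.mem_filter]; exact ⟨hi₁, ha1⟩⟩
  obtain ⟨i₀, hi₀, hi₀max⟩ := Finset.exists_max_image Fs (fun i => i) hFne
  rw [hFs, Finset.mem_filter] at hi₀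
  obtain ⟨hi₀S, hi₀1⟩ := hi₀
  have hsplit : algebraMap K L (a i₀) * x ^ i₀
      = - ∑ i ∈ S.erase i₀, algebraMap K L (a i) * x ^ i := by
    rw [← Finset.add_sum_erase S _ hi₀S] at hrel
    exact eq_neg_of_add_eq_zero_left hrel
  have hlhs : W.valuation (algebraMap K L (a i₀) * x ^ i₀) = W.valuation x ^ i₀ := by
    rw [map_mul, (s17ve_map_eq_one_iff V W hW _).2 hi₀1, one_mul, map_pow]
  have hpow0 : W.valuation x ^ i₀ ≠ 0 := pow_ne_zero _ hwx0
  have hrhs : W.valuation (∑ i ∈ S.erase i₀, algebraMap K L (a i) * x ^ i)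
      < W.valuation x ^ i₀ := by
    refine Valuation.map_sum_lt _ hpow0 fun i hi => ?_
    rw [Finset.mem_erase] at hi
    obtain ⟨hne, hiS⟩ := hi
    rcases lt_or_gt_of_ne hne with hlt | hgt
    · -- `i < i₀`
      rw [map_mul, map_pow]
      have h1 : W.valuation (algebraMap K L (a i)) ≤ 1 :=
        (s17ve_map_le_one_iff V W hW _).2 (hale i hiS)
      have h2 : W.valuation x ^ i < W.valuation x ^ i₀ := pow_lt_pow_right₀ hw1 hlt
      calc W.valuation (algebraMap K L (a i)) * W.valuation x ^ i
          ≤ 1 * W.valuation x ^ i := by gcongr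
        _ = W.valuation x ^ i := one_mul _
        _ < W.valuation x ^ i₀ := h2
    · -- `i₀ < i`
      have hnotF : ¬ V.valuation (a i) = 1 := by
        intro h1
        have : i ∈ Fs := by rw [hFs, Finset.mem_filter]; exact ⟨hiS, h1⟩
        have h9 : i ≤ i₀ := hi₀max i this
        omega
      have hlt1 : V.valuation (a i) < 1 := lt_of_le_of_ne (hale i hiS) hnotF
      have h1 : W'.valuation (algebraMap K L (a i) * x ^ (i - i₀)) < 1 := by
        rw [map_mul, map_pow, hw'x, one_pow, mul_one]
        exact (s17ve_map_lt_one_iff V W' hW' _).2 hlt1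
      have h2 := s17ve_lt_one_of_le hWW h1
      have h3 : algebraMap K L (a i) * x ^ i
          = (algebraMap K L (a i) * x ^ (i - i₀)) * x ^ i₀ := by
        rw [mul_assoc, ← pow_add, Nat.sub_add_cancel hgt.le]
      rw [h3, map_mul, map_pow]
      calc W.valuation (algebraMap K L (a i) * x ^ (i - i₀)) * W.valuation x ^ i₀
          < 1 * W.valuation x ^ i₀ := by
            exact mul_lt_mul_of_pos_right h2 (zero_lt_iff.2 hpow0)
        _ = W.valuation x ^ i₀ := one_mul _
  rw [hsplit, Valuation.map_neg] at hlhs
  exact hrhs.ne hlhs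

end Basic

section Sep

variable {k L : Type*} [Field k] [Field L] [Algebra k L]

/-- nonzero constants are units of every valuation subring containing the constants -/
theorem s17ve_const (W : ValuationSubring L) (hk : ∀ c : k, algebraMap k L c ∈ W) {c : k}
    (hc : c ≠ 0) : W.valuation (algebraMap k L c) = 1 := by
  have h1 : W.valuation (algebraMap k L c) ≤ 1 := (W.valuation_le_one_iff _).2 (hk c)
  have h2 : W.valuation (algebraMap k L c⁻¹) ≤ 1 := (W.valuation_le_one_iff _).2 (hk c⁻¹)
  rw [map_inv₀, map_inv₀] at h2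
  have h3 : W.valuation (algebraMap k L c) ≠ 0 := by
    rw [Ne, map_eq_zero, map_eq_zero_iff _ (algebraMap k L).injective]; exact hc
  have h4 : 1 ≤ W.valuation (algebraMap k L c) := by
    rwa [inv_le_one₀ (zero_lt_iff.2 h3)] at h2
  exact le_antisymm h1 h4

/-- the bad constants for `U` form a subsingleton -/
theorem s17ve_bad_subsingleton (U : ValuationSubring L) (hk : ∀ c : k, algebraMap k L c ∈ U)
    (y : L) (hy : U.valuation y = 1) :
    {c : k | U.valuation (1 + algebraMap k L c * y ^ 2) < 1}.Subsingleton := by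
  intro c hc c' hc'
  by_contra hne
  have hd : c - c' ≠ 0 := sub_ne_zero.2 hne
  have h1 : U.valuation ((1 + algebraMap k L c * y ^ 2) - (1 + algebraMap k L c' * y ^ 2)) < 1 :=
    Valuation.map_sub_lt _ hc hc'
  have h2 : (1 + algebraMap k L c * y ^ 2) - (1 + algebraMap k L c' * y ^ 2)
      = algebraMap k L (c - c') * y ^ 2 := by rw [map_sub]; ring
  rw [h2, map_mul, map_pow, hy, one_pow, mul_one, s17ve_const U hk hd] at h1
  exact lt_irrefl _ h1

/-- a constant `c ≠ 0` with `1 + c y²` a unit wherever `y` is a unit -/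
theorem s17ve_exists_const [Infinite k] (s : Finset (ValuationSubring L))
    (hk : ∀ U ∈ s, ∀ c : k, algebraMap k L c ∈ U) (y : L) :
    ∃ c : k, c ≠ 0 ∧ ∀ U ∈ s, U.valuation y = 1 →
      U.valuation (1 + algebraMap k L c * y ^ 2) = 1 := by
  classical
  set B : Set k := {0} ∪ ⋃ U ∈ s, {c : k | U.valuation y = 1 ∧
    U.valuation (1 + algebraMap k L c * y ^ 2) < 1} with hB
  have hfin : B.Finite := by
    refine (Set.finite_singleton 0).union ?_
    refine Set.Finite.biUnion s.finite_toSet fun U hU => ?_
    by_cases hy : U.valuation y = 1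
    · refine Set.Subsingleton.finite ?_
      intro c hc c' hc'
      exact s17ve_bad_subsingleton U (hk U hU) y hy hc.2 hc'.2
    · have : {c : k | U.valuation y = 1 ∧
          U.valuation (1 + algebraMap k L c * y ^ 2) < 1} = ∅ := by
        ext c
        simp [hy]
      rw [this]
      exact Set.finite_empty
  obtain ⟨c, -, hc⟩ := (Set.infinite_univ (α := k)).exists_notMem_finite hfin
  rw [hB, Set.mem_union, not_or] at hc
  obtain ⟨hc0, hcU⟩ := hc
  refine ⟨c, fun h => hc0 (by rw [h]; exact Set.mem_singleton 0), fun U hU hy => ?_⟩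
  have hnlt : ¬ U.valuation (1 + algebraMap k L c * y ^ 2) < 1 := by
    intro hlt
    apply hcU
    simp only [Set.mem_iUnion]
    exact ⟨U, hU, hy, hlt⟩
  have hle : U.valuation (1 + algebraMap k L c * y ^ 2) ≤ 1 := by
    rw [U.valuation_le_one_iff]
    have hyU : y ∈ U := (U.valuation_le_one_iff y).1 hy.le
    exact U.add_mem _ _ U.one_mem (U.mul_mem _ _ (hk U hU c) (U.toSubring.pow_mem hyU 2))
  exact le_antisymm hle (not_lt.1 hnlt)

/-- **the separating element**: `z = y / (1 + c y²)` lies in every `U ∈ s`, is a unit where `y`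
is a unit and a non-unit elsewhere. -/
theorem s17ve_exists_sep [Infinite k] (s : Finset (ValuationSubring L))
    (hk : ∀ U ∈ s, ∀ c : k, algebraMap k L c ∈ U) (y : L) :
    ∃ z : L, ∀ U ∈ s, (U.valuation y = 1 → U.valuation z = 1) ∧
      (U.valuation y ≠ 1 → U.valuation z < 1) := by
  obtain ⟨c, hc0, hc⟩ := s17ve_exists_const s hk y
  refine ⟨y / (1 + algebraMap k L c * y ^ 2), fun U hU => ⟨fun hy => ?_, fun hy => ?_⟩⟩
  · rw [map_div₀, hc U hU hy, hy, div_one]
  · rcases lt_or_gt_of_ne hy with hlt | hgt
    · -- `v y < 1`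
      have h1 : U.valuation (algebraMap k L c * y ^ 2) < 1 := by
        rw [map_mul, map_pow, s17ve_const U (hk U hU) hc0, one_mul]
        exact pow_lt_one₀ zero_le hlt (by norm_num)
      rw [map_div₀, Valuation.map_one_add_of_lt _ h1, div_one]
      exact hlt
    · -- `1 < v y`
      have hy0 : U.valuation y ≠ 0 := (zero_lt_one.trans hgt).ne'
      have h1 : U.valuation (algebraMap k L c * y ^ 2) = U.valuation y ^ 2 := by
        rw [map_mul, map_pow, s17ve_const U (hk U hU) hc0, one_mul]
      have h2 : U.valuation (1 : L) < U.valuation (algebraMap k L c * y ^ 2) := by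
        rw [h1, map_one]
        exact one_lt_pow₀ hgt (by norm_num)
      rw [map_div₀, Valuation.map_add_eq_of_lt_right _ h2, h1]
      have h3 : U.valuation y / U.valuation y ^ 2 = (U.valuation y)⁻¹ := by
        rw [pow_two, div_mul_eq_div_div, div_self hy0, one_div]
      rw [h3]
      exact (inv_lt_one₀ (zero_lt_iff.2 hy0)).2 hgt

end Sep

section Count

variable {k K L : Type*} [Field k] [Infinite k] [Field K] [Field L] [Algebra k K] [Algebra K L]
  [Algebra k L] [IsScalarTower k K L]

omit [Infinite k] in
/-- the constants lie in every extension -/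
theorem s17ve_const_mem (V : ValuationSubring K) (hk : ∀ c : k, algebraMap k K c ∈ V)
    (W : ValuationSubring L) (hW : W.comap (algebraMap K L) = V) (c : k) :
    algebraMap k L c ∈ W := by
  rw [IsScalarTower.algebraMap_apply k K L, ← ValuationSubring.mem_comap, hW]
  exact hk c

omit [Infinite k] [Field k] [Algebra k K] [Algebra k L] [IsScalarTower k K L] in
/-- two distinct extensions are separated by a unit of the first which is a non-unit of the
second -/
theorem s17ve_exists_unit_nonunit [Algebra.IsAlgebraic K L] (V : ValuationSubring K)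
    {W W' : ValuationSubring L} (hW : W.comap (algebraMap K L) = V)
    (hW' : W'.comap (algebraMap K L) = V) (hne : W ≠ W') :
    ∃ y : L, W.valuation y = 1 ∧ W'.valuation y < 1 := by
  have hnle : ¬ W ≤ W' := fun h => hne (s17ve_eq_of_le V hW hW' h)
  obtain ⟨a, haW, haW'⟩ := SetLike.not_le_iff_exists.1 hnle
  have h1 : W.valuation a ≤ 1 := (W.valuation_le_one_iff a).2 haW
  have h2 : 1 < W'.valuation a := by
    rw [← not_le, W'.valuation_le_one_iff]; exact haW'
  -- a unit `b` of `W` outside `W'`
  obtain ⟨b, hb1, hb2⟩ : ∃ b : L, W.valuation b = 1 ∧ 1 < W'.valuation b := by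
    rcases h1.lt_or_eq with hlt | heq
    · refine ⟨1 + a, Valuation.map_one_add_of_lt _ hlt, ?_⟩
      have h3 : W'.valuation (1 : L) < W'.valuation a := by rw [map_one]; exact h2
      rw [Valuation.map_add_eq_of_lt_right _ h3]
      exact h2
    · exact ⟨a, heq, h2⟩
  refine ⟨b⁻¹, by rw [map_inv₀, hb1, inv_one], ?_⟩
  rw [map_inv₀]
  exact (inv_lt_one₀ (zero_lt_one.trans hb2)).2 hb2

/-- **the number of extensions of a valuation subring to a finite extension is at most the
degree** (finset form; `V` contains an infinite field of constants). -/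
theorem s17ve_card_le [FiniteDimensional K L] (V : ValuationSubring K)
    (hk : ∀ c : k, algebraMap k K c ∈ V) (s : Finset (ValuationSubring L))
    (hs : ∀ W ∈ s, W.comap (algebraMap K L) = V) : s.card ≤ Module.finrank K L := by
  classical
  have hkU : ∀ U ∈ s, ∀ c : k, algebraMap k L c ∈ U := fun U hU c =>
    s17ve_const_mem V hk U (hs U hU) c
  -- the separating elements
  have hex : ∀ W W' : ValuationSubring L, ∃ z : L, W ∈ s → W' ∈ s → W ≠ W' →
      (∀ U ∈ s, U.valuation z ≤ 1) ∧ W.valuation z = 1 ∧ W'.valuation z < 1 := by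
    intro W W'
    by_cases h : W ∈ s ∧ W' ∈ s ∧ W ≠ W'
    · obtain ⟨hW, hW', hne⟩ := h
      obtain ⟨y, hy1, hy2⟩ := s17ve_exists_unit_nonunit V (hs W hW) (hs W' hW') hne
      obtain ⟨z, hz⟩ := s17ve_exists_sep (k := k) s hkU y
      refine ⟨z, fun _ _ _ => ⟨fun U hU => ?_, (hz W hW).1 hy1, (hz W' hW').2 hy2.ne⟩⟩
      by_cases hyU : U.valuation y = 1
      · exact ((hz U hU).1 hyU).le
      · exact ((hz U hU).2 hyU).le
    · refine ⟨0, fun h1 h2 h3 => (h ⟨h1, h2, h3⟩).elim⟩
  choose z hz using hex
  -- the elements `x W`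
  set x : ValuationSubring L → L := fun W => ∏ W' ∈ s.erase W, z W W' with hx
  have hx1 : ∀ W ∈ s, W.valuation (x W) = 1 := by
    intro W hW
    rw [hx]; simp only
    rw [map_prod]
    refine Finset.prod_eq_one fun W' hW' => ?_
    rw [Finset.mem_erase] at hW'
    exact (hz W W' hW hW'.2 (Ne.symm hW'.1)).2.1
  have hx2 : ∀ W ∈ s, ∀ W' ∈ s, W ≠ W' → W'.valuation (x W) < 1 := by
    intro W hW W' hW' hne
    rw [hx]; simp only
    have hmem : W' ∈ s.erase W := Finset.mem_erase.2 ⟨Ne.symm hne, hW'⟩
    rw [← Finset.mul_prod_erase _ _ hmem, map_mul, map_prod]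
    have h1 : W'.valuation (z W W') < 1 := (hz W W' hW hW' hne).2.2
    have h2 : ∏ i ∈ (s.erase W).erase W', W'.valuation (z W i) ≤ 1 := by
      refine Finset.prod_le_one' fun U hU => ?_
      rw [Finset.mem_erase, Finset.mem_erase] at hU
      exact (hz W U hW hU.2.2 (Ne.symm hU.2.1)).1 W' hW'
    exact lt_of_le_of_lt (mul_le_of_le_one_right' h2) h1
  -- linear independence
  have hli : LinearIndependent K (fun W : s => x W.1) := by
    rw [linearIndependent_iff']
    intro t g hsum
    intro i hit
    by_contra hgi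
    obtain ⟨i₀, hi₀, hmax⟩ := Finset.exists_max_image t (fun j => V.valuation (g j)) ⟨i, hit⟩
    have hg0 : g i₀ ≠ 0 := by
      intro h0
      have h1 := hmax i hit
      simp only [h0, map_zero] at h1
      exact hgi ((map_eq_zero _).1 (le_antisymm h1 zero_le))
    have hvg0 : V.valuation (g i₀) ≠ 0 := by rw [Ne, map_eq_zero]; exact hg0
    have hsplit : x i₀.1 = - ∑ j ∈ t.erase i₀, algebraMap K L (g j / g i₀) * x j.1 := by
      rw [← Finset.add_sum_erase t _ hi₀] at hsum
      have h1 : g i₀ • x i₀.1 = - ∑ j ∈ t.erase i₀, g j • x j.1 :=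
        eq_neg_of_add_eq_zero_left hsum
      have h2 : x i₀.1 = (algebraMap K L (g i₀))⁻¹ * (g i₀ • x i₀.1) := by
        rw [Algebra.smul_def, ← mul_assoc, inv_mul_cancel₀, one_mul]
        rw [Ne, map_eq_zero_iff _ (algebraMap K L).injective]; exact hg0
      rw [h2, h1, mul_neg, Finset.mul_sum]
      congr 1
      refine Finset.sum_congr rfl fun j _ => ?_
      rw [Algebra.smul_def, map_div₀]
      ring
    have hlt : i₀.1.valuation (∑ j ∈ t.erase i₀, algebraMap K L (g j / g i₀) * x j.1) < 1 := by
      refine Valuation.map_sum_lt _ one_ne_zero fun j hj => ?_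
      rw [Finset.mem_erase] at hj
      have hne : j.1 ≠ i₀.1 := fun h => hj.1 (Subtype.ext h)
      have h1 : i₀.1.valuation (x j.1) < 1 := hx2 j.1 j.2 i₀.1 i₀.2 hne
      have h2 : i₀.1.valuation (algebraMap K L (g j / g i₀)) ≤ 1 := by
        rw [s17ve_map_le_one_iff V i₀.1 (hs i₀.1 i₀.2), map_div₀,
          div_le_one₀ (zero_lt_iff.2 hvg0)]
        exact hmax j hj.2
      rw [map_mul]
      exact lt_of_le_of_lt (mul_le_of_le_one_left' h2) h1
    have h1 := hx1 i₀.1 i₀.2
    rw [hsplit, Valuation.map_neg] at h1
    exact hlt.ne h1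
  have := hli.fintype_card_le_finrank
  rwa [Fintype.card_coe] at this

/-- **the extensions of a valuation subring to a finite extension form a finite set.** -/
theorem s17ve_finite [FiniteDimensional K L] (V : ValuationSubring K)
    (hk : ∀ c : k, algebraMap k K c ∈ V) :
    {W : ValuationSubring L | W.comap (algebraMap K L) = V}.Finite := by
  by_contra hinf
  obtain ⟨t, ht, hcard⟩ := Set.Infinite.exists_subset_card_eq hinf (Module.finrank K L + 1)
  have := s17ve_card_le (k := k) V hk t (fun W hW => ht hW)
  omega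

/-- **… of cardinality at most the degree.** -/
theorem s17ve_ncard_le [FiniteDimensional K L] (V : ValuationSubring K)
    (hk : ∀ c : k, algebraMap k K c ∈ V) :
    {W : ValuationSubring L | W.comap (algebraMap K L) = V}.ncard ≤ Module.finrank K L := by
  have hfin := s17ve_finite (k := k) (L := L) V hk
  rw [Set.ncard_eq_toFinset_card _ hfin]
  refine s17ve_card_le (k := k) V hk _ fun W hW => ?_
  exact (Set.Finite.mem_toFinset hfin).1 hW

end Count

end Fermat.Agent.S17
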