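/-
S17 sprint, block W (weak Mordell–Weil), leaf **W2′** (helper29): the COHOMOLOGICAL route to
weak Mordell–Weil for an ODD prime `p` — NO Hermite–Minkowski.

`Γ = G_ℚ` acts on `J`; `A : Rep (ZMod p) G_ℚ` is the `p`-torsion of `J` (`ι : A → J` injective,
equivariant, with image `J[p]`).  For `x ∈ J^Γ` and `p • y = x` the Kummer cocycle
`σ ↦ σ y − y ∈ J[p]` is a cocycle of `A`, level-constant for the tower `towerS T` of the fields
unramified outside `T` (by (open) + (unr): `Stab(y) = Gal(ℚ̄/E_y)`, `E_y` unramified outside `T`).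
If `H¹_lev(G_{ℚ,T}, A)` is FINITE (`Fermat.Agent.TW.G.stmtLevFin`, on main, `p` odd, `p ∈ T`), the
Kummer map `J^Γ → H¹_lev` has fibres in cosets of `p J^Γ`, so `p J^Γ` has finite index.

* `s17wc_stab_mem_lev` : (open) + (unr) ⇒ `Stab(y) ∈ (towerS T).lev`;
* `s17wc_trivOnLevel`  : `A` is trivial on a level of `towerS T`;
* `s17wc_weak_abs`     : the abstract weak Mordell–Weil statement, given the finiteness of `H¹_lev`.
-/
import Fermat.Agent.S17.KumAbs
import Fermat.Agent.PT.B.Towers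
import Mathlib.FieldTheory.Galois.Infinite
import Mathlib.FieldTheory.KrullTopology

set_option autoImplicit false
set_option linter.style.haveILetI false

namespace Fermat.Agent.S17

open Fermat.Agent.PT Fermat.Agent.PT.B groupCohomology

section abstract

variable {J : Type*} [AddCommGroup J] [DistribMulAction GQ J]

/-- (open) + (unr) ⇒ the stabiliser of `y` is the group of a number field unramified outside
`T`. -/
theorem s17wc_stab_mem_lev (T : Finset Nat.Primes) (y : J)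
    (hopen : ∃ E : IntermediateField ℚ (AlgebraicClosure ℚ), FiniteDimensional ℚ E ∧
      ∀ σ ∈ E.fixingSubgroup, σ • y = y)
    (hunr : ∀ q : Nat.Primes, q ∉ T → ∀ A : ValuationSubring (AlgebraicClosure ℚ),
      A.LiesOverPrime (q : ℕ) → ∀ σ ∈ A.inertiaSubgroupIn ℚ, σ • y = y) :
    MulAction.stabilizer GQ y ∈ (towerS T).lev := by
  haveI : IsAlgClosure ℚ (AlgebraicClosure ℚ) := ⟨inferInstance, AlgebraicClosure.isAlgebraic ℚ⟩
  haveI : IsGalois ℚ (AlgebraicClosure ℚ) := inferInstance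
  obtain ⟨E₀, hE₀, hE₀y⟩ := hopen
  have hle : E₀.fixingSubgroup ≤ MulAction.stabilizer GQ y :=
    fun σ hσ => MulAction.mem_stabilizer_iff.2 (hE₀y σ hσ)
  have hE₀open : IsOpen (E₀.fixingSubgroup : Set GQ) :=
    (InfiniteGalois.isOpen_iff_finite E₀).2 hE₀
  have hopenS : IsOpen ((MulAction.stabilizer GQ y : Subgroup GQ) : Set GQ) :=
    Subgroup.isOpen_mono hle hE₀open
  have hclosed := Subgroup.isClosed_of_isOpen _ hopenS
  set H : ClosedSubgroup GQ := ⟨MulAction.stabilizer GQ y, hclosed⟩ with hH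
  set Ey : IntermediateField ℚ (AlgebraicClosure ℚ) :=
    IntermediateField.fixedField H.toSubgroup with hEy
  have hfix : Ey.fixingSubgroup = MulAction.stabilizer GQ y :=
    InfiniteGalois.fixingSubgroup_fixedField H
  have hfd : FiniteDimensional ℚ Ey := by
    rw [← InfiniteGalois.isOpen_iff_finite]
    show IsOpen (Ey.fixingSubgroup : Set GQ)
    rw [hfix]
    exact hopenS
  refine ⟨Ey, ⟨hfd, fun q hq A hA σ hσ => ?_⟩, hfix.symm⟩
  rw [hfix]
  exact MulAction.mem_stabilizer_iff.2 (hunr q hq A hA σ hσ)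

/-- a finite intersection of levels is a level. -/
theorem s17wc_iInf_mem_lev {G : Type} [Group G] (𝒯 : Tower G) {α : Type*} (s : Finset α)
    (f : α → Subgroup G) (hf : ∀ a ∈ s, f a ∈ 𝒯.lev) : (⨅ a ∈ s, f a) ∈ 𝒯.lev := by
  classical
  induction s using Finset.induction_on with
  | empty => simpa using 𝒯.top_mem
  | insert a s ha ih =>
    rw [Finset.iInf_insert]
    exact 𝒯.inf_mem _ _ (hf a (Finset.mem_insert_self a s))
      (ih fun b hb => hf b (Finset.mem_insert_of_mem hb))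

variable (p : ℕ) [Fact p.Prime] (T : Finset Nat.Primes) (A : Rep.{0} (ZMod p) GQ)
  (ι : A.V →+ J) (hι : Function.Injective ι)
  (hιe : ∀ (σ : GQ) (a : A.V), ι (A.ρ σ a) = σ • ι a)

include hι hιe in
/-- `A` is trivial on a level of `towerS T`. -/
theorem s17wc_trivOnLevel [Finite A.V]
    (hopen : ∀ y : J, ∃ E : IntermediateField ℚ (AlgebraicClosure ℚ), FiniteDimensional ℚ E ∧
      ∀ σ ∈ E.fixingSubgroup, σ • y = y)
    (hunr : ∀ y : J, p • y ∈ FixedPoints.addSubgroup GQ J → ∀ q : Nat.Primes, q ∉ T →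
      ∀ A' : ValuationSubring (AlgebraicClosure ℚ), A'.LiesOverPrime (q : ℕ) →
      ∀ σ ∈ A'.inertiaSubgroupIn ℚ, σ • y = y) :
    ∃ U ∈ (towerS T).lev, ∀ s ∈ U, A.ρ s = 1 := by
  classical
  haveI : Fintype A.V := Fintype.ofFinite _
  have hp0 : ∀ a : A.V, p • ι a ∈ FixedPoints.addSubgroup GQ J := by
    intro a
    have h0 : p • a = 0 := by
      rw [← Nat.cast_smul_eq_nsmul (ZMod p) p a, ZMod.natCast_self, zero_smul]
    rw [← map_nsmul, h0, map_zero]
    exact (FixedPoints.addSubgroup GQ J).zero_mem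
  refine ⟨⨅ a ∈ (Finset.univ : Finset A.V), MulAction.stabilizer GQ (ι a),
    s17wc_iInf_mem_lev _ _ _ fun a _ =>
      s17wc_stab_mem_lev T (ι a) (hopen _) (hunr _ (hp0 a)), ?_⟩
  intro s hs
  ext a
  apply hι
  have h1 : s ∈ MulAction.stabilizer GQ (ι a) := by
    have := Subgroup.mem_iInf.1 hs a
    exact Subgroup.mem_iInf.1 this (Finset.mem_univ a)
  rw [hιe]
  simpa using MulAction.mem_stabilizer_iff.1 h1

include hι hιe in
/-- **W2′**, abstract form: weak Mordell–Weil for `p` from the finiteness of `H¹_lev`. -/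
theorem s17wc_weak_abs (hfin : Finite ↥(levH1 (towerS T) A))
    (hιr : ∀ t : J, p • t = 0 → ∃ a : A.V, ι a = t)
    (hdiv : ∀ x ∈ FixedPoints.addSubgroup GQ J, ∃ y : J, p • y = x)
    (hopen : ∀ y : J, ∃ E : IntermediateField ℚ (AlgebraicClosure ℚ), FiniteDimensional ℚ E ∧
      ∀ σ ∈ E.fixingSubgroup, σ • y = y)
    (hunr : ∀ y : J, p • y ∈ FixedPoints.addSubgroup GQ J → ∀ q : Nat.Primes, q ∉ T →
      ∀ A' : ValuationSubring (AlgebraicClosure ℚ), A'.LiesOverPrime (q : ℕ) →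
      ∀ σ ∈ A'.inertiaSubgroupIn ℚ, σ • y = y) :
    (nsmulAddMonoidHom (α := ↥(FixedPoints.addSubgroup GQ J)) p).range.FiniteIndex := by
  classical
  choose y hy using fun x : ↥(FixedPoints.addSubgroup GQ J) => hdiv x.1 x.2
  have hyG : ∀ x : ↥(FixedPoints.addSubgroup GQ J), p • y x ∈ FixedPoints.addSubgroup GQ J :=
    fun x => by rw [hy x]; exact x.2
  have hmem : ∀ (x : ↥(FixedPoints.addSubgroup GQ J)) (σ : GQ), p • (σ • y x - y x) = 0 := by
    intro x σ
    rw [smul_sub, ← smul_comm σ p (y x), hyG x σ, sub_self]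
  choose c hc using fun (x : ↥(FixedPoints.addSubgroup GQ J)) (σ : GQ) => hιr _ (hmem x σ)
  have hcoc : ∀ x : ↥(FixedPoints.addSubgroup GQ J), (c x) ∈ cocycles₁ A := by
    intro x
    rw [mem_cocycles₁_iff]
    intro g h
    apply hι
    rw [map_add, hιe, hc, hc, hc, mul_smul, smul_sub]
    abel
  have hlev : ∀ x : ↥(FixedPoints.addSubgroup GQ J), IsLevel₁ (towerS T) (c x) := by
    intro x
    refine ⟨MulAction.stabilizer GQ (y x),
      s17wc_stab_mem_lev T (y x) (hopen _) (hunr _ (hyG x)), ?_⟩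
    intro g s hs
    apply hι
    rw [hc, hc, mul_smul, MulAction.mem_stabilizer_iff.1 hs]
  let φ : ↥(FixedPoints.addSubgroup GQ J) → ↥(levH1 (towerS T) A) :=
    fun x => ⟨(H1π A).hom ⟨c x, hcoc x⟩,
      (mem_levH1_iff (towerS T) A _).2 ⟨⟨c x, hcoc x⟩, hlev x, rfl⟩⟩
  refine s17ka_finiteIndex_of_map _ φ ?_
  intro x x' hxx'
  have h1 : (H1π A).hom ⟨c x, hcoc x⟩ = (H1π A).hom ⟨c x', hcoc x'⟩ :=
    congrArg Subtype.val hxx'
  have h2 := (H1π_eq_iff (⟨c x, hcoc x⟩ : cocycles₁ A) ⟨c x', hcoc x'⟩).1 h1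
  obtain ⟨a, ha⟩ := h2
  have ha' : ∀ g : GQ, A.ρ g a - a = c x g - c x' g := fun g => congrFun ha g
  have hpa : p • ι a = 0 := by
    have h0 : p • a = 0 := by
      rw [← Nat.cast_smul_eq_nsmul (ZMod p) p a, ZMod.natCast_self, zero_smul]
    rw [← map_nsmul, h0, map_zero]
  have hz : ∀ σ : GQ, σ • (y x - y x' - ι a) = y x - y x' - ι a := by
    intro σ
    have h3 := congrArg ι (ha' σ)
    rw [map_sub, map_sub, hιe, hc, hc] at h3
    rw [smul_sub, smul_sub]
    have : σ • y x - σ • y x' - σ • ι a - (y x - y x' - ι a)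
        = (σ • y x - y x - (σ • y x' - y x')) - (σ • ι a - ι a) := by abel
    rw [← sub_eq_zero, this, h3, sub_self]
  refine ⟨⟨y x - y x' - ι a, hz⟩, ?_⟩
  apply Subtype.ext
  show p • (y x - y x' - ι a) = (x - x' : ↥(FixedPoints.addSubgroup GQ J)).1
  rw [smul_sub, smul_sub, hy x, hy x', hpa, sub_zero]
  rfl

end abstract

end Fermat.Agent.S17
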