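/-
S17 sprint, block W (weak Mordell–Weil), leaf **W1** (helper29):
(open) + (unr) + (tors) + (HM) ⇒ (fin) = `S17kaFin N m`.

`Γ = Gal(ℚ̄/ℚ)` acts on the abelian group `J`.  For `y : J` with `m • y ∈ J^Γ`:
* the stabiliser `Stab(y)` is OPEN (it contains `Gal(ℚ̄/E)`, `E` a number field: (open)), hence
  closed, hence `Stab(y) = Gal(ℚ̄/E_y)` with `E_y := ℚ̄^{Stab(y)}` (infinite Galois theory);
* `[E_y : ℚ] = [Γ : Stab(y)] = #orbit(y) ≤ #J[m]` (the orbit lies in `y + J[m]`): (tors);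
* `E_y` is unramified outside `S`: every inertia group over `ℓ ∉ S` lies in `Stab(y)`: (unr);
* by (HM) (Hermite–Minkowski, inertia form) there are only finitely many such fields, so the
  intersection `Δ` of their groups `Gal(ℚ̄/E)` has finite index and fixes every `y`.

Statements:
* `S17wfHM S d`   : (HM), the set of number fields `E ⊂ ℚ̄` of degree `≤ d` whose groups contain
                    all inertia groups over the primes outside `S` is finite;
* `s17wf_fin_abs` : the abstract statement (any `J`);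
* `s17wf_kaFin`   : `S17kaFin N m` for `J₀(N)`, `S` = the prime divisors of `m * N`, with (unr) in
                    the literal shape of `s17h90u_unr` (helper18) and (tors) = `S17kaTors N m`.
-/
import Fermat.Agent.S17.KumAbs
import Fermat.Prelude.Def_FLTPrelim_Ramification
import Mathlib.FieldTheory.Galois.Infinite
import Mathlib.FieldTheory.KrullTopology

set_option linter.style.haveILetI false

set_option autoImplicit false

namespace Fermat.Agent.S17

open ModularCurve AlgebraicCurve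

/-- **(HM)** Hermite–Minkowski, inertia form: finitely many number fields `E ⊂ ℚ̄` of degree
`≤ d` unramified outside `S`. -/
def S17wfHM (S : Finset ℕ) (d : ℕ) : Prop :=
  {E : IntermediateField ℚ (AlgebraicClosure ℚ) | FiniteDimensional ℚ E ∧
    Module.finrank ℚ E ≤ d ∧
    ∀ ℓ : ℕ, ℓ.Prime → ℓ ∉ S → ∀ A : ValuationSubring (AlgebraicClosure ℚ), A.LiesOverPrime ℓ →
      A.inertiaSubgroupIn ℚ ≤ E.fixingSubgroup}.Finite

section abstract

variable {J : Type*} [AddCommGroup J]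
  [DistribMulAction (AlgebraicClosure ℚ ≃ₐ[ℚ] AlgebraicClosure ℚ) J]

/-- the orbit of an `m`-division point of a fixed point lies in `y + J[m]`. -/
theorem s17wf_index_le (m : ℕ) (htors : {t : J | m • t = 0}.Finite) (y : J)
    (hy : m • y ∈ FixedPoints.addSubgroup (AlgebraicClosure ℚ ≃ₐ[ℚ] AlgebraicClosure ℚ) J) :
    (MulAction.stabilizer (AlgebraicClosure ℚ ≃ₐ[ℚ] AlgebraicClosure ℚ) y).index
      ≤ {t : J | m • t = 0}.ncard := by
  rw [MulAction.index_stabilizer]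
  have hsub : MulAction.orbit (AlgebraicClosure ℚ ≃ₐ[ℚ] AlgebraicClosure ℚ) y
      ⊆ (fun t => y + t) '' {t : J | m • t = 0} := by
    rintro _ ⟨σ, rfl⟩
    refine ⟨σ • y - y, ?_, by simp⟩
    show m • (σ • y - y) = 0
    rw [smul_sub, ← smul_comm σ m y, hy σ, sub_self]
  exact (Set.ncard_le_ncard hsub (htors.image _)).trans (Set.ncard_image_le htors)

/-- the group of a number field has finite index. -/
theorem s17wf_finiteIndex (E : IntermediateField ℚ (AlgebraicClosure ℚ))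
    [FiniteDimensional ℚ E] : E.fixingSubgroup.FiniteIndex := by
  haveI : IsAlgClosure ℚ (AlgebraicClosure ℚ) := ⟨inferInstance, AlgebraicClosure.isAlgebraic ℚ⟩
  haveI : IsGalois ℚ (AlgebraicClosure ℚ) := inferInstance
  refine ⟨?_⟩
  rw [← IntermediateField.finrank_eq_fixingSubgroup_index]
  exact (Module.finrank_pos (R := ℚ) (M := E)).ne'

/-- **W1**, abstract form. -/
theorem s17wf_fin_abs (m : ℕ) (S : Finset ℕ) (htors : {t : J | m • t = 0}.Finite)
    (hopen : ∀ y : J, ∃ E : IntermediateField ℚ (AlgebraicClosure ℚ), FiniteDimensional ℚ E ∧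
      ∀ σ ∈ E.fixingSubgroup, σ • y = y)
    (hunr : ∀ y : J,
      m • y ∈ FixedPoints.addSubgroup (AlgebraicClosure ℚ ≃ₐ[ℚ] AlgebraicClosure ℚ) J →
      ∀ ℓ : ℕ, ℓ.Prime → ℓ ∉ S → ∀ A : ValuationSubring (AlgebraicClosure ℚ),
        A.LiesOverPrime ℓ → ∀ σ ∈ A.inertiaSubgroupIn ℚ, σ • y = y)
    (hHM : S17wfHM S {t : J | m • t = 0}.ncard) :
    ∃ Δ : Subgroup (AlgebraicClosure ℚ ≃ₐ[ℚ] AlgebraicClosure ℚ), Δ.FiniteIndex ∧
      ∀ y : J,
        m • y ∈ FixedPoints.addSubgroup (AlgebraicClosure ℚ ≃ₐ[ℚ] AlgebraicClosure ℚ) J →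
        ∀ δ ∈ Δ, δ • y = y := by
  classical
  haveI : IsAlgClosure ℚ (AlgebraicClosure ℚ) := ⟨inferInstance, AlgebraicClosure.isAlgebraic ℚ⟩
  haveI : IsGalois ℚ (AlgebraicClosure ℚ) := inferInstance
  -- the finite family of fields
  set 𝓕 : Set (IntermediateField ℚ (AlgebraicClosure ℚ)) :=
    {E : IntermediateField ℚ (AlgebraicClosure ℚ) | FiniteDimensional ℚ E ∧
      Module.finrank ℚ E ≤ {t : J | m • t = 0}.ncard ∧
      ∀ ℓ : ℕ, ℓ.Prime → ℓ ∉ S → ∀ A : ValuationSubring (AlgebraicClosure ℚ), A.LiesOverPrime ℓ →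
        A.inertiaSubgroupIn ℚ ≤ E.fixingSubgroup} with h𝓕
  have hfin𝓕 : Finite ↥𝓕 := Set.Finite.to_subtype hHM
  refine ⟨⨅ E : ↥𝓕, (E : IntermediateField ℚ (AlgebraicClosure ℚ)).fixingSubgroup, ?_, ?_⟩
  · refine Subgroup.finiteIndex_iInf fun E => ?_
    haveI : FiniteDimensional ℚ (E : IntermediateField ℚ (AlgebraicClosure ℚ)) := E.2.1
    exact s17wf_finiteIndex _
  · intro y hy δ hδ
    -- the stabiliser is open, hence closed
    obtain ⟨E₀, hE₀, hE₀y⟩ := hopen y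
    have hle : E₀.fixingSubgroup
        ≤ MulAction.stabilizer (AlgebraicClosure ℚ ≃ₐ[ℚ] AlgebraicClosure ℚ) y :=
      fun σ hσ => MulAction.mem_stabilizer_iff.2 (hE₀y σ hσ)
    have hE₀open : IsOpen (E₀.fixingSubgroup :
        Set (AlgebraicClosure ℚ ≃ₐ[ℚ] AlgebraicClosure ℚ)) :=
      (InfiniteGalois.isOpen_iff_finite E₀).2 hE₀
    have hopenS : IsOpen ((MulAction.stabilizer (AlgebraicClosure ℚ ≃ₐ[ℚ] AlgebraicClosure ℚ) y :
        Subgroup (AlgebraicClosure ℚ ≃ₐ[ℚ] AlgebraicClosure ℚ)) :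
        Set (AlgebraicClosure ℚ ≃ₐ[ℚ] AlgebraicClosure ℚ)) :=
      Subgroup.isOpen_mono hle hE₀open
    have hclosed := Subgroup.isClosed_of_isOpen _ hopenS
    set H : ClosedSubgroup (AlgebraicClosure ℚ ≃ₐ[ℚ] AlgebraicClosure ℚ) :=
      ⟨MulAction.stabilizer (AlgebraicClosure ℚ ≃ₐ[ℚ] AlgebraicClosure ℚ) y, hclosed⟩ with hH
    set Ey : IntermediateField ℚ (AlgebraicClosure ℚ) :=
      IntermediateField.fixedField H.toSubgroup with hEy
    have hfix : Ey.fixingSubgroup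
        = MulAction.stabilizer (AlgebraicClosure ℚ ≃ₐ[ℚ] AlgebraicClosure ℚ) y :=
      InfiniteGalois.fixingSubgroup_fixedField H
    have hfd : FiniteDimensional ℚ Ey := by
      rw [← InfiniteGalois.isOpen_iff_finite]
      show IsOpen (Ey.fixingSubgroup : Set (AlgebraicClosure ℚ ≃ₐ[ℚ] AlgebraicClosure ℚ))
      rw [hfix]
      exact hopenS
    have hmem : Ey ∈ 𝓕 := by
      refine ⟨hfd, ?_, ?_⟩
      · rw [IntermediateField.finrank_eq_fixingSubgroup_index, hfix]
        exact s17wf_index_le m htors y hy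
      · intro ℓ hℓ hℓS A hA σ hσ
        rw [hfix]
        exact MulAction.mem_stabilizer_iff.2 (hunr y hy ℓ hℓ hℓS A hA σ hσ)
    have h1 : δ ∈ Ey.fixingSubgroup := by
      have := (Subgroup.mem_iInf.1 hδ) ⟨Ey, hmem⟩
      exact this
    rw [hfix] at h1
    exact MulAction.mem_stabilizer_iff.1 h1

end abstract

/-- **W1** for `J₀(N)`: (open) + (unr) + (tors) + (HM) ⇒ `S17kaFin N m`.
`S` = the prime divisors of `m * N`; (unr) is the literal conclusion of `s17h90u_unr`. -/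
theorem s17wf_kaFin (N : ℕ) [NeZero N] (m : ℕ) (hm : m ≠ 0) (htors : S17kaTors N m)
    (hopen : ∀ y : JZero N, ∃ E : IntermediateField ℚ (AlgebraicClosure ℚ),
      FiniteDimensional ℚ E ∧ ∀ σ ∈ E.fixingSubgroup, σ • y = y)
    (hunr : ∀ y : JZero N,
      m • y ∈ FixedPoints.addSubgroup (AlgebraicClosure ℚ ≃ₐ[ℚ] AlgebraicClosure ℚ) (JZero N) →
      ∀ ℓ : ℕ, ℓ.Prime → ¬ ℓ ∣ m * N → ∀ A : ValuationSubring (AlgebraicClosure ℚ),
        A.LiesOverPrime ℓ → ∀ σ ∈ A.inertiaSubgroupIn ℚ, σ • y = y)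
    (hHM : ∀ (S : Finset ℕ) (d : ℕ), S17wfHM S d) :
    S17kaFin N m := by
  refine s17wf_fin_abs m (m * N).primeFactors htors hopen ?_ (hHM _ _)
  intro y hy ℓ hℓ hℓS A hA σ hσ
  refine hunr y hy ℓ hℓ ?_ A hA σ hσ
  intro hdvd
  exact hℓS (Nat.mem_primeFactors.2 ⟨hℓ, hdvd, Nat.mul_ne_zero hm (NeZero.ne N)⟩)

end Fermat.Agent.S17
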