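/-
S17 sprint, block W (weak Mordell–Weil), piece **W-ALG** (helper29): the KUMMER COUNT.

`G` acts on the abelian group `A`; `Γ = A^G`.  If `A[m]` is finite and there is a subgroup `H ≤ G`
of FINITE INDEX such that every `P ∈ Γ` has an `m`-th root `Q` (`m • Q = P`) fixed by `H`
(i.e. the field `ℚ(m⁻¹ Γ)` is a FINITE extension), then `m Γ` has finite index in `Γ`.

* `s17wa_finiteIndex` : the abstract statement;
* `s17wa_isWeak`      : the form for `J₀(N)`: it yields `S17IsWeak N m` (input of `s17_top`).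
-/
import Fermat.Agent.S17.Top

set_option autoImplicit false

namespace Fermat.Agent.S17

open ModularCurve AlgebraicCurve

/-- **W-ALG** (Kummer count), abstract form. -/
theorem s17wa_finiteIndex {G A : Type*} [Group G] [AddCommGroup A] [DistribMulAction G A]
    (m : ℕ) (H : Subgroup G) [H.FiniteIndex] (hfin : Finite {x : A // m • x = 0})
    (hroot : ∀ P : A, (∀ g : G, g • P = P) → ∃ Q : A, m • Q = P ∧ ∀ h ∈ H, h • Q = Q) :
    (nsmulAddMonoidHom (α := ↥(FixedPoints.addSubgroup G A)) m).range.FiniteIndex := by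
  classical
  set R : AddSubgroup ↥(FixedPoints.addSubgroup G A) :=
    (nsmulAddMonoidHom (α := ↥(FixedPoints.addSubgroup G A)) m).range with hR
  have hfix : ∀ P : ↥(FixedPoints.addSubgroup G A), ∀ g : G, g • (P : A) = P := fun P g => P.2 g
  choose Q hQm hQH using fun P : ↥(FixedPoints.addSubgroup G A) => hroot (P : A) (hfix P)
  -- the cocycle of `P`, as a function on `G ⧸ H`
  have hc : ∀ (P : ↥(FixedPoints.addSubgroup G A)) (σ : G), m • (σ • Q P - Q P) = 0 := by
    intro P σ
    rw [smul_sub, ← smul_comm σ m (Q P), hQm, hfix P σ, sub_self]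
  let c : ↥(FixedPoints.addSubgroup G A) → (G ⧸ H → {x : A // m • x = 0}) :=
    fun P γ => ⟨γ.out • Q P - Q P, hc P γ.out⟩
  have hσ : ∀ (P : ↥(FixedPoints.addSubgroup G A)) (σ : G),
      σ • Q P = (QuotientGroup.mk σ : G ⧸ H).out • Q P := by
    intro P σ
    have h1 : ((QuotientGroup.mk σ : G ⧸ H).out)⁻¹ * σ ∈ H := by
      rw [← QuotientGroup.eq]
      exact QuotientGroup.out_eq' _
    have h2 := hQH P _ h1
    rw [mul_smul] at h2
    calc σ • Q P = (QuotientGroup.mk σ : G ⧸ H).out •
          (((QuotientGroup.mk σ : G ⧸ H).out)⁻¹ • σ • Q P) := by rw [smul_inv_smul]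
      _ = (QuotientGroup.mk σ : G ⧸ H).out • Q P := by rw [h2]
  have hker : ∀ P P' : ↥(FixedPoints.addSubgroup G A), c P = c P' → P - P' ∈ R := by
    intro P P' h
    have hfixd : ∀ σ : G, σ • (Q P - Q P') = Q P - Q P' := by
      intro σ
      have h3 := congrArg Subtype.val (congrFun h (QuotientGroup.mk σ))
      simp only [c] at h3
      rw [smul_sub, hσ P σ, hσ P' σ]
      have : (QuotientGroup.mk σ : G ⧸ H).out • Q P - (QuotientGroup.mk σ : G ⧸ H).out • Q P'
          = ((QuotientGroup.mk σ : G ⧸ H).out • Q P - Q P)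
            - ((QuotientGroup.mk σ : G ⧸ H).out • Q P' - Q P') + (Q P - Q P') := by abel
      rw [this, h3, sub_self, zero_add]
    refine ⟨⟨Q P - Q P', hfixd⟩, ?_⟩
    apply Subtype.ext
    simp only [nsmulAddMonoidHom_apply, AddSubgroup.coe_nsmul, AddSubgroup.coe_sub]
    rw [smul_sub, hQm, hQm]
  have : Finite (G ⧸ H) := Subgroup.finite_quotient_of_finiteIndex
  have : Finite (G ⧸ H → {x : A // m • x = 0}) := Pi.finite
  have hinj : Function.Injective
      (fun x : ↥(FixedPoints.addSubgroup G A) ⧸ R => c x.out) := by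
    intro x y hxy
    have h4 := hker _ _ hxy
    have h5 : (QuotientAddGroup.mk x.out : ↥(FixedPoints.addSubgroup G A) ⧸ R)
        = QuotientAddGroup.mk y.out := by
      rw [QuotientAddGroup.eq]
      have : -x.out + y.out = -(x.out - y.out) := by abel
      rw [this]
      exact R.neg_mem h4
    rwa [QuotientAddGroup.out_eq', QuotientAddGroup.out_eq'] at h5
  have : Finite (↥(FixedPoints.addSubgroup G A) ⧸ R) := Finite.of_injective _ hinj
  exact AddSubgroup.finiteIndex_of_finite_quotient

/-- **W-ALG** for `J₀(N)`: a finite-index subgroup `H` of `G_ℚ` fixing an `m`-th root of every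
rational point, and finiteness of `J₀(N)[m]`, give WEAK Mordell–Weil for `m`. -/
theorem s17wa_isWeak (N : ℕ) [NeZero N] (m : ℕ)
    (H : Subgroup ((AlgebraicClosure ℚ) ≃ₐ[ℚ] (AlgebraicClosure ℚ))) [H.FiniteIndex]
    (hfin : Finite {x : JZero N // m • x = 0})
    (hroot : ∀ P : JZero N, (∀ g : (AlgebraicClosure ℚ) ≃ₐ[ℚ] (AlgebraicClosure ℚ), g • P = P) →
      ∃ Q : JZero N, m • Q = P ∧ ∀ h ∈ H, h • Q = Q) :
    S17IsWeak N m :=
  s17wa_finiteIndex m H hfin hroot

end Fermat.Agent.S17
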