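/-
S17 sprint, layer W, ASSEMBLY for the multiplier `m = 3` (helper4): **weak Mordell–Weil for
`J₀(N)` from (div) + (open) ALONE** — no Hermite–Minkowski, no Selmer group.

Landed inputs wired here:
* helper74  `s17kh_weak`        (S17/KumH1.lean): LevFin + (div) + (tors) + (lev) ⇒ `S17IsWeak N p`;
* helper54  `TW.G.stmtLevFin`   (TW/G/LevFin.lean): `H¹(G_{ℚ,T}, A)` is finite (`p` odd, `p ∈ T`);
* helper77/81 `s17to_tors`      (S17/Tors.lean): `J₀(N)[ℓ]` is finite (from the frozen S27);
* helper18/94 `s17h90u_unr`     (S17/H90Unr.lean): every `m`-division point of a rational class is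
                                fixed by the inertia groups over the primes `ℓ ∤ m N`;
* helper4   `s17lu_level`       (S17/LevOfUnr.lean): stabilisers are levels of `towerS T`.

* `s17wl_lev`    : (open) ⇒ (lev) `S17khLev N m T`, `T` = the primes dividing `m * N`;
* `s17wl_weak`   : (div) + (open) ⇒ `S17IsWeak N p` for every odd prime `p`;
* `s17wl_weak3`  : (div) + (open) ⇒ `S17IsWeak N 3`.
So the W layer is reduced to W4 (open) `S17luOpen N` and W6 (div) `S17kaDiv N 3`.
-/
import Fermat.Agent.S17.KumH1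
import Fermat.Agent.S17.LevOfUnr
import Fermat.Agent.S17.H90Unr
import Fermat.Agent.S17.Tors
import Fermat.Agent.TW.G.LevFin

set_option autoImplicit false
set_option linter.unusedVariables false
set_option linter.unusedSectionVars false
set_option linter.style.haveILetI false

noncomputable section

namespace Fermat.Agent.S17

open ModularCurve AlgebraicCurve Fermat.Agent.PT Fermat.Agent.PT.B ExtCitation

/-- **(open) ⇒ (lev)**, unconditional in (unr). -/
theorem s17wl_lev (N : ℕ) [NeZero N] (m : ℕ) (hm : m ≠ 0) (hopen : S17luOpen N) :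
    S17khLev N m (s17luT (m * N)) := by
  intro y hy
  obtain ⟨E, hE, hEy⟩ := hopen y
  have hmem : MulAction.stabilizer GQ y ∈ (towerS (s17luT (m * N))).lev := by
    refine s17lu_level _ _ E hE (fun σ hσ => MulAction.mem_stabilizer_iff.2 (hEy σ hσ)) ?_
    intro q hq A hA σ hσ
    refine MulAction.mem_stabilizer_iff.2 (s17h90u_unr N m y hy q q.2 ?_ A hA σ hσ)
    intro hdvd
    exact hq ((s17lu_mem_T (m * N) (mul_ne_zero hm (NeZero.ne N)) q).2 hdvd)
  obtain ⟨F, hF, hFs⟩ := hmem
  refine ⟨F, hF, fun σ hσ => ?_⟩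
  rw [← hFs] at hσ
  exact MulAction.mem_stabilizer_iff.1 hσ

/-- **weak Mordell–Weil from (div) + (open)**, `p` an odd prime. -/
theorem s17wl_weak (N : ℕ) [NeZero N] (p : ℕ) [Fact p.Prime] (hp2 : p ≠ 2)
    (hdiv : S17kaDiv N p) (hopen : S17luOpen N) : S17IsWeak N p := by
  have hp0 : p ≠ 0 := (Fact.out : p.Prime).ne_zero
  have hpT : pPrime p ∈ s17luT (p * N) :=
    (s17lu_mem_T (p * N) (mul_ne_zero hp0 (NeZero.ne N)) (pPrime p)).2 (Dvd.intro N rfl)
  refine s17kh_weak N p (s17luT (p * N)) ?_ hdiv (s17to_tors N p) (s17wl_lev N p hp0 hopen)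
  intro A _ hA
  exact Fermat.Agent.TW.G.stmtLevFin p hp2 (s17luT (p * N)) hpT A hA

/-- **weak Mordell–Weil for the multiplier `3` from (div) + (open).** -/
theorem s17wl_weak3 (N : ℕ) [NeZero N] (hdiv : S17kaDiv N 3) (hopen : S17luOpen N) :
    S17IsWeak N 3 :=
  haveI : Fact (Nat.Prime 3) := ⟨Nat.prime_three⟩
  s17wl_weak N 3 (by norm_num) hdiv hopen

end Fermat.Agent.S17

end
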